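/-
Stage 3 (project S29) : interface file.  Owner: helper80.

Fixes the SHAPES of the packages of the Stage-3 blueprint and proves the ASSEMBLY
`EigenformSupportAt N p (JZero N)` from them, so that every package owner codes against a
statement that is known to plug in.  Mathlib + Prelude + the S41 cohomological Hecke operators.
-/
import Mathlib
import Fermat.Prelude.Def_ModularCurve_HeckeModule
import Fermat.Prelude.Def_ModularCurve_EigenformIdeal
import Fermat.Prelude.Def_ModularCurve_PeriodMap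
import Fermat.Agent.S41.H85_HeckeGamma0

set_option autoImplicit false

noncomputable section

namespace Fermat.Agent.S29.H80

open ModularCurve AlgebraicCurve ModularCurve.Period CongruenceSubgroup
open Fermat.Agent.S41.H85

/-- The function field of `X₀(N)` with constants `L` (prelude model inside `L((q))`). -/
abbrev FL (L : Type*) [Field L] [Algebra ℚ L] (N : ℕ) :
    IntermediateField L (LaurentSeries L) :=
  laurentBaseChange L (modularFunctionFieldFull N)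

/-- `Pic⁰` of `X₀(N)` with constants `L`.  `JL (AlgebraicClosure ℚ) N = JZero N` by `rfl`. -/
abbrev JL (L : Type*) [Field L] [Algebra ℚ L] (N : ℕ) : Type _ := Pic0 L (FL L N)

example (N : ℕ) : JL (AlgebraicClosure ℚ) N = JZero N := rfl

/-- The lattice `H¹_par(Γ₀(N), ℤ)`. -/
abbrev Lat (N : ℕ) : Type := parabolicHoms ℤ (Gamma0 N) ℤ

open Classical in
/-- The cohomological Hecke operator at the prime `ℓ`: `T_ℓ` if `ℓ ∤ N`, `U_ℓ` if `ℓ ∣ N`
(helper85's `heckeTPar` / `heckeUPar`). -/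
def cohT (N : ℕ) (ℓ : Nat.Primes) : Module.End ℤ (Lat N) :=
  haveI : NeZero (ℓ : ℕ) := ⟨ℓ.2.ne_zero⟩
  if h : (ℓ : ℕ) ∣ N then heckeUPar ℤ ℤ h else heckeTPar ℤ ℤ ℓ.2 h

/-- **Assembly of (T0).**  `JC`, `TC` stand for `Pic⁰(ℂ F_N)` and `heckeOperatorAlong ℂ N ℓ`;
`bc` is the base change `JZero N → JC` (BASECHANGE + DESCENT), `lam` the Kummer–Poincaré map
(KUMMER + HECKE-EQUIV), `ρ` the Hecke action on the lattice and `hcoh` is COH-SUPPORT. -/
theorem eigenformSupportAt_of (N p : ℕ) [NeZero N]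
    (hcomm : HeckeOperatorsCommuteBar N)
    {JC : Type*} [AddCommGroup JC] (TC : Nat.Primes → JC →+ JC)
    (bc : JZero N →+ JC) (hbc_inj : Function.Injective bc)
    (hbc_T : ∀ (ℓ : Nat.Primes) (x : JZero N), bc (heckeOperatorBar N ℓ x) = TC ℓ (bc x))
    (hbc_surj : ∀ y : JC, (p : ℤ) • y = 0 → ∃ x, bc x = y)
    (lam : Lat N →+ JC)
    (hlam_p : ∀ x : Lat N, (p : ℤ) • lam x = 0)
    (hlam_ker : ∀ x : Lat N, lam x = 0 → ∃ y : Lat N, x = (p : ℤ) • y)
    (hlam_T : ∀ (ℓ : Nat.Primes) (x : Lat N), lam (cohT N ℓ x) = TC ℓ (lam x))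
    (ρ : HeckeAlg →+* Module.End ℤ (Lat N))
    (hρ : ∀ ℓ : Nat.Primes, ρ (heckeGen ℓ) = cohT N ℓ)
    (hcoh : ∀ 𝔪 : Ideal HeckeAlg, IsEigenformIdeal N 𝔪 → (p : HeckeAlg) ∈ 𝔪 →
      ∃ x : Lat N, (¬ ∃ y : Lat N, x = (p : ℤ) • y) ∧
        ∀ t ∈ 𝔪, ∃ y : Lat N, ρ t x = (p : ℤ) • y) :
    letI := heckeModuleBar N
    EigenformSupportAt N p (JZero N) := by
  letI := heckeModuleBar N
  intro 𝔪 h𝔪 hp𝔪
  obtain ⟨x, hx, hxt⟩ := hcoh 𝔪 h𝔪 hp𝔪
  -- equivariance of `bc` against `lam` for every Hecke polynomial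
  have key : ∀ t : HeckeAlg, ∀ (z : JZero N) (x' : Lat N), bc z = lam x' →
      bc (t • z) = lam (ρ t x') := by
    intro t
    induction t using MvPolynomial.induction_on with
    | C a =>
      intro z x' h
      rw [heckeModuleBar_C_smul, map_zsmul, h]
      have : ρ (MvPolynomial.C a) = (a : Module.End ℤ (Lat N)) := by
        rw [← MvPolynomial.algebraMap_eq, eq_intCast, map_intCast]
      rw [this, Module.End.intCast_apply, map_zsmul]
    | add s t hs ht =>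
      intro z x' h
      rw [add_smul, map_add, hs z x' h, ht z x' h, map_add, LinearMap.add_apply, map_add]
    | mul_X t ℓ ht =>
      intro z x' h
      have h1 : bc (heckeGen ℓ • z) = lam (ρ (heckeGen ℓ) x') := by
        rw [heckeModuleBar_heckeGen_smul hcomm, hbc_T, h, hρ, hlam_T]
      have h2 := ht (heckeGen ℓ • z) (ρ (heckeGen ℓ) x') h1
      rw [mul_smul, map_mul, Module.End.mul_apply]
      exact h2
  have hne : lam x ≠ 0 := fun h0 => hx (hlam_ker x h0)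
  obtain ⟨z, hz⟩ := hbc_surj (lam x) (hlam_p x)
  have hz0 : z ≠ 0 := by
    rintro rfl
    rw [map_zero] at hz
    exact hne hz.symm
  intro hbot
  apply hz0
  have hmem : z ∈ Submodule.torsionBySet HeckeAlg (JZero N) (𝔪 : Set HeckeAlg) := by
    rw [Submodule.mem_torsionBySet_iff]
    rintro ⟨t, ht⟩
    apply hbc_inj
    obtain ⟨y, hy⟩ := hxt t ht
    show bc (t • z) = bc 0
    rw [key t z x hz, hy, map_zsmul, hlam_p, map_zero]
  rw [hbot] at hmem
  exact (Submodule.mem_bot _).mp hmem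

/-! ### The three package interfaces, concretely (constants `ℂ`) -/

/-- The Hecke correspondence `T_ℓ` / `U_ℓ` on `Pic⁰(L F_N)` for a prime `ℓ` (prelude operator). -/
def TL (L : Type*) [Field L] [Algebra ℚ L] (N : ℕ) [NeZero N] (ℓ : Nat.Primes) :
    JL L N →+ JL L N :=
  haveI : NeZero (ℓ : ℕ) := ⟨ℓ.2.ne_zero⟩
  heckeOperatorAlong L N ℓ

theorem heckeOperatorBar_eq_TL (N : ℕ) [NeZero N] (ℓ : Nat.Primes) (x : JZero N) :
    heckeOperatorBar N ℓ x = TL (AlgebraicClosure ℚ) N ℓ x := rfl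

/-- Package KUMMER-POINCARE (+ HECKE-EQUIV): the injective Hecke-equivariant map
`Lat N / p → Pic⁰(ℂ F_N)[p]`. -/
def KummerPoincare (N p : ℕ) [NeZero N] : Prop :=
  ∃ lam : Lat N →+ JL ℂ N,
    (∀ x : Lat N, (p : ℤ) • lam x = 0) ∧
    (∀ x : Lat N, lam x = 0 → ∃ y : Lat N, x = (p : ℤ) • y) ∧
    ∀ (ℓ : Nat.Primes) (x : Lat N), lam (cohT N ℓ x) = TL ℂ N ℓ (lam x)

/-- Package BASECHANGE + DESCENT: `JZero N → Pic⁰(ℂ F_N)` is injective, Hecke-equivariant and
onto the `p`-torsion. -/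
def BaseChangeDescent (N p : ℕ) [NeZero N] : Prop :=
  ∃ bc : JZero N →+ JL ℂ N, Function.Injective bc ∧
    (∀ (ℓ : Nat.Primes) (x : JZero N), bc (TL (AlgebraicClosure ℚ) N ℓ x) = TL ℂ N ℓ (bc x)) ∧
    ∀ y : JL ℂ N, (p : ℤ) • y = 0 → ∃ x, bc x = y

/-- Package COH-SUPPORT: eigenform ideals containing `p` are in the support of `Lat N / p`. -/
def CohSupport (N p : ℕ) [NeZero N] : Prop :=
  ∃ ρ : HeckeAlg →+* Module.End ℤ (Lat N), (∀ ℓ : Nat.Primes, ρ (heckeGen ℓ) = cohT N ℓ) ∧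
    ∀ 𝔪 : Ideal HeckeAlg, IsEigenformIdeal N 𝔪 → (p : HeckeAlg) ∈ 𝔪 →
      ∃ x : Lat N, (¬ ∃ y : Lat N, x = (p : ℤ) • y) ∧
        ∀ t ∈ 𝔪, ∃ y : Lat N, ρ t x = (p : ℤ) • y

/-- (T0) from the three packages and (T1). -/
theorem eigenformSupportAt_of_packages (N p : ℕ) [NeZero N]
    (hcomm : HeckeOperatorsCommuteBar N)
    (hK : KummerPoincare N p) (hB : BaseChangeDescent N p) (hC : CohSupport N p) :
    letI := heckeModuleBar N
    EigenformSupportAt N p (JZero N) := by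
  obtain ⟨lam, h1, h2, h3⟩ := hK
  obtain ⟨bc, b1, b2, b3⟩ := hB
  obtain ⟨ρ, r1, r2⟩ := hC
  exact eigenformSupportAt_of N p hcomm (TL ℂ N) bc b1 b2 b3 lam h1 h2 h3 ρ r1 r2

end Fermat.Agent.S29.H80
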