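import Mathlib
import Fermat.Prelude.Def_ModularCurve_LaurentCoeff

/-!
# S29 / E5 (descent ℂ → ℚbar), BASECHANGE-INJ part 1 (helper62): field descent

`k ⊆ L` fields (`Algebra k L`, both `ℚ`-algebras), `F₀ ⊆ ℚ((q))`, `Fk := laurentBaseChange k F₀`,
`FL := laurentBaseChange L F₀`.

* (B0) `coeffMap (algebraMap k L)` maps `Fk` into `FL`; `bcField : Fk →+* FL`.
* (B1) **field descent** `FL ∩ k((q)) = Fk`: if `coeffMap (algebraMap k L) x ∈ FL` then `x ∈ Fk`.

Proof of (B1): every element of `FL` is a quotient `a / b` of elements of the `L`-subalgebra `A`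
generated by the image of `Fk`; for every `k`-linear functional `φ : L → k` the coefficientwise
map `coordSeries φ : L((q)) → k((q))` sends `A` into `Fk` and is `Fk`-semilinear, so
`x * coordSeries φ b = coordSeries φ a`, and `coordSeries φ b ≠ 0` for a suitable `φ`.
-/

set_option autoImplicit false

noncomputable section

namespace Fermat.Agent.S29.H62

open ModularCurve HahnSeries

variable {k L : Type*} [Field k] [Field L] [Algebra ℚ k] [Algebra ℚ L] [Algebra k L]
  [IsScalarTower ℚ k L]

/-! ### (B0) the base change map on fields -/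

theorem coeffMap_tower_coeffEmb (x : LaurentSeries ℚ) :
    coeffMap (algebraMap k L) (coeffEmb k x) = coeffEmb L x := by
  rw [coeffEmb, coeffMap_coeffMap]
  exact coeffMap_congr (RingHom.ext fun c => (IsScalarTower.algebraMap_apply ℚ k L c).symm) x

theorem coeffMap_tower_algebraMap (c : k) :
    coeffMap (algebraMap k L) (algebraMap k (LaurentSeries k) c) =
      algebraMap L (LaurentSeries L) (algebraMap k L c) := by
  rw [algebraMap_laurentSeries_eq_single, algebraMap_laurentSeries_eq_single, coeffMap_single]

theorem coeffMap_tower_injective :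
    Function.Injective (coeffMap (algebraMap k L)) := by
  intro x y h
  ext n
  have := congrArg (fun z => z.coeff n) h
  simp only [coeffMap_coeff] at this
  exact (algebraMap k L).injective this

variable (F₀ : IntermediateField ℚ (LaurentSeries ℚ))

theorem coeffMap_tower_mem {x : LaurentSeries k} (hx : x ∈ laurentBaseChange k F₀) :
    coeffMap (algebraMap k L) x ∈ laurentBaseChange L F₀ := by
  rw [mem_laurentBaseChange_iff] at hx
  induction hx using Subfield.closure_induction with
  | mem y hy =>
      rcases hy with ⟨a, rfl⟩ | ⟨z, hz, rfl⟩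
      · rw [coeffMap_tower_algebraMap]
        exact (laurentBaseChange L F₀).algebraMap_mem _
      · rw [coeffMap_tower_coeffEmb]
        exact coeffEmb_mem_laurentBaseChange L hz
  | one => simp
  | add x y _ _ hx hy => simpa using add_mem hx hy
  | neg x _ hx => simpa using neg_mem hx
  | inv x _ hx => simpa using inv_mem hx
  | mul x y _ _ hx hy => simpa using mul_mem hx hy

/-- The base change map `Fk →+* FL` (coefficientwise `algebraMap k L`). -/
def bcField : ↥(laurentBaseChange k F₀) →+* ↥(laurentBaseChange L F₀) where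
  toFun x := ⟨coeffMap (algebraMap k L) (x : LaurentSeries k), coeffMap_tower_mem F₀ x.2⟩
  map_one' := Subtype.ext (map_one _)
  map_mul' x y := Subtype.ext (map_mul _ _ _)
  map_zero' := Subtype.ext (map_zero _)
  map_add' x y := Subtype.ext (map_add _ _ _)

@[simp]
theorem coe_bcField (x : ↥(laurentBaseChange k F₀)) :
    ((bcField (L := L) F₀ x : ↥(laurentBaseChange L F₀)) : LaurentSeries L) =
      coeffMap (algebraMap k L) (x : LaurentSeries k) := rfl

theorem bcField_injective : Function.Injective (bcField (k := k) (L := L) F₀) :=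
  (bcField F₀).injective

theorem bcField_algebraMap (c : k) :
    bcField (k := k) (L := L) F₀ (algebraMap k ↥(laurentBaseChange k F₀) c) =
      algebraMap L ↥(laurentBaseChange L F₀) (algebraMap k L c) :=
  Subtype.ext (coeffMap_tower_algebraMap c)

/-! ### coordinate series -/

/-- Apply a `k`-linear functional `φ : L → k` to every coefficient. -/
def coordSeries (φ : L →ₗ[k] k) : LaurentSeries L →+ LaurentSeries k where
  toFun x := x.map φ
  map_zero' := by ext n; simp
  map_add' x y := by ext n; simp

@[simp]
theorem coordSeries_coeff (φ : L →ₗ[k] k) (x : LaurentSeries L) (n : ℤ) :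
    (coordSeries φ x).coeff n = φ (x.coeff n) := rfl

theorem support_coordSeries_subset (φ : L →ₗ[k] k) (x : LaurentSeries L) :
    (coordSeries φ x).support ⊆ x.support := by
  intro n hn
  rw [HahnSeries.mem_support] at hn ⊢
  intro h
  apply hn
  rw [coordSeries_coeff, h, map_zero]

theorem support_coeffMap_subset (y : LaurentSeries k) :
    (coeffMap (algebraMap k L) y).support ⊆ y.support := by
  intro n hn
  rw [HahnSeries.mem_support] at hn ⊢
  intro h
  apply hn
  rw [coeffMap_coeff, h, map_zero]

/-- `coordSeries φ` is semilinear over series with coefficients in `k`. -/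
theorem coordSeries_coeffMap_mul (φ : L →ₗ[k] k) (y : LaurentSeries k) (s : LaurentSeries L) :
    coordSeries φ (coeffMap (algebraMap k L) y * s) = y * coordSeries φ s := by
  ext n
  rw [coordSeries_coeff,
    HahnSeries.coeff_mul_left' y.isPWO_support (support_coeffMap_subset y),
    HahnSeries.coeff_mul_right' s.isPWO_support (support_coordSeries_subset φ s), map_sum]
  refine Finset.sum_congr rfl fun ij _ => ?_
  rw [coeffMap_coeff, coordSeries_coeff, ← Algebra.smul_def, map_smul, smul_eq_mul]

theorem coordSeries_coeffMap (φ : L →ₗ[k] k) (y : LaurentSeries k) :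
    coordSeries φ (coeffMap (algebraMap k L) y) = y * HahnSeries.C (φ 1) := by
  have h := coordSeries_coeffMap_mul φ y 1
  rw [mul_one] at h
  rw [h]
  congr 1
  ext n
  rw [coordSeries_coeff, HahnSeries.coeff_one]
  show _ = (HahnSeries.single 0 (φ 1)).coeff n
  rw [HahnSeries.coeff_single]
  split_ifs <;> simp

/-- multiplication by a constant of `L` permutes the coordinate maps. -/
theorem coordSeries_algebraMap_mul (φ : L →ₗ[k] k) (c : L) (s : LaurentSeries L) :
    coordSeries φ (algebraMap L (LaurentSeries L) c * s) =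
      coordSeries (φ.comp (LinearMap.mulLeft k c)) s := by
  ext n
  rw [algebraMap_laurentSeries_eq_single, HahnSeries.single_zero_mul_eq_smul, coordSeries_coeff,
    coordSeries_coeff, HahnSeries.coeff_smul]
  rfl

theorem exists_coordSeries_ne_zero {b : LaurentSeries L} (hb : b ≠ 0) :
    ∃ φ : L →ₗ[k] k, coordSeries φ b ≠ 0 := by
  obtain ⟨n, hn⟩ : ∃ n, b.coeff n ≠ 0 := by
    by_contra h
    push Not at h
    exact hb (HahnSeries.ext (funext h))
  obtain ⟨φ, hφ⟩ : ∃ φ : Module.Dual k L, φ (b.coeff n) ≠ 0 := by
    by_contra h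
    push Not at h
    exact hn ((Module.forall_dual_apply_eq_zero_iff k (b.coeff n)).mp h)
  refine ⟨φ, fun h0 => hφ ?_⟩
  have := congrArg (fun z => z.coeff n) h0
  simpa using this

/-! ### the `L`-algebra generated by the image of `Fk` -/

variable (k L) in
/-- the image of `Fk` in `L((q))`. -/
def imageFk : Set (LaurentSeries L) :=
  (coeffMap (algebraMap k L)) '' (laurentBaseChange k F₀ : Set (LaurentSeries k))

variable (k L) in
/-- the `L`-subalgebra of `L((q))` generated by the image of `Fk`. -/
def algFk : Subalgebra L (LaurentSeries L) := Algebra.adjoin L (imageFk k L F₀)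

theorem closure_imageFk :
    ((Submonoid.closure (imageFk k L F₀) : Submonoid (LaurentSeries L)) :
      Set (LaurentSeries L)) = imageFk k L F₀ := by
  apply Set.Subset.antisymm
  · intro x hx
    induction hx using Submonoid.closure_induction with
    | mem x hx => exact hx
    | one => exact ⟨1, one_mem _, map_one _⟩
    | mul x y _ _ hx hy =>
        obtain ⟨x', hx', rfl⟩ := hx
        obtain ⟨y', hy', rfl⟩ := hy
        exact ⟨x' * y', mul_mem hx' hy', map_mul _ _ _⟩
  · exact Submonoid.subset_closure

/-- all coordinate series of an element of the `L`-span of the image of `Fk` lie in `Fk`. -/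
theorem coordSeries_mem_of_mem_span {a : LaurentSeries L}
    (ha : a ∈ @Submodule.span L (LaurentSeries L) _ _ Algebra.toModule (imageFk k L F₀)) :
    ∀ φ : L →ₗ[k] k, coordSeries φ a ∈ laurentBaseChange k F₀ := by
  induction ha using Submodule.span_induction with
  | mem x hx =>
      intro φ
      obtain ⟨y, hy, rfl⟩ := hx
      rw [coordSeries_coeffMap]
      refine mul_mem hy ?_
      have : (HahnSeries.C (φ 1) : LaurentSeries k) = algebraMap k (LaurentSeries k) (φ 1) := by
        rw [algebraMap_laurentSeries_eq_single]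
        rfl
      rw [this]
      exact (laurentBaseChange k F₀).algebraMap_mem _
  | zero =>
      intro φ
      rw [map_zero]
      exact zero_mem _
  | add x y _ _ hx hy =>
      intro φ
      rw [map_add]
      exact add_mem (hx φ) (hy φ)
  | smul c x _ hx =>
      intro φ
      rw [Algebra.smul_def, coordSeries_algebraMap_mul]
      exact hx _

/-- all coordinate series of an element of `algFk` lie in `Fk`. -/
theorem coordSeries_mem_of_mem_algFk {a : LaurentSeries L} (ha : a ∈ algFk k L F₀) :
    ∀ φ : L →ₗ[k] k, coordSeries φ a ∈ laurentBaseChange k F₀ := by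
  have ha' : a ∈ Subalgebra.toSubmodule (Algebra.adjoin L (imageFk k L F₀)) := ha
  rw [Algebra.adjoin_eq_span, closure_imageFk] at ha'
  exact coordSeries_mem_of_mem_span F₀ ha'

theorem coeffMap_mem_algFk {y : LaurentSeries k} (hy : y ∈ laurentBaseChange k F₀) :
    coeffMap (algebraMap k L) y ∈ algFk k L F₀ :=
  Algebra.subset_adjoin ⟨y, hy, rfl⟩

/-- every element of `FL` is a quotient of elements of `algFk`. -/
theorem exists_mul_eq_of_mem {f : LaurentSeries L} (hf : f ∈ laurentBaseChange L F₀) :
    ∃ a ∈ algFk k L F₀, ∃ b ∈ algFk k L F₀, b ≠ 0 ∧ f * b = a := by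
  unfold laurentBaseChange at hf
  induction hf using IntermediateField.adjoin_induction with
  | mem x hx =>
      obtain ⟨y, hy, rfl⟩ := hx
      refine ⟨coeffEmb L y, ?_, 1, one_mem _, one_ne_zero, mul_one _⟩
      rw [← coeffMap_tower_coeffEmb (k := k)]
      exact coeffMap_mem_algFk F₀ (coeffEmb_mem_laurentBaseChange k hy)
  | algebraMap c =>
      exact ⟨_, Subalgebra.algebraMap_mem _ c, 1, one_mem _, one_ne_zero, mul_one _⟩
  | add x y _ _ hx hy =>
      obtain ⟨a, ha, b, hb, hb0, hab⟩ := hx
      obtain ⟨a', ha', b', hb', hb0', hab'⟩ := hy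
      refine ⟨a * b' + a' * b, add_mem (mul_mem ha hb') (mul_mem ha' hb), b * b', mul_mem hb hb',
        mul_ne_zero hb0 hb0', ?_⟩
      rw [← hab, ← hab']
      ring
  | inv x _ hx =>
      obtain ⟨a, ha, b, hb, hb0, hab⟩ := hx
      by_cases hx0 : x = 0
      · subst hx0
        exact ⟨0, zero_mem _, 1, one_mem _, one_ne_zero, by simp⟩
      · have ha0 : a ≠ 0 := by
          rw [← hab]
          exact mul_ne_zero hx0 hb0
        refine ⟨b, hb, a, ha, ha0, ?_⟩
        rw [← hab, ← mul_assoc, inv_mul_cancel₀ hx0, one_mul]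
  | mul x y _ _ hx hy =>
      obtain ⟨a, ha, b, hb, hb0, hab⟩ := hx
      obtain ⟨a', ha', b', hb', hb0', hab'⟩ := hy
      refine ⟨a * a', mul_mem ha ha', b * b', mul_mem hb hb', mul_ne_zero hb0 hb0', ?_⟩
      rw [← hab, ← hab']
      ring

/-- **(B1) field descent**: `FL ∩ k((q)) = Fk`. -/
theorem mem_laurentBaseChange_of_coeffMap_mem {x : LaurentSeries k}
    (h : coeffMap (algebraMap k L) x ∈ laurentBaseChange L F₀) :
    x ∈ laurentBaseChange k F₀ := by
  obtain ⟨a, ha, b, hb, hb0, hab⟩ := exists_mul_eq_of_mem (k := k) F₀ h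
  obtain ⟨φ, hφ⟩ := exists_coordSeries_ne_zero (k := k) hb0
  have h1 : x * coordSeries φ b = coordSeries φ a := by
    rw [← coordSeries_coeffMap_mul, hab]
  have h2 : x = coordSeries φ a * (coordSeries φ b)⁻¹ := by
    rw [← h1, mul_assoc, mul_inv_cancel₀ hφ, mul_one]
  rw [h2]
  exact mul_mem (coordSeries_mem_of_mem_algFk F₀ ha φ)
    (inv_mem (coordSeries_mem_of_mem_algFk F₀ hb φ))

/-- (B1) in terms of `bcField`: an element of `FL` with coefficients in `k` comes from `Fk`. -/
theorem exists_bcField_eq_of_coeffMap_eq {f : ↥(laurentBaseChange L F₀)} {x : LaurentSeries k}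
    (h : (f : LaurentSeries L) = coeffMap (algebraMap k L) x) :
    ∃ g : ↥(laurentBaseChange k F₀), bcField F₀ g = f := by
  have hx : x ∈ laurentBaseChange k F₀ :=
    mem_laurentBaseChange_of_coeffMap_mem F₀ (h ▸ f.2)
  exact ⟨⟨x, hx⟩, Subtype.ext h.symm⟩

end Fermat.Agent.S29.H62
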