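import Mathlib
import Fermat.Agent.S37.H8_HeckeInputsL
import Fermat.Agent.RR.H52_FFInst

/-!
# S29 / (A6): the function-field bank for `FL L M = L(X₀(M))`, `L` algebraically closed

`L` any field with `[Algebra ℚ L] [IsAlgClosed L]` (`L = ℂ` and `L = Qbar` are the instances used),
`FL L M := laurentBaseChange L (modularFunctionFieldFull M)` and `jL L M` its `j`-function
(helper8's names, `Fermat.Agent.S37.H8`).  Everything is stated under the instance hypothesis
`[FiniteDimensional L⟮jL L M⟯ (FL L M)]` (helper8's `finiteDimensional_FL`), and is a direct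
specialisation of the characteristic-free function-field bank `RR/H52_FFInst`.
-/

set_option autoImplicit false

namespace Fermat.Agent.S29.H74

open AlgebraicCurve IntermediateField Fermat.Agent.RR Fermat.Agent.S37.H8

variable (L : Type*) [Field L] [Algebra ℚ L] (M : ℕ) [NeZero M]

/-- `j` is transcendental over `L`. -/
theorem transcendental_j : Transcendental L (jL L M) := transcendental_jL L M

section Bank

variable [FiniteDimensional L⟮jL L M⟯ (FL L M)]

/-- helper43's input bundle for `FL L M`. -/
theorem ffInputs_FL : H43.FFInputs L (FL L M) := H52.ffInputs (jL L M) (transcendental_jL L M)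

/-- helper76's hypothesis bundle of the RR bank for `FL L M`. -/
theorem ffBase_FL : H76.FFBase L (FL L M) := H52.ffBase (jL L M) (transcendental_jL L M)

/-- Principal divisors exist and have degree `0`. -/
theorem hasPrincipalDivisors_FL' : HasPrincipalDivisors L (FL L M) :=
  H52.hasPrincipalDivisors (jL L M) (transcendental_jL L M)

/-- Every non-zero function has finitely many zeros and poles. -/
theorem finite_ord_ne_zero_FL {f : FL L M} (hf : f ≠ 0) :
    {v : Place L (FL L M) | v.ord f ≠ 0}.Finite :=
  (ffInputs_FL L M).finOrd f hf

/-- Residue fields of places are finite over `L`. -/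
theorem finiteResidue_FL (v : Place L (FL L M)) : Module.Finite L v.ResidueField :=
  (ffInputs_FL L M).finRes v

/-- `FL L M` is finite over `L(z)` for every transcendental `z`. -/
theorem finiteDimensional_adjoin_FL {z : FL L M} (hz : Transcendental L z) :
    FiniteDimensional L⟮z⟯ (FL L M) :=
  (ffInputs_FL L M).finAdj z hz

/-- A transcendental function has a pole. -/
theorem exists_place_ord_neg_FL {z : FL L M} (hz : Transcendental L z) :
    ∃ v : Place L (FL L M), v.ord z < 0 :=
  H52.exists_place_ord_neg (jL L M) (transcendental_jL L M) hz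

/-- A transcendental function has a zero. -/
theorem exists_place_ord_pos_FL {z : FL L M} (hz : Transcendental L z) :
    ∃ v : Place L (FL L M), 0 < v.ord z :=
  H52.exists_place_ord_pos (jL L M) (transcendental_jL L M) hz

/-- The divisor of a function. -/
noncomputable def divFL (f : FL L M) : Divisor L (FL L M) := (ffInputs_FL L M).divOf f

@[simp] theorem divFL_apply (f : FL L M) (v : Place L (FL L M)) : divFL L M f v = v.ord f :=
  (ffInputs_FL L M).divOf_apply f v

theorem degree_divFL (f : FL L M) : Divisor.degree (divFL L M f) = 0 :=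
  (ffInputs_FL L M).degree_divOf f

theorem divFL_mem_principal {f : FL L M} (hf : f ≠ 0) :
    divFL L M f ∈ Divisor.principal (K := L) (F := FL L M) :=
  ⟨f, hf, fun v => divFL_apply L M f v⟩

/-- The pole divisor of `j` has degree `[FL L M : L(j)]`. -/
theorem degree_divPole_j :
    Divisor.degree ((ffInputs_FL L M).divPole (jL L M)) =
      (Module.finrank L⟮jL L M⟯ (FL L M) : ℤ) :=
  H52.degree_divPole_eq (jL L M) (transcendental_jL L M) (transcendental_jL L M)

/-- An element is algebraic over `L` iff it has neither zeros nor poles. -/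
theorem forall_ord_eq_zero_iff_isAlgebraic_FL {f : FL L M} :
    (∀ v : Place L (FL L M), v.ord f = 0) ↔ IsAlgebraic L f :=
  H52.forall_ord_eq_zero_iff_isAlgebraic (jL L M) (transcendental_jL L M)

theorem finiteDimensional_riemannRochSpace_FL (D : Divisor L (FL L M)) :
    FiniteDimensional L ↥(riemannRochSpace D) :=
  H52.finiteDimensional_riemannRochSpace (jL L M) (transcendental_jL L M) D

section AlgClosed

variable [IsAlgClosed L]

/-- A function without zeros and poles is a constant. -/
theorem eq_algebraMap_of_forall_ord_eq_zero {f : FL L M}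
    (h : ∀ v : Place L (FL L M), v.ord f = 0) : ∃ a : L, f = algebraMap L (FL L M) a :=
  H52.exists_eq_algebraMap_of_forall_ord_eq_zero (jL L M) (transcendental_jL L M) h

/-- Two functions with the same divisor differ by a non-zero constant. -/
theorem eq_const_mul_of_ord_eq {f g : FL L M} (hf : f ≠ 0) (hg : g ≠ 0)
    (h : ∀ v : Place L (FL L M), v.ord f = v.ord g) :
    ∃ a : L, a ≠ 0 ∧ f = algebraMap L (FL L M) a * g := by
  have h0 : ∀ v : Place L (FL L M), v.ord (f * g⁻¹) = 0 := fun v => by
    rw [v.ord_mul hf (inv_ne_zero hg), v.ord_inv, h v, add_neg_cancel]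
  obtain ⟨a, ha⟩ := eq_algebraMap_of_forall_ord_eq_zero L M h0
  have ha0 : a ≠ 0 := by
    rintro rfl
    rw [map_zero] at ha
    exact mul_ne_zero hf (inv_ne_zero hg) ha
  refine ⟨a, ha0, ?_⟩
  rw [← ha, mul_assoc, inv_mul_cancel₀ hg, mul_one]

/-- All places have degree one. -/
theorem deg_eq_one_FL' (v : Place L (FL L M)) : v.deg = 1 :=
  H52.deg_eq_one (jL L M) (transcendental_jL L M) v

/-- `L(0) = L`. -/
theorem ell_zero_eq_one_FL : H76.ell (0 : Divisor L (FL L M)) = 1 :=
  H52.ell_zero_eq_one (jL L M) (transcendental_jL L M)

/-- The degree of a divisor is the sum of its coefficients (all places have degree one). -/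
theorem degree_eq_sum_FL (D : Divisor L (FL L M)) : Divisor.degree D = D.sum fun _ n => n := by
  induction D using Finsupp.induction_linear with
  | zero => simp
  | add D E hD hE =>
    rw [map_add, hD, hE, Finsupp.sum_add_index' (fun _ => rfl) (fun _ _ _ => rfl)]
  | single v n =>
    rw [Divisor.degree_single, deg_eq_one_FL' L M v, Finsupp.sum_single_index rfl]
    simp

/-- **Riemann's inequality** with the frozen `genusFF`. -/
theorem riemann_inequality_FL (D : Divisor L (FL L M)) :
    Divisor.degree D + 1 - genusFF L (FL L M) ≤ Module.finrank L ↥(riemannRochSpace D) :=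
  H52.riemann_inequality_genusFF (jL L M) (transcendental_jL L M) D

/-- **Riemann's theorem** with the frozen `genusFF`. -/
theorem exists_degree_bound_FL :
    ∃ c : ℤ, ∀ D : Divisor L (FL L M), c ≤ Divisor.degree D →
      (Module.finrank L ↥(riemannRochSpace D) : ℤ) = Divisor.degree D + 1 - genusFF L (FL L M) :=
  H52.exists_degree_bound_genusFF (jL L M) (transcendental_jL L M)

end AlgClosed

end Bank

end Fermat.Agent.S29.H74
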