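/-
S29 / Stage 3, DESCENT (E5c) cut (helper3): the minimal effective representative of a divisor
class, generic function field with the RR-bank hypotheses `FFBase K F`.

`P0` a place of degree one.  For a divisor `D`:
* `exists_min_shift` : there is `t : ℤ` with `l(D + t P0) = 1` and `l(D + (t-1) P0) = 0`;
* `existsUnique_effective_of_ell_eq_one` : if `l(D) = 1` the linear system `|D|` is one point;
* `minShift`, `minEff` : the minimal shift and THE effective divisor `E ~ D + t P0`;
  both depend only on the class of `D` (`minShift_congr`, `minEff_congr`);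
* `minEff_mapDomain` : equivariance under a permutation `s` of the places which fixes `P0`,
  preserves `l` and principal divisors (e.g. the action of a semilinear automorphism);
* `mapDomain_minEff_eq_of_sub_mem` : if `s_* D ~ D` then `s_* (minEff D) = minEff D`, hence `s`
  permutes the (finite) support of `minEff D` (`apply_mem_support_minEff`).
-/
import Mathlib
import Fermat.Agent.RR.H76_Riemann
import Fermat.Agent.S24.H24_Basic

set_option autoImplicit false

noncomputable section

open AlgebraicCurve

namespace Fermat.Agent.S29.H3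

open Fermat.Agent.RR.H76

variable {K F : Type*} [Field K] [Field F] [Algebra K F]

/-- `D + t • P0`. -/
def shift (P0 : Place K F) (D : Divisor K F) (t : ℤ) : Divisor K F := D + Finsupp.single P0 t

theorem shift_succ (P0 : Place K F) (D : Divisor K F) (t : ℤ) :
    shift P0 D (t + 1) = addP (shift P0 D t) P0 := by
  simp only [shift, addP, add_assoc, ← Finsupp.single_add]

theorem shift_pred_succ (P0 : Place K F) (D : Divisor K F) (t : ℤ) :
    shift P0 D t = addP (shift P0 D (t - 1)) P0 := by
  rw [← shift_succ, sub_add_cancel]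

theorem degree_shift (P0 : Place K F) (D : Divisor K F) (t : ℤ) :
    Divisor.degree (shift P0 D t) = Divisor.degree D + t * P0.deg := by
  rw [shift, map_add, Divisor.degree_single]

theorem shift_mono (P0 : Place K F) (D : Divisor K F) {t t' : ℤ} (h : t ≤ t') :
    shift P0 D t ≤ shift P0 D t' := by
  classical
  intro v
  simp only [shift, Finsupp.add_apply, Finsupp.single_apply]
  split_ifs <;> omega

theorem shift_add (P0 : Place K F) (D E : Divisor K F) (t : ℤ) :
    shift P0 (D + E) t = shift P0 D t + E := by
  simp only [shift]; abel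

section Base

variable (h : FFBase K F)
include h

theorem ell_eq_zero_of_degree_neg (D : Divisor K F) (hD : Divisor.degree D < 0) : ell D = 0 := by
  unfold ell
  rw [h.riemannRochSpace_eq_bot_of_degree_neg D hD, finrank_bot]

/-- **(M1)** the minimal shift. -/
theorem exists_min_shift (P0 : Place K F) (hP0 : P0.deg = 1) (D : Divisor K F) :
    ∃ t : ℤ, ell (shift P0 D t) = 1 ∧ ell (shift P0 D (t - 1)) = 0 := by
  classical
  have hbdd : ∀ t : ℤ, 0 < ell (shift P0 D t) → -Divisor.degree D ≤ t := by
    intro t ht
    by_contra hlt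
    rw [not_le] at hlt
    have hneg : Divisor.degree (shift P0 D t) < 0 := by
      rw [degree_shift, hP0]; push_cast; linarith
    rw [ell_eq_zero_of_degree_neg h _ hneg] at ht
    exact lt_irrefl _ ht
  have hne : ∃ t : ℤ, 0 < ell (shift P0 D t) := by
    refine ⟨h.gR - Divisor.degree D, ?_⟩
    have h1 := h.riemann_inequality (shift P0 D (h.gR - Divisor.degree D))
    rw [degree_shift, hP0] at h1
    push_cast at h1
    have h2 : (0 : ℤ) < ell (shift P0 D (h.gR - Divisor.degree D)) := by linarith
    exact_mod_cast h2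
  obtain ⟨t0, ht0, hmin⟩ := Int.exists_least_of_bdd ⟨-Divisor.degree D, hbdd⟩ hne
  have hpred : ell (shift P0 D (t0 - 1)) = 0 := by
    by_contra hpos
    have := hmin (t0 - 1) (Nat.pos_of_ne_zero hpos)
    omega
  refine ⟨t0, ?_, hpred⟩
  obtain ⟨u, hu0, hu1⟩ := exists_uniformizer P0
  have := h.finRes P0
  have := h.finiteDimensional_riemannRochSpace (shift P0 D (t0 - 1))
  have hle := ell_add_single_le (shift P0 D (t0 - 1)) P0 hu0 hu1
  rw [← shift_pred_succ, hpred, hP0] at hle
  omega

/-- **(M2)** if `l(D) = 1` then `|D|` consists of exactly one effective divisor. -/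
theorem existsUnique_effective_of_ell_eq_one (D : Divisor K F) (h1 : ell D = 1) :
    ∃! E : Divisor K F, 0 ≤ E ∧ E - D ∈ Divisor.principal (K := K) (F := F) := by
  have hpos : 0 < ell D := by rw [h1]; exact Nat.one_pos
  obtain ⟨f, hf0, hf⟩ := FFBase.exists_ne_zero_of_ell_pos hpos
  obtain ⟨Ef, hEf, -⟩ := h.pd.exists_divisor f hf0
  refine ⟨D + Ef, ⟨?_, ?_⟩, ?_⟩
  · intro v
    have := (mem_riemannRochSpace_iff.mp hf v).resolve_left hf0
    rw [Finsupp.add_apply, hEf v, Finsupp.zero_apply]
    omega
  · rw [add_sub_cancel_left]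
    exact ⟨f, hf0, hEf⟩
  · rintro E' ⟨hE'0, g, hg0, hg⟩
    -- `g ∈ L(D)`, one-dimensional, so `g = c f`
    have hgL : g ∈ riemannRochSpace D := by
      rw [mem_riemannRochSpace_iff]
      intro v
      right
      have h2 := hE'0 v
      have h3 := hg v
      rw [Finsupp.sub_apply] at h3
      rw [Finsupp.zero_apply] at h2
      omega
    have hfd := h.finiteDimensional_riemannRochSpace D
    have h1' : Module.finrank K ↥(riemannRochSpace D) = 1 := h1
    obtain ⟨c, hc⟩ := (finrank_eq_one_iff_of_nonzero' (⟨f, hf⟩ : ↥(riemannRochSpace D))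
      (by simpa [Subtype.ext_iff] using hf0)).1 h1' ⟨g, hgL⟩
    have hcg : g = algebraMap K F c * f := by
      have := congrArg Subtype.val hc
      simp only [Submodule.coe_smul] at this
      rw [← this, Algebra.smul_def]
    have hc0 : algebraMap K F c ≠ 0 := by
      intro h0
      rw [hcg, h0, zero_mul] at hg0
      exact hg0 rfl
    ext v
    have h3 := hg v
    rw [Finsupp.sub_apply, hcg, v.ord_mul hc0 hf0,
      Fermat.Agent.S24.H24.PlaceLemmas.ord_algebraMap v c, zero_add] at h3
    rw [Finsupp.add_apply, hEf v]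
    omega

/-! ### The minimal shift and the minimal effective divisor -/

/-- The least `t` with `l(D + t P0) ≥ 1`. -/
def minShift (P0 : Place K F) (hP0 : P0.deg = 1) (D : Divisor K F) : ℤ :=
  Classical.choose (exists_min_shift h P0 hP0 D)

theorem ell_shift_minShift (P0 : Place K F) (hP0 : P0.deg = 1) (D : Divisor K F) :
    ell (shift P0 D (minShift h P0 hP0 D)) = 1 :=
  (Classical.choose_spec (exists_min_shift h P0 hP0 D)).1

theorem ell_shift_minShift_pred (P0 : Place K F) (hP0 : P0.deg = 1) (D : Divisor K F) :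
    ell (shift P0 D (minShift h P0 hP0 D - 1)) = 0 :=
  (Classical.choose_spec (exists_min_shift h P0 hP0 D)).2

theorem eq_minShift (P0 : Place K F) (hP0 : P0.deg = 1) (D : Divisor K F) {t : ℤ}
    (h1 : ell (shift P0 D t) = 1) (h0 : ell (shift P0 D (t - 1)) = 0) :
    t = minShift h P0 hP0 D := by
  have a1 := ell_shift_minShift h P0 hP0 D
  have a0 := ell_shift_minShift_pred h P0 hP0 D
  rcases lt_trichotomy t (minShift h P0 hP0 D) with hlt | heq | hgt
  · have := h.ell_mono (shift_mono P0 D (show t ≤ minShift h P0 hP0 D - 1 by omega))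
    omega
  · exact heq
  · have := h.ell_mono (shift_mono P0 D (show minShift h P0 hP0 D ≤ t - 1 by omega))
    omega

/-- THE effective divisor linearly equivalent to `D + (minShift D) P0`. -/
def minEff (P0 : Place K F) (hP0 : P0.deg = 1) (D : Divisor K F) : Divisor K F :=
  Classical.choose (existsUnique_effective_of_ell_eq_one h _
    (ell_shift_minShift h P0 hP0 D)).exists

theorem minEff_nonneg (P0 : Place K F) (hP0 : P0.deg = 1) (D : Divisor K F) :
    0 ≤ minEff h P0 hP0 D :=
  (Classical.choose_spec (existsUnique_effective_of_ell_eq_one h _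
    (ell_shift_minShift h P0 hP0 D)).exists).1

theorem minEff_sub_mem_principal (P0 : Place K F) (hP0 : P0.deg = 1) (D : Divisor K F) :
    minEff h P0 hP0 D - shift P0 D (minShift h P0 hP0 D) ∈
      Divisor.principal (K := K) (F := F) :=
  (Classical.choose_spec (existsUnique_effective_of_ell_eq_one h _
    (ell_shift_minShift h P0 hP0 D)).exists).2

theorem eq_minEff (P0 : Place K F) (hP0 : P0.deg = 1) (D : Divisor K F) {E : Divisor K F}
    (hE : 0 ≤ E)
    (hED : E - shift P0 D (minShift h P0 hP0 D) ∈ Divisor.principal (K := K) (F := F)) :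
    E = minEff h P0 hP0 D :=
  (existsUnique_effective_of_ell_eq_one h _ (ell_shift_minShift h P0 hP0 D)).unique ⟨hE, hED⟩
    ⟨minEff_nonneg h P0 hP0 D, minEff_sub_mem_principal h P0 hP0 D⟩

/-- `D ~ minEff D - (minShift D) P0`. -/
theorem sub_minEff_mem_principal (P0 : Place K F) (hP0 : P0.deg = 1) (D : Divisor K F) :
    D - (minEff h P0 hP0 D - Finsupp.single P0 (minShift h P0 hP0 D)) ∈
      Divisor.principal (K := K) (F := F) := by
  have := (Divisor.principal (K := K) (F := F)).neg_mem (minEff_sub_mem_principal h P0 hP0 D)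
  have e : -(minEff h P0 hP0 D - shift P0 D (minShift h P0 hP0 D)) =
      D - (minEff h P0 hP0 D - Finsupp.single P0 (minShift h P0 hP0 D)) := by
    simp only [shift]; abel
  rwa [e] at this

theorem degree_minEff (P0 : Place K F) (hP0 : P0.deg = 1) (D : Divisor K F) :
    Divisor.degree (minEff h P0 hP0 D) = Divisor.degree D + minShift h P0 hP0 D := by
  obtain ⟨f, hf0, hf⟩ := minEff_sub_mem_principal h P0 hP0 D
  obtain ⟨Ef, hEf, hdeg⟩ := h.pd.exists_divisor f hf0
  have e : minEff h P0 hP0 D - shift P0 D (minShift h P0 hP0 D) = Ef := by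
    ext v; rw [hf v, hEf v]
  have := congrArg Divisor.degree e
  rw [map_sub, hdeg, degree_shift, hP0] at this
  push_cast at this
  linarith

/-! ### Dependence on the class only -/

theorem ell_shift_congr (P0 : Place K F) {D D' : Divisor K F}
    (hDD' : D' - D ∈ Divisor.principal (K := K) (F := F)) (t : ℤ) :
    ell (shift P0 D' t) = ell (shift P0 D t) := by
  obtain ⟨g, hg0, hg⟩ := hDD'
  have e : shift P0 D' t = shift P0 D t + (D' - D) := by
    rw [← shift_add, add_sub_cancel]
  rw [e]
  exact h.ell_add_principal hg0 hg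

theorem minShift_congr (P0 : Place K F) (hP0 : P0.deg = 1) {D D' : Divisor K F}
    (hDD' : D' - D ∈ Divisor.principal (K := K) (F := F)) :
    minShift h P0 hP0 D' = minShift h P0 hP0 D := by
  refine (eq_minShift h P0 hP0 D ?_ ?_)
  · rw [← ell_shift_congr h P0 hDD']; exact ell_shift_minShift h P0 hP0 D'
  · rw [← ell_shift_congr h P0 hDD']; exact ell_shift_minShift_pred h P0 hP0 D'

theorem minEff_congr (P0 : Place K F) (hP0 : P0.deg = 1) {D D' : Divisor K F}
    (hDD' : D' - D ∈ Divisor.principal (K := K) (F := F)) :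
    minEff h P0 hP0 D' = minEff h P0 hP0 D := by
  refine eq_minEff h P0 hP0 D (minEff_nonneg h P0 hP0 D') ?_
  have h1 := minEff_sub_mem_principal h P0 hP0 D'
  rw [minShift_congr h P0 hP0 hDD'] at h1
  have h2 := (Divisor.principal (K := K) (F := F)).add_mem h1 hDD'
  have e : minEff h P0 hP0 D' - shift P0 D' (minShift h P0 hP0 D) + (D' - D) =
      minEff h P0 hP0 D' - shift P0 D (minShift h P0 hP0 D) := by
    simp only [shift]; abel
  rwa [e] at h2

/-! ### Equivariance -/

section Equivariance

variable (P0 : Place K F) (hP0 : P0.deg = 1) (s : Place K F ≃ Place K F) (hsP0 : s P0 = P0)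
  (hsell : ∀ D : Divisor K F, ell (Finsupp.mapDomain s D) = ell D)
  (hspr : ∀ D : Divisor K F, D ∈ Divisor.principal (K := K) (F := F) →
    Finsupp.mapDomain s D ∈ Divisor.principal (K := K) (F := F))

omit h in
include hsP0 in
theorem mapDomain_shift (D : Divisor K F) (t : ℤ) :
    Finsupp.mapDomain s (shift P0 D t) = shift P0 (Finsupp.mapDomain s D) t := by
  rw [shift, Finsupp.mapDomain_add, Finsupp.mapDomain_single, hsP0, shift]

omit h in
theorem mapDomain_nonneg {E : Divisor K F} (hE : 0 ≤ E) : 0 ≤ Finsupp.mapDomain s E := by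
  intro w
  obtain ⟨v, rfl⟩ := s.surjective w
  rw [Finsupp.mapDomain_apply s.injective, Finsupp.zero_apply]
  exact hE v

include hsP0 hsell in
theorem minShift_mapDomain (D : Divisor K F) :
    minShift h P0 hP0 (Finsupp.mapDomain s D) = minShift h P0 hP0 D := by
  symm
  refine eq_minShift h P0 hP0 (Finsupp.mapDomain s D) ?_ ?_
  · rw [← mapDomain_shift P0 s hsP0, hsell]; exact ell_shift_minShift h P0 hP0 D
  · rw [← mapDomain_shift P0 s hsP0, hsell]; exact ell_shift_minShift_pred h P0 hP0 D

include hsP0 hsell hspr in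
/-- **Equivariance of the minimal effective divisor.** -/
theorem minEff_mapDomain (D : Divisor K F) :
    minEff h P0 hP0 (Finsupp.mapDomain s D) = Finsupp.mapDomain s (minEff h P0 hP0 D) := by
  symm
  refine eq_minEff h P0 hP0 _ (mapDomain_nonneg s (minEff_nonneg h P0 hP0 D)) ?_
  rw [minShift_mapDomain h P0 hP0 s hsP0 hsell, ← mapDomain_shift P0 s hsP0]
  have := hspr _ (minEff_sub_mem_principal h P0 hP0 D)
  have e : Finsupp.mapDomain s (minEff h P0 hP0 D - shift P0 D (minShift h P0 hP0 D)) =
      Finsupp.mapDomain s (minEff h P0 hP0 D) -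
        Finsupp.mapDomain s (shift P0 D (minShift h P0 hP0 D)) :=
    map_sub (Finsupp.mapDomain.addMonoidHom (M := ℤ) s) _ _
  rwa [e] at this

include hsP0 hsell hspr in
/-- If `s_* D ~ D` then `s_*` fixes the minimal effective divisor of `D`. -/
theorem mapDomain_minEff_eq_of_sub_mem (D : Divisor K F)
    (hD : Finsupp.mapDomain s D - D ∈ Divisor.principal (K := K) (F := F)) :
    Finsupp.mapDomain s (minEff h P0 hP0 D) = minEff h P0 hP0 D := by
  rw [← minEff_mapDomain h P0 hP0 s hsP0 hsell hspr, minEff_congr h P0 hP0 hD]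

include hsP0 hsell hspr in
/-- If `s_* D ~ D` then `s` permutes the support of the minimal effective divisor of `D`. -/
theorem apply_mem_support_minEff (D : Divisor K F)
    (hD : Finsupp.mapDomain s D - D ∈ Divisor.principal (K := K) (F := F))
    {v : Place K F} (hv : v ∈ (minEff h P0 hP0 D).support) :
    s v ∈ (minEff h P0 hP0 D).support := by
  have e := mapDomain_minEff_eq_of_sub_mem h P0 hP0 s hsP0 hsell hspr D hD
  rw [Finsupp.mem_support_iff] at hv ⊢
  rw [← e, Finsupp.mapDomain_apply s.injective]
  exact hv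

end Equivariance

end Base

end Fermat.Agent.S29.H3
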