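import Mathlib
import Fermat.Prelude.Def_AlgebraicCurve_DivisorClassGroup
import Fermat.Agent.RR.H52_WeakApprox

set_option autoImplicit false

/-!
# The moving lemma for divisor classes of a function field (prelude vocabulary)

(S29 / P8 of the Stage-3 blueprint, helper38.)  Pure valuation theory on top of helper52's
weak approximation: no hypothesis on `F/K` beyond `HasPrincipalDivisors` (needed only to
speak of `div f` as a `Finsupp`).

* `exists_ord_eq` : prescribed orders at finitely many places.
* `exists_principal_add_avoid` : for a divisor `D` and a finite set `s` of places there is a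
  principal divisor `E` of degree `0` with `D + E` vanishing on `s`.
* `exists_degZero_rep_avoid`, `exists_rep_avoid` : every class of `Pic0` has a representative
  whose support avoids a given finite set of places.
-/

noncomputable section

open AlgebraicCurve WithZero

namespace Fermat.Agent.S29.H38

variable {K F : Type*} [Field K] [Field F] [Algebra K F]

/-- **(M0)** Prescribed orders at finitely many places. -/
theorem exists_ord_eq (s : Finset (Place K F)) (n : Place K F → ℤ) :
    ∃ f : F, f ≠ 0 ∧ ∀ v ∈ s, v.ord f = n v := by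
  classical
  rcases s.eq_empty_or_nonempty with rfl | hs
  · exact ⟨1, one_ne_zero, by simp⟩
  -- targets
  have hx : ∀ v : Place K F, ∃ x : F, v.adicValuation x = exp (-(n v)) :=
    fun v => Fermat.Agent.RR.H52.exists_val_eq_exp v (-(n v))
  choose x hx using hx
  obtain ⟨M, hM⟩ := (s.image n).exists_le
  have hM' : ∀ v ∈ s, n v ≤ M := fun v hv => hM _ (Finset.mem_image_of_mem n hv)
  obtain ⟨z, hz⟩ := Fermat.Agent.RR.H52.weak_approximation s x (M + 1)
  have hval : ∀ v ∈ s, v.adicValuation z = exp (-(n v)) := by
    intro v hv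
    have h1 : v.adicValuation (z - x v) < v.adicValuation (x v) := by
      refine lt_of_le_of_lt (hz v hv) ?_
      rw [hx v, exp_lt_exp]
      have := hM' v hv
      omega
    have h2 : z = x v + (z - x v) := by ring
    rw [h2, Valuation.map_add_eq_of_lt_left _ h1, hx v]
  have hz0 : z ≠ 0 := by
    obtain ⟨v, hv⟩ := hs
    intro h0
    have := hval v hv
    rw [h0, map_zero] at this
    exact exp_ne_zero this.symm
  refine ⟨z, hz0, fun v hv => ?_⟩
  have h := hval v hv
  rw [Fermat.Agent.RR.H52.val_eq_exp_neg_ord v hz0, exp_inj] at h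
  omega

/-- Set form of `exists_ord_eq`. -/
theorem exists_ord_eq_of_finite {s : Set (Place K F)} (hs : s.Finite) (n : Place K F → ℤ) :
    ∃ f : F, f ≠ 0 ∧ ∀ v ∈ s, v.ord f = n v := by
  obtain ⟨f, hf, h⟩ := exists_ord_eq hs.toFinset n
  exact ⟨f, hf, fun v hv => h v (hs.mem_toFinset.mpr hv)⟩

variable [HasPrincipalDivisors K F]

/-- **(M1)** For a divisor `D` and a finite set `s` of places there is a principal divisor `E`
(of degree `0`) such that `D + E` vanishes at every place of `s`. -/
theorem exists_principal_add_avoid (D : Divisor K F) (s : Finset (Place K F)) :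
    ∃ E : Divisor K F, E ∈ Divisor.principal (K := K) (F := F) ∧ Divisor.degree E = 0 ∧
      ∀ v ∈ s, (D + E) v = 0 := by
  obtain ⟨f, hf, hord⟩ := exists_ord_eq s (fun v => -D v)
  obtain ⟨E, hE, hdeg⟩ := HasPrincipalDivisors.exists_divisor (K := K) f hf
  refine ⟨E, ⟨f, hf, hE⟩, hdeg, fun v hv => ?_⟩
  rw [Finsupp.add_apply, hE v, hord v hv]
  ring

omit [HasPrincipalDivisors K F] in
/-- The function-level form of (M1): `f ≠ 0` with `D v + v.ord f = 0` on `s`. -/
theorem exists_ne_zero_add_ord_eq_zero (D : Divisor K F) (s : Finset (Place K F)) :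
    ∃ f : F, f ≠ 0 ∧ ∀ v ∈ s, D v + v.ord f = 0 := by
  obtain ⟨f, hf, hord⟩ := exists_ord_eq s (fun v => -D v)
  exact ⟨f, hf, fun v hv => by rw [hord v hv]; ring⟩

omit [HasPrincipalDivisors K F] in
/-- A principal divisor of degree `0` is trivial in `Pic0`. -/
theorem mk_eq_zero_of_principal {E : Divisor K F}
    (hE : E ∈ Divisor.principal (K := K) (F := F))
    (hE0 : E ∈ Divisor.degZero (K := K) (F := F)) :
    Pic0.mk (⟨E, hE0⟩ : Divisor.degZero (K := K) (F := F)) = 0 := by
  rw [Pic0.mk, QuotientAddGroup.eq_zero_iff]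
  exact hE

/-- **(M2)** Every degree-zero divisor is linearly equivalent to a degree-zero divisor vanishing
on a given finite set of places. -/
theorem exists_degZero_rep_avoid (D : Divisor.degZero (K := K) (F := F))
    (s : Finset (Place K F)) :
    ∃ D' : Divisor.degZero (K := K) (F := F), Pic0.mk D' = Pic0.mk D ∧
      ((D' : Divisor K F) - (D : Divisor K F)) ∈ Divisor.principal (K := K) (F := F) ∧
      ∀ v ∈ s, (D' : Divisor K F) v = 0 := by
  obtain ⟨E, hE, hdeg, havoid⟩ := exists_principal_add_avoid (D : Divisor K F) s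
  have hE0 : E ∈ Divisor.degZero (K := K) (F := F) := Divisor.mem_degZero.mpr hdeg
  refine ⟨D + ⟨E, hE0⟩, ?_, ?_, fun v hv => ?_⟩
  · rw [Pic0.mk_add, mk_eq_zero_of_principal hE hE0, add_zero]
  · have : ((D + ⟨E, hE0⟩ : Divisor.degZero (K := K) (F := F)) : Divisor K F)
        - (D : Divisor K F) = E := by
      rw [AddSubgroup.coe_add]; simp
    rw [this]; exact hE
  · rw [AddSubgroup.coe_add]
    exact havoid v hv

/-- **(M2), `Pic0` form.** Every class of `Pic0 K F` has a representative whose support avoids
a given finite set of places. -/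
theorem exists_rep_avoid (x : Pic0 K F) (s : Finset (Place K F)) :
    ∃ D : Divisor.degZero (K := K) (F := F), Pic0.mk D = x ∧
      ∀ v ∈ s, (D : Divisor K F) v = 0 := by
  obtain ⟨D0, rfl⟩ := Pic0.mk_surjective x
  obtain ⟨D', h1, -, h3⟩ := exists_degZero_rep_avoid D0 s
  exact ⟨D', h1, h3⟩

/-- Set form of `exists_rep_avoid`. -/
theorem exists_rep_avoid_of_finite (x : Pic0 K F) {s : Set (Place K F)} (hs : s.Finite) :
    ∃ D : Divisor.degZero (K := K) (F := F), Pic0.mk D = x ∧
      ∀ v ∈ s, (D : Divisor K F) v = 0 := by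
  obtain ⟨D, h1, h2⟩ := exists_rep_avoid x hs.toFinset
  exact ⟨D, h1, fun v hv => h2 v (hs.mem_toFinset.mpr hv)⟩

/-- Support form: the support of the representative is disjoint from `s`. -/
theorem exists_rep_support_disjoint (x : Pic0 K F) (s : Finset (Place K F)) :
    ∃ D : Divisor.degZero (K := K) (F := F), Pic0.mk D = x ∧
      Disjoint (D : Divisor K F).support s := by
  obtain ⟨D, h1, h2⟩ := exists_rep_avoid x s
  refine ⟨D, h1, Finset.disjoint_left.mpr fun v hv hvs => ?_⟩
  exact (Finsupp.mem_support_iff.mp hv) (h2 v hvs)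

end Fermat.Agent.S29.H38
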