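import Mathlib

/-!
S29 / (T1) support (helper19), Mathlib only: **norm base change in a commutative square of fields**.

```
      b'
  E ------> E'
  ^         ^
  |         |
  F ------> F'
      b
```
`E/F` finite, `[E' : F'] = [E : F]`, and `E'` generated as a field by `F' ∪ b'(E)`.  Then
`N_{E'/F'}(b' x) = b (N_{E/F} x)` and `Tr_{E'/F'}(b' x) = b (Tr_{E/F} x)`.

(An `F`-basis of `E` is mapped by `b'` to an `F'`-basis of `E'`, and the matrix of multiplication
by `b' x` in it is the image under `b` of the matrix of multiplication by `x`.)
-/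

set_option autoImplicit false
set_option linter.style.haveILetI false

noncomputable section

namespace Fermat.Agent.S29.H19

open Module

variable {F E F' E' : Type*} [Field F] [Field E] [Field F'] [Field E']
  [Algebra F E] [Algebra F' E'] (b : F →+* F') (b' : E →+* E')

section Span

variable (hcomm : ∀ c : F, b' (algebraMap F E c) = algebraMap F' E' (b c))
include hcomm

/-- the image of an `F`-spanning family spans `b'(E)` over `F'`. -/
theorem map_mem_span {ι : Type*} [Fintype ι] (e : Basis ι F E) (y : E) :
    b' y ∈ Submodule.span F' (Set.range fun i => b' (e i)) := by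
  have h := congrArg b' (e.sum_repr y).symm
  rw [h, map_sum]
  refine Submodule.sum_mem _ fun i _ => ?_
  rw [Algebra.smul_def, map_mul, hcomm, ← Algebra.smul_def]
  exact Submodule.smul_mem _ _ (Submodule.subset_span ⟨i, rfl⟩)

/-- the `F'`-span of `b'(basis)` is everything, when `E'` is generated by `F' ∪ b'(E)` and is
finite over `F'`. -/
theorem span_map_basis_eq_top [FiniteDimensional F' E'] {ι : Type*} [Fintype ι]
    (e : Basis ι F E)
    (hgen : Subfield.closure (Set.range (algebraMap F' E') ∪ Set.range b') = ⊤) :
    Submodule.span F' (Set.range fun i => b' (e i)) = ⊤ := by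
  classical
  -- the subalgebra generated by `b'(E)`
  set A' : Subalgebra F' E' := Algebra.adjoin F' (Set.range b') with hA'
  -- it is contained in the span
  have hA'span : Subalgebra.toSubmodule A' ≤
      Submodule.span F' (Set.range fun i => b' (e i)) := by
    rw [hA', Algebra.adjoin_eq_span]
    have hclosure : (Submonoid.closure (Set.range b') : Set E') = Set.range b' := by
      have : Submonoid.closure (Set.range b') = MonoidHom.mrange (b' : E →* E') := by
        apply le_antisymm
        · rw [Submonoid.closure_le]
          rintro _ ⟨y, rfl⟩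
          exact ⟨y, rfl⟩
        · rintro _ ⟨y, rfl⟩
          exact Submonoid.subset_closure ⟨y, rfl⟩
      rw [this]
      rfl
    rw [hclosure, Submodule.span_le]
    rintro _ ⟨y, rfl⟩
    exact map_mem_span b b' hcomm e y
  -- it is a field
  have hfield : IsField A' := Subalgebra.isField_of_algebraic A'
  let K' : IntermediateField F' E' := Subalgebra.toIntermediateField' A' hfield
  have hK' : ∀ z, z ∈ K' ↔ z ∈ A' := fun z => Iff.rfl
  have htop : (⊤ : Subfield E') ≤ K'.toSubfield := by
    rw [← hgen, Subfield.closure_le]
    rintro z (⟨c, rfl⟩ | ⟨y, rfl⟩)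
    · exact K'.algebraMap_mem c
    · exact (hK' _).mpr (Algebra.subset_adjoin ⟨y, rfl⟩)
  rw [eq_top_iff]
  intro z _
  have hz : z ∈ K'.toSubfield := htop (Subfield.mem_top z)
  exact hA'span ((hK' z).mp hz)

end Span

/-- **Norm base change.** -/
theorem norm_baseChange [FiniteDimensional F E]
    (hcomm : ∀ c : F, b' (algebraMap F E c) = algebraMap F' E' (b c))
    (hdeg : finrank F' E' = finrank F E)
    (hgen : Subfield.closure (Set.range (algebraMap F' E') ∪ Set.range b') = ⊤) (x : E) :
    Algebra.norm F' (b' x) = b (Algebra.norm F x) ∧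
      Algebra.trace F' E' (b' x) = b (Algebra.trace F E x) := by
  classical
  have hpos : 0 < finrank F' E' := by rw [hdeg]; exact finrank_pos
  haveI : FiniteDimensional F' E' := Module.finite_of_finrank_pos hpos
  let e : Basis (Fin (finrank F E)) F E := Module.finBasis F E
  have hspan := span_map_basis_eq_top b b' hcomm e hgen
  let v : Basis (Fin (finrank F E)) F' E' :=
    basisOfTopLeSpanOfCardEqFinrank (fun i => b' (e i)) hspan.ge
      (by rw [Fintype.card_fin, hdeg])
  have hv : ∀ i, v i = b' (e i) := fun i => by
    simp only [v, coe_basisOfTopLeSpanOfCardEqFinrank]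
  -- the multiplication matrices correspond
  have hmat : Algebra.leftMulMatrix v (b' x) = (Algebra.leftMulMatrix e x).map b := by
    ext i j
    rw [Matrix.map_apply, Algebra.leftMulMatrix_eq_repr_mul, Algebra.leftMulMatrix_eq_repr_mul]
    have h1 : b' x * v j = ∑ i', b (e.repr (x * e j) i') • v i' := by
      rw [hv, ← map_mul]
      conv_lhs => rw [← e.sum_repr (x * e j)]
      rw [map_sum]
      refine Finset.sum_congr rfl fun i' _ => ?_
      rw [Algebra.smul_def, map_mul, hcomm, ← Algebra.smul_def, hv]
    rw [h1, map_sum, Finsupp.coe_finsetSum, Finset.sum_apply]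
    simp only [map_smul, Basis.repr_self, Finsupp.smul_apply, Finsupp.single_apply, smul_eq_mul,
      mul_ite, mul_one, mul_zero, Finset.sum_ite_eq', Finset.mem_univ, if_true]
  constructor
  · rw [Algebra.norm_eq_matrix_det v, Algebra.norm_eq_matrix_det e, hmat, ← RingHom.mapMatrix_apply,
      ← RingHom.map_det]
  · rw [Algebra.trace_eq_matrix_trace v, Algebra.trace_eq_matrix_trace e, hmat, Matrix.trace,
      Matrix.trace, map_sum]
    rfl

end Fermat.Agent.S29.H19
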