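import Mathlib
import Fermat.Prelude.Def_AlgebraicCurve_Correspondence
import Fermat.Agent.S37.H82_Rigidity
import Fermat.Agent.S37.H82_CorrPositive

/-!
# Commuting correspondences via rigidity (helper87, S29 / T1)

* `normAlong ψ x` : the norm of `x : F'` down to `F` along `ψ : F →ₐ[K] F'`;
* `correspondence_apply_of_ord` : `ψ_* φ^* (div f) = div (Nm_ψ (φ f))`;
* `IsPositiveOfDegLE.comp` : composites of positive correspondences are positive;
* `comp_eq_comp_on_degZero` : two positive correspondences with multiplicative lifts which commute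
  on functions commute on degree-zero divisors (given bounded representatives).
-/

set_option autoImplicit false

namespace Fermat.Agent.S29.H87

open AlgebraicCurve Fermat.Agent.S37

section NormAlong

variable {K F F' : Type*} [Field K] [Field F] [Field F'] [Algebra K F] [Algebra K F']

/-- The norm from `F'` down to `F` along `ψ`. -/
noncomputable def normAlong (ψ : F →ₐ[K] F') (x : F') : F :=
  letI := algebraAlong ψ
  Algebra.norm F x

theorem normAlong_ne_zero (ψ : F →ₐ[K] F') (hfin : FiniteAlong K ψ) {x : F'} (hx : x ≠ 0) :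
    normAlong ψ x ≠ 0 := by
  letI := algebraAlong ψ
  haveI : Module.Finite F F' := hfin
  exact Algebra.norm_ne_zero_iff.mpr hx

variable (φ ψ : F →ₐ[K] F') (hφ : φ.toRingHom.IsIntegral) (hψ : ψ.toRingHom.IsIntegral)

/-- `ψ_* (div g) = div (Nm_ψ g)`. -/
theorem pushforwardAlong_apply_of_ord (hfin : FiniteAlong K ψ) (hN : NormFormulaAlong K ψ hfin)
    {g : F'} (hg : g ≠ 0) {D : Divisor K F'} (hD : ∀ w, D w = w.ord g) (v : Place K F) :
    Divisor.pushforwardAlong ψ hψ D v = v.ord (normAlong ψ g) := by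
  letI := algebraAlong ψ
  have := isScalarTower_along ψ
  have := isIntegral_along ψ hψ
  have : Module.Finite F F' := hfin
  exact hN g hg D hD v

variable [HasPrincipalDivisors K F']

/-- `φ^* (div f) = div (φ f)`. -/
theorem pullbackAlong_apply_of_ord {f : F} {D : Divisor K F} (hD : ∀ v, D v = v.ord f)
    (w : Place K F') : Divisor.pullbackAlong φ hφ D w = w.ord (φ f) := by
  letI := algebraAlong φ
  have := isScalarTower_along φ
  have := isIntegral_along φ hφ
  exact Divisor.pullback_apply_eq_ord hD w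

/-- **`ψ_* φ^* (div f) = div (Nm_ψ (φ f))`.** -/
theorem correspondence_apply_of_ord (hfin : FiniteAlong K ψ) (hN : NormFormulaAlong K ψ hfin)
    {f : F} (hf : f ≠ 0) {D : Divisor K F} (hD : ∀ v, D v = v.ord f) (v : Place K F) :
    Divisor.correspondence φ ψ hφ hψ D v = v.ord (normAlong ψ (φ f)) := by
  rw [Divisor.correspondence_apply]
  exact pushforwardAlong_apply_of_ord ψ hψ hfin hN ((map_ne_zero φ).mpr hf)
    (fun w => pullbackAlong_apply_of_ord φ hφ hD w) v

end NormAlong

section Positive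

variable {K F : Type*} [Field K] [Field F] [Algebra K F] {ι : Type*}

/-- The total mass `Σ n` of a finitely supported function, as an additive map. -/
theorem mass_add (D E : ι →₀ ℤ) :
    ((D + E).sum fun _ n => n) = (D.sum fun _ n => n) + (E.sum fun _ n => n) :=
  Finsupp.sum_add_index' (fun _ => rfl) (fun _ _ _ => rfl)

/-- A positive correspondence of degree `≤ e` sends an effective divisor `D` to an effective
divisor of mass `≤ e * mass D`. -/
theorem isPositive_apply_nonneg {ψ : Divisor K F →+ (ι →₀ ℤ)} {e : ℤ}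
    (hψ : H82.IsPositiveOfDegLE ψ e) {D : Divisor K F} (hD : 0 ≤ D) :
    0 ≤ ψ D ∧ ((ψ D).sum fun _ n => n) ≤ e * (D.sum fun _ n => n) := by
  classical
  induction D using Finsupp.induction with
  | zero => simp
  | single_add P n D hP hn ih =>
    have hnP : 0 ≤ n := by
      have := Finsupp.le_def.mp hD P
      rw [Finsupp.zero_apply, Finsupp.add_apply, Finsupp.single_eq_same,
        Finsupp.notMem_support_iff.mp hP, add_zero] at this
      exact this
    have hD' : 0 ≤ D := by
      rw [Finsupp.le_def]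
      intro Q
      have := Finsupp.le_def.mp hD Q
      rw [Finsupp.zero_apply, Finsupp.add_apply] at this
      rw [Finsupp.zero_apply]
      by_cases hQ : Q = P
      · subst hQ
        rw [Finsupp.notMem_support_iff.mp hP]
      · rwa [Finsupp.single_eq_of_ne hQ, zero_add] at this
    obtain ⟨ih0, ih1⟩ := ih hD'
    obtain ⟨h0, h1⟩ := hψ P
    have hsingle : ψ (Finsupp.single P n) = n.toNat • ψ (Finsupp.single P 1) := by
      rw [← map_nsmul, Finsupp.smul_single, nsmul_eq_mul, mul_one, Int.toNat_of_nonneg hnP]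
    have hmass_nsmul : ∀ (m : ℕ) (E : ι →₀ ℤ),
        ((m • E).sum fun _ n => n) = m * (E.sum fun _ n => n) := by
      intro m E
      induction m with
      | zero => simp
      | succ m ihm => rw [succ_nsmul, mass_add, ihm]; push_cast; ring
    refine ⟨?_, ?_⟩
    · rw [map_add, hsingle]
      exact add_nonneg (nsmul_nonneg h0 _) ih0
    · rw [map_add, mass_add, mass_add, hsingle, hmass_nsmul,
        Finsupp.sum_single_index rfl, mul_add]
      refine add_le_add ?_ ih1
      have hn' : ((n.toNat : ℕ) : ℤ) = n := Int.toNat_of_nonneg hnP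
      rw [hn', mul_comm]
      exact mul_le_mul_of_nonneg_right h1 hnP

/-- **Composites of positive correspondences are positive.** -/
theorem isPositive_comp {φ : Divisor K F →+ Divisor K F} {ψ : Divisor K F →+ (ι →₀ ℤ)}
    {d e : ℤ} (hφ : H82.IsPositiveOfDegLE φ d) (hψ : H82.IsPositiveOfDegLE ψ e) (he : 0 ≤ e) :
    H82.IsPositiveOfDegLE (ψ.comp φ) (e * d) := by
  intro P
  obtain ⟨h0, h1⟩ := hφ P
  obtain ⟨g0, g1⟩ := isPositive_apply_nonneg hψ h0
  refine ⟨g0, g1.trans ?_⟩
  exact mul_le_mul_of_nonneg_left h1 he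

end Positive

section Commute

variable {K F : Type*} [Field K] [Field F] [Algebra K F]

/-- `t : F → F` is a *multiplicative lift* of the divisor map `T` if `T (div f) = div (t f)`. -/
def IsLift (T : Divisor K F →+ Divisor K F) (t : F → F) : Prop :=
  ∀ f : F, f ≠ 0 → t f ≠ 0 ∧ ∀ D : Divisor K F, (∀ v, D v = v.ord f) → ∀ v, T D v = v.ord (t f)

/-- **Commutation by rigidity.**  Two positive correspondences of bounded degree, with lifts to
functions which commute, commute on degree-zero divisors. -/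
theorem comp_eq_comp_on_degZero (T₁ T₂ : Divisor K F →+ Divisor K F) {d₁ d₂ : ℤ}
    (h₁ : H82.IsPositiveOfDegLE T₁ d₁) (h₂ : H82.IsPositiveOfDegLE T₂ d₂)
    (hd₁ : 0 ≤ d₁) (hd₂ : 0 ≤ d₂) (t₁ t₂ : F → F) (ht₁ : IsLift T₁ t₁) (ht₂ : IsLift T₂ t₂)
    (hcomm : ∀ f : F, f ≠ 0 → t₁ (t₂ f) = t₂ (t₁ f))
    {C : ℕ} (hC : H82.HasBoundedReps K F C) :
    ∀ D ∈ Divisor.degZero (K := K) (F := F), T₁ (T₂ D) = T₂ (T₁ D) := by
  have key := H82.eq_on_degZero_of_positive (T₁.comp T₂) (T₂.comp T₁)
    (isPositive_comp h₂ h₁ hd₁) (isPositive_comp h₁ h₂ hd₂) ?_ hC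
  · intro D hD
    exact key D hD
  · rintro D ⟨f, hf, hDf⟩
    rw [AddMonoidHom.comp_apply, AddMonoidHom.comp_apply]
    ext v
    obtain ⟨hf2, hT2⟩ := ht₂ f hf
    obtain ⟨hf1, hT1⟩ := ht₁ f hf
    rw [(ht₁ (t₂ f) hf2).2 (T₂ D) (hT2 D hDf) v, (ht₂ (t₁ f) hf1).2 (T₁ D) (hT1 D hDf) v,
      hcomm f hf]

end Commute

end Fermat.Agent.S29.H87
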