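import Mathlib
import Fermat.Prelude.Def_ModularCurve_HeckeOperator
import Fermat.Agent.S24.Defs
import Fermat.Agent.S24.H40_Generation
import Fermat.Agent.S24.H40_M123
import Fermat.Agent.S28.H40_Degree
import Fermat.Agent.S28.H64_Triples

/-!
# Level maps between the function fields `FN M` (helper87, S29 / T1)

`inclHom h : FN M →ₐ FN M'` (`M ∣ M'`, underlying map `id`) and
`expHom d h : FN M →ₐ FN M'` (`M * d ∣ M'`, underlying map `q ↦ q^d`), their composition laws,
the identification with the prelude's `heckeAlphaBar`, `heckeBetaBar`, the two-generator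
description `FN M = Qbar(j, j_M)` and the degree formula `[FN M' : FN M] ψ(M) = ψ(M')`.
-/

set_option autoImplicit false

noncomputable section

namespace Fermat.Agent.S29.H87

open ModularCurve IntermediateField AlgebraicCurve
open Fermat.Agent.S24

section Defs

variable (L : Type*) [Field L] [Algebra ℚ L]

/-- monotonicity of the base change (the prelude's copy is private). -/
theorem laurentBaseChange_mono {F₀ F₁ : IntermediateField ℚ (LaurentSeries ℚ)} (h : F₀ ≤ F₁) :
    laurentBaseChange L F₀ ≤ laurentBaseChange L F₁ := by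
  rw [laurentBaseChange, IntermediateField.adjoin_le_iff]
  rintro _ ⟨y, hy, rfl⟩
  exact coeffEmb_mem_laurentBaseChange L (h hy)

theorem full_le_of_dvd {M M' : ℕ} [NeZero M] [NeZero M'] (h : M ∣ M') :
    laurentBaseChange L (modularFunctionFieldFull M) ≤
      laurentBaseChange L (modularFunctionFieldFull M') :=
  laurentBaseChange_mono L (full_degeneracy_le h)

/-- The inclusion `F_M ⊆ F_{M'}` for `M ∣ M'`. -/
def inclHom (M M' : ℕ) [NeZero M] [NeZero M'] (h : M ∣ M') :
    laurentBaseChange L (modularFunctionFieldFull M) →ₐ[L]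
      laurentBaseChange L (modularFunctionFieldFull M') :=
  IntermediateField.inclusion (full_le_of_dvd L h)

@[simp]
theorem coe_inclHom {M M' : ℕ} [NeZero M] [NeZero M'] (h : M ∣ M')
    (x : laurentBaseChange L (modularFunctionFieldFull M)) :
    (inclHom L M M' h x : LaurentSeries L) = (x : LaurentSeries L) :=
  IntermediateField.coe_inclusion _ x

theorem qExpand_congr {R : Type*} [CommRing R] {a b : ℕ} [NeZero a] [NeZero b] (h : a = b)
    (x : LaurentSeries R) : qExpand R a x = qExpand R b x := by
  subst h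
  rfl

theorem qExpand_mem_of_dvd (d : ℕ) [NeZero d] {M M' : ℕ} [NeZero M] [NeZero M']
    (h : M * d ∣ M') {x : LaurentSeries L}
    (hx : x ∈ laurentBaseChange L (modularFunctionFieldFull M)) :
    qExpand L d x ∈ laurentBaseChange L (modularFunctionFieldFull M') :=
  full_le_of_dvd L h (heckeBetaBar L M d ⟨x, hx⟩).2

/-- The map `f(q) ↦ f(q^d)` from `F_M` to `F_{M'}` for `M d ∣ M'`. -/
def expHom (d : ℕ) [NeZero d] (M M' : ℕ) [NeZero M] [NeZero M'] (h : M * d ∣ M') :
    laurentBaseChange L (modularFunctionFieldFull M) →ₐ[L]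
      laurentBaseChange L (modularFunctionFieldFull M') where
  toFun x := ⟨qExpand L d (x : LaurentSeries L), qExpand_mem_of_dvd L d h x.2⟩
  map_one' := Subtype.ext (map_one (qExpand L d))
  map_mul' _ _ := Subtype.ext (map_mul (qExpand L d) _ _)
  map_zero' := Subtype.ext (map_zero (qExpand L d))
  map_add' _ _ := Subtype.ext (map_add (qExpand L d) _ _)
  commutes' a := Subtype.ext <| by
    show qExpand L d (algebraMap L (LaurentSeries L) a) = algebraMap L (LaurentSeries L) a
    rw [algebraMap_laurentSeries_eq_single, qExpand_single, mul_zero]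

@[simp]
theorem coe_expHom (d : ℕ) [NeZero d] {M M' : ℕ} [NeZero M] [NeZero M'] (h : M * d ∣ M')
    (x : laurentBaseChange L (modularFunctionFieldFull M)) :
    (expHom L d M M' h x : LaurentSeries L) = qExpand L d (x : LaurentSeries L) :=
  rfl

theorem heckeAlphaBar_eq_inclHom (N ℓ : ℕ) [NeZero N] [NeZero ℓ] :
    heckeAlphaBar L N ℓ = inclHom L N (N * ℓ) (dvd_mul_right N ℓ) :=
  rfl

theorem heckeBetaBar_eq_expHom (N ℓ : ℕ) [NeZero N] [NeZero ℓ] :
    heckeBetaBar L N ℓ = expHom L ℓ N (N * ℓ) dvd_rfl :=
  AlgHom.ext fun _ => Subtype.ext rfl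

end Defs

end Fermat.Agent.S29.H87
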