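import Mathlib
import Fermat.Agent.S29.H87_LevelMaps

/-!
# Degrees of the level maps (helper87, S29 / T1)

* `adjoin_jBar_jd_eq_top` : `FN M = Qbar(j, j_M)`;
* `finrank_incl_mul_psi`  : `[FN M : FN M₁] * ψ(M₁) = ψ(M)` for `M₁ ∣ M` (inclusion);
* `finite_incl`           : `FN M` is finite over `FN M₁`.
-/

set_option autoImplicit false

noncomputable section

namespace Fermat.Agent.S29.H87

open ModularCurve IntermediateField AlgebraicCurve
open Fermat.Agent.S24

section TwoGen

variable (M : ℕ) [NeZero M]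

/-- `FN M = Qbar(j, j_M)`. -/
theorem adjoin_jBar_jd_eq_top :
    IntermediateField.adjoin Qbar ({jBar M, jd M M dvd_rfl} : Set (FN M)) = ⊤ := by
  apply IntermediateField.lift_injective (modularFunctionFieldBar M)
  rw [lift_adjoin, lift_top]
  show _ = laurentBaseChange Qbar (modularFunctionFieldFull M)
  rw [Fermat.Agent.S28.H40.modularFunctionFieldFull_eq, modularFunctionField,
    Fermat.Agent.S24.H40.laurentBaseChange_adjoin]
  congr 1
  rw [Set.image_insert_eq, Set.image_singleton, Set.image_insert_eq, Set.image_singleton]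
  rfl

end TwoGen

section Incl

variable {M₁ M : ℕ} [NeZero M₁] [NeZero M] (h : M₁ ∣ M)

theorem inclHom_jBar : inclHom Qbar M₁ M h (jBar M₁) = jBar M :=
  Subtype.ext (by rw [coe_inclHom]; rfl)

/-- the image of `Qbar(j)` at level `M₁` is `Qbar(j)` at level `M`. -/
theorem map_adjoin_jBar :
    (IntermediateField.adjoin Qbar {jBar M₁}).map (inclHom Qbar M₁ M h)
      = IntermediateField.adjoin Qbar {jBar M} := by
  rw [IntermediateField.adjoin_map, Set.image_singleton, inclHom_jBar]

/-- `Qbar(j) ≃ Qbar(j)` between the two levels. -/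
def jEquiv : (IntermediateField.adjoin Qbar {jBar M₁}) ≃ₐ[Qbar]
    (IntermediateField.adjoin Qbar {jBar M}) :=
  ((IntermediateField.adjoin Qbar {jBar M₁}).equivMap (inclHom Qbar M₁ M h)).trans
    (IntermediateField.equivOfEq (map_adjoin_jBar h))

theorem coe_jEquiv (x : IntermediateField.adjoin Qbar {jBar M₁}) :
    ((jEquiv h x : IntermediateField.adjoin Qbar {jBar M}) : FN M)
      = inclHom Qbar M₁ M h (x : FN M₁) :=
  rfl

/-- **Degree formula**: `[FN M : FN M₁] * ψ(M₁) = ψ(M)`. -/
theorem finrank_incl_mul_psi :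
    letI := (inclHom Qbar M₁ M h).toRingHom.toAlgebra
    Module.finrank (FN M₁) (FN M) * dedekindPsi M₁ = dedekindPsi M := by
  letI alg : Algebra (FN M₁) (FN M) := (inclHom Qbar M₁ M h).toRingHom.toAlgebra
  letI alg' : Algebra (IntermediateField.adjoin Qbar {jBar M₁}) (FN M) :=
    ((algebraMap (FN M₁) (FN M)).comp
      (algebraMap (IntermediateField.adjoin Qbar {jBar M₁}) (FN M₁))).toAlgebra
  haveI : IsScalarTower (IntermediateField.adjoin Qbar {jBar M₁}) (FN M₁) (FN M) :=
    IsScalarTower.of_algebraMap_eq fun _ => rfl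
  have h1 : Module.finrank (IntermediateField.adjoin Qbar {jBar M₁}) (FN M₁)
      * Module.finrank (FN M₁) (FN M)
      = Module.finrank (IntermediateField.adjoin Qbar {jBar M₁}) (FN M) :=
    Module.finrank_mul_finrank _ _ _
  have h2 : Module.finrank (IntermediateField.adjoin Qbar {jBar M₁}) (FN M)
      = Module.finrank (IntermediateField.adjoin Qbar {jBar M}) (FN M) := by
    refine Algebra.finrank_eq_of_equiv_equiv (jEquiv h).toRingEquiv (RingEquiv.refl (FN M)) ?_
    ext x
    rfl
  rw [Fermat.Agent.S28.H40.finrank_FN_eq_psi] at h1 h2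
  rw [h2] at h1
  rw [mul_comm]
  exact h1

theorem dedekindPsi_pos' (M : ℕ) [NeZero M] : 0 < dedekindPsi M := by
  haveI := Fermat.Agent.S24.H40.finiteDimensional_FN M
  rw [← Fermat.Agent.S28.H40.finrank_FN_eq_psi]
  exact Module.finrank_pos

/-- `FN M` is finite over `FN M₁`. -/
theorem finite_incl :
    letI := (inclHom Qbar M₁ M h).toRingHom.toAlgebra
    Module.Finite (FN M₁) (FN M) := by
  letI alg : Algebra (FN M₁) (FN M) := (inclHom Qbar M₁ M h).toRingHom.toAlgebra
  have h1 := finrank_incl_mul_psi h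
  have hpos : 0 < Module.finrank (FN M₁) (FN M) := by
    rcases Nat.eq_zero_or_pos (Module.finrank (FN M₁) (FN M)) with h0 | h0
    · rw [h0, zero_mul] at h1
      exact absurd h1.symm (dedekindPsi_pos' M).ne'
    · exact h0
  exact Module.finite_of_finrank_pos hpos

end Incl

end Fermat.Agent.S29.H87
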