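import Mathlib

/-!
# Norm base change in a cocartesian square of fields (helper87, S29 / T1)

`F →(algebraMap) F₁`, `F →(b) F₂`, `F₁ →(B) E`, `F₂ →(algebraMap) E` a commutative square of
fields with `[E : F₂] = [F₁ : F]` finite and `E` spanned over `F₂` by `B(F₁)`.  Then
`Nm_{E/F₂}(B x) = b (Nm_{F₁/F} x)`.
-/

set_option autoImplicit false

namespace Fermat.Agent.S29.H87

open Module

section NormBaseChange

variable {F F₁ F₂ E : Type*} [Field F] [Field F₁] [Field F₂] [Field E]
  [Algebra F F₁] [Algebra F₂ E] (b : F →+* F₂) (B : F₁ →+* E)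

/-- `B` is semilinear over `b`: image of a linear combination. -/
theorem map_sum_smul (hcomm : ∀ x : F, B (algebraMap F F₁ x) = algebraMap F₂ E (b x))
    {ι : Type*} (s : Finset ι) (c : ι → F) (v : ι → F₁) :
    B (∑ i ∈ s, c i • v i) = ∑ i ∈ s, b (c i) • B (v i) := by
  rw [map_sum]
  refine Finset.sum_congr rfl fun i _ => ?_
  rw [Algebra.smul_def, map_mul, hcomm, ← Algebra.smul_def]

/-- The image under `B` of a basis of `F₁/F` is a basis of `E/F₂`, provided the degrees agree and
`B(F₁)` spans `E` over `F₂`. -/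
theorem exists_basis_map [FiniteDimensional F F₁]
    (hcomm : ∀ x : F, B (algebraMap F F₁ x) = algebraMap F₂ E (b x))
    (hrank : Module.finrank F₂ E = Module.finrank F F₁)
    (hgen : ⊤ ≤ Submodule.span F₂ (Set.range B))
    (v : Basis (Fin (Module.finrank F F₁)) F F₁) :
    ∃ v' : Basis (Fin (Module.finrank F F₁)) F₂ E, ∀ i, v' i = B (v i) := by
  have hspan : ⊤ ≤ Submodule.span F₂ (Set.range fun i => B (v i)) := by
    refine hgen.trans (Submodule.span_le.mpr ?_)
    rintro _ ⟨y, rfl⟩
    have hy : y = ∑ i, v.repr y i • v i := (v.sum_repr y).symm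
    rw [hy, map_sum_smul b B hcomm]
    exact Submodule.sum_mem _ fun i _ =>
      Submodule.smul_mem _ _ (Submodule.subset_span ⟨i, rfl⟩)
  have hcard : Fintype.card (Fin (Module.finrank F F₁)) = Module.finrank F₂ E := by
    rw [Fintype.card_fin, hrank]
  refine ⟨basisOfTopLeSpanOfCardEqFinrank (fun i => B (v i)) hspan hcard, fun i => ?_⟩
  rw [coe_basisOfTopLeSpanOfCardEqFinrank]

/-- **Norm base change.** -/
theorem norm_baseChange [FiniteDimensional F F₁]
    (hcomm : ∀ x : F, B (algebraMap F F₁ x) = algebraMap F₂ E (b x))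
    (hrank : Module.finrank F₂ E = Module.finrank F F₁)
    (hgen : ⊤ ≤ Submodule.span F₂ (Set.range B)) (x : F₁) :
    Algebra.norm F₂ (B x) = b (Algebra.norm F x) := by
  classical
  set v := Module.finBasis F F₁ with hv
  obtain ⟨v', hv'⟩ := exists_basis_map b B hcomm hrank hgen v
  rw [Algebra.norm_eq_matrix_det v', Algebra.norm_eq_matrix_det v, RingHom.map_det]
  congr 1
  ext i j
  rw [RingHom.mapMatrix_apply, Matrix.map_apply, Algebra.leftMulMatrix_eq_repr_mul,
    Algebra.leftMulMatrix_eq_repr_mul]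
  have h1 : B x * v' j = ∑ k, b (v.repr (x * v j) k) • v' k := by
    rw [hv', ← map_mul]
    conv_lhs => rw [← v.sum_repr (x * v j)]
    rw [map_sum_smul b B hcomm]
    exact Finset.sum_congr rfl fun k _ => by rw [hv']
  rw [h1, v'.repr_sum_self]

end NormBaseChange

end Fermat.Agent.S29.H87
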