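import Mathlib
import Fermat.Agent.S29.H87_LevelDegree
import Fermat.Agent.S29.H87_NormBaseChange
import Fermat.Agent.S29.H87_CorrComm

/-!
# The multiplicative Hecke operators commute on functions (helper87, S29 / T1)

`hecke_func_comm` : for primes `ℓ ≠ ℓ'` and `f ∈ FN N`,
`Nm_{α_ℓ}(β_ℓ(Nm_{α_ℓ'}(β_ℓ' f))) = Nm_{α_ℓ'}(β_ℓ'(Nm_{α_ℓ}(β_ℓ f)))`,
both being `Nm_{F_{Nℓℓ'}/F_N}(f(q^{ℓℓ'}))`.  Pure field theory: norm base change in the linearly
disjoint square `F_N ⊆ F_{Nℓ'}`, `β_ℓ : F_N → F_{Nℓ}` (degrees from `ψ`) + transitivity of norms.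
-/

set_option autoImplicit false

noncomputable section

namespace Fermat.Agent.S29.H87

open ModularCurve IntermediateField AlgebraicCurve
open Fermat.Agent.S24

section Generation

variable {M₁ M₂ M d : ℕ} [NeZero M₁] [NeZero M₂] [NeZero M] [NeZero d]

theorem expHom_jd (h₂ : M₂ * d ∣ M) (hM : M = d * M₂) :
    expHom Qbar d M₂ M h₂ (jd M₂ M₂ dvd_rfl) = jd M M dvd_rfl := by
  apply Subtype.ext
  rw [coe_expHom]
  show qExpand Qbar d (coeffEmb Qbar (qExpand ℚ M₂ jq)) = coeffEmb Qbar (qExpand ℚ M jq)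
  haveI : NeZero (d * M₂) := ⟨hM ▸ NeZero.ne M⟩
  rw [coeffEmb, ← coeffMap_qExpand, qExpand_qExpand, qExpand_congr hM]

/-- `FN M` is spanned over `FN M₁` by the image of `q ↦ q^d : FN M₂ → FN M` (`M = d M₂`). -/
theorem span_range_expHom (h₁ : M₁ ∣ M) (h₂ : M₂ * d ∣ M) (hM : M = d * M₂) :
    letI := (inclHom Qbar M₁ M h₁).toRingHom.toAlgebra
    ⊤ ≤ Submodule.span (FN M₁) (Set.range (expHom Qbar d M₂ M h₂)) := by
  letI alg : Algebra (FN M₁) (FN M) := (inclHom Qbar M₁ M h₁).toRingHom.toAlgebra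
  haveI : Module.Finite (FN M₁) (FN M) := finite_incl h₁
  set S : Subalgebra (FN M₁) (FN M) :=
    Algebra.adjoin (FN M₁) (Set.range (expHom Qbar d M₂ M h₂)) with hS
  have hspan : Subalgebra.toSubmodule S
      = Submodule.span (FN M₁) (Set.range (expHom Qbar d M₂ M h₂)) := by
    rw [hS, Algebra.adjoin_eq_span]
    congr 1
    have := Submonoid.closure_eq (MonoidHom.mrange
      ((expHom Qbar d M₂ M h₂ : FN M₂ →+* FN M) : FN M₂ →* FN M))
    rw [MonoidHom.coe_mrange] at this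
    exact congrArg _ this
  have hall : ∀ x : FN M, x ∈ S := by
    intro x
    have hx : x ∈ IntermediateField.adjoin Qbar ({jBar M, jd M M dvd_rfl} : Set (FN M)) := by
      rw [adjoin_jBar_jd_eq_top]
      exact IntermediateField.mem_top
    induction hx using IntermediateField.adjoin_induction with
    | mem y hy =>
      rcases hy with rfl | hy
      · rw [← inclHom_jBar h₁]
        exact S.algebraMap_mem (jBar M₁)
      · rw [Set.mem_singleton_iff] at hy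
        rw [hy, ← expHom_jd h₂ hM]
        exact Algebra.subset_adjoin ⟨_, rfl⟩
    | algebraMap r =>
      have : algebraMap Qbar (FN M) r = algebraMap (FN M₁) (FN M) (algebraMap Qbar (FN M₁) r) :=
        ((inclHom Qbar M₁ M h₁).commutes r).symm
      rw [this]
      exact S.algebraMap_mem _
    | add y z _ _ hy hz => exact S.add_mem hy hz
    | inv y _ hy =>
      exact S.inv_mem_of_algebraic (x := ⟨y, hy⟩) (Algebra.IsAlgebraic.isAlgebraic y)
    | mul y z _ _ hy hz => exact S.mul_mem hy hz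
  intro x _
  rw [← hspan]
  exact hall x

end Generation

section BaseChange

variable {M₀ M₁ M₂ M d : ℕ} [NeZero M₀] [NeZero M₁] [NeZero M₂] [NeZero M] [NeZero d]

/-- **Norm base change for the level maps.** -/
theorem normAlong_expHom (h₀₂ : M₀ ∣ M₂) (hb : M₀ * d ∣ M₁) (h₁ : M₁ ∣ M) (hB : M₂ * d ∣ M)
    (hM : M = d * M₂)
    (hpsi : dedekindPsi M * dedekindPsi M₀ = dedekindPsi M₁ * dedekindPsi M₂) (g : FN M₂) :
    normAlong (inclHom Qbar M₁ M h₁) (expHom Qbar d M₂ M hB g)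
      = expHom Qbar d M₀ M₁ hb (normAlong (inclHom Qbar M₀ M₂ h₀₂) g) := by
  letI alg₁ : Algebra (FN M₁) (FN M) := (inclHom Qbar M₁ M h₁).toRingHom.toAlgebra
  letI alg₀ : Algebra (FN M₀) (FN M₂) := (inclHom Qbar M₀ M₂ h₀₂).toRingHom.toAlgebra
  haveI : Module.Finite (FN M₀) (FN M₂) := finite_incl h₀₂
  have hrank : Module.finrank (FN M₁) (FN M) = Module.finrank (FN M₀) (FN M₂) := by
    have e₁ := finrank_incl_mul_psi h₁
    have e₀ := finrank_incl_mul_psi h₀₂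
    have p₀ := dedekindPsi_pos' M₀
    have p₁ := dedekindPsi_pos' M₁
    have : Module.finrank (FN M₁) (FN M) * (dedekindPsi M₁ * dedekindPsi M₀)
        = Module.finrank (FN M₀) (FN M₂) * (dedekindPsi M₁ * dedekindPsi M₀) := by
      calc Module.finrank (FN M₁) (FN M) * (dedekindPsi M₁ * dedekindPsi M₀)
          = (Module.finrank (FN M₁) (FN M) * dedekindPsi M₁) * dedekindPsi M₀ := by ring
        _ = dedekindPsi M₁ * (Module.finrank (FN M₀) (FN M₂) * dedekindPsi M₀) := by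
            rw [e₁, e₀, hpsi]
        _ = _ := by ring
    exact Nat.eq_of_mul_eq_mul_right (Nat.mul_pos p₁ p₀) this
  have hcomm : ∀ x : FN M₀, (expHom Qbar d M₂ M hB : FN M₂ →+* FN M) (algebraMap (FN M₀) (FN M₂) x)
      = algebraMap (FN M₁) (FN M) ((expHom Qbar d M₀ M₁ hb : FN M₀ →+* FN M₁) x) := by
    intro x
    apply Subtype.ext
    show ((expHom Qbar d M₂ M hB (inclHom Qbar M₀ M₂ h₀₂ x) : FN M) : LaurentSeries Qbar)
      = ((inclHom Qbar M₁ M h₁ (expHom Qbar d M₀ M₁ hb x) : FN M) : LaurentSeries Qbar)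
    rw [coe_expHom, coe_inclHom, coe_inclHom, coe_expHom]
  exact norm_baseChange (expHom Qbar d M₀ M₁ hb : FN M₀ →+* FN M₁)
    (expHom Qbar d M₂ M hB : FN M₂ →+* FN M) hcomm hrank (span_range_expHom h₁ hB hM) g

/-- **Transitivity of norms along inclusions.** -/
theorem normAlong_inclHom_trans (h₀₁ : M₀ ∣ M₁) (h₁ : M₁ ∣ M) (y : FN M) :
    normAlong (inclHom Qbar M₀ M₁ h₀₁) (normAlong (inclHom Qbar M₁ M h₁) y)
      = normAlong (inclHom Qbar M₀ M (h₀₁.trans h₁)) y := by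
  letI alg₁ : Algebra (FN M₁) (FN M) := (inclHom Qbar M₁ M h₁).toRingHom.toAlgebra
  letI alg₀ : Algebra (FN M₀) (FN M₁) := (inclHom Qbar M₀ M₁ h₀₁).toRingHom.toAlgebra
  letI alg : Algebra (FN M₀) (FN M) := (inclHom Qbar M₀ M (h₀₁.trans h₁)).toRingHom.toAlgebra
  haveI : IsScalarTower (FN M₀) (FN M₁) (FN M) :=
    IsScalarTower.of_algebraMap_eq fun x => Subtype.ext (by
      show ((inclHom Qbar M₀ M (h₀₁.trans h₁) x : FN M) : LaurentSeries Qbar)
        = ((inclHom Qbar M₁ M h₁ (inclHom Qbar M₀ M₁ h₀₁ x) : FN M) : LaurentSeries Qbar)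
      rw [coe_inclHom, coe_inclHom, coe_inclHom])
  exact Algebra.norm_norm

end BaseChange

section Comm

variable (N : ℕ) [NeZero N]

theorem psi_identity {ℓ ℓ' : ℕ} (hℓ : ℓ.Prime) (hℓ' : ℓ'.Prime) (hne : ℓ ≠ ℓ') :
    dedekindPsi (N * ℓ * ℓ') * dedekindPsi N = dedekindPsi (N * ℓ) * dedekindPsi (N * ℓ') := by
  have hN : 0 < N := Nat.pos_of_ne_zero (NeZero.ne N)
  have h1 : dedekindPsi (N * ℓ * ℓ')
      = dedekindPsi (N * ℓ) * (if ℓ' ∣ N * ℓ then ℓ' else ℓ' + 1) := by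
    rw [mul_comm (N * ℓ) ℓ']
    exact Fermat.Agent.S28.H64.dedekindPsi_prime_mul hℓ' (Nat.mul_pos hN hℓ.pos)
  have h2 : dedekindPsi (N * ℓ') = dedekindPsi N * (if ℓ' ∣ N then ℓ' else ℓ' + 1) := by
    rw [mul_comm N ℓ']
    exact Fermat.Agent.S28.H64.dedekindPsi_prime_mul hℓ' hN
  have hiff : ℓ' ∣ N * ℓ ↔ ℓ' ∣ N := by
    constructor
    · intro h
      rcases (Nat.Prime.dvd_mul hℓ').mp h with h | h
      · exact h
      · exact absurd ((Nat.prime_dvd_prime_iff_eq hℓ' hℓ).mp h).symm hne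
    · exact fun h => Dvd.dvd.mul_right h ℓ
  rw [h1, h2]
  simp only [hiff]
  ring

variable {ℓ ℓ' : ℕ} [NeZero ℓ] [NeZero ℓ']

/-- `T_ℓ T_ℓ'` on functions is the norm from level `N ℓ ℓ'` of `f(q^{ℓ ℓ'})`. -/
theorem hecke_func_comp (hℓ : ℓ.Prime) (hℓ' : ℓ'.Prime) (hne : ℓ ≠ ℓ') (f : FN N) :
    normAlong (heckeAlphaBar Qbar N ℓ)
        (heckeBetaBar Qbar N ℓ (normAlong (heckeAlphaBar Qbar N ℓ') (heckeBetaBar Qbar N ℓ' f)))
      = normAlong (inclHom Qbar N (N * ℓ * ℓ') ⟨ℓ * ℓ', by ring⟩)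
          (expHom Qbar (ℓ * ℓ') N (N * ℓ * ℓ') ⟨1, by ring⟩ f) := by
  rw [heckeAlphaBar_eq_inclHom, heckeBetaBar_eq_expHom, heckeAlphaBar_eq_inclHom,
    heckeBetaBar_eq_expHom]
  rw [← normAlong_expHom (M₀ := N) (M₁ := N * ℓ) (M₂ := N * ℓ') (M := N * ℓ * ℓ') (d := ℓ)
    (dvd_mul_right N ℓ') dvd_rfl (dvd_mul_right (N * ℓ) ℓ') ⟨1, by ring⟩ (by ring)
    (psi_identity N hℓ hℓ' hne)]
  rw [normAlong_inclHom_trans]
  congr 1
  apply Subtype.ext
  rw [coe_expHom, coe_expHom, coe_expHom, qExpand_qExpand]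

omit [NeZero ℓ] [NeZero ℓ'] in
theorem normAlong_congr_level {M M' e e' : ℕ} [NeZero M] [NeZero M'] [NeZero e] [NeZero e']
    (hMM : M = M') (hee : e = e') (h : N ∣ M) (h' : N ∣ M') (k : N * e ∣ M) (k' : N * e' ∣ M')
    (f : FN N) :
    normAlong (inclHom Qbar N M h) (expHom Qbar e N M k f)
      = normAlong (inclHom Qbar N M' h') (expHom Qbar e' N M' k' f) := by
  subst hMM
  subst hee
  rfl

/-- **The multiplicative Hecke operators commute on functions.** -/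
theorem hecke_func_comm (hℓ : ℓ.Prime) (hℓ' : ℓ'.Prime) (hne : ℓ ≠ ℓ') (f : FN N) :
    normAlong (heckeAlphaBar Qbar N ℓ)
        (heckeBetaBar Qbar N ℓ (normAlong (heckeAlphaBar Qbar N ℓ') (heckeBetaBar Qbar N ℓ' f)))
      = normAlong (heckeAlphaBar Qbar N ℓ')
        (heckeBetaBar Qbar N ℓ' (normAlong (heckeAlphaBar Qbar N ℓ) (heckeBetaBar Qbar N ℓ f))) := by
  rw [hecke_func_comp N hℓ hℓ' hne, hecke_func_comp N hℓ' hℓ hne.symm]
  exact normAlong_congr_level N (by ring) (mul_comm ℓ ℓ') _ _ _ _ f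

end Comm

end Fermat.Agent.S29.H87
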