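import Mathlib

/-!
# Algebras spanned by a group of quadratic elements

Let `k` be a field, `A` a `k`-algebra, `ρ : G →* A` a monoid homomorphism from a group and
`t : G → k`, `d : G →* kˣ` such that every `ρ g` satisfies `X² - t(g) X + d(g) = 0`.
Then EVERY element of the `k`-span of `ρ(G)` satisfies a monic quadratic polynomial over `k`
(no assumption on the characteristic).

This is the algebraic heart of the construction of two-dimensional residual representations from
"Eichler–Shimura" quadratic relations on a module of unknown dimension.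
-/

set_option autoImplicit false

namespace Fermat.Agent.S29.H29

open scoped BigOperators

section Quad

variable {k : Type*} [Field k] {A : Type*} [Ring A] [Algebra k A]

/-- `x` satisfies a monic quadratic polynomial over `k`. -/
def IsQuad (k : Type*) [Field k] {A : Type*} [Ring A] [Algebra k A] (x : A) : Prop :=
  ∃ τ ν : k, x * x = τ • x - ν • (1 : A)

lemma IsQuad.map {B : Type*} [Ring B] [Algebra k B] (f : A →ₐ[k] B) {x : A} (hx : IsQuad k x) :
    IsQuad k (f x) := by
  obtain ⟨τ, ν, h⟩ := hx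
  refine ⟨τ, ν, ?_⟩
  rw [← map_mul, h, map_sub, map_smul, map_smul, map_one]

/-- Powers of a quadratic element with "norm" `b`: `(x^j)² = t_j x^j - b^j`. -/
lemma exists_pow_quad {x : A} {a b : k} (hx : x * x = a • x - b • (1 : A)) (j : ℕ) :
    ∃ s : k, x ^ j * x ^ j = s • x ^ j - (b ^ j) • (1 : A) := by
  -- the conjugate `y = a - x` commutes with `x`, `x * y = b`, and `x^j + y^j` is a scalar
  set y : A := a • (1 : A) - x with hy
  have hxy : x * y = b • (1 : A) := by
    rw [hy, mul_sub, hx, mul_smul_comm, mul_one]; abel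
  have hyx : y * x = b • (1 : A) := by
    rw [hy, sub_mul, hx, smul_mul_assoc, one_mul]; abel
  have hcomm : Commute x y := by rw [Commute, SemiconjBy, hxy, hyx]
  -- `x^j + y^j` is a scalar, by a two-step induction
  have hsum : ∀ j : ℕ, ∃ s : k, x ^ j + y ^ j = s • (1 : A) ∧
      ∃ s' : k, x ^ (j + 1) + y ^ (j + 1) = s' • (1 : A) := by
    intro j
    induction j with
    | zero =>
      refine ⟨2, ?_, a, ?_⟩
      · rw [pow_zero, pow_zero, two_smul]
      · rw [zero_add, pow_one, pow_one, hy]; abel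
    | succ j ih =>
      obtain ⟨s, hs, s', hs'⟩ := ih
      refine ⟨s', hs', a * s' - b * s, ?_⟩
      have h1 : x ^ (j + 1 + 1) + y ^ (j + 1 + 1) =
          (x + y) * (x ^ (j + 1) + y ^ (j + 1)) - (x * y) * (x ^ j + y ^ j) := by
        have e1 : y * x ^ (j + 1) = (x * y) * x ^ j := by
          rw [pow_succ', ← mul_assoc, hyx, hxy]
        have e2 : x * y ^ (j + 1) = (x * y) * y ^ j := by
          rw [pow_succ', ← mul_assoc]
        rw [add_mul, mul_add, mul_add, e1, e2, mul_add, pow_succ' x (j + 1), pow_succ' y (j + 1)]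
        abel
      have h2 : x + y = a • (1 : A) := by rw [hy]; abel
      rw [h1, h2, hxy, hs, hs', smul_mul_assoc, one_mul, smul_mul_assoc, one_mul, smul_smul,
        smul_smul, sub_smul]
  obtain ⟨s, hs, -⟩ := hsum j
  refine ⟨s, ?_⟩
  have hprod : x ^ j * y ^ j = (b ^ j) • (1 : A) := by
    rw [← hcomm.mul_pow, hxy, smul_pow, one_pow]
  have hyj : y ^ j = s • (1 : A) - x ^ j := by rw [← hs]; abel
  rw [hyj, mul_sub, mul_smul_comm, mul_one] at hprod
  rw [← hprod]; abel

end Quad

section Span

variable {k : Type*} [Field k] {A : Type*} [Ring A] [Algebra k A] {G : Type*} [Group G]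
  (ρ : G →* A) (t : G → k) (d : G →* kˣ)

/-- The hypothesis: every `ρ g` satisfies `X² - t(g) X + d(g)`. -/
def QuadRel : Prop := ∀ g : G, ρ g * ρ g = t g • ρ g - ((d g : kˣ) : k) • (1 : A)

variable {ρ t d}

/-- the conjugate `t(g) - ρ(g)` -/
private def conj (ρ : G →* A) (t : G → k) (g : G) : A := t g • (1 : A) - ρ g

private lemma mul_conj (h : QuadRel ρ t d) (g : G) :
    ρ g * conj ρ t g = ((d g : kˣ) : k) • (1 : A) := by
  rw [conj, mul_sub, h g, mul_smul_comm, mul_one]; abel

private lemma conj_mul_anti (h : QuadRel ρ t d) (g g' : G) :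
    conj ρ t (g * g') = conj ρ t g' * conj ρ t g := by
  -- cancel the invertible `ρ (g * g')`
  have hinv : ∀ x y : A, ρ (g * g') * x = ρ (g * g') * y → x = y := by
    intro x y hxy
    have := congrArg (fun z => ρ (g * g')⁻¹ * z) hxy
    simpa [← mul_assoc, ← map_mul] using this
  apply hinv
  rw [mul_conj h]
  have e : ρ (g * g') * (conj ρ t g' * conj ρ t g) =
      ρ g * ((ρ g' * conj ρ t g') * conj ρ t g) := by
    rw [map_mul]; simp only [mul_assoc]
  rw [e, mul_conj h, smul_mul_assoc, one_mul, mul_smul_comm, mul_conj h, smul_smul, map_mul d,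
    Units.val_mul, mul_comm ((d g' : kˣ) : k)]

/-- The basic anticommutator relation. -/
lemma anticomm (h : QuadRel ρ t d) (g g' : G) :
    ρ g * ρ g' + ρ g' * ρ g =
      (t (g * g') - t g * t g') • (1 : A) + t g' • ρ g + t g • ρ g' := by
  have h1 := conj_mul_anti h g g'
  simp only [conj, map_mul, sub_mul, mul_sub, smul_mul_assoc, mul_smul_comm, one_mul, mul_one,
    ] at h1
  linear_combination (norm := module) (-1 : k) • h1

/-- the inductive invariant -/
private def Inv (ρ : G →* A) (t : G → k) (x : A) : Prop :=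
  ∃ τ ν : k, x * x = τ • x - ν • (1 : A) ∧
    ∀ g : G, ∃ μ : k, x * ρ g + ρ g * x = μ • (1 : A) + t g • x + τ • ρ g

private lemma inv_zero : Inv ρ t (0 : A) :=
  ⟨0, 0, by simp, fun g => ⟨0, by simp⟩⟩

private lemma inv_add (h : QuadRel ρ t d) {x : A} (hx : Inv ρ t x) (c : k) (g₀ : G) :
    Inv ρ t (x + c • ρ g₀) := by
  obtain ⟨τ, ν, hsq, hanti⟩ := hx
  obtain ⟨μ₀, hμ₀⟩ := hanti g₀
  refine ⟨τ + c * t g₀, ν - c * μ₀ + c * c * ((d g₀ : kˣ) : k), ?_, fun g => ?_⟩
  · have e : (x + c • ρ g₀) * (x + c • ρ g₀) =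
        x * x + c • (x * ρ g₀ + ρ g₀ * x) + (c * c) • (ρ g₀ * ρ g₀) := by
      simp only [add_mul, mul_add, mul_smul_comm, smul_mul_assoc, smul_smul, smul_add]
      abel
    rw [e, hsq, hμ₀, h g₀]
    module
  · obtain ⟨μ, hμ⟩ := hanti g
    refine ⟨μ + c * (t (g₀ * g) - t g₀ * t g), ?_⟩
    have e : (x + c • ρ g₀) * ρ g + ρ g * (x + c • ρ g₀) =
        (x * ρ g + ρ g * x) + c • (ρ g₀ * ρ g + ρ g * ρ g₀) := by
      simp only [add_mul, mul_add, smul_mul_assoc, mul_smul_comm, smul_add]; abel
    rw [e, hμ, anticomm h g₀ g]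
    module

/-- Every element of the `k`-span of `ρ(G)` is quadratic over `k`. -/
theorem isQuad_of_mem_span (h : QuadRel ρ t d) {x : A}
    (hx : x ∈ Submodule.span k (Set.range ρ)) : IsQuad k x := by
  rw [Finsupp.mem_span_range_iff_exists_finsupp] at hx
  obtain ⟨c, rfl⟩ := hx
  suffices hI : Inv ρ t (c.sum fun g a => a • ρ g) by
    obtain ⟨τ, ν, hsq, -⟩ := hI
    exact ⟨τ, ν, hsq⟩
  induction c using Finsupp.induction with
  | zero => simpa using inv_zero
  | single_add g₀ b f hg₀ _ ih =>
    rw [Finsupp.sum_add_index' (h := fun g a => a • ρ g) (fun g => zero_smul k (ρ g))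
        (fun g a b => add_smul a b (ρ g)),
      Finsupp.sum_single_index (zero_smul k (ρ g₀)), add_comm]
    exact inv_add h ih b g₀

/-- Every element of the subalgebra generated by `ρ(G)` is quadratic over `k`. -/
theorem isQuad_of_mem_adjoin (h : QuadRel ρ t d) {x : A}
    (hx : x ∈ Algebra.adjoin k (Set.range ρ)) : IsQuad k x := by
  apply isQuad_of_mem_span h
  have h1 : (Algebra.adjoin k (Set.range ρ)).toSubmodule =
      Submodule.span k (Submonoid.closure (Set.range ρ) : Set A) := Algebra.adjoin_eq_span k _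
  have h2 : Submonoid.closure (Set.range ρ) = MonoidHom.mrange ρ := by
    rw [← MonoidHom.coe_mrange, Submonoid.closure_eq]
  have h3 : x ∈ (Algebra.adjoin k (Set.range ρ)).toSubmodule := hx
  rw [h1, h2, MonoidHom.coe_mrange] at h3
  exact h3

end Span

end Fermat.Agent.S29.H29
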