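import Mathlib
import Fermat.Agent.S29.H29_QuadAlg

/-!
# From quadratic relations to a two-dimensional representation

Let `k` be a finite field, `V ≠ 0` a finite-dimensional `k`-vector space of ARBITRARY dimension,
`ρ : G →* End_k V` a representation such that every `ρ g` satisfies `X² - t(g) X + d(g) = 0`
(`t : G → k` any function, `d : G →* kˣ` a character).  Then there is a representation
`σ : G →* M₂(k)` with `tr σ(g) = t(g)` and `det σ(g) = d(g)` for ALL `g`, trivial on
`ker ρ ∩ ker d` (`exists_matrixRep_of_quadRel`).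

This is the purely algebraic step which turns the Eichler–Shimura relation on `J[𝔪]` (whose
dimension is unknown without multiplicity one) into a residual Galois representation.

Proof: the `k`-algebra `A` generated by `ρ(G)` consists of quadratic elements
(`H29_QuadAlg`).  By Wedderburn–Artin and Wedderburn's little theorem `A` surjects onto some
`Mₙ(D)`, `D ⊇ k` a finite field; quadraticity forces `n ≤ 2`, `D = k` if `n = 2`, and `[D:k] ≤ 2`
if `n = 1`.  So `A` has a character to `k` (then `σ = χ ⊕ d/χ`) or a homomorphism to `M₂(k)` with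
non-scalar image (then `σ` is the composite and a Cayley–Hamilton argument identifies trace and
determinant, using the anticommutator relation for the scalar elements).
-/

set_option autoImplicit false

namespace Fermat.Agent.S29.H29

open scoped BigOperators

section Structure

universe u v

variable (k : Type v) [Field k] (A : Type u) [Ring A] [Algebra k A]

/-- A nontrivial finite-dimensional algebra over a field surjects onto a matrix algebra over a
finite-dimensional division algebra. -/
theorem exists_surjective_matrix [Module.Finite k A] [Nontrivial A] :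
    ∃ (n : ℕ) (_ : NeZero n) (D : Type u) (_ : DivisionRing D) (_ : Algebra k D)
      (_ : Module.Finite k D) (π : A →ₐ[k] Matrix (Fin n) (Fin n) D), Function.Surjective π := by
  have : IsArtinianRing A := IsArtinianRing.of_finite k A
  have : Module.Finite k (A ⧸ Ring.jacobson A) :=
    Module.Finite.of_surjective (Ideal.Quotient.mkₐ k (Ring.jacobson A)).toLinearMap
      (Ideal.Quotient.mkₐ_surjective k _)
  obtain ⟨n, D, d, hD, hA, hF, hd, ⟨e⟩⟩ :=
    IsSemisimpleRing.exists_algEquiv_pi_matrix_divisionRing_finite k (A ⧸ Ring.jacobson A)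
  have : Nontrivial (A ⧸ Ring.jacobson A) :=
    Ideal.Quotient.nontrivial_iff.mpr (Ring.jacobson_lt_top A).ne
  have hn : n ≠ 0 := by
    rintro rfl
    have : Subsingleton (Π i : Fin 0, Matrix (Fin (d i)) (Fin (d i)) (D i)) := inferInstance
    exact not_subsingleton (A ⧸ Ring.jacobson A) e.toEquiv.subsingleton
  obtain ⟨m, rfl⟩ : ∃ m, n = m + 1 := ⟨n - 1, by omega⟩
  refine ⟨d 0, hd 0, D 0, hD 0, hA 0, hF 0,
    ((Pi.evalAlgHom k (fun i => Matrix (Fin (d i)) (Fin (d i)) (D i)) 0).comp
      e.toAlgHom).comp (Ideal.Quotient.mkₐ k (Ring.jacobson A)), ?_⟩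
  intro b
  obtain ⟨y, hy⟩ := e.surjective (Function.update (fun _ => 0) 0 b)
  obtain ⟨a, rfl⟩ := Ideal.Quotient.mkₐ_surjective k (Ring.jacobson A) y
  refine ⟨a, ?_⟩
  show e (Ideal.Quotient.mkₐ k (Ring.jacobson A) a) 0 = b
  rw [hy, Function.update_self]

end Structure

section MatrixLemmas

universe u v

variable {k : Type v} [Field k] {D : Type u} [DivisionRing D] [Algebra k D]

/-- If all `n × n` matrices over `D` are quadratic over `k` then `n ≤ 2`. -/
lemma le_two_of_isQuad_matrix {n : ℕ} (h : ∀ x : Matrix (Fin n) (Fin n) D, IsQuad k x) :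
    n ≤ 2 := by
  by_contra hn
  push Not at hn
  let i₀ : Fin n := ⟨0, by omega⟩
  let i₁ : Fin n := ⟨1, by omega⟩
  let i₂ : Fin n := ⟨2, by omega⟩
  have h01 : i₀ ≠ i₁ := by simp [i₀, i₁, Fin.ext_iff]
  have h12 : i₁ ≠ i₂ := by simp [i₁, i₂, Fin.ext_iff]
  have h02 : i₀ ≠ i₂ := by simp [i₀, i₂, Fin.ext_iff]
  obtain ⟨τ, ν, hq⟩ := h (Matrix.single i₀ i₁ 1 + Matrix.single i₁ i₂ 1)
  have := congrFun (congrFun hq i₀) i₂
  simp [Matrix.add_mul, Matrix.mul_add, Matrix.single_mul_single_same,
    Matrix.single_mul_single_of_ne, h12, h02, h01.symm, h12.symm, h02.symm] at this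

/-- If all `2 × 2` matrices over `D` are quadratic over `k` then `D = k`. -/
lemma algebraMap_surjective_of_isQuad_matrix_two
    (h : ∀ x : Matrix (Fin 2) (Fin 2) D, IsQuad k x) : Function.Surjective (algebraMap k D) := by
  intro θ
  obtain ⟨τ, ν, hq⟩ := h (Matrix.single 0 0 θ)
  have h11 := congrFun (congrFun hq 1) 1
  have h00 := congrFun (congrFun hq 0) 0
  simp at h11 h00
  subst h11
  rw [zero_smul, sub_zero] at h00
  by_cases hθ : θ = 0
  · exact ⟨0, by rw [map_zero, hθ]⟩
  · refine ⟨τ, ?_⟩
    have h1 : θ * θ = (algebraMap k D τ) * θ := by rw [h00, Algebra.smul_def]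
    exact (mul_right_cancel₀ hθ h1).symm

/-- evaluation of `1 × 1` matrices -/
def entryAlgHom (k : Type v) [Field k] (D : Type u) [DivisionRing D] [Algebra k D] :
    Matrix (Fin 1) (Fin 1) D →ₐ[k] D where
  toFun M := M 0 0
  map_one' := by simp
  map_mul' M N := by simp [Matrix.mul_apply]
  map_zero' := rfl
  map_add' M N := rfl
  commutes' c := by simp [Matrix.algebraMap_matrix_apply]

lemma entryAlgHom_surjective : Function.Surjective (entryAlgHom k D) := fun θ =>
  ⟨Matrix.of fun _ _ => θ, rfl⟩

/-- A finite division algebra all of whose elements are quadratic has dimension at most two. -/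
lemma finrank_le_two_of_isQuad [Finite D] (h : ∀ x : D, IsQuad k x) : Module.finrank k D ≤ 2 := by
  classical
  have : IsCyclic Dˣ :=
    @isCyclic_of_injective_ringHom D Dˣ (littleWedderburn D).toCommRing inferInstance _ _
      (Units.coeHom D) Units.val_injective
  obtain ⟨θ, hθ⟩ := IsCyclic.exists_generator (α := Dˣ)
  obtain ⟨τ, ν, hq⟩ := h (θ : D)
  set S : Submodule k D := Submodule.span k (({1, (θ : D)} : Finset D) : Set D) with hS
  have h1S : (1 : D) ∈ S := Submodule.subset_span (by simp)
  have hθS : (θ : D) ∈ S := Submodule.subset_span (by simp)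
  have hmul : ∀ s ∈ S, (θ : D) * s ∈ S := by
    intro s hs
    induction hs using Submodule.span_induction with
    | mem x hx =>
      simp only [Finset.coe_insert, Finset.coe_singleton, Set.mem_insert_iff,
        Set.mem_singleton_iff] at hx
      rcases hx with rfl | rfl
      · rwa [mul_one]
      · rw [hq]; exact S.sub_mem (S.smul_mem _ hθS) (S.smul_mem _ h1S)
    | zero => rw [mul_zero]; exact S.zero_mem
    | add x y _ _ hx hy => rw [mul_add]; exact S.add_mem hx hy
    | smul c x _ hx => rw [mul_smul_comm]; exact S.smul_mem c hx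
  have hpow : ∀ j : ℕ, (θ : D) ^ j ∈ S := by
    intro j
    induction j with
    | zero => rwa [pow_zero]
    | succ j ih => rw [pow_succ']; exact hmul _ ih
  have htop : S = ⊤ := by
    rw [eq_top_iff]
    intro x _
    by_cases hx : x = 0
    · rw [hx]; exact S.zero_mem
    · obtain ⟨j, hj⟩ := (mem_powers_iff_mem_zpowers.mpr (hθ (Units.mk0 x hx)))
      have : x = (θ : D) ^ j := by
        have := congrArg Units.val hj
        simpa using this.symm
      rw [this]; exact hpow j
  calc Module.finrank k D = Module.finrank k (⊤ : Submodule k D) := (finrank_top k D).symm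
    _ = Module.finrank k S := by rw [htop]
    _ ≤ ({1, (θ : D)} : Finset D).card := finrank_span_finset_le_card _
    _ ≤ 2 := Finset.card_le_two

end MatrixLemmas

section Alternative

universe u v

/-- **Structure lemma.** A nontrivial finite-dimensional algebra over a finite field all of whose
elements are quadratic admits either a character to `k`, or a homomorphism to `M₂(k)` whose image
is not contained in the scalars. -/
theorem exists_char_or_matrix (k : Type v) [Field k] [Finite k] (A : Type u) [Ring A]
    [Algebra k A] [Module.Finite k A] [Nontrivial A] (hquad : ∀ a : A, IsQuad k a) :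
    (∃ _ : A →ₐ[k] k, True) ∨
    (∃ f : A →ₐ[k] Matrix (Fin 2) (Fin 2) k, ∃ a : A, ∀ c : k, f a ≠ c • 1) := by
  obtain ⟨n, hn, D, hD, hA, hF, π, hπ⟩ := exists_surjective_matrix k A
  have hB : ∀ x : Matrix (Fin n) (Fin n) D, IsQuad k x := fun x => by
    obtain ⟨a, rfl⟩ := hπ x; exact (hquad a).map π
  have hn2 := le_two_of_isQuad_matrix hB
  have hn0 : n ≠ 0 := hn.out
  obtain rfl | rfl : n = 1 ∨ n = 2 := by omega
  · -- `n = 1`
    have : Finite D := Module.finite_of_finite k
    have hD' : ∀ x : D, IsQuad k x := fun x => by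
      obtain ⟨M, rfl⟩ := entryAlgHom_surjective (k := k) x; exact (hB M).map _
    have h2 := finrank_le_two_of_isQuad hD'
    have h0 : 0 < Module.finrank k D := Module.finrank_pos
    obtain h1 | h2 : Module.finrank k D = 1 ∨ Module.finrank k D = 2 := by omega
    · left
      have hbij := Algebra.finrank_eq_one_iff_bijective_algebraMap.mp h1
      let e : k ≃ₐ[k] D := AlgEquiv.ofBijective (Algebra.ofId k D) hbij
      exact ⟨(e.symm.toAlgHom.comp (entryAlgHom k D)).comp π, trivial⟩
    · right
      let b := Module.finBasisOfFinrankEq k D h2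
      refine ⟨(((LinearMap.toMatrixAlgEquiv b).toAlgHom.comp (Algebra.lmul k D)).comp
        (entryAlgHom k D)).comp π, ?_⟩
      obtain ⟨θ, hθ⟩ : ∃ θ : D, θ ∉ Set.range (algebraMap k D) := by
        by_contra hcon
        push Not at hcon
        have hbij : Function.Bijective (algebraMap k D) := ⟨(algebraMap k D).injective, hcon⟩
        have := Algebra.finrank_eq_one_iff_bijective_algebraMap.mpr hbij
        omega
      obtain ⟨M, hM⟩ := entryAlgHom_surjective (k := k) θ
      obtain ⟨a, ha⟩ := hπ M
      refine ⟨a, fun c hc => hθ ⟨c, ?_⟩⟩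
      have h1 : (LinearMap.toMatrixAlgEquiv b) (Algebra.lmul k D θ) =
          (LinearMap.toMatrixAlgEquiv b) (c • 1) := by
        rw [map_smul, map_one, ← hc, ← hM, ← ha]; rfl
      have h3 := congrArg (fun φ : Module.End k D => φ 1)
        ((LinearMap.toMatrixAlgEquiv b).injective h1)
      simp only [LinearMap.smul_apply] at h3
      rw [Algebra.algebraMap_eq_smul_one]
      simpa using h3.symm
  · -- `n = 2`
    right
    have hsurj := algebraMap_surjective_of_isQuad_matrix_two hB
    let e : k ≃ₐ[k] D :=
      AlgEquiv.ofBijective (Algebra.ofId k D) ⟨(algebraMap k D).injective, hsurj⟩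
    refine ⟨(e.symm.mapMatrix (m := Fin 2)).toAlgHom.comp π, ?_⟩
    obtain ⟨a, ha⟩ := hπ (Matrix.single 0 1 1)
    refine ⟨a, fun c hc => ?_⟩
    have h01 := congrFun (congrFun hc 0) 1
    simp [ha, AlgEquiv.mapMatrix_apply] at h01

end Alternative

section Rep

universe u v w

variable {k : Type v} [Field k] {G : Type w} [Group G]

/-- Cayley–Hamilton for `2 × 2` matrices, explicitly. -/
lemma cayleyHamilton_fin_two (M : Matrix (Fin 2) (Fin 2) k) :
    M * M = M.trace • M - M.det • (1 : Matrix (Fin 2) (Fin 2) k) := by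
  ext i j
  fin_cases i <;> fin_cases j <;>
    simp [Matrix.mul_apply, Fin.sum_univ_two, Matrix.trace_fin_two, Matrix.det_fin_two] <;> ring

/-- **Lemma B.** A two-dimensional matrix representation satisfying the quadratic relations and
with at least one non-scalar element has the expected traces and determinants. -/
theorem trace_det_of_quadRel (σ : G →* Matrix (Fin 2) (Fin 2) k) (t : G → k) (d : G →* kˣ)
    (h : QuadRel σ t d) (hns : ∃ g', ∀ c : k, σ g' ≠ c • 1) (g : G) :
    (σ g).trace = t g ∧ (σ g).det = ((d g : kˣ) : k) := by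
  have h1 : ((σ g).trace - t g) • σ g =
      ((σ g).det - ((d g : kˣ) : k)) • (1 : Matrix (Fin 2) (Fin 2) k) := by
    have := cayleyHamilton_fin_two (σ g)
    rw [h g] at this
    linear_combination (norm := module) (-1 : k) • this
  by_cases htr : (σ g).trace = t g
  · refine ⟨htr, ?_⟩
    rw [htr, sub_self, zero_smul] at h1
    have := congrFun (congrFun h1 0) 0
    simp only [Matrix.zero_apply, Matrix.smul_apply, Matrix.one_apply_eq, smul_eq_mul,
      mul_one] at this
    exact (sub_eq_zero.mp this.symm)
  · exfalso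
    obtain ⟨g', hg'⟩ := hns
    have hne : (σ g).trace - t g ≠ 0 := sub_ne_zero.mpr htr
    set c : k := ((σ g).trace - t g)⁻¹ * ((σ g).det - ((d g : kˣ) : k)) with hc
    have hM : σ g = c • (1 : Matrix (Fin 2) (Fin 2) k) := by
      rw [hc, mul_smul, ← h1, smul_smul, inv_mul_cancel₀ hne, one_smul]
    have htr2 : (σ g).trace = 2 * c := by
      rw [hM, Matrix.trace_fin_two]
      simp only [Matrix.smul_apply, Matrix.one_apply_eq, smul_eq_mul, mul_one]
      ring
    have hanti := anticomm h g g'
    rw [hM] at hanti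
    simp only [smul_mul_assoc, mul_smul_comm, one_mul, mul_one] at hanti
    have h2 : (2 * c - t g) • σ g' =
        (t (g * g') - t g * t g' + t g' * c) • (1 : Matrix (Fin 2) (Fin 2) k) := by
      linear_combination (norm := module) hanti
    have hne2 : 2 * c - t g ≠ 0 := by rw [← htr2]; exact hne
    apply hg' ((2 * c - t g)⁻¹ * (t (g * g') - t g * t g' + t g' * c))
    rw [mul_smul, ← h2, smul_smul, inv_mul_cancel₀ hne2, one_smul]

/-- the diagonal representation attached to two characters -/
def diagRep (χ₁ χ₂ : G →* kˣ) : G →* Matrix (Fin 2) (Fin 2) k where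
  toFun g := Matrix.diagonal ![((χ₁ g : kˣ) : k), ((χ₂ g : kˣ) : k)]
  map_one' := by
    rw [map_one, map_one, Units.val_one, ← Matrix.diagonal_one]
    congr 1
    ext i
    fin_cases i <;> rfl
  map_mul' g g' := by
    rw [Matrix.diagonal_mul_diagonal]
    congr 1
    ext i
    fin_cases i <;> simp

lemma diagRep_apply (χ₁ χ₂ : G →* kˣ) (g : G) :
    diagRep χ₁ χ₂ g = Matrix.diagonal ![((χ₁ g : kˣ) : k), ((χ₂ g : kˣ) : k)] := rfl

lemma trace_diagRep (χ₁ χ₂ : G →* kˣ) (g : G) :
    (diagRep χ₁ χ₂ g).trace = ((χ₁ g : kˣ) : k) + ((χ₂ g : kˣ) : k) := by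
  rw [diagRep_apply, Matrix.trace_fin_two]; simp

lemma det_diagRep (χ₁ χ₂ : G →* kˣ) (g : G) :
    (diagRep χ₁ χ₂ g).det = ((χ₁ g : kˣ) : k) * ((χ₂ g : kˣ) : k) := by
  rw [diagRep_apply, Matrix.det_fin_two]; simp

end Rep

section Main

universe u v w

variable {k : Type v} [Field k] [Finite k] {V : Type u} [AddCommGroup V] [Module k V]
  [Module.Finite k V] [Nontrivial V] {G : Type w} [Group G]

/-- **Main algebraic theorem.** Let `ρ` be a representation of a group `G` on a nonzero
finite-dimensional vector space over a finite field `k` (of ANY dimension) such that every `ρ g`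
satisfies `X² - t(g) X + d(g) = 0`, with `d` a character.  Then there is a TWO-dimensional
representation `σ` of `G` over `k` with `tr σ(g) = t(g)`, `det σ(g) = d(g)` for all `g`, which is
trivial on `ker ρ ∩ ker d`. -/
theorem exists_matrixRep_of_quadRel (ρ : G →* Module.End k V) (t : G → k) (d : G →* kˣ)
    (h : QuadRel ρ t d) :
    ∃ σ : G →* Matrix (Fin 2) (Fin 2) k,
      (∀ g, (σ g).trace = t g ∧ (σ g).det = ((d g : kˣ) : k)) ∧
      (∀ g, ρ g = 1 → d g = 1 → σ g = 1) := by
  classical
  set A : Subalgebra k (Module.End k V) := Algebra.adjoin k (Set.range ρ) with hA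
  let ρ' : G →* A := ρ.codRestrict A (fun g => Algebra.subset_adjoin ⟨g, rfl⟩)
  have hρ' : ∀ g, ((ρ' g : A) : Module.End k V) = ρ g := fun g => rfl
  have hquad : ∀ a : A, IsQuad k a := by
    intro a
    obtain ⟨τ, ν, hq⟩ := isQuad_of_mem_adjoin h a.2
    exact ⟨τ, ν, Subtype.ext hq⟩
  have hrel' : QuadRel ρ' t d := fun g => Subtype.ext (h g)
  rcases exists_char_or_matrix k A hquad with ⟨χ, -⟩ | ⟨f, a, ha⟩
  · -- character case
    let χ₁ : G →* kˣ := ((χ : A →* k).comp ρ').toHomUnits
    have hχ₁ : ∀ g, ((χ₁ g : kˣ) : k) = χ (ρ' g) := fun g => rfl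
    have hχq : ∀ g, ((χ₁ g : kˣ) : k) * (χ₁ g : kˣ) = t g * (χ₁ g : kˣ) - (d g : kˣ) := by
      intro g
      have := congrArg χ (hrel' g)
      rw [map_mul, map_sub, map_smul, map_smul, map_one, smul_eq_mul, smul_eq_mul, mul_one]
        at this
      rw [hχ₁]; exact this
    refine ⟨diagRep χ₁ (d / χ₁), fun g => ⟨?_, ?_⟩, fun g hg hd => ?_⟩
    · rw [trace_diagRep, MonoidHom.div_apply, Units.val_div_eq_div_val]
      have hne : ((χ₁ g : kˣ) : k) ≠ 0 := Units.ne_zero _
      field_simp
      linear_combination hχq g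
    · rw [det_diagRep, MonoidHom.div_apply, Units.val_div_eq_div_val]
      have hne : ((χ₁ g : kˣ) : k) ≠ 0 := Units.ne_zero _
      field_simp
    · have h1 : χ₁ g = 1 := by
        apply Units.ext
        rw [hχ₁]
        have : ρ' g = 1 := Subtype.ext hg
        rw [this, map_one]; rfl
      rw [diagRep_apply, MonoidHom.div_apply, h1, hd, div_one, Units.val_one,
        ← Matrix.diagonal_one]
      congr 1
      ext i
      fin_cases i <;> rfl
  · -- matrix case
    let σ : G →* Matrix (Fin 2) (Fin 2) k := (f : A →* _).comp ρ'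
    have hσ : ∀ g, σ g = f (ρ' g) := fun g => rfl
    have hrelσ : QuadRel σ t d := by
      intro g
      have := congrArg f (hrel' g)
      rw [map_mul, map_sub, map_smul, map_smul, map_one] at this
      exact this
    have hns : ∃ g', ∀ c : k, σ g' ≠ c • 1 := by
      by_contra hcon
      push Not at hcon
      have hle : (⊤ : Subalgebra k A) ≤
          (⊥ : Subalgebra k (Matrix (Fin 2) (Fin 2) k)).comap f := by
        rw [← Algebra.adjoin_adjoin_coe_preimage (R := k) (s := Set.range ρ)]
        apply Algebra.adjoin_le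
        rintro x ⟨g, hg⟩
        obtain ⟨c, hc⟩ := hcon g
        rw [Subalgebra.coe_comap, Set.mem_preimage, SetLike.mem_coe, Algebra.mem_bot]
        refine ⟨c, ?_⟩
        have hx : x = ρ' g := Subtype.ext hg.symm
        rw [hx, ← hσ, hc, Algebra.algebraMap_eq_smul_one]
      obtain ⟨c, hc⟩ := Algebra.mem_bot.mp (hle (Algebra.mem_top : a ∈ ⊤))
      exact ha c (by rw [← Algebra.algebraMap_eq_smul_one]; exact hc.symm)
    refine ⟨σ, fun g => trace_det_of_quadRel σ t d hrelσ hns g, fun g hg _ => ?_⟩
    have : ρ' g = 1 := Subtype.ext hg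
    rw [hσ, this, map_one]

end Main

end Fermat.Agent.S29.H29
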