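import Mathlib
import Fermat.Prelude.Def_GaloisRep_Residual
import Fermat.Agent.S29.H29_QuadRep
import Fermat.Agent.S14.H31_FrobPrelude
import Fermat.Agent.S14.H31_FrobCyclo
import Fermat.Agent.S14.H31_FrobCongr
import Fermat.Agent.S14.H67_Bridge

/-!
# Residual Galois representations from Eichler–Shimura quadratic relations

`exists_residualGaloisRep_of_frobeniusQuadratic`: let `k₀` be a finite field of characteristic
`p`, `V ≠ 0` a finite-dimensional `k₀`-vector space of ARBITRARY dimension with an action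
`ρ₀` of `G_ℚ` which factors through a finite level, is unramified outside `N p`, and such that
every Frobenius element `σ` at a prime `ℓ ∤ N p` satisfies `σ² - a_ℓ σ + ℓ = 0` on `V`.
Then there is a `ResidualGaloisRep k₀` (two-dimensional!), unramified outside `N p`, whose
Frobenius characteristic polynomials are `X² - a_ℓ X + ℓ`.

Ingredients: the Frobenius density theorem (`Fermat.Agent.S14.H31`), the mod `p` cyclotomic
character (`ExtCitation.cycloChar`, `Fermat.Agent.S14.H67`), and the algebra of `H29_QuadRep`.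
-/

set_option autoImplicit false

namespace Fermat.Agent.S29.H29

local notation "Qb" => AlgebraicClosure ℚ
local notation "GQ" => (AlgebraicClosure ℚ ≃ₐ[ℚ] AlgebraicClosure ℚ)

open Polynomial

section Inverse

variable {k : Type*} [Field k] {A : Type*} [Ring A] [Algebra k A]

/-- The inverse of an invertible quadratic element is quadratic. -/
lemma inv_quad {u : Aˣ} {a b : k} (hb : b ≠ 0)
    (hu : (u : A) * (u : A) = a • (u : A) - b • (1 : A)) :
    ((u⁻¹ : Aˣ) : A) * ((u⁻¹ : Aˣ) : A) = (a / b) • ((u⁻¹ : Aˣ) : A) - b⁻¹ • (1 : A) := by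
  set w : A := ((u⁻¹ : Aˣ) : A) with hw
  have h1 : (1 : A) = a • w - b • (w * w) := by
    have h := congrArg (fun x => w * x * w) hu
    simp only [mul_sub, sub_mul, mul_smul_comm, smul_mul_assoc, mul_one] at h
    have e1 : w * ((u : A) * (u : A)) * w = 1 := by
      rw [← mul_assoc, hw, Units.inv_mul, one_mul, Units.mul_inv]
    have e2 : w * (u : A) * w = w := by rw [hw, Units.inv_mul, one_mul]
    rw [e1, e2] at h
    exact h
  have h2 : b • (w * w) = a • w - 1 := by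
    linear_combination (norm := module) h1
  calc w * w = b⁻¹ • (b • (w * w)) := by rw [smul_smul, inv_mul_cancel₀ hb, one_smul]
    _ = b⁻¹ • (a • w - 1) := by rw [h2]
    _ = (a / b) • w - b⁻¹ • (1 : A) := by rw [smul_sub, smul_smul, div_eq_inv_mul]

/-- Integer powers of an invertible quadratic element with invertible "norm". -/
lemma exists_zpow_quad {u : Aˣ} {a : k} {b : kˣ}
    (hu : (u : A) * (u : A) = a • (u : A) - ((b : kˣ) : k) • (1 : A)) (j : ℤ) :
    ∃ s : k, ((u ^ j : Aˣ) : A) * ((u ^ j : Aˣ) : A) =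
      s • ((u ^ j : Aˣ) : A) - ((b ^ j : kˣ) : k) • (1 : A) := by
  rcases Int.eq_nat_or_neg j with ⟨n, rfl | rfl⟩
  · obtain ⟨s, hs⟩ := exists_pow_quad hu n
    refine ⟨s, ?_⟩
    rw [zpow_natCast, zpow_natCast, Units.val_pow_eq_pow_val, Units.val_pow_eq_pow_val]
    exact hs
  · have hinv := inv_quad (Units.ne_zero b) hu
    obtain ⟨s, hs⟩ := exists_pow_quad hinv n
    refine ⟨s, ?_⟩
    rw [zpow_neg, zpow_neg, zpow_natCast, zpow_natCast, ← inv_pow, ← inv_pow,
      Units.val_pow_eq_pow_val, Units.val_pow_eq_pow_val, Units.val_inv_eq_inv_val]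
    exact hs

end Inverse

section Roots

variable {L : Type*} [Field L]

/-- A root of unity of order dividing `M` which is congruent to `1` modulo the maximal ideal of a
valuation subring in which `M` is invertible equals `1`. -/
theorem eq_one_of_sub_one_mem_nonunits {A : ValuationSubring L} {M : ℕ}
    (hM : (M : L) ∉ A.nonunits) {ζ : L} (hζ : IsPrimitiveRoot ζ M) {η : L} (hη : η ^ M = 1)
    (hmem : η - 1 ∈ A.nonunits) : η = 1 := by
  rcases Nat.eq_zero_or_pos M with hM0 | hMpos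
  · subst hM0
    exfalso
    apply hM
    rw [Nat.cast_zero, ValuationSubring.mem_nonunits_iff, map_zero]
    exact zero_lt_one
  obtain ⟨n, rfl⟩ : ∃ n, M = n + 1 := ⟨M - 1, by omega⟩
  have hζA : ζ ∈ A :=
    Fermat.Agent.S14.H31.mem_valuationSubring_of_pow_eq_one A (Nat.succ_ne_zero n) hζ.pow_eq_one
  have hpowA : ∀ k : ℕ, ζ ^ k ∈ A := fun k => pow_mem hζA k
  obtain ⟨m, hmlt, hm⟩ := hζ.eq_pow_of_pow_eq_one hη
  by_contra hη1
  have hm0 : m ≠ 0 := by
    rintro rfl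
    exact hη1 (by rw [← hm, pow_zero])
  obtain ⟨k, hk⟩ : ∃ k, m = k + 1 := ⟨m - 1, by omega⟩
  have hkn : k ∈ Finset.range n := Finset.mem_range.mpr (by omega)
  have hprod := hζ.prod_one_sub_pow_eq_order
  apply hM
  rw [Nat.cast_add, Nat.cast_one, ← hprod, ← Finset.mul_prod_erase _ _ hkn,
    ValuationSubring.mem_nonunits_iff, map_mul]
  have h1 : A.valuation (1 - ζ ^ (k + 1)) < 1 := by
    rw [← hk, hm, ← ValuationSubring.mem_nonunits_iff]
    have : (1 : L) - η = -(η - 1) := by ring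
    rw [this, ValuationSubring.mem_nonunits_iff, Valuation.map_neg,
      ← ValuationSubring.mem_nonunits_iff]
    exact hmem
  have h2 : A.valuation (∏ x ∈ (Finset.range n).erase k, (1 - ζ ^ (x + 1))) ≤ 1 := by
    rw [A.valuation_le_one_iff]
    exact prod_mem fun i _ => sub_mem (one_mem A) (hpowA _)
  exact mul_lt_one_of_lt_of_le h1 h2

/-- Inertia at a place above `ℓ` fixes the `M`-th roots of unity for `M` prime to `ℓ`. -/
theorem map_primitiveRoot_of_mem_inertia {A : ValuationSubring Qb} {ℓ M : ℕ}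
    (hA : A.LiesOverPrime ℓ) (hℓM : ℓ.Coprime M) {s : GQ} (hs : s ∈ A.inertiaSubgroupIn ℚ)
    {ζ : Qb} (hζ : IsPrimitiveRoot ζ M) : s ζ = ζ := by
  rcases Nat.eq_zero_or_pos M with hM0 | hMpos
  · subst hM0
    have hℓ1 : ℓ = 1 := by simpa using hℓM
    exfalso
    have h := hA
    rw [ValuationSubring.LiesOverPrime, hℓ1, Nat.cast_one, ValuationSubring.mem_nonunits_iff,
      map_one] at h
    exact lt_irrefl _ h
  have hMA : (M : Qb) ∉ A.nonunits :=
    Fermat.Agent.S14.H31.natCast_not_mem_nonunits_of_coprime hA hℓM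
  have hζA : ζ ∈ A :=
    Fermat.Agent.S14.H31.mem_valuationSubring_of_pow_eq_one A hMpos.ne' hζ.pow_eq_one
  obtain ⟨n, rfl⟩ : ∃ n, M = n + 1 := ⟨M - 1, by omega⟩
  have hinv : ζ * ζ ^ n = 1 := by rw [← pow_succ', hζ.pow_eq_one]
  have hη : (s ζ * ζ ^ n) ^ (n + 1) = 1 := by
    rw [mul_pow, ← map_pow, hζ.pow_eq_one, map_one, one_mul, ← pow_mul, mul_comm, pow_mul,
      hζ.pow_eq_one, one_pow]
  have hmem : s ζ * ζ ^ n - 1 ∈ A.nonunits := by
    have h1 : s ζ * ζ ^ n - 1 = (s ζ - ζ) * ζ ^ n := by rw [sub_mul, hinv]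
    rw [h1, ValuationSubring.mem_nonunits_iff, map_mul]
    exact mul_lt_one_of_lt_of_le
      (Fermat.Agent.S14.H67.valuation_map_sub_lt_one_of_mem_inertia hs hζA)
      ((A.valuation_le_one_iff _).mpr (pow_mem hζA n))
  have h1 := eq_one_of_sub_one_mem_nonunits hMA hζ hη hmem
  have hne : ζ ^ n ≠ 0 := pow_ne_zero _ (hζ.ne_zero (Nat.succ_ne_zero n))
  exact mul_right_cancel₀ hne (h1.trans hinv.symm)

end Roots

section Cyclo

variable (k₀ : Type) [Field k₀] (p : ℕ) [Fact p.Prime] [CharP k₀ p]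

/-- The mod `p` cyclotomic character with values in a field of characteristic `p`. -/
noncomputable def cycloCharTo : GQ →* k₀ˣ :=
  (Units.map ((ZMod.castHom (dvd_refl p) k₀ : ZMod p →+* k₀) : ZMod p →* k₀)).comp
    (ExtCitation.cycloChar p)

lemma coe_cycloCharTo (σ : GQ) :
    ((cycloCharTo k₀ p σ : k₀ˣ) : k₀) =
      ZMod.castHom (dvd_refl p) k₀ ((ExtCitation.cycloChar p σ : (ZMod p)ˣ) : ZMod p) := rfl

variable {p}

lemma cycloCharTo_eq_one_of_map_eq {ζ : Qb} (hζ : IsPrimitiveRoot ζ p) {σ : GQ}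
    (h : σ ζ = ζ) : cycloCharTo k₀ p σ = 1 := by
  have h1 : ExtCitation.cycloChar p σ = 1 :=
    (Fermat.Agent.S14.H67.cycloChar_eq_one_iff hζ σ).mpr h
  rw [cycloCharTo, MonoidHom.comp_apply, h1, map_one]

lemma cycloCharTo_eq_one_of_mem_fixingSubgroup {σ : GQ}
    (h : σ ∈ (Fermat.Agent.S14.H67.cycloField p).fixingSubgroup) : cycloCharTo k₀ p σ = 1 := by
  rw [Fermat.Agent.S14.H67.fixingSubgroup_cycloField, MonoidHom.mem_ker] at h
  rw [cycloCharTo, MonoidHom.comp_apply, h, map_one]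

lemma cycloCharTo_frobenius {A : ValuationSubring Qb} {q : ℕ} (hq : q.Prime) (hqp : q ≠ p)
    (hA : A.LiesOverPrime q) {φ : GQ} (hφ : A.IsFrobeniusAt φ q) :
    ((cycloCharTo k₀ p φ : k₀ˣ) : k₀) = (q : k₀) := by
  have hp : p.Prime := Fact.out
  obtain ⟨ζ, hζ⟩ := Fermat.Agent.S14.H67.exists_primitiveRoot p
  have hcop : q.Coprime p := (Nat.coprime_primes hq hp).mpr hqp
  have h1 : φ ζ = ζ ^ q :=
    Fermat.Agent.S14.H31.map_primitiveRoot_of_isFrobeniusAt hA hφ hζ hcop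
  have h2 : ((ExtCitation.cycloChar p φ : (ZMod p)ˣ) : ZMod p) = (q : ZMod p) := by
    refine Fermat.Agent.S14.H67.cycloChar_eq_of_primitive p φ hζ ?_
    rw [h1, ZMod.val_natCast]
    exact Fermat.Agent.S14.H31.pow_mod_of_isPrimitiveRoot hζ q
  rw [coe_cycloCharTo, h2, map_natCast]

lemma cycloCharTo_inertia {A : ValuationSubring Qb} {ℓ : ℕ} (hℓ : ℓ.Prime) (hℓp : ℓ ≠ p)
    (hA : A.LiesOverPrime ℓ) {s : GQ} (hs : s ∈ A.inertiaSubgroupIn ℚ) :
    cycloCharTo k₀ p s = 1 := by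
  have hp : p.Prime := Fact.out
  obtain ⟨ζ, hζ⟩ := Fermat.Agent.S14.H67.exists_primitiveRoot p
  have hcop : ℓ.Coprime p := (Nat.coprime_primes hℓ hp).mpr hℓp
  exact cycloCharTo_eq_one_of_map_eq k₀ hζ (map_primitiveRoot_of_mem_inertia hA hcop hs hζ)

end Cyclo

section Main

variable {k₀ : Type} [Field k₀] [Finite k₀] {p : ℕ} [Fact p.Prime] [CharP k₀ p]

/-- the two-dimensional residual representation attached to a matrix representation -/
noncomputable def residualOfMatrixRep (σ : GQ →* Matrix (Fin 2) (Fin 2) k₀)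
    (F : IntermediateField ℚ Qb) [FiniteDimensional ℚ F]
    (hF : ∀ s : GQ, (∀ x ∈ F, s x = x) → σ s = 1) : ResidualGaloisRep k₀ where
  V := Fin 2 → k₀
  finrank_eq := Module.finrank_fin_fun k₀
  ρ := ((Matrix.toLinAlgEquiv' : Matrix (Fin 2) (Fin 2) k₀ ≃ₐ[k₀] _) :
    Matrix (Fin 2) (Fin 2) k₀ →* Module.End k₀ (Fin 2 → k₀)).comp σ
  factorsThroughFiniteLevel := ⟨F, inferInstance, fun s hs => by
    rw [MonoidHom.comp_apply, hF s hs, map_one]⟩

omit [Finite k₀] in
lemma residualOfMatrixRep_ρ (σ : GQ →* Matrix (Fin 2) (Fin 2) k₀)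
    (F : IntermediateField ℚ Qb) [FiniteDimensional ℚ F]
    (hF : ∀ s : GQ, (∀ x ∈ F, s x = x) → σ s = 1) (s : GQ) :
    (residualOfMatrixRep σ F hF).ρ s = Matrix.toLin' (σ s) := rfl

omit [Finite k₀] in
lemma charpoly_residualOfMatrixRep (σ : GQ →* Matrix (Fin 2) (Fin 2) k₀)
    (F : IntermediateField ℚ Qb) [FiniteDimensional ℚ F]
    (hF : ∀ s : GQ, (∀ x ∈ F, s x = x) → σ s = 1) (s : GQ) :
    LinearMap.charpoly ((residualOfMatrixRep σ F hF).ρ s) = (σ s).charpoly := by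
  show LinearMap.charpoly (Matrix.toLin' (σ s)) = _
  exact Matrix.charpoly_toLin' _

/-- **Residual representations from Eichler–Shimura relations.** -/
theorem exists_residualGaloisRep_of_frobeniusQuadratic (N : ℕ)
    {V : Type*} [AddCommGroup V] [Module k₀ V] [Module.Finite k₀ V] [Nontrivial V]
    (ρ₀ : GQ →* Module.End k₀ V)
    (L : IntermediateField ℚ Qb) [FiniteDimensional ℚ L]
    (hL : ∀ s : GQ, (∀ x ∈ L, s x = x) → ρ₀ s = 1)
    (hunr : ∀ ℓ : ℕ, ℓ.Prime → ¬ ℓ ∣ N * p → ∀ A : ValuationSubring Qb, A.LiesOverPrime ℓ →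
      ∀ s ∈ A.inertiaSubgroupIn ℚ, ρ₀ s = 1)
    (a : ℕ → k₀)
    (hfrob : ∀ ℓ : ℕ, ℓ.Prime → ¬ ℓ ∣ N * p → ∀ A : ValuationSubring Qb, A.LiesOverPrime ℓ →
      ∀ s : GQ, A.IsFrobeniusAt s ℓ → ρ₀ s * ρ₀ s = a ℓ • ρ₀ s - (ℓ : k₀) • 1) :
    ∃ ρ : ResidualGaloisRep k₀,
      (∀ ℓ : ℕ, ℓ.Prime → ¬ ℓ ∣ N * p → ρ.IsUnramifiedAt ℓ) ∧
      (∀ ℓ : ℕ, ℓ.Prime → ¬ ℓ ∣ N * p → ∀ A : ValuationSubring Qb, A.LiesOverPrime ℓ →
        ∀ s : GQ, A.IsFrobeniusAt s ℓ →
          LinearMap.charpoly (ρ.ρ s) = X ^ 2 - C (a ℓ) * X + C (ℓ : k₀)) ∧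
      (∀ s : GQ, (∀ x ∈ L ⊔ Fermat.Agent.S14.H67.cycloField p, s x = x) → ρ.ρ s = 1) := by
  classical
  have hp : p.Prime := Fact.out
  set F : IntermediateField ℚ Qb := L ⊔ Fermat.Agent.S14.H67.cycloField p with hFdef
  have : FiniteDimensional ℚ F := IntermediateField.finiteDimensional_sup L _
  rcases Nat.eq_zero_or_pos N with hN | hN
  · -- degenerate level: all conclusions about primes are vacuous
    subst hN
    refine ⟨residualOfMatrixRep (1 : GQ →* Matrix (Fin 2) (Fin 2) k₀) F (fun _ _ => rfl),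
      fun ℓ _ h => absurd (by simp) h, fun ℓ _ h => absurd (by simp) h, fun s _ => ?_⟩
    rw [residualOfMatrixRep_ρ, MonoidHom.one_apply, Matrix.toLin'_one]; rfl
  set d : GQ →* k₀ˣ := cycloCharTo k₀ p with hd
  let ρ₁ : GQ →* (Module.End k₀ V)ˣ × k₀ˣ := ρ₀.toHomUnits.prod d
  have hker : ∀ s : GQ, (∀ x ∈ F, s x = x) → ρ₀ s = 1 ∧ d s = 1 := by
    intro s hs
    refine ⟨hL s fun x hx => hs x ((le_sup_left : L ≤ F) hx), ?_⟩
    apply cycloCharTo_eq_one_of_mem_fixingSubgroup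
    rw [IntermediateField.mem_fixingSubgroup_iff]
    exact fun x hx => hs x ((le_sup_right : _ ≤ F) hx)
  have hF : F.fixingSubgroup ≤ ρ₁.ker := by
    intro s hs
    rw [IntermediateField.mem_fixingSubgroup_iff] at hs
    obtain ⟨h1, h2⟩ := hker s hs
    rw [MonoidHom.mem_ker, MonoidHom.prod_apply, Prod.mk_eq_one]
    exact ⟨Units.ext (by rw [MonoidHom.coe_toHomUnits, h1, Units.val_one]), h2⟩
  have hT : ∀ q : ℕ, q ∉ Finset.range (N * p + 1) → ¬ q ∣ N * p := by
    intro q hqT hdvd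
    exact hqT (Finset.mem_range.mpr (Nat.lt_succ_of_le
      (Nat.le_of_dvd (Nat.mul_pos hN hp.pos) hdvd)))
  -- the quadratic relation for all `g`, by Frobenius density
  have hquad : ∀ g : GQ, ∃ s : k₀, ρ₀ g * ρ₀ g = s • ρ₀ g - ((d g : k₀ˣ) : k₀) • 1 := by
    intro g
    obtain ⟨q, A, φ, j, k', hq, hqT, hA, hφ, -, hgφ⟩ :=
      Fermat.Agent.S14.H31.exists_isFrobeniusAt_map_eq_zpow F ρ₁ hF g
        (Finset.range (N * p + 1))
    have hqNp := hT q hqT
    have hqp : q ≠ p := by rintro rfl; exact hqNp (dvd_mul_left _ _)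
    have hrel := hfrob q hq hqNp A hA φ hφ
    have hdφ : ((d φ : k₀ˣ) : k₀) = (q : k₀) := cycloCharTo_frobenius k₀ hq hqp hA hφ
    rw [← hdφ] at hrel
    have h1 : ρ₀.toHomUnits g = ρ₀.toHomUnits φ ^ j := by
      have := congrArg Prod.fst hgφ
      simpa [ρ₁] using this
    have h2 : d g = d φ ^ j := by
      have := congrArg Prod.snd hgφ
      simpa [ρ₁] using this
    obtain ⟨s, hs⟩ := exists_zpow_quad (u := ρ₀.toHomUnits φ) (a := a q) (b := d φ) hrel j
    refine ⟨s, ?_⟩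
    rw [← h1, ← h2] at hs
    exact hs
  choose t ht using hquad
  obtain ⟨σ, hσ1, hσ2⟩ := exists_matrixRep_of_quadRel ρ₀ t d ht
  have hσF : ∀ s : GQ, (∀ x ∈ F, s x = x) → σ s = 1 := fun s hs =>
    hσ2 s (hker s hs).1 (hker s hs).2
  refine ⟨residualOfMatrixRep σ F hσF, ?_, ?_, ?_⟩
  · intro ℓ hℓ hℓNp A hA s hs
    have hℓp : ℓ ≠ p := by rintro rfl; exact hℓNp (dvd_mul_left _ _)
    rw [residualOfMatrixRep_ρ, hσ2 s (hunr ℓ hℓ hℓNp A hA s hs)
      (cycloCharTo_inertia k₀ hℓ hℓp hA hs), Matrix.toLin'_one]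
    rfl
  · intro ℓ hℓ hℓNp A hA s hs
    have hℓp : ℓ ≠ p := by rintro rfl; exact hℓNp (dvd_mul_left _ _)
    have hds : ((d s : k₀ˣ) : k₀) = (ℓ : k₀) := cycloCharTo_frobenius k₀ hℓ hℓp hA hs
    -- `t s = a ℓ`
    have hts : t s = a ℓ := by
      have e1 := ht s
      have e2 := hfrob ℓ hℓ hℓNp A hA s hs
      rw [hds] at e1
      have e3 : (t s - a ℓ) • ρ₀ s = 0 := by
        rw [sub_smul]
        have := e1.symm.trans e2
        rw [sub_left_inj] at this
        rw [this, sub_self]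
      by_contra hne
      have hne' : t s - a ℓ ≠ 0 := sub_ne_zero.mpr hne
      have e4 : ρ₀ s = 0 := by
        have := congrArg (fun x => (t s - a ℓ)⁻¹ • x) e3
        simpa [smul_smul, inv_mul_cancel₀ hne'] using this
      have e5 : (1 : Module.End k₀ V) = 0 := by
        have := congrArg (fun x => x * ρ₀ s⁻¹) e4
        simp [← map_mul] at this
      exact one_ne_zero e5
    rw [charpoly_residualOfMatrixRep, Matrix.charpoly_fin_two, (hσ1 s).1, (hσ1 s).2, hts, hds]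
  · intro s hs
    rw [residualOfMatrixRep_ρ, hσF s hs, Matrix.toLin'_one]
    rfl

end Main

end Fermat.Agent.S29.H29
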