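import Mathlib
import Fermat.Prelude.Def_ModularCurve_ArithmeticGalois
import Fermat.Agent.RR.H52_WeakApprox
import Fermat.Agent.S24.H97_Finiteness
import Fermat.Agent.S24.H40_M123

set_option autoImplicit false

/-!
# Open stabilisers on `JZero N`  (package (T3) of the Stage-3 blueprint, helper46)

Every point of `JZero N = Pic0 (Qbar F_N)` is fixed by `Gal(Qbar / E)` for a finite extension `E / ℚ`.

* `exists_finite_fixing_coeffMap` / `exists_finite_fixing_elem` : every element of
  `laurentBaseChange L F₀` is fixed by the automorphisms fixing a finite subextension.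
* `exists_finite_fixing_place` : the same for places of `FN N`.
* `exists_finite_fixing_divisor`, `exists_finite_fixing` : the same for divisors and for `JZero N`.
* `exists_finite_normal_fixing_orbit` : one finite *normal* `E` works for the whole Galois orbit.
* `finite_orbit` : Galois orbits on `JZero N` are finite.
-/

noncomputable section

open AlgebraicCurve ModularCurve WithZero IntermediateField

namespace Fermat.Agent.S29.H46

/-! ### elements of `laurentBaseChange` -/

section Elem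

variable {L : Type*} [Field L] [Algebra ℚ L] [Algebra.IsAlgebraic ℚ L]
variable {F₀ : IntermediateField ℚ (LaurentSeries ℚ)}

/-- Every element of `laurentBaseChange L F₀` is fixed (coefficientwise) by all automorphisms of
`L` fixing a suitable finite subextension. -/
theorem exists_finite_fixing_coeffMap {x : LaurentSeries L} (hx : x ∈ laurentBaseChange L F₀) :
    ∃ E : IntermediateField ℚ L, FiniteDimensional ℚ E ∧
      ∀ σ : L ≃ₐ[ℚ] L, (∀ a ∈ E, σ a = a) → coeffMap (σ : L →+* L) x = x := by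
  rw [mem_laurentBaseChange_iff] at hx
  induction hx using Subfield.closure_induction with
  | mem y hy =>
    rcases hy with ⟨a, rfl⟩ | ⟨z, _, rfl⟩
    · refine ⟨ℚ⟮a⟯, ?_, fun σ hσ => ?_⟩
      · exact IntermediateField.adjoin.finiteDimensional
          (Algebra.IsIntegral.isIntegral (R := ℚ) a)
      · rw [coeffMap_algebraMap]
        congr 1
        exact hσ a (IntermediateField.mem_adjoin_simple_self ℚ a)
    · exact ⟨⊥, inferInstance, fun σ _ => coeffMap_coeffEmb σ z⟩
  | one => exact ⟨⊥, inferInstance, fun σ _ => map_one _⟩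
  | add x y _ _ hx hy =>
    obtain ⟨E₁, h₁, hE₁⟩ := hx
    obtain ⟨E₂, h₂, hE₂⟩ := hy
    refine ⟨E₁ ⊔ E₂, IntermediateField.finiteDimensional_sup E₁ E₂, fun σ hσ => ?_⟩
    rw [map_add, hE₁ σ fun a ha => hσ a ((le_sup_left : E₁ ≤ E₁ ⊔ E₂) ha),
      hE₂ σ fun a ha => hσ a ((le_sup_right : E₂ ≤ E₁ ⊔ E₂) ha)]
  | neg x _ hx =>
    obtain ⟨E₁, h₁, hE₁⟩ := hx
    exact ⟨E₁, h₁, fun σ hσ => by rw [map_neg, hE₁ σ hσ]⟩
  | inv x _ hx =>
    obtain ⟨E₁, h₁, hE₁⟩ := hx
    exact ⟨E₁, h₁, fun σ hσ => by rw [map_inv₀, hE₁ σ hσ]⟩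
  | mul x y _ _ hx hy =>
    obtain ⟨E₁, h₁, hE₁⟩ := hx
    obtain ⟨E₂, h₂, hE₂⟩ := hy
    refine ⟨E₁ ⊔ E₂, IntermediateField.finiteDimensional_sup E₁ E₂, fun σ hσ => ?_⟩
    rw [map_mul, hE₁ σ fun a ha => hσ a ((le_sup_left : E₁ ≤ E₁ ⊔ E₂) ha),
      hE₂ σ fun a ha => hσ a ((le_sup_right : E₂ ≤ E₁ ⊔ E₂) ha)]

/-- The same statement for the prelude's Galois action on the field `laurentBaseChange L F₀`. -/
theorem exists_finite_fixing_elem (f : laurentBaseChange L F₀) :
    ∃ E : IntermediateField ℚ L, FiniteDimensional ℚ E ∧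
      ∀ σ : L ≃ₐ[ℚ] L, (∀ a ∈ E, σ a = a) → arithmeticGalois F₀ σ • f = f := by
  obtain ⟨E, hE, h⟩ := exists_finite_fixing_coeffMap f.2
  refine ⟨E, hE, fun σ hσ => Subtype.ext ?_⟩
  rw [coe_arithmeticGalois_smul]
  exact h σ hσ

end Elem

/-! ### places of `FN N` -/

section Places

open Fermat.Agent.S24 Fermat.Agent.RR

variable (N : ℕ) [NeZero N]

theorem isAlgebraic_Qbar : Algebra.IsAlgebraic ℚ Qbar := by
  have h := AlgebraicClosure.isAlgebraic ℚ
  have e : (AlgebraicClosure.instAlgebra ℚ : Algebra ℚ (AlgebraicClosure ℚ)) =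
      DivisionRing.toRatAlgebra := Subsingleton.elim _ _
  rw [e] at h
  exact h

theorem ord_eq_of_val_eq_exp_neg {K F : Type*} [Field K] [Field F] [Algebra K F]
    (w : Place K F) {f : F} {n : ℤ} (h : w.adicValuation f = exp (-n)) : w.ord f = n := by
  have hf : f ≠ 0 := by
    rintro rfl
    rw [map_zero] at h
    exact exp_ne_zero h.symm
  rw [H52.val_eq_exp_neg_ord w hf, exp_inj] at h
  omega

/-- Every place of `FN N` is fixed by the automorphisms of `Qbar` fixing a suitable finite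
subextension. -/
theorem exists_finite_fixing_place (v : Place Qbar (FN N)) :
    ∃ E : IntermediateField ℚ Qbar, FiniteDimensional ℚ E ∧
      ∀ σ : Qbar ≃ₐ[ℚ] Qbar, (∀ a ∈ E, σ a = a) →
        arithmeticGalois (modularFunctionFieldFull N) σ • v = v := by
  classical
  have := H40.finiteDimensional_FN N
  have := isAlgebraic_Qbar
  have ht := H40.transcendental_jBar N
  obtain ⟨π, hπ⟩ := H52.exists_val_eq_exp_neg_one v
  have hfin := H97.finite_ord_ne_zero (jBar N) ht π
  set s : Finset (Place Qbar (FN N)) := hfin.toFinset.erase v with hs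
  obtain ⟨z, hz⟩ := H52.weak_approximation (insert v s) (fun w => if w = v then π else 1) 2
  have hzv : v.adicValuation (z - π) ≤ exp (-2 : ℤ) := by
    simpa using hz v (Finset.mem_insert_self _ _)
  have hzw : ∀ w ∈ s, w.adicValuation (z - 1) ≤ exp (-2 : ℤ) := by
    intro w hw
    have hwv : w ≠ v := (Finset.mem_erase.mp hw).1
    simpa [hwv] using hz w (Finset.mem_insert_of_mem hw)
  -- `z` has a simple zero at `v`
  have hvz : v.adicValuation z = exp (-1 : ℤ) := by
    have hlt : v.adicValuation (z - π) < v.adicValuation π := by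
      rw [hπ]
      exact lt_of_le_of_lt hzv (exp_lt_exp.mpr (by norm_num))
    have := Valuation.map_add_eq_of_lt_left v.adicValuation hlt
    rw [add_sub_cancel] at this
    rw [this, hπ]
  -- `z` is a unit at the other zeros and poles of `π`
  have hwz : ∀ w ∈ s, w.adicValuation z = exp (-(0 : ℤ)) := by
    intro w hw
    have hlt : w.adicValuation (z - 1) < w.adicValuation 1 := by
      rw [map_one]
      exact lt_of_le_of_lt (hzw w hw) (by rw [← exp_zero]; exact exp_lt_exp.mpr (by norm_num))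
    have := Valuation.map_add_eq_of_lt_left w.adicValuation hlt
    rw [add_sub_cancel] at this
    rw [this, map_one, neg_zero, exp_zero]
  have hπ1 : v.ord π = 1 := ord_eq_of_val_eq_exp_neg v hπ
  have hz1 : v.ord z = 1 := ord_eq_of_val_eq_exp_neg v hvz
  -- `v` is the only place where both `π` and `z` have nonzero order
  have huniq : ∀ w : Place Qbar (FN N), w.ord π ≠ 0 → w.ord z ≠ 0 → w = v := by
    intro w h1 h2
    by_contra hne
    have hw : w ∈ s := Finset.mem_erase.mpr ⟨hne, hfin.mem_toFinset.mpr h1⟩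
    exact h2 (ord_eq_of_val_eq_exp_neg w (hwz w hw))
  obtain ⟨E₁, hE₁, h₁⟩ := exists_finite_fixing_elem (F₀ := modularFunctionFieldFull N) π
  obtain ⟨E₂, hE₂, h₂⟩ := exists_finite_fixing_elem (F₀ := modularFunctionFieldFull N) z
  refine ⟨E₁ ⊔ E₂, IntermediateField.finiteDimensional_sup E₁ E₂, fun σ hσ => ?_⟩
  have hgπ := h₁ σ fun a ha => hσ a ((le_sup_left : E₁ ≤ E₁ ⊔ E₂) ha)
  have hgz := h₂ σ fun a ha => hσ a ((le_sup_right : E₂ ≤ E₁ ⊔ E₂) ha)
  set g := arithmeticGalois (modularFunctionFieldFull N) σ with hg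
  apply huniq
  · have := SemilinearAut.ord_smul g v π
    rw [hgπ] at this
    rw [this, hπ1]
    exact one_ne_zero
  · have := SemilinearAut.ord_smul g v z
    rw [hgz] at this
    rw [this, hz1]
    exact one_ne_zero

end Places

/-! ### divisors, `JZero N`, orbits -/

section JZero

open Fermat.Agent.S24

variable (N : ℕ) [NeZero N]

/-- A finite family of "open" conditions has a common finite level. -/
theorem exists_finite_fixing_finset {α : Type*} (s : Finset α)
    (P : α → (Qbar ≃ₐ[ℚ] Qbar) → Prop)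
    (h : ∀ a ∈ s, ∃ E : IntermediateField ℚ Qbar, FiniteDimensional ℚ E ∧
      ∀ σ : Qbar ≃ₐ[ℚ] Qbar, (∀ x ∈ E, σ x = x) → P a σ) :
    ∃ E : IntermediateField ℚ Qbar, FiniteDimensional ℚ E ∧
      ∀ σ : Qbar ≃ₐ[ℚ] Qbar, (∀ x ∈ E, σ x = x) → ∀ a ∈ s, P a σ := by
  classical
  induction s using Finset.induction_on with
  | empty => exact ⟨⊥, inferInstance, fun _ _ a ha => absurd ha (Finset.notMem_empty a)⟩
  | insert b s' _ ih =>
    obtain ⟨E₁, hE₁, h₁⟩ := h b (Finset.mem_insert_self _ _)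
    obtain ⟨E₂, hE₂, h₂⟩ := ih fun a ha => h a (Finset.mem_insert_of_mem ha)
    refine ⟨E₁ ⊔ E₂, IntermediateField.finiteDimensional_sup E₁ E₂, fun σ hσ a ha => ?_⟩
    rcases Finset.mem_insert.mp ha with rfl | ha'
    · exact h₁ σ fun x hx => hσ x ((le_sup_left : E₁ ≤ E₁ ⊔ E₂) hx)
    · exact h₂ σ (fun x hx => hσ x ((le_sup_right : E₂ ≤ E₁ ⊔ E₂) hx)) a ha'

/-- Every divisor of `FN N` is fixed by the automorphisms of `Qbar` fixing a suitable finite
subextension. -/
theorem exists_finite_fixing_divisor (D : Divisor Qbar (FN N)) :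
    ∃ E : IntermediateField ℚ Qbar, FiniteDimensional ℚ E ∧
      ∀ σ : Qbar ≃ₐ[ℚ] Qbar, (∀ a ∈ E, σ a = a) →
        arithmeticGalois (modularFunctionFieldFull N) σ • D = D := by
  obtain ⟨E, hE, h⟩ := exists_finite_fixing_finset D.support
    (fun v σ => arithmeticGalois (modularFunctionFieldFull N) σ • v = v)
    (fun v _ => exists_finite_fixing_place N v)
  refine ⟨E, hE, fun σ hσ => ?_⟩
  rw [SemilinearAut.divisor_smul_def,
    Finsupp.mapDomain_congr (g := id) (fun v hv => h σ hσ v hv), Finsupp.mapDomain_id]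

/-- **(T3)** Every point of `JZero N` is fixed by the automorphisms of `Qbar` fixing a suitable
finite subextension. -/
theorem exists_finite_fixing (x : JZero N) :
    ∃ E : IntermediateField ℚ Qbar, FiniteDimensional ℚ E ∧
      ∀ σ : Qbar ≃ₐ[ℚ] Qbar, (∀ a ∈ E, σ a = a) → σ • x = x := by
  obtain ⟨D, rfl⟩ := Pic0.mk_surjective x
  obtain ⟨E, hE, h⟩ := exists_finite_fixing_divisor N (D : Divisor Qbar (FN N))
  refine ⟨E, hE, fun σ hσ => ?_⟩
  rw [galois_smul_pic0_def, SemilinearAut.pic0_smul_mk]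
  exact congrArg Pic0.mk (Subtype.ext (by rw [SemilinearAut.coe_degZeroSMulHom]; exact h σ hσ))

/-- Finitely many points of `JZero N` have a common finite level. -/
theorem exists_finite_fixing_of_finite {S : Set (JZero N)} (hS : S.Finite) :
    ∃ E : IntermediateField ℚ Qbar, FiniteDimensional ℚ E ∧
      ∀ σ : Qbar ≃ₐ[ℚ] Qbar, (∀ a ∈ E, σ a = a) → ∀ x ∈ S, σ • x = x := by
  obtain ⟨E, hE, h⟩ := exists_finite_fixing_finset hS.toFinset
    (fun x σ => σ • x = x) (fun x _ => exists_finite_fixing N x)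
  exact ⟨E, hE, fun σ hσ x hx => h σ hσ x (hS.mem_toFinset.mpr hx)⟩

/-- One finite *normal* level works for the whole Galois orbit of a point. -/
theorem exists_finite_normal_fixing_orbit (x : JZero N) :
    ∃ E : IntermediateField ℚ Qbar, FiniteDimensional ℚ E ∧ Normal ℚ E ∧
      ∀ τ : Qbar ≃ₐ[ℚ] Qbar, (∀ a ∈ E, τ a = a) →
        ∀ σ : Qbar ≃ₐ[ℚ] Qbar, τ • (σ • x) = σ • x := by
  have := isAlgebraic_Qbar
  have : IsAlgClosure ℚ Qbar := ⟨inferInstance, isAlgebraic_Qbar⟩
  have hnorm : Normal ℚ Qbar := IsAlgClosure.normal ℚ Qbar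
  obtain ⟨E₀, hE₀, h₀⟩ := exists_finite_fixing N x
  have hnc : Normal ℚ (IntermediateField.normalClosure ℚ E₀ Qbar) :=
    normalClosure.normal ℚ E₀ Qbar
  refine ⟨IntermediateField.normalClosure ℚ E₀ Qbar, inferInstance, hnc,
    fun τ hτ σ => ?_⟩
  have hE : ∀ a ∈ E₀, a ∈ IntermediateField.normalClosure ℚ E₀ Qbar :=
    fun a ha => IntermediateField.le_normalClosure E₀ ha
  have hmap := (IntermediateField.normal_iff_forall_map_eq'
    (K := IntermediateField.normalClosure ℚ E₀ Qbar)).mp hnc σ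
  have key : (σ⁻¹ * τ * σ) • x = x := by
    apply h₀
    intro a ha
    have hσa : σ a ∈ IntermediateField.normalClosure ℚ E₀ Qbar := by
      rw [← hmap]
      exact ⟨a, hE a ha, rfl⟩
    show σ⁻¹ (τ (σ a)) = a
    rw [hτ _ hσa]
    exact σ.symm_apply_apply a
  calc τ • (σ • x) = σ • ((σ⁻¹ * τ * σ) • x) := by
        rw [← mul_smul, ← mul_smul]
        congr 1
        group
    _ = σ • x := by rw [key]

/-- Galois orbits on `JZero N` are finite. -/
theorem finite_orbit (x : JZero N) : (MulAction.orbit (Qbar ≃ₐ[ℚ] Qbar) x).Finite := by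
  classical
  obtain ⟨E, hE, h⟩ := exists_finite_fixing N x
  let Φ : (Qbar ≃ₐ[ℚ] Qbar) → (E →ₐ[ℚ] Qbar) := fun σ => (σ : Qbar →ₐ[ℚ] Qbar).comp E.val
  have hΦ : ∀ σ τ, Φ σ = Φ τ → σ • x = τ • x := by
    intro σ τ hστ
    have : (τ⁻¹ * σ) • x = x := by
      apply h
      intro a ha
      have := DFunLike.congr_fun hστ ⟨a, ha⟩
      show τ⁻¹ (σ a) = a
      have h2 : σ a = τ a := this
      rw [h2]
      exact τ.symm_apply_apply a
    rw [mul_smul] at this
    calc σ • x = τ • (τ⁻¹ • σ • x) := (smul_inv_smul τ _).symm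
      _ = τ • x := by rw [this]
  let hfun : (E →ₐ[ℚ] Qbar) → JZero N := fun φ =>
    if hφ : ∃ σ, Φ σ = φ then hφ.choose • x else x
  refine (Set.finite_range hfun).subset ?_
  rintro _ ⟨σ, rfl⟩
  refine ⟨Φ σ, ?_⟩
  have hex : ∃ σ', Φ σ' = Φ σ := ⟨σ, rfl⟩
  show (if hφ : ∃ σ', Φ σ' = Φ σ then hφ.choose • x else x) = σ • x
  rw [dif_pos hex]
  exact hΦ _ _ hex.choose_spec

omit [NeZero N] in
/-- If `τ` fixes every element of `S` it fixes the additive subgroup generated by `S`. -/
theorem smul_eq_of_mem_closure {τ : Qbar ≃ₐ[ℚ] Qbar} {S : Set (JZero N)}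
    (hS : ∀ x ∈ S, τ • x = x) {y : JZero N} (hy : y ∈ AddSubgroup.closure S) : τ • y = y := by
  induction hy using AddSubgroup.closure_induction with
  | mem x hx => exact hS x hx
  | zero => exact smul_zero (A := JZero N) τ
  | add a b _ _ ha hb => rw [smul_add, ha, hb]
  | neg a _ ha => rw [smul_neg, ha]

/-- The additive subgroup generated by a Galois orbit has a finite normal level. -/
theorem exists_finite_normal_fixing_closure_orbit (x : JZero N) :
    ∃ E : IntermediateField ℚ Qbar, FiniteDimensional ℚ E ∧ Normal ℚ E ∧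
      ∀ τ : Qbar ≃ₐ[ℚ] Qbar, (∀ a ∈ E, τ a = a) →
        ∀ y ∈ AddSubgroup.closure (MulAction.orbit (Qbar ≃ₐ[ℚ] Qbar) x), τ • y = y := by
  obtain ⟨E, hE, hN, h⟩ := exists_finite_normal_fixing_orbit N x
  refine ⟨E, hE, hN, fun τ hτ y hy => smul_eq_of_mem_closure N ?_ hy⟩
  rintro _ ⟨σ, rfl⟩
  exact h τ hτ σ

omit [NeZero N] in
/-- If `τ` fixes every element of `S` and commutes with the scalars `R`, it fixes the `R`-span
of `S`. -/
theorem smul_eq_of_mem_span {R : Type*} [Semiring R] [Module R (JZero N)]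
    [SMulCommClass (Qbar ≃ₐ[ℚ] Qbar) R (JZero N)] {τ : Qbar ≃ₐ[ℚ] Qbar} {S : Set (JZero N)}
    (hS : ∀ x ∈ S, τ • x = x) {y : JZero N} (hy : y ∈ Submodule.span R S) : τ • y = y := by
  induction hy using Submodule.span_induction with
  | mem x hx => exact hS x hx
  | zero => exact smul_zero (A := JZero N) τ
  | add a b _ _ ha hb => rw [smul_add, ha, hb]
  | smul r a _ ha => rw [smul_comm, ha]

/-- The span (over any ring of operators commuting with Galois) of finitely many points of
`JZero N` has a finite level. -/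
theorem exists_finite_fixing_span {R : Type*} [Semiring R] [Module R (JZero N)]
    [SMulCommClass (Qbar ≃ₐ[ℚ] Qbar) R (JZero N)] {S : Set (JZero N)} (hS : S.Finite) :
    ∃ E : IntermediateField ℚ Qbar, FiniteDimensional ℚ E ∧
      ∀ σ : Qbar ≃ₐ[ℚ] Qbar, (∀ a ∈ E, σ a = a) → ∀ y ∈ Submodule.span R S, σ • y = y := by
  obtain ⟨E, hE, h⟩ := exists_finite_fixing_of_finite N hS
  exact ⟨E, hE, fun σ hσ y hy => smul_eq_of_mem_span N (h σ hσ) hy⟩

/-- The span (over any ring of operators commuting with Galois) of a Galois orbit is Galois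
stable, finitely generated and has a finite normal level. -/
theorem exists_finite_normal_fixing_span_orbit {R : Type*} [Semiring R] [Module R (JZero N)]
    [SMulCommClass (Qbar ≃ₐ[ℚ] Qbar) R (JZero N)] (x : JZero N) :
    ∃ E : IntermediateField ℚ Qbar, FiniteDimensional ℚ E ∧ Normal ℚ E ∧
      ∀ τ : Qbar ≃ₐ[ℚ] Qbar, (∀ a ∈ E, τ a = a) →
        ∀ y ∈ Submodule.span R (MulAction.orbit (Qbar ≃ₐ[ℚ] Qbar) x), τ • y = y := by
  obtain ⟨E, hE, hN, h⟩ := exists_finite_normal_fixing_orbit N x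
  refine ⟨E, hE, hN, fun τ hτ y hy => smul_eq_of_mem_span N ?_ hy⟩
  rintro _ ⟨σ, rfl⟩
  exact h τ hτ σ

omit [NeZero N] in
/-- The span of a Galois orbit is Galois stable. -/
theorem smul_mem_span_orbit {R : Type*} [Semiring R] [Module R (JZero N)]
    [SMulCommClass (Qbar ≃ₐ[ℚ] Qbar) R (JZero N)] (x : JZero N) (σ : Qbar ≃ₐ[ℚ] Qbar)
    {y : JZero N} (hy : y ∈ Submodule.span R (MulAction.orbit (Qbar ≃ₐ[ℚ] Qbar) x)) :
    σ • y ∈ Submodule.span R (MulAction.orbit (Qbar ≃ₐ[ℚ] Qbar) x) := by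
  induction hy using Submodule.span_induction with
  | mem z hz =>
    obtain ⟨τ, rfl⟩ := hz
    exact Submodule.subset_span ⟨σ * τ, mul_smul σ τ x⟩
  | zero => rw [smul_zero (A := JZero N) σ]; exact Submodule.zero_mem _
  | add a b _ _ ha hb => rw [smul_add]; exact Submodule.add_mem _ ha hb
  | smul r a _ ha => rw [smul_comm]; exact Submodule.smul_mem _ r ha

end JZero

end Fermat.Agent.S29.H46
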