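import Mathlib
import Fermat.Prelude.Def_AlgebraicCurve_DivisorClassGroup

/-!
# S29 / KUMMER-GLUE : abstract construction of `lam : characters → Pic⁰[p]`

`helper88`.

Abstract setting (no analysis, no modular forms):

* `K` an algebraically closed field, `F` a field with `[Algebra K F]` (function field, prelude
  vocabulary `Place`, `Divisor`, `Pic0`);
* `M` a commutative domain with `[Algebra K M]` (a ring of "meromorphic functions");
* `Θ : F →ₐ[K] M` the realisation of `F` inside `M`;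
* `Γ` a group and `act : Γ → (M →ₐ[K] M)` ("`Φ ↦ Φ ∘ γ`"; no action axioms are needed);
* `Adm : Subgroup Mˣ` the admissible units ("meromorphic at all cusps");
* `X : Subgroup (Γ →* Kˣ)` the good characters.

Under the hypotheses bundled in `KummerSetup` we construct an additive map
`lam : Additive X →+ Pic0 K F`, killed by `p`, injective, together with the read-off lemma
`lam_eq_mk` (the value of `lam χ` can be computed from ANY admissible automorphic unit of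
character `χ`).
-/

set_option autoImplicit false
set_option linter.unusedSectionVars false

noncomputable section

namespace Fermat.Agent.S29.H88

open AlgebraicCurve

variable {K F M Γ : Type*} [Field K] [Field F] [Algebra K F] [CommRing M] [IsDomain M]
  [Algebra K M] [Group Γ]

/-- `Φ` is automorphic of character `χ` for the "action" `act`. -/
def IsAut (act : Γ → M →ₐ[K] M) (χ : Γ →* Kˣ) (Φ : M) : Prop :=
  ∀ γ : Γ, act γ Φ = algebraMap K M ((χ γ : Kˣ) : K) * Φ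

/-- The hypotheses of the abstract Kummer construction. -/
structure KummerSetup (p : ℕ) (Θ : F →ₐ[K] M) (act : Γ → M →ₐ[K] M) (Adm : Subgroup Mˣ)
    (X : Subgroup (Γ →* Kˣ)) : Prop where
  /-- good characters are `p`-torsion -/
  pow_eq_one : ∀ χ ∈ X, χ ^ p = 1
  /-- the image of `Θ` is invariant -/
  theta_inv : ∀ (f : F) (γ : Γ), act γ (Θ f) = Θ f
  /-- invariant admissible units come from `F` (DICT) -/
  surj : ∀ Φ ∈ Adm, (∀ γ : Γ, act γ (Φ : M) = Φ) → ∃ f : F, Θ f = Φ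
  /-- the divisor of the `p`-th power of an automorphic unit of good character is `p • D` (DICT) -/
  div : ∀ χ ∈ X, ∀ Φ ∈ Adm, IsAut act χ (Φ : M) → ∀ f : F, Θ f = (Φ : M) ^ p →
    ∃ D : Divisor K F, Divisor.degree D = 0 ∧ ∀ v : Place K F, (p : ℤ) * D v = v.ord f
  /-- functions without zeros and poles are constant -/
  const : ∀ f : F, f ≠ 0 → (∀ v : Place K F, v.ord f = 0) → ∃ c : K, f = algebraMap K F c
  /-- every good character is the character of some admissible unit (Poincaré series) -/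
  exist : ∀ χ ∈ X, ∃ Φ ∈ Adm, IsAut act χ (Φ : M)

section Basic

variable {p : ℕ} {Θ : F →ₐ[K] M} {act : Γ → M →ₐ[K] M} {Adm : Subgroup Mˣ}
  {X : Subgroup (Γ →* Kˣ)}

theorem theta_injective (Θ : F →ₐ[K] M) : Function.Injective Θ :=
  (Θ : F →+* M).injective

theorem theta_ne_zero (Θ : F →ₐ[K] M) {f : F} (hf : f ≠ 0) : Θ f ≠ 0 := fun h =>
  hf (theta_injective Θ (by rw [h, map_zero]))

theorem ne_zero_of_theta_eq_unit (Θ : F →ₐ[K] M) {f : F} {u : M} (hu : IsUnit u)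
    (h : Θ f = u) : f ≠ 0 := by
  rintro rfl
  rw [map_zero] at h
  exact hu.ne_zero h.symm

theorem IsAut.mul {act : Γ → M →ₐ[K] M} {χ χ' : Γ →* Kˣ} {Φ Φ' : M} (h : IsAut act χ Φ)
    (h' : IsAut act χ' Φ') : IsAut act (χ * χ') (Φ * Φ') := by
  intro γ
  rw [map_mul, h γ, h' γ, MonoidHom.mul_apply, Units.val_mul, map_mul]
  ring

theorem IsAut.one (act : Γ → M →ₐ[K] M) : IsAut act (1 : Γ →* Kˣ) (1 : M) := by
  intro γ
  simp

theorem IsAut.pow {act : Γ → M →ₐ[K] M} {χ : Γ →* Kˣ} {Φ : M} (h : IsAut act χ Φ) (n : ℕ) :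
    IsAut act (χ ^ n) (Φ ^ n) := by
  intro γ
  rw [map_pow, h γ, mul_pow, MonoidHom.pow_apply, Units.val_pow_eq_pow_val, map_pow]

theorem IsAut.invariant_of_one {act : Γ → M →ₐ[K] M} {Φ : M}
    (h : IsAut act (1 : Γ →* Kˣ) Φ) (γ : Γ) : act γ Φ = Φ := by
  have := h γ
  simpa using this

/-- an element of `M` whose `p`-th power is a constant is a constant (`K` algebraically closed,
`M` a domain). -/
theorem exists_const_of_pow_eq_const [IsAlgClosed K] (hp : 0 < p) {Ψ : M} {c : K}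
    (h : Ψ ^ p = algebraMap K M c) : ∃ c' : K, Ψ = algebraMap K M c' := by
  classical
  let q : Polynomial K := Polynomial.X ^ p - Polynomial.C c
  have hq : q.Monic := Polynomial.monic_X_pow_sub_C c hp.ne'
  have hs : q.Splits := IsAlgClosed.splits q
  have hprod : q = (q.roots.map (Polynomial.X - Polynomial.C ·)).prod :=
    hs.eq_prod_roots_of_monic hq
  have h0 : Polynomial.aeval Ψ q = 0 := by
    simp only [q, map_sub, map_pow, Polynomial.aeval_X, Polynomial.aeval_C, h, sub_self]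
  rw [hprod, map_multiset_prod, Multiset.map_map] at h0
  rw [Multiset.prod_eq_zero_iff] at h0
  obtain ⟨r, _, hr⟩ := Multiset.mem_map.mp h0
  refine ⟨r, ?_⟩
  simp only [Function.comp_apply, map_sub, Polynomial.aeval_X, Polynomial.aeval_C] at hr
  exact sub_eq_zero.mp hr

end Basic

section Rel

variable (p : ℕ) (Θ : F →ₐ[K] M) (act : Γ → M →ₐ[K] M) (Adm : Subgroup Mˣ)

/-- `c` is the class attached to the character `χ`: there is an admissible automorphic unit `Φ` of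
character `χ` with `Φ ^ p = Θ f` and `div f = p • D`, `c = [D]`. -/
def Rel (χ : Γ →* Kˣ) (c : Pic0 K F) : Prop :=
  ∃ Φ ∈ Adm, IsAut act χ (Φ : M) ∧ ∃ f : F, Θ f = (Φ : M) ^ p ∧
    ∃ (D : Divisor K F) (hD : Divisor.degree D = 0),
      (∀ v : Place K F, (p : ℤ) * D v = v.ord f) ∧ c = Pic0.mk ⟨D, Divisor.mem_degZero.mpr hD⟩

variable {p Θ act Adm}

theorem Rel.mk {χ : Γ →* Kˣ} {Φ : Mˣ} (hΦ : Φ ∈ Adm) (haut : IsAut act χ (Φ : M)) {f : F}
    (hf : Θ f = (Φ : M) ^ p) {D : Divisor K F} (hD : Divisor.degree D = 0)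
    (hDv : ∀ v : Place K F, (p : ℤ) * D v = v.ord f) :
    Rel p Θ act Adm χ (Pic0.mk ⟨D, Divisor.mem_degZero.mpr hD⟩) :=
  ⟨Φ, hΦ, haut, f, hf, D, hD, hDv, rfl⟩

theorem rel_one : Rel p Θ act Adm (1 : Γ →* Kˣ) (0 : Pic0 K F) := by
  refine ⟨1, Adm.one_mem, by simpa using IsAut.one act, 1, by simp, 0, map_zero _, ?_, ?_⟩
  · intro v
    simp
  · rfl

theorem Rel.mul {χ χ' : Γ →* Kˣ} {c c' : Pic0 K F} (h : Rel p Θ act Adm χ c)
    (h' : Rel p Θ act Adm χ' c') : Rel p Θ act Adm (χ * χ') (c + c') := by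
  obtain ⟨Φ, hΦ, haut, f, hf, D, hD, hDv, rfl⟩ := h
  obtain ⟨Φ', hΦ', haut', f', hf', D', hD', hDv', rfl⟩ := h'
  have hf0 : f ≠ 0 := ne_zero_of_theta_eq_unit Θ (Φ.isUnit.pow p) hf
  have hf0' : f' ≠ 0 := ne_zero_of_theta_eq_unit Θ (Φ'.isUnit.pow p) hf'
  refine ⟨Φ * Φ', Adm.mul_mem hΦ hΦ', by simpa using haut.mul haut', f * f', ?_, D + D', ?_, ?_, ?_⟩
  · rw [map_mul, hf, hf', Units.val_mul, mul_pow]
  · rw [map_add, hD, hD', add_zero]
  · intro v
    rw [Finsupp.add_apply, mul_add, hDv v, hDv' v, v.ord_mul hf0 hf0']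
  · rfl

theorem Rel.unique (hp : 0 < p) (hsurj : ∀ Φ ∈ Adm, (∀ γ : Γ, act γ (Φ : M) = Φ) → ∃ f : F, Θ f = Φ)
    {χ : Γ →* Kˣ} {c c' : Pic0 K F} (h : Rel p Θ act Adm χ c) (h' : Rel p Θ act Adm χ c') :
    c = c' := by
  obtain ⟨Φ, hΦ, haut, f, hf, D, hD, hDv, rfl⟩ := h
  obtain ⟨Φ', hΦ', haut', f', hf', D', hD', hDv', rfl⟩ := h'
  have hf0' : f' ≠ 0 := ne_zero_of_theta_eq_unit Θ (Φ'.isUnit.pow p) hf'
  -- the quotient `Ψ = Φ / Φ'` is invariant
  have hΨmul : ((Φ * Φ'⁻¹ : Mˣ) : M) * (Φ' : M) = Φ := by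
    rw [← Units.val_mul, inv_mul_cancel_right]
  have hΨinv : ∀ γ : Γ, act γ ((Φ * Φ'⁻¹ : Mˣ) : M) = ((Φ * Φ'⁻¹ : Mˣ) : M) := by
    intro γ
    have h1 : act γ ((Φ * Φ'⁻¹ : Mˣ) : M) * (algebraMap K M ((χ γ : Kˣ) : K) * (Φ' : M))
        = algebraMap K M ((χ γ : Kˣ) : K) * (Φ : M) := by
      rw [← haut' γ, ← map_mul, hΨmul, haut γ]
    have hne : algebraMap K M ((χ γ : Kˣ) : K) * (Φ' : M) ≠ 0 :=
      mul_ne_zero (by
        rw [Ne, map_eq_zero_iff _ (FaithfulSMul.algebraMap_injective K M)]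
        exact (χ γ).ne_zero) Φ'.ne_zero
    refine mul_right_cancel₀ hne ?_
    rw [h1, ← hΨmul]
    ring
  obtain ⟨g, hg⟩ := hsurj (Φ * Φ'⁻¹) (Adm.mul_mem hΦ (Adm.inv_mem hΦ')) hΨinv
  have hg0 : g ≠ 0 := ne_zero_of_theta_eq_unit Θ (Φ * Φ'⁻¹).isUnit hg
  have hfg : f = g ^ p * f' := by
    apply theta_injective Θ
    rw [map_mul, map_pow, hg, hf, hf', ← mul_pow, hΨmul]
  have hord : ∀ v : Place K F, D v - D' v = v.ord g := by
    intro v
    have h1 : (p : ℤ) * (D v - D' v) = (p : ℤ) * v.ord g := by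
      rw [mul_sub, hDv v, hDv' v, hfg, v.ord_mul (pow_ne_zero p hg0) hf0', ← zpow_natCast,
        v.ord_zpow]
      ring
    exact mul_left_cancel₀ (by exact_mod_cast hp.ne') h1
  symm
  refine QuotientAddGroup.eq.mpr ?_
  rw [AddSubgroup.mem_addSubgroupOf]
  refine ⟨g, hg0, fun v => ?_⟩
  have := hord v
  simp only [AddSubgroup.coe_add, NegMemClass.coe_neg, Finsupp.add_apply, Finsupp.neg_apply]
  linarith

theorem Rel.zsmul_eq_zero {χ : Γ →* Kˣ} {c : Pic0 K F} (h : Rel p Θ act Adm χ c) :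
    (p : ℤ) • c = 0 := by
  obtain ⟨Φ, hΦ, haut, f, hf, D, hD, hDv, rfl⟩ := h
  have hf0 : f ≠ 0 := ne_zero_of_theta_eq_unit Θ (Φ.isUnit.pow p) hf
  show (p : ℤ) • (QuotientAddGroup.mk _ : Pic0 K F) = 0
  rw [← QuotientAddGroup.mk_zsmul, QuotientAddGroup.eq_zero_iff, AddSubgroup.mem_addSubgroupOf]
  refine ⟨f, hf0, fun v => ?_⟩
  simp only [AddSubgroup.coe_zsmul, Finsupp.smul_apply, smul_eq_mul]
  exact hDv v

theorem Rel.eq_one_of_zero [IsAlgClosed K] (hp : 0 < p)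
    (htheta : ∀ (f : F) (γ : Γ), act γ (Θ f) = Θ f)
    (hconst : ∀ f : F, f ≠ 0 → (∀ v : Place K F, v.ord f = 0) → ∃ c : K, f = algebraMap K F c)
    {χ : Γ →* Kˣ} (h : Rel p Θ act Adm χ (0 : Pic0 K F)) : χ = 1 := by
  obtain ⟨Φ, hΦ, haut, f, hf, D, hD, hDv, h0⟩ := h
  have hf0 : f ≠ 0 := ne_zero_of_theta_eq_unit Θ (Φ.isUnit.pow p) hf
  have hprin : D ∈ Divisor.principal (K := K) (F := F) := by
    have := (QuotientAddGroup.eq_zero_iff _).mp h0.symm
    rwa [AddSubgroup.mem_addSubgroupOf] at this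
  obtain ⟨g, hg0, hgD⟩ := hprin
  -- `h := f / g ^ p` has no zeros and no poles
  have hgi0 : g⁻¹ ≠ 0 := inv_ne_zero hg0
  have hh0 : f * g⁻¹ ^ p ≠ 0 := mul_ne_zero hf0 (pow_ne_zero p hgi0)
  have hhord : ∀ v : Place K F, v.ord (f * g⁻¹ ^ p) = 0 := by
    intro v
    rw [v.ord_mul hf0 (pow_ne_zero p hgi0), ← zpow_natCast, v.ord_zpow, v.ord_inv, ← hDv v,
      hgD v]
    ring
  obtain ⟨c, hc⟩ := hconst _ hh0 hhord
  -- `Ψ := Φ / Θ g` is a constant
  have hΨ : ((Φ : M) * Θ g⁻¹) ^ p = algebraMap K M c := by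
    rw [mul_pow, ← hf, ← map_pow, ← map_mul, hc, AlgHom.commutes]
  obtain ⟨c', hc'⟩ := exists_const_of_pow_eq_const hp hΨ
  have hgg : Θ g⁻¹ * Θ g = 1 := by rw [← map_mul, inv_mul_cancel₀ hg0, map_one]
  have hΦeq : (Φ : M) = algebraMap K M c' * Θ g := by
    rw [← hc', mul_assoc, hgg, mul_one]
  have hΦinv : ∀ γ : Γ, act γ (Φ : M) = Φ := by
    intro γ
    rw [hΦeq, map_mul, AlgHom.commutes, htheta]
  refine MonoidHom.ext fun γ => Units.ext ?_
  have h1 : algebraMap K M ((χ γ : Kˣ) : K) * (Φ : M) = 1 * (Φ : M) := by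
    rw [← haut γ, hΦinv γ, one_mul]
  have h2 := mul_right_cancel₀ Φ.ne_zero h1
  have h3 : algebraMap K M ((χ γ : Kˣ) : K) = algebraMap K M 1 := by rw [h2, map_one]
  simpa using FaithfulSMul.algebraMap_injective K M h3

end Rel

section Lam

variable {p : ℕ} {Θ : F →ₐ[K] M} {act : Γ → M →ₐ[K] M} {Adm : Subgroup Mˣ}
  {X : Subgroup (Γ →* Kˣ)}

theorem KummerSetup.exists_rel (hS : KummerSetup p Θ act Adm X) {χ : Γ →* Kˣ} (hχ : χ ∈ X) :
    ∃ c : Pic0 K F, Rel p Θ act Adm χ c := by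
  obtain ⟨Φ, hΦ, haut⟩ := hS.exist χ hχ
  have hinv : ∀ γ : Γ, act γ ((Φ ^ p : Mˣ) : M) = ((Φ ^ p : Mˣ) : M) := by
    intro γ
    have h1 := (haut.pow p) γ
    rw [hS.pow_eq_one χ hχ] at h1
    rw [Units.val_pow_eq_pow_val, h1]
    simp
  obtain ⟨f, hf⟩ := hS.surj (Φ ^ p) (Adm.pow_mem hΦ p) hinv
  rw [Units.val_pow_eq_pow_val] at hf
  obtain ⟨D, hD, hDv⟩ := hS.div χ hχ Φ hΦ haut f hf
  exact ⟨_, Rel.mk hΦ haut hf hD hDv⟩

/-- the underlying function of `lam`. -/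
def KummerSetup.lamFun (hS : KummerSetup p Θ act Adm X) (χ : X) : Pic0 K F :=
  Classical.choose (hS.exists_rel χ.2)

theorem KummerSetup.rel_lamFun (hS : KummerSetup p Θ act Adm X) (χ : X) :
    Rel p Θ act Adm (χ : Γ →* Kˣ) (hS.lamFun χ) :=
  Classical.choose_spec (hS.exists_rel χ.2)

/-- **The Kummer map**: good characters to divisor classes. -/
def KummerSetup.lam (hS : KummerSetup p Θ act Adm X) (hp : 0 < p) : Additive X →+ Pic0 K F :=
  AddMonoidHom.mk' (fun x => hS.lamFun (Additive.toMul x)) (by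
    intro x y
    exact Rel.unique hp hS.surj (hS.rel_lamFun (Additive.toMul (x + y)))
      ((hS.rel_lamFun (Additive.toMul x)).mul (hS.rel_lamFun (Additive.toMul y))))

theorem KummerSetup.rel_lam (hS : KummerSetup p Θ act Adm X) (hp : 0 < p) (x : Additive X) :
    Rel p Θ act Adm ((Additive.toMul x : X) : Γ →* Kˣ) (hS.lam hp x) :=
  hS.rel_lamFun (Additive.toMul x)

/-- **read-off**: `lam χ` is the class attached to `χ` by ANY witness. -/
theorem KummerSetup.lam_eq_of_rel (hS : KummerSetup p Θ act Adm X) (hp : 0 < p)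
    {χ : Γ →* Kˣ} (hχ : χ ∈ X) {c : Pic0 K F} (h : Rel p Θ act Adm χ c) :
    hS.lam hp (Additive.ofMul ⟨χ, hχ⟩) = c :=
  Rel.unique hp hS.surj (hS.rel_lam hp (Additive.ofMul ⟨χ, hχ⟩)) h

/-- **read-off**, explicit form: for any admissible unit `Φ` automorphic of character `χ`, any `f`
with `Θ f = Φ ^ p` and any degree-zero divisor `D` with `p • D = div f`: `lam χ = [D]`. -/
theorem KummerSetup.lam_eq_mk (hS : KummerSetup p Θ act Adm X) (hp : 0 < p)
    {χ : Γ →* Kˣ} (hχ : χ ∈ X) {Φ : Mˣ} (hΦ : Φ ∈ Adm) (haut : IsAut act χ (Φ : M)) {f : F}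
    (hf : Θ f = (Φ : M) ^ p) {D : Divisor K F} (hD : Divisor.degree D = 0)
    (hDv : ∀ v : Place K F, (p : ℤ) * D v = v.ord f) :
    hS.lam hp (Additive.ofMul ⟨χ, hχ⟩) = Pic0.mk ⟨D, Divisor.mem_degZero.mpr hD⟩ :=
  hS.lam_eq_of_rel hp hχ (Rel.mk hΦ haut hf hD hDv)

/-- `lam` is killed by `p`. -/
theorem KummerSetup.zsmul_lam (hS : KummerSetup p Θ act Adm X) (hp : 0 < p) (x : Additive X) :
    (p : ℤ) • hS.lam hp x = 0 :=
  (hS.rel_lam hp x).zsmul_eq_zero

/-- `lam` is injective. -/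
theorem KummerSetup.eq_zero_of_lam_eq_zero [IsAlgClosed K] (hS : KummerSetup p Θ act Adm X)
    (hp : 0 < p) {x : Additive X} (hx : hS.lam hp x = 0) : x = 0 := by
  have h := hS.rel_lam hp x
  rw [hx] at h
  have h1 : ((Additive.toMul x : X) : Γ →* Kˣ) = 1 :=
    h.eq_one_of_zero hp hS.theta_inv hS.const
  have h2 : (Additive.toMul x : X) = 1 := Subtype.ext h1
  exact Additive.toMul.injective h2

theorem KummerSetup.lam_injective [IsAlgClosed K] (hS : KummerSetup p Θ act Adm X)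
    (hp : 0 < p) : Function.Injective (hS.lam hp) :=
  (injective_iff_map_eq_zero _).mpr fun _ hx => hS.eq_zero_of_lam_eq_zero hp hx

/-- consumer form: pre-compose with an additive map `e : L →+ Additive X` (e.g.
`φ ↦ exp (2 π i φ / p)` on `L = parabolicHoms ℤ Γ ℤ`). -/
theorem KummerSetup.exists_lam_comp [IsAlgClosed K] (hS : KummerSetup p Θ act Adm X)
    (hp : 0 < p) {L : Type*} [AddCommGroup L] (e : L →+ Additive X) (P : L → Prop)
    (he : ∀ x : L, e x = 0 → P x) :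
    ∃ lamL : L →+ Pic0 K F, (∀ x, (p : ℤ) • lamL x = 0) ∧ (∀ x, lamL x = 0 → P x) ∧
      ∀ x, lamL x = hS.lam hp (e x) :=
  ⟨(hS.lam hp).comp e, fun x => hS.zsmul_lam hp (e x),
    fun x hx => he x (hS.eq_zero_of_lam_eq_zero hp hx), fun _ => rfl⟩

end Lam

section OfDvd

variable {p : ℕ} {Θ : F →ₐ[K] M} {act : Γ → M →ₐ[K] M} {Adm : Subgroup Mˣ}
  {X : Subgroup (Γ →* Kˣ)}

/-- if `p` divides all orders of `f`, then `div f = p • D` for a degree-zero divisor `D`. -/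
theorem exists_divisor_of_dvd_ord [HasPrincipalDivisors K F] (hp : 0 < p) {f : F} (hf : f ≠ 0)
    (h : ∀ v : Place K F, (p : ℤ) ∣ v.ord f) :
    ∃ D : Divisor K F, Divisor.degree D = 0 ∧ ∀ v : Place K F, (p : ℤ) * D v = v.ord f := by
  obtain ⟨D₀, hD₀, hdeg⟩ := HasPrincipalDivisors.exists_divisor (K := K) f hf
  refine ⟨D₀.mapRange (fun n : ℤ => n / (p : ℤ)) (by simp), ?_, ?_⟩
  · have hsm : (p : ℤ) • D₀.mapRange (fun n : ℤ => n / (p : ℤ)) (by simp) = D₀ := by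
      ext v
      rw [Finsupp.smul_apply, Finsupp.mapRange_apply, smul_eq_mul, hD₀ v,
        Int.mul_ediv_cancel' (h v)]
    have h1 : (p : ℤ) * Divisor.degree (D₀.mapRange (fun n : ℤ => n / (p : ℤ)) (by simp)) = 0 := by
      rw [← smul_eq_mul, ← map_zsmul, hsm, hdeg]
    exact (mul_eq_zero.mp h1).resolve_left (by exact_mod_cast hp.ne')
  · intro v
    rw [Finsupp.mapRange_apply, hD₀ v, Int.mul_ediv_cancel' (h v)]

/-- constructor of `KummerSetup` from pointwise divisibility of the orders. -/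
theorem KummerSetup.of_dvd [HasPrincipalDivisors K F] (hp : 0 < p)
    (pow_eq_one : ∀ χ ∈ X, χ ^ p = 1)
    (theta_inv : ∀ (f : F) (γ : Γ), act γ (Θ f) = Θ f)
    (surj : ∀ Φ ∈ Adm, (∀ γ : Γ, act γ (Φ : M) = Φ) → ∃ f : F, Θ f = Φ)
    (dvd : ∀ χ ∈ X, ∀ Φ ∈ Adm, IsAut act χ (Φ : M) → ∀ f : F, Θ f = (Φ : M) ^ p →
      ∀ v : Place K F, (p : ℤ) ∣ v.ord f)
    (const : ∀ f : F, f ≠ 0 → (∀ v : Place K F, v.ord f = 0) → ∃ c : K, f = algebraMap K F c)
    (exist : ∀ χ ∈ X, ∃ Φ ∈ Adm, IsAut act χ (Φ : M)) :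
    KummerSetup p Θ act Adm X where
  pow_eq_one := pow_eq_one
  theta_inv := theta_inv
  surj := surj
  div := fun χ hχ Φ hΦ haut f hf =>
    exists_divisor_of_dvd_ord hp (ne_zero_of_theta_eq_unit Θ (Φ.isUnit.pow p) hf)
      (dvd χ hχ Φ hΦ haut f hf)
  const := const
  exist := exist

end OfDvd

end Fermat.Agent.S29.H88
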