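/-
S29 / P10 (HECKE-EQUIV), abstract form, on top of helper88's `KummerSetup`.

Setting of `H88_KummerGlue`: `Θ : F →ₐ[K] M`, `act : Γ → M →ₐ[K] M`, `Adm ≤ Mˣ`, `X ≤ (Γ →* Kˣ)`,
`hS : KummerSetup p Θ act Adm X`, `lam := hS.lam hp : Additive X →+ Pic0 K F`.

Let `φ ψ : F →ₐ[K] F'` and `T := Pic0.correspondence φ ψ ..` (`= ψ_* φ^*`; for the prelude Hecke
operator `φ = heckeBetaBar`, `ψ = heckeAlphaBar`).  Suppose given

* `TM : Mˣ →* Mˣ`   (in the application `Φ ↦ ∏_δ Φ ∘ δ`, `δ` through the representatives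
  `diag(ℓ,1) r_i` of the double coset),
* `TX : (Γ →* Kˣ) → (Γ →* Kˣ)` (in the application `opMul D`, helper65's `H65_KummerCoset`),

with: `TM` preserves `Adm`, `TX` preserves `X`, `TM` sends automorphic units of character `χ` to
automorphic units of character `TX χ` (`IsAut.prod`), and the analytic norm formula (NORM-AN)
`Θ (Nm_ψ (φ f)) = TM (Θ f)`.  Then

  `lam (TX χ) = T (lam χ)`.

Also: `correspondence_apply_eq_ord` (CORR-DIV): `ψ_* φ^* (div f) = div (Nm_ψ (φ f))`.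
-/
import Mathlib
import Fermat.Prelude.Def_AlgebraicCurve_Correspondence
import Fermat.Agent.S29.H88_KummerGlue

set_option autoImplicit false

open AlgebraicCurve

namespace Fermat.Agent.S29.H65

section corrdiv

variable {K F F' : Type*} [Field K] [Field F] [Field F'] [Algebra K F] [Algebra K F']

/-- The norm along an algebra homomorphism `ψ : F →ₐ[K] F'`. -/
noncomputable def normAlong (ψ : F →ₐ[K] F') : F' →* F :=
  letI := algebraAlong ψ
  Algebra.norm F

theorem normAlong_ne_zero (ψ : F →ₐ[K] F') (hfin : FiniteAlong K ψ) {g : F'} (hg : g ≠ 0) :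
    normAlong ψ g ≠ 0 := by
  let := algebraAlong ψ
  have : Module.Finite F F' := hfin
  exact Algebra.norm_ne_zero_iff.mpr hg

variable [HasPrincipalDivisors K F']
variable (φ ψ : F →ₐ[K] F') (hφ : φ.toRingHom.IsIntegral) (hψ : ψ.toRingHom.IsIntegral)

theorem pullbackAlong_apply_eq_ord {f : F} {D : Divisor K F}
    (hD : ∀ v : Place K F, D v = v.ord f) (w : Place K F') :
    Divisor.pullbackAlong φ hφ D w = w.ord (φ f) := by
  let := algebraAlong φ
  have := isScalarTower_along φ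
  have := isIntegral_along φ hφ
  exact Divisor.pullback_apply_eq_ord hD w

omit [HasPrincipalDivisors K F'] in
theorem pushforwardAlong_apply_eq_ord (hfin : FiniteAlong K ψ)
    (hN : NormFormulaAlong K ψ hfin) {g : F'} (hg : g ≠ 0) {D : Divisor K F'}
    (hD : ∀ w : Place K F', D w = w.ord g) (v : Place K F) :
    Divisor.pushforwardAlong ψ hψ D v = v.ord (normAlong ψ g) := by
  let := algebraAlong ψ
  have := isScalarTower_along ψ
  have := isIntegral_along ψ hψ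
  have : Module.Finite F F' := hfin
  exact hN g hg D hD v

/-- **CORR-DIV**: `ψ_* φ^* (div f) = div (Nm_ψ (φ f))`. -/
theorem correspondence_apply_eq_ord (hfin : FiniteAlong K ψ)
    (hN : NormFormulaAlong K ψ hfin) {f : F} (hf : f ≠ 0) {D : Divisor K F}
    (hD : ∀ v : Place K F, D v = v.ord f) (v : Place K F) :
    Divisor.correspondence φ ψ hφ hψ D v = v.ord (normAlong ψ (φ f)) := by
  rw [Divisor.correspondence_apply]
  refine pushforwardAlong_apply_eq_ord ψ hψ hfin hN ?_ (fun w => ?_) v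
  · exact fun h => hf ((map_eq_zero_iff φ φ.toRingHom.injective).mp h)
  · exact pullbackAlong_apply_eq_ord φ hφ hD w

/-- **CORR-DIV**, `p`-divisible form: if `p • D = div f` then
`p • (ψ_* φ^* D) = div (Nm_ψ (φ f))`. -/
theorem mul_correspondence_apply_eq_ord (hfin : FiniteAlong K ψ)
    (hN : NormFormulaAlong K ψ hfin) {f : F} (hf : f ≠ 0) {p : ℤ} {D : Divisor K F}
    (hD : ∀ v : Place K F, p * D v = v.ord f) (v : Place K F) :
    p * Divisor.correspondence φ ψ hφ hψ D v = v.ord (normAlong ψ (φ f)) := by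
  have h := correspondence_apply_eq_ord φ ψ hφ hψ hfin hN hf (D := p • D)
    (fun v => by rw [Finsupp.smul_apply, smul_eq_mul, hD v]) v
  rw [map_zsmul, Finsupp.smul_apply, smul_eq_mul] at h
  exact h

end corrdiv

section main

open H88

variable {K F F' M Γ : Type*} [Field K] [Field F] [Field F'] [Algebra K F] [Algebra K F']
  [CommRing M] [IsDomain M] [Algebra K M] [Group Γ]
  {p : ℕ} {Θ : F →ₐ[K] M} {act : Γ → M →ₐ[K] M} {Adm : Subgroup Mˣ}
  {X : Subgroup (Γ →* Kˣ)}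
  [HasPrincipalDivisors K F']

/-- **HECKE-EQUIV, abstract form.** -/
theorem lam_correspondence (hS : KummerSetup p Θ act Adm X) (hp : 0 < p)
    (φ ψ : F →ₐ[K] F') (hφ : φ.toRingHom.IsIntegral) (hψ : ψ.toRingHom.IsIntegral)
    (hFI : FundamentalIdentityAlong K φ hφ)
    (hfin : FiniteAlong K ψ) (hN : NormFormulaAlong K ψ hfin)
    (TM : Mˣ →* Mˣ) (TX : (Γ →* Kˣ) → (Γ →* Kˣ))
    (hAdm : ∀ Φ ∈ Adm, TM Φ ∈ Adm)
    (hX : ∀ χ ∈ X, TX χ ∈ X)
    (haut : ∀ χ ∈ X, ∀ Φ ∈ Adm, IsAut act χ (Φ : M) → IsAut act (TX χ) ((TM Φ : Mˣ) : M))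
    (hnorm : ∀ (f : F) (Φ : Mˣ), Θ f = (Φ : M) → Θ (normAlong ψ (φ f)) = ((TM Φ : Mˣ) : M))
    {χ : Γ →* Kˣ} (hχ : χ ∈ X) :
    hS.lam hp (Additive.ofMul ⟨TX χ, hX χ hχ⟩)
      = Pic0.correspondence φ ψ hφ hψ hFI hfin hN (hS.lam hp (Additive.ofMul ⟨χ, hχ⟩)) := by
  obtain ⟨Φ, hΦ, hΦaut, f, hf, D, hD, hDv, hc⟩ := hS.rel_lam hp (Additive.ofMul ⟨χ, hχ⟩)
  have hχ' : ((Additive.toMul (Additive.ofMul (⟨χ, hχ⟩ : X)) : X) : Γ →* Kˣ) = χ := rfl
  rw [hχ'] at hΦaut
  rw [hc]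
  have hf0 : f ≠ 0 :=
    ne_zero_of_theta_eq_unit Θ ((Φ ^ p).isUnit) (by rw [hf, Units.val_pow_eq_pow_val])
  -- the new witness
  have hf' : Θ (normAlong ψ (φ f)) = ((TM Φ : Mˣ) : M) ^ p := by
    rw [hnorm f (Φ ^ p) (by rw [hf, Units.val_pow_eq_pow_val]), map_pow,
      Units.val_pow_eq_pow_val]
  have hD' : Divisor.degree (Divisor.correspondence φ ψ hφ hψ D) = 0 := by
    rw [Divisor.degree_correspondence φ ψ hφ hψ hFI, hD, mul_zero]
  have hDv' : ∀ v : Place K F,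
      (p : ℤ) * Divisor.correspondence φ ψ hφ hψ D v = v.ord (normAlong ψ (φ f)) :=
    fun v => mul_correspondence_apply_eq_ord φ ψ hφ hψ hfin hN hf0 hDv v
  rw [hS.lam_eq_mk hp (hX χ hχ) (hAdm Φ hΦ) (haut χ hχ Φ hΦ hΦaut) hf' hD' hDv']
  rw [Pic0.correspondence_mk]
  rfl

end main

end Fermat.Agent.S29.H65
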