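import Fermat.Agent.S29.H25_ThetaC
import Fermat.Agent.S24.H81_EmbTheta

/-!
S29 / E0-DICT (helper25), part (D0c): the (right) action of `SL(2, ℤ)` on the field
`Mer = FractionRing Hol` of meromorphic functions on `ℍ` by precomposition,
`merComp γ (g / h) = (g ∘ γ) / (h ∘ γ)`, the transport of orders, and the `Γ₀(N)`-invariance of
`thetaC N f`.
-/

set_option autoImplicit false
noncomputable section
namespace Fermat.Agent.S29.H25
open UpperHalfPlane ModularCurve
open Fermat.Agent.S24
open Fermat.Agent.S24.H81 (Hol Mer ordNat merOrd)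
open scoped MatrixGroups Manifold

/-- precomposition with `γ ∈ SL(2, ℤ)` on holomorphic functions. -/
def holComp (γ : SL(2, ℤ)) : Hol →+* Hol where
  toFun g := ⟨fun τ => (g : ℍ → ℂ) (γ • τ), (H81.mem_Hol.mp g.2).comp (H17.mdiff_SL_smul γ)⟩
  map_one' := rfl
  map_mul' _ _ := rfl
  map_zero' := rfl
  map_add' _ _ := rfl

@[simp]
theorem holComp_apply (γ : SL(2, ℤ)) (g : Hol) (τ : ℍ) :
    ((holComp γ g : Hol) : ℍ → ℂ) τ = (g : ℍ → ℂ) (γ • τ) := rfl

theorem holComp_one (g : Hol) : holComp 1 g = g := by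
  apply Subtype.ext
  funext τ
  simp

theorem holComp_mul (γ₁ γ₂ : SL(2, ℤ)) (g : Hol) :
    holComp (γ₁ * γ₂) g = holComp γ₂ (holComp γ₁ g) := by
  apply Subtype.ext
  funext τ
  simp [mul_smul]

theorem holComp_injective (γ : SL(2, ℤ)) : Function.Injective (holComp γ) := by
  intro g h hgh
  apply Subtype.ext
  funext τ
  have := congrArg (fun k : Hol => (k : ℍ → ℂ) (γ⁻¹ • τ)) hgh
  simpa using this

theorem algebraMap_comp_holComp_injective (γ : SL(2, ℤ)) :
    Function.Injective ((algebraMap Hol Mer).comp (holComp γ)) :=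
  (IsFractionRing.injective Hol Mer).comp (holComp_injective γ)

/-- precomposition with `γ ∈ SL(2, ℤ)` on meromorphic functions. -/
def merComp (γ : SL(2, ℤ)) : Mer →+* Mer :=
  IsFractionRing.lift (algebraMap_comp_holComp_injective γ)

@[simp]
theorem merComp_algebraMap (γ : SL(2, ℤ)) (g : Hol) :
    merComp γ (algebraMap Hol Mer g) = algebraMap Hol Mer (holComp γ g) :=
  IsFractionRing.lift_algebraMap (algebraMap_comp_holComp_injective γ) g

theorem merComp_one (x : Mer) : merComp 1 x = x := by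
  have h : merComp 1 = RingHom.id Mer := by
    apply IsLocalization.ringHom_ext (nonZeroDivisors Hol)
    ext g
    simp [holComp_one]
  rw [h]
  rfl

theorem merComp_mul (γ₁ γ₂ : SL(2, ℤ)) (x : Mer) :
    merComp (γ₁ * γ₂) x = merComp γ₂ (merComp γ₁ x) := by
  have h : merComp (γ₁ * γ₂) = (merComp γ₂).comp (merComp γ₁) := by
    apply IsLocalization.ringHom_ext (nonZeroDivisors Hol)
    ext g
    simp [holComp_mul]
  rw [h]
  rfl

theorem merComp_injective (γ : SL(2, ℤ)) : Function.Injective (merComp γ) :=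
  (merComp γ).injective

/-- Every meromorphic function is a quotient of holomorphic functions. -/
theorem exists_eq_div (x : Mer) :
    ∃ g h : Hol, h ≠ 0 ∧ x = algebraMap Hol Mer g / algebraMap Hol Mer h := by
  obtain ⟨g, h, hh, rfl⟩ := IsFractionRing.div_surjective (A := Hol) x
  exact ⟨g, h, nonZeroDivisors.ne_zero hh, rfl⟩

theorem ordNat_holComp (γ : SL(2, ℤ)) (g : Hol) (τ0 : ℍ) :
    ordNat τ0 ((holComp γ g : Hol) : ℍ → ℂ) = ordNat (γ • τ0) (g : ℍ → ℂ) :=
  H81.ordNat_comp_smul (H81.mem_Hol.mp g.2) γ τ0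

theorem merOrd_div (τ0 : ℍ) {g h : Hol} (hg : g ≠ 0) (hh : h ≠ 0) :
    merOrd τ0 (algebraMap Hol Mer g / algebraMap Hol Mer h) =
      (ordNat τ0 (g : ℍ → ℂ) : ℤ) - ordNat τ0 (h : ℍ → ℂ) := by
  have hg' : algebraMap Hol Mer g ≠ 0 := by
    rwa [ne_eq, map_eq_zero_iff _ (IsFractionRing.injective Hol Mer)]
  have hh' : algebraMap Hol Mer h ≠ 0 := by
    rwa [ne_eq, map_eq_zero_iff _ (IsFractionRing.injective Hol Mer)]
  have h1 := H81.merOrd_mul τ0 (div_ne_zero hg' hh') hh'
  rw [div_mul_cancel₀ _ hh', H81.merOrd_algebraMap τ0 hg, H81.merOrd_algebraMap τ0 hh] at h1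
  omega

/-- transport of orders under `merComp`. -/
theorem merOrd_merComp (γ : SL(2, ℤ)) (τ0 : ℍ) (x : Mer) :
    merOrd τ0 (merComp γ x) = merOrd (γ • τ0) x := by
  by_cases hx : x = 0
  · subst hx
    simp [merOrd]
  obtain ⟨g, h, hh, rfl⟩ := exists_eq_div x
  have hg : g ≠ 0 := by
    rintro rfl
    simp at hx
  have hg' : holComp γ g ≠ 0 := fun h0 => hg (holComp_injective γ (by rw [h0, map_zero]))
  have hh' : holComp γ h ≠ 0 := fun h0 => hh (holComp_injective γ (by rw [h0, map_zero]))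
  rw [map_div₀, merComp_algebraMap, merComp_algebraMap, merOrd_div τ0 hg' hh',
    merOrd_div (γ • τ0) hg hh, ordNat_holComp, ordNat_holComp]

variable (N : ℕ) [NeZero N]

/-- **(D0, invariance)** `thetaC N f` is `Γ₀(N)`-invariant. -/
theorem merComp_thetaC {γ : SL(2, ℤ)} (hγ : γ ∈ CongruenceSubgroup.Gamma0 N) (f : FC N) :
    merComp γ (thetaC N f) = thetaC N f := by
  have h : (merComp γ).comp (thetaC N) = thetaC N := by
    apply IsLocalization.ringHom_ext (nonZeroDivisors (AC N))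
    ext a
    simp only [RingHom.comp_apply]
    have e : algebraMap (AC N) (FC N) a = (a : FC N) := rfl
    rw [e, thetaC_coe, merComp_algebraMap]
    congr 1
    apply Subtype.ext
    funext τ
    exact ThetaC_smul N a.2 hγ τ
  exact congrArg (fun φ : FC N →+* Mer => φ f) h

/-- orders of `thetaC N f` are constant on `Γ₀(N)`-orbits. -/
theorem merOrd_thetaC_smul {γ : SL(2, ℤ)} (hγ : γ ∈ CongruenceSubgroup.Gamma0 N) (f : FC N)
    (τ0 : ℍ) : merOrd (γ • τ0) (thetaC N f) = merOrd τ0 (thetaC N f) := by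
  rw [← merOrd_merComp, merComp_thetaC N hγ]

end Fermat.Agent.S29.H25
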