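/-
S29 / E3 (Hecke compatibility of the Kummer map), abstract algebraic core.

A group `G` acts on the right on a commutative monoid `M` ("functions", `F ↦ F ∘ g`); a
commutative monoid `C` of "constants" maps to the `G`-invariants of `M`.  An element `Φ : M` is
automorphic for `ι : Γ →* G` with character `χ : Γ →* C` if `Φ ∘ ι γ = χ γ * Φ`.

Main result: for a coset datum `D : H85.CosetDatum ι₁ ι₂ I` (Hecke / transfer / degeneracy
operators on `Hom(Γ, A)` of S41) and `Φ` automorphic for `ι₁` with character `χ`, the product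
`∏ i, Φ ∘ α i` is automorphic for `ι₂` with character `D.opMul χ` (the multiplicative form of
`D.op`).  Together with restriction and twisting by an element of `G` this computes the character
of `α_* β^*` on Kummer classes as `cor ∘ cst`.
-/
import Mathlib
import Fermat.Agent.S41.H85_CosetDatum

set_option autoImplicit false

namespace Fermat.Agent.S29.H65

open Fermat.Agent.S41.H85

variable {G Γ Γ' Γ₁ Γ₂ : Type*} [Group G] [Group Γ] [Group Γ'] [Group Γ₁] [Group Γ₂]

/-- A right action of `G` on the commutative monoid `M` by monoid endomorphisms, together with a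
monoid of constants `C` mapping to invariant elements. -/
structure AutSetup (G C M : Type*) [Group G] [CommMonoid C] [CommMonoid M] where
  /-- the right action `F ↦ F ∘ g` -/
  act : G → M →* M
  act_one : ∀ m, act 1 m = m
  act_mul : ∀ g h m, act (g * h) m = act h (act g m)
  /-- constants -/
  const : C →* M
  act_const : ∀ g x, act g (const x) = const x

section

variable {C M : Type*} [CommMonoid C] [CommMonoid M] (S : AutSetup G C M)

/-- `Φ` is automorphic for `ι : Γ →* G` with character `χ`. -/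
def IsAut (ι : Γ →* G) (χ : Γ →* C) (Φ : M) : Prop :=
  ∀ γ, S.act (ι γ) Φ = S.const (χ γ) * Φ

variable {S}

theorem IsAut.apply {ι : Γ →* G} {χ : Γ →* C} {Φ : M} (h : IsAut S ι χ Φ) (γ : Γ) :
    S.act (ι γ) Φ = S.const (χ γ) * Φ := h γ

theorem isAut_one (ι : Γ →* G) : IsAut S ι (1 : Γ →* C) (1 : M) := by
  intro γ; simp

theorem isAut_const (ι : Γ →* G) (x : C) : IsAut S ι (1 : Γ →* C) (S.const x) := by
  intro γ; simp [S.act_const]

theorem IsAut.mul {ι : Γ →* G} {χ χ' : Γ →* C} {Φ Φ' : M} (h : IsAut S ι χ Φ)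
    (h' : IsAut S ι χ' Φ') : IsAut S ι (χ * χ') (Φ * Φ') := by
  intro γ
  rw [map_mul, h γ, h' γ, MonoidHom.mul_apply, map_mul]
  exact mul_mul_mul_comm _ _ _ _

theorem IsAut.pow {ι : Γ →* G} {χ : Γ →* C} {Φ : M} (h : IsAut S ι χ Φ) (n : ℕ) :
    IsAut S ι (χ ^ n) (Φ ^ n) := by
  intro γ
  rw [map_pow, h γ, MonoidHom.pow_apply, map_pow, mul_pow]

/-- If `χ ^ n = 1` then `Φ ^ n` is invariant. -/
theorem IsAut.pow_invariant {ι : Γ →* G} {χ : Γ →* C} {Φ : M} (h : IsAut S ι χ Φ) {n : ℕ}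
    (hn : χ ^ n = 1) (γ : Γ) : S.act (ι γ) (Φ ^ n) = Φ ^ n := by
  have := h.pow n γ
  rw [hn] at this
  simpa using this

/-- Restriction along a homomorphism `f : Γ' →* Γ`. -/
theorem IsAut.comp {ι : Γ →* G} {χ : Γ →* C} {Φ : M} (h : IsAut S ι χ Φ) (f : Γ' →* Γ) :
    IsAut S (ι.comp f) (χ.comp f) Φ := fun γ => h (f γ)

/-- Twisting by `g : G`: if `g * ι' γ' = ι (f γ') * g` for all `γ'` then `Φ ∘ g` is automorphic for
`ι'` with character `χ ∘ f`. -/
theorem IsAut.act {ι : Γ →* G} {χ : Γ →* C} {Φ : M} (h : IsAut S ι χ Φ) (g : G)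
    {ι' : Γ' →* G} (f : Γ' →* Γ) (hg : ∀ γ', g * ι' γ' = ι (f γ') * g) :
    IsAut S ι' (χ.comp f) (S.act g Φ) := by
  intro γ'
  rw [← S.act_mul, hg, S.act_mul, h (f γ'), map_mul, S.act_const]
  rfl

/-- Uniqueness of the character when multiplication by `Φ` is injective on constants. -/
theorem IsAut.char_unique {ι : Γ →* G} {χ χ' : Γ →* C} {Φ : M} (h : IsAut S ι χ Φ)
    (h' : IsAut S ι χ' Φ) (hΦ : ∀ x y : C, S.const x * Φ = S.const y * Φ → x = y) : χ = χ' :=
  MonoidHom.ext fun γ => hΦ _ _ ((h γ).symm.trans (h' γ))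

end

namespace CosetDatumMul

variable {ι₁ : Γ₁ →* G} {ι₂ : Γ₂ →* G} {I : Type*} [Fintype I] {C : Type*} [CommMonoid C]

/-- The multiplicative form of `CosetDatum.op`: `(opMul χ) γ = ∏ i, χ (coc γ i)`. -/
def opMul (D : CosetDatum ι₁ ι₂ I) (χ : Γ₁ →* C) : Γ₂ →* C where
  toFun γ := ∏ i, χ (D.coc γ i)
  map_one' := by simp
  map_mul' γ δ := by
    simp only [D.coc_mul, map_mul, Finset.prod_mul_distrib]
    congr 1
    exact Equiv.prod_comp (D.permEquiv γ) (fun i => χ (D.coc δ i))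

@[simp] theorem opMul_apply (D : CosetDatum ι₁ ι₂ I) (χ : Γ₁ →* C) (γ : Γ₂) :
    opMul D χ γ = ∏ i, χ (D.coc γ i) := rfl

theorem opMul_mul (D : CosetDatum ι₁ ι₂ I) (χ χ' : Γ₁ →* C) :
    opMul D (χ * χ') = opMul D χ * opMul D χ' := by
  ext γ; simp [Finset.prod_mul_distrib]

theorem opMul_pow (D : CosetDatum ι₁ ι₂ I) (χ : Γ₁ →* C) (n : ℕ) :
    opMul D (χ ^ n) = opMul D χ ^ n := by
  ext γ; simp [Finset.prod_pow]

theorem opMul_one (D : CosetDatum ι₁ ι₂ I) : opMul D (1 : Γ₁ →* C) = 1 := by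
  ext γ; simp

end CosetDatumMul

open CosetDatumMul

section bridge

variable {ι₁ : Γ₁ →* G} {ι₂ : Γ₂ →* G} {I : Type*} [Fintype I] {C : Type*} [CommGroup C]

/-- `opMul` is `op` read through `Additive`. -/
theorem op_toAdditive (D : CosetDatum ι₁ ι₂ I) (χ : Γ₁ →* C) :
    D.op (MonoidHom.toAdditive χ) = MonoidHom.toAdditive (opMul D χ) := by
  refine AddMonoidHom.ext fun γ => ?_
  obtain ⟨γ, rfl⟩ := Additive.ofMul.surjective γ
  rw [CosetDatum.op_apply]
  simp only [MonoidHom.toAdditive_apply_apply, toMul_ofMul, opMul_apply, ofMul_prod]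

/-- `op` on an additive target `A`, read multiplicatively through `Multiplicative A`. -/
theorem opMul_toMultiplicative {A : Type*} [AddCommGroup A] (D : CosetDatum ι₁ ι₂ I)
    (φ : Additive Γ₁ →+ A) (γ : Γ₂) :
    opMul D (AddMonoidHom.toMultiplicativeRight φ) γ
      = Multiplicative.ofAdd (D.op φ (Additive.ofMul γ)) := by
  rw [CosetDatum.op_apply, opMul_apply, ofAdd_sum]
  rfl

end bridge

section main

variable {C M : Type*} [CommMonoid C] [CommMonoid M] {S : AutSetup G C M}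
  {ι₁ : Γ₁ →* G} {ι₂ : Γ₂ →* G} {I : Type*} [Fintype I]

/-- **Transfer of automorphy.**  If `Φ` is automorphic for `ι₁` with character `χ`, then
`∏ i, Φ ∘ α i` is automorphic for `ι₂` with character `opMul D χ`. -/
theorem IsAut.prod (D : CosetDatum ι₁ ι₂ I) {χ : Γ₁ →* C} {Φ : M} (h : IsAut S ι₁ χ Φ) :
    IsAut S ι₂ (opMul D χ) (∏ i, S.act (D.α i) Φ) := by
  intro γ
  rw [map_prod, opMul_apply, map_prod, ← Finset.prod_mul_distrib]
  have h1 : ∀ i, S.act (ι₂ γ) (S.act (D.α i) Φ)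
      = S.const (χ (D.coc γ i)) * S.act (D.α (D.perm γ i)) Φ := by
    intro i
    rw [← S.act_mul, D.eq, S.act_mul, h (D.coc γ i), map_mul, S.act_const]
  simp only [h1, Finset.prod_mul_distrib]
  congr 1
  exact Equiv.prod_comp (D.permEquiv γ) (fun i => S.act (D.α i) Φ)

/-- The `n`-th power of the transferred element is the transfer of the `n`-th power. -/
theorem prod_act_pow (D : CosetDatum ι₁ ι₂ I) (Φ : M) (n : ℕ) :
    (∏ i, S.act (D.α i) Φ) ^ n = ∏ i, S.act (D.α i) (Φ ^ n) := by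
  simp only [map_pow, Finset.prod_pow]

/-- If `f` is `ι₁`-invariant then `∏ i, f ∘ α i` is `ι₂`-invariant (the "norm"). -/
theorem prod_act_invariant (D : CosetDatum ι₁ ι₂ I) {f : M}
    (hf : ∀ γ, S.act (ι₁ γ) f = f) (γ : Γ₂) :
    S.act (ι₂ γ) (∏ i, S.act (D.α i) f) = ∏ i, S.act (D.α i) f := by
  have h : IsAut S ι₁ (1 : Γ₁ →* C) f := fun γ => by simp [hf γ]
  have := h.prod D γ
  simpa [opMul_one] using this

end main

end Fermat.Agent.S29.H65
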