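/-
S29 / P10 (HECKE-EQUIV): the right action of `GL(2,ℝ)⁺` on the S24 rings `Hol` (holomorphic
functions on `ℍ`) and `Mer = Frac Hol` by precomposition, `Φ ↦ Φ ∘ g`.

* `compHol g : Hol →+* Hol`, `actGL g : Mer →+* Mer`, `actGL_mul : actGL (g * h) x = actGL h
  (actGL g x)` (right action), `actGL_one`, `actGL_algebraMap`, `constMer : ℂ →+* Mer`,
  `actGL_constMer`; `actGLEquiv g : Mer ≃+* Mer`.
* `merSetup : AutSetup GL(2,ℝ)⁺ ℂˣ Mer`, `merUnitsSetup : AutSetup GL(2,ℝ)⁺ ℂˣ Merˣ`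
  (the abstract setting of `H65_KummerCoset`).
* `restrictDatum` : a coset datum whose representatives and groups lie in a subgroup `H`
  is a coset datum for `H`; `opMul` is unchanged.
* `heckeMer D : Merˣ →* Merˣ`, `Φ ↦ ∏ i, Φ ∘ α i`, and `IsAut.heckeMer`: it maps automorphic units
  of character `χ` to automorphic units of character `opMul D χ`.
-/
import Mathlib
import Fermat.Agent.S24.H81_Hol
import Fermat.Agent.S29.H65_KummerCoset

set_option autoImplicit false

open UpperHalfPlane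
open scoped Manifold MatrixGroups

namespace Fermat.Agent.S29.H65

open Fermat.Agent.S24.H81 Fermat.Agent.S41.H85

noncomputable section

/-! ### The action on `Hol` -/

theorem glPos_det_pos (g : GL(2, ℝ)⁺) : 0 < (g : GL (Fin 2) ℝ).det.val :=
  (Matrix.mem_glpos _).mp g.2

/-- Precomposition with `g ∈ GL(2,ℝ)⁺` on holomorphic functions. -/
def compHol (g : GL(2, ℝ)⁺) : Hol →+* Hol where
  toFun a := ⟨fun τ => (a : ℍ → ℂ) ((g : GL (Fin 2) ℝ) • τ),
    MDifferentiable.comp (g := (a : ℍ → ℂ)) a.2 (mdifferentiable_smul (glPos_det_pos g))⟩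
  map_one' := rfl
  map_mul' _ _ := rfl
  map_zero' := rfl
  map_add' _ _ := rfl

@[simp] theorem compHol_apply (g : GL(2, ℝ)⁺) (a : Hol) (τ : ℍ) :
    (compHol g a : ℍ → ℂ) τ = (a : ℍ → ℂ) ((g : GL (Fin 2) ℝ) • τ) := rfl

theorem compHol_one (a : Hol) : compHol 1 a = a := by
  apply Subtype.ext
  funext τ
  rw [compHol_apply, Subgroup.coe_one, one_smul]

theorem compHol_mul (g h : GL(2, ℝ)⁺) (a : Hol) :
    compHol (g * h) a = compHol h (compHol g a) := by
  apply Subtype.ext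
  funext τ
  rw [compHol_apply, compHol_apply, compHol_apply, Subgroup.coe_mul, mul_smul]

theorem compHol_injective (g : GL(2, ℝ)⁺) : Function.Injective (compHol g) := by
  intro a b hab
  have h := congrArg (compHol g⁻¹) hab
  rwa [← compHol_mul, ← compHol_mul, mul_inv_cancel, compHol_one, compHol_one] at h

/-- Constant functions. -/
def constHol : ℂ →+* Hol where
  toFun c := ⟨fun _ => c, const_mem_Hol c⟩
  map_one' := rfl
  map_mul' _ _ := rfl
  map_zero' := rfl
  map_add' _ _ := rfl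

@[simp] theorem constHol_apply (c : ℂ) (τ : ℍ) : (constHol c : ℍ → ℂ) τ = c := rfl

theorem compHol_constHol (g : GL(2, ℝ)⁺) (c : ℂ) : compHol g (constHol c) = constHol c := rfl

theorem constHol_injective : Function.Injective constHol := by
  intro a b h
  have := congrArg (fun x : Hol => (x : ℍ → ℂ) UpperHalfPlane.I) h
  simpa using this

/-! ### The action on `Mer` -/

theorem algebraMap_comp_compHol_injective (g : GL(2, ℝ)⁺) :
    Function.Injective ((algebraMap Hol Mer).comp (compHol g)) :=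
  (IsFractionRing.injective Hol Mer).comp (compHol_injective g)

/-- Precomposition with `g ∈ GL(2,ℝ)⁺` on meromorphic functions. -/
def actGL (g : GL(2, ℝ)⁺) : Mer →+* Mer :=
  IsFractionRing.lift (algebraMap_comp_compHol_injective g)

@[simp] theorem actGL_algebraMap (g : GL(2, ℝ)⁺) (a : Hol) :
    actGL g (algebraMap Hol Mer a) = algebraMap Hol Mer (compHol g a) :=
  IsFractionRing.lift_algebraMap _ a

theorem actGL_div (g : GL(2, ℝ)⁺) (a b : Hol) :
    actGL g (algebraMap Hol Mer a / algebraMap Hol Mer b)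
      = algebraMap Hol Mer (compHol g a) / algebraMap Hol Mer (compHol g b) := by
  rw [map_div₀, actGL_algebraMap, actGL_algebraMap]

theorem actGL_one (x : Mer) : actGL 1 x = x := by
  have h : actGL 1 = RingHom.id Mer :=
    IsFractionRing.ringHom_ext (A := Hol) fun a => by
      rw [actGL_algebraMap, compHol_one, RingHom.id_apply]
  rw [h, RingHom.id_apply]

/-- `actGL` is a RIGHT action: `Φ ∘ (g h) = (Φ ∘ g) ∘ h`. -/
theorem actGL_mul (g h : GL(2, ℝ)⁺) (x : Mer) : actGL (g * h) x = actGL h (actGL g x) := by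
  have e : actGL (g * h) = (actGL h).comp (actGL g) :=
    IsFractionRing.ringHom_ext (A := Hol) fun a => by
      rw [actGL_algebraMap, RingHom.comp_apply, actGL_algebraMap, actGL_algebraMap, compHol_mul]
  rw [e, RingHom.comp_apply]

theorem actGL_inv_actGL (g : GL(2, ℝ)⁺) (x : Mer) : actGL g⁻¹ (actGL g x) = x := by
  rw [← actGL_mul, mul_inv_cancel, actGL_one]

theorem actGL_actGL_inv (g : GL(2, ℝ)⁺) (x : Mer) : actGL g (actGL g⁻¹ x) = x := by
  rw [← actGL_mul, inv_mul_cancel, actGL_one]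

/-- `actGL g` as a ring automorphism. -/
def actGLEquiv (g : GL(2, ℝ)⁺) : Mer ≃+* Mer :=
  { actGL g with
    invFun := actGL g⁻¹
    left_inv := actGL_inv_actGL g
    right_inv := actGL_actGL_inv g }

@[simp] theorem actGLEquiv_apply (g : GL(2, ℝ)⁺) (x : Mer) : actGLEquiv g x = actGL g x := rfl

/-- Constants in `Mer`. -/
def constMer : ℂ →+* Mer := (algebraMap Hol Mer).comp constHol

theorem constMer_apply (c : ℂ) : constMer c = algebraMap Hol Mer (constHol c) := rfl

theorem actGL_constMer (g : GL(2, ℝ)⁺) (c : ℂ) : actGL g (constMer c) = constMer c := by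
  rw [constMer_apply, actGL_algebraMap, compHol_constHol]

theorem constMer_injective : Function.Injective constMer :=
  (IsFractionRing.injective Hol Mer).comp constHol_injective

/-! ### The automorphy setups -/

/-- The automorphy setup on `Mer` (as a multiplicative monoid). -/
def merSetup : AutSetup GL(2, ℝ)⁺ ℂˣ Mer where
  act g := (actGL g : Mer →* Mer)
  act_one m := actGL_one m
  act_mul g h m := actGL_mul g h m
  const := (constMer : ℂ →* Mer).comp (Units.coeHom ℂ)
  act_const g _ := actGL_constMer g _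

/-- The automorphy setup on the units of `Mer`. -/
def merUnitsSetup : AutSetup GL(2, ℝ)⁺ ℂˣ Merˣ where
  act g := Units.map (actGL g : Mer →* Mer)
  act_one m := Units.ext (actGL_one m)
  act_mul g h m := Units.ext (actGL_mul g h m)
  const := Units.map (constMer : ℂ →* Mer)
  act_const g _ := Units.ext (actGL_constMer g _)

@[simp] theorem merUnitsSetup_act_val (g : GL(2, ℝ)⁺) (Φ : Merˣ) :
    ((merUnitsSetup.act g Φ : Merˣ) : Mer) = actGL g (Φ : Mer) := rfl

@[simp] theorem merUnitsSetup_const_val (c : ℂˣ) :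
    ((merUnitsSetup.const c : Merˣ) : Mer) = constMer (c : ℂ) := rfl

theorem isAut_merUnitsSetup_iff {Γ : Type*} [Group Γ] (ι : Γ →* GL(2, ℝ)⁺) (χ : Γ →* ℂˣ)
    (Φ : Merˣ) :
    IsAut merUnitsSetup ι χ Φ ↔
      ∀ γ : Γ, actGL (ι γ) (Φ : Mer) = constMer ((χ γ : ℂˣ) : ℂ) * (Φ : Mer) := by
  constructor
  · intro h γ
    have := congrArg (fun u : Merˣ => (u : Mer)) (h γ)
    simpa using this
  · intro h γ
    apply Units.ext
    simpa using h γ

end

/-! ### Restriction of a coset datum to a subgroup -/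

section restrict

variable {G Γ₁ Γ₂ : Type*} [Group G] [Group Γ₁] [Group Γ₂] {ι₁ : Γ₁ →* G} {ι₂ : Γ₂ →* G}
  {I : Type*}

/-- A coset datum all of whose data lie in a subgroup `H` is a coset datum for `H`. -/
def restrictDatum (D : CosetDatum ι₁ ι₂ I) (H : Subgroup G) (h₁ : ∀ γ, ι₁ γ ∈ H)
    (h₂ : ∀ γ, ι₂ γ ∈ H) (hα : ∀ i, D.α i ∈ H) :
    CosetDatum (ι₁.codRestrict H h₁) (ι₂.codRestrict H h₂) I where
  α i := ⟨D.α i, hα i⟩
  perm := D.perm
  coc := D.coc
  eq γ i := Subtype.ext (D.eq γ i)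
  perm_one := D.perm_one
  perm_mul := D.perm_mul
  coc_mul := D.coc_mul

@[simp] theorem restrictDatum_α_val (D : CosetDatum ι₁ ι₂ I) (H : Subgroup G)
    (h₁ : ∀ γ, ι₁ γ ∈ H) (h₂ : ∀ γ, ι₂ γ ∈ H) (hα : ∀ i, D.α i ∈ H) (i : I) :
    ((restrictDatum D H h₁ h₂ hα).α i : G) = D.α i := rfl

open CosetDatumMul in
theorem opMul_restrictDatum [Fintype I] {C : Type*} [CommMonoid C]
    (D : CosetDatum ι₁ ι₂ I) (H : Subgroup G)
    (h₁ : ∀ γ, ι₁ γ ∈ H) (h₂ : ∀ γ, ι₂ γ ∈ H) (hα : ∀ i, D.α i ∈ H) (χ : Γ₁ →* C) :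
    opMul (restrictDatum D H h₁ h₂ hα) χ = opMul D χ := rfl

end restrict

/-! ### The Hecke operator of a coset datum on `Merˣ` -/

noncomputable section hecke

open CosetDatumMul

variable {Γ₁ Γ₂ : Type*} [Group Γ₁] [Group Γ₂] {ι₁ : Γ₁ →* GL(2, ℝ)⁺} {ι₂ : Γ₂ →* GL(2, ℝ)⁺}
  {I : Type*} [Fintype I]

/-- `Φ ↦ ∏ i, Φ ∘ α i` on the units of `Mer`. -/
def heckeMer (D : CosetDatum ι₁ ι₂ I) : Merˣ →* Merˣ :=
  ∏ i, merUnitsSetup.act (D.α i)

theorem heckeMer_apply (D : CosetDatum ι₁ ι₂ I) (Φ : Merˣ) :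
    heckeMer D Φ = ∏ i, merUnitsSetup.act (D.α i) Φ := by
  rw [heckeMer, MonoidHom.finsetProd_apply]

theorem heckeMer_val (D : CosetDatum ι₁ ι₂ I) (Φ : Merˣ) :
    ((heckeMer D Φ : Merˣ) : Mer) = ∏ i, actGL (D.α i) (Φ : Mer) := by
  rw [heckeMer_apply, Units.coe_prod]
  rfl

/-- **Transfer of automorphy** for units of `Mer`. -/
theorem IsAut.heckeMer (D : CosetDatum ι₁ ι₂ I) {χ : Γ₁ →* ℂˣ} {Φ : Merˣ}
    (h : IsAut merUnitsSetup ι₁ χ Φ) :
    IsAut merUnitsSetup ι₂ (opMul D χ) (heckeMer D Φ) := by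
  rw [heckeMer_apply]
  exact h.prod D

end hecke

end Fermat.Agent.S29.H65
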