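/-
S29 / E3 (Hecke compatibility of the Kummer map), group-theoretic part.

On Kummer characters `χ : Γ₀(N) → μ_p` the correspondence `α_* β^*` of the prelude
(`heckeOperatorAlong`) acts by `cor ∘ cst`: conjugation by `diag(ℓ,1)` followed by the transfer
from `Γ₀(N ℓ)` to `Γ₀(N)`, i.e. by the coset datum with representatives `diag(ℓ,1) r_i`
(the double coset of `diag(ℓ,1)`).

* `ℓ ∤ N`: `cor ∘ cst = T_ℓ` (`H65.cor_cst` of S41).
* `ℓ ∣ N`: `corU ∘ cst = w_N ∘ U_ℓ ∘ w_N` (the transpose of `U_ℓ`), `w_N` the full Atkin–Lehner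
  involution `χ ↦ χ ∘ (conjugation by [[0,-1],[N,0]])`.
* `w_N` commutes with `T_ℓ`, `ℓ ∤ N`.

Hence if `χ₀` is an eigenvector of all `T_ℓ` (`ℓ ∤ N`) and `U_ℓ` (`ℓ ∣ N`), then `w_N χ₀` is an
eigenvector, with the same eigenvalues, of the operators induced by `heckeOperatorAlong`.
-/
import Mathlib
import Fermat.Agent.S41.H65_DegIdentities
import Fermat.Agent.S29.H65_KummerCoset

set_option autoImplicit false

open CongruenceSubgroup Matrix.SpecialLinearGroup ModularForm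
open scoped MatrixGroups
open P2MW.S_ModularForm_heckeT_slash_eq_self_of_mem_Gamma0.ModularForm.HeckeSlashInvariance

namespace Fermat.Agent.S29.H65

open Fermat.Agent.S41.H85 Fermat.Agent.S41.H72 Fermat.Agent.S41.H65

/-! ### The full Atkin–Lehner involution `w_N` -/

section W

variable {N : ℕ}

/-- The matrix `W_N = [[0,-1],[N,0]]`. -/
noncomputable def wGL (N : ℕ) (hN : N ≠ 0) : GL (Fin 2) ℝ :=
  Matrix.GeneralLinearGroup.mkOfDetNeZero !![0, -1; (N : ℝ), 0] (by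
    rw [Matrix.det_fin_two_of]
    have : (N : ℝ) ≠ 0 := by exact_mod_cast hN
    simpa using this)

@[simp] theorem val_wGL (hN : N ≠ 0) :
    ((wGL N hN : GL (Fin 2) ℝ) : Matrix (Fin 2) (Fin 2) ℝ) = !![0, -1; (N : ℝ), 0] := rfl

theorem N_mul_ediv (γ : Gamma0 N) :
    (N : ℤ) * ((γ : SL(2, ℤ)) 1 0 / N) = (γ : SL(2, ℤ)) 1 0 :=
  Int.mul_ediv_cancel' (dvd_of_mem_Gamma0 γ.2)

/-- `[[a,b],[c,d]] ↦ [[d, -c/N],[-N b, a]]`. -/
def wFun (γ : Gamma0 N) : Gamma0 N :=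
  ⟨sl2 ((γ : SL(2, ℤ)) 1 1) (-((γ : SL(2, ℤ)) 1 0 / N)) (-((N : ℤ) * (γ : SL(2, ℤ)) 0 1))
      ((γ : SL(2, ℤ)) 0 0) (by
        have h1 := det_eq' (γ : SL(2, ℤ))
        have h2 := N_mul_ediv γ
        linear_combination h1 - (γ : SL(2, ℤ)) 0 1 * h2),
    by
      rw [mem_Gamma0_iff_dvd, sl2_apply_one_zero]
      exact ⟨-(γ : SL(2, ℤ)) 0 1, by ring⟩⟩

theorem wFun_coe_apply (γ : Gamma0 N) :
    (((wFun γ : Gamma0 N) : SL(2, ℤ)) : Matrix (Fin 2) (Fin 2) ℤ)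
      = !![(γ : SL(2, ℤ)) 1 1, -((γ : SL(2, ℤ)) 1 0 / N);
           -((N : ℤ) * (γ : SL(2, ℤ)) 0 1), (γ : SL(2, ℤ)) 0 0] := rfl

theorem wGL_mul_gl (hN : N ≠ 0) (γ : Gamma0 N) :
    wGL N hN * gl N γ = gl N (wFun γ) * wGL N hN := by
  have h2 := congrArg (Int.cast : ℤ → ℝ) (N_mul_ediv γ)
  push_cast at h2
  ext a b
  rw [gl_apply, gl_apply]
  fin_cases a <;> fin_cases b <;>
    simp [Matrix.mul_apply, Fin.sum_univ_two, wFun_coe_apply, mul_comm]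
  linarith

/-- Conjugation by `W_N` as an automorphism of `Γ₀(N)`. -/
noncomputable def wHom (hN : N ≠ 0) : Gamma0 N →* Gamma0 N :=
  homOfConj (gl_injective N) (wGL N hN) wFun (wGL_mul_gl hN)

@[simp] theorem wHom_apply (hN : N ≠ 0) (γ : Gamma0 N) : wHom hN γ = wFun γ := rfl

theorem wFun_wFun (hN : N ≠ 0) (γ : Gamma0 N) : wFun (wFun γ) = γ := by
  have hN' : (N : ℤ) ≠ 0 := by exact_mod_cast hN
  apply Subtype.ext
  apply Matrix.SpecialLinearGroup.ext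
  intro i j
  have h2 := N_mul_ediv γ
  fin_cases i <;> fin_cases j
  · rfl
  · show -(-((N : ℤ) * (γ : SL(2, ℤ)) 0 1) / N) = (γ : SL(2, ℤ)) 0 1
    rw [Int.neg_ediv_of_dvd ⟨_, rfl⟩, Int.mul_ediv_cancel_left _ hN', neg_neg]
  · show -((N : ℤ) * -((γ : SL(2, ℤ)) 1 0 / N)) = (γ : SL(2, ℤ)) 1 0
    rw [mul_neg, neg_neg, h2]
  · rfl

theorem wHom_wHom (hN : N ≠ 0) (γ : Gamma0 N) : wHom hN (wHom hN γ) = γ := wFun_wFun hN γ

theorem wHom_surjective (hN : N ≠ 0) : Function.Surjective (wHom hN) :=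
  fun γ => ⟨wHom hN γ, wHom_wHom hN γ⟩

theorem wGL_mul_gl_wHom (hN : N ≠ 0) (γ : Gamma0 N) :
    wGL N hN * gl N γ = gl N (wHom hN γ) * wGL N hN := wGL_mul_gl hN γ

theorem wGL_inv_mul_gl (hN : N ≠ 0) (γ : Gamma0 N) :
    (wGL N hN)⁻¹ * gl N γ = gl N (wHom hN γ) * (wGL N hN)⁻¹ := by
  have h := wGL_mul_gl_wHom hN (wHom hN γ)
  rw [wHom_wHom] at h
  rw [inv_mul_eq_iff_eq_mul, ← mul_assoc, eq_mul_inv_iff_mul_eq]
  exact h.symm

/-- Coset datum of `w_N` (representative `W_N`). -/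
noncomputable def wDatum (N : ℕ) (hN : N ≠ 0) : CosetDatum (gl N) (gl N) Unit :=
  CosetDatum.single (wGL N hN) (wHom hN) (wGL_mul_gl_wHom hN)

/-- Coset datum of `w_N` (representative `W_N⁻¹`). -/
noncomputable def wInvDatum (N : ℕ) (hN : N ≠ 0) : CosetDatum (gl N) (gl N) Unit :=
  CosetDatum.single (wGL N hN)⁻¹ (wHom hN) (wGL_inv_mul_gl hN)

variable (A : Type*) [AddCommGroup A]

/-- The full Atkin–Lehner involution on `Hom(Γ₀(N), A)`. -/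
noncomputable def wOp (hN : N ≠ 0) : (Additive (Gamma0 N) →+ A) →+ (Additive (Gamma0 N) →+ A) :=
  (wDatum N hN).op

variable {A}

theorem wOp_apply (hN : N ≠ 0) (φ : Additive (Gamma0 N) →+ A) :
    wOp A hN φ = φ.comp (MonoidHom.toAdditive (wHom hN)) :=
  CosetDatum.single_op_apply _ _ _ φ

theorem wOp_apply_apply (hN : N ≠ 0) (φ : Additive (Gamma0 N) →+ A) (γ : Gamma0 N) :
    wOp A hN φ (Additive.ofMul γ) = φ (Additive.ofMul (wHom hN γ)) := by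
  rw [wOp_apply]; rfl

theorem wInvDatum_op (hN : N ≠ 0) (φ : Additive (Gamma0 N) →+ A) :
    (wInvDatum N hN).op φ = wOp A hN φ := by
  rw [wOp_apply]
  exact CosetDatum.single_op_apply _ _ _ φ

theorem wOp_wOp (hN : N ≠ 0) (φ : Additive (Gamma0 N) →+ A) : wOp A hN (wOp A hN φ) = φ := by
  refine AddMonoidHom.ext fun γ => ?_
  obtain ⟨γ, rfl⟩ := Additive.ofMul.surjective γ
  rw [wOp_apply_apply, wOp_apply_apply, wHom_wHom]

theorem wOp_injective (hN : N ≠ 0) : Function.Injective (wOp A hN) := fun φ ψ h => by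
  rw [← wOp_wOp hN φ, h, wOp_wOp]

theorem wOp_mem_parabolicHoms (hN : N ≠ 0) (R : Type*) [Semiring R] [Module R A]
    {φ : Additive (Gamma0 N) →+ A} (hφ : φ ∈ ModularCurve.Period.parabolicHoms R (Gamma0 N) A) :
    wOp A hN φ ∈ ModularCurve.Period.parabolicHoms R (Gamma0 N) A :=
  op_mem_parabolicHoms (wDatum N hN) R hφ

end W

/-! ### Lower unipotent elements -/

section low

variable (N : ℕ)

/-- The lower unipotent element `[[1,0],[N t,1]]` of `Γ₀(N)`. -/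
def lowGamma0 (t : ℤ) : Gamma0 N :=
  ⟨sl2 1 0 ((N : ℤ) * t) 1 (by ring), by
    rw [mem_Gamma0_iff_dvd, sl2_apply_one_zero]; exact ⟨t, rfl⟩⟩

@[simp] theorem lowGamma0_coe (t : ℤ) :
    (((lowGamma0 N t : Gamma0 N) : SL(2, ℤ)) : Matrix (Fin 2) (Fin 2) ℤ)
      = !![1, 0; (N : ℤ) * t, 1] := rfl

theorem gl_lowGamma0_val (t : ℤ) :
    ((gl N (lowGamma0 N t) : GL (Fin 2) ℝ) : Matrix (Fin 2) (Fin 2) ℝ)
      = !![1, 0; (N : ℝ) * t, 1] := by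
  ext a b
  rw [gl_apply]
  fin_cases a <;> fin_cases b <;> simp [lowGamma0_coe]

end low

/-! ### Matrix identities -/

section identities

variable {N ℓ : ℕ}

theorem wGL_mul_heckeDiag (hN : N ≠ 0) (hℓ : ℓ ≠ 0) :
    wGL N hN * heckeDiagMatrix ℓ = heckeMatrix ℓ 0 * wGL N hN := by
  ext a b
  fin_cases a <;> fin_cases b <;>
    simp [Matrix.mul_apply, Fin.sum_univ_two, hℓ, mul_comm]

theorem wGL_mul_heckeMatrix (hN : N ≠ 0) (hℓ : ℓ ≠ 0) (m : ℕ) :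
    wGL N hN * heckeMatrix ℓ m
      = heckeDiagMatrix ℓ * gl N (lowGamma0 N (-(m : ℤ))) * wGL N hN := by
  ext a b
  rw [Matrix.GeneralLinearGroup.coe_mul, Matrix.GeneralLinearGroup.coe_mul,
    Matrix.GeneralLinearGroup.coe_mul, gl_lowGamma0_val]
  fin_cases a <;> fin_cases b <;>
    simp [Matrix.mul_apply, Fin.sum_univ_two, hℓ, mul_comm]

end identities

/-! ### `w_N` commutes with `T_ℓ`, `ℓ ∤ N` -/

section commT

variable {N ℓ : ℕ} {A : Type*} [AddCommGroup A]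

theorem card_prod_unit' (X : Type*) [Fintype X] :
    Fintype.card (Unit × X) = Fintype.card (X × Unit) := by
  rw [Fintype.card_prod, Fintype.card_prod, mul_comm]

/-- **`w_N ∘ T_ℓ = T_ℓ ∘ w_N`** for `ℓ ∤ N`. -/
theorem wOp_heckeTHom (hN : N ≠ 0) (hℓ : ℓ.Prime) (hℓN : ¬ ℓ ∣ N)
    (φ : Additive (Gamma0 N) →+ A) :
    wOp A hN (heckeTHom A hℓ hℓN φ) = heckeTHom A hℓ hℓN (wOp A hN φ) := by
  have : Fact ℓ.Prime := ⟨hℓ⟩
  have h1 : wOp A hN (heckeTHom A hℓ hℓN φ)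
      = ((heckeTDatum N ℓ hℓN).comp (wDatum N hN)).op φ :=
    (CosetDatum.comp_op_apply (heckeTDatum N ℓ hℓN) (wDatum N hN) φ).symm
  have h2 : heckeTHom A hℓ hℓN (wOp A hN φ)
      = ((wDatum N hN).comp (heckeTDatum N ℓ hℓN)).op φ :=
    (CosetDatum.comp_op_apply (wDatum N hN) (heckeTDatum N ℓ hℓN) φ).symm
  rw [h1, h2]
  symm
  refine congrFun (congrArg DFunLike.coe (op_eq_of_forall_exists (A := A)
    ((wDatum N hN).comp (heckeTDatum N ℓ hℓN))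
    ((heckeTDatum N ℓ hℓN).comp (wDatum N hN))
    (isReduced_single_comp _ (heckeTDatum_isReduced N ℓ hℓN) (gl_injective _) _ _
      (wHom_surjective hN) _)
    (isReduced_comp_single _ (heckeTDatum_isReduced N ℓ hℓN) _ _ _)
    (card_prod_unit' _) ?_)) φ
  rintro ⟨u, x⟩
  induction x using OnePoint.rec with
  | infty =>
    refine ⟨(((0 : ZMod ℓ) : OnePoint (ZMod ℓ)), ()), 1, ?_⟩
    show heckeRep ℓ ((0 : ZMod ℓ) : OnePoint (ZMod ℓ)) * wGL N hN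
      = gl N 1 * (wGL N hN * heckeRep ℓ OnePoint.infty)
    rw [map_one, one_mul, heckeRep_coe, ZMod.val_zero, heckeRep_infty,
      wGL_mul_heckeDiag hN hℓ.ne_zero]
  | coe j =>
    obtain ⟨g', hg', hmul⟩ := heckeRep_mul hℓN
      ((lowGamma0 N (-(j.val : ℤ)) : Gamma0 N) : SL(2, ℤ))
      (dvd_of_mem_Gamma0 (lowGamma0 N (-(j.val : ℤ))).2) OnePoint.infty
    refine ⟨(redMatrix ℓ ((lowGamma0 N (-(j.val : ℤ)) : Gamma0 N) : SL(2, ℤ)) •
      (OnePoint.infty : OnePoint (ZMod ℓ)), ()), (⟨g', mem_Gamma0_of_dvd hg'⟩ : Gamma0 N)⁻¹, ?_⟩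
    show heckeRep ℓ _ * wGL N hN
      = gl N (⟨g', mem_Gamma0_of_dvd hg'⟩ : Gamma0 N)⁻¹ * (wGL N hN * heckeRep ℓ (j : OnePoint (ZMod ℓ)))
    rw [heckeRep_coe, wGL_mul_heckeMatrix hN hℓ.ne_zero, gl_apply (g := lowGamma0 N _),
      ← heckeRep_infty, hmul, map_inv, gl_apply]
    simp only [mul_assoc, inv_mul_cancel_left]

end commT

/-! ### The transfer `Γ₀(N ℓ) → Γ₀(N)` for `ℓ ∣ N` -/

section corU

variable {N ℓ : ℕ}

/-- The representatives `[[1,0],[N j,1]]`, `j ∈ ℤ/ℓ`, of `Γ₀(N ℓ) \ Γ₀(N)` (`ℓ ∣ N`). -/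
noncomputable def corUAlpha (N : ℕ) {ℓ : ℕ} (j : ZMod ℓ) : GL (Fin 2) ℝ :=
  gl N (lowGamma0 N (j.val : ℤ))

theorem lowGamma0_mul_entries (g : SL(2, ℤ)) (t : ℤ) :
    (g * ((lowGamma0 N t : Gamma0 N) : SL(2, ℤ))) 1 0 = g 1 0 + g 1 1 * ((N : ℤ) * t) ∧
    (g * ((lowGamma0 N t : Gamma0 N) : SL(2, ℤ))) 1 1 = g 1 1 := by
  constructor <;>
  · rw [Matrix.SpecialLinearGroup.coe_mul, Matrix.mul_apply, Fin.sum_univ_two]
    simp [lowGamma0_coe]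

theorem isReduced_corUAlpha (hN : N ≠ 0) [NeZero ℓ] :
    IsReduced (gl (N * ℓ)) (corUAlpha N (ℓ := ℓ)) where
  inj := gl_injective (N * ℓ)
  distinct := by
    intro j j' g h
    simp only [corUAlpha] at h
    rw [gl_apply, gl_apply, gl_apply, ← map_mul] at h
    have h1 : (g : SL(2, ℤ)) * ((lowGamma0 N (j.val : ℤ) : Gamma0 N) : SL(2, ℤ))
        = ((lowGamma0 N (j'.val : ℤ) : Gamma0 N) : SL(2, ℤ)) := mapGL_injective h
    obtain ⟨e10, e11⟩ := lowGamma0_mul_entries (N := N) (g : SL(2, ℤ)) (j.val : ℤ)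
    rw [h1] at e10 e11
    have e11' : (g : SL(2, ℤ)) 1 1 = 1 := e11.symm
    have e10' : (g : SL(2, ℤ)) 1 0 = (N : ℤ) * ((j'.val : ℤ) - (j.val : ℤ)) := by
      have : (((lowGamma0 N (j'.val : ℤ) : Gamma0 N) : SL(2, ℤ))) 1 0 = (N : ℤ) * (j'.val : ℤ) := rfl
      rw [this, e11'] at e10
      linear_combination -e10
    have hdvd : ((N * ℓ : ℕ) : ℤ) ∣ (g : SL(2, ℤ)) 1 0 := dvd_of_mem_Gamma0 g.2
    rw [e10'] at hdvd
    push_cast at hdvd
    have hN' : (N : ℤ) ≠ 0 := by exact_mod_cast hN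
    have hd2 : (ℓ : ℤ) ∣ (j'.val : ℤ) - (j.val : ℤ) := (mul_dvd_mul_iff_left hN').mp hdvd
    have := (ZMod.intCast_zmod_eq_zero_iff_dvd _ ℓ).mpr hd2
    push_cast at this
    rw [ZMod.natCast_zmod_val, ZMod.natCast_zmod_val, sub_eq_zero] at this
    exact this.symm

theorem stable_corUAlpha (hℓN : ℓ ∣ N) [NeZero ℓ] (γ : Gamma0 N) (j : ZMod ℓ) :
    ∃ (j' : ZMod ℓ) (g : Gamma0 (N * ℓ)),
      corUAlpha N j * gl N γ = gl (N * ℓ) g * corUAlpha N j' := by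
  set x : Gamma0 N := lowGamma0 N (j.val : ℤ) * γ with hx
  set a : ℤ := (x : SL(2, ℤ)) 0 0
  set c' : ℤ := (x : SL(2, ℤ)) 1 0 / N
  set j' : ZMod ℓ := ((c' * a : ℤ) : ZMod ℓ) with hj'
  have hc : (N : ℤ) * c' = (x : SL(2, ℤ)) 1 0 := N_mul_ediv x
  have hdet := det_eq' (x : SL(2, ℤ))
  set y : SL(2, ℤ) := (x : SL(2, ℤ)) * ((lowGamma0 N (-(j'.val : ℤ)) : Gamma0 N) : SL(2, ℤ)) with hy
  obtain ⟨y10, y11⟩ := lowGamma0_mul_entries (N := N) (x : SL(2, ℤ)) (-(j'.val : ℤ))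
  have hymem : y ∈ Gamma0 (N * ℓ) := by
    apply mem_Gamma0_of_dvd
    rw [hy, y10, ← hc]
    push_cast
    have hℓ : (ℓ : ℤ) ∣ c' - (x : SL(2, ℤ)) 1 1 * (j'.val : ℤ) := by
      rw [← ZMod.intCast_zmod_eq_zero_iff_dvd]
      push_cast
      rw [ZMod.natCast_zmod_val, hj']
      push_cast
      have hℓc : ((((x : SL(2, ℤ)) 1 0 : ℤ)) : ZMod ℓ) = 0 := by
        rw [ZMod.intCast_zmod_eq_zero_iff_dvd]
        exact (Int.natCast_dvd_natCast.mpr hℓN).trans (dvd_of_mem_Gamma0 x.2)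
      have hdet' := congrArg (Int.cast : ℤ → ZMod ℓ) hdet
      push_cast at hdet'
      rw [hℓc, mul_zero, sub_zero] at hdet'
      have : ((x : SL(2, ℤ)) 1 1 : ZMod ℓ) * ((c' : ZMod ℓ) * (a : ZMod ℓ))
          = (c' : ZMod ℓ) * (((x : SL(2, ℤ)) 0 0 : ZMod ℓ) * ((x : SL(2, ℤ)) 1 1 : ZMod ℓ)) := by
        ring
      rw [this, hdet', mul_one, sub_self]
    obtain ⟨e, he⟩ := hℓ
    exact ⟨e, by linear_combination (N : ℤ) * he⟩
  refine ⟨j', ⟨y, hymem⟩, ?_⟩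
  simp only [corUAlpha]
  rw [← map_mul, ← hx, gl_apply, gl_apply, gl_apply, ← map_mul]
  congr 1
  show (x : SL(2, ℤ)) = y * ((lowGamma0 N (j'.val : ℤ) : Gamma0 N) : SL(2, ℤ))
  rw [hy, mul_assoc]
  have : ((lowGamma0 N (-(j'.val : ℤ)) : Gamma0 N) : SL(2, ℤ))
      * ((lowGamma0 N (j'.val : ℤ) : Gamma0 N) : SL(2, ℤ)) = 1 := by
    apply Matrix.SpecialLinearGroup.ext
    intro i k
    rw [Matrix.SpecialLinearGroup.coe_mul, Matrix.mul_apply, Fin.sum_univ_two]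
    fin_cases i <;> fin_cases k <;> simp [lowGamma0_coe]
  rw [this, mul_one]

/-- Coset datum of the transfer `Hom(Γ₀(N ℓ), A) → Hom(Γ₀(N), A)` for `ℓ ∣ N`. -/
noncomputable def corUDatum (hN : N ≠ 0) (hℓN : ℓ ∣ N) [NeZero ℓ] :
    CosetDatum (gl (N * ℓ)) (gl N) (ZMod ℓ) :=
  CosetDatum.ofReduced (isReduced_corUAlpha hN) (stable_corUAlpha hℓN)

theorem corUDatum_α (hN : N ≠ 0) (hℓN : ℓ ∣ N) [NeZero ℓ] :
    (corUDatum hN hℓN).α = corUAlpha N (ℓ := ℓ) := rfl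

variable (A : Type*) [AddCommGroup A]

/-- The transfer `Hom(Γ₀(N ℓ), A) → Hom(Γ₀(N), A)` for `ℓ ∣ N`. -/
noncomputable def corU (hN : N ≠ 0) (hℓN : ℓ ∣ N) [NeZero ℓ] :
    (Additive (Gamma0 (N * ℓ)) →+ A) →+ (Additive (Gamma0 N) →+ A) :=
  (corUDatum hN hℓN).op

/-- The coset datum of `corU ∘ cst` (`ℓ ∣ N`): representatives `diag(ℓ,1) [[1,0],[N j,1]]`. -/
noncomputable def picUDatum (hN : N ≠ 0) (hℓN : ℓ ∣ N) [NeZero ℓ] :
    CosetDatum (gl N) (gl N) (Unit × ZMod ℓ) :=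
  (cstDatum N (NeZero.ne ℓ)).comp (corUDatum hN hℓN)

/-- The coset datum of `cor ∘ cst` (`ℓ ∤ N`): representatives `diag(ℓ,1) r_i`. -/
noncomputable def picTDatum (D : ALData N ℓ) (hℓ : ℓ.Prime) (hℓN : ¬ ℓ ∣ N) (hN : N ≠ 0) :
    CosetDatum (gl N) (gl N) (Unit × OnePoint (ZMod ℓ)) :=
  (cstDatum N hℓ.ne_zero).comp (corDatum D hℓ hℓN hN)

variable {A}

theorem picUDatum_op (hN : N ≠ 0) (hℓN : ℓ ∣ N) [NeZero ℓ] (φ : Additive (Gamma0 N) →+ A) :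
    (picUDatum hN hℓN).op φ = corU A hN hℓN (cst A N (NeZero.ne ℓ) φ) :=
  CosetDatum.comp_op_apply _ _ φ

theorem picTDatum_op (D : ALData N ℓ) (hℓ : ℓ.Prime) (hℓN : ¬ ℓ ∣ N) (hN : N ≠ 0) [NeZero ℓ]
    (φ : Additive (Gamma0 N) →+ A) :
    (picTDatum D hℓ hℓN hN).op φ = heckeTHom A hℓ hℓN φ := by
  rw [← cor_cst D hℓ hℓN hN φ]
  exact CosetDatum.comp_op_apply _ _ φ

/-- The matrix identity behind `corU ∘ cst = w U_ℓ w`. -/
theorem wGL_heckeMatrix_wGL_inv (hN : N ≠ 0) [NeZero ℓ] (j : ZMod ℓ) :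
    wGL N hN * heckeMatrix ℓ (-j).val * (wGL N hN)⁻¹
      = gl N (lowGamma0 N (-negShift j)) * (heckeDiagMatrix ℓ * corUAlpha N j) := by
  have hℓ : ℓ ≠ 0 := NeZero.ne ℓ
  rw [mul_inv_eq_iff_eq_mul, wGL_mul_heckeMatrix hN hℓ]
  congr 1
  have hs := congrArg (Int.cast : ℤ → ℝ) (negShift_spec j)
  push_cast at hs
  simp only [corUAlpha]
  ext a b
  simp only [Matrix.GeneralLinearGroup.coe_mul, gl_lowGamma0_val]
  fin_cases a <;> fin_cases b <;>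
    simp [Matrix.mul_apply, Fin.sum_univ_two, hℓ, -ZMod.natCast_val]
  linear_combination (N : ℝ) * hs

/-- **`corU ∘ cst = w_N ∘ U_ℓ ∘ w_N`** for `ℓ ∣ N`. -/
theorem corU_cst (hN : N ≠ 0) (hℓN : ℓ ∣ N) [NeZero ℓ] (φ : Additive (Gamma0 N) →+ A) :
    corU A hN hℓN (cst A N (NeZero.ne ℓ) φ) = wOp A hN (heckeUHom A hℓN (wOp A hN φ)) := by
  rw [← picUDatum_op]
  have h2 := CosetDatum.op_eq_of_equiv (A := A) (picUDatum hN hℓN)
    (((wDatum N hN).comp (heckeUDatum N ℓ hℓN)).comp (wInvDatum N hN))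
    (isReduced_comp_single _
      (isReduced_single_comp _ (heckeUDatum_isReduced N ℓ hℓN) (gl_injective _) _ _
        (wHom_surjective hN) _) _ _ _)
    { toFun := fun i => ((i.1, -i.2), ())
      invFun := fun i => (i.1.1, -i.1.2)
      left_inv := fun i => by simp
      right_inv := fun i => by simp }
    (fun i => lowGamma0 N (-negShift i.2)) (fun i => by
      obtain ⟨u, j⟩ := i
      show (wGL N hN * heckeMatrix ℓ (-j).val) * (wGL N hN)⁻¹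
        = gl N (lowGamma0 N (-negShift j)) * (heckeDiagMatrix ℓ * corUAlpha N j)
      exact wGL_heckeMatrix_wGL_inv hN j)
  rw [h2, CosetDatum.comp_op_apply, CosetDatum.comp_op_apply, wInvDatum_op]
  rfl

/-- `picU ∘ w_N = w_N ∘ U_ℓ` (`ℓ ∣ N`). -/
theorem picUDatum_op_wOp (hN : N ≠ 0) (hℓN : ℓ ∣ N) [NeZero ℓ] (φ : Additive (Gamma0 N) →+ A) :
    (picUDatum hN hℓN).op (wOp A hN φ) = wOp A hN (heckeUHom A hℓN φ) := by
  rw [picUDatum_op, corU_cst, wOp_wOp]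

/-- `picT ∘ w_N = w_N ∘ T_ℓ` (`ℓ ∤ N`). -/
theorem picTDatum_op_wOp (D : ALData N ℓ) (hℓ : ℓ.Prime) (hℓN : ¬ ℓ ∣ N) (hN : N ≠ 0) [NeZero ℓ]
    (φ : Additive (Gamma0 N) →+ A) :
    (picTDatum D hℓ hℓN hN).op (wOp A hN φ) = wOp A hN (heckeTHom A hℓ hℓN φ) := by
  rw [picTDatum_op, wOp_heckeTHom]

end corU

/-! ### Multiplicative versions (characters with values in a commutative group) -/

section mul

open CosetDatumMul

variable {N ℓ : ℕ} {C : Type*} [CommGroup C]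

/-- The Atkin–Lehner twist of a character. -/
noncomputable def wChar (hN : N ≠ 0) (χ : Gamma0 N →* C) : Gamma0 N →* C := χ.comp (wHom hN)

@[simp] theorem wChar_apply (hN : N ≠ 0) (χ : Gamma0 N →* C) (γ : Gamma0 N) :
    wChar hN χ γ = χ (wHom hN γ) := rfl

theorem wChar_wChar (hN : N ≠ 0) (χ : Gamma0 N →* C) : wChar hN (wChar hN χ) = χ := by
  ext γ; simp [wFun_wFun hN]

theorem wChar_pow (hN : N ≠ 0) (χ : Gamma0 N →* C) (n : ℕ) :
    wChar hN (χ ^ n) = wChar hN χ ^ n := by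
  ext γ; simp

theorem wChar_one (hN : N ≠ 0) : wChar hN (1 : Gamma0 N →* C) = 1 := by
  ext γ; simp

theorem wOp_toAdditive (hN : N ≠ 0) (χ : Gamma0 N →* C) :
    wOp (Additive C) hN (MonoidHom.toAdditive χ) = MonoidHom.toAdditive (wChar hN χ) := by
  rw [wOp_apply]; rfl

theorem toAdditive_injective' {Γ : Type*} [Group Γ] :
    Function.Injective (MonoidHom.toAdditive : (Γ →* C) → (Additive Γ →+ Additive C)) :=
  MonoidHom.toAdditive.injective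

/-- `picU (w χ) = w (U_ℓ χ)` for characters (`ℓ ∣ N`). -/
theorem opMul_picUDatum_wChar (hN : N ≠ 0) (hℓN : ℓ ∣ N) [NeZero ℓ] (χ : Gamma0 N →* C) :
    opMul (picUDatum hN hℓN) (wChar hN χ) = wChar hN (opMul (heckeUDatum N ℓ hℓN) χ) := by
  apply toAdditive_injective'
  rw [← op_toAdditive, ← wOp_toAdditive, picUDatum_op_wOp, ← wOp_toAdditive]
  exact congrArg _ (op_toAdditive (heckeUDatum N ℓ hℓN) χ)

/-- `picT (w χ) = w (T_ℓ χ)` for characters (`ℓ ∤ N`). -/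
theorem opMul_picTDatum_wChar (D : ALData N ℓ) (hℓ : ℓ.Prime) (hℓN : ¬ ℓ ∣ N) (hN : N ≠ 0)
    [Fact ℓ.Prime] [NeZero ℓ] (χ : Gamma0 N →* C) :
    opMul (picTDatum D hℓ hℓN hN) (wChar hN χ) = wChar hN (opMul (heckeTDatum N ℓ hℓN) χ) := by
  apply toAdditive_injective'
  rw [← op_toAdditive, ← wOp_toAdditive, picTDatum_op_wOp, ← wOp_toAdditive]
  exact congrArg _ (op_toAdditive (heckeTDatum N ℓ hℓN) χ)

end mul

end Fermat.Agent.S29.H65
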