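/-
S29 / P10 (HECKE-EQUIV): `SL(2,ℤ)`, `Γ₀(N)` and the Hecke representatives inside `GL(2,ℝ)⁺`;
the bridge between helper25's `merComp γ` (`γ : SL(2,ℤ)`) and `actGL` of `H65_MerGL`; the
coset data `picTDatum`, `picUDatum` of `H65_PicHecke` as coset data for `GL(2,ℝ)⁺`.
-/
import Mathlib
import Fermat.Agent.S29.H65_MerGL
import Fermat.Agent.S29.H65_PicHecke
import Fermat.Agent.S29.H25_MerAction

set_option autoImplicit false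

open UpperHalfPlane CongruenceSubgroup Matrix.SpecialLinearGroup ModularForm
open scoped Manifold MatrixGroups
open P2MW.S_ModularForm_heckeT_slash_eq_self_of_mem_Gamma0.ModularForm.HeckeSlashInvariance

namespace Fermat.Agent.S29.H65

open Fermat.Agent.S24.H81 Fermat.Agent.S41.H85 Fermat.Agent.S41.H72 Fermat.Agent.S41.H65

noncomputable section

/-! ### `SL(2,ℤ)` and `Γ₀(N)` in `GL(2,ℝ)⁺` -/

theorem mapGL_mem_glPos (γ : SL(2, ℤ)) : mapGL ℝ γ ∈ GL(2, ℝ)⁺ := by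
  rw [Matrix.mem_glpos, det_mapGL]
  exact one_pos

/-- `SL(2,ℤ) → GL(2,ℝ)⁺`. -/
def slp : SL(2, ℤ) →* GL(2, ℝ)⁺ := (mapGL ℝ).codRestrict _ mapGL_mem_glPos

@[simp] theorem coe_slp (γ : SL(2, ℤ)) : ((slp γ : GL(2, ℝ)⁺) : GL (Fin 2) ℝ) = mapGL ℝ γ := rfl

theorem gl_mem_glPos (N : ℕ) (γ : Gamma0 N) : gl N γ ∈ GL(2, ℝ)⁺ := mapGL_mem_glPos _

/-- `Γ₀(N) → GL(2,ℝ)⁺`. -/
def glp (N : ℕ) : Gamma0 N →* GL(2, ℝ)⁺ := (gl N).codRestrict _ (gl_mem_glPos N)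

@[simp] theorem coe_glp (N : ℕ) (γ : Gamma0 N) :
    ((glp N γ : GL(2, ℝ)⁺) : GL (Fin 2) ℝ) = gl N γ := rfl

theorem glp_eq_slp (N : ℕ) (γ : Gamma0 N) : glp N γ = slp (γ : SL(2, ℤ)) := rfl

theorem slp_smul (γ : SL(2, ℤ)) (τ : ℍ) : ((slp γ : GL(2, ℝ)⁺) : GL (Fin 2) ℝ) • τ = γ • τ := rfl

/-! ### Bridge to helper25's `merComp` -/

theorem compHol_slp (γ : SL(2, ℤ)) (a : Hol) : compHol (slp γ) a = H25.holComp γ a := rfl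

theorem actGL_slp (γ : SL(2, ℤ)) (x : Mer) : actGL (slp γ) x = H25.merComp γ x := by
  have h : actGL (slp γ) = H25.merComp γ :=
    IsFractionRing.ringHom_ext (A := Hol) fun a => by
      rw [actGL_algebraMap, H25.merComp_algebraMap, compHol_slp]
  rw [h]

theorem actGL_glp (N : ℕ) (γ : Gamma0 N) (x : Mer) :
    actGL (glp N γ) x = H25.merComp (γ : SL(2, ℤ)) x := actGL_slp _ x

/-- `thetaC N f` is invariant under `Γ₀(N)`, in the `actGL` vocabulary. -/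
theorem actGL_glp_thetaC (N : ℕ) [NeZero N] (γ : Gamma0 N) (f : H25.FC N) :
    actGL (glp N γ) (H25.thetaC N f) = H25.thetaC N f := by
  rw [actGL_glp]
  exact H25.merComp_thetaC N γ.2 f

/-! ### The Hecke representatives in `GL(2,ℝ)⁺` -/

theorem heckeDiagMatrix_mem_glPos {ℓ : ℕ} (hℓ : ℓ ≠ 0) : heckeDiagMatrix ℓ ∈ GL(2, ℝ)⁺ := by
  rw [Matrix.mem_glpos, Matrix.GeneralLinearGroup.val_det_apply, val_heckeDiagMatrix hℓ,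
    Matrix.det_fin_two_of]
  have : (0 : ℝ) < ℓ := by exact_mod_cast Nat.pos_of_ne_zero hℓ
  simpa using this

theorem heckeMatrix_mem_glPos {ℓ : ℕ} (hℓ : ℓ ≠ 0) (j : ℕ) : heckeMatrix ℓ j ∈ GL(2, ℝ)⁺ := by
  rw [Matrix.mem_glpos, Matrix.GeneralLinearGroup.val_det_apply, val_heckeMatrix hℓ,
    Matrix.det_fin_two_of]
  have : (0 : ℝ) < ℓ := by exact_mod_cast Nat.pos_of_ne_zero hℓ
  simpa using this

theorem wGL_mem_glPos {N : ℕ} (hN : N ≠ 0) : wGL N hN ∈ GL(2, ℝ)⁺ := by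
  rw [Matrix.mem_glpos, Matrix.GeneralLinearGroup.val_det_apply, val_wGL, Matrix.det_fin_two_of]
  have : (0 : ℝ) < N := by exact_mod_cast Nat.pos_of_ne_zero hN
  simpa using this

/-- `diag(ℓ,1)` in `GL(2,ℝ)⁺`. -/
def diagPos (ℓ : ℕ) (hℓ : ℓ ≠ 0) : GL(2, ℝ)⁺ := ⟨heckeDiagMatrix ℓ, heckeDiagMatrix_mem_glPos hℓ⟩

@[simp] theorem coe_diagPos (ℓ : ℕ) (hℓ : ℓ ≠ 0) :
    ((diagPos ℓ hℓ : GL(2, ℝ)⁺) : GL (Fin 2) ℝ) = heckeDiagMatrix ℓ := rfl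

/-- The action of `diag(ℓ,1)` on `ℍ` is `τ ↦ ℓ τ`. -/
theorem coe_diagPos_smul (ℓ : ℕ) (hℓ : ℓ ≠ 0) (τ : ℍ) :
    ((((diagPos ℓ hℓ : GL(2, ℝ)⁺) : GL (Fin 2) ℝ) • τ : ℍ) : ℂ) = (ℓ : ℂ) * (τ : ℂ) := by
  rw [UpperHalfPlane.coe_smul_of_det_pos (glPos_det_pos (diagPos ℓ hℓ))]
  simp [UpperHalfPlane.num, UpperHalfPlane.denom, val_heckeDiagMatrix hℓ]

/-! ### The `Pic`-side coset data as coset data for `GL(2,ℝ)⁺` -/

section datum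

variable {N ℓ : ℕ}

/-- A coset datum for `gl N`, `gl M` with representatives in `GL(2,ℝ)⁺` as a datum for `glp`. -/
def posDatum {N M : ℕ} {I : Type*} (D : CosetDatum (gl N) (gl M) I)
    (hα : ∀ i, D.α i ∈ GL(2, ℝ)⁺) : CosetDatum (glp N) (glp M) I :=
  restrictDatum D _ (gl_mem_glPos N) (gl_mem_glPos M) hα

@[simp] theorem coe_posDatum_α {N M : ℕ} {I : Type*} (D : CosetDatum (gl N) (gl M) I)
    (hα : ∀ i, D.α i ∈ GL(2, ℝ)⁺) (i : I) :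
    (((posDatum D hα).α i : GL(2, ℝ)⁺) : GL (Fin 2) ℝ) = D.α i := rfl

theorem posDatum_op {N M : ℕ} {I : Type*} [Fintype I] {A : Type*} [AddCommGroup A]
    (D : CosetDatum (gl N) (gl M) I) (hα : ∀ i, D.α i ∈ GL(2, ℝ)⁺) :
    ((posDatum D hα).op : (Additive (Gamma0 N) →+ A) →+ _) = D.op := rfl

open CosetDatumMul in
theorem opMul_posDatum {N M : ℕ} {I : Type*} [Fintype I] {C : Type*} [CommMonoid C]
    (D : CosetDatum (gl N) (gl M) I) (hα : ∀ i, D.α i ∈ GL(2, ℝ)⁺) (χ : Gamma0 N →* C) :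
    opMul (posDatum D hα) χ = opMul D χ := rfl

theorem picTDatum_α_mem (D : ALData N ℓ) (hℓ : ℓ.Prime) (hℓN : ¬ ℓ ∣ N) (hN : N ≠ 0)
    (i : Unit × OnePoint (ZMod ℓ)) : (picTDatum D hℓ hℓN hN).α i ∈ GL(2, ℝ)⁺ := by
  show heckeDiagMatrix ℓ * (corDatum D hℓ hℓN hN).α i.2 ∈ GL(2, ℝ)⁺
  rw [corDatum_α]
  exact mul_mem (heckeDiagMatrix_mem_glPos hℓ.ne_zero) (gl_mem_glPos N _)

theorem picUDatum_α_mem (hN : N ≠ 0) (hℓN : ℓ ∣ N) [NeZero ℓ] (i : Unit × ZMod ℓ) :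
    (picUDatum hN hℓN).α i ∈ GL(2, ℝ)⁺ := by
  show heckeDiagMatrix ℓ * (corUDatum hN hℓN).α i.2 ∈ GL(2, ℝ)⁺
  rw [corUDatum_α]
  exact mul_mem (heckeDiagMatrix_mem_glPos (NeZero.ne ℓ)) (gl_mem_glPos N _)

/-- `picTDatum` as a coset datum for `GL(2,ℝ)⁺`. -/
def picTPos (D : ALData N ℓ) (hℓ : ℓ.Prime) (hℓN : ¬ ℓ ∣ N) (hN : N ≠ 0) :
    CosetDatum (glp N) (glp N) (Unit × OnePoint (ZMod ℓ)) :=
  posDatum (picTDatum D hℓ hℓN hN) (picTDatum_α_mem D hℓ hℓN hN)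

/-- `picUDatum` as a coset datum for `GL(2,ℝ)⁺`. -/
def picUPos (hN : N ≠ 0) (hℓN : ℓ ∣ N) [NeZero ℓ] :
    CosetDatum (glp N) (glp N) (Unit × ZMod ℓ) :=
  posDatum (picUDatum hN hℓN) (picUDatum_α_mem hN hℓN)

end datum

end

end Fermat.Agent.S29.H65
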