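import Fermat.Agent.S29.H25_MerAction
import Fermat.Prelude.Def_ModularCurve_HeckeOperator

/-!
# NORM-AN, part (L2) (helper47): `β` is precomposition with `τ ↦ ℓ τ`

`scaleHol ℓ`, `scaleMer ℓ`: precomposition with `τ ↦ ℓ τ` on `Hol` and `Mer = Frac Hol`
(S24/H81 vocabulary), and the level compatibility

`thetaC (N * ℓ) (heckeBetaBar ℂ N ℓ F) = scaleMer ℓ (thetaC N F)`  for all `F : FC N`

(all `ℓ ≥ 1`; no primality, no `ℓ ∤ N`), in helper25's `thetaC` vocabulary.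
-/

set_option autoImplicit false
noncomputable section
namespace Fermat.Agent.S29.H47
open UpperHalfPlane ModularCurve
open Fermat.Agent.S24 Fermat.Agent.S29.H25
open Fermat.Agent.S24.H81 (Hol Mer ordNat merOrd)
open Fermat.Agent.S24.H17 (IsQSum mulD)
open scoped MatrixGroups Manifold

/-! ### Precomposition with `τ ↦ ℓ τ` -/

/-- division by `ℓ` on `ℍ` (the inverse of `mulD ℓ`). -/
abbrev divD (ℓ : ℕ) [NeZero ℓ] : ℍ → ℍ :=
  H15.aff 1 0 ℓ one_pos (Nat.pos_of_ne_zero (NeZero.ne ℓ))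

theorem mulD_divD (ℓ : ℕ) [NeZero ℓ] (τ : ℍ) : mulD ℓ (divD ℓ τ) = τ := by
  apply UpperHalfPlane.ext
  have hℓ : (ℓ : ℂ) ≠ 0 := by exact_mod_cast NeZero.ne ℓ
  simp only [H15.coe_aff]
  push_cast
  field_simp
  ring

theorem divD_mulD (ℓ : ℕ) [NeZero ℓ] (τ : ℍ) : divD ℓ (mulD ℓ τ) = τ := by
  apply UpperHalfPlane.ext
  have hℓ : (ℓ : ℂ) ≠ 0 := by exact_mod_cast NeZero.ne ℓ
  simp only [H15.coe_aff]
  push_cast
  field_simp
  ring

theorem mulD_mulD (d ℓ : ℕ) [NeZero d] [NeZero ℓ] [NeZero (d * ℓ)] (τ : ℍ) :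
    mulD d (mulD ℓ τ) = mulD (d * ℓ) τ := by
  apply UpperHalfPlane.ext
  simp only [H15.coe_aff]
  push_cast
  ring

/-- precomposition with `τ ↦ ℓ τ` on holomorphic functions. -/
def scaleHol (ℓ : ℕ) [NeZero ℓ] : Hol →+* Hol where
  toFun g := ⟨fun τ => (g : ℍ → ℂ) (mulD ℓ τ), H17.mdiff_comp_mulD (H81.mem_Hol.mp g.2) ℓ⟩
  map_one' := rfl
  map_mul' _ _ := rfl
  map_zero' := rfl
  map_add' _ _ := rfl

@[simp]
theorem scaleHol_apply (ℓ : ℕ) [NeZero ℓ] (g : Hol) (τ : ℍ) :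
    ((scaleHol ℓ g : Hol) : ℍ → ℂ) τ = (g : ℍ → ℂ) (mulD ℓ τ) := rfl

theorem scaleHol_injective (ℓ : ℕ) [NeZero ℓ] : Function.Injective (scaleHol ℓ) := by
  intro g h hgh
  apply Subtype.ext
  funext τ
  have := congrArg (fun k : Hol => (k : ℍ → ℂ) (divD ℓ τ)) hgh
  simpa [mulD_divD] using this

theorem algebraMap_comp_scaleHol_injective (ℓ : ℕ) [NeZero ℓ] :
    Function.Injective ((algebraMap Hol Mer).comp (scaleHol ℓ)) :=
  (IsFractionRing.injective Hol Mer).comp (scaleHol_injective ℓ)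

/-- precomposition with `τ ↦ ℓ τ` on meromorphic functions. -/
def scaleMer (ℓ : ℕ) [NeZero ℓ] : Mer →+* Mer :=
  IsFractionRing.lift (algebraMap_comp_scaleHol_injective ℓ)

@[simp]
theorem scaleMer_algebraMap (ℓ : ℕ) [NeZero ℓ] (g : Hol) :
    scaleMer ℓ (algebraMap Hol Mer g) = algebraMap Hol Mer (scaleHol ℓ g) :=
  IsFractionRing.lift_algebraMap (algebraMap_comp_scaleHol_injective ℓ) g

theorem scaleMer_injective (ℓ : ℕ) [NeZero ℓ] : Function.Injective (scaleMer ℓ) :=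
  (scaleMer ℓ).injective

theorem scaleMer_div (ℓ : ℕ) [NeZero ℓ] (g h : Hol) :
    scaleMer ℓ (algebraMap Hol Mer g / algebraMap Hol Mer h)
      = algebraMap Hol Mer (scaleHol ℓ g) / algebraMap Hol Mer (scaleHol ℓ h) := by
  rw [map_div₀, scaleMer_algebraMap, scaleMer_algebraMap]

theorem scaleHol_one (g : Hol) : scaleHol 1 g = g := by
  apply Subtype.ext
  funext τ
  simp [H17.mulD_one]

theorem scaleHol_scaleHol (d ℓ : ℕ) [NeZero d] [NeZero ℓ] [NeZero (d * ℓ)] (g : Hol) :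
    scaleHol ℓ (scaleHol d g) = scaleHol (d * ℓ) g := by
  apply Subtype.ext
  funext τ
  simp [mulD_mulD]

/-! ### The level compatibility for `β` -/

variable (N ℓ : ℕ) [NeZero N] [NeZero ℓ]

theorem coe_heckeBetaBar_jdC (d : ℕ) [NeZero d] (hd : d ∣ N) [NeZero (ℓ * d)] :
    heckeBetaBar ℂ N ℓ (jdC N d hd)
      = jdC (N * ℓ) (ℓ * d) ((mul_dvd_mul_left ℓ hd).trans (dvd_of_eq (mul_comm ℓ N))) := by
  apply Subtype.ext
  rw [coe_heckeBetaBar, coe_jdC, coe_jdC, qExpand_qExpand]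

/-- `β` maps `AC N` into `AC (N * ℓ)`. -/
theorem heckeBetaBar_mem_AC {a : FC N} (ha : a ∈ AC N) : heckeBetaBar ℂ N ℓ a ∈ AC (N * ℓ) := by
  have h : (AC N).map (heckeBetaBar ℂ N ℓ) ≤ AC (N * ℓ) := by
    rw [AC, AlgHom.map_adjoin, Algebra.adjoin_le_iff]
    rintro _ ⟨_, ⟨d, hne, hd, rfl⟩, rfl⟩
    haveI := hne
    haveI : NeZero (ℓ * d) := ⟨Nat.mul_ne_zero (NeZero.ne ℓ) (NeZero.ne d)⟩
    rw [coe_heckeBetaBar_jdC N ℓ d hd]
    exact jdC_mem_AC (N * ℓ) (ℓ * d) _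
  exact h ⟨a, ha, rfl⟩

/-- On `AC N`: the function attached to `β a` is `τ ↦ (ThetaC a) (ℓ τ)`. -/
theorem ThetaC_heckeBetaBar {a : FC N} (ha : a ∈ AC N) :
    ThetaC (N * ℓ) (heckeBetaBar ℂ N ℓ a) = fun τ => ThetaC N a (mulD ℓ τ) := by
  have h1 : IsQSum ((heckeBetaBar ℂ N ℓ a : FC (N * ℓ)) : LaurentSeries ℂ)
      (ThetaC (N * ℓ) (heckeBetaBar ℂ N ℓ a)) :=
    isQSum_ThetaC (N * ℓ) (heckeBetaBar_mem_AC N ℓ ha)
  have h2 : IsQSum (qExpand ℂ ℓ (a : LaurentSeries ℂ)) (fun τ => ThetaC N a (mulD ℓ τ)) :=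
    (isQSum_ThetaC N ha).scale ℓ
  rw [coe_heckeBetaBar] at h1
  exact h1.unique h2

/-- **(L2)** `thetaC (N ℓ) (β F) = (thetaC N F) ∘ (τ ↦ ℓ τ)` for all `F : FC N`. -/
theorem thetaC_heckeBetaBar (F : FC N) :
    thetaC (N * ℓ) (heckeBetaBar ℂ N ℓ F) = scaleMer ℓ (thetaC N F) := by
  have h : (thetaC (N * ℓ)).comp (heckeBetaBar ℂ N ℓ).toRingHom
      = (scaleMer ℓ).comp (thetaC N) := by
    apply IsLocalization.ringHom_ext (nonZeroDivisors (AC N))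
    ext a
    simp only [RingHom.comp_apply]
    have e : algebraMap (AC N) (FC N) a = (a : FC N) := rfl
    rw [e, thetaC_coe, scaleMer_algebraMap]
    show thetaC (N * ℓ) (heckeBetaBar ℂ N ℓ (a : FC N)) = _
    rw [thetaC_of_mem (N * ℓ) (heckeBetaBar_mem_AC N ℓ a.2)]
    congr 1
    apply Subtype.ext
    show ThetaC (N * ℓ) (heckeBetaBar ℂ N ℓ (a : FC N)) = _
    rw [ThetaC_heckeBetaBar N ℓ a.2]
    rfl
  exact congrArg (fun φ : FC N →+* Mer => φ F) h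

end Fermat.Agent.S29.H47
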