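/-
S29 / P10 (HECKE-EQUIV): independence of the operator of a coset datum from the choice of the
system of representatives, and the coset datum of the transfer `Hom(K, A) → Hom(H, A)` built from
ANY system of representatives of `K \ H` (in particular from `Quotient.out`).

* `op_eq_of_cover` : two reduced coset data whose families of cosets cover each other define the
  same operator (no cardinality hypothesis).
* `IsRepSystem ι₁ ι₂ r` : `r : Q → Γ₂` is a system of representatives of `ι₁(Γ₁) \ ι₂(Γ₂)`;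
  `repDatum`, `repDatum_op_eq`, `isRepSystem_of_datum`, `op_eq_repDatum_op`.
* `outRep`, `isRepSystem_outRep` : the representatives `(Quotient.out q)⁻¹`,
  `q ∈ H ⧸ K.subgroupOf H`, for subgroups `K ≤ H` of a group `S`.
-/
import Mathlib
import Fermat.Agent.S41.H65_DegDefs

set_option autoImplicit false

namespace Fermat.Agent.S29.H65

open Fermat.Agent.S41.H85 Fermat.Agent.S41.H65

section cover

variable {G Γ₁ Γ₂ : Type*} [Group G] [Group Γ₁] [Group Γ₂] {ι₁ : Γ₁ →* G} {ι₂ : Γ₂ →* G}
  {I I' : Type*} [Fintype I] [Fintype I']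

theorem card_le_of_cover {α : I → G} {α' : I' → G} (hr : IsReduced ι₁ α)
    (h : ∀ i, ∃ (i' : I') (c : Γ₁), α' i' = ι₁ c * α i) : Fintype.card I ≤ Fintype.card I' := by
  choose e c hec using h
  refine Fintype.card_le_of_injective e fun i j hij => ?_
  have h1 := hec i
  have h2 := hec j
  rw [hij] at h1
  exact (hr.unique (h1.symm.trans h2)).1

/-- Two reduced coset data whose cosets cover each other define the same operator. -/
theorem op_eq_of_cover {A : Type*} [AddCommGroup A]
    (D : CosetDatum ι₁ ι₂ I) (D' : CosetDatum ι₁ ι₂ I')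
    (hr : IsReduced ι₁ D.α) (hr' : IsReduced ι₁ D'.α)
    (h : ∀ i, ∃ (i' : I') (c : Γ₁), D'.α i' = ι₁ c * D.α i)
    (h' : ∀ i', ∃ (i : I) (c : Γ₁), D.α i = ι₁ c * D'.α i') :
    (D.op : (Additive Γ₁ →+ A) →+ _) = D'.op :=
  op_eq_of_forall_exists D D' hr hr'
    (le_antisymm (card_le_of_cover hr h) (card_le_of_cover hr' h')) h

end cover

section rep

variable {G Γ₁ Γ₂ : Type*} [Group G] [Group Γ₁] [Group Γ₂]

/-- `r : Q → Γ₂` is a system of representatives of `ι₁(Γ₁) \ ι₂(Γ₂)`. -/
structure IsRepSystem (ι₁ : Γ₁ →* G) (ι₂ : Γ₂ →* G) {Q : Type*} (r : Q → Γ₂) : Prop where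
  inj : Function.Injective ι₁
  cover : ∀ γ : Γ₂, ∃ (q : Q) (g : Γ₁), ι₂ γ = ι₁ g * ι₂ (r q)
  distinct : ∀ (q q' : Q) (g : Γ₁), ι₁ g * ι₂ (r q) = ι₂ (r q') → q = q'

variable {ι₁ : Γ₁ →* G} {ι₂ : Γ₂ →* G} {Q Q' : Type*} {r : Q → Γ₂} {r' : Q' → Γ₂}

theorem IsRepSystem.isReduced (h : IsRepSystem ι₁ ι₂ r) : IsReduced ι₁ (fun q => ι₂ (r q)) :=
  ⟨h.inj, h.distinct⟩

theorem IsRepSystem.stable (h : IsRepSystem ι₁ ι₂ r) (γ : Γ₂) (q : Q) :
    ∃ (q' : Q) (g : Γ₁), ι₂ (r q) * ι₂ γ = ι₁ g * ι₂ (r q') := by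
  obtain ⟨q', g, hg⟩ := h.cover (r q * γ)
  exact ⟨q', g, by rw [← map_mul, hg]⟩

/-- The coset datum of a system of representatives (the transfer). -/
noncomputable def repDatum (h : IsRepSystem ι₁ ι₂ r) : CosetDatum ι₁ ι₂ Q :=
  CosetDatum.ofReduced h.isReduced h.stable

@[simp] theorem repDatum_α (h : IsRepSystem ι₁ ι₂ r) (q : Q) : (repDatum h).α q = ι₂ (r q) := rfl

theorem repDatum_isReduced (h : IsRepSystem ι₁ ι₂ r) : IsReduced ι₁ (repDatum h).α :=
  h.isReduced

/-- A reduced coset datum with representatives in `ι₂(Γ₂)`, one of which is `1`, comes from a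
system of representatives. -/
theorem isRepSystem_of_datum {I : Type*} (D : CosetDatum ι₁ ι₂ I) (hr : IsReduced ι₁ D.α)
    (a : I → Γ₂) (ha : ∀ i, D.α i = ι₂ (a i)) (i₀ : I) (h₀ : a i₀ = 1) :
    IsRepSystem ι₁ ι₂ a where
  inj := hr.inj
  cover γ := by
    refine ⟨D.perm γ i₀, D.coc γ i₀, ?_⟩
    have h := D.eq γ i₀
    rw [ha i₀, h₀, map_one, one_mul, ha] at h
    exact h
  distinct q q' g hg := by
    rw [← ha, ← ha] at hg
    exact hr.distinct q q' g hg

variable [Fintype Q] [Fintype Q']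

/-- The transfer does not depend on the system of representatives. -/
theorem repDatum_op_eq {A : Type*} [AddCommGroup A] (h : IsRepSystem ι₁ ι₂ r)
    (h' : IsRepSystem ι₁ ι₂ r') :
    ((repDatum h).op : (Additive Γ₁ →+ A) →+ _) = (repDatum h').op := by
  refine op_eq_of_cover _ _ (repDatum_isReduced h) (repDatum_isReduced h') (fun q => ?_)
    (fun q' => ?_)
  · obtain ⟨q', g, hg⟩ := h'.cover (r q)
    refine ⟨q', g⁻¹, ?_⟩
    rw [repDatum_α, repDatum_α, hg, ← mul_assoc, ← map_mul, inv_mul_cancel, map_one, one_mul]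
  · obtain ⟨q, g, hg⟩ := h.cover (r' q')
    refine ⟨q, g⁻¹, ?_⟩
    rw [repDatum_α, repDatum_α, hg, ← mul_assoc, ← map_mul, inv_mul_cancel, map_one, one_mul]

/-- A reduced coset datum with representatives in `ι₂(Γ₂)` (one of them `1`) defines the same
operator as the datum of any system of representatives. -/
theorem op_eq_repDatum_op {A : Type*} [AddCommGroup A] {I : Type*} [Fintype I]
    (D : CosetDatum ι₁ ι₂ I) (hr : IsReduced ι₁ D.α)
    (a : I → Γ₂) (ha : ∀ i, D.α i = ι₂ (a i)) (i₀ : I) (h₀ : a i₀ = 1)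
    (h' : IsRepSystem ι₁ ι₂ r') :
    (D.op : (Additive Γ₁ →+ A) →+ _) = (repDatum h').op := by
  have hD := isRepSystem_of_datum D hr a ha i₀ h₀
  refine op_eq_of_cover _ _ hr (repDatum_isReduced h') (fun i => ?_) (fun q' => ?_)
  · obtain ⟨q', g, hg⟩ := h'.cover (a i)
    refine ⟨q', g⁻¹, ?_⟩
    rw [repDatum_α, ha, hg, ← mul_assoc, ← map_mul, inv_mul_cancel, map_one, one_mul]
  · obtain ⟨i, g, hg⟩ := hD.cover (r' q')
    refine ⟨i, g⁻¹, ?_⟩
    rw [repDatum_α, ha, hg, ← mul_assoc, ← map_mul, inv_mul_cancel, map_one, one_mul]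

end rep

/-! ### Representatives from `Quotient.out` -/

section out

variable {G S : Type*} [Group G] [Group S] (ι : S →* G) (K H : Subgroup S)

/-- The representative `(Quotient.out q)⁻¹` of the right coset of `K` in `H` attached to the left
coset `q ∈ H ⧸ K.subgroupOf H`. -/
noncomputable def outRep (q : H ⧸ K.subgroupOf H) : H := (Quotient.out q)⁻¹

theorem isRepSystem_outRep (hι : Function.Injective ι) :
    IsRepSystem (ι.comp K.subtype) (ι.comp H.subtype) (outRep K H) where
  inj := hι.comp K.subtype_injective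
  cover γ := by
    -- `q` the class of `γ⁻¹`
    set q : H ⧸ K.subgroupOf H := QuotientGroup.mk γ⁻¹ with hq
    have h1 : (γ⁻¹)⁻¹ * Quotient.out q ∈ K.subgroupOf H := by
      rw [← QuotientGroup.eq, hq]
      exact (QuotientGroup.out_eq' _).symm
    rw [inv_inv, Subgroup.mem_subgroupOf] at h1
    refine ⟨q, ⟨((γ * Quotient.out q : H) : S), h1⟩, ?_⟩
    simp only [MonoidHom.comp_apply, Subgroup.subtype_apply, outRep]
    rw [← map_mul]
    congr 1
    simp
  distinct q q' g hg := by
    simp only [MonoidHom.comp_apply, Subgroup.subtype_apply, outRep] at hg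
    rw [← map_mul] at hg
    have h1 := hι hg
    -- `out q' = out q * g⁻¹`
    have h2 : (Quotient.out q)⁻¹ * Quotient.out q' ∈ K.subgroupOf H := by
      rw [Subgroup.mem_subgroupOf]
      have h3 : ((Quotient.out q' : H) : S) = (Quotient.out q : H) * (g : S)⁻¹ := by
        have h4 := congrArg (fun x : S => x⁻¹) h1
        simp only [mul_inv_rev, Subgroup.coe_inv, inv_inv] at h4
        exact h4.symm
      rw [Subgroup.coe_mul, Subgroup.coe_inv, h3, ← mul_assoc, inv_mul_cancel, one_mul]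
      exact K.inv_mem g.2
    have h5 : (QuotientGroup.mk (Quotient.out q) : H ⧸ K.subgroupOf H)
        = QuotientGroup.mk (Quotient.out q') := QuotientGroup.eq.mpr h2
    rwa [QuotientGroup.out_eq', QuotientGroup.out_eq'] at h5

end out

end Fermat.Agent.S29.H65
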