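import Fermat.Agent.S29.H90_NormAnCard
import Fermat.Agent.S29.H47_NormAnBeta
import Fermat.Agent.S29.H65_Gamma0Pos
import Fermat.Agent.S29.H65_RepSystem

/-!
S29 / NORM-AN, final hypothesis-free form (helper90):

`thetaC N (Nm_α (β f)) = ∏ q, merComp (r q) (scaleMer ℓ (thetaC N f))
                       = ∏ q, actGL (diag(ℓ,1) * r q) (thetaC N f)`

for ANY system `r` of representatives of `Γ₀(N ℓ) \ Γ₀(N)` in helper65's sense
(`H65.IsRepSystem (gl (N ℓ)) (gl N) r`), in particular for `H65.outRep`.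
Consumes helper47's (L2) `H47.thetaC_heckeBetaBar`.
-/

set_option autoImplicit false
set_option linter.style.haveILetI false
noncomputable section
namespace Fermat.Agent.S29.H90
open UpperHalfPlane ModularCurve AlgebraicCurve CongruenceSubgroup Matrix.SpecialLinearGroup
open Fermat.Agent.S24
open Fermat.Agent.S24.H81 (Hol Mer)
open Fermat.Agent.S29.H25
open Fermat.Agent.S41.H85 (gl)
open scoped MatrixGroups Manifold

/-! ### `scaleMer ℓ` is `actGL (diag(ℓ,1))` -/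

theorem diagPos_smul_eq_mulD (ℓ : ℕ) [NeZero ℓ] (τ : ℍ) :
    ((H65.diagPos ℓ (NeZero.ne ℓ) : GL(2, ℝ)⁺) : GL (Fin 2) ℝ) • τ = H17.mulD ℓ τ := by
  apply UpperHalfPlane.ext
  rw [H65.coe_diagPos_smul]
  simp [H17.mulD, H15.coe_aff]

theorem scaleHol_eq_compHol (ℓ : ℕ) [NeZero ℓ] (a : Hol) :
    H47.scaleHol ℓ a = H65.compHol (H65.diagPos ℓ (NeZero.ne ℓ)) a := by
  apply Subtype.ext
  funext τ
  rw [H47.scaleHol_apply, H65.compHol_apply, diagPos_smul_eq_mulD]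

/-- helper47's `scaleMer ℓ` is helper65's `actGL (diag(ℓ,1))`. -/
theorem scaleMer_eq_actGL (ℓ : ℕ) [NeZero ℓ] (x : Mer) :
    H47.scaleMer ℓ x = H65.actGL (H65.diagPos ℓ (NeZero.ne ℓ)) x := by
  have h : H47.scaleMer ℓ = H65.actGL (H65.diagPos ℓ (NeZero.ne ℓ)) :=
    IsFractionRing.ringHom_ext (A := Hol) fun a => by
      rw [H47.scaleMer_algebraMap, H65.actGL_algebraMap, scaleHol_eq_compHol]
  rw [h]

/-! ### Systems of representatives -/

section Reps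

variable {N ℓ : ℕ} {Q : Type*} {r : Q → Gamma0 N}

theorem reps_inj_of_isRepSystem (h : H65.IsRepSystem (gl (N * ℓ)) (gl N) r) (q q' : Q)
    (hq : (r q : SL(2, ℤ)) * (r q' : SL(2, ℤ))⁻¹ ∈ Gamma0 (N * ℓ)) : q = q' := by
  refine (h.distinct q' q ⟨_, hq⟩ ?_).symm
  show mapGL ℝ ((r q : SL(2, ℤ)) * (r q' : SL(2, ℤ))⁻¹) * mapGL ℝ (r q' : SL(2, ℤ))
    = mapGL ℝ (r q : SL(2, ℤ))
  rw [← map_mul, inv_mul_cancel_right]

theorem reps_cover_of_isRepSystem (h : H65.IsRepSystem (gl (N * ℓ)) (gl N) r)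
    (γ : SL(2, ℤ)) (hγ : γ ∈ Gamma0 N) :
    ∃ q, γ * (r q : SL(2, ℤ))⁻¹ ∈ Gamma0 (N * ℓ) := by
  obtain ⟨q, g, hg⟩ := h.cover ⟨γ, hγ⟩
  refine ⟨q, ?_⟩
  have h1 : mapGL ℝ γ = mapGL ℝ ((g : SL(2, ℤ)) * (r q : SL(2, ℤ))) := by
    rw [map_mul]
    exact hg
  have h2 : γ = (g : SL(2, ℤ)) * (r q : SL(2, ℤ)) := mapGL_injective h1
  rw [h2, mul_inv_cancel_right]
  exact g.2

end Reps

variable {N ℓ : ℕ} [NeZero N] [NeZero ℓ]

/-- **NORM-AN core for a system of representatives in helper65's sense.** -/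
theorem thetaC_normAlong_eq_prod_of_isRepSystem {Q : Type*} [Fintype Q] {r : Q → Gamma0 N}
    (h : H65.IsRepSystem (gl (N * ℓ)) (gl N) r) (x : FC (N * ℓ)) :
    thetaC N (normAlong (heckeAlphaBar ℂ N ℓ) x) =
      ∏ q, merComp (r q : SL(2, ℤ)) (thetaC (N * ℓ) x) :=
  thetaC_normAlong_eq_prod_of_reps (fun q => (r q : SL(2, ℤ))) (fun q => (r q).2)
    (reps_inj_of_isRepSystem h) (reps_cover_of_isRepSystem h) x

/-- **NORM-AN, final form (helper25/helper47 vocabulary).**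
`thetaC N (Nm_α (β f)) = ∏ q, (thetaC N f)(ℓ · (r q) τ)`. -/
theorem thetaC_heckeNorm_eq_prod {Q : Type*} [Fintype Q] {r : Q → Gamma0 N}
    (h : H65.IsRepSystem (gl (N * ℓ)) (gl N) r) (f : FC N) :
    thetaC N (normAlong (heckeAlphaBar ℂ N ℓ) (heckeBetaBar ℂ N ℓ f)) =
      ∏ q, merComp (r q : SL(2, ℤ)) (H47.scaleMer ℓ (thetaC N f)) := by
  rw [thetaC_normAlong_eq_prod_of_isRepSystem h, H47.thetaC_heckeBetaBar]

/-- **NORM-AN, final form (helper65's `actGL` vocabulary).** -/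
theorem thetaC_heckeNorm_eq_prod_actGL {Q : Type*} [Fintype Q] {r : Q → Gamma0 N}
    (h : H65.IsRepSystem (gl (N * ℓ)) (gl N) r) (f : FC N) :
    thetaC N (normAlong (heckeAlphaBar ℂ N ℓ) (heckeBetaBar ℂ N ℓ f)) =
      ∏ q, H65.actGL (H65.diagPos ℓ (NeZero.ne ℓ) * H65.glp N (r q)) (thetaC N f) := by
  rw [thetaC_heckeNorm_eq_prod h]
  refine Finset.prod_congr rfl fun q _ => ?_
  rw [H65.actGL_mul, H65.actGL_glp, scaleMer_eq_actGL]

/-- The same for any family `a i = diag(ℓ,1) * r (e i)` of elements of `GL(2,ℝ)⁺`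
(the shape of `heckeMer_val` for a coset datum `D` with `D.α i = a i`). -/
theorem thetaC_heckeNorm_eq_prod_of_alpha {Q : Type*} [Fintype Q] {r : Q → Gamma0 N}
    (h : H65.IsRepSystem (gl (N * ℓ)) (gl N) r) {I : Type*} [Fintype I] (e : I ≃ Q)
    (a : I → GL(2, ℝ)⁺)
    (ha : ∀ i, a i = H65.diagPos ℓ (NeZero.ne ℓ) * H65.glp N (r (e i))) (f : FC N) :
    thetaC N (normAlong (heckeAlphaBar ℂ N ℓ) (heckeBetaBar ℂ N ℓ f)) =
      ∏ i, H65.actGL (a i) (thetaC N f) := by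
  rw [thetaC_heckeNorm_eq_prod_actGL h, ← e.prod_comp]
  exact Finset.prod_congr rfl fun i _ => by rw [ha i]

/-- The canonical representatives `(Quotient.out q)⁻¹`. -/
theorem isRepSystem_outRep_Gamma0 (N ℓ : ℕ) :
    H65.IsRepSystem (gl (N * ℓ)) (gl N) (H65.outRep (Gamma0 (N * ℓ)) (Gamma0 N)) :=
  H65.isRepSystem_outRep (mapGL ℝ) (Gamma0 (N * ℓ)) (Gamma0 N) mapGL_injective

/-- **NORM-AN for the canonical representatives**, any `Fintype` structure on the coset space. -/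
theorem thetaC_heckeNorm_eq_prod_outRep
    [Fintype (Gamma0 N ⧸ (Gamma0 (N * ℓ)).subgroupOf (Gamma0 N))] (f : FC N) :
    thetaC N (normAlong (heckeAlphaBar ℂ N ℓ) (heckeBetaBar ℂ N ℓ f)) =
      ∏ q, H65.actGL (H65.diagPos ℓ (NeZero.ne ℓ) *
        H65.glp N (H65.outRep (Gamma0 (N * ℓ)) (Gamma0 N) q)) (thetaC N f) :=
  thetaC_heckeNorm_eq_prod_actGL (isRepSystem_outRep_Gamma0 N ℓ) f

end Fermat.Agent.S29.H90
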