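import Mathlib
import Fermat.Prelude.Def_ModularCurve_EigenformIdeal
import Fermat.Prelude.Def_CuspForm_HeckeEvalForms
import Fermat.Agent.S41.H85_ResidualChar

/-!
# S29 / Stage 3 / E4 (SUPPORT-COH)

`L = parabolicHoms ℤ Γ₀(N) ℤ` with the action of the abstract Hecke algebra
`HeckeAlg = ℤ[X_ℓ : ℓ prime]` through the double coset operators `T_ℓ` (`ℓ ∤ N`), `U_ℓ` (`ℓ ∣ N`):
`cohHecke N = cohHeckeRep N ∅ ∘ heckeEvalForms N 2`.

* `exists_forall_mem_smul_eq_zero` : a commutative ring acting on a finite abelian group `V`, `𝔭`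
  a prime ideal containing the annihilator of `V`: then `V[𝔭] ≠ 0`.
* `chi_eq_zero_of_forall_mem_pSub_field` : Cayley-Hamilton with values in any reduced ring in
  which `p = 0`.
* `mem_of_cohHecke_le_pSub` (E4-a) : the eigen-ideal `𝔪 ∋ p` of a normalised eigenform contains
  every `t` with `t L ⊆ p L`.
* `exists_eigenclass_mod_p` (E4-b) : there is `x ∈ L`, `x ∉ p L`, with `t x ∈ p L` for all
  `t ∈ 𝔪`.
-/

set_option autoImplicit false

open CongruenceSubgroup ModularFormClass ModularCurve ModularCurve.Period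

namespace Fermat.Agent.S29.H58

open Fermat.Agent.S41

/-! ### The socle lemma -/

section Socle

variable {R : Type*} [CommRing R]

/-- a commutative ring acting on a finite abelian group `V`; `𝔭` a prime ideal such that every
`r` killing the stable subgroup `W` lies in `𝔭`.  Then `W` contains a nonzero vector killed by
`𝔭`. -/
theorem exists_forall_mem_smul_eq_zero_aux (𝔭 : Ideal R) [h𝔭 : 𝔭.IsPrime]
    {V : Type*} [AddCommGroup V] [Finite V] (ρ : R →+* Module.End ℤ V) :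
    ∀ (n : ℕ) (W : Submodule ℤ V), Nat.card W = n → (∀ r, ∀ w ∈ W, ρ r w ∈ W) →
      (∀ r, (∀ w ∈ W, ρ r w = 0) → r ∈ 𝔭) → ∃ v ∈ W, v ≠ 0 ∧ ∀ r ∈ 𝔭, ρ r v = 0 := by
  intro n
  induction n using Nat.strong_induction_on with
  | _ n ih =>
    intro W hcard hstab hann
    -- `W ≠ 0`
    have hW0 : ∃ w ∈ W, w ≠ 0 := by
      by_contra hcon
      push Not at hcon
      have : (1 : R) ∈ 𝔭 := hann 1 (fun w hw => by rw [hcon w hw, map_zero])
      exact h𝔭.ne_top ((Ideal.eq_top_iff_one 𝔭).mpr this)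
    by_cases hall : ∀ r ∈ 𝔭, ∀ w ∈ W, ρ r w = 0
    · obtain ⟨w, hw, hw0⟩ := hW0
      exact ⟨w, hw, hw0, fun r hr => hall r hr w hw⟩
    · push Not at hall
      obtain ⟨t, ht, w₀, hw₀, htw₀⟩ := hall
      -- the restriction of `ρ t` to `W`
      let g : W →ₗ[ℤ] W := (ρ t).restrict (hstab t)
      -- kernel and image inside `V`
      let W₁ : Submodule ℤ V := (LinearMap.ker g).map W.subtype
      let W₂ : Submodule ℤ V := (LinearMap.range g).map W.subtype
      have hW₁le : W₁ ≤ W := by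
        rintro _ ⟨x, -, rfl⟩
        exact x.2
      have hW₂le : W₂ ≤ W := by
        rintro _ ⟨x, -, rfl⟩
        exact x.2
      have hmemW₁ : ∀ v, v ∈ W₁ ↔ v ∈ W ∧ ρ t v = 0 := by
        intro v
        constructor
        · rintro ⟨x, hx, rfl⟩
          refine ⟨x.2, ?_⟩
          have := congrArg Subtype.val (LinearMap.mem_ker.mp hx)
          exact this
        · rintro ⟨hv, hv0⟩
          exact ⟨⟨v, hv⟩, LinearMap.mem_ker.mpr (Subtype.ext hv0), rfl⟩
      have hmemW₂ : ∀ v, v ∈ W₂ ↔ ∃ u ∈ W, ρ t u = v := by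
        intro v
        constructor
        · rintro ⟨x, ⟨u, rfl⟩, rfl⟩
          exact ⟨u, u.2, rfl⟩
        · rintro ⟨u, hu, rfl⟩
          exact ⟨g ⟨u, hu⟩, ⟨⟨u, hu⟩, rfl⟩, rfl⟩
      have hstab₁ : ∀ r, ∀ w ∈ W₁, ρ r w ∈ W₁ := by
        intro r w hw
        rw [hmemW₁] at hw ⊢
        refine ⟨hstab r w hw.1, ?_⟩
        have hc : ρ t (ρ r w) = ρ r (ρ t w) := by
          rw [← Module.End.mul_apply, ← Module.End.mul_apply, ← map_mul, ← map_mul, mul_comm]
        rw [hc, hw.2, map_zero]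
      have hstab₂ : ∀ r, ∀ w ∈ W₂, ρ r w ∈ W₂ := by
        intro r w hw
        rw [hmemW₂] at hw ⊢
        obtain ⟨u, hu, rfl⟩ := hw
        refine ⟨ρ r u, hstab r u hu, ?_⟩
        rw [← Module.End.mul_apply, ← Module.End.mul_apply, ← map_mul, ← map_mul, mul_comm]
      -- cardinalities
      have hcardW : Nat.card W = Nat.card (LinearMap.ker g) * Nat.card (LinearMap.range g) := by
        have h1 := Submodule.card_eq_card_quotient_mul_card (LinearMap.ker g)
        have h2 : Nat.card (W ⧸ LinearMap.ker g) = Nat.card (LinearMap.range g) :=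
          Nat.card_congr g.quotKerEquivRange.toEquiv
        rw [h1, h2, mul_comm]
      have hc₁ : Nat.card W₁ = Nat.card (LinearMap.ker g) :=
        Nat.card_congr ((LinearMap.ker g).equivMapOfInjective W.subtype
          W.injective_subtype).symm.toEquiv
      have hc₂ : Nat.card W₂ = Nat.card (LinearMap.range g) :=
        Nat.card_congr ((LinearMap.range g).equivMapOfInjective W.subtype
          W.injective_subtype).symm.toEquiv
      have hposW : 0 < Nat.card W := Nat.card_pos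
      -- `W₂ ≠ 0`, so `W₁` is smaller than `W`
      have hW₂big : 1 < Nat.card W₂ := by
        rw [Finite.one_lt_card_iff_nontrivial]
        exact ⟨⟨⟨ρ t w₀, (hmemW₂ _).mpr ⟨w₀, hw₀, rfl⟩⟩, 0, fun h => htw₀ (congrArg Subtype.val h)⟩⟩
      have hlt₁ : Nat.card W₁ < n := by
        rw [← hcard, hcardW, hc₁]
        rw [← hc₂]
        have hpos : 0 < Nat.card (LinearMap.ker g) := Nat.card_pos
        nlinarith
      -- `W₁ ≠ 0`: otherwise `ρ t` is injective on `W`, of finite order, and `1 ∈ 𝔭`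
      have hW₁big : 1 < Nat.card W₁ := by
        by_contra hcon
        have hker : LinearMap.ker g = ⊥ := by
          rw [hc₁] at hcon
          have : Nat.card (LinearMap.ker g) = 1 := by
            have hpos : 0 < Nat.card (LinearMap.ker g) := Nat.card_pos
            omega
          have hsub : Subsingleton (LinearMap.ker g) := (Nat.card_eq_one_iff_unique.mp this).1
          exact (Submodule.subsingleton_iff_eq_bot).mp hsub
        have hinj : Function.Injective g := LinearMap.ker_eq_bot.mp hker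
        have hbij : Function.Bijective g := ⟨hinj, Finite.injective_iff_surjective.mp hinj⟩
        obtain ⟨m, hm, hσm⟩ := isOfFinOrder_iff_pow_eq_one.mp
          (isOfFinOrder_of_finite (Equiv.ofBijective g hbij : Equiv.Perm W))
        have key : ∀ (j : ℕ) (w : W),
            ((((Equiv.ofBijective g hbij : Equiv.Perm W) ^ j) w : W) : V) = (ρ (t ^ j)) (w : V) := by
          intro j
          induction j with
          | zero => intro w; simp
          | succ j ihj =>
            intro w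
            rw [pow_succ', pow_succ', Equiv.Perm.mul_apply, map_mul, Module.End.mul_apply, ← ihj]
            rfl
        have h1 : t ^ m - 1 ∈ 𝔭 := by
          apply hann
          intro w hw
          have := key m ⟨w, hw⟩
          rw [hσm] at this
          rw [map_sub, map_one, LinearMap.sub_apply, Module.End.one_apply, ← this]
          simp
        have h2 : t ^ m ∈ 𝔭 := 𝔭.pow_mem_of_mem ht m hm
        have h3 : (1 : R) ∈ 𝔭 := by
          have := 𝔭.sub_mem h2 h1
          simpa using this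
        exact h𝔭.ne_top ((Ideal.eq_top_iff_one 𝔭).mpr h3)
      have hlt₂ : Nat.card W₂ < n := by
        rw [← hcard, hcardW, hc₂]
        rw [← hc₁]
        have hpos : 0 < Nat.card (LinearMap.range g) := Nat.card_pos
        nlinarith
      -- one of the two annihilators is contained in `𝔭`
      by_cases h₁ : ∀ r, (∀ w ∈ W₁, ρ r w = 0) → r ∈ 𝔭
      · obtain ⟨v, hv, hv0, hvp⟩ := ih _ hlt₁ W₁ rfl hstab₁ h₁
        exact ⟨v, hW₁le hv, hv0, hvp⟩
      · have h₂ : ∀ r, (∀ w ∈ W₂, ρ r w = 0) → r ∈ 𝔭 := by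
          push Not at h₁
          obtain ⟨a, ha, haP⟩ := h₁
          intro b hb
          have hab : a * b ∈ 𝔭 := by
            apply hann
            intro w hw
            have h1 : ρ b w ∈ W₁ := by
              rw [hmemW₁]
              refine ⟨hstab b w hw, ?_⟩
              have hc : ρ t (ρ b w) = ρ b (ρ t w) := by
                rw [← Module.End.mul_apply, ← Module.End.mul_apply, ← map_mul, ← map_mul, mul_comm]
              rw [hc]
              exact hb _ ((hmemW₂ _).mpr ⟨w, hw, rfl⟩)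
            rw [map_mul, Module.End.mul_apply]
            exact ha _ h1
          exact (h𝔭.mem_or_mem hab).resolve_left haP
        obtain ⟨v, hv, hv0, hvp⟩ := ih _ hlt₂ W₂ rfl hstab₂ h₂
        exact ⟨v, hW₂le hv, hv0, hvp⟩

/-- **socle lemma**: `V` a finite abelian group with an action of the commutative ring `R`, `𝔭` a
prime ideal containing the annihilator of `V`.  Then some nonzero `v` is killed by `𝔭`. -/
theorem exists_forall_mem_smul_eq_zero (𝔭 : Ideal R) [𝔭.IsPrime]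
    {V : Type*} [AddCommGroup V] [Finite V] (ρ : R →+* Module.End ℤ V)
    (hann : ∀ r, ρ r = 0 → r ∈ 𝔭) : ∃ v : V, v ≠ 0 ∧ ∀ r ∈ 𝔭, ρ r v = 0 := by
  obtain ⟨v, -, hv0, hv⟩ := exists_forall_mem_smul_eq_zero_aux 𝔭 ρ _ ⊤ rfl
    (fun _ _ _ => Submodule.mem_top)
    (fun r hr => hann r (LinearMap.ext fun w => hr w Submodule.mem_top))
  exact ⟨v, hv0, hv⟩

end Socle

/-! ### Cayley-Hamilton with values in a reduced ring of characteristic `p` -/

section CH

open Polynomial

/-- **Cayley-Hamilton**: if `ker ρ ≤ ker χ` and `ρ t L ⊆ p L` for the finitely generated abelian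
group `L`, and `p = 0` in the reduced ring `k`, then `χ t = 0`. -/
theorem chi_eq_zero_of_forall_mem_pSub_field {p : ℕ} {R : Type*} [CommRing R]
    {k : Type*} [CommRing k] [IsReduced k] (hpk : (p : k) = 0) (χ : R →+* k)
    {L : Type*} [AddCommGroup L] [Module.Finite ℤ L] (ρ : R →+* Module.End ℤ L)
    (hker : ∀ t, ρ t = 0 → χ t = 0) (t : R) (ht : ∀ x, ρ t x ∈ H66.pSub p L) : χ t = 0 := by
  have hrange : LinearMap.range (ρ t) ≤ (Ideal.span {(p : ℤ)} : Ideal ℤ) • (⊤ : Submodule ℤ L) := by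
    rw [← H66.pSub_eq_span_smul_top]
    rintro _ ⟨x, rfl⟩
    exact ht x
  obtain ⟨P, hmonic, -, hcoeff, hP⟩ :=
    LinearMap.exists_monic_and_natDegree_eq_and_coeff_mem_pow_and_aeval_eq_zero ℤ (ρ t)
      (Ideal.span {(p : ℤ)}) hrange
  have h1 : ρ (aeval t P) = aeval (ρ t) P := by
    rw [aeval_def, aeval_def, hom_eval₂]
    congr 1
    exact Subsingleton.elim _ _
  have h2 : χ (aeval t P) = 0 := hker _ (by rw [h1, hP])
  have h3 : χ (aeval t P) = (P.map (Int.castRingHom k)).eval (χ t) := by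
    rw [aeval_def, hom_eval₂, eval_map]
    congr 1
    exact Subsingleton.elim _ _
  have h4 : P.map (Int.castRingHom k) = X ^ P.natDegree := by
    ext j
    rw [coeff_map, coeff_X_pow]
    split_ifs with hj
    · rw [hj, hmonic.coeff_natDegree, map_one]
    · rcases lt_or_gt_of_ne hj with hlt | hgt
      · have hmem := hcoeff j
        have hle : (Ideal.span {(p : ℤ)} : Ideal ℤ) ^ (P.natDegree - j) ≤ Ideal.span {(p : ℤ)} :=
          Ideal.pow_le_self (Nat.sub_ne_zero_of_lt hlt)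
        obtain ⟨c, hc⟩ : (p : ℤ) ∣ P.coeff j := Ideal.mem_span_singleton.mp (hle hmem)
        rw [hc, map_mul, eq_intCast, Int.cast_natCast, hpk, zero_mul]
      · rw [coeff_eq_zero_of_natDegree_lt hgt, map_zero]
  rw [h3, h4, eval_pow, eval_X] at h2
  exact IsReduced.eq_zero _ ⟨_, h2⟩

end CH

/-! ### The Hecke action on `L = parabolicHoms ℤ Γ₀(N) ℤ` -/

section CohHecke

variable (N : ℕ) [NeZero N]

/-- The action of the abstract Hecke algebra `ℤ[X_ℓ]` on `parabolicHoms ℤ Γ₀(N) ℤ`: `X_ℓ` acts as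
`T_ℓ` (`ℓ ∤ N`) resp. `U_ℓ` (`ℓ ∣ N`). -/
noncomputable def cohHecke :
    HeckeAlg →+* Module.End ℤ (parabolicHoms ℤ (Gamma0 N) ℤ) :=
  (H85.cohHeckeRep N ∅).comp (CuspForm.heckeEvalForms N 2)

theorem cohHecke_apply (t : HeckeAlg) :
    cohHecke N t = H85.cohHeckeRep N ∅ (CuspForm.heckeEvalForms N 2 t) := rfl

variable {N}

theorem cohHecke_heckeGen_of_not_dvd {ℓ : Nat.Primes} (h : ¬ (ℓ : ℕ) ∣ N) :
    cohHecke N (heckeGen ℓ) = H85.heckeTPar ℤ ℤ ℓ.2 h := by
  rw [cohHecke_apply, CuspForm.heckeEvalForms_heckeGen_of_not_dvd h, H85.cohHeckeRep_T]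

theorem cohHecke_heckeGen_of_dvd {q : Nat.Primes} (h : (q : ℕ) ∣ N) :
    haveI : NeZero (q : ℕ) := ⟨q.2.ne_zero⟩
    cohHecke N (heckeGen q) = H85.heckeUPar ℤ ℤ h := by
  rw [cohHecke_apply, CuspForm.heckeEvalForms_heckeGen_of_dvd h, H85.cohHeckeRep_U]

/-- the eigencharacter of a normalised eigenform on the abstract Hecke algebra is evaluation at
the prime-indexed `q`-coefficients. -/
theorem eigenChar_heckeEvalForms {f : CuspForm (Gamma0 N) 2} (hf : f.IsNormalizedEigenform)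
    (𝒪 : Subring ℂ) (h𝒪 : ∀ ℓ : Nat.Primes, qCoeff f ℓ ∈ 𝒪) (t : HeckeAlg) :
    H85.eigenChar hf ∅ (CuspForm.heckeEvalForms N 2 t)
      = ((MvPolynomial.aeval (fun ℓ : Nat.Primes => (⟨qCoeff f ℓ, h𝒪 ℓ⟩ : 𝒪)) t : 𝒪) : ℂ) := by
  have h : (H85.eigenChar hf ∅).comp (CuspForm.heckeEvalForms N 2)
      = 𝒪.subtype.comp
        (MvPolynomial.aeval (fun ℓ : Nat.Primes => (⟨qCoeff f ℓ, h𝒪 ℓ⟩ : 𝒪))).toRingHom := by
    refine MvPolynomial.ringHom_ext (fun n => ?_) (fun ℓ => ?_)
    · simp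
    · simp only [RingHom.comp_apply, AlgHom.toRingHom_eq_coe, RingHom.coe_coe,
        MvPolynomial.aeval_X, Subring.subtype_apply]
      change H85.eigenChar hf ∅ (CuspForm.heckeEvalForms N 2 (heckeGen ℓ)) = _
      by_cases hℓ : (ℓ : ℕ) ∣ N
      · rw [CuspForm.heckeEvalForms_heckeGen_of_dvd hℓ, H85.eigenChar_U]
      · rw [CuspForm.heckeEvalForms_heckeGen_of_not_dvd hℓ, H85.eigenChar_T]
  exact congrArg (fun r : HeckeAlg →+* ℂ => r t) h

/-- **(E4-a)** the eigen-ideal `𝔪 ∋ p` of a normalised eigenform contains every Hecke polynomial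
`t` with `t L ⊆ p L`. -/
theorem mem_of_cohHecke_le_pSub (p : ℕ) {𝔪 : Ideal HeckeAlg} (h𝔪 : IsEigenformIdeal N 𝔪)
    (hp : (p : HeckeAlg) ∈ 𝔪) (t : HeckeAlg)
    (ht : ∀ x : parabolicHoms ℤ (Gamma0 N) ℤ,
      cohHecke N t x ∈ H66.pSub p (parabolicHoms ℤ (Gamma0 N) ℤ)) : t ∈ 𝔪 := by
  obtain ⟨f, hf, k, _, _, 𝒪, h𝒪, φ, rfl⟩ := h𝔪
  rw [mem_eigenIdeal_iff] at hp ⊢
  have hpk : (p : k) = 0 := by
    rw [← hp, map_natCast]
  -- `χ = aeval (φ ∘ a)` as a ring homomorphism, factored through `𝒪`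
  have hfac : ∀ s : HeckeAlg,
      MvPolynomial.aeval (fun ℓ : Nat.Primes => φ ⟨qCoeff f ℓ, h𝒪 ℓ⟩) s
        = φ (MvPolynomial.aeval (fun ℓ : Nat.Primes => (⟨qCoeff f ℓ, h𝒪 ℓ⟩ : 𝒪)) s) := by
    intro s
    have h : (MvPolynomial.aeval (R := ℤ) (fun ℓ : Nat.Primes => φ ⟨qCoeff f ℓ, h𝒪 ℓ⟩)).toRingHom
        = φ.comp
          (MvPolynomial.aeval (fun ℓ : Nat.Primes => (⟨qCoeff f ℓ, h𝒪 ℓ⟩ : 𝒪))).toRingHom := by
      refine MvPolynomial.ringHom_ext (fun n => ?_) (fun ℓ => ?_)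
      · simp
      · simp
    exact congrArg (fun r : HeckeAlg →+* k => r s) h
  refine chi_eq_zero_of_forall_mem_pSub_field hpk
    (MvPolynomial.aeval (R := ℤ) (fun ℓ : Nat.Primes => φ ⟨qCoeff f ℓ, h𝒪 ℓ⟩)).toRingHom
    (cohHecke N) (fun s hs => ?_) t ht
  -- `ker (cohHecke) ≤ ker χ`
  have h0 : CuspForm.heckeEvalForms N 2 s = 0 :=
    H85.cohHeckeRep_injective (by rw [map_zero]; exact hs)
  have h1 := eigenChar_heckeEvalForms hf 𝒪 h𝒪 s
  rw [h0, map_zero] at h1
  have h2 : (MvPolynomial.aeval (fun ℓ : Nat.Primes => (⟨qCoeff f ℓ, h𝒪 ℓ⟩ : 𝒪)) s : 𝒪) = 0 :=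
    Subtype.ext h1.symm
  change MvPolynomial.aeval (fun ℓ : Nat.Primes => φ ⟨qCoeff f ℓ, h𝒪 ℓ⟩) s = 0
  rw [hfac, h2, map_zero]

/-- **(E4-b)** the eigen-ideal `𝔪 ∋ p` of a normalised eigenform is in the support of `L / p L`:
there is a class `x ∉ p L` with `t x ∈ p L` for every `t ∈ 𝔪`. -/
theorem exists_eigenclass_mod_p (p : ℕ) [Fact p.Prime] {𝔪 : Ideal HeckeAlg}
    (h𝔪 : IsEigenformIdeal N 𝔪) (hp : (p : HeckeAlg) ∈ 𝔪) :
    ∃ x : parabolicHoms ℤ (Gamma0 N) ℤ, x ∉ H66.pSub p (parabolicHoms ℤ (Gamma0 N) ℤ) ∧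
      ∀ t ∈ 𝔪, cohHecke N t x ∈ H66.pSub p (parabolicHoms ℤ (Gamma0 N) ℤ) := by
  have hprime : 𝔪.IsPrime := by
    obtain ⟨f, hf, k, _, _, 𝒪, h𝒪, φ, rfl⟩ := h𝔪
    exact RingHom.ker_isPrime _
  have : NeZero p := ⟨(Fact.out : p.Prime).ne_zero⟩
  have : Finite (parabolicHoms ℤ (Gamma0 N) ℤ ⧸ H66.pSub p (parabolicHoms ℤ (Gamma0 N) ℤ)) :=
    H66.finite_quotient_pSub p
  obtain ⟨v, hv0, hv⟩ := exists_forall_mem_smul_eq_zero 𝔪
    ((H66.redEndHom p).comp (cohHecke N)) (fun t ht => by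
      apply mem_of_cohHecke_le_pSub p h𝔪 hp t
      intro x
      have := congrArg (fun e : Module.End ℤ _ => e (Submodule.Quotient.mk x)) ht
      simp only [RingHom.comp_apply, H66.redEndHom_mk, LinearMap.zero_apply] at this
      exact (H66.mk_eq_zero_iff p).mp this)
  induction v using Submodule.Quotient.induction_on with
  | _ x =>
    refine ⟨x, fun hx => hv0 ((H66.mk_eq_zero_iff p).mpr hx), fun t ht => ?_⟩
    have := hv t ht
    rw [RingHom.comp_apply, H66.redEndHom_mk] at this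
    exact (H66.mk_eq_zero_iff p).mp this

end CohHecke

end Fermat.Agent.S29.H58
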