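import Mathlib
import Fermat.Agent.S29.H80_Interface
import Fermat.Agent.S29.H58_SupportCoh

/-!
# S29 / Stage 3 / P13 (COH-SUPPORT) in the shape of `H80_Interface`

`cohSupport N p : H80.CohSupport N p` for every prime `p` and every level `N`, with
`ρ := H58.cohHecke N`.  Pure repackaging of `H58_SupportCoh` (E4-b).
-/

set_option autoImplicit false

open CongruenceSubgroup ModularCurve ModularCurve.Period

namespace Fermat.Agent.S29.H58

open Fermat.Agent.S41

variable {N : ℕ} [NeZero N]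

/-- `cohHecke N` sends the generator `X_ℓ` to the interface operator `H80.cohT N ℓ`. -/
theorem cohHecke_heckeGen_eq_cohT (ℓ : Nat.Primes) :
    cohHecke N (heckeGen ℓ) = H80.cohT N ℓ := by
  unfold H80.cohT
  by_cases h : (ℓ : ℕ) ∣ N
  · rw [dif_pos h]
    exact cohHecke_heckeGen_of_dvd h
  · rw [dif_neg h]
    exact cohHecke_heckeGen_of_not_dvd h

/-- membership in `p L`, in the `∃ y, x = p • y` form of the interface. -/
theorem mem_pSub_iff_exists_eq_smul (p : ℕ) {L : Type*} [AddCommGroup L] (x : L) :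
    x ∈ H66.pSub p L ↔ ∃ y : L, x = (p : ℤ) • y := by
  rw [H66.mem_pSub]
  exact ⟨fun ⟨y, hy⟩ => ⟨y, hy.symm⟩, fun ⟨y, hy⟩ => ⟨y, hy.symm⟩⟩

/-- **Package P13 (COH-SUPPORT)** of the Stage-3 blueprint, in the exact interface shape. -/
theorem cohSupport (N p : ℕ) [NeZero N] [Fact p.Prime] : H80.CohSupport N p := by
  refine ⟨cohHecke N, cohHecke_heckeGen_eq_cohT, fun 𝔪 h𝔪 hp => ?_⟩
  obtain ⟨x, hx, hxt⟩ := exists_eigenclass_mod_p p h𝔪 hp
  refine ⟨x, fun h => hx ((mem_pSub_iff_exists_eq_smul p x).mpr h), fun t ht => ?_⟩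
  exact (mem_pSub_iff_exists_eq_smul p _).mp (hxt t ht)

/-- the same with an explicit primality hypothesis. -/
theorem cohSupport_of_prime (N : ℕ) [NeZero N] {p : ℕ} (hp : p.Prime) : H80.CohSupport N p :=
  haveI : Fact p.Prime := ⟨hp⟩
  cohSupport N p

end Fermat.Agent.S29.H58
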