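/-
S29 / Stage 3, KUMMER-INST (I1): the modular group acting on the field `H81.Mer` of meromorphic
functions on the upper half plane (fractions of holomorphic functions) by precomposition.

* `constHol : ℂ →+* Hol`, `constMer : ℂ →+* Mer` (constants; injective);
* `compHolGL g hg : Hol →+* Hol`, `a ↦ (τ ↦ a (g • τ))` for `g : GL (Fin 2) ℝ` of positive
  determinant; `actMerGL g hg : Mer →+* Mer` its extension to fractions;
* `actMerGL_mul` : `actMerGL (g₁ * g₂) x = actMerGL g₂ (actMerGL g₁ x)` (a RIGHT action,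
  `Φ ↦ Φ ∘ γ`), `actMerGL_one`, `actMerGL_constMer`;
* `merOrd_actMerGL` : `merOrd τ (actMerGL g x) = merOrd (g • τ) x`;
* `actMer γ` for `γ : SL(2, ℤ)`, same lemmas;
* `denomPowHol g k : Hol` (`τ ↦ denom g τ ^ k`), nonzero;
* `actMer_div_of_automorphy` : if `A (γ τ) = c (cτ+d)^k A τ` and `B (γ τ) = (cτ+d)^k B τ`
  then `(A/B) ∘ γ = c • (A/B)` in `Mer`.
-/
import Mathlib
import Fermat.Agent.S24.H81_Hol

set_option autoImplicit false

noncomputable section

namespace Fermat.Agent.S29.H85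

open UpperHalfPlane Fermat.Agent.S24.H81
open scoped MatrixGroups Manifold

/-! ### constants -/

/-- Constant functions, as a ring hom into `Hol`. -/
def constHol : ℂ →+* Hol where
  toFun c := ⟨fun _ => c, const_mem_Hol c⟩
  map_one' := rfl
  map_mul' _ _ := rfl
  map_zero' := rfl
  map_add' _ _ := rfl

@[simp] theorem constHol_apply (c : ℂ) (τ : ℍ) : (constHol c : ℍ → ℂ) τ = c := rfl

theorem constHol_injective : Function.Injective constHol := fun a b h => by
  have := congrArg (fun g : Hol => (g : ℍ → ℂ) UpperHalfPlane.I) h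
  simpa using this

/-- Constants in the field of meromorphic functions. -/
def constMer : ℂ →+* Mer := (algebraMap Hol Mer).comp constHol

theorem constMer_apply (c : ℂ) : constMer c = algebraMap Hol Mer (constHol c) := rfl

theorem constMer_injective : Function.Injective constMer :=
  (IsFractionRing.injective Hol Mer).comp constHol_injective

/-! ### precomposition with `GL₂(ℝ)⁺` -/

/-- Precomposition with the action of `g ∈ GL₂(ℝ)⁺` on `ℍ`, on holomorphic functions. -/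
def compHolGL (g : GL (Fin 2) ℝ) (hg : 0 < g.det.val) : Hol →+* Hol where
  toFun a := ⟨fun τ => (a : ℍ → ℂ) (g • τ), a.2.comp (mdifferentiable_smul hg)⟩
  map_one' := rfl
  map_mul' _ _ := rfl
  map_zero' := rfl
  map_add' _ _ := rfl

@[simp] theorem compHolGL_apply (g : GL (Fin 2) ℝ) (hg : 0 < g.det.val) (a : Hol) (τ : ℍ) :
    (compHolGL g hg a : ℍ → ℂ) τ = (a : ℍ → ℂ) (g • τ) := rfl

theorem compHolGL_injective (g : GL (Fin 2) ℝ) (hg : 0 < g.det.val) :
    Function.Injective (compHolGL g hg) := by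
  intro a b hab
  apply Subtype.ext
  funext τ
  have := congrArg (fun f : Hol => (f : ℍ → ℂ) (g⁻¹ • τ)) hab
  simpa [compHolGL_apply, smul_smul] using this

theorem compHolGL_constHol (g : GL (Fin 2) ℝ) (hg : 0 < g.det.val) (c : ℂ) :
    compHolGL g hg (constHol c) = constHol c := rfl

theorem det_mul_pos {g₁ g₂ : GL (Fin 2) ℝ} (h₁ : 0 < g₁.det.val) (h₂ : 0 < g₂.det.val) :
    0 < (g₁ * g₂).det.val := by
  rw [map_mul, Units.val_mul]
  exact mul_pos h₁ h₂

theorem compHolGL_mul (g₁ g₂ : GL (Fin 2) ℝ) (h₁ : 0 < g₁.det.val) (h₂ : 0 < g₂.det.val)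
    (a : Hol) :
    compHolGL (g₁ * g₂) (det_mul_pos h₁ h₂) a = compHolGL g₂ h₂ (compHolGL g₁ h₁ a) := by
  apply Subtype.ext
  funext τ
  simp [compHolGL_apply, mul_smul]

theorem det_one_pos : 0 < (1 : GL (Fin 2) ℝ).det.val := by simp

theorem compHolGL_one (a : Hol) : compHolGL 1 det_one_pos a = a := by
  apply Subtype.ext
  funext τ
  simp [compHolGL_apply]

/-- Precomposition with `g ∈ GL₂(ℝ)⁺`, on meromorphic functions. -/
def actMerGL (g : GL (Fin 2) ℝ) (hg : 0 < g.det.val) : Mer →+* Mer :=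
  IsFractionRing.lift (g := (algebraMap Hol Mer).comp (compHolGL g hg))
    ((IsFractionRing.injective Hol Mer).comp (compHolGL_injective g hg))

@[simp] theorem actMerGL_algebraMap (g : GL (Fin 2) ℝ) (hg : 0 < g.det.val) (a : Hol) :
    actMerGL g hg (algebraMap Hol Mer a) = algebraMap Hol Mer (compHolGL g hg a) := by
  unfold actMerGL
  rw [IsFractionRing.lift_algebraMap]
  rfl

theorem actMerGL_div (g : GL (Fin 2) ℝ) (hg : 0 < g.det.val) (a b : Hol) :
    actMerGL g hg (algebraMap Hol Mer a / algebraMap Hol Mer b)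
      = algebraMap Hol Mer (compHolGL g hg a) / algebraMap Hol Mer (compHolGL g hg b) := by
  rw [map_div₀, actMerGL_algebraMap, actMerGL_algebraMap]

theorem actMerGL_constMer (g : GL (Fin 2) ℝ) (hg : 0 < g.det.val) (c : ℂ) :
    actMerGL g hg (constMer c) = constMer c := by
  rw [constMer_apply, actMerGL_algebraMap, compHolGL_constHol]

/-- Every meromorphic function is a quotient of holomorphic functions. -/
theorem exists_eq_div (x : Mer) :
    ∃ a b : Hol, b ≠ 0 ∧ x = algebraMap Hol Mer a / algebraMap Hol Mer b := by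
  obtain ⟨a, b, hb, h⟩ := IsFractionRing.div_surjective (A := Hol) x
  exact ⟨a, b, nonZeroDivisors.ne_zero hb, h.symm⟩

theorem actMerGL_mul (g₁ g₂ : GL (Fin 2) ℝ) (h₁ : 0 < g₁.det.val) (h₂ : 0 < g₂.det.val)
    (x : Mer) :
    actMerGL (g₁ * g₂) (det_mul_pos h₁ h₂) x = actMerGL g₂ h₂ (actMerGL g₁ h₁ x) := by
  obtain ⟨a, b, -, rfl⟩ := exists_eq_div x
  rw [actMerGL_div, actMerGL_div, actMerGL_div, compHolGL_mul, compHolGL_mul]

theorem actMerGL_one (x : Mer) : actMerGL 1 det_one_pos x = x := by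
  obtain ⟨a, b, -, rfl⟩ := exists_eq_div x
  rw [actMerGL_div, compHolGL_one, compHolGL_one]

theorem actMerGL_injective (g : GL (Fin 2) ℝ) (hg : 0 < g.det.val) :
    Function.Injective (actMerGL g hg) := (actMerGL g hg).injective

/-- The action does not depend on the proof of positivity. -/
theorem actMerGL_congr {g g' : GL (Fin 2) ℝ} (h : g = g') (hg : 0 < g.det.val)
    (hg' : 0 < g'.det.val) (x : Mer) : actMerGL g hg x = actMerGL g' hg' x := by
  subst h; rfl

/-! ### orders -/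

theorem val_det_pos {g : GL (Fin 2) ℝ} (hg : 0 < g.det.val) : 0 < g.val.det := by
  rw [← Matrix.GeneralLinearGroup.val_det_apply]
  exact hg

theorem analyticOrderAt_comp_smulGL (a : ℍ → ℂ) {g : GL (Fin 2) ℝ} (hg : 0 < g.det.val)
    (τ₀ : ℍ) :
    analyticOrderAt ((fun τ : ℍ => a (g • τ)) ∘ ofComplex) (τ₀ : ℂ) =
      analyticOrderAt (a ∘ ofComplex) ((g • τ₀ : ℍ) : ℂ) := by
  let G : ℂ → ℂ := fun z => (g • ofComplex z : ℍ)
  have hcomp : ((fun τ : ℍ => a (g • τ)) ∘ ofComplex) = (a ∘ ofComplex) ∘ G := by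
    ext z
    simp [G]
  rw [hcomp, analyticOrderAt_comp_of_deriv_ne_zero (τ₀.analyticAt_smul (val_det_pos hg))
    (τ₀.deriv_smul_ne_zero (val_det_pos hg))]
  simp

theorem ordNat_compHolGL {g : GL (Fin 2) ℝ} (hg : 0 < g.det.val) (a : Hol) (τ₀ : ℍ) :
    ordNat τ₀ (compHolGL g hg a : ℍ → ℂ) = ordNat (g • τ₀) (a : ℍ → ℂ) := by
  unfold ordNat analyticOrderNatAt
  have := analyticOrderAt_comp_smulGL (a : ℍ → ℂ) hg τ₀
  rw [show ((compHolGL g hg a : Hol) : ℍ → ℂ) = fun τ : ℍ => (a : ℍ → ℂ) (g • τ) from rfl, this]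

theorem merOrd_div (τ0 : ℍ) {a b : Hol} (ha : a ≠ 0) (hb : b ≠ 0) :
    merOrd τ0 (algebraMap Hol Mer a / algebraMap Hol Mer b)
      = (ordNat τ0 (a : ℍ → ℂ) : ℤ) - ordNat τ0 (b : ℍ → ℂ) := by
  have ha' : algebraMap Hol Mer a ≠ 0 :=
    (map_ne_zero_iff _ (IsFractionRing.injective Hol Mer)).mpr ha
  have hb' : algebraMap Hol Mer b ≠ 0 :=
    (map_ne_zero_iff _ (IsFractionRing.injective Hol Mer)).mpr hb
  have h := merOrd_mul τ0 (div_ne_zero ha' hb') hb'
  rw [div_mul_cancel₀ _ hb', merOrd_algebraMap τ0 ha, merOrd_algebraMap τ0 hb] at h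
  omega

theorem merOrd_actMerGL {g : GL (Fin 2) ℝ} (hg : 0 < g.det.val) {x : Mer} (hx : x ≠ 0)
    (τ₀ : ℍ) : merOrd τ₀ (actMerGL g hg x) = merOrd (g • τ₀) x := by
  obtain ⟨a, b, hb, rfl⟩ := exists_eq_div x
  have ha : a ≠ 0 := by
    rintro rfl
    simp at hx
  have ha' : compHolGL g hg a ≠ 0 := (map_ne_zero_iff _ (compHolGL_injective g hg)).mpr ha
  have hb' : compHolGL g hg b ≠ 0 := (map_ne_zero_iff _ (compHolGL_injective g hg)).mpr hb
  rw [actMerGL_div, merOrd_div τ₀ ha' hb', merOrd_div _ ha hb, ordNat_compHolGL,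
    ordNat_compHolGL]

/-! ### the modular group -/

theorem det_SL_pos (γ : SL(2, ℤ)) : 0 < ((γ : GL (Fin 2) ℝ)).det.val := by
  simp

/-- Precomposition with `γ ∈ SL(2, ℤ)` on holomorphic functions. -/
def compHol (γ : SL(2, ℤ)) : Hol →+* Hol := compHolGL (γ : GL (Fin 2) ℝ) (det_SL_pos γ)

@[simp] theorem compHol_apply (γ : SL(2, ℤ)) (a : Hol) (τ : ℍ) :
    (compHol γ a : ℍ → ℂ) τ = (a : ℍ → ℂ) (γ • τ) := rfl

/-- Precomposition with `γ ∈ SL(2, ℤ)` on meromorphic functions: `Φ ↦ Φ ∘ γ`. -/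
def actMer (γ : SL(2, ℤ)) : Mer →+* Mer := actMerGL (γ : GL (Fin 2) ℝ) (det_SL_pos γ)

@[simp] theorem actMer_algebraMap (γ : SL(2, ℤ)) (a : Hol) :
    actMer γ (algebraMap Hol Mer a) = algebraMap Hol Mer (compHol γ a) :=
  actMerGL_algebraMap _ _ a

theorem actMer_div (γ : SL(2, ℤ)) (a b : Hol) :
    actMer γ (algebraMap Hol Mer a / algebraMap Hol Mer b)
      = algebraMap Hol Mer (compHol γ a) / algebraMap Hol Mer (compHol γ b) :=
  actMerGL_div _ _ a b

@[simp] theorem actMer_constMer (γ : SL(2, ℤ)) (c : ℂ) : actMer γ (constMer c) = constMer c :=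
  actMerGL_constMer _ _ c

theorem coe_GL_mul (γ₁ γ₂ : SL(2, ℤ)) :
    ((γ₁ * γ₂ : SL(2, ℤ)) : GL (Fin 2) ℝ) = (γ₁ : GL (Fin 2) ℝ) * (γ₂ : GL (Fin 2) ℝ) := by
  simp only [map_mul]

theorem coe_GL_one : ((1 : SL(2, ℤ)) : GL (Fin 2) ℝ) = 1 := by
  simp only [map_one]

theorem actMer_mul (γ₁ γ₂ : SL(2, ℤ)) (x : Mer) :
    actMer (γ₁ * γ₂) x = actMer γ₂ (actMer γ₁ x) := by
  unfold actMer
  rw [← actMerGL_mul]
  exact actMerGL_congr (coe_GL_mul γ₁ γ₂) _ _ x

@[simp] theorem actMer_one (x : Mer) : actMer 1 x = x := by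
  unfold actMer
  conv_rhs => rw [← actMerGL_one x]
  exact actMerGL_congr coe_GL_one _ _ _

theorem actMer_inv_actMer (γ : SL(2, ℤ)) (x : Mer) : actMer γ⁻¹ (actMer γ x) = x := by
  rw [← actMer_mul, mul_inv_cancel, actMer_one]

theorem actMer_actMer_inv (γ : SL(2, ℤ)) (x : Mer) : actMer γ (actMer γ⁻¹ x) = x := by
  rw [← actMer_mul, inv_mul_cancel, actMer_one]

theorem merOrd_actMer (γ : SL(2, ℤ)) {x : Mer} (hx : x ≠ 0) (τ₀ : ℍ) :
    merOrd τ₀ (actMer γ x) = merOrd (γ • τ₀) x :=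
  merOrd_actMerGL (det_SL_pos γ) hx τ₀

/-- `actMer γ` as a ring automorphism. -/
def actMerEquiv (γ : SL(2, ℤ)) : Mer ≃+* Mer :=
  RingEquiv.ofRingHom (actMer γ) (actMer γ⁻¹)
    (RingHom.ext fun x => actMer_actMer_inv γ x) (RingHom.ext fun x => actMer_inv_actMer γ x)

@[simp] theorem actMerEquiv_apply (γ : SL(2, ℤ)) (x : Mer) : actMerEquiv γ x = actMer γ x := rfl

/-! ### the automorphy factor -/

/-- `τ ↦ (cτ + d)^k` as a holomorphic function. -/
def denomPowHol (g : GL (Fin 2) ℝ) (k : ℤ) : Hol :=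
  ⟨fun τ => denom g τ ^ k, mdifferentiable_denom_zpow g k⟩

@[simp] theorem denomPowHol_apply (g : GL (Fin 2) ℝ) (k : ℤ) (τ : ℍ) :
    (denomPowHol g k : ℍ → ℂ) τ = denom g τ ^ k := rfl

theorem denomPowHol_ne_zero (g : GL (Fin 2) ℝ) (k : ℤ) : denomPowHol g k ≠ 0 := by
  intro h
  have := congrArg (fun f : Hol => (f : ℍ → ℂ) UpperHalfPlane.I) h
  simp only [denomPowHol_apply, ZeroMemClass.coe_zero, Pi.zero_apply] at this
  exact zpow_ne_zero k (denom_ne_zero g _) this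

/-- Quotients of two functions with the same automorphy factor and characters `c`, `1` transform
by the constant `c`. -/
theorem actMer_div_of_automorphy (γ : SL(2, ℤ)) (k : ℤ) (c : ℂ) {A B : Hol} (hB : B ≠ 0)
    (hA : ∀ τ : ℍ, (A : ℍ → ℂ) (γ • τ) = c * denom (γ : GL (Fin 2) ℝ) τ ^ k * (A : ℍ → ℂ) τ)
    (hB' : ∀ τ : ℍ, (B : ℍ → ℂ) (γ • τ) = denom (γ : GL (Fin 2) ℝ) τ ^ k * (B : ℍ → ℂ) τ) :
    actMer γ (algebraMap Hol Mer A / algebraMap Hol Mer B)
      = constMer c * (algebraMap Hol Mer A / algebraMap Hol Mer B) := by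
  have h1 : compHol γ A = constHol c * denomPowHol (γ : GL (Fin 2) ℝ) k * A := by
    apply Subtype.ext
    funext τ
    exact hA τ
  have h2 : compHol γ B = denomPowHol (γ : GL (Fin 2) ℝ) k * B := by
    apply Subtype.ext
    funext τ
    exact hB' τ
  have hD : algebraMap Hol Mer (denomPowHol (γ : GL (Fin 2) ℝ) k) ≠ 0 :=
    (map_ne_zero_iff _ (IsFractionRing.injective Hol Mer)).mpr (denomPowHol_ne_zero _ k)
  have hB0 : algebraMap Hol Mer B ≠ 0 :=
    (map_ne_zero_iff _ (IsFractionRing.injective Hol Mer)).mpr hB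
  rw [actMer_div, h1, h2, map_mul, map_mul, map_mul, constMer_apply]
  field_simp

end Fermat.Agent.S29.H85
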