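/-
S29 / P10: bridges between the parallel vocabularies for "precomposition on `Mer`":
`H65.actGL` (`GL(2,ℝ)⁺` as a subgroup), `H85.actMerGL g hg` / `H85.actMer γ`, `H25.merComp γ`.
All are `IsFractionRing.lift`s of precomposition on `Hol`, hence agree.
-/
import Mathlib
import Fermat.Agent.S29.H65_Gamma0Pos
import Fermat.Agent.S29.H85_MerAct

set_option autoImplicit false

open UpperHalfPlane
open scoped Manifold MatrixGroups

namespace Fermat.Agent.S29.H65

open Fermat.Agent.S24.H81

theorem constHol_eq : H85.constHol = constHol := rfl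

theorem constMer_eq : H85.constMer = constMer := rfl

/-- helper85's `actMerGL g hg` is `actGL ⟨g, _⟩`. -/
theorem actMerGL_eq (g : GL (Fin 2) ℝ) (hg : 0 < g.det.val) (x : Mer) :
    H85.actMerGL g hg x = actGL ⟨g, (Matrix.mem_glpos g).mpr hg⟩ x := by
  have h : H85.actMerGL g hg = actGL ⟨g, (Matrix.mem_glpos g).mpr hg⟩ :=
    IsFractionRing.ringHom_ext (A := Hol) fun a => by
      rw [H85.actMerGL_algebraMap, actGL_algebraMap]
      rfl
  rw [h]

/-- `actGL g` in helper85's vocabulary. -/
theorem actGL_eq_actMerGL (g : GL(2, ℝ)⁺) (x : Mer) :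
    actGL g x = H85.actMerGL (g : GL (Fin 2) ℝ) (glPos_det_pos g) x :=
  (actMerGL_eq _ _ x).symm

/-- helper85's `actMer γ` is `actGL (slp γ)`. -/
theorem actMer_eq (γ : SL(2, ℤ)) (x : Mer) : H85.actMer γ x = actGL (slp γ) x := by
  have h : H85.actMer γ = actGL (slp γ) :=
    IsFractionRing.ringHom_ext (A := Hol) fun a => by
      rw [H85.actMer_algebraMap, actGL_algebraMap]
      rfl
  rw [h]

/-- helper85's `actMer γ` is helper25's `merComp γ`. -/
theorem actMer_eq_merComp (γ : SL(2, ℤ)) (x : Mer) : H85.actMer γ x = H25.merComp γ x := by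
  rw [actMer_eq, actGL_slp]

end Fermat.Agent.S29.H65
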