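/-
helper30 — Stage 3 / E2 (KUMMER-SURJ), analytic core, Mathlib only.

Twisted Eisenstein (Poincaré) series: for a bounded weight function `w` on rows
`v : Fin 2 → ℤ`, `twSum w k z = ∑' v, w v * (v 0 * z + v 1) ^ (-k)`.
-/
import Mathlib

set_option autoImplicit false

noncomputable section

open UpperHalfPlane EisensteinSeries Matrix ModularForm Filter Complex Manifold
open scoped MatrixGroups Topology

namespace Fermat.Agent.S29.H30

/-- The twisted Eisenstein sum attached to a weight function on rows. -/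
def twSum (w : (Fin 2 → ℤ) → ℂ) (k : ℤ) (z : ℍ) : ℂ :=
  ∑' v : Fin 2 → ℤ, w v * eisSummand k v z

/-- `w` is bounded by one. -/
def RowBdd (w : (Fin 2 → ℤ) → ℂ) : Prop := ∀ v, ‖w v‖ ≤ 1

theorem norm_term_le {w : (Fin 2 → ℤ) → ℂ} (hw : RowBdd w) (k : ℤ) (v : Fin 2 → ℤ) (z : ℍ) :
    ‖w v * eisSummand k v z‖ ≤ ‖eisSummand k v z‖ := by
  rw [norm_mul]
  exact mul_le_of_le_one_left (norm_nonneg _) (hw v)

theorem summable_norm_term {w : (Fin 2 → ℤ) → ℂ} (hw : RowBdd w) {k : ℤ} (hk : 3 ≤ k) (z : ℍ) :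
    Summable fun v : Fin 2 → ℤ => ‖w v * eisSummand k v z‖ :=
  (summable_norm_eisSummand hk z).of_nonneg_of_le (fun _ => norm_nonneg _)
    (fun v => norm_term_le hw k v z)

theorem summable_term {w : (Fin 2 → ℤ) → ℂ} (hw : RowBdd w) {k : ℤ} (hk : 3 ≤ k) (z : ℍ) :
    Summable fun v : Fin 2 → ℤ => w v * eisSummand k v z :=
  (summable_norm_term hw hk z).of_norm

theorem norm_twSum_le {w : (Fin 2 → ℤ) → ℂ} (hw : RowBdd w) {k : ℤ} (hk : 3 ≤ k) (z : ℍ) :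
    ‖twSum w k z‖ ≤ ∑' v : Fin 2 → ℤ, ‖eisSummand k v z‖ := by
  refine (norm_tsum_le_tsum_norm (summable_norm_term hw hk z)).trans ?_
  exact (summable_norm_term hw hk z).tsum_le_tsum (fun v => norm_term_le hw k v z)
    (summable_norm_eisSummand hk z)

theorem coe_mul_coe_inv (A : SL(2, ℤ)) : (A : Matrix (Fin 2) (Fin 2) ℤ) *
    ((A⁻¹ : SL(2, ℤ)) : Matrix (Fin 2) (Fin 2) ℤ) = 1 := by
  rw [← Matrix.SpecialLinearGroup.coe_mul, mul_inv_cancel, Matrix.SpecialLinearGroup.coe_one]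

theorem coe_inv_mul_coe (A : SL(2, ℤ)) : ((A⁻¹ : SL(2, ℤ)) : Matrix (Fin 2) (Fin 2) ℤ) *
    (A : Matrix (Fin 2) (Fin 2) ℤ) = 1 := by
  rw [← Matrix.SpecialLinearGroup.coe_mul, inv_mul_cancel, Matrix.SpecialLinearGroup.coe_one]

theorem vecMul_mul_inv (A : SL(2, ℤ)) (v : Fin 2 → ℤ) :
    v ᵥ* (↑A : Matrix (Fin 2) (Fin 2) ℤ) ᵥ* (↑(A⁻¹) : Matrix (Fin 2) (Fin 2) ℤ) = v := by
  rw [vecMul_vecMul, coe_mul_coe_inv, vecMul_one]

theorem vecMul_inv_mul (A : SL(2, ℤ)) (v : Fin 2 → ℤ) :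
    v ᵥ* (↑(A⁻¹) : Matrix (Fin 2) (Fin 2) ℤ) ᵥ* (↑A : Matrix (Fin 2) (Fin 2) ℤ) = v := by
  rw [vecMul_vecMul, coe_inv_mul_coe, vecMul_one]

/-- Right multiplication of rows by `A ∈ SL(2,ℤ)` as an equivalence. -/
def rowEquiv (A : SL(2, ℤ)) : (Fin 2 → ℤ) ≃ (Fin 2 → ℤ) where
  toFun v := v ᵥ* (↑A : Matrix (Fin 2) (Fin 2) ℤ)
  invFun v := v ᵥ* (↑(A⁻¹) : Matrix (Fin 2) (Fin 2) ℤ)
  left_inv v := vecMul_mul_inv A v
  right_inv v := vecMul_inv_mul A v

@[simp] theorem rowEquiv_apply (A : SL(2, ℤ)) (v : Fin 2 → ℤ) : rowEquiv A v = v ᵥ* (↑A : Matrix (Fin 2) (Fin 2) ℤ) := rfl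
@[simp] theorem rowEquiv_symm_apply (A : SL(2, ℤ)) (v : Fin 2 → ℤ) :
    (rowEquiv A).symm v = v ᵥ* (↑(A⁻¹) : Matrix (Fin 2) (Fin 2) ℤ) := rfl

/-- The basic transformation law: acting by `A` on `z` twists the weight function by `A⁻¹`. -/
theorem twSum_smul (w : (Fin 2 → ℤ) → ℂ) (k : ℤ) (A : SL(2, ℤ)) (z : ℍ) :
    twSum w k (A • z) = denom A z ^ k * twSum (fun v => w (v ᵥ* (↑(A⁻¹) : Matrix (Fin 2) (Fin 2) ℤ))) k z := by
  unfold twSum
  rw [← tsum_mul_left, ← (rowEquiv A).symm.tsum_eq]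
  refine tsum_congr fun v => ?_
  rw [rowEquiv_symm_apply, eisSummand_SL2_apply, vecMul_inv_mul]
  ring

theorem rowBdd_comp {w : (Fin 2 → ℤ) → ℂ} (hw : RowBdd w) (A : SL(2, ℤ)) :
    RowBdd (fun v => w (v ᵥ* (↑A : Matrix (Fin 2) (Fin 2) ℤ))) := fun _ => hw _

/-- Slash form of the transformation law. -/
theorem twSum_slash (w : (Fin 2 → ℤ) → ℂ) (k : ℤ) (A : SL(2, ℤ)) :
    (twSum w k) ∣[k] A = twSum (fun v => w (v ᵥ* (↑(A⁻¹) : Matrix (Fin 2) (Fin 2) ℤ))) k := by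
  ext z
  rw [SL_slash_apply, twSum_smul, mul_comm, ← mul_assoc, ← zpow_add₀ (denom_ne_zero A z),
    neg_add_cancel, zpow_zero, one_mul]

/-! ### Holomorphy -/

theorem twSum_tendstoLocallyUniformly {w : (Fin 2 → ℤ) → ℂ} (hw : RowBdd w) {k : ℤ}
    (hk : 3 ≤ k) :
    TendstoLocallyUniformly
      (fun (s : Finset (Fin 2 → ℤ)) => (fun z : ℍ => ∑ v ∈ s, w v * eisSummand k v z))
      (twSum w k) atTop := by
  have hk' : (2 : ℝ) < k := by norm_cast
  have p_sum : Summable fun x : Fin 2 → ℤ => ‖x‖ ^ (-k) :=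
    mod_cast (summable_one_div_norm_rpow hk')
  rw [tendstoLocallyUniformly_iff_forall_isCompact]
  intro K hK
  obtain ⟨A, B, hB, HABK⟩ := subset_verticalStrip_of_isCompact hK
  refine (tendstoUniformlyOn_tsum (hu := p_sum.mul_left <| r ⟨⟨A, B⟩, hB⟩ ^ (-k : ℝ))
    (fun p z hz => ?_)).mono HABK
  refine (norm_term_le hw k p z).trans ?_
  simpa only [eisSummand, one_div, ← _root_.zpow_neg, norm_zpow, ← Real.rpow_intCast,
    Int.cast_neg] using summand_bound_of_mem_verticalStrip (by positivity) p hB hz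

theorem twSum_tendstoLocallyUniformlyOn {w : (Fin 2 → ℤ) → ℂ} (hw : RowBdd w) {k : ℤ}
    (hk : 3 ≤ k) :
    TendstoLocallyUniformlyOn
      (fun (s : Finset (Fin 2 → ℤ)) => ↑ₕ(fun z : ℍ => ∑ v ∈ s, w v * eisSummand k v z))
      (↑ₕ(twSum w k)) atTop {z : ℂ | 0 < z.im} := by
  rw [← upperHalfPlaneSet, ← range_coe, ← Set.image_univ]
  apply TendstoLocallyUniformlyOn.comp (s := ⊤) _ _ _ (OpenPartialHomeomorph.continuousOn_symm _)
  · simp only [Set.top_eq_univ, tendstoLocallyUniformlyOn_univ]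
    exact twSum_tendstoLocallyUniformly hw hk
  · simp only [Topology.IsOpenEmbedding.toOpenPartialHomeomorph_target, Set.top_eq_univ,
      Set.mapsTo_range_iff, Set.mem_univ, forall_const]

theorem term_extension_differentiableOn (w : (Fin 2 → ℤ) → ℂ) (k : ℤ) (v : Fin 2 → ℤ) :
    DifferentiableOn ℂ (↑ₕ(fun z : ℍ => w v * eisSummand k v z)) {z : ℂ | 0 < z.im} := by
  have h := (eisSummand_extension_differentiableOn k v).const_mul (w v)
  refine h.congr fun z _ => ?_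
  simp

/-- The twisted Eisenstein sum is holomorphic on the upper half plane. -/
theorem twSum_mdifferentiable {w : (Fin 2 → ℤ) → ℂ} (hw : RowBdd w) {k : ℤ} (hk : 3 ≤ k) :
    MDiff (twSum w k) := by
  intro τ
  suffices DifferentiableAt ℂ (↑ₕ(twSum w k)) τ.1 by
    convert!
      MDifferentiableAt.comp τ (DifferentiableAt.mdifferentiableAt this) τ.mdifferentiable_coe
    exact funext fun z => (comp_ofComplex (twSum w k) z).symm
  refine DifferentiableOn.differentiableAt ?_ (isOpen_upperHalfPlaneSet.mem_nhds τ.2)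
  refine (twSum_tendstoLocallyUniformlyOn hw hk).differentiableOn
    (Eventually.of_forall fun s => ?_) isOpen_upperHalfPlaneSet
  have : (↑ₕ(fun z : ℍ => ∑ v ∈ s, w v * eisSummand k v z)) =
      fun z : ℂ => ∑ v ∈ s, (↑ₕ(fun z : ℍ => w v * eisSummand k v z)) z := by
    funext z
    simp
  rw [this]
  exact DifferentiableOn.fun_sum fun v _ => term_extension_differentiableOn w k v

/-! ### Boundedness at the cusps -/

theorem denom_T_zpow (n : ℤ) (z : ℍ) : denom ((ModularGroup.T ^ n : SL(2, ℤ))) z = 1 := by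
  rw [ModularGroup.denom_apply, ModularGroup.coe_T_zpow]
  simp

/-- Moving the argument by a translation only changes the weight function. -/
theorem twSum_T_zpow_smul (w : (Fin 2 → ℤ) → ℂ) (k : ℤ) (n : ℤ) (z : ℍ) :
    twSum w k z =
      twSum (fun v => w (v ᵥ* (↑(ModularGroup.T ^ n) : Matrix (Fin 2) (Fin 2) ℤ))) k
        (ModularGroup.T ^ n • z) := by
  rw [twSum_smul, denom_T_zpow, _root_.one_zpow, one_mul]
  congr 1
  funext v
  rw [vecMul_inv_mul]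

/-- The uniform constant bounding all twisted sums of weight `k` on `{2 ≤ Im z}`. -/
def cuspBound (k : ℤ) : ℝ :=
  ∑' x : Fin 2 → ℤ, r ⟨⟨1, 2⟩, two_pos⟩ ^ (-k) * ‖x‖ ^ (-k)

theorem norm_twSum_le_cuspBound {w : (Fin 2 → ℤ) → ℂ} (hw : RowBdd w) {k : ℤ} (hk : 3 ≤ k)
    (z : ℍ) (hz : 2 ≤ z.im) : ‖twSum w k z‖ ≤ cuspBound k := by
  obtain ⟨n, hn⟩ := ModularGroup_T_zpow_mem_verticalStrip z (N := 1) one_pos
  simp only [Nat.cast_one, one_mul] at hn
  rw [twSum_T_zpow_smul w k n z]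
  refine (norm_twSum_le (rowBdd_comp hw _) hk _).trans ?_
  have hk' : (2 : ℝ) < k := by norm_cast
  refine (summable_norm_eisSummand hk _).tsum_le_tsum ?_ ?_
  · intro x
    simp_rw [eisSummand, norm_zpow]
    exact_mod_cast
      summand_bound_of_mem_verticalStrip (lt_trans two_pos hk').le x two_pos
        (verticalStrip_anti_right 1 hz hn)
  · exact_mod_cast (summable_one_div_norm_rpow hk').mul_left <| r ⟨⟨1, 2⟩, two_pos⟩ ^ (-k)

theorem isBoundedAtImInfty_twSum {w : (Fin 2 → ℤ) → ℂ} (hw : RowBdd w) {k : ℤ} (hk : 3 ≤ k) :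
    IsBoundedAtImInfty (twSum w k) := by
  rw [UpperHalfPlane.isBoundedAtImInfty_iff]
  exact ⟨cuspBound k, 2, fun z hz => norm_twSum_le_cuspBound hw hk z hz⟩

/-- Bounded at every cusp. -/
theorem isBoundedAtImInfty_twSum_slash {w : (Fin 2 → ℤ) → ℂ} (hw : RowBdd w) {k : ℤ}
    (hk : 3 ≤ k) (A : SL(2, ℤ)) : IsBoundedAtImInfty ((twSum w k) ∣[k] A) := by
  rw [twSum_slash]
  exact isBoundedAtImInfty_twSum (rowBdd_comp hw _) hk

/-! ### Non-vanishing for large even weight -/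

/-- The weight-three majorant. -/
def G3 (z : ℍ) : ℝ := ∑' v : Fin 2 → ℤ, ‖eisSummand 3 v z‖

theorem G3_nonneg (z : ℍ) : 0 ≤ G3 z := tsum_nonneg fun _ => norm_nonneg _

/-- A weight function is *normalised at the cusp* if it is `1` on the row `(0,1)` and a
nonnegative real on every row `(0,d)`. -/
structure CuspNormalised (w : (Fin 2 → ℤ) → ℂ) : Prop where
  bdd : RowBdd w
  one : w ![0, 1] = 1
  real : ∀ v : Fin 2 → ℤ, v 0 = 0 → ∃ t : ℝ, 0 ≤ t ∧ w v = (t : ℂ)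

theorem norm_eisSummand_le_of_two_le {k : ℤ} (hk : 3 ≤ k) (v : Fin 2 → ℤ) (z : ℍ)
    (h2 : 2 ≤ ‖(v 0 : ℂ) * z + v 1‖) :
    ‖eisSummand k v z‖ ≤ (2 : ℝ) ^ (3 - k) * ‖eisSummand 3 v z‖ := by
  simp only [eisSummand, norm_zpow]
  set x : ℝ := ‖(v 0 : ℂ) * z + v 1‖ with hx
  have hx0 : 0 < x := lt_of_lt_of_le two_pos h2
  have h1 : x ^ (-k) = x ^ (3 - k) * x ^ (-3 : ℤ) := by
    rw [← zpow_add₀ hx0.ne']
    congr 1
    ring
  rw [h1]
  refine mul_le_mul_of_nonneg_right ?_ (zpow_nonneg hx0.le _)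
  have hk' : 3 - k ≤ 0 := by omega
  obtain ⟨m, hm⟩ : ∃ m : ℕ, 3 - k = -(m : ℤ) := ⟨(k - 3).toNat, by omega⟩
  rw [hm, _root_.zpow_neg, _root_.zpow_neg, zpow_natCast, zpow_natCast]
  exact inv_anti₀ (by positivity) (pow_le_pow_left₀ (by norm_num) h2 m)

theorem re_term_ge {w : (Fin 2 → ℤ) → ℂ} (hw : CuspNormalised w) {k : ℤ} (hk : 3 ≤ k)
    (hkev : Even k) (z : ℍ) (hz : ∀ v : Fin 2 → ℤ, v 0 ≠ 0 → 2 ≤ ‖(v 0 : ℂ) * z + v 1‖)
    (v : Fin 2 → ℤ) :
    (if v = ![0, 1] then (1 : ℝ) else 0) - (2 : ℝ) ^ (3 - k) * ‖eisSummand 3 v z‖ ≤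
      (w v * eisSummand k v z).re := by
  have hpos : 0 ≤ (2 : ℝ) ^ (3 - k) * ‖eisSummand 3 v z‖ :=
    mul_nonneg (zpow_nonneg (by norm_num) _) (norm_nonneg _)
  by_cases h0 : v 0 = 0
  · obtain ⟨t, ht0, ht⟩ := hw.real v h0
    have hterm : w v * eisSummand k v z = ((t * ((v 1 : ℝ) ^ (-k)) : ℝ) : ℂ) := by
      rw [ht, eisSummand, h0]
      push_cast
      simp
    have hvk : 0 ≤ ((v 1 : ℝ)) ^ (-k) := by
      have : Even (-k) := hkev.neg
      exact this.zpow_nonneg _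
    by_cases hv : v = ![0, 1]
    · subst hv
      have h1 : eisSummand k ![0, 1] z = 1 := by
        simp [eisSummand]
      rw [if_pos rfl, hw.one, h1, one_mul, Complex.one_re]
      linarith
    · rw [if_neg hv, hterm, Complex.ofReal_re]
      have : 0 ≤ t * (v 1 : ℝ) ^ (-k) := mul_nonneg ht0 hvk
      linarith
  · have hv : v ≠ ![0, 1] := by
      rintro rfl
      exact h0 rfl
    rw [if_neg hv, zero_sub]
    have h1 : ‖w v * eisSummand k v z‖ ≤ (2 : ℝ) ^ (3 - k) * ‖eisSummand 3 v z‖ :=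
      (norm_term_le hw.bdd k v z).trans (norm_eisSummand_le_of_two_le hk v z (hz v h0))
    have h2 := Complex.abs_re_le_norm (w v * eisSummand k v z)
    have h3 := neg_abs_le (w v * eisSummand k v z).re
    linarith

theorem summable_G3_term (z : ℍ) : Summable fun v : Fin 2 → ℤ => ‖eisSummand 3 v z‖ :=
  summable_norm_eisSummand (le_refl 3) z

/-- Lower bound for the real part. -/
theorem re_twSum_ge {w : (Fin 2 → ℤ) → ℂ} (hw : CuspNormalised w) {k : ℤ} (hk : 3 ≤ k)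
    (hkev : Even k) (z : ℍ) (hz : ∀ v : Fin 2 → ℤ, v 0 ≠ 0 → 2 ≤ ‖(v 0 : ℂ) * z + v 1‖) :
    1 - (2 : ℝ) ^ (3 - k) * G3 z ≤ (twSum w k z).re := by
  have hsum := summable_term hw.bdd hk z
  rw [twSum, Complex.re_tsum hsum]
  have hs1 : Summable fun v : Fin 2 → ℤ => (if v = ![0, 1] then (1 : ℝ) else 0) :=
    (hasSum_ite_eq (![0, 1] : Fin 2 → ℤ) (1 : ℝ)).summable
  have hs2 : Summable fun v : Fin 2 → ℤ => (2 : ℝ) ^ (3 - k) * ‖eisSummand 3 v z‖ :=
    (summable_G3_term z).mul_left _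
  have hlhs : 1 - (2 : ℝ) ^ (3 - k) * G3 z =
      ∑' v : Fin 2 → ℤ, ((if v = ![0, 1] then (1 : ℝ) else 0) -
        (2 : ℝ) ^ (3 - k) * ‖eisSummand 3 v z‖) := by
    rw [Summable.tsum_sub hs1 hs2, tsum_ite_eq, tsum_mul_left, G3]
  rw [hlhs]
  refine (hs1.sub hs2).tsum_le_tsum (fun v => re_term_ge hw hk hkev z hz v) ?_
  exact (Complex.hasSum_re hsum.hasSum).summable

/-- The base point `2i`. -/
def twoI : ℍ := ⟨2 * Complex.I, by simp⟩

@[simp] theorem coe_twoI : (twoI : ℂ) = 2 * Complex.I := rfl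

theorem two_le_norm_twoI (v : Fin 2 → ℤ) (h : v 0 ≠ 0) :
    2 ≤ ‖(v 0 : ℂ) * (twoI : ℂ) + v 1‖ := by
  refine le_trans ?_ (Complex.abs_im_le_norm _)
  have him : ((v 0 : ℂ) * (twoI : ℂ) + v 1).im = 2 * (v 0 : ℝ) := by
    simp [mul_comm]
  rw [him, abs_mul, abs_two]
  have h1 : (1 : ℝ) ≤ |(v 0 : ℝ)| := by
    have : (1 : ℤ) ≤ |v 0| := Int.one_le_abs h
    exact_mod_cast this
  linarith

/-- For all sufficiently large even weights, every cusp-normalised twisted Eisenstein sum is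
nonzero at `2i` (with a threshold independent of the weight function). -/
theorem exists_weight_bound :
    ∃ k0 : ℤ, 3 ≤ k0 ∧ ∀ k : ℤ, k0 ≤ k → Even k →
      ∀ w : (Fin 2 → ℤ) → ℂ, CuspNormalised w → twSum w k twoI ≠ 0 := by
  obtain ⟨m, hm⟩ := exists_nat_gt (G3 twoI)
  have hm2 : G3 twoI < (2 : ℝ) ^ m := by
    refine hm.trans ?_
    exact_mod_cast (Nat.lt_two_pow_self : m < 2 ^ m)
  refine ⟨(m : ℤ) + 4, by omega, fun k hk hkev w hw => ?_⟩
  have hk3 : 3 ≤ k := by omega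
  have hre := re_twSum_ge hw hk3 hkev twoI two_le_norm_twoI
  have hpow : (2 : ℝ) ^ (3 - k) ≤ (2 : ℝ) ^ (-((m : ℤ) + 1)) :=
    zpow_le_zpow_right₀ (by norm_num) (by omega)
  have hprod : (2 : ℝ) ^ (3 - k) * G3 twoI ≤ 1 / 2 := by
    calc (2 : ℝ) ^ (3 - k) * G3 twoI ≤ (2 : ℝ) ^ (-((m : ℤ) + 1)) * (2 : ℝ) ^ m :=
          mul_le_mul hpow hm2.le (G3_nonneg _) (zpow_nonneg (by norm_num) _)
      _ = 1 / 2 := by
          rw [← zpow_natCast (2 : ℝ) m, ← zpow_add₀ (by norm_num : (2 : ℝ) ≠ 0)]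
          have : -((m : ℤ) + 1) + (m : ℤ) = -1 := by ring
          rw [this]
          norm_num
  intro h0
  rw [h0, Complex.zero_re] at hre
  linarith

/-! ### The weight function of a character -/

/-- The bottom row of a matrix in `SL(2,ℤ)`. -/
def botRow (γ : SL(2, ℤ)) : Fin 2 → ℤ := fun j => (γ : Matrix (Fin 2) (Fin 2) ℤ) 1 j

theorem botRow_mul (γ g : SL(2, ℤ)) :
    botRow (γ * g) = botRow γ ᵥ* (g : Matrix (Fin 2) (Fin 2) ℤ) := by
  funext j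
  simp only [botRow, Matrix.SpecialLinearGroup.coe_mul, Matrix.mul_apply, Matrix.vecMul,
    dotProduct]

theorem botRow_one : botRow 1 = ![0, 1] := by
  funext j
  fin_cases j <;> simp [botRow]

section Character

variable (Γ : Subgroup SL(2, ℤ)) (χ : Γ →* ℂˣ)

/-- `χ` is trivial on the upper triangular elements of `Γ` (`±Tⁿ`). -/
def TrivialOnTriangular : Prop := ∀ γ : Γ, (γ : SL(2, ℤ)) 1 0 = 0 → χ γ = 1

/-- `χ` is unitary. -/
def IsUnitary : Prop := ∀ γ : Γ, ‖((χ γ : ℂˣ) : ℂ)‖ = 1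

variable {Γ χ}

theorem chi_eq_of_botRow_eq (hT : TrivialOnTriangular Γ χ) {γ₁ γ₂ : Γ}
    (h : botRow (γ₁ : SL(2, ℤ)) = botRow (γ₂ : SL(2, ℤ))) : χ γ₁ = χ γ₂ := by
  have h1 : botRow ((γ₁ * γ₂⁻¹ : Γ) : SL(2, ℤ)) = ![0, 1] := by
    rw [Subgroup.coe_mul, Subgroup.coe_inv, botRow_mul, h, ← botRow_mul, mul_inv_cancel,
      botRow_one]
  have h2 : ((γ₁ * γ₂⁻¹ : Γ) : SL(2, ℤ)) 1 0 = 0 := by
    have := congrFun h1 0
    simpa [botRow] using this
  have h3 := hT _ h2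
  rw [map_mul, map_inv, mul_inv_eq_one] at h3
  exact h3

open Classical in
variable (Γ χ) in
/-- The weight function on rows attached to `χ`: `χ(γ)⁻¹` on the bottom row of `γ ∈ Γ`, zero on
rows which are not bottom rows of elements of `Γ`. -/
def chiRow (v : Fin 2 → ℤ) : ℂ :=
  if h : ∃ γ : Γ, botRow (γ : SL(2, ℤ)) = v then (((χ h.choose)⁻¹ : ℂˣ) : ℂ) else 0

theorem chiRow_botRow (hT : TrivialOnTriangular Γ χ) (γ : Γ) :
    chiRow Γ χ (botRow (γ : SL(2, ℤ))) = (((χ γ)⁻¹ : ℂˣ) : ℂ) := by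
  have h : ∃ γ' : Γ, botRow (γ' : SL(2, ℤ)) = botRow (γ : SL(2, ℤ)) := ⟨γ, rfl⟩
  rw [chiRow, dif_pos h, chi_eq_of_botRow_eq hT h.choose_spec]

theorem chiRow_of_not_exists {v : Fin 2 → ℤ} (h : ¬ ∃ γ : Γ, botRow (γ : SL(2, ℤ)) = v) :
    chiRow Γ χ v = 0 := by
  rw [chiRow, dif_neg h]

theorem rowBdd_chiRow (hU : IsUnitary Γ χ) : RowBdd (chiRow Γ χ) := by
  intro v
  classical
  by_cases h : ∃ γ : Γ, botRow (γ : SL(2, ℤ)) = v
  · rw [chiRow, dif_pos h, Units.val_inv_eq_inv_val, norm_inv, hU, inv_one]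
  · rw [chiRow_of_not_exists h, norm_zero]
    exact zero_le_one

/-- Equivariance of the weight function. -/
theorem chiRow_vecMul_inv (hT : TrivialOnTriangular Γ χ) (g : Γ) (v : Fin 2 → ℤ) :
    chiRow Γ χ (v ᵥ* (↑((g : SL(2, ℤ))⁻¹) : Matrix (Fin 2) (Fin 2) ℤ)) =
      ((χ g : ℂˣ) : ℂ) * chiRow Γ χ v := by
  classical
  by_cases h : ∃ γ : Γ, botRow (γ : SL(2, ℤ)) = v
  · obtain ⟨γ, rfl⟩ := h
    have h1 : botRow (γ : SL(2, ℤ)) ᵥ* (↑((g : SL(2, ℤ))⁻¹) : Matrix (Fin 2) (Fin 2) ℤ) =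
        botRow ((γ * g⁻¹ : Γ) : SL(2, ℤ)) := by
      rw [Subgroup.coe_mul, Subgroup.coe_inv, botRow_mul]
    rw [h1, chiRow_botRow hT, chiRow_botRow hT, map_mul, map_inv, _root_.mul_inv_rev, inv_inv]
    push_cast
    ring
  · have h' : ¬ ∃ γ : Γ, botRow (γ : SL(2, ℤ)) =
        v ᵥ* (↑((g : SL(2, ℤ))⁻¹) : Matrix (Fin 2) (Fin 2) ℤ) := by
      rintro ⟨γ, hγ⟩
      apply h
      refine ⟨γ * g, ?_⟩
      rw [Subgroup.coe_mul, botRow_mul, hγ, vecMul_inv_mul]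
    rw [chiRow_of_not_exists h, chiRow_of_not_exists h', mul_zero]

theorem cuspNormalised_chiRow (hT : TrivialOnTriangular Γ χ) (hU : IsUnitary Γ χ) :
    CuspNormalised (chiRow Γ χ) where
  bdd := rowBdd_chiRow hU
  one := by
    have := chiRow_botRow hT (1 : Γ)
    rwa [Subgroup.coe_one, botRow_one, map_one, inv_one, Units.val_one] at this
  real := by
    intro v hv
    classical
    by_cases h : ∃ γ : Γ, botRow (γ : SL(2, ℤ)) = v
    · obtain ⟨γ, rfl⟩ := h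
      refine ⟨1, zero_le_one, ?_⟩
      have hγ : (γ : SL(2, ℤ)) 1 0 = 0 := by simpa [botRow] using hv
      rw [chiRow_botRow hT, hT γ hγ, inv_one, Units.val_one, Complex.ofReal_one]
    · exact ⟨0, le_refl 0, by rw [chiRow_of_not_exists h, Complex.ofReal_zero]⟩

variable (Γ χ) in
/-- The twisted Eisenstein series of weight `k` and character `χ` on `Γ`. -/
def twEis (k : ℤ) (z : ℍ) : ℂ := twSum (chiRow Γ χ) k z

/-- **Automorphy**: `twEis` has weight `k` and character `χ` on `Γ`. -/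
theorem twEis_smul (hT : TrivialOnTriangular Γ χ) (k : ℤ) (g : Γ) (z : ℍ) :
    twEis Γ χ k ((g : SL(2, ℤ)) • z) =
      ((χ g : ℂˣ) : ℂ) * denom (g : SL(2, ℤ)) z ^ k * twEis Γ χ k z := by
  rw [twEis, twSum_smul]
  have : (fun v => chiRow Γ χ (v ᵥ* (↑((g : SL(2, ℤ))⁻¹) : Matrix (Fin 2) (Fin 2) ℤ))) =
      fun v => ((χ g : ℂˣ) : ℂ) * chiRow Γ χ v := funext fun v => chiRow_vecMul_inv hT g v
  rw [this]
  unfold twSum
  simp_rw [mul_assoc]
  rw [tsum_mul_left]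
  ring_nf
  rfl

theorem twEis_mdifferentiable (hU : IsUnitary Γ χ) {k : ℤ} (hk : 3 ≤ k) :
    MDiff (twEis Γ χ k) :=
  twSum_mdifferentiable (rowBdd_chiRow hU) hk

theorem isBoundedAtImInfty_twEis_slash (hU : IsUnitary Γ χ) {k : ℤ} (hk : 3 ≤ k)
    (A : SL(2, ℤ)) : IsBoundedAtImInfty ((twEis Γ χ k) ∣[k] A) :=
  isBoundedAtImInfty_twSum_slash (rowBdd_chiRow hU) hk A

end Character

/-- One weight works for all unitary characters trivial on triangular elements, on every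
subgroup simultaneously: `twEis Γ χ k (2i) ≠ 0`. -/
theorem exists_weight_twEis_ne_zero :
    ∃ k0 : ℤ, 3 ≤ k0 ∧ ∀ k : ℤ, k0 ≤ k → Even k →
      ∀ (Γ : Subgroup SL(2, ℤ)) (χ : Γ →* ℂˣ), TrivialOnTriangular Γ χ → IsUnitary Γ χ →
        twEis Γ χ k twoI ≠ 0 := by
  obtain ⟨k0, hk0, h⟩ := exists_weight_bound
  exact ⟨k0, hk0, fun k hk hkev Γ χ hT hU => h k hk hkev _ (cuspNormalised_chiRow hT hU)⟩

/-- An upper triangular element of `SL(2,ℤ)` has trace `±2`. -/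
theorem trace_of_lower_left_zero (γ : SL(2, ℤ)) (h : γ 1 0 = 0) :
    (γ 0 0 + γ 1 1 = 2) ∨ (γ 0 0 + γ 1 1 = -2) := by
  have hdet := Matrix.SpecialLinearGroup.det_coe γ
  rw [Matrix.det_fin_two, h, mul_zero, sub_zero] at hdet
  rcases Int.eq_one_or_neg_one_of_mul_eq_one' hdet with ⟨h1, h2⟩ | ⟨h1, h2⟩
  · left; rw [h1, h2]; norm_num
  · right; rw [h1, h2]; norm_num

/-- `TrivialOnTriangular` follows from triviality on the elements of trace `±2`
(the parabolic elements together with `±1`). -/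
theorem trivialOnTriangular_of_trace {Γ : Subgroup SL(2, ℤ)} {χ : Γ →* ℂˣ}
    (h : ∀ γ : Γ, ((γ : SL(2, ℤ)) 0 0 + (γ : SL(2, ℤ)) 1 1 = 2 ∨
      (γ : SL(2, ℤ)) 0 0 + (γ : SL(2, ℤ)) 1 1 = -2) → χ γ = 1) :
    TrivialOnTriangular Γ χ :=
  fun γ hγ => h γ (trace_of_lower_left_zero _ hγ)

/-- **Consumer form (P2 of the Stage-3 blueprint).** There is ONE even weight `k ≥ 4` such that
for every subgroup `Γ ≤ SL(2,ℤ)` and every unitary character `χ` of `Γ` which is trivial on the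
upper triangular elements there is a holomorphic `A : ℍ → ℂ` with
`A (γ • z) = χ γ * (c z + d) ^ k * A z` on `Γ`, `A (2i) ≠ 0`, bounded at every cusp.
(Take `χ = 1` for the denominator; the same `k` works.) -/
theorem exists_poincare_series :
    ∃ k : ℤ, 4 ≤ k ∧ Even k ∧
      ∀ (Γ : Subgroup SL(2, ℤ)) (χ : Γ →* ℂˣ), TrivialOnTriangular Γ χ → IsUnitary Γ χ →
        ∃ A : ℍ → ℂ, MDiff A ∧
          (∀ (γ : Γ) (z : ℍ), A ((γ : SL(2, ℤ)) • z) =
            ((χ γ : ℂˣ) : ℂ) * denom (γ : SL(2, ℤ)) z ^ k * A z) ∧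
          A twoI ≠ 0 ∧ ∀ σ : SL(2, ℤ), IsBoundedAtImInfty (A ∣[k] σ) := by
  obtain ⟨k0, hk0, h⟩ := exists_weight_twEis_ne_zero
  obtain ⟨k, hk, hkev⟩ : ∃ k : ℤ, max k0 4 ≤ k ∧ Even k := by
    refine ⟨2 * max k0 4, ?_, even_two_mul _⟩
    have : 0 ≤ max k0 4 := le_trans (by norm_num) (le_max_right k0 4)
    linarith
  have hk4 : 4 ≤ k := le_trans (le_max_right _ _) hk
  have hkk0 : k0 ≤ k := le_trans (le_max_left _ _) hk
  refine ⟨k, hk4, hkev, fun Γ χ hT hU => ⟨twEis Γ χ k, ?_, ?_, ?_, ?_⟩⟩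
  · exact twEis_mdifferentiable hU (by omega)
  · exact fun γ z => twEis_smul hT k γ z
  · exact h k hkk0 hkev Γ χ hT hU
  · exact fun σ => isBoundedAtImInfty_twEis_slash hU (by omega) σ

end Fermat.Agent.S29.H30
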