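/-
S29 / Stage 3: the coefficient bridge `L_N → Hom(Γ₀(N), μ_p)`.

For a `ℤ`-valued homomorphism `φ` of a group `Γ` and an element `ζ` of a commutative group `C`
(in the application `ζ = exp(2πi/p) ∈ ℂˣ`), the character `expChar ζ φ : γ ↦ ζ ^ φ(γ)`.

* `expChar_add`, `expChar_zsmul`, `expChar_pow_eq_one`;
* `expChar_eq_one_iff` : for a primitive `p`-th root of unity, `expChar ζ φ = 1 ↔ p ∣ φ γ ∀ γ`;
* `opMul_expChar` : `opMul D (expChar ζ φ) = expChar ζ (D.op φ)` for every coset datum `D`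
  (helper65's multiplicative operator of `H65_KummerCoset`), so the Kummer map intertwines the
  cohomological Hecke operators `heckeTHom`, `heckeUHom` with their multiplicative versions;
* `expChar_apply_eq_one_of_isOfFinOrder`, `expChar_apply_eq_one_of_trace` : the character kills
  elements of finite order (elliptic elements, `-1`) and, for parabolic `φ`, parabolic elements;
* `mem_pSub_iff_forall_dvd`, `expChar_eq_one_iff_mem_pSub` : on the lattice
  `L = parabolicHoms ℤ Γ ℤ`: `expChar ζ x = 1 ↔ x ∈ p L`;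
* `zetaC p = exp(2πi/p) : ℂˣ`, `norm_expChar_zetaC`.
-/
import Mathlib
import Fermat.Prelude.Def_ModularCurve_PeriodMap
import Fermat.Agent.S29.H65_KummerCoset
import Fermat.Agent.S41.H66_LevelRaisingAlgebra

set_option autoImplicit false

open scoped MatrixGroups

namespace Fermat.Agent.S29.H85

open Fermat.Agent.S41 Fermat.Agent.S41.H85 Fermat.Agent.S29.H65 Fermat.Agent.S29.H65.CosetDatumMul

section general

variable {Γ C : Type*} [Group Γ] [CommGroup C]

/-- The character `γ ↦ ζ ^ φ(γ)`. -/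
def expChar (ζ : C) (φ : Additive Γ →+ ℤ) : Γ →* C where
  toFun γ := ζ ^ φ (Additive.ofMul γ)
  map_one' := by rw [ofMul_one, map_zero, zpow_zero]
  map_mul' a b := by rw [ofMul_mul, map_add, zpow_add]

@[simp] theorem expChar_apply (ζ : C) (φ : Additive Γ →+ ℤ) (γ : Γ) :
    expChar ζ φ γ = ζ ^ φ (Additive.ofMul γ) := rfl

theorem expChar_zero (ζ : C) : expChar ζ (0 : Additive Γ →+ ℤ) = 1 := by
  ext γ; simp

theorem expChar_add (ζ : C) (φ ψ : Additive Γ →+ ℤ) :
    expChar ζ (φ + ψ) = expChar ζ φ * expChar ζ ψ := by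
  ext γ; simp [zpow_add]

theorem expChar_neg (ζ : C) (φ : Additive Γ →+ ℤ) : expChar ζ (-φ) = (expChar ζ φ)⁻¹ := by
  ext γ; simp

theorem expChar_zsmul (ζ : C) (n : ℤ) (φ : Additive Γ →+ ℤ) :
    expChar ζ (n • φ) = expChar ζ φ ^ n := by
  ext γ
  rw [MonoidHom.zpow_apply, expChar_apply, expChar_apply, AddMonoidHom.smul_apply, smul_eq_mul,
    mul_comm, zpow_mul]

theorem expChar_comp {Γ' : Type*} [Group Γ'] (ζ : C) (φ : Additive Γ →+ ℤ) (f : Γ' →* Γ) :
    expChar ζ (φ.comp (MonoidHom.toAdditive f)) = (expChar ζ φ).comp f := by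
  ext γ; rfl

/-- `expChar ζ φ` has exponent `p` if `ζ ^ p = 1`. -/
theorem expChar_pow_eq_one {ζ : C} {p : ℕ} (hζ : ζ ^ p = 1) (φ : Additive Γ →+ ℤ) :
    expChar ζ φ ^ p = 1 := by
  ext γ
  rw [MonoidHom.pow_apply, expChar_apply, MonoidHom.one_apply, ← zpow_natCast, ← zpow_mul,
    mul_comm, zpow_mul, zpow_natCast, hζ, one_zpow]

/-- For a primitive `p`-th root of unity the character is trivial iff `φ` is divisible by `p`. -/
theorem expChar_eq_one_iff {ζ : C} {p : ℕ} (hζ : IsPrimitiveRoot ζ p) (φ : Additive Γ →+ ℤ) :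
    expChar ζ φ = 1 ↔ ∀ γ : Γ, (p : ℤ) ∣ φ (Additive.ofMul γ) := by
  constructor
  · intro h γ
    have := DFunLike.congr_fun h γ
    rwa [expChar_apply, MonoidHom.one_apply, hζ.zpow_eq_one_iff_dvd] at this
  · intro h
    ext γ
    rw [expChar_apply, MonoidHom.one_apply, hζ.zpow_eq_one_iff_dvd]
    exact h γ

/-- The character kills elements of finite order. -/
theorem expChar_apply_eq_one_of_isOfFinOrder (ζ : C) (φ : Additive Γ →+ ℤ) {γ : Γ}
    (hγ : IsOfFinOrder γ) : expChar ζ φ γ = 1 := by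
  obtain ⟨n, hn, hγn⟩ := hγ.exists_pow_eq_one
  have h1 : (n : ℤ) * φ (Additive.ofMul γ) = 0 := by
    have := congrArg (fun g : Γ => φ (Additive.ofMul g)) hγn
    simpa [ofMul_pow, map_nsmul] using this
  have h2 : φ (Additive.ofMul γ) = 0 := by
    rcases mul_eq_zero.mp h1 with h | h
    · exact absurd (by exact_mod_cast h) hn.ne'
    · exact h
  rw [expChar_apply, h2, zpow_zero]

variable {G Γ₁ Γ₂ : Type*} [Group G] [Group Γ₁] [Group Γ₂] {ι₁ : Γ₁ →* G} {ι₂ : Γ₂ →* G}
  {I : Type*} [Fintype I]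

/-- **The Kummer bridge intertwines the coset operators.** -/
theorem opMul_expChar (D : CosetDatum ι₁ ι₂ I) (ζ : C) (φ : Additive Γ₁ →+ ℤ) :
    opMul D (expChar ζ φ) = expChar ζ (D.op φ) := by
  classical
  have key : ∀ (f : I → ℤ) (s : Finset I), ∏ i ∈ s, ζ ^ f i = ζ ^ ∑ i ∈ s, f i := by
    intro f s
    induction s using Finset.induction_on with
    | empty => simp
    | insert a s ha ih => rw [Finset.prod_insert ha, Finset.sum_insert ha, zpow_add, ih]
  ext γ
  rw [opMul_apply, expChar_apply, CosetDatum.op_apply]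
  simp only [expChar_apply]
  exact key _ _

end general

section sl2

variable {Γ : Subgroup SL(2, ℤ)} {C : Type*} [CommGroup C]

open ModularCurve.Period

/-- For a parabolic homomorphism the character kills the parabolic elements. -/
theorem expChar_apply_eq_one_of_trace (ζ : C) {φ : Additive Γ →+ ℤ} (hφ : IsParabolicHom Γ φ)
    {γ : Γ} (hγ : ((γ : SL(2, ℤ)) : Matrix (Fin 2) (Fin 2) ℤ).trace ^ 2 = 4) :
    expChar ζ φ γ = 1 := by
  rw [expChar_apply, hφ γ hγ, zpow_zero]

/-- Divisibility by `p` in the lattice `L = parabolicHoms ℤ Γ ℤ` is pointwise divisibility. -/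
theorem mem_pSub_iff_forall_dvd {p : ℕ} (hp : p ≠ 0) (x : parabolicHoms ℤ Γ ℤ) :
    x ∈ H66.pSub p (parabolicHoms ℤ Γ ℤ) ↔
      ∀ γ : Γ, (p : ℤ) ∣ (x : Additive Γ →+ ℤ) (Additive.ofMul γ) := by
  have hp' : (p : ℤ) ≠ 0 := by exact_mod_cast hp
  constructor
  · intro h γ
    obtain ⟨y, rfl⟩ := H66.mem_pSub.mp h
    exact ⟨(y : Additive Γ →+ ℤ) (Additive.ofMul γ), by
      rw [Submodule.coe_smul, AddMonoidHom.smul_apply, smul_eq_mul]⟩
  · intro h
    -- the quotient homomorphism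
    let y : Additive Γ →+ ℤ :=
      { toFun := fun g => (x : Additive Γ →+ ℤ) g / (p : ℤ)
        map_zero' := by simp
        map_add' := fun a b => by
          obtain ⟨a, rfl⟩ := Additive.ofMul.surjective a
          obtain ⟨b, rfl⟩ := Additive.ofMul.surjective b
          obtain ⟨u, hu⟩ := h a
          obtain ⟨v, hv⟩ := h b
          rw [map_add, hu, hv, ← mul_add, Int.mul_ediv_cancel_left _ hp',
            Int.mul_ediv_cancel_left _ hp', Int.mul_ediv_cancel_left _ hp'] }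
    have hy : ∀ γ : Γ, (p : ℤ) * y (Additive.ofMul γ)
        = (x : Additive Γ →+ ℤ) (Additive.ofMul γ) := fun γ => Int.mul_ediv_cancel' (h γ)
    have hpar : y ∈ parabolicHoms ℤ Γ ℤ := by
      rw [mem_parabolicHoms_iff]
      intro γ hγ
      have hx := (mem_parabolicHoms_iff.mp x.2) γ hγ
      have := hy γ
      rw [hx] at this
      rcases mul_eq_zero.mp this with h0 | h0
      · exact absurd h0 hp'
      · exact h0
    refine H66.mem_pSub.mpr ⟨⟨y, hpar⟩, Subtype.ext ?_⟩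
    refine AddMonoidHom.ext fun g => ?_
    obtain ⟨γ, rfl⟩ := Additive.ofMul.surjective g
    rw [Submodule.coe_smul, AddMonoidHom.smul_apply, smul_eq_mul]
    exact hy γ

/-- **Injectivity of the Kummer bridge modulo `p`.** -/
theorem expChar_eq_one_iff_mem_pSub {ζ : C} {p : ℕ} (hp : p ≠ 0) (hζ : IsPrimitiveRoot ζ p)
    (x : parabolicHoms ℤ Γ ℤ) :
    expChar ζ (x : Additive Γ →+ ℤ) = 1 ↔ x ∈ H66.pSub p (parabolicHoms ℤ Γ ℤ) := by
  rw [expChar_eq_one_iff hζ, mem_pSub_iff_forall_dvd hp]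

end sl2

section complex

open Complex Real

/-- `exp(2πi/p)` as a unit of `ℂ`. -/
noncomputable def zetaC (p : ℕ) : ℂˣ :=
  Units.mk0 (Complex.exp (2 * π * I / p)) (Complex.exp_ne_zero _)

theorem isPrimitiveRoot_zetaC {p : ℕ} (hp : p ≠ 0) : IsPrimitiveRoot (zetaC p) p := by
  have h := Complex.isPrimitiveRoot_exp p hp
  rw [← IsPrimitiveRoot.coe_units_iff]
  exact h

theorem norm_zetaC (p : ℕ) : ‖((zetaC p : ℂˣ) : ℂ)‖ = 1 := by
  show ‖Complex.exp (2 * π * I / p)‖ = 1
  have : (2 * π * I / p : ℂ) = ((2 * π / p : ℝ) : ℂ) * I := by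
    push_cast; ring
  rw [this, Complex.norm_exp_ofReal_mul_I]

theorem norm_expChar_zetaC {Γ : Type*} [Group Γ] (p : ℕ) (φ : Additive Γ →+ ℤ) (γ : Γ) :
    ‖((expChar (zetaC p) φ γ : ℂˣ) : ℂ)‖ = 1 := by
  rw [expChar_apply, Units.val_zpow_eq_zpow_val, norm_zpow, norm_zetaC, one_zpow]

end complex

end Fermat.Agent.S29.H85
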