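/-
S29 / Stage 3, KUMMER-INST (I2): the group of Kummer characters of the lattice
`L = parabolicHoms ℤ Γ ℤ`.

For `n ≥ 1` and `ζ_n = exp(2πi/n)`:
* `charX Γ n : Subgroup (Γ →* ℂˣ)`, the characters `γ ↦ ζ_n ^ x(γ)`, `x ∈ L`;
* `chiLat Γ n : L →+ Additive (charX Γ n)`, surjective, with kernel `n L`
  (`chiLat_eq_zero_iff`, `chiLat_eq_zero_iff_exists`);
* every `χ ∈ charX Γ n` satisfies `χ ^ n = 1`, is unitary, kills the elements of trace `±2`
  (parabolic elements, `±1`), the upper triangular elements and the elements of finite order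
  (elliptic elements).  In particular it is admissible for helper30's twisted Poincaré series
  (`H30.TrivialOnTriangular`, `H30.IsUnitary`).
-/
import Mathlib
import Fermat.Agent.S29.H85_ExpChar
import Fermat.Agent.S29.H30_TwistedEis

set_option autoImplicit false

open scoped MatrixGroups

noncomputable section

namespace Fermat.Agent.S29.H85

open Fermat.Agent.S41 Fermat.Agent.S29
open ModularCurve.Period

variable (Γ : Subgroup SL(2, ℤ)) (n : ℕ)

/-- The Kummer characters of level `n` of the lattice `parabolicHoms ℤ Γ ℤ`. -/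
def charX : Subgroup (Γ →* ℂˣ) where
  carrier := {χ | ∃ x : parabolicHoms ℤ Γ ℤ, expChar (zetaC n) (x : Additive Γ →+ ℤ) = χ}
  one_mem' := ⟨0, by rw [Submodule.coe_zero, expChar_zero]⟩
  mul_mem' := by
    rintro _ _ ⟨x, rfl⟩ ⟨y, rfl⟩
    exact ⟨x + y, by rw [Submodule.coe_add, expChar_add]⟩
  inv_mem' := by
    rintro _ ⟨x, rfl⟩
    exact ⟨-x, by rw [Submodule.coe_neg, expChar_neg]⟩

variable {Γ n}

theorem mem_charX {χ : Γ →* ℂˣ} :
    χ ∈ charX Γ n ↔ ∃ x : parabolicHoms ℤ Γ ℤ, expChar (zetaC n) (x : Additive Γ →+ ℤ) = χ :=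
  Iff.rfl

theorem expChar_mem_charX (x : parabolicHoms ℤ Γ ℤ) :
    expChar (zetaC n) (x : Additive Γ →+ ℤ) ∈ charX Γ n := ⟨x, rfl⟩

variable (Γ n)

/-- The Kummer bridge `L → X`. -/
def chiLat : parabolicHoms ℤ Γ ℤ →+ Additive (charX Γ n) where
  toFun x := Additive.ofMul ⟨expChar (zetaC n) (x : Additive Γ →+ ℤ), expChar_mem_charX x⟩
  map_zero' := by
    apply Additive.toMul.injective
    apply Subtype.ext
    show expChar (zetaC n) ((0 : parabolicHoms ℤ Γ ℤ) : Additive Γ →+ ℤ) = 1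
    rw [Submodule.coe_zero, expChar_zero]
  map_add' x y := by
    apply Additive.toMul.injective
    apply Subtype.ext
    show expChar (zetaC n) ((x + y : parabolicHoms ℤ Γ ℤ) : Additive Γ →+ ℤ) =
      expChar (zetaC n) (x : Additive Γ →+ ℤ) * expChar (zetaC n) (y : Additive Γ →+ ℤ)
    rw [Submodule.coe_add, expChar_add]

variable {Γ n}

@[simp] theorem coe_chiLat (x : parabolicHoms ℤ Γ ℤ) :
    ((Additive.toMul (chiLat Γ n x) : charX Γ n) : Γ →* ℂˣ)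
      = expChar (zetaC n) (x : Additive Γ →+ ℤ) := rfl

theorem chiLat_surjective : Function.Surjective (chiLat Γ n) := by
  intro χ
  obtain ⟨x, hx⟩ := (Additive.toMul χ).2
  exact ⟨x, Additive.toMul.injective (Subtype.ext hx)⟩

theorem chiLat_eq_zero_iff_expChar (x : parabolicHoms ℤ Γ ℤ) :
    chiLat Γ n x = 0 ↔ expChar (zetaC n) (x : Additive Γ →+ ℤ) = 1 := by
  constructor
  · intro h
    have := congrArg (fun y : Additive (charX Γ n) => ((Additive.toMul y : charX Γ n) : Γ →* ℂˣ)) h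
    simpa using this
  · intro h
    apply Additive.toMul.injective
    exact Subtype.ext h

/-- **The kernel of the Kummer bridge is `n L`.** -/
theorem chiLat_eq_zero_iff (hn : n ≠ 0) (x : parabolicHoms ℤ Γ ℤ) :
    chiLat Γ n x = 0 ↔ x ∈ H66.pSub n (parabolicHoms ℤ Γ ℤ) := by
  rw [chiLat_eq_zero_iff_expChar, expChar_eq_one_iff_mem_pSub hn (isPrimitiveRoot_zetaC hn)]

theorem chiLat_eq_zero_iff_exists (hn : n ≠ 0) (x : parabolicHoms ℤ Γ ℤ) :
    chiLat Γ n x = 0 ↔ ∃ y : parabolicHoms ℤ Γ ℤ, x = (n : ℤ) • y := by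
  rw [chiLat_eq_zero_iff hn, H66.mem_pSub]
  exact ⟨fun ⟨y, h⟩ => ⟨y, h.symm⟩, fun ⟨y, h⟩ => ⟨y, h.symm⟩⟩

theorem zetaC_pow (hn : n ≠ 0) : (zetaC n) ^ n = 1 := (isPrimitiveRoot_zetaC hn).pow_eq_one

/-! ### properties of the characters in `charX` -/

theorem pow_eq_one_of_mem_charX (hn : n ≠ 0) {χ : Γ →* ℂˣ} (h : χ ∈ charX Γ n) : χ ^ n = 1 := by
  obtain ⟨x, rfl⟩ := h
  exact expChar_pow_eq_one (zetaC_pow hn) _

theorem isUnitary_of_mem_charX {χ : Γ →* ℂˣ} (h : χ ∈ charX Γ n) : H30.IsUnitary Γ χ := by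
  obtain ⟨x, rfl⟩ := h
  exact fun γ => norm_expChar_zetaC n _ γ

theorem apply_eq_one_of_trace_sq {χ : Γ →* ℂˣ} (h : χ ∈ charX Γ n) {γ : Γ}
    (hγ : ((γ : SL(2, ℤ)) : Matrix (Fin 2) (Fin 2) ℤ).trace ^ 2 = 4) : χ γ = 1 := by
  obtain ⟨x, rfl⟩ := h
  exact expChar_apply_eq_one_of_trace _ (mem_parabolicHoms_iff.mp x.2) hγ

theorem apply_eq_one_of_trace {χ : Γ →* ℂˣ} (h : χ ∈ charX Γ n) {γ : Γ}
    (hγ : (γ : SL(2, ℤ)) 0 0 + (γ : SL(2, ℤ)) 1 1 = 2 ∨
      (γ : SL(2, ℤ)) 0 0 + (γ : SL(2, ℤ)) 1 1 = -2) : χ γ = 1 := by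
  apply apply_eq_one_of_trace_sq h
  rw [Matrix.trace_fin_two]
  rcases hγ with h1 | h1
  · rw [h1]; norm_num
  · rw [h1]; norm_num

theorem trivialOnTriangular_of_mem_charX {χ : Γ →* ℂˣ} (h : χ ∈ charX Γ n) :
    H30.TrivialOnTriangular Γ χ :=
  H30.trivialOnTriangular_of_trace fun _ hγ => apply_eq_one_of_trace h hγ

theorem apply_eq_one_of_isOfFinOrder {χ : Γ →* ℂˣ} (h : χ ∈ charX Γ n) {γ : Γ}
    (hγ : IsOfFinOrder γ) : χ γ = 1 := by
  obtain ⟨x, rfl⟩ := h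
  exact expChar_apply_eq_one_of_isOfFinOrder _ _ hγ

theorem one_mem_charX' : (1 : Γ →* ℂˣ) ∈ charX Γ n := (charX Γ n).one_mem

theorem trivialOnTriangular_one : H30.TrivialOnTriangular Γ (1 : Γ →* ℂˣ) := fun _ _ => rfl

theorem isUnitary_one : H30.IsUnitary Γ (1 : Γ →* ℂˣ) := fun _ => by simp

end Fermat.Agent.S29.H85
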