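/-
S29 / P10 (HECKE-EQUIV), concrete form.

`F := ℂ F_N = laurentBaseChange ℂ (modularFunctionFieldFull N)`, `Mer = Frac Hol` (S24),
`L := parabolicHoms ℤ Γ₀(N) ℤ`, `X := H85.charX Γ₀(N) n` (the characters `ζ_n ^ x`, `x ∈ L`).
For any `hS : H88.KummerSetup n Θ act Adm X` whose `act γ` is precomposition with `γ`, put

  `lamW hS hn : L →+ Pic0 ℂ F`,  `x ↦ hS.lam (ζ_n ^ (w_N x))`

(`w_N` the Atkin–Lehner involution; the twist is forced by the transpose issue at `ℓ ∣ N`).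

* `picOp A hN ℓ hℓ` : the operator `transfer ∘ cst` induced by the prelude Hecke correspondence on
  `Hom(Γ₀(N), A)`; `picOp_wOp : picOp (w φ) = w (cohOp φ)` (`cohOp` = `T_ℓ` or `U_ℓ`);
  `comp_repDatum_op` : `picOp` is the operator of `cstDatum.comp (repDatum h)` for ANY system of
  representatives of `Γ₀(Nℓ) \ Γ₀(N)`.
* `lamW_zsmul`, `lamW_eq_zero` : `n • lamW x = 0`, `lamW x = 0 → x ∈ n L`.
* **`lamW_cohHecke`** : `lamW (X_ℓ x) = heckeOperatorAlong ℂ N ℓ (lamW x)` from the two analytic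
  inputs NORM-AN (`hnorm`) and admissibility of the norm product (`hAdm`), stated for any coset
  datum `D` of `GL(2,ℝ)⁺` with `D.op = picOp`.
-/
import Mathlib
import Fermat.Prelude.Def_ModularCurve_HeckeOperatorTotal
import Fermat.Agent.S29.H65_HeckeEquivAbs
import Fermat.Agent.S29.H65_Gamma0Pos
import Fermat.Agent.S29.H65_RepSystem
import Fermat.Agent.S29.H85_CharLat
import Fermat.Agent.S29.H58_SupportCoh

set_option autoImplicit false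

open UpperHalfPlane CongruenceSubgroup Matrix.SpecialLinearGroup ModularForm ModularCurve
  ModularCurve.Period AlgebraicCurve
open scoped Manifold MatrixGroups
open P2MW.S_ModularForm_heckeT_slash_eq_self_of_mem_Gamma0.ModularForm.HeckeSlashInvariance

namespace Fermat.Agent.S29.H65

open Fermat.Agent.S24.H81 Fermat.Agent.S41.H85 Fermat.Agent.S41.H72 Fermat.Agent.S41.H65
open Fermat.Agent.S29.H85 CosetDatumMul

noncomputable section

/-! ### The two operators on `Hom(Γ₀(N), A)` -/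

section ops

variable {N : ℕ} (A : Type*) [AddCommGroup A]

/-- The cohomological Hecke operator at `ℓ`: `U_ℓ` if `ℓ ∣ N`, `T_ℓ` otherwise. -/
def cohOp (ℓ : ℕ) (hℓ : ℓ.Prime) : (Additive (Gamma0 N) →+ A) →+ (Additive (Gamma0 N) →+ A) :=
  haveI : NeZero ℓ := ⟨hℓ.ne_zero⟩
  if h : ℓ ∣ N then heckeUHom A h else heckeTHom A hℓ h

/-- The operator induced on Kummer characters by the prelude Hecke correspondence `α_* β^*`:
the transfer from `Γ₀(Nℓ)` after conjugation by `diag(ℓ,1)`. -/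
def picOp (hN : N ≠ 0) (ℓ : ℕ) (hℓ : ℓ.Prime) :
    (Additive (Gamma0 N) →+ A) →+ (Additive (Gamma0 N) →+ A) :=
  haveI : NeZero ℓ := ⟨hℓ.ne_zero⟩
  if h : ℓ ∣ N then (corU A hN h).comp (cst A N hℓ.ne_zero) else heckeTHom A hℓ h

variable {A}

theorem cohOp_of_dvd {ℓ : ℕ} (hℓ : ℓ.Prime) [NeZero ℓ] (h : ℓ ∣ N)
    (φ : Additive (Gamma0 N) →+ A) : cohOp A ℓ hℓ φ = heckeUHom A h φ := by
  rw [cohOp, dif_pos h]

theorem cohOp_of_not_dvd {ℓ : ℕ} (hℓ : ℓ.Prime) (h : ¬ ℓ ∣ N)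
    (φ : Additive (Gamma0 N) →+ A) : cohOp A ℓ hℓ φ = heckeTHom A hℓ h φ := by
  rw [cohOp, dif_neg h]

theorem picOp_of_dvd (hN : N ≠ 0) {ℓ : ℕ} (hℓ : ℓ.Prime) [NeZero ℓ] (h : ℓ ∣ N)
    (φ : Additive (Gamma0 N) →+ A) :
    picOp A hN ℓ hℓ φ = corU A hN h (cst A N (NeZero.ne ℓ) φ) := by
  rw [picOp, dif_pos h]; rfl

theorem picOp_of_not_dvd (hN : N ≠ 0) {ℓ : ℕ} (hℓ : ℓ.Prime) (h : ¬ ℓ ∣ N)
    (φ : Additive (Gamma0 N) →+ A) : picOp A hN ℓ hℓ φ = heckeTHom A hℓ h φ := by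
  rw [picOp, dif_neg h]

/-- **`picOp ∘ w_N = w_N ∘ cohOp`.** -/
theorem picOp_wOp (hN : N ≠ 0) (ℓ : ℕ) (hℓ : ℓ.Prime) (φ : Additive (Gamma0 N) →+ A) :
    picOp A hN ℓ hℓ (wOp A hN φ) = wOp A hN (cohOp A ℓ hℓ φ) := by
  have : NeZero ℓ := ⟨hℓ.ne_zero⟩
  by_cases h : ℓ ∣ N
  · rw [picOp_of_dvd hN hℓ h, cohOp_of_dvd hℓ h, corU_cst, wOp_wOp]
  · rw [picOp_of_not_dvd hN hℓ h, cohOp_of_not_dvd hℓ h, wOp_heckeTHom]

theorem picOp_mem_parabolicHoms (hN : N ≠ 0) (ℓ : ℕ) (hℓ : ℓ.Prime) (R : Type*) [Semiring R]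
    [Module R A] {φ : Additive (Gamma0 N) →+ A} (hφ : φ ∈ parabolicHoms R (Gamma0 N) A) :
    picOp A hN ℓ hℓ φ ∈ parabolicHoms R (Gamma0 N) A := by
  have : NeZero ℓ := ⟨hℓ.ne_zero⟩
  by_cases h : ℓ ∣ N
  · rw [picOp_of_dvd hN hℓ h, ← picUDatum_op]
    exact op_mem_parabolicHoms (picUDatum hN h) R hφ
  · rw [picOp_of_not_dvd hN hℓ h]
    exact heckeTHom_mem_parabolicHoms R hℓ h hφ

theorem lowGamma0_zero (N : ℕ) : lowGamma0 N 0 = 1 := by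
  apply Subtype.ext
  apply Matrix.SpecialLinearGroup.ext
  intro i j
  fin_cases i <;> fin_cases j <;> simp [lowGamma0_coe]

/-- `picOp` is the operator of `cstDatum.comp (repDatum h)` for ANY system of representatives
`r : Q → Γ₀(N)` of `Γ₀(Nℓ) \ Γ₀(N)`. -/
theorem comp_repDatum_op (hN : N ≠ 0) (ℓ : ℕ) (hℓ : ℓ.Prime) {Q : Type*} [Fintype Q]
    {r : Q → Gamma0 N} (h : IsRepSystem (gl (N * ℓ)) (gl N) r) :
    (((cstDatum N hℓ.ne_zero).comp (repDatum h)).op :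
      (Additive (Gamma0 N) →+ A) →+ _) = picOp A hN ℓ hℓ := by
  have : NeZero ℓ := ⟨hℓ.ne_zero⟩
  refine AddMonoidHom.ext fun φ => ?_
  rw [CosetDatum.comp_op_apply]
  by_cases hd : ℓ ∣ N
  · rw [picOp_of_dvd hN hℓ hd]
    have e := op_eq_repDatum_op (A := A) (corUDatum hN hd) (isReduced_corUAlpha hN)
      (fun j : ZMod ℓ => lowGamma0 N (j.val : ℤ)) (fun _ => rfl) 0
      (by rw [ZMod.val_zero, Nat.cast_zero, lowGamma0_zero]) h
    show (repDatum h).op ((cstDatum N hℓ.ne_zero).op φ) = (corUDatum hN hd).op (cst A N _ φ)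
    rw [e]
    rfl
  · rw [picOp_of_not_dvd hN hℓ hd]
    obtain ⟨D⟩ := nonempty_alData ((Nat.Prime.coprime_iff_not_dvd hℓ).mpr hd)
    have e := op_eq_repDatum_op (A := A) (corDatum D hℓ hd hN) (corDatum_isReduced D hℓ hd hN)
      (corRep D) (fun _ => rfl) OnePoint.infty (corRep_infty D) h
    rw [← cor_cst D hℓ hd hN φ]
    show (repDatum h).op ((cstDatum N hℓ.ne_zero).op φ) = (corDatum D hℓ hd hN).op (cst A N _ φ)
    rw [e]
    rfl

end ops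

/-! ### `w_N` on the lattice and the twisted Kummer map -/

section lattice

variable {N : ℕ}

/-- The Atkin–Lehner involution on `L = parabolicHoms ℤ Γ₀(N) ℤ`. -/
def wPar (hN : N ≠ 0) :
    parabolicHoms ℤ (Gamma0 N) ℤ →+ parabolicHoms ℤ (Gamma0 N) ℤ where
  toFun x := ⟨wOp ℤ hN x, wOp_mem_parabolicHoms hN ℤ x.2⟩
  map_zero' := Subtype.ext (by simp)
  map_add' x y := Subtype.ext (by simp)

@[simp] theorem coe_wPar (hN : N ≠ 0) (x : parabolicHoms ℤ (Gamma0 N) ℤ) :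
    ((wPar hN x : parabolicHoms ℤ (Gamma0 N) ℤ) : Additive (Gamma0 N) →+ ℤ)
      = wOp ℤ hN (x : Additive (Gamma0 N) →+ ℤ) := rfl

theorem wPar_wPar (hN : N ≠ 0) (x : parabolicHoms ℤ (Gamma0 N) ℤ) : wPar hN (wPar hN x) = x :=
  Subtype.ext (wOp_wOp hN _)

theorem wPar_zsmul (hN : N ≠ 0) (m : ℤ) (x : parabolicHoms ℤ (Gamma0 N) ℤ) :
    wPar hN (m • x) = m • wPar hN x := map_zsmul (wPar hN) m x

/-- The coefficient of `X_ℓ` on the lattice, on the level of homomorphisms. -/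
theorem coe_cohHecke_heckeGen [NeZero N] (ℓ : Nat.Primes) (x : parabolicHoms ℤ (Gamma0 N) ℤ) :
    ((H58.cohHecke N (heckeGen ℓ) x : parabolicHoms ℤ (Gamma0 N) ℤ) : Additive (Gamma0 N) →+ ℤ)
      = cohOp ℤ (ℓ : ℕ) ℓ.2 (x : Additive (Gamma0 N) →+ ℤ) := by
  have : NeZero (ℓ : ℕ) := ⟨ℓ.2.ne_zero⟩
  by_cases h : (ℓ : ℕ) ∣ N
  · rw [H58.cohHecke_heckeGen_of_dvd h, coe_heckeUPar_apply, cohOp_of_dvd ℓ.2 h]
  · rw [H58.cohHecke_heckeGen_of_not_dvd h, coe_heckeTPar_apply, cohOp_of_not_dvd ℓ.2 h]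

end lattice

/-! ### The concrete Hecke equivariance -/

section main

open H88

variable {N : ℕ} [NeZero N] {n : ℕ}

variable [Algebra ℂ Mer] {Θ : H25.FC N →ₐ[ℂ] Mer} {act : Gamma0 N → Mer →ₐ[ℂ] Mer}
  {Adm : Subgroup Merˣ}

/-- The twisted Kummer map `x ↦ lam (ζ_n ^ (w_N x))`. -/
def lamW (hS : KummerSetup n Θ act Adm (charX (Gamma0 N) n)) (hn : 0 < n) :
    parabolicHoms ℤ (Gamma0 N) ℤ →+ Pic0 ℂ (H25.FC N) :=
  (hS.lam hn).comp ((chiLat (Gamma0 N) n).comp (wPar (NeZero.ne N)))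

theorem lamW_apply (hS : KummerSetup n Θ act Adm (charX (Gamma0 N) n)) (hn : 0 < n)
    (x : parabolicHoms ℤ (Gamma0 N) ℤ) :
    lamW hS hn x = hS.lam hn (chiLat (Gamma0 N) n (wPar (NeZero.ne N) x)) := rfl

theorem lamW_zsmul (hS : KummerSetup n Θ act Adm (charX (Gamma0 N) n)) (hn : 0 < n)
    (x : parabolicHoms ℤ (Gamma0 N) ℤ) : (n : ℤ) • lamW hS hn x = 0 :=
  hS.zsmul_lam hn _

theorem lamW_eq_zero (hS : KummerSetup n Θ act Adm (charX (Gamma0 N) n)) (hn : 0 < n)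
    {x : parabolicHoms ℤ (Gamma0 N) ℤ} (hx : lamW hS hn x = 0) :
    ∃ y : parabolicHoms ℤ (Gamma0 N) ℤ, x = (n : ℤ) • y := by
  have h1 := hS.eq_zero_of_lam_eq_zero hn hx
  obtain ⟨y, hy⟩ := (chiLat_eq_zero_iff_exists hn.ne' _).mp h1
  refine ⟨wPar (NeZero.ne N) y, ?_⟩
  rw [← wPar_zsmul, ← hy, wPar_wPar]

omit [NeZero N] in
/-- Bridge between the two notions of automorphy. -/
theorem isAut_iff (halg : ∀ c : ℂ, algebraMap ℂ Mer c = constMer c)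
    (hact : ∀ (γ : Gamma0 N) (x : Mer), act γ x = actGL (glp N γ) x)
    (χ : Gamma0 N →* ℂˣ) (Φ : Merˣ) :
    H88.IsAut act χ (Φ : Mer) ↔ H65.IsAut merUnitsSetup (glp N) χ Φ := by
  rw [isAut_merUnitsSetup_iff]
  unfold H88.IsAut
  simp only [hact, halg]

omit [Algebra ℂ Mer] in
/-- The characters `ζ_n ^ x`, `x ∈ L`, are stable under every coset operator whose additive
version is `picOp`. -/
theorem opMul_mem_charX {I : Type*} [Fintype I] (D : CosetDatum (glp N) (glp N) I)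
    {ℓ : ℕ} (hℓ : ℓ.Prime)
    (hDop : (D.op : (Additive (Gamma0 N) →+ ℤ) →+ _) = picOp ℤ (NeZero.ne N) ℓ hℓ)
    {χ : Gamma0 N →* ℂˣ} (hχ : χ ∈ charX (Gamma0 N) n) :
    opMul D χ ∈ charX (Gamma0 N) n := by
  obtain ⟨x, rfl⟩ := hχ
  rw [opMul_expChar, hDop]
  exact ⟨⟨_, picOp_mem_parabolicHoms (NeZero.ne N) ℓ hℓ ℤ x.2⟩, rfl⟩

/-- **HECKE-EQUIV, concrete form.**  `lamW (X_ℓ x) = heckeOperatorAlong ℂ N ℓ (lamW x)`. -/
theorem lamW_cohHecke (hS : KummerSetup n Θ act Adm (charX (Gamma0 N) n)) (hn : 0 < n)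
    (halg : ∀ c : ℂ, algebraMap ℂ Mer c = constMer c)
    (hact : ∀ (γ : Gamma0 N) (x : Mer), act γ x = actGL (glp N γ) x)
    (ℓ : Nat.Primes) [NeZero (ℓ : ℕ)] (hin : HeckeInputsAlong ℂ N ℓ)
    {I : Type*} [Fintype I] (D : CosetDatum (glp N) (glp N) I)
    (hDop : (D.op : (Additive (Gamma0 N) →+ ℤ) →+ _) = picOp ℤ (NeZero.ne N) ℓ ℓ.2)
    (hAdm : ∀ Φ ∈ Adm, heckeMer D Φ ∈ Adm)
    (hnorm : ∀ (f : H25.FC N) (Φ : Merˣ), Θ f = (Φ : Mer) →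
      Θ (normAlong (heckeAlphaBar ℂ N ℓ) (heckeBetaBar ℂ N ℓ f)) = ((heckeMer D Φ : Merˣ) : Mer))
    (x : parabolicHoms ℤ (Gamma0 N) ℤ) :
    lamW hS hn (H58.cohHecke N (heckeGen ℓ) x) = heckeOperatorAlong ℂ N ℓ (lamW hS hn x) := by
  obtain ⟨hα, hβ, hP, hfin, hFI, hNF⟩ := hin
  have := hP
  rw [heckeOperatorAlong_eq hα hβ hFI hfin hNF]
  set hN := NeZero.ne N
  -- the character of `x`
  set χ : Gamma0 N →* ℂˣ := expChar (zetaC n) (wOp ℤ hN (x : Additive (Gamma0 N) →+ ℤ)) with hχdef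
  have hχ : χ ∈ charX (Gamma0 N) n := expChar_mem_charX (wPar hN x)
  have key := lam_correspondence hS hn (heckeBetaBar ℂ N ℓ) (heckeAlphaBar ℂ N ℓ) hβ hα hFI hfin
    hNF (heckeMer D) (opMul D) hAdm (fun χ hχ => opMul_mem_charX D ℓ.2 hDop hχ)
    (fun χ _ Φ _ h => (isAut_iff halg hact _ _).mpr
      (IsAut.heckeMer D ((isAut_iff halg hact χ Φ).mp h)))
    hnorm hχ
  have hR : lamW hS hn x = hS.lam hn (Additive.ofMul ⟨χ, hχ⟩) := rfl
  rw [hR]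
  show _ = Pic0.correspondence (heckeBetaBar ℂ N ℓ) (heckeAlphaBar ℂ N ℓ) hβ hα hFI hfin hNF _
  rw [← key, lamW_apply]
  congr 1
  apply Additive.toMul.injective
  apply Subtype.ext
  show expChar (zetaC n) (wOp ℤ hN
      ((H58.cohHecke N (heckeGen ℓ) x : parabolicHoms ℤ (Gamma0 N) ℤ) : Additive (Gamma0 N) →+ ℤ))
    = opMul D χ
  rw [coe_cohHecke_heckeGen, ← picOp_wOp, hχdef, opMul_expChar, hDop]

end main

end

end Fermat.Agent.S29.H65
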