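import Mathlib
import Fermat.Agent.S24.H81_Hol
import Fermat.Agent.S24.H95_EmbCusp

/-!
# S29 / E0-DICT (cusps) : the `SL(2,ℤ)`-action on `Mer` and meromorphy at the cusps (helper72)

* `SL(2,ℤ)` acts on `Hol` and on `Mer = Frac Hol` by ring automorphisms,
  `(γ • f) τ = f (γ⁻¹ • τ)`;
* `GrowthAt a b` : `‖a τ‖ ≤ C * exp (2π m im τ) * ‖b τ‖` for `im τ ≥ c` (the quotient `a / b` has
  no pole high up and grows at most exponentially);
* `MeroAtInf x`, `MeroAtCusps x` for `x : Mer`, and the `SL(2,ℤ)`-stable subring `cuspRing`;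
* a nonzero `IsMeroPeriodic` function is bounded below by `C * exp (-2π m im τ)` high up.
-/

set_option autoImplicit false

open Complex Filter Function
open UpperHalfPlane hiding I
open scoped Real Topology Manifold MatrixGroups

noncomputable section

namespace Fermat.Agent.S29.H72

open Fermat.Agent.S24 Fermat.Agent.S24.H81 Fermat.Agent.S24.H4

/-! ## The action of `SL(2,ℤ)` on holomorphic and meromorphic functions -/

/-- Precomposition with `γ⁻¹` on holomorphic functions. -/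
def holSmul (γ : SL(2, ℤ)) (f : Hol) : Hol :=
  ⟨fun τ => (f : ℍ → ℂ) (γ⁻¹ • τ), H95.mdiff_comp_smul f.2 γ⁻¹⟩

instance instSMulHol : SMul SL(2, ℤ) Hol := ⟨holSmul⟩

theorem hol_smul_apply (γ : SL(2, ℤ)) (f : Hol) (τ : ℍ) :
    ((γ • f : Hol) : ℍ → ℂ) τ = (f : ℍ → ℂ) (γ⁻¹ • τ) := rfl

instance instMulSemiringActionHol : MulSemiringAction SL(2, ℤ) Hol where
  one_smul f := by
    apply Subtype.ext; funext τ
    rw [hol_smul_apply, inv_one, one_smul]
  mul_smul γ δ f := by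
    apply Subtype.ext; funext τ
    rw [hol_smul_apply, hol_smul_apply, hol_smul_apply, mul_inv_rev, mul_smul]
  smul_zero γ := by
    apply Subtype.ext; funext τ
    rw [hol_smul_apply]; rfl
  smul_add γ f g := by
    apply Subtype.ext; funext τ
    rw [hol_smul_apply]; rfl
  smul_one γ := by
    apply Subtype.ext; funext τ
    rw [hol_smul_apply]; rfl
  smul_mul γ f g := by
    apply Subtype.ext; funext τ
    rw [hol_smul_apply]; rfl

instance instMulSemiringActionMer : MulSemiringAction SL(2, ℤ) Mer :=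
  MulSemiringAction.compHom Mer
    ((IsFractionRing.ringEquivOfRingEquivHom Hol Mer).comp
      (MulSemiringAction.toRingEquiv SL(2, ℤ) Hol))

theorem mer_smul_algebraMap (γ : SL(2, ℤ)) (f : Hol) :
    γ • algebraMap Hol Mer f = algebraMap Hol Mer (γ • f) := by
  show IsFractionRing.ringEquivOfRingEquiv (MulSemiringAction.toRingEquiv SL(2, ℤ) Hol γ)
    (algebraMap Hol Mer f) = _
  rw [IsFractionRing.ringEquivOfRingEquiv_algebraMap]
  rfl

theorem mer_smul_div (γ : SL(2, ℤ)) (a b : Hol) :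
    γ • (algebraMap Hol Mer a / algebraMap Hol Mer b) =
      algebraMap Hol Mer (γ • a) / algebraMap Hol Mer (γ • b) := by
  rw [smul_div₀', mer_smul_algebraMap, mer_smul_algebraMap]

theorem hol_smul_ne_zero (γ : SL(2, ℤ)) {b : Hol} (hb : b ≠ 0) : γ • b ≠ 0 := by
  intro h
  apply hb
  have := congrArg (fun x => γ⁻¹ • x) h
  simpa using this

/-- Equality of fractions in `Mer`. -/
theorem div_eq_div_iff_hol {a b a' b' : Hol} (hb : b ≠ 0) (hb' : b' ≠ 0) :
    algebraMap Hol Mer a / algebraMap Hol Mer b = algebraMap Hol Mer a' / algebraMap Hol Mer b' ↔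
      a * b' = a' * b := by
  have h1 : algebraMap Hol Mer b ≠ 0 := by
    rwa [Ne, (injective_iff_map_eq_zero' _).mp (IsFractionRing.injective Hol Mer)]
  have h2 : algebraMap Hol Mer b' ≠ 0 := by
    rwa [Ne, (injective_iff_map_eq_zero' _).mp (IsFractionRing.injective Hol Mer)]
  rw [div_eq_div_iff h1 h2, ← map_mul, ← map_mul]
  exact (IsFractionRing.injective Hol Mer).eq_iff

theorem exists_div_hol (x : Mer) : ∃ a b : Hol, b ≠ 0 ∧
    x = algebraMap Hol Mer a / algebraMap Hol Mer b := by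
  obtain ⟨a, b, hb, rfl⟩ := IsFractionRing.div_surjective (A := Hol) x
  exact ⟨a, b, nonZeroDivisors.ne_zero hb, rfl⟩


/-! ## Growth at `i∞` of a quotient -/

/-- The quotient `a / b` has no pole above some height and grows at most exponentially there. -/
def GrowthAt (a b : ℍ → ℂ) : Prop :=
  ∃ c C : ℝ, ∃ m : ℕ, ∀ τ : ℍ, c ≤ τ.im → ‖a τ‖ ≤ C * Real.exp (2 * π * m * τ.im) * ‖b τ‖

theorem GrowthAt.normalize {a b : ℍ → ℂ} (h : GrowthAt a b) :
    ∃ c C : ℝ, ∃ m : ℕ, 0 < c ∧ 0 ≤ C ∧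
      ∀ τ : ℍ, c ≤ τ.im → ‖a τ‖ ≤ C * Real.exp (2 * π * m * τ.im) * ‖b τ‖ := by
  obtain ⟨c, C, m, h⟩ := h
  refine ⟨max c 1, max C 0, m, lt_of_lt_of_le one_pos (le_max_right _ _), le_max_right _ _,
    fun τ hτ => (h τ (le_trans (le_max_left _ _) hτ)).trans ?_⟩
  gcongr
  exact le_max_left _ _

theorem GrowthAt.mono_exp {a b : ℍ → ℂ} {C : ℝ} {m m' : ℕ} (hm : m ≤ m') (hC : 0 ≤ C)
    {τ : ℍ} (h : ‖a τ‖ ≤ C * Real.exp (2 * π * m * τ.im) * ‖b τ‖) :
    ‖a τ‖ ≤ C * Real.exp (2 * π * m' * τ.im) * ‖b τ‖ := by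
  refine h.trans ?_
  have h1 : (m : ℝ) ≤ m' := by exact_mod_cast hm
  have h2 : 0 < τ.im := τ.im_pos
  have h3 : 2 * π * m * τ.im ≤ 2 * π * m' * τ.im := by
    have : 0 < π := Real.pi_pos
    gcongr
  have := Real.exp_le_exp.mpr h3
  gcongr

theorem GrowthAt.zero_left (b : ℍ → ℂ) : GrowthAt 0 b :=
  ⟨0, 0, 0, fun τ _ => by simp⟩

theorem GrowthAt.const_one (c : ℂ) : GrowthAt (fun _ => c) 1 :=
  ⟨0, ‖c‖, 0, fun τ _ => by simp⟩

theorem GrowthAt.one_one : GrowthAt 1 1 := GrowthAt.const_one 1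

theorem GrowthAt.neg {a b : ℍ → ℂ} (h : GrowthAt a b) : GrowthAt (-a) b := by
  obtain ⟨c, C, m, h⟩ := h
  exact ⟨c, C, m, fun τ hτ => by simpa using h τ hτ⟩

theorem GrowthAt.mul {a b a' b' : ℍ → ℂ} (h : GrowthAt a b) (h' : GrowthAt a' b') :
    GrowthAt (a * a') (b * b') := by
  obtain ⟨c, C, m, hc, hC, h⟩ := h.normalize
  obtain ⟨c', C', m', hc', hC', h'⟩ := h'.normalize
  refine ⟨max c c', C * C', m + m', fun τ hτ => ?_⟩
  have h1 := h τ (le_trans (le_max_left _ _) hτ)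
  have h2 := h' τ (le_trans (le_max_right _ _) hτ)
  simp only [Pi.mul_apply, norm_mul]
  calc ‖a τ‖ * ‖a' τ‖
      ≤ (C * Real.exp (2 * π * m * τ.im) * ‖b τ‖) * (C' * Real.exp (2 * π * m' * τ.im) * ‖b' τ‖) :=
        mul_le_mul h1 h2 (norm_nonneg _) (by positivity)
    _ = C * C' * Real.exp (2 * π * (m + m' : ℕ) * τ.im) * (‖b τ‖ * ‖b' τ‖) := by
        have : 2 * π * ((m + m' : ℕ) : ℝ) * τ.im = 2 * π * m * τ.im + 2 * π * m' * τ.im := by
          push_cast; ring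
        rw [this, Real.exp_add]; ring

theorem GrowthAt.add {a b a' b' : ℍ → ℂ} (h : GrowthAt a b) (h' : GrowthAt a' b') :
    GrowthAt (a * b' + a' * b) (b * b') := by
  obtain ⟨c, C, m, hc, hC, h⟩ := h.normalize
  obtain ⟨c', C', m', hc', hC', h'⟩ := h'.normalize
  refine ⟨max c c', C + C', max m m', fun τ hτ => ?_⟩
  have h1 := GrowthAt.mono_exp (le_max_left m m') hC
    (h τ (le_trans (le_max_left _ _) hτ))
  have h2 := GrowthAt.mono_exp (le_max_right m m') hC'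
    (h' τ (le_trans (le_max_right _ _) hτ))
  simp only [Pi.add_apply, Pi.mul_apply, norm_mul]
  set E := Real.exp (2 * π * (max m m' : ℕ) * τ.im)
  calc ‖a τ * b' τ + a' τ * b τ‖ ≤ ‖a τ‖ * ‖b' τ‖ + ‖a' τ‖ * ‖b τ‖ := by
        refine (norm_add_le _ _).trans ?_
        rw [norm_mul, norm_mul]
    _ ≤ (C * E * ‖b τ‖) * ‖b' τ‖ + (C' * E * ‖b' τ‖) * ‖b τ‖ := by
        gcongr
    _ = (C + C') * E * (‖b τ‖ * ‖b' τ‖) := by ring

/-! ## Meromorphy at the cusps for elements of `Mer` -/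

/-- `x : Mer` is meromorphic at `i∞` (no periodicity required): some representation `x = a / b`
has `GrowthAt a b`. -/
def MeroAtInf (x : Mer) : Prop :=
  ∃ a b : Hol, b ≠ 0 ∧ x = algebraMap Hol Mer a / algebraMap Hol Mer b ∧
    GrowthAt (a : ℍ → ℂ) (b : ℍ → ℂ)

/-- `x : Mer` is meromorphic at every cusp. -/
def MeroAtCusps (x : Mer) : Prop := ∀ γ : SL(2, ℤ), MeroAtInf (γ • x)

theorem MeroAtInf.zero : MeroAtInf 0 :=
  ⟨0, 1, one_ne_zero, by simp, GrowthAt.zero_left _⟩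

theorem MeroAtInf.one : MeroAtInf 1 :=
  ⟨1, 1, one_ne_zero, by simp, GrowthAt.one_one⟩

theorem MeroAtInf.neg {x : Mer} (h : MeroAtInf x) : MeroAtInf (-x) := by
  obtain ⟨a, b, hb, rfl, hg⟩ := h
  exact ⟨-a, b, hb, by rw [map_neg, neg_div], hg.neg⟩

theorem algebraMap_hol_ne_zero {b : Hol} (hb : b ≠ 0) : algebraMap Hol Mer b ≠ 0 := by
  rwa [Ne, (injective_iff_map_eq_zero' _).mp (IsFractionRing.injective Hol Mer)]

theorem MeroAtInf.mul {x y : Mer} (hx : MeroAtInf x) (hy : MeroAtInf y) : MeroAtInf (x * y) := by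
  obtain ⟨a, b, hb, rfl, hg⟩ := hx
  obtain ⟨a', b', hb', rfl, hg'⟩ := hy
  refine ⟨a * a', b * b', mul_ne_zero hb hb', ?_, hg.mul hg'⟩
  rw [map_mul, map_mul, div_mul_div_comm]

theorem MeroAtInf.add {x y : Mer} (hx : MeroAtInf x) (hy : MeroAtInf y) : MeroAtInf (x + y) := by
  obtain ⟨a, b, hb, rfl, hg⟩ := hx
  obtain ⟨a', b', hb', rfl, hg'⟩ := hy
  refine ⟨a * b' + a' * b, b * b', mul_ne_zero hb hb', ?_, hg.add hg'⟩
  rw [map_add, map_mul, map_mul, map_mul,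
    div_add_div _ _ (algebraMap_hol_ne_zero hb) (algebraMap_hol_ne_zero hb')]
  ring

/-- The subring of `Mer` of functions meromorphic at all cusps. -/
def cuspRing : Subring Mer where
  carrier := {x | MeroAtCusps x}
  mul_mem' {x y} hx hy γ := by
    rw [smul_mul']
    exact (hx γ).mul (hy γ)
  one_mem' γ := by
    rw [smul_one]
    exact MeroAtInf.one
  add_mem' {x y} hx hy γ := by
    rw [smul_add]
    exact (hx γ).add (hy γ)
  zero_mem' γ := by
    rw [smul_zero]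
    exact MeroAtInf.zero
  neg_mem' {x} hx γ := by
    rw [smul_neg]
    exact (hx γ).neg

theorem mem_cuspRing {x : Mer} : x ∈ cuspRing ↔ MeroAtCusps x := Iff.rfl

theorem smul_mem_cuspRing {x : Mer} (hx : x ∈ cuspRing) (γ : SL(2, ℤ)) : γ • x ∈ cuspRing := by
  intro δ
  rw [← mul_smul]
  exact hx (δ * γ)

/-- Constants are meromorphic at all cusps. -/
theorem const_mem_cuspRing (c : ℂ) :
    algebraMap Hol Mer ⟨fun _ => c, const_mem_Hol c⟩ ∈ cuspRing := by
  intro γ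
  rw [mer_smul_algebraMap]
  refine ⟨γ • ⟨fun _ => c, const_mem_Hol c⟩, 1, one_ne_zero, by simp, ?_⟩
  exact GrowthAt.const_one c

/-- The function-level criterion. -/
theorem div_mem_cuspRing {a b : Hol} (hb : b ≠ 0)
    (h : ∀ γ : SL(2, ℤ), GrowthAt (fun τ => (a : ℍ → ℂ) (γ⁻¹ • τ)) (fun τ => (b : ℍ → ℂ) (γ⁻¹ • τ))) :
    algebraMap Hol Mer a / algebraMap Hol Mer b ∈ cuspRing := by
  intro γ
  rw [mer_smul_div]
  exact ⟨γ • a, γ • b, hol_smul_ne_zero γ hb, rfl, h γ⟩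


/-! ## Lower bound for a nonzero function meromorphic at the cusp -/

local notation "𝕢" => Periodic.qParam

/-- A nonzero holomorphic periodic function which is meromorphic at `i∞` is bounded below by
`C * exp (-2π m im τ)` high up. -/
theorem exists_lower_bound {h : ℝ} (hh : 0 < h) {f : ℍ → ℂ} (hf : IsMeroPeriodic h f)
    (f0 : f ≠ 0) :
    ∃ c C : ℝ, ∃ m : ℕ, 0 < C ∧ ∀ τ : ℍ, c ≤ τ.im →
      C * Real.exp (-(2 * π * m * τ.im)) ≤ ‖f τ‖ := by
  obtain ⟨M, hM⟩ := hf.exists_bdd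
  set g : ℍ → ℂ := qFun h ^ M * f with hg_def
  have hg : IsHoloPeriodic h g := hf.isHoloPeriodic hh hM
  have hgHol : g ∈ Hol := hg.mdiff
  have g0 : g ≠ 0 := by
    intro h0
    apply f0
    funext τ
    have := congrFun h0 τ
    simp only [hg_def, Pi.mul_apply, Pi.pow_apply, Pi.zero_apply, mul_eq_zero] at this
    rcases this with h1 | h1
    · exact absurd (eq_zero_of_pow_eq_zero h1) (qFun_ne_zero h τ)
    · exact h1
  set G : ℂ → ℂ := cuspFunction h g with hG_def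
  have hG : AnalyticAt ℂ G 0 := hg.analyticAt hh
  have hGq : ∀ τ : ℍ, G (qFun h τ) = g τ := fun τ => eq_cuspFunction τ hh.ne' hg.periodic
  -- `G` is not identically zero near `0`
  have hGtop : analyticOrderAt G 0 ≠ ⊤ := by
    intro htop
    rw [analyticOrderAt_eq_top] at htop
    obtain ⟨ε, hε, hball⟩ := Metric.eventually_nhds_iff.mp htop
    -- `g` vanishes for `im τ` large
    have hq : Tendsto (fun τ : ℍ => qFun h τ) atImInfty (𝓝 0) := qParam_tendsto_atImInfty hh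
    have hev : ∀ᶠ τ in atImInfty, g τ = 0 := by
      have h1 : ∀ᶠ τ in atImInfty, dist (qFun h τ) 0 < ε :=
        hq.eventually (Metric.ball_mem_nhds 0 hε)
      filter_upwards [h1] with τ hτ
      rw [← hGq τ]
      exact hball hτ
    obtain ⟨A, hA⟩ := (atImInfty_basis.eventually_iff).mp hev
    obtain ⟨hAtrue, hA⟩ := hA
    -- a point high up
    set y : ℝ := max A 0 + 1 with hy
    have hy0 : 0 < y := by positivity
    set τ0 : ℍ := ⟨⟨0, y⟩, hy0⟩ with hτ0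
    have hne := analyticOrderAt_ne_top hgHol g0 τ0
    apply hne
    rw [analyticOrderAt_eq_top]
    have hopen : IsOpen {z : ℂ | A < z.im} := isOpen_lt continuous_const Complex.continuous_im
    have hmem : (τ0 : ℂ) ∈ {z : ℂ | A < z.im} := by
      show A < (τ0 : ℂ).im
      have : (τ0 : ℂ).im = y := rfl
      rw [this, hy]
      linarith [le_max_left A 0]
    filter_upwards [hopen.mem_nhds hmem, (isOpen_lt continuous_const Complex.continuous_im).mem_nhds
      (show (τ0 : ℂ) ∈ {z : ℂ | 0 < z.im} from τ0.im_pos)] with z hz hz0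
    have h1 : ofComplex z = ⟨z, hz0⟩ := ofComplex_apply_of_im_pos hz0
    show g (ofComplex z) = 0
    apply hA
    show A ≤ (ofComplex z).im
    rw [h1]
    exact le_of_lt hz
  -- factor out the order of vanishing
  obtain ⟨u, hu, hu0, hGu⟩ := (hG.analyticOrderAt_ne_top).mp hGtop
  set k := analyticOrderNatAt G 0 with hk
  have hucont : ContinuousAt u 0 := hu.continuousAt
  have hupos : 0 < ‖u 0‖ := norm_pos_iff.mpr hu0
  have h1 : ∀ᶠ z in 𝓝 (0 : ℂ), ‖u 0‖ / 2 < ‖u z‖ :=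
    (hucont.norm).eventually (lt_mem_nhds (half_lt_self hupos))
  obtain ⟨ε, hε, hball⟩ := Metric.eventually_nhds_iff.mp (hGu.and h1)
  -- the height above which `‖q‖ < ε`
  have hq : Tendsto (fun τ : ℍ => qFun h τ) atImInfty (𝓝 0) := qParam_tendsto_atImInfty hh
  have hev : ∀ᶠ τ in atImInfty, dist (qFun h τ) 0 < ε := hq.eventually (Metric.ball_mem_nhds 0 hε)
  obtain ⟨A, -, hA⟩ := (atImInfty_basis.eventually_iff).mp hev
  obtain ⟨m, hm⟩ := exists_nat_ge ((k : ℝ) / h)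
  refine ⟨A, ‖u 0‖ / 2, m, by positivity, fun τ hτ => ?_⟩
  obtain ⟨hGeq, hlow⟩ := hball (hA hτ)
  have hqn : ‖qFun h τ‖ = Real.exp (-2 * π * τ.im / h) := norm_qFun h τ
  have hq1 : ‖qFun h τ‖ ≤ 1 := (norm_qFun_lt_one hh τ).le
  have hq0 : 0 < ‖qFun h τ‖ := norm_pos_iff.mpr (qFun_ne_zero h τ)
  -- `‖g τ‖ = ‖q‖^k ‖u q‖`
  have hgn : ‖g τ‖ = ‖qFun h τ‖ ^ k * ‖u (qFun h τ)‖ := by
    rw [← hGq τ, hGeq]
    simp [norm_pow]
  -- `‖g τ‖ ≤ ‖f τ‖`
  have hgf : ‖g τ‖ ≤ ‖f τ‖ := by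
    simp only [hg_def, Pi.mul_apply, Pi.pow_apply, norm_mul, norm_pow]
    calc ‖qFun h τ‖ ^ M * ‖f τ‖ ≤ 1 * ‖f τ‖ := by
          gcongr
          exact pow_le_one₀ (norm_nonneg _) hq1
      _ = ‖f τ‖ := one_mul _
  refine le_trans ?_ hgf
  rw [hgn]
  have hexp : Real.exp (-(2 * π * m * τ.im)) ≤ ‖qFun h τ‖ ^ k := by
    rw [hqn, ← Real.exp_nat_mul]
    apply Real.exp_le_exp.mpr
    have hτ0 : 0 < τ.im := τ.im_pos
    have hπ : 0 < π := Real.pi_pos
    have h2 : (k : ℝ) * (-2 * π * τ.im / h) = -(2 * π * ((k : ℝ) / h) * τ.im) := by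
      field_simp
    rw [h2]
    apply neg_le_neg
    gcongr
  calc ‖u 0‖ / 2 * Real.exp (-(2 * π * m * τ.im))
      = Real.exp (-(2 * π * m * τ.im)) * (‖u 0‖ / 2) := mul_comm _ _
    _ ≤ ‖qFun h τ‖ ^ k * ‖u (qFun h τ)‖ :=
        mul_le_mul hexp hlow.le (by positivity) (by positivity)


/-- The quotient of two functions meromorphic at the cusp (with the same period) has `GrowthAt`. -/
theorem growthAt_of_isMeroPeriodic {h : ℝ} (hh : 0 < h) {a b : ℍ → ℂ} (ha : IsMeroPeriodic h a)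
    (hb : IsMeroPeriodic h b) (b0 : b ≠ 0) : GrowthAt a b := by
  obtain ⟨C, M, hup⟩ := ha.exists_growth' hh one_pos
  obtain ⟨c, C', m, hC', hlow⟩ := exists_lower_bound hh hb b0
  obtain ⟨m', hm'⟩ := exists_nat_ge ((M : ℝ) / h + m)
  refine ⟨max c 1, max C 0 / C', m', fun τ hτ => ?_⟩
  have h1 := hup τ (le_trans (le_max_right _ _) hτ)
  have h2 := hlow τ (le_trans (le_max_left _ _) hτ)
  have hτ0 : 0 < τ.im := τ.im_pos
  have hπ : 0 < π := Real.pi_pos
  have hexp : Real.exp (2 * π * M * τ.im / h) ≤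
      Real.exp (2 * π * m' * τ.im) * Real.exp (-(2 * π * m * τ.im)) := by
    rw [← Real.exp_add]
    apply Real.exp_le_exp.mpr
    have h3 : 2 * π * M * τ.im / h + 2 * π * m * τ.im = 2 * π * ((M : ℝ) / h + m) * τ.im := by
      field_simp
    have h4 : 2 * π * ((M : ℝ) / h + m) * τ.im ≤ 2 * π * m' * τ.im := by gcongr
    linarith
  calc ‖a τ‖ ≤ C * Real.exp (2 * π * M * τ.im / h) := h1
    _ ≤ max C 0 * Real.exp (2 * π * M * τ.im / h) := by
        gcongr
        exact le_max_left _ _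
    _ ≤ max C 0 * (Real.exp (2 * π * m' * τ.im) * Real.exp (-(2 * π * m * τ.im))) := by
        gcongr
    _ = max C 0 / C' * Real.exp (2 * π * m' * τ.im) * (C' * Real.exp (-(2 * π * m * τ.im))) := by
        field_simp
    _ ≤ max C 0 / C' * Real.exp (2 * π * m' * τ.im) * ‖b τ‖ := by
        gcongr


/-! ## Independence of the representation, roots -/

/-- The nonvanishing locus of a nonzero holomorphic function is dense. -/
theorem dense_ne_zero {b : ℍ → ℂ} (hb : b ∈ Hol) (b0 : b ≠ 0) : Dense {τ : ℍ | b τ ≠ 0} := by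
  rw [dense_iff_inter_open]
  rintro U hU ⟨τ0, hτ0⟩
  by_contra hne
  have hzero : ∀ τ ∈ U, b τ = 0 := fun τ hτ => by_contra fun h => hne ⟨τ, hτ, h⟩
  apply analyticOrderAt_ne_top hb b0 τ0
  rw [analyticOrderAt_eq_top]
  have hopen : IsOpen (((↑) : ℍ → ℂ) '' U) := UpperHalfPlane.isOpenEmbedding_coe.isOpenMap U hU
  filter_upwards [hopen.mem_nhds ⟨τ0, hτ0, rfl⟩] with z hz
  obtain ⟨τ, hτ, rfl⟩ := hz
  show b (ofComplex (τ : ℂ)) = 0
  rw [ofComplex_apply]
  exact hzero τ hτ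

/-- `GrowthAt` only depends on the quotient `a / b`. -/
theorem GrowthAt.of_cross {a b a' b' : ℍ → ℂ} (hb : b ∈ Hol) (b0 : b ≠ 0)
    (ha' : Continuous a') (hb' : Continuous b') (h : ∀ τ, a τ * b' τ = a' τ * b τ)
    (hg : GrowthAt a b) : GrowthAt a' b' := by
  obtain ⟨c, C, m, hc, hC, hg⟩ := hg.normalize
  refine ⟨c + 1, C, m, fun τ hτ => ?_⟩
  set T : Set ℍ := {τ : ℍ | ‖a' τ‖ ≤ C * Real.exp (2 * π * m * τ.im) * ‖b' τ‖} with hT
  have hclosed : IsClosed T :=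
    isClosed_le ha'.norm ((continuous_const.mul (Real.continuous_exp.comp
      (continuous_const.mul UpperHalfPlane.continuous_im))).mul hb'.norm)
  set U : Set ℍ := {τ : ℍ | c < τ.im} with hU
  have hUopen : IsOpen U := isOpen_lt continuous_const UpperHalfPlane.continuous_im
  have hsub : U ∩ {τ : ℍ | b τ ≠ 0} ⊆ T := by
    rintro τ ⟨hτU, hτb⟩
    have h1 := hg τ (le_of_lt hτU)
    have h2 : ‖a' τ‖ * ‖b τ‖ = ‖a τ‖ * ‖b' τ‖ := by
      rw [← norm_mul, ← norm_mul, h τ]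
    have h3 : 0 < ‖b τ‖ := norm_pos_iff.mpr hτb
    show ‖a' τ‖ ≤ C * Real.exp (2 * π * m * τ.im) * ‖b' τ‖
    have h4 : ‖a' τ‖ * ‖b τ‖ ≤ (C * Real.exp (2 * π * m * τ.im) * ‖b' τ‖) * ‖b τ‖ := by
      rw [h2]
      calc ‖a τ‖ * ‖b' τ‖ ≤ (C * Real.exp (2 * π * m * τ.im) * ‖b τ‖) * ‖b' τ‖ := by gcongr
        _ = _ := by ring
    exact le_of_mul_le_mul_right h4 h3
  have h5 : U ⊆ closure (U ∩ {τ : ℍ | b τ ≠ 0}) :=
    (dense_ne_zero hb b0).open_subset_closure_inter hUopen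
  have h6 : closure (U ∩ {τ : ℍ | b τ ≠ 0}) ⊆ T := closure_minimal hsub hclosed
  exact h6 (h5 (show c < τ.im by linarith))

/-- `GrowthAt` passes to `n`-th roots. -/
theorem GrowthAt.of_pow {a b : ℍ → ℂ} {n : ℕ} (hn : 0 < n) (h : GrowthAt (a ^ n) (b ^ n)) :
    GrowthAt a b := by
  obtain ⟨c, C, m, hc, hC, h⟩ := h.normalize
  refine ⟨c, max C 1, m, fun τ hτ => ?_⟩
  have h1 := h τ hτ
  simp only [Pi.pow_apply, norm_pow] at h1
  set E := Real.exp (2 * π * m * τ.im) with hE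
  have hE1 : 1 ≤ E := by
    rw [hE]
    apply Real.one_le_exp
    have : 0 < τ.im := τ.im_pos
    positivity
  have hC1 : 1 ≤ max C 1 := le_max_right _ _
  apply le_of_pow_le_pow_left₀ hn.ne' (by positivity)
  calc ‖a τ‖ ^ n ≤ C * E * ‖b τ‖ ^ n := h1
    _ ≤ (max C 1) ^ n * E ^ n * ‖b τ‖ ^ n := by
        have h2 : C ≤ (max C 1) ^ n :=
          (le_max_left _ _).trans (le_self_pow₀ hC1 hn.ne')
        have h3 : E ≤ E ^ n := le_self_pow₀ hE1 hn.ne'
        gcongr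
    _ = (max C 1 * E * ‖b τ‖) ^ n := by ring

theorem MeroAtInf.growthAt {x : Mer} (hx : MeroAtInf x) {a b : Hol} (hb : b ≠ 0)
    (h : x = algebraMap Hol Mer a / algebraMap Hol Mer b) :
    GrowthAt (a : ℍ → ℂ) (b : ℍ → ℂ) := by
  obtain ⟨a', b', hb', hx', hg⟩ := hx
  rw [h, div_eq_div_iff_hol hb hb'] at hx'
  have hcont : ∀ f : Hol, Continuous (f : ℍ → ℂ) := fun f => f.2.continuous
  refine GrowthAt.of_cross b'.2 (coe_ne_zero hb') (hcont a) (hcont b) (fun τ => ?_) hg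
  have := congrArg (fun f : Hol => (f : ℍ → ℂ) τ) hx'
  simpa using this.symm

theorem MeroAtInf.of_pow {x : Mer} {n : ℕ} (hn : 0 < n) (h : MeroAtInf (x ^ n)) : MeroAtInf x := by
  obtain ⟨a, b, hb, rfl⟩ := exists_div_hol x
  refine ⟨a, b, hb, rfl, GrowthAt.of_pow hn ?_⟩
  have h1 : (algebraMap Hol Mer a / algebraMap Hol Mer b) ^ n =
      algebraMap Hol Mer (a ^ n) / algebraMap Hol Mer (b ^ n) := by
    rw [div_pow, map_pow, map_pow]
  exact h.growthAt (pow_ne_zero n hb) h1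

theorem mem_cuspRing_of_pow_mem {x : Mer} {n : ℕ} (hn : 0 < n) (h : x ^ n ∈ cuspRing) :
    x ∈ cuspRing := by
  intro γ
  apply MeroAtInf.of_pow hn
  rw [← smul_pow']
  exact h γ

end Fermat.Agent.S29.H72
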