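import Mathlib
import Fermat.Agent.S29.H72_DictCusp
import Fermat.Agent.S24.H15_Conjugates

/-!
# S29 / NORM-AN (hAdm) : `cuspRing` is stable under `τ ↦ l τ` (helper72)

* `growthAt_comp_aff` : the growth predicate is transported by the upper triangular maps
  `τ ↦ (a τ + b) / d`;
* `scaleHol l`, `scaleMer l` : precomposition with `τ ↦ l τ` on `Hol` and `Mer`;
* `scaleMer_mem_cuspRing` : `x ∈ cuspRing → scaleMer l x ∈ cuspRing`, by the Hermite normal form
  `diag(l,1) σ = σ' [[a,b],[0,d]]` (`S24.H15.exists_hermite`).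
-/

set_option autoImplicit false

open Complex Filter Function
open UpperHalfPlane hiding I
open scoped Real Topology Manifold MatrixGroups

noncomputable section

namespace Fermat.Agent.S29.H72

open Fermat.Agent.S24 Fermat.Agent.S24.H81

/-! ## upper triangular maps -/

theorem mdiff_comp_aff {g : ℍ → ℂ} (hg : MDiff g) (a b d : ℕ) (ha : 0 < a) (hd : 0 < d) :
    MDiff (fun τ => g (H15.aff a b d ha hd τ)) := by
  rw [UpperHalfPlane.mdifferentiable_iff] at hg ⊢
  have hd' : (d : ℂ) ≠ 0 := by exact_mod_cast hd.ne'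
  have hmap : Set.MapsTo (fun z : ℂ => ((a : ℂ) * z + b) / d) {z | 0 < z.im} {z | 0 < z.im} := by
    intro z hz
    exact (H15.aff a b d ha hd ⟨z, hz⟩).im_pos
  have h1 : DifferentiableOn ℂ (fun z : ℂ => ((a : ℂ) * z + b) / d) {z | 0 < z.im} :=
    ((differentiableOn_id.const_mul (a : ℂ)).add_const (b : ℂ)).div_const (d : ℂ)
  have := hg.comp h1 hmap
  refine this.congr ?_
  intro z hz
  simp only [Function.comp, Set.mem_ofPred_eq] at hz ⊢
  congr 1
  rw [ofComplex_apply_of_im_pos hz, ofComplex_apply_of_im_pos (hmap hz)]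
  apply UpperHalfPlane.ext
  simp

theorem growthAt_comp_aff {p q : ℍ → ℂ} (h : GrowthAt p q) (a b d : ℕ) (ha : 0 < a)
    (hd : 0 < d) :
    GrowthAt (fun τ => p (H15.aff a b d ha hd τ)) (fun τ => q (H15.aff a b d ha hd τ)) := by
  obtain ⟨c, C, m, hc, hC, h⟩ := h.normalize
  have ha' : (0 : ℝ) < a := by exact_mod_cast ha
  have hd' : (0 : ℝ) < d := by exact_mod_cast hd
  refine ⟨c * d / a, C, m * a, fun τ hτ => ?_⟩
  have him : (H15.aff a b d ha hd τ).im = (a : ℝ) / d * τ.im := H15.im_aff a b d ha hd τ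
  have h1 : c ≤ (H15.aff a b d ha hd τ).im := by
    rw [him]
    have h2 : c * d / a * ((a : ℝ) / d) ≤ τ.im * ((a : ℝ) / d) := by gcongr
    have h3 : c * d / a * ((a : ℝ) / d) = c := by field_simp
    rw [h3] at h2
    linarith
  refine (h _ h1).trans ?_
  have hτ0 : 0 < τ.im := τ.im_pos
  have hπ : 0 < π := Real.pi_pos
  have hd1 : (1 : ℝ) ≤ d := by exact_mod_cast hd
  have hexp : 2 * π * m * (H15.aff a b d ha hd τ).im ≤ 2 * π * ((m * a : ℕ) : ℝ) * τ.im := by
    rw [him]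
    push_cast
    have h4 : (a : ℝ) / d ≤ a := div_le_self ha'.le hd1
    have h5 : (m : ℝ) * ((a : ℝ) / d * τ.im) ≤ (m : ℝ) * (a * τ.im) := by gcongr
    nlinarith [h5, hπ]
  have := Real.exp_le_exp.mpr hexp
  gcongr

/-! ## the scaling operators -/

/-- Precomposition with `τ ↦ l τ` on holomorphic functions. -/
def scaleHol (l : ℕ) (hl : 0 < l) : Hol →+* Hol where
  toFun f := ⟨fun τ => (f : ℍ → ℂ) (H15.aff l 0 1 hl one_pos τ), mdiff_comp_aff f.2 l 0 1 hl one_pos⟩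
  map_one' := rfl
  map_mul' _ _ := rfl
  map_zero' := rfl
  map_add' _ _ := rfl

@[simp] theorem scaleHol_apply (l : ℕ) (hl : 0 < l) (f : Hol) (τ : ℍ) :
    ((scaleHol l hl f : Hol) : ℍ → ℂ) τ = (f : ℍ → ℂ) (H15.aff l 0 1 hl one_pos τ) := rfl

/-- `τ ↦ l τ` is surjective on `ℍ`. -/
theorem exists_aff_eq (l : ℕ) (hl : 0 < l) (τ : ℍ) : ∃ τ' : ℍ, H15.aff l 0 1 hl one_pos τ' = τ := by
  have hl' : (0 : ℝ) < l := by exact_mod_cast hl
  have hlc : (l : ℂ) ≠ 0 := by exact_mod_cast hl.ne'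
  have him : 0 < ((τ : ℂ) / l).im := by
    have : ((τ : ℂ) / l).im = τ.im / l := by
      rw [show ((l : ℂ)) = ((l : ℝ) : ℂ) by simp, Complex.div_ofReal_im]
      rfl
    rw [this]
    exact div_pos τ.im_pos hl'
  refine ⟨⟨(τ : ℂ) / l, him⟩, ?_⟩
  apply UpperHalfPlane.ext
  rw [H15.coe_aff]
  show ((l : ℂ) * ((τ : ℂ) / l) + ((0 : ℕ) : ℂ)) / ((1 : ℕ) : ℂ) = τ
  simp only [Nat.cast_zero, add_zero, Nat.cast_one, div_one]
  field_simp

theorem scaleHol_injective (l : ℕ) (hl : 0 < l) : Function.Injective (scaleHol l hl) := by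
  intro f g hfg
  apply Subtype.ext
  funext τ
  obtain ⟨τ', rfl⟩ := exists_aff_eq l hl τ
  have := congrArg (fun k : Hol => (k : ℍ → ℂ) τ') hfg
  simpa using this

/-- Precomposition with `τ ↦ l τ` on meromorphic functions. -/
def scaleMer (l : ℕ) (hl : 0 < l) : Mer →+* Mer :=
  IsFractionRing.lift (g := (algebraMap Hol Mer).comp (scaleHol l hl))
    ((IsFractionRing.injective Hol Mer).comp (scaleHol_injective l hl))

@[simp] theorem scaleMer_algebraMap (l : ℕ) (hl : 0 < l) (f : Hol) :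
    scaleMer l hl (algebraMap Hol Mer f) = algebraMap Hol Mer (scaleHol l hl f) := by
  unfold scaleMer
  rw [IsFractionRing.lift_algebraMap]
  rfl

theorem scaleMer_div (l : ℕ) (hl : 0 < l) (p q : Hol) :
    scaleMer l hl (algebraMap Hol Mer p / algebraMap Hol Mer q) =
      algebraMap Hol Mer (scaleHol l hl p) / algebraMap Hol Mer (scaleHol l hl q) := by
  rw [map_div₀, scaleMer_algebraMap, scaleMer_algebraMap]

theorem scaleMer_injective (l : ℕ) (hl : 0 < l) : Function.Injective (scaleMer l hl) :=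
  (scaleMer l hl).injective

/-! ## stability of `cuspRing` -/

/-- The function-level statement: if `p / q ∈ cuspRing`, the conjugates of `(p / q)(l τ)` have
the growth property. -/
theorem growthAt_scale_conj {p q : Hol} (hq : q ≠ 0)
    (hx : algebraMap Hol Mer p / algebraMap Hol Mer q ∈ cuspRing) (l : ℕ) (hl : 0 < l)
    (σ : SL(2, ℤ)) :
    GrowthAt (fun τ => (p : ℍ → ℂ) (H15.aff l 0 1 hl one_pos (σ • τ)))
      (fun τ => (q : ℍ → ℂ) (H15.aff l 0 1 hl one_pos (σ • τ))) := by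
  obtain ⟨γ', a, b, d, had, hbd, h⟩ := H15.exists_hermite l hl σ
  have ha : 0 < a := by
    rcases Nat.eq_zero_or_pos a with h0 | h0
    · rw [h0, zero_mul] at had; omega
    · exact h0
  have hd : 0 < d := by omega
  have key : ∀ τ : ℍ, H15.aff l 0 1 hl one_pos (σ • τ) = γ' • H15.aff a b d ha hd τ :=
    fun τ => H15.aff_smul_eq l hl σ γ' a b d ha hd h τ
  -- growth of the `γ'⁻¹`-conjugate
  have h1 : MeroAtInf (γ'⁻¹ • (algebraMap Hol Mer p / algebraMap Hol Mer q)) := hx γ'⁻¹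
  have h2 : GrowthAt ((γ'⁻¹ • p : Hol) : ℍ → ℂ) ((γ'⁻¹ • q : Hol) : ℍ → ℂ) :=
    h1.growthAt (hol_smul_ne_zero _ hq) (mer_smul_div _ _ _)
  have h3 := growthAt_comp_aff h2 a b d ha hd
  have e : ∀ (f : Hol) (τ : ℍ), ((γ'⁻¹ • f : Hol) : ℍ → ℂ) (H15.aff a b d ha hd τ) =
      (f : ℍ → ℂ) (H15.aff l 0 1 hl one_pos (σ • τ)) := by
    intro f τ
    rw [hol_smul_apply, inv_inv, key]
  simpa only [e] using h3

/-- **(hAdm), core.** `cuspRing` is stable under `τ ↦ l τ`. -/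
theorem scaleMer_mem_cuspRing (l : ℕ) (hl : 0 < l) {x : Mer} (hx : x ∈ cuspRing) :
    scaleMer l hl x ∈ cuspRing := by
  obtain ⟨p, q, hq, rfl⟩ := exists_div_hol x
  rw [scaleMer_div]
  have hq' : scaleHol l hl q ≠ 0 := fun h =>
    hq (scaleHol_injective l hl (h.trans (map_zero _).symm))
  refine div_mem_cuspRing hq' (fun γ => ?_)
  exact growthAt_scale_conj hq hx l hl γ⁻¹

/-- `cuspRing` is stable under `τ ↦ l (γ τ)`, `γ ∈ SL(2,ℤ)`. -/
theorem smul_scaleMer_mem_cuspRing (l : ℕ) (hl : 0 < l) (γ : SL(2, ℤ)) {x : Mer}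
    (hx : x ∈ cuspRing) : γ • scaleMer l hl x ∈ cuspRing :=
  smul_mem_cuspRing (scaleMer_mem_cuspRing l hl hx) γ

/-- Finite products of translates of scalings stay in `cuspRing`. -/
theorem prod_smul_scaleMer_mem_cuspRing (l : ℕ) (hl : 0 < l) {ι : Type*} (s : Finset ι)
    (γ : ι → SL(2, ℤ)) {x : Mer} (hx : x ∈ cuspRing) :
    ∏ i ∈ s, γ i • scaleMer l hl x ∈ cuspRing :=
  Subring.prod_mem _ (fun i _ => smul_scaleMer_mem_cuspRing l hl (γ i) hx)

end Fermat.Agent.S29.H72
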