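import Mathlib

set_option autoImplicit false

/-!
# Degree squeeze (package P5-MODFUN-CORE, part (SQ) of the S29 project)

Mathlib-only field theory.

* `eq_of_forall_natDegree_le`: if `K0 ≤ E ≤ A ≤ M` are fields (characteristic zero),
  `n ≤ [E : K0] < ∞` and every element of `A` is a root of a nonzero polynomial of degree `≤ n`
  over `K0`, then `A = E`.
* `orbitPoly`: for a group `G` acting on a field `M` by ring automorphisms, a subgroup `Γ` of
  finite index and a `Γ`-fixed `x`, the polynomial `∏_{gΓ} (X - g • x)`; it is monic of degree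
  `[G : Γ]`, has `x` as a root and `G`-fixed coefficients.
* `mem_of_fixed_of_index_le`: the squeeze in group form. This is the algebraic core of
  "the `Γ0(N)`-invariant meromorphic functions, meromorphic at the cusps, are exactly `ℂ·F_N`".
-/

namespace Fermat.Agent.S29.H48

open Polynomial IntermediateField

section Squeeze

variable {K0 M : Type*} [Field K0] [Field M] [Algebra K0 M] [CharZero K0]

/-- **Degree squeeze.** -/
theorem le_of_forall_natDegree_le (E A : IntermediateField K0 M) (hEA : E ≤ A) (n : ℕ)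
    [FiniteDimensional K0 E] (hE : n ≤ Module.finrank K0 E)
    (hA : ∀ x ∈ A, ∃ P : K0[X], P ≠ 0 ∧ P.natDegree ≤ n ∧ aeval x P = 0) :
    A ≤ E := by
  intro x hx
  have hxint : IsIntegral K0 x := by
    obtain ⟨P, hP0, -, hP⟩ := hA x hx
    have halg : IsAlgebraic K0 x := ⟨P, hP0, hP⟩
    exact halg.isIntegral
  have : FiniteDimensional K0 K0⟮x⟯ := adjoin.finiteDimensional hxint
  set E' : IntermediateField K0 M := E ⊔ K0⟮x⟯ with hE'
  have : FiniteDimensional K0 E' := IntermediateField.finiteDimensional_sup E K0⟮x⟯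
  have hE'A : E' ≤ A := sup_le hEA (adjoin_le_iff.mpr (by simpa using hx))
  have : Algebra.IsSeparable K0 E' := Algebra.IsAlgebraic.isSeparable_of_perfectField
  obtain ⟨α, hα⟩ := Field.exists_primitive_element K0 E'
  have hαint : IsIntegral K0 α := IsIntegral.of_finite K0 α
  have h1 : Module.finrank K0 E' = (minpoly K0 α).natDegree := by
    rw [← adjoin.finrank hαint, hα, finrank_top']
  have h2 : minpoly K0 α = minpoly K0 (α : M) := (minpoly_eq α)
  obtain ⟨P, hP0, hPn, hP⟩ := hA (α : M) (hE'A α.2)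
  have h3 : (minpoly K0 (α : M)).natDegree ≤ P.natDegree :=
    natDegree_le_natDegree (minpoly.degree_le_of_ne_zero K0 (α : M) hP0 hP)
  have h4 : Module.finrank K0 E' ≤ Module.finrank K0 E := by
    rw [h1, h2]; exact (h3.trans hPn).trans hE
  have h5 : E = E' := eq_of_le_of_finrank_le le_sup_left h4
  rw [h5]
  exact (le_sup_right : K0⟮x⟯ ≤ E') (mem_adjoin_simple_self K0 x)

theorem eq_of_forall_natDegree_le (E A : IntermediateField K0 M) (hEA : E ≤ A) (n : ℕ)
    [FiniteDimensional K0 E] (hE : n ≤ Module.finrank K0 E)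
    (hA : ∀ x ∈ A, ∃ P : K0[X], P ≠ 0 ∧ P.natDegree ≤ n ∧ aeval x P = 0) :
    A = E :=
  le_antisymm (le_of_forall_natDegree_le E A hEA n hE hA) hEA

end Squeeze

section OrbitPoly

variable {G M : Type*} [Group G] [CommRing M] [MulSemiringAction G M]

/-- The value `g • x` on the coset `gΓ`, for a `Γ`-fixed `x`. -/
def cosetSMul (Γ : Subgroup G) (x : M) (hx : ∀ γ ∈ Γ, γ • x = x) : G ⧸ Γ → M :=
  Quotient.lift (fun g : G => g • x) (by
    intro a b hab
    have h : a⁻¹ * b ∈ Γ := QuotientGroup.leftRel_apply.mp hab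
    have h1 : b = a * (a⁻¹ * b) := by group
    show a • x = b • x
    rw [h1, mul_smul, hx _ h])

@[simp]
theorem cosetSMul_mk (Γ : Subgroup G) (x : M) (hx : ∀ γ ∈ Γ, γ • x = x) (g : G) :
    cosetSMul Γ x hx (g : G ⧸ Γ) = g • x := rfl

theorem smul_cosetSMul (Γ : Subgroup G) (x : M) (hx : ∀ γ ∈ Γ, γ • x = x) (g : G) (q : G ⧸ Γ) :
    g • cosetSMul Γ x hx q = cosetSMul Γ x hx (g • q) := by
  induction q using QuotientGroup.induction_on with
  | H a =>
    rw [cosetSMul_mk, ← mul_smul]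
    rfl

/-- `∏_{gΓ ∈ G/Γ} (X - g • x)` for a `Γ`-fixed element `x`. -/
noncomputable def orbitPoly (Γ : Subgroup G) [Γ.FiniteIndex] (x : M)
    (hx : ∀ γ ∈ Γ, γ • x = x) : M[X] :=
  letI := Subgroup.fintypeQuotientOfFiniteIndex (H := Γ)
  ∏ q : G ⧸ Γ, (X - C (cosetSMul Γ x hx q))

theorem orbitPoly_monic (Γ : Subgroup G) [Γ.FiniteIndex] (x : M) (hx : ∀ γ ∈ Γ, γ • x = x) :
    (orbitPoly Γ x hx).Monic := by
  letI := Subgroup.fintypeQuotientOfFiniteIndex (H := Γ)
  exact monic_prod_of_monic _ _ fun q _ => monic_X_sub_C _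

theorem orbitPoly_natDegree [Nontrivial M] (Γ : Subgroup G) [Γ.FiniteIndex] (x : M)
    (hx : ∀ γ ∈ Γ, γ • x = x) : (orbitPoly Γ x hx).natDegree = Γ.index := by
  letI := Subgroup.fintypeQuotientOfFiniteIndex (H := Γ)
  rw [orbitPoly, natDegree_prod_of_monic _ _ fun q _ => monic_X_sub_C _]
  simp only [natDegree_X_sub_C, Finset.sum_const, Finset.card_univ, smul_eq_mul, mul_one]
  rw [Subgroup.index_eq_card, Nat.card_eq_fintype_card]

theorem orbitPoly_eval_self (Γ : Subgroup G) [Γ.FiniteIndex] (x : M)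
    (hx : ∀ γ ∈ Γ, γ • x = x) : (orbitPoly Γ x hx).eval x = 0 := by
  letI := Subgroup.fintypeQuotientOfFiniteIndex (H := Γ)
  rw [orbitPoly, eval_prod]
  refine Finset.prod_eq_zero (Finset.mem_univ ((1 : G) : G ⧸ Γ)) ?_
  simp

theorem smul_orbitPoly (Γ : Subgroup G) [Γ.FiniteIndex] (x : M)
    (hx : ∀ γ ∈ Γ, γ • x = x) (g : G) : g • orbitPoly Γ x hx = orbitPoly Γ x hx := by
  letI := Subgroup.fintypeQuotientOfFiniteIndex (H := Γ)
  rw [orbitPoly, Finset.smul_prod']
  simp only [smul_sub, smul_X, smul_C, smul_cosetSMul]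
  exact Fintype.prod_equiv (MulAction.toPerm g) _ _ fun q => rfl

theorem smul_coeff_orbitPoly (Γ : Subgroup G) [Γ.FiniteIndex] (x : M)
    (hx : ∀ γ ∈ Γ, γ • x = x) (g : G) (k : ℕ) :
    g • (orbitPoly Γ x hx).coeff k = (orbitPoly Γ x hx).coeff k := by
  conv_rhs => rw [← smul_orbitPoly Γ x hx g]
  rw [Polynomial.smul_eq_map, coeff_map]
  rfl

/-- The coefficients of the orbit polynomial lie in every `G`-stable subring containing `x`. -/
theorem coeff_orbitPoly_mem (Γ : Subgroup G) [Γ.FiniteIndex] (x : M)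
    (hx : ∀ γ ∈ Γ, γ • x = x) (R : Subring M) (hR : ∀ (g : G), ∀ y ∈ R, g • y ∈ R)
    (hxR : x ∈ R) (k : ℕ) : (orbitPoly Γ x hx).coeff k ∈ R := by
  letI := Subgroup.fintypeQuotientOfFiniteIndex (H := Γ)
  have hq : ∀ q : G ⧸ Γ, cosetSMul Γ x hx q ∈ R := by
    intro q
    induction q using QuotientGroup.induction_on with
    | H a => exact hR a x hxR
  have h : orbitPoly Γ x hx =
      (∏ q : G ⧸ Γ, (X - C (⟨cosetSMul Γ x hx q, hq q⟩ : R))).map R.subtype := by
    rw [orbitPoly, Polynomial.map_prod]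
    refine Finset.prod_congr rfl fun q _ => ?_
    simp
  rw [h, coeff_map]
  exact Subtype.property _

end OrbitPoly

section GroupSqueeze

variable {K0 M G : Type*} [Field K0] [Field M] [Algebra K0 M] [Group G]
  [MulSemiringAction G M]

/-- The `Γ`-fixed elements of a `G`-stable intermediate field `R`, as an intermediate field
(the base field `K0` being `G`-fixed). -/
def fixedInter (hfix : ∀ (g : G) (c : K0), g • algebraMap K0 M c = algebraMap K0 M c)
    (R : IntermediateField K0 M) (Γ : Subgroup G) : IntermediateField K0 M where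
  carrier := {x | x ∈ R ∧ ∀ γ ∈ Γ, γ • x = x}
  mul_mem' := fun {a b} ha hb => ⟨R.mul_mem ha.1 hb.1, fun γ hγ => by
    rw [smul_mul', ha.2 γ hγ, hb.2 γ hγ]⟩
  one_mem' := ⟨R.one_mem, fun γ _ => smul_one γ⟩
  add_mem' := fun {a b} ha hb => ⟨R.add_mem ha.1 hb.1, fun γ hγ => by
    rw [smul_add, ha.2 γ hγ, hb.2 γ hγ]⟩
  zero_mem' := ⟨R.zero_mem, fun γ _ => smul_zero γ⟩
  algebraMap_mem' := fun c => ⟨R.algebraMap_mem c, fun γ _ => hfix γ c⟩
  inv_mem' := fun a ha => ⟨R.inv_mem ha.1, fun γ hγ => by rw [smul_inv'', ha.2 γ hγ]⟩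

theorem mem_fixedInter (hfix : ∀ (g : G) (c : K0), g • algebraMap K0 M c = algebraMap K0 M c)
    (R : IntermediateField K0 M) (Γ : Subgroup G) (x : M) :
    x ∈ fixedInter hfix R Γ ↔ x ∈ R ∧ ∀ γ ∈ Γ, γ • x = x := Iff.rfl

/-- Every `Γ`-fixed element of `R` is a root of a monic polynomial of degree `[G : Γ]` over `K0`,
provided the `G`-fixed elements of `R` lie in `K0`. -/
theorem exists_monic_of_fixed
    (R : IntermediateField K0 M) (hR : ∀ (g : G), ∀ y ∈ R, g • y ∈ R)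
    (hK0 : ∀ y ∈ R, (∀ g : G, g • y = y) → y ∈ Set.range (algebraMap K0 M))
    (Γ : Subgroup G) [Γ.FiniteIndex] (x : M) (hxR : x ∈ R) (hx : ∀ γ ∈ Γ, γ • x = x) :
    ∃ P : K0[X], P.Monic ∧ P.natDegree = Γ.index ∧ aeval x P = 0 := by
  have hl : orbitPoly Γ x hx ∈ lifts (algebraMap K0 M) := by
    rw [lifts_iff_coeff_lifts]
    intro k
    exact hK0 _ (coeff_orbitPoly_mem Γ x hx R.toSubring hR hxR k)
      (fun g => smul_coeff_orbitPoly Γ x hx g k)
  obtain ⟨P, hP, hdeg, hmon⟩ :=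
    lifts_and_natDegree_eq_and_monic hl (orbitPoly_monic Γ x hx)
  refine ⟨P, hmon, ?_, ?_⟩
  · rw [hdeg, orbitPoly_natDegree]
  · rw [aeval_def, eval₂_eq_eval_map, hP, orbitPoly_eval_self]

/-- **Degree squeeze, group form.** `G` acts on the field `M` by ring automorphisms fixing `K0`;
`R` is a `G`-stable intermediate field whose `G`-fixed elements lie in `K0`; `Γ ≤ G` has finite
index; `E ≤ R` consists of `Γ`-fixed elements and `[G : Γ] ≤ [E : K0] < ∞`. Then every
`Γ`-fixed element of `R` lies in `E`. -/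
theorem mem_of_fixed_of_index_le [CharZero K0]
    (hfix : ∀ (g : G) (c : K0), g • algebraMap K0 M c = algebraMap K0 M c)
    (R : IntermediateField K0 M) (hR : ∀ (g : G), ∀ y ∈ R, g • y ∈ R)
    (hK0 : ∀ y ∈ R, (∀ g : G, g • y = y) → y ∈ Set.range (algebraMap K0 M))
    (Γ : Subgroup G) [Γ.FiniteIndex]
    (E : IntermediateField K0 M) [FiniteDimensional K0 E]
    (hER : E ≤ R) (hEΓ : ∀ y ∈ E, ∀ γ ∈ Γ, γ • y = y)
    (hdeg : Γ.index ≤ Module.finrank K0 E)
    (x : M) (hxR : x ∈ R) (hx : ∀ γ ∈ Γ, γ • x = x) : x ∈ E := by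
  have hle : fixedInter hfix R Γ ≤ E := by
    refine le_of_forall_natDegree_le E (fixedInter hfix R Γ)
      (fun y hy => ⟨hER hy, hEΓ y hy⟩) Γ.index hdeg ?_
    intro y hy
    obtain ⟨P, hmon, hdeg', hP⟩ := exists_monic_of_fixed R hR hK0 Γ y hy.1 hy.2
    exact ⟨P, hmon.ne_zero, hdeg'.le, hP⟩
  exact hle ⟨hxR, hx⟩

/-- In the situation of `mem_of_fixed_of_index_le`, in fact `[E : K0] = [G : Γ]`. -/
theorem finrank_eq_index_of_fixed [CharZero K0]
    (R : IntermediateField K0 M) (hR : ∀ (g : G), ∀ y ∈ R, g • y ∈ R)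
    (hK0 : ∀ y ∈ R, (∀ g : G, g • y = y) → y ∈ Set.range (algebraMap K0 M))
    (Γ : Subgroup G) [Γ.FiniteIndex]
    (E : IntermediateField K0 M) [FiniteDimensional K0 E]
    (hER : E ≤ R) (hEΓ : ∀ y ∈ E, ∀ γ ∈ Γ, γ • y = y)
    (hdeg : Γ.index ≤ Module.finrank K0 E) : Module.finrank K0 E = Γ.index := by
  refine le_antisymm ?_ hdeg
  have : Algebra.IsSeparable K0 E := Algebra.IsAlgebraic.isSeparable_of_perfectField
  obtain ⟨α, hα⟩ := Field.exists_primitive_element K0 E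
  have hαint : IsIntegral K0 α := IsIntegral.of_finite K0 α
  have h1 : Module.finrank K0 E = (minpoly K0 α).natDegree := by
    rw [← adjoin.finrank hαint, hα, finrank_top']
  obtain ⟨P, hmon, hdeg', hP⟩ :=
    exists_monic_of_fixed R hR hK0 Γ (α : M) (hER α.2) (hEΓ _ α.2)
  rw [h1, minpoly_eq α, ← hdeg']
  exact natDegree_le_natDegree (minpoly.degree_le_of_ne_zero K0 (α : M) hmon.ne_zero hP)

/-! ### The same for a `G`-stable subring `R` (no closure under inverses needed) -/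

/-- Every `Γ`-fixed element of a `G`-stable subring `R` is a root of a monic polynomial of degree
`[G : Γ]` over `K0`, provided the `G`-fixed elements of `R` lie in `K0`. -/
theorem exists_monic_of_fixed_subring
    (R : Subring M) (hR : ∀ (g : G), ∀ y ∈ R, g • y ∈ R)
    (hK0 : ∀ y ∈ R, (∀ g : G, g • y = y) → y ∈ Set.range (algebraMap K0 M))
    (Γ : Subgroup G) [Γ.FiniteIndex] (x : M) (hxR : x ∈ R) (hx : ∀ γ ∈ Γ, γ • x = x) :
    ∃ P : K0[X], P.Monic ∧ P.natDegree = Γ.index ∧ aeval x P = 0 := by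
  have hl : orbitPoly Γ x hx ∈ lifts (algebraMap K0 M) := by
    rw [lifts_iff_coeff_lifts]
    intro k
    exact hK0 _ (coeff_orbitPoly_mem Γ x hx R hR hxR k)
      (fun g => smul_coeff_orbitPoly Γ x hx g k)
  obtain ⟨P, hP, hdeg, hmon⟩ :=
    lifts_and_natDegree_eq_and_monic hl (orbitPoly_monic Γ x hx)
  refine ⟨P, hmon, ?_, ?_⟩
  · rw [hdeg, orbitPoly_natDegree]
  · rw [aeval_def, eval₂_eq_eval_map, hP, orbitPoly_eval_self]

/-- The `Γ`-fixed elements of a subring `R ⊇ K0`, as a subalgebra. -/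
def fixedSubalg
    (hfix : ∀ (g : G) (c : K0), g • algebraMap K0 M c = algebraMap K0 M c)
    (R : Subring M) (hRK : ∀ c : K0, algebraMap K0 M c ∈ R) (Γ : Subgroup G) :
    Subalgebra K0 M where
  carrier := {x | x ∈ R ∧ ∀ γ ∈ Γ, γ • x = x}
  mul_mem' := fun {a b} ha hb => ⟨R.mul_mem ha.1 hb.1, fun γ hγ => by
    rw [smul_mul', ha.2 γ hγ, hb.2 γ hγ]⟩
  one_mem' := ⟨R.one_mem, fun γ _ => smul_one γ⟩
  add_mem' := fun {a b} ha hb => ⟨R.add_mem ha.1 hb.1, fun γ hγ => by
    rw [smul_add, ha.2 γ hγ, hb.2 γ hγ]⟩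
  zero_mem' := ⟨R.zero_mem, fun γ _ => smul_zero γ⟩
  algebraMap_mem' := fun c => ⟨hRK c, fun γ _ => hfix γ c⟩

/-- The `Γ`-fixed elements of a `G`-stable subring `R ⊇ K0` whose `G`-fixed elements lie in `K0`
form an intermediate field (they are algebraic over `K0`). -/
def fixedInterSubring
    (hfix : ∀ (g : G) (c : K0), g • algebraMap K0 M c = algebraMap K0 M c)
    (R : Subring M) (hR : ∀ (g : G), ∀ y ∈ R, g • y ∈ R)
    (hRK : ∀ c : K0, algebraMap K0 M c ∈ R)
    (hK0 : ∀ y ∈ R, (∀ g : G, g • y = y) → y ∈ Set.range (algebraMap K0 M))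
    (Γ : Subgroup G) [Γ.FiniteIndex] : IntermediateField K0 M :=
  Subalgebra.toIntermediateField (fixedSubalg hfix R hRK Γ)
    (by
      intro x hx
      have halg : IsAlgebraic K0 x := by
        obtain ⟨P, hmon, -, hP⟩ := exists_monic_of_fixed_subring R hR hK0 Γ x hx.1 hx.2
        exact ⟨P, hmon.ne_zero, hP⟩
      exact Subalgebra.inv_mem_of_algebraic (A := fixedSubalg hfix R hRK Γ) (x := ⟨x, hx⟩) halg)

theorem mem_fixedInterSubring
    (hfix : ∀ (g : G) (c : K0), g • algebraMap K0 M c = algebraMap K0 M c)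
    (R : Subring M) (hR : ∀ (g : G), ∀ y ∈ R, g • y ∈ R)
    (hRK : ∀ c : K0, algebraMap K0 M c ∈ R)
    (hK0 : ∀ y ∈ R, (∀ g : G, g • y = y) → y ∈ Set.range (algebraMap K0 M))
    (Γ : Subgroup G) [Γ.FiniteIndex] (x : M) :
    x ∈ fixedInterSubring hfix R hR hRK hK0 Γ ↔ x ∈ R ∧ ∀ γ ∈ Γ, γ • x = x := Iff.rfl

/-- **Degree squeeze, group form, for a subring `R`.** -/
theorem mem_of_fixed_of_index_le_subring [CharZero K0]
    (hfix : ∀ (g : G) (c : K0), g • algebraMap K0 M c = algebraMap K0 M c)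
    (R : Subring M) (hR : ∀ (g : G), ∀ y ∈ R, g • y ∈ R)
    (hK0 : ∀ y ∈ R, (∀ g : G, g • y = y) → y ∈ Set.range (algebraMap K0 M))
    (Γ : Subgroup G) [Γ.FiniteIndex]
    (E : IntermediateField K0 M) [FiniteDimensional K0 E]
    (hER : ∀ y ∈ E, y ∈ R) (hEΓ : ∀ y ∈ E, ∀ γ ∈ Γ, γ • y = y)
    (hdeg : Γ.index ≤ Module.finrank K0 E)
    (x : M) (hxR : x ∈ R) (hx : ∀ γ ∈ Γ, γ • x = x) : x ∈ E := by
  have hRK : ∀ c : K0, algebraMap K0 M c ∈ R := fun c => hER _ (E.algebraMap_mem c)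
  have hle : fixedInterSubring hfix R hR hRK hK0 Γ ≤ E := by
    refine le_of_forall_natDegree_le E (fixedInterSubring hfix R hR hRK hK0 Γ)
      (fun y hy => ⟨hER y hy, hEΓ y hy⟩) Γ.index hdeg ?_
    intro y hy
    obtain ⟨P, hmon, hdeg', hP⟩ := exists_monic_of_fixed_subring R hR hK0 Γ y hy.1 hy.2
    exact ⟨P, hmon.ne_zero, hdeg'.le, hP⟩
  exact hle ⟨hxR, hx⟩

end GroupSqueeze

section HomForm

variable {K0 E M G : Type*} [Field K0] [Field E] [Algebra K0 E] [Field M] [Group G]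
  [MulSemiringAction G M]

/-- **Degree squeeze, hom form.** `θ : E →+* M` realises the finite extension `E / K0` inside a
field `M` on which `G` acts; `R` is a `G`-stable subring of `M` containing `θ E` whose `G`-fixed
elements come from `K0`; `θ E` is fixed by the subgroup `Γ` of finite index, `θ K0` by all of `G`,
and `[G : Γ] ≤ [E : K0]`. Then every `Γ`-fixed element of `R` lies in `θ E`. -/
theorem exists_eq_of_fixed_of_index_le [CharZero K0] [FiniteDimensional K0 E]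
    (θ : E →+* M) (R : Subring M) (hR : ∀ (g : G), ∀ y ∈ R, g • y ∈ R)
    (hK0 : ∀ y ∈ R, (∀ g : G, g • y = y) → ∃ k : K0, θ (algebraMap K0 E k) = y)
    (Γ : Subgroup G) [Γ.FiniteIndex]
    (hθR : ∀ f : E, θ f ∈ R) (hθΓ : ∀ (f : E), ∀ γ ∈ Γ, γ • θ f = θ f)
    (hθG : ∀ (k : K0) (g : G), g • θ (algebraMap K0 E k) = θ (algebraMap K0 E k))
    (hdeg : Γ.index ≤ Module.finrank K0 E)
    (x : M) (hxR : x ∈ R) (hx : ∀ γ ∈ Γ, γ • x = x) : ∃ f : E, θ f = x := by
  letI : Algebra K0 M := (θ.comp (algebraMap K0 E)).toAlgebra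
  let θA : E →ₐ[K0] M := { θ with commutes' := fun _ => rfl }
  have hθA : ∀ f, θA f = θ f := fun _ => rfl
  let e : E ≃ₐ[K0] θA.fieldRange := θA.equivFieldRange
  have : FiniteDimensional K0 θA.fieldRange := e.toLinearEquiv.finiteDimensional
  have hrank : Module.finrank K0 θA.fieldRange = Module.finrank K0 E :=
    e.toLinearEquiv.finrank_eq.symm
  have hmem := mem_of_fixed_of_index_le_subring (K0 := K0) (M := M) (G := G)
    (fun g c => hθG c g) R hR
    (fun y hy hfixy => by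
      obtain ⟨k, hk⟩ := hK0 y hy hfixy
      exact ⟨k, hk⟩)
    Γ θA.fieldRange
    (fun y hy => by
      obtain ⟨f, rfl⟩ := AlgHom.mem_fieldRange.mp hy
      exact hθR f)
    (fun y hy γ hγ => by
      obtain ⟨f, rfl⟩ := AlgHom.mem_fieldRange.mp hy
      exact hθΓ f γ hγ)
    (by rw [hrank]; exact hdeg) x hxR hx
  obtain ⟨f, hf⟩ := AlgHom.mem_fieldRange.mp hmem
  exact ⟨f, hf⟩

end HomForm

end Fermat.Agent.S29.H48
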