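import Mathlib
import Fermat.Agent.S24.H8_HolMaps

set_option autoImplicit false

/-!
# Division of holomorphic functions on the upper half plane (package P5-MODFUN-CORE)

* `finite_zeros_of_isCompact`: a nonzero holomorphic function on `ℍ` has finitely many zeros in
  every compact subset of the upper half plane.
* `ord_le_of_norm_le`: if `‖a‖ ≤ K ‖b‖` near `τ` then `ord_τ b ≤ ord_τ a`.
* `exists_mdiff_mul_eq`: if `ord_τ b ≤ ord_τ u` for all `τ` then `u = c * b` with `c` holomorphic.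
-/

open UpperHalfPlane Filter Topology
open scoped Manifold MatrixGroups

noncomputable section

namespace Fermat.Agent.S29.H48

open Fermat.Agent.S24.H8

/-- The meromorphic order of a nonzero holomorphic function is its `ordHol`. -/
theorem meromorphicOrderAt_eq_ordHol {g : Hol} (hg : g ≠ 0) (τ : ℍ) :
    meromorphicOrderAt ((g : ℍ → ℂ) ∘ ofComplex) (τ : ℂ) = ((ordHol τ g : ℤ) : WithTop ℤ) := by
  rw [(Hol_analyticAt g τ).meromorphicOrderAt_eq,
    ← Nat.cast_analyticOrderNatAt (Hol_analyticOrderAt_ne_top hg τ)]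
  rfl

/-- A nonzero holomorphic function on `ℍ` has finitely many zeros in a compact subset. -/
theorem finite_zeros_of_isCompact {b : ℍ → ℂ} (hb : MDiff b) (hb0 : b ≠ 0) {K : Set ℂ}
    (hK : IsCompact K) (hKU : K ⊆ upperHalfPlaneSet) :
    {z ∈ K | (b ∘ ofComplex) z = 0}.Finite := by
  by_contra hinf
  obtain ⟨z0, hz0K, hacc⟩ :=
    (Set.not_finite.mp hinf).exists_accPt_of_subset_isCompact hK (fun z hz => hz.1)
  rw [accPt_iff_frequently_nhdsNE] at hacc
  have hfreq : ∃ᶠ z in 𝓝[≠] z0, (b ∘ ofComplex) z = 0 := hacc.mono fun z hz => hz.2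
  have h0 := (analyticOnNhd_comp_ofComplex' hb).eqOn_zero_of_preconnected_of_frequently_eq_zero
    (Convex.isPreconnected (convex_halfSpace_im_gt 0)) (hKU hz0K) hfreq
  apply hb0
  ext τ
  have h1 := h0 τ.im_pos
  simpa using h1

/-- If `‖a‖ ≤ K ‖b‖` in a punctured neighbourhood of `τ` then `ord_τ b ≤ ord_τ a`. -/
theorem ordHol_le_of_norm_le {a b : Hol} (ha : a ≠ 0) (hb : b ≠ 0) (τ : ℍ) (K : ℝ)
    (h : ∀ᶠ z in 𝓝[≠] (τ : ℂ),
      ‖((a : ℍ → ℂ) ∘ ofComplex) z‖ ≤ K * ‖((b : ℍ → ℂ) ∘ ofComplex) z‖) :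
    ordHol τ b ≤ ordHol τ a := by
  set A : ℂ → ℂ := (a : ℍ → ℂ) ∘ ofComplex with hA
  set B : ℂ → ℂ := (b : ℍ → ℂ) ∘ ofComplex with hB
  have hAm : MeromorphicAt A τ := (Hol_analyticAt a τ).meromorphicAt
  have hBm : MeromorphicAt B τ := (Hol_analyticAt b τ).meromorphicAt
  have hFm : MeromorphicAt (A / B) τ := hAm.div hBm
  have hord : meromorphicOrderAt (A / B) (τ : ℂ) =
      ((ordHol τ a : ℤ) : WithTop ℤ) - ((ordHol τ b : ℤ) : WithTop ℤ) := by
    rw [meromorphicOrderAt_div hAm hBm, meromorphicOrderAt_eq_ordHol ha,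
      meromorphicOrderAt_eq_ordHol hb]
  by_contra hlt
  rw [not_le] at hlt
  have hneg : meromorphicOrderAt (A / B) (τ : ℂ) < 0 := by
    rw [hord, ← WithTop.LinearOrderedAddCommGroup.coe_sub, ← WithTop.coe_zero,
      WithTop.coe_lt_coe]
    omega
  have htend := tendsto_cobounded_of_meromorphicOrderAt_neg hneg
  rw [← tendsto_norm_atTop_iff_cobounded] at htend
  have hev := htend.eventually (eventually_gt_atTop (max K 0))
  obtain ⟨z, hz1, hz2⟩ := (hev.and h).exists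
  have hK0 : K ≤ max K 0 := le_max_left _ _
  have h0 : (0 : ℝ) ≤ max K 0 := le_max_right _ _
  simp only [Pi.div_apply, norm_div] at hz1
  by_cases hBz : B z = 0
  · rw [hBz, norm_zero, div_zero] at hz1
    linarith
  · have hpos : 0 < ‖B z‖ := norm_pos_iff.mpr hBz
    rw [lt_div_iff₀ hpos] at hz1
    have : K * ‖B z‖ ≤ max K 0 * ‖B z‖ := mul_le_mul_of_nonneg_right hK0 hpos.le
    linarith

/-- **Holomorphic division.** If `ord_τ b ≤ ord_τ u` everywhere, then `u = c * b` with `c`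
holomorphic on `ℍ`. -/
theorem exists_mul_eq_of_ordHol_le {u b : Hol} (hu : u ≠ 0) (hb : b ≠ 0)
    (hord : ∀ τ : ℍ, ordHol τ b ≤ ordHol τ u) : ∃ c : Hol, c * b = u := by
  set Uc : ℂ → ℂ := (u : ℍ → ℂ) ∘ ofComplex with hUc
  set Bc : ℂ → ℂ := (b : ℍ → ℂ) ∘ ofComplex with hBc
  set G : ℂ → ℂ := Uc / Bc with hG
  have hGmer : MeromorphicOn G upperHalfPlaneSet := fun z hz =>
    (Hol_analyticAt u ⟨z, hz⟩).meromorphicAt.div (Hol_analyticAt b ⟨z, hz⟩).meromorphicAt
  have hGord : ∀ z ∈ upperHalfPlaneSet, 0 ≤ meromorphicOrderAt G z := by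
    intro z hz
    have h1 : meromorphicOrderAt G z = meromorphicOrderAt Uc z - meromorphicOrderAt Bc z :=
      meromorphicOrderAt_div (Hol_analyticAt u ⟨z, hz⟩).meromorphicAt
        (Hol_analyticAt b ⟨z, hz⟩).meromorphicAt
    have h2 := meromorphicOrderAt_eq_ordHol hu ⟨z, hz⟩
    have h3 := meromorphicOrderAt_eq_ordHol hb ⟨z, hz⟩
    change meromorphicOrderAt Uc z = _ at h2
    change meromorphicOrderAt Bc z = _ at h3
    rw [h1, h2, h3, ← WithTop.LinearOrderedAddCommGroup.coe_sub, ← WithTop.coe_zero,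
      WithTop.coe_le_coe]
    have := hord ⟨z, hz⟩
    omega
  set c' : ℂ → ℂ := toMeromorphicNFOn G upperHalfPlaneSet with hc'
  have hc'an : ∀ z ∈ upperHalfPlaneSet, AnalyticAt ℂ c' z := by
    intro z hz
    refine ((meromorphicNFOn_toMeromorphicNFOn G upperHalfPlaneSet)
      hz).meromorphicOrderAt_nonneg_iff_analyticAt.1 ?_
    rw [meromorphicOrderAt_toMeromorphicNFOn hGmer hz]
    exact hGord z hz
  have hcmd : MDiff (fun τ : ℍ => c' τ) := by
    rw [UpperHalfPlane.mdifferentiable_iff]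
    have hd : DifferentiableOn ℂ c' upperHalfPlaneSet := fun z hz =>
      (hc'an z hz).differentiableAt.differentiableWithinAt
    refine hd.congr fun z hz => ?_
    simp only [Function.comp_apply]
    rw [ofComplex_apply_of_im_pos hz]
  refine ⟨⟨fun τ : ℍ => c' τ, hcmd⟩, ?_⟩
  -- the relation holds where `b ≠ 0`
  have hrel : ∀ τ : ℍ, (b : ℍ → ℂ) τ ≠ 0 → c' τ * (b : ℍ → ℂ) τ = (u : ℍ → ℂ) τ := by
    intro τ hbτ
    have hBτ : Bc τ ≠ 0 := by simpa [hBc] using hbτ
    have hGan : AnalyticAt ℂ G τ := (Hol_analyticAt u τ).div (Hol_analyticAt b τ) hBτ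
    have h1 : c' τ = G τ := by
      rw [hc', toMeromorphicNFOn_eq_toMeromorphicNFAt hGmer τ.im_pos,
        toMeromorphicNFAt_eq_self.2 hGan.meromorphicNFAt]
    rw [h1, hG]
    simp only [Pi.div_apply]
    have h2 : Uc τ = (u : ℍ → ℂ) τ := by simp [hUc]
    have h3 : Bc τ = (b : ℍ → ℂ) τ := by simp [hBc]
    rw [h2, h3, div_mul_cancel₀ _ hbτ]
  -- hence everywhere, `Hol` being a domain
  set cH : Hol := ⟨fun τ : ℍ => c' τ, hcmd⟩ with hcH
  have hmul : (cH * b - u) * b = 0 := by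
    apply Subtype.ext
    funext τ
    by_cases hbτ : (b : ℍ → ℂ) τ = 0
    · change ((cH * b - u : Hol) : ℍ → ℂ) τ * (b : ℍ → ℂ) τ = 0
      rw [hbτ, mul_zero]
    · change (c' τ * (b : ℍ → ℂ) τ - (u : ℍ → ℂ) τ) * (b : ℍ → ℂ) τ = 0
      rw [hrel τ hbτ, sub_self, zero_mul]
  rcases mul_eq_zero.mp hmul with h | h
  · exact sub_eq_zero.mp h
  · exact absurd h hb

end Fermat.Agent.S29.H48
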