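import Mathlib
import Fermat.Agent.S24.H6_JStructure
import Fermat.Agent.S24.H28_JAnalytic
import Fermat.Agent.S29.H48_HolDiv

set_option autoImplicit false

/-!
# Level one meromorphic structure theorem (package P5-MODFUN-CORE, part (L1))

A quotient `a / b` of holomorphic functions on `ℍ` which is `SL(2, ℤ)`-invariant and meromorphic
at `i∞` is a rational function of `J`.
-/

open UpperHalfPlane Filter Topology ModularForm EisensteinSeries
open scoped Manifold MatrixGroups Real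

noncomputable section

namespace Fermat.Agent.S29.H48

open Fermat.Agent.S24.H8 Fermat.Agent.S24.H28 Fermat.Agent.S24

/-! ### The structure theorem of `H6_JStructure` with an eventual growth bound -/

theorem isBoundedAtImInfty_mul_discriminant_pow_of_eventually (c : ℍ → ℂ) (M : ℕ) (C A : ℝ)
    (hgrowth : ∀ τ : ℍ, A ≤ τ.im → ‖c τ‖ ≤ C * Real.exp (2 * Real.pi * M * τ.im)) :
    IsBoundedAtImInfty (fun τ => c τ * discriminant τ ^ M) := by
  have h1 : c =O[atImInfty] fun τ : ℍ => Real.exp (2 * Real.pi * M * τ.im) := by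
    refine Asymptotics.IsBigO.of_bound C ((atImInfty_mem _).mpr ⟨A, fun τ hτ => ?_⟩)
    simpa [Real.norm_eq_abs, abs_of_pos (Real.exp_pos _)] using hgrowth τ hτ
  have h2 : (discriminant : ℍ → ℂ) =O[atImInfty]
      fun τ : ℍ => Real.exp (-2 * Real.pi * τ.im / 1) :=
    CuspFormClass.exp_decay_atImInfty (f := CuspForm.discriminant) one_pos
      one_mem_strictPeriods_SL
  have h3 := h1.mul (h2.pow M)
  rw [IsBoundedAtImInfty, BoundedAtFilter]
  refine h3.trans (Asymptotics.IsBigO.of_bound 1 (Eventually.of_forall fun τ => ?_))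
  have h4 : Real.exp (2 * Real.pi * M * τ.im) * Real.exp (-2 * Real.pi * τ.im / 1) ^ M = 1 := by
    rw [← Real.exp_nat_mul, ← Real.exp_add]
    convert Real.exp_zero using 2
    ring
  rw [h4]
  simp

/-- `c * Δ ^ M` as a modular form of weight `12 * M` (eventual growth bound). -/
def mulDiscriminantPowEv (c : ℍ → ℂ) (hc : MDiff c)
    (hinv : ∀ (γ : SL(2, ℤ)) (τ : ℍ), c (γ • τ) = c τ) (M : ℕ) (C A : ℝ)
    (hgrowth : ∀ τ : ℍ, A ≤ τ.im → ‖c τ‖ ≤ C * Real.exp (2 * Real.pi * M * τ.im)) :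
    ModularForm 𝒮ℒ (12 * (M : ℤ)) where
  toFun τ := c τ * discriminant τ ^ M
  slash_action_eq' A hA := by
    obtain ⟨γ, rfl⟩ := hA
    exact H6.slash_mul_discriminant_pow c hinv M γ
  holo' := hc.mul (CuspForm.discriminant.holo'.pow M)
  bdd_at_cusps' {x} hx := by
    rw [Subgroup.IsArithmetic.isCusp_iff_isCusp_SL2Z] at hx
    rw [OnePoint.isBoundedAt_iff_forall_SL2Z hx]
    intro γ _
    rw [H6.slash_mul_discriminant_pow c hinv M γ]
    exact isBoundedAtImInfty_mul_discriminant_pow_of_eventually c M C A hgrowth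

/-- Structure theorem with an eventual growth bound. -/
theorem exists_polynomial_eq_of_invariant_of_eventually (c : ℍ → ℂ) (hc : MDiff c)
    (hinv : ∀ (γ : SL(2, ℤ)) (τ : ℍ), c (γ • τ) = c τ) (M : ℕ) (C A : ℝ)
    (hgrowth : ∀ τ : ℍ, A ≤ τ.im → ‖c τ‖ ≤ C * Real.exp (2 * Real.pi * M * τ.im)) :
    ∃ P : Polynomial ℂ, P.natDegree ≤ M ∧ ∀ τ : ℍ, c τ = P.eval (H28.J τ) := by
  obtain ⟨P, hP, h⟩ := H6.exists_polynomial_of_modularForm M _ rfl
    (mulDiscriminantPowEv c hc hinv M C A hgrowth)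
  refine ⟨P, hP, fun τ => ?_⟩
  have h1 : c τ * discriminant τ ^ M =
      P.eval (E₄ τ ^ 3 / discriminant τ) * discriminant τ ^ M := h τ
  rw [H28.J_def]
  exact mul_right_cancel₀ (pow_ne_zero M (discriminant_ne_zero τ)) h1

/-! ### Polynomials in `J` -/

/-- `J` as an element of `Hol`. -/
def JH : Hol := ⟨H28.J, H28.J_mdiff⟩

/-- `Q(J)` as an element of `Hol`. -/
def polyJ (Q : Polynomial ℂ) : Hol := Polynomial.aeval JH Q

/-- evaluation at a point as an algebra hom on `Hol`. -/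
def evalHol (τ : ℍ) : Hol →ₐ[ℂ] ℂ := (Pi.evalAlgHom ℂ (fun _ : ℍ => ℂ) τ).comp Hol.val

@[simp] theorem evalHol_apply (τ : ℍ) (g : Hol) : evalHol τ g = (g : ℍ → ℂ) τ := rfl

theorem polyJ_apply (Q : Polynomial ℂ) (τ : ℍ) : (polyJ Q : ℍ → ℂ) τ = Q.eval (H28.J τ) := by
  have h := Polynomial.aeval_algHom_apply (evalHol τ) JH Q
  rw [evalHol_apply, evalHol_apply] at h
  rw [polyJ, ← h, Polynomial.coe_aeval_eq_eval]
  rfl

theorem polyJ_smul (Q : Polynomial ℂ) (γ : SL(2, ℤ)) (τ : ℍ) :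
    (polyJ Q : ℍ → ℂ) (γ • τ) = (polyJ Q : ℍ → ℂ) τ := by
  rw [polyJ_apply, polyJ_apply, H28.J_smul]

theorem compSL_polyJ (Q : Polynomial ℂ) (γ : SL(2, ℤ)) : compSL γ (polyJ Q) = polyJ Q := by
  apply Subtype.ext
  funext τ
  exact polyJ_smul Q γ τ

theorem polyJ_ne_zero {Q : Polynomial ℂ} (hQ : Q ≠ 0) : polyJ Q ≠ 0 := by
  intro h
  apply hQ
  apply Polynomial.funext
  intro w
  obtain ⟨τ, rfl⟩ := H28.J_surjective w
  rw [← polyJ_apply, h, Polynomial.eval_zero]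
  rfl

theorem polyJ_mul (P Q : Polynomial ℂ) : polyJ (P * Q) = polyJ P * polyJ Q := map_mul _ _ _

theorem polyJ_pow (P : Polynomial ℂ) (n : ℕ) : polyJ (P ^ n) = polyJ P ^ n := map_pow _ _ _

theorem norm_eval_le_of_norm_le (P : Polynomial ℂ) {x : ℂ} {R : ℝ} (hR : 1 ≤ R) (hx : ‖x‖ ≤ R) :
    ‖P.eval x‖ ≤ (∑ i ∈ Finset.range (P.natDegree + 1), ‖P.coeff i‖) * R ^ P.natDegree := by
  rw [Polynomial.eval_eq_sum_range, Finset.sum_mul]
  refine (norm_sum_le _ _).trans (Finset.sum_le_sum fun i hi => ?_)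
  rw [norm_mul, norm_pow]
  have hi' : i ≤ P.natDegree := Nat.lt_succ_iff.mp (Finset.mem_range.mp hi)
  have h1 : ‖x‖ ^ i ≤ R ^ i := pow_le_pow_left₀ (norm_nonneg _) hx i
  have h2 : R ^ i ≤ R ^ P.natDegree := pow_le_pow_right₀ hR hi'
  exact mul_le_mul_of_nonneg_left (h1.trans h2) (norm_nonneg _)

theorem ordHol_pow (τ : ℍ) {g : Hol} (hg : g ≠ 0) (n : ℕ) : ordHol τ (g ^ n) = n * ordHol τ g := by
  induction n with
  | zero =>
    rw [pow_zero]
    have h1 : (1 : Hol) = algebraMap ℂ Hol 1 := (map_one _).symm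
    rw [h1, ordHol_algebraMap τ one_ne_zero]
    simp
  | succ n ih =>
    rw [pow_succ, ordHol_mul τ (pow_ne_zero n hg) hg, ih]
    push_cast
    ring

/-! ### The truncated fundamental domain -/

/-- The standard fundamental domain truncated at height `c`, as a subset of `ℂ`. -/
def truncFD (c : ℝ) : Set ℂ :=
  {z : ℂ | 1 ≤ Complex.normSq z ∧ |z.re| ≤ 1 / 2 ∧ 0 ≤ z.im ∧ z.im ≤ c}

theorem isCompact_truncFD (c : ℝ) : IsCompact (truncFD c) := by
  apply Metric.isCompact_of_isClosed_isBounded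
  · have h1 : IsClosed {z : ℂ | 1 ≤ Complex.normSq z} :=
      isClosed_le continuous_const Complex.continuous_normSq
    have h2 : IsClosed {z : ℂ | |z.re| ≤ 1 / 2} :=
      isClosed_le (continuous_abs.comp Complex.continuous_re) continuous_const
    have h3 : IsClosed {z : ℂ | 0 ≤ z.im} := isClosed_le continuous_const Complex.continuous_im
    have h4 : IsClosed {z : ℂ | z.im ≤ c} := isClosed_le Complex.continuous_im continuous_const
    exact h1.inter (h2.inter (h3.inter h4))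
  · refine (Metric.isBounded_closedBall (x := (0 : ℂ)) (r := 1 / 2 + c)).subset ?_
    intro z hz
    obtain ⟨-, h2, h3, h4⟩ := hz
    rw [mem_closedBall_zero_iff]
    refine (Complex.norm_le_abs_re_add_abs_im z).trans ?_
    rw [abs_of_nonneg h3]
    linarith

theorem truncFD_subset (c : ℝ) : truncFD c ⊆ upperHalfPlaneSet := by
  intro z hz
  obtain ⟨h1, h2, h3, -⟩ := hz
  rw [Complex.normSq_apply] at h1
  have h5 : z.re * z.re ≤ 1 / 4 := by
    have := abs_le.mp h2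
    nlinarith [this.1, this.2]
  show 0 < z.im
  rcases h3.lt_or_eq with h | h
  · exact h
  · exfalso
    rw [← h] at h1
    linarith

theorem mem_truncFD_of_mem_fd {τ : ℍ} (hτ : τ ∈ ModularGroup.fd) {c : ℝ} (hc : τ.im ≤ c) :
    (τ : ℂ) ∈ truncFD c :=
  ⟨hτ.1, hτ.2, τ.im_pos.le, hc⟩

/-! ### Poles and the main theorem -/

theorem compSL_ne_zero {g : Hol} (hg : g ≠ 0) (γ : SL(2, ℤ)) : compSL γ g ≠ 0 :=
  (map_ne_zero_iff _ (compSL_injective γ)).mpr hg

/-- No poles above the height where the growth bound holds. -/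
theorem ordHol_le_of_growth {a b : Hol} (ha : a ≠ 0) (hb : b ≠ 0) (c0 C : ℝ) (m : ℕ)
    (hcusp : ∀ τ : ℍ, c0 ≤ τ.im →
      ‖(a : ℍ → ℂ) τ‖ ≤ C * Real.exp (2 * π * m * τ.im) * ‖(b : ℍ → ℂ) τ‖)
    (τ : ℍ) (hτ : c0 < τ.im) : ordHol τ b ≤ ordHol τ a := by
  refine ordHol_le_of_norm_le ha hb τ (|C| * Real.exp (2 * π * m * (τ.im + 1))) ?_
  have hopen : IsOpen {z : ℂ | 0 < z.im ∧ c0 < z.im ∧ z.im < τ.im + 1} :=
    (isOpen_lt continuous_const Complex.continuous_im).inter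
      ((isOpen_lt continuous_const Complex.continuous_im).inter
        (isOpen_lt Complex.continuous_im continuous_const))
  have hmem : (τ : ℂ) ∈ {z : ℂ | 0 < z.im ∧ c0 < z.im ∧ z.im < τ.im + 1} :=
    ⟨τ.im_pos, hτ, by rw [coe_im]; linarith⟩
  filter_upwards [nhdsWithin_le_nhds (hopen.mem_nhds hmem)] with z hz
  obtain ⟨hz0, hz1, hz2⟩ := hz
  have h1 := hcusp ⟨z, hz0⟩ hz1.le
  simp only [Function.comp_apply, ofComplex_apply_of_im_pos hz0]
  refine h1.trans ?_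
  have him : (⟨z, hz0⟩ : ℍ).im = z.im := rfl
  rw [him]
  have hx : Real.exp (2 * π * m * z.im) ≤ Real.exp (2 * π * m * (τ.im + 1)) := by
    apply Real.exp_le_exp.mpr
    have : (0 : ℝ) ≤ 2 * π * m := by positivity
    exact mul_le_mul_of_nonneg_left hz2.le this
  have hC : C * Real.exp (2 * π * m * z.im) ≤ |C| * Real.exp (2 * π * m * (τ.im + 1)) :=
    (mul_le_mul_of_nonneg_right (le_abs_self C) (Real.exp_pos _).le).trans
      (mul_le_mul_of_nonneg_left hx (abs_nonneg C))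
  exact mul_le_mul_of_nonneg_right hC (norm_nonneg _)

/-- **Level one meromorphic structure theorem**, in the vocabulary of `H8.Hol`. -/
theorem exists_polyJ_mul_eq {a b : Hol} (hb : b ≠ 0)
    (hinv : ∀ γ : SL(2, ℤ), compSL γ a * b = a * compSL γ b)
    (hcusp : ∃ (c0 C : ℝ) (m : ℕ), ∀ τ : ℍ, c0 ≤ τ.im →
      ‖(a : ℍ → ℂ) τ‖ ≤ C * Real.exp (2 * π * m * τ.im) * ‖(b : ℍ → ℂ) τ‖) :
    ∃ P Q : Polynomial ℂ, Q ≠ 0 ∧ polyJ Q * a = polyJ P * b := by
  by_cases ha : a = 0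
  · refine ⟨0, 1, one_ne_zero, ?_⟩
    rw [ha, mul_zero, polyJ, map_zero, zero_mul]
  obtain ⟨c0, C, m, hcusp⟩ := hcusp
  -- invariance of the pole order
  have hpole : ∀ (γ : SL(2, ℤ)) (τ : ℍ),
      ordHol (γ • τ) b - ordHol (γ • τ) a = ordHol τ b - ordHol τ a := by
    intro γ τ
    have h := congrArg (ordHol τ) (hinv γ)
    rw [ordHol_mul τ (compSL_ne_zero ha γ) hb, ordHol_mul τ ha (compSL_ne_zero hb γ),
      ordHol_compSL, ordHol_compSL] at h
    omega
  -- the finitely many zeros of `b` in the truncated fundamental domain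
  set Bc : ℂ → ℂ := (b : ℍ → ℂ) ∘ ofComplex with hBc
  have hT : {z ∈ truncFD c0 | Bc z = 0}.Finite :=
    finite_zeros_of_isCompact b.2 (Hol_coe_ne_zero hb) (isCompact_truncFD c0) (truncFD_subset c0)
  set Tf : Finset ℂ := hT.toFinset with hTf
  set n : ℕ := ∑ z ∈ Tf, analyticOrderNatAt Bc z with hn
  set Q0 : Polynomial ℂ := ∏ z ∈ Tf, (Polynomial.X - Polynomial.C (H28.J (ofComplex z))) with hQ0
  have hQ0mon : Q0.Monic := Polynomial.monic_prod_of_monic _ _ fun z _ => Polynomial.monic_X_sub_C _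
  have hQ0ne : Q0 ≠ 0 := hQ0mon.ne_zero
  set Q : Polynomial ℂ := Q0 ^ n with hQdef
  have hQ : Q ≠ 0 := pow_ne_zero n hQ0ne
  -- `Q(J)` clears the poles
  have hclaim : ∀ τ : ℍ, ordHol τ b ≤ ordHol τ (polyJ Q * a) := by
    intro τ
    rw [ordHol_mul τ (polyJ_ne_zero hQ) ha]
    by_cases hp : ordHol τ b ≤ ordHol τ a
    · have := ordHol_nonneg τ (polyJ Q)
      linarith
    · rw [not_le] at hp
      obtain ⟨γ, hγ⟩ := ModularGroup.exists_smul_mem_fd τ
      have hp' : ordHol (γ • τ) a < ordHol (γ • τ) b := by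
        have := hpole γ τ
        omega
      have him : (γ • τ).im ≤ c0 := by
        by_contra hlt
        rw [not_le] at hlt
        have := ordHol_le_of_growth ha hb c0 C m hcusp (γ • τ) hlt
        omega
      have hK : ((γ • τ : ℍ) : ℂ) ∈ truncFD c0 := mem_truncFD_of_mem_fd hγ him
      have hbz : (b : ℍ → ℂ) (γ • τ) = 0 := by
        apply (ordHol_pos_iff (γ • τ) hb).mp
        have := ordHol_nonneg (γ • τ) a
        omega
      have hBz : Bc ((γ • τ : ℍ) : ℂ) = 0 := by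
        rw [hBc, Function.comp_apply, ofComplex_apply]
        exact hbz
      have hmem : ((γ • τ : ℍ) : ℂ) ∈ Tf := by
        rw [hTf, Set.Finite.mem_toFinset]
        exact ⟨hK, hBz⟩
      have hnle : ordHol (γ • τ) b ≤ (n : ℤ) := by
        have h1 : analyticOrderNatAt Bc ((γ • τ : ℍ) : ℂ) ≤ n :=
          Finset.single_le_sum (f := fun z => analyticOrderNatAt Bc z)
            (fun _ _ => Nat.zero_le _) hmem
        unfold ordHol
        exact_mod_cast h1
      have hQ0van : (polyJ Q0 : ℍ → ℂ) (γ • τ) = 0 := by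
        rw [polyJ_apply, hQ0, Polynomial.eval_prod]
        refine Finset.prod_eq_zero hmem ?_
        rw [Polynomial.eval_sub, Polynomial.eval_X, Polynomial.eval_C, ofComplex_apply, sub_self]
      have h1 : 1 ≤ ordHol (γ • τ) (polyJ Q0) := by
        have := (ordHol_pos_iff (γ • τ) (polyJ_ne_zero hQ0ne)).mpr hQ0van
        omega
      have h2 : ordHol (γ • τ) (polyJ Q) = n * ordHol (γ • τ) (polyJ Q0) := by
        rw [hQdef, polyJ_pow, ordHol_pow _ (polyJ_ne_zero hQ0ne)]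
      have h3 : ordHol τ (polyJ Q) = ordHol (γ • τ) (polyJ Q) := by
        rw [← ordHol_compSL, compSL_polyJ]
      have h4 : (n : ℤ) ≤ n * ordHol (γ • τ) (polyJ Q0) := by
        have hn0 : (0 : ℤ) ≤ n := Int.natCast_nonneg n
        nlinarith
      have h5 := hpole γ τ
      have h6 := ordHol_nonneg (γ • τ) a
      rw [h3, h2]
      omega
  obtain ⟨c, hc⟩ := exists_mul_eq_of_ordHol_le (mul_ne_zero (polyJ_ne_zero hQ) ha) hb hclaim
  -- `c` is invariant
  have hcinv : ∀ γ : SL(2, ℤ), compSL γ c = c := by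
    intro γ
    have e1 : compSL γ c * compSL γ b = polyJ Q * compSL γ a := by
      rw [← map_mul, hc, map_mul, compSL_polyJ]
    have e2 : (compSL γ c - c) * (b * compSL γ b) = 0 := by
      calc (compSL γ c - c) * (b * compSL γ b)
          = compSL γ c * compSL γ b * b - c * b * compSL γ b := by ring
        _ = polyJ Q * compSL γ a * b - polyJ Q * a * compSL γ b := by rw [e1, hc]
        _ = polyJ Q * (compSL γ a * b) - polyJ Q * (a * compSL γ b) := by ring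
        _ = 0 := by rw [hinv γ]; ring
    rcases mul_eq_zero.mp e2 with h | h
    · exact sub_eq_zero.mp h
    · exact absurd h (mul_ne_zero hb (compSL_ne_zero hb γ))
  have hcinv' : ∀ (γ : SL(2, ℤ)) (τ : ℍ), (c : ℍ → ℂ) (γ • τ) = (c : ℍ → ℂ) τ := by
    intro γ τ
    have := congrArg (fun g : Hol => (g : ℍ → ℂ) τ) (hcinv γ)
    simpa using this
  -- growth of `c`
  have hcb : ∀ τ : ℍ, (c : ℍ → ℂ) τ * (b : ℍ → ℂ) τ = (polyJ Q : ℍ → ℂ) τ * (a : ℍ → ℂ) τ := by
    intro τ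
    exact congrFun (congrArg Subtype.val hc) τ
  have hcbound : ∀ τ : ℍ, c0 < τ.im →
      ‖(c : ℍ → ℂ) τ‖ ≤ ‖(polyJ Q : ℍ → ℂ) τ‖ * (|C| * Real.exp (2 * π * m * τ.im)) := by
    intro τ hτ
    have hf1 : ContinuousAt (fun z : ℂ => ‖((c : ℍ → ℂ) ∘ ofComplex) z‖) (τ : ℂ) :=
      (Hol_analyticAt c τ).continuousAt.norm
    have hf2 : ContinuousAt (fun z : ℂ => ‖((polyJ Q : ℍ → ℂ) ∘ ofComplex) z‖ *
        (|C| * Real.exp (2 * π * m * z.im))) (τ : ℂ) :=
      (Hol_analyticAt (polyJ Q) τ).continuousAt.norm.mul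
        (by fun_prop : Continuous fun z : ℂ => |C| * Real.exp (2 * π * m * z.im)).continuousAt
    have hBne : ∀ᶠ z in 𝓝[≠] (τ : ℂ), Bc z ≠ 0 := by
      rcases (Hol_analyticAt b τ).eventually_eq_zero_or_eventually_ne_zero with h | h
      · exact absurd (analyticOrderAt_eq_top.mpr h) (Hol_analyticOrderAt_ne_top hb τ)
      · exact h
    have hopen : IsOpen {z : ℂ | 0 < z.im ∧ c0 < z.im} :=
      (isOpen_lt continuous_const Complex.continuous_im).inter
        (isOpen_lt continuous_const Complex.continuous_im)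
    have hmem : (τ : ℂ) ∈ {z : ℂ | 0 < z.im ∧ c0 < z.im} := ⟨τ.im_pos, hτ⟩
    have hev : ∀ᶠ z in 𝓝[≠] (τ : ℂ), ‖((c : ℍ → ℂ) ∘ ofComplex) z‖ ≤
        ‖((polyJ Q : ℍ → ℂ) ∘ ofComplex) z‖ * (|C| * Real.exp (2 * π * m * z.im)) := by
      filter_upwards [hBne, nhdsWithin_le_nhds (hopen.mem_nhds hmem)] with z hz1 hz2
      obtain ⟨hz0, hz3⟩ := hz2
      have e := hcb ⟨z, hz0⟩
      have hb' : (b : ℍ → ℂ) ⟨z, hz0⟩ ≠ 0 := by
        simpa [hBc, ofComplex_apply_of_im_pos hz0] using hz1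
      have hle := hcusp ⟨z, hz0⟩ hz3.le
      have him : (⟨z, hz0⟩ : ℍ).im = z.im := rfl
      rw [him] at hle
      simp only [Function.comp_apply, ofComplex_apply_of_im_pos hz0]
      have hpos : 0 < ‖(b : ℍ → ℂ) ⟨z, hz0⟩‖ := norm_pos_iff.mpr hb'
      have h3 : ‖(c : ℍ → ℂ) ⟨z, hz0⟩‖ * ‖(b : ℍ → ℂ) ⟨z, hz0⟩‖ ≤
          (‖(polyJ Q : ℍ → ℂ) ⟨z, hz0⟩‖ * (|C| * Real.exp (2 * π * m * z.im))) *
            ‖(b : ℍ → ℂ) ⟨z, hz0⟩‖ := by
        rw [← norm_mul, e, norm_mul]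
        calc ‖(polyJ Q : ℍ → ℂ) ⟨z, hz0⟩‖ * ‖(a : ℍ → ℂ) ⟨z, hz0⟩‖
            ≤ ‖(polyJ Q : ℍ → ℂ) ⟨z, hz0⟩‖ *
                (C * Real.exp (2 * π * m * z.im) * ‖(b : ℍ → ℂ) ⟨z, hz0⟩‖) :=
              mul_le_mul_of_nonneg_left hle (norm_nonneg _)
          _ ≤ ‖(polyJ Q : ℍ → ℂ) ⟨z, hz0⟩‖ *
                (|C| * Real.exp (2 * π * m * z.im) * ‖(b : ℍ → ℂ) ⟨z, hz0⟩‖) := by
              refine mul_le_mul_of_nonneg_left ?_ (norm_nonneg _)
              exact mul_le_mul_of_nonneg_right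
                (mul_le_mul_of_nonneg_right (le_abs_self C) (Real.exp_pos _).le) (norm_nonneg _)
          _ = _ := by ring
      exact le_of_mul_le_mul_right h3 hpos
    have hfin := le_of_tendsto_of_tendsto (hf1.tendsto.mono_left nhdsWithin_le_nhds)
      (hf2.tendsto.mono_left nhdsWithin_le_nhds) hev
    simpa [ofComplex_apply] using hfin
  obtain ⟨CJ, hCJ0, hCJ⟩ := H28.exists_norm_J_le (c := 1) one_pos
  set d : ℕ := Q.natDegree with hd
  set S : ℝ := ∑ i ∈ Finset.range (d + 1), ‖Q.coeff i‖ with hS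
  have hS0 : 0 ≤ S := Finset.sum_nonneg fun _ _ => norm_nonneg _
  set CJ' : ℝ := max CJ 1 with hCJ'
  have hCJ'1 : 1 ≤ CJ' := le_max_right _ _
  have hQgrowth : ∀ τ : ℍ, 1 ≤ τ.im →
      ‖(polyJ Q : ℍ → ℂ) τ‖ ≤ S * (CJ' * Real.exp (2 * π * τ.im)) ^ d := by
    intro τ hτ
    rw [polyJ_apply]
    refine norm_eval_le_of_norm_le Q ?_ ?_
    · have : (1 : ℝ) ≤ Real.exp (2 * π * τ.im) := by
        apply Real.one_le_exp
        have := τ.im_pos
        positivity
      exact one_le_mul_of_one_le_of_one_le hCJ'1 this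
    · exact (hCJ τ hτ).trans (mul_le_mul_of_nonneg_right (le_max_left _ _) (Real.exp_pos _).le)
  have hfinal : ∀ τ : ℍ, max c0 1 + 1 ≤ τ.im →
      ‖(c : ℍ → ℂ) τ‖ ≤ (S * CJ' ^ d * |C|) * Real.exp (2 * π * ((d + m : ℕ) : ℝ) * τ.im) := by
    intro τ hτ
    have h1 : c0 < τ.im := by
      have := le_max_left c0 1
      linarith
    have h2 : 1 ≤ τ.im := by
      have := le_max_right c0 1
      linarith
    refine (hcbound τ h1).trans ?_
    have h3 := hQgrowth τ h2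
    have h4 : (0 : ℝ) ≤ |C| * Real.exp (2 * π * m * τ.im) :=
      mul_nonneg (abs_nonneg C) (Real.exp_pos _).le
    refine (mul_le_mul_of_nonneg_right h3 h4).trans (le_of_eq ?_)
    have h5 : Real.exp (2 * π * ((d + m : ℕ) : ℝ) * τ.im) =
        Real.exp (2 * π * τ.im) ^ d * Real.exp (2 * π * m * τ.im) := by
      rw [← Real.exp_nat_mul, ← Real.exp_add]
      congr 1
      push_cast
      ring
    rw [h5, mul_pow]
    ring
  obtain ⟨P, -, hP⟩ := exists_polynomial_eq_of_invariant_of_eventually (c : ℍ → ℂ) c.2 hcinv'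
    (d + m) _ _ hfinal
  refine ⟨P, Q, hQ, ?_⟩
  have hcP : c = polyJ P := Subtype.ext (funext fun τ => (hP τ).trans (polyJ_apply P τ).symm)
  rw [← hcP, hc]

/-- **Level one meromorphic structure theorem.** A quotient `a / b` of holomorphic functions on
`ℍ` which is `SL(2, ℤ)`-invariant and meromorphic at `i∞` is a rational function of `J`. -/
theorem exists_polynomial_of_invariant_ratio (a b : ℍ → ℂ) (ha : MDiff a) (hb : MDiff b)
    (hb0 : b ≠ 0)
    (hinv : ∀ (γ : SL(2, ℤ)) (τ : ℍ), a (γ • τ) * b τ = a τ * b (γ • τ))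
    (hcusp : ∃ (c0 C : ℝ) (m : ℕ), ∀ τ : ℍ, c0 ≤ τ.im →
      ‖a τ‖ ≤ C * Real.exp (2 * π * m * τ.im) * ‖b τ‖) :
    ∃ P Q : Polynomial ℂ, Q ≠ 0 ∧
      ∀ τ : ℍ, Q.eval (H28.J τ) * a τ = P.eval (H28.J τ) * b τ := by
  have hbH : (⟨b, hb⟩ : Hol) ≠ 0 := fun h => hb0 (congrArg Subtype.val h)
  obtain ⟨P, Q, hQ, h⟩ := exists_polyJ_mul_eq (a := ⟨a, ha⟩) (b := ⟨b, hb⟩) hbH
    (fun γ => Subtype.ext (funext fun τ => hinv γ τ)) hcusp
  refine ⟨P, Q, hQ, fun τ => ?_⟩
  have := congrFun (congrArg Subtype.val h) τ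
  simpa [polyJ_apply] using this

end Fermat.Agent.S29.H48
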