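import Mathlib
import Fermat.Agent.S24.H17_Theta
import Fermat.Agent.S24.H40_Generation

/-!
# S29 / E0-DICT (D1): the complex function field of `X₀(N)` and its realisation on `ℍ`

`FC N = ℂ(j(q^d) : d ∣ N) ⊆ ℂ((q))` is the prelude's `laurentBaseChange ℂ (modularFunctionFieldFull N)`.
`AC N = ℂ[j(q^d) : d ∣ N]`.  Every `f ∈ AC N` is the convergent `q`-series of a holomorphic
`Γ₀(N)`-invariant function `ThetaC N f` on `ℍ`; this is the complex version of helper17's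
`H17.Theta` (S24, package T3), without the embedding `Qbar → ℂ`.

* `ThetaCHom N : AC N →+* (ℍ → ℂ)`, injective, `ThetaC_mdiff`, `ThetaC_smul` (invariance),
  `ThetaC_algebraMap`, `ThetaC_jdC`, `ThetaC_jC`.
* conjugates `thetaConjC N γ f = ThetaC N f ∘ γ⁻¹`, `thetaXC`, `thetaXCHom` (ring homs, injective),
  `thetaConjC_vadd` (`N`-periodicity), `thetaConjC_growth` (moderate growth at `i∞`).
* `adjoin_jdSetC_eq_top`, `exists_div_AC` : `FC N = Frac (AC N)`.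
-/

set_option autoImplicit false
noncomputable section
namespace Fermat.Agent.S29.H72
open UpperHalfPlane ModularCurve IntermediateField
open Fermat.Agent.S24
open scoped MatrixGroups Manifold
local notation "𝕢" => Function.Periodic.qParam

/-- The function field of `X₀(N)` over `ℂ`, as a type. -/
abbrev FC (N : ℕ) [NeZero N] : Type := ↥(laurentBaseChange ℂ (modularFunctionFieldFull N))

/-- `j(q^d)` with complex coefficients, as an element of `FC N` (for `d ∣ N`). -/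
def jdC (N : ℕ) [NeZero N] (d : ℕ) [NeZero d] (hd : d ∣ N) : FC N :=
  ⟨coeffEmb ℂ (qExpand ℚ d jq), coeffEmb_mem_laurentBaseChange ℂ (jqd_mem_full N hd)⟩

/-- `j(q)` as an element of `FC N`. -/
def jC (N : ℕ) [NeZero N] : FC N :=
  ⟨coeffEmb ℂ jq, coeffEmb_mem_laurentBaseChange ℂ (by
    have h := jqd_mem_full N (one_dvd N)
    rwa [qExpand_one_apply] at h)⟩

variable (N : ℕ) [NeZero N]

/-- The generators `j(q^d)`, `d ∣ N`. -/
def jdSetC : Set (FC N) := {x | ∃ (d : ℕ) (_ : NeZero d) (hd : d ∣ N), x = jdC N d hd}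

theorem jdC_mem_jdSetC (d : ℕ) [NeZero d] (hd : d ∣ N) : jdC N d hd ∈ jdSetC N :=
  ⟨d, ‹_›, hd, rfl⟩

theorem jC_eq_jdC : jC N = jdC N 1 (one_dvd N) := by
  apply Subtype.ext
  show coeffEmb ℂ jq = coeffEmb ℂ (qExpand ℚ 1 jq)
  rw [qExpand_one_apply]

theorem jC_mem_jdSetC : jC N ∈ jdSetC N := by
  rw [jC_eq_jdC]
  exact jdC_mem_jdSetC N 1 (one_dvd N)

theorem val_image_jdSetC :
    (Subtype.val '' jdSetC N : Set (LaurentSeries ℂ))
      = ⇑(coeffEmb ℂ) '' divisorExpansions N := by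
  ext x
  constructor
  · rintro ⟨y, ⟨d, hne, hd, rfl⟩, rfl⟩
    exact ⟨qExpand ℚ d jq, ⟨d, hne, hd, rfl⟩, rfl⟩
  · rintro ⟨y, ⟨d, hne, hd, rfl⟩, rfl⟩
    exact ⟨@jdC N _ d hne hd, ⟨d, hne, hd, rfl⟩, rfl⟩

/-- (GEN) `FC N` is generated over `ℂ` by the `j(q^d)`, `d ∣ N`. -/
theorem adjoin_jdSetC_eq_top : IntermediateField.adjoin ℂ (jdSetC N) = ⊤ := by
  apply IntermediateField.lift_injective (laurentBaseChange ℂ (modularFunctionFieldFull N))
  rw [lift_adjoin, lift_top, val_image_jdSetC]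
  rw [modularFunctionFieldFull, H40.laurentBaseChange_adjoin]

/-- `A = ℂ[j_d : d ∣ N]`. -/
def AC : Subalgebra ℂ (FC N) := Algebra.adjoin ℂ (jdSetC N)

theorem jdC_mem_AC (d : ℕ) [NeZero d] (hd : d ∣ N) : jdC N d hd ∈ AC N :=
  Algebra.subset_adjoin (jdC_mem_jdSetC N d hd)

theorem jC_mem_AC : jC N ∈ AC N :=
  Algebra.subset_adjoin (jC_mem_jdSetC N)

/-- Every element of `FC N` is a quotient of two elements of `A`. -/
theorem exists_div_AC (f : FC N) : ∃ a ∈ AC N, ∃ b ∈ AC N, b ≠ 0 ∧ f = a / b := by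
  have hf : f ∈ IntermediateField.adjoin ℂ (jdSetC N) := by
    rw [adjoin_jdSetC_eq_top]; exact IntermediateField.mem_top
  obtain ⟨r, hr, s, hs, rfl⟩ := mem_adjoin_iff_div.mp hf
  by_cases h0 : s = 0
  · refine ⟨0, zero_mem _, 1, one_mem _, one_ne_zero, ?_⟩
    rw [h0, div_zero, zero_div]
  · exact ⟨r, hr, s, hs, h0, rfl⟩

/-- The generating set is finite. -/
theorem finite_jdSetC : (jdSetC N).Finite := by
  have : jdSetC N ⊆ Set.range (fun d : N.divisors =>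
      @jdC N _ d.1 ⟨(Nat.pos_of_mem_divisors d.2).ne'⟩ (Nat.dvd_of_mem_divisors d.2)) := by
    rintro _ ⟨d, hne, hd, rfl⟩
    exact ⟨⟨d, Nat.mem_divisors.mpr ⟨hd, NeZero.ne N⟩⟩, rfl⟩
  exact (Set.finite_range _).subset this

/-! ### the realisation -/

/-- Evaluation of a complex Laurent series at `q = exp (2πiτ)`. -/
def evalQC (x : LaurentSeries ℂ) (τ : ℍ) : ℂ :=
  ∑' n : ℤ, x.coeff n * 𝕢 1 (τ : ℂ) ^ n

/-- The function on `ℍ` attached to an element of `FC N` (meaningful on `AC N`). -/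
def ThetaC (f : FC N) : ℍ → ℂ := evalQC (f : LaurentSeries ℂ)

/-- the property carried through the induction. -/
def GoodC (x : LaurentSeries ℂ) : Prop :=
  ∃ g : ℍ → ℂ, MDiff g ∧ H17.IsQSum x g

theorem coe_jdC (d : ℕ) [NeZero d] (hd : d ∣ N) :
    (jdC N d hd : LaurentSeries ℂ) = qExpand ℂ d (coeffMap (algebraMap ℚ ℂ) jq) := by
  show coeffEmb ℂ (qExpand ℚ d jq) = _
  rw [coeffEmb, ModularCurve.coeffMap_qExpand]

theorem isQSum_jdC (d : ℕ) [NeZero d] (hd : d ∣ N) :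
    H17.IsQSum (jdC N d hd : LaurentSeries ℂ) (fun τ => H28.J (H17.mulD d τ)) := by
  rw [coe_jdC]
  exact H17.isQSum_J.scale d

theorem coe_algebraMap_FC (c : ℂ) :
    ((algebraMap ℂ (FC N) c : FC N) : LaurentSeries ℂ) = HahnSeries.single 0 c := by
  rw [← algebraMap_laurentSeries_eq_single]
  rfl

theorem goodC_of_mem_AC {f : FC N} (hf : f ∈ AC N) : GoodC (f : LaurentSeries ℂ) := by
  unfold AC at hf
  induction hf using Algebra.adjoin_induction with
  | mem x hx =>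
    obtain ⟨d, hd0, hd, rfl⟩ := hx
    exact ⟨_, H17.mdiff_comp_mulD H28.J_mdiff d, isQSum_jdC N d hd⟩
  | algebraMap c =>
    refine ⟨fun _ => c, mdifferentiable_const, ?_⟩
    rw [coe_algebraMap_FC]
    exact H17.IsQSum.single_zero _
  | add x y _ _ hx hy =>
    obtain ⟨g, hg, hg'⟩ := hx
    obtain ⟨k, hk, hk'⟩ := hy
    refine ⟨g + k, hg.add hk, ?_⟩
    have : ((x + y : FC N) : LaurentSeries ℂ) = (x : LaurentSeries ℂ) + y := rfl
    rw [this]
    exact hg'.add hk'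
  | mul x y _ _ hx hy =>
    obtain ⟨g, hg, hg'⟩ := hx
    obtain ⟨k, hk, hk'⟩ := hy
    refine ⟨g * k, hg.mul hk, ?_⟩
    have : ((x * y : FC N) : LaurentSeries ℂ) = (x : LaurentSeries ℂ) * y := rfl
    rw [this]
    exact hg'.mul hk'

theorem isQSum_ThetaC_of_goodC {f : FC N} (h : GoodC (f : LaurentSeries ℂ)) :
    MDiff (ThetaC N f) ∧ H17.IsQSum (f : LaurentSeries ℂ) (ThetaC N f) := by
  obtain ⟨g, hg, hg'⟩ := h
  have : ThetaC N f = g := by
    funext τ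
    exact (hg'.eq_tsum τ).symm
  rw [this]
  exact ⟨hg, hg'⟩

/-- `ThetaC f` is the sum of the `q`-series `f`. -/
theorem isQSum_ThetaC {f : FC N} (hf : f ∈ AC N) :
    H17.IsQSum (f : LaurentSeries ℂ) (ThetaC N f) :=
  (isQSum_ThetaC_of_goodC N (goodC_of_mem_AC N hf)).2

theorem ThetaC_hasSum {f : FC N} (hf : f ∈ AC N) (τ : ℍ) :
    HasSum (fun n : ℤ => (f : LaurentSeries ℂ).coeff n * 𝕢 1 (τ : ℂ) ^ n) (ThetaC N f τ) :=
  isQSum_ThetaC N hf τ

theorem ThetaC_mdiff {f : FC N} (hf : f ∈ AC N) : MDiff (ThetaC N f) :=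
  (isQSum_ThetaC_of_goodC N (goodC_of_mem_AC N hf)).1

theorem ThetaC_algebraMap (c : ℂ) : ThetaC N (algebraMap ℂ (FC N) c) = fun _ => c := by
  have h1 := isQSum_ThetaC N (Subalgebra.algebraMap_mem (AC N) c)
  rw [coe_algebraMap_FC] at h1
  exact h1.unique (H17.IsQSum.single_zero _)

theorem ThetaC_zero : ThetaC N 0 = 0 := by
  have := ThetaC_algebraMap N 0
  rw [map_zero] at this
  exact this

theorem ThetaC_one : ThetaC N 1 = 1 := by
  have := ThetaC_algebraMap N 1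
  rw [map_one] at this
  exact this

theorem ThetaC_add {f g : FC N} (hf : f ∈ AC N) (hg : g ∈ AC N) :
    ThetaC N (f + g) = ThetaC N f + ThetaC N g := by
  have h1 := isQSum_ThetaC N (add_mem hf hg)
  have h2 := (isQSum_ThetaC N hf).add (isQSum_ThetaC N hg)
  have : ((f + g : FC N) : LaurentSeries ℂ) = (f : LaurentSeries ℂ) + g := rfl
  rw [this] at h1
  exact h1.unique h2

theorem ThetaC_mul {f g : FC N} (hf : f ∈ AC N) (hg : g ∈ AC N) :
    ThetaC N (f * g) = ThetaC N f * ThetaC N g := by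
  have h1 := isQSum_ThetaC N (mul_mem hf hg)
  have h2 := (isQSum_ThetaC N hf).mul (isQSum_ThetaC N hg)
  have : ((f * g : FC N) : LaurentSeries ℂ) = (f : LaurentSeries ℂ) * g := rfl
  rw [this] at h1
  exact h1.unique h2

/-- `ThetaC` as a ring hom on `AC N`. -/
def ThetaCHom : AC N →+* (ℍ → ℂ) where
  toFun f := ThetaC N f.1
  map_one' := ThetaC_one N
  map_mul' f g := ThetaC_mul N f.2 g.2
  map_zero' := ThetaC_zero N
  map_add' f g := ThetaC_add N f.2 g.2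

theorem ThetaCHom_apply (f : AC N) : ThetaCHom N f = ThetaC N f.1 := rfl

theorem ThetaC_jdC (d : ℕ) [NeZero d] (hd : d ∣ N) (τ : ℍ) :
    ThetaC N (jdC N d hd) τ = H28.J (H17.mulD d τ) :=
  congrFun ((isQSum_ThetaC N (jdC_mem_AC N d hd)).unique (isQSum_jdC N d hd)) τ

theorem ThetaC_jC : ThetaC N (jC N) = H28.J := by
  funext τ
  rw [jC_eq_jdC, ThetaC_jdC]
  exact congrArg H28.J (H17.mulD_one τ)

/-- injectivity (uniqueness of `q`-coefficients). -/
theorem ThetaC_eq_zero {f : FC N} (hf : f ∈ AC N) (h : ThetaC N f = 0) : f = 0 := by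
  have h1 := isQSum_ThetaC N hf
  rw [h] at h1
  exact Subtype.ext (H17.IsQSum.eq_zero h1)

theorem ThetaCHom_injective : Function.Injective (ThetaCHom N) := by
  rw [injective_iff_map_eq_zero]
  intro f hf
  exact Subtype.ext (ThetaC_eq_zero N f.2 hf)

/-- `Γ₀(N)`-invariance. -/
theorem ThetaC_smul {f : FC N} (hf : f ∈ AC N) {g : SL(2, ℤ)}
    (hg : g ∈ CongruenceSubgroup.Gamma0 N) (τ : ℍ) : ThetaC N f (g • τ) = ThetaC N f τ := by
  unfold AC at hf
  induction hf using Algebra.adjoin_induction with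
  | mem x hx =>
    obtain ⟨d, hd0, hd, rfl⟩ := hx
    rw [ThetaC_jdC, ThetaC_jdC]
    exact H17.J_mulD_smul d (H17.Gamma0_le_of_dvd N hd hg) τ
  | algebraMap c => rw [ThetaC_algebraMap]
  | add x y hx hy hx' hy' =>
    rw [ThetaC_add N hx hy, Pi.add_apply, Pi.add_apply, hx', hy']
  | mul x y hx hy hx' hy' =>
    rw [ThetaC_mul N hx hy, Pi.mul_apply, Pi.mul_apply, hx', hy']

/-! ### conjugates -/

/-- The conjugate by `γ`: `τ ↦ ThetaC f (γ⁻¹ • τ)`. -/
def thetaConjC (γ : SL(2, ℤ)) (f : FC N) : ℍ → ℂ := fun τ => ThetaC N f (γ⁻¹ • τ)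

/-- The conjugate attached to a coset `x = γ Γ₀(N)`. -/
def thetaXC (x : H24.XN N) (f : FC N) : ℍ → ℂ := thetaConjC N (Quotient.out x) f

theorem thetaConjC_apply (γ : SL(2, ℤ)) (f : FC N) (τ : ℍ) :
    thetaConjC N γ f τ = ThetaC N f (γ⁻¹ • τ) := rfl

theorem thetaConjC_one (f : FC N) : thetaConjC N 1 f = ThetaC N f := by
  funext τ; simp [thetaConjC]

theorem thetaConjC_mul_right {f : FC N} (hf : f ∈ AC N) (γ : SL(2, ℤ)) {g : SL(2, ℤ)}
    (hg : g ∈ CongruenceSubgroup.Gamma0 N) : thetaConjC N (γ * g) f = thetaConjC N γ f := by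
  funext τ
  simp only [thetaConjC_apply]
  rw [mul_inv_rev, mul_smul]
  exact ThetaC_smul N hf (inv_mem hg) _

theorem thetaXC_mk {f : FC N} (hf : f ∈ AC N) (γ : SL(2, ℤ)) :
    thetaXC N (QuotientGroup.mk γ : H24.XN N) f = thetaConjC N γ f := by
  obtain ⟨h, hh⟩ := QuotientGroup.mk_out_eq_mul (CongruenceSubgroup.Gamma0 N) γ
  unfold thetaXC
  rw [hh]
  exact thetaConjC_mul_right N hf γ h.2

theorem thetaXC_smul {f : FC N} (hf : f ∈ AC N) (g : SL(2, ℤ)) (x : H24.XN N) (τ : ℍ) :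
    thetaXC N x f (g⁻¹ • τ) = thetaXC N (g • x) f τ := by
  obtain ⟨γ₀, rfl⟩ := QuotientGroup.mk_surjective x
  have h2 : g • (QuotientGroup.mk γ₀ : H24.XN N) = (QuotientGroup.mk (g * γ₀) : H24.XN N) := rfl
  rw [h2, thetaXC_mk N hf, thetaXC_mk N hf]
  simp only [thetaConjC_apply]
  rw [mul_inv_rev, mul_smul]

/-- the conjugates as ring homs on `AC N`. -/
def thetaXCHom (x : H24.XN N) : AC N →+* (ℍ → ℂ) where
  toFun f := thetaXC N x f.1
  map_one' := by funext τ; simp [thetaXC, thetaConjC, ThetaC_one]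
  map_mul' f g := by funext τ; simp [thetaXC, thetaConjC, ThetaC_mul N f.2 g.2]
  map_zero' := by funext τ; simp [thetaXC, thetaConjC, ThetaC_zero]
  map_add' f g := by funext τ; simp [thetaXC, thetaConjC, ThetaC_add N f.2 g.2]

theorem thetaXCHom_apply (x : H24.XN N) (f : AC N) : thetaXCHom N x f = thetaXC N x f.1 := rfl

theorem thetaXCHom_injective (x : H24.XN N) : Function.Injective (thetaXCHom N x) := by
  rw [injective_iff_map_eq_zero]
  intro f hf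
  have h1 : ThetaC N f.1 = 0 := by
    funext τ
    have := congr_fun hf ((Quotient.out x) • τ)
    simp only [thetaXCHom_apply, thetaXC, thetaConjC_apply, inv_smul_smul] at this
    simpa using this
  exact Subtype.ext (ThetaC_eq_zero N f.2 h1)

theorem thetaConjC_mdiff {f : FC N} (hf : f ∈ AC N) (γ : SL(2, ℤ)) : MDiff (thetaConjC N γ f) :=
  (ThetaC_mdiff N hf).comp (H17.mdiff_SL_smul γ⁻¹)

theorem thetaXC_mdiff {f : FC N} (hf : f ∈ AC N) (x : H24.XN N) : MDiff (thetaXC N x f) :=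
  thetaConjC_mdiff N hf _

theorem thetaConjC_algebraMap (γ : SL(2, ℤ)) (c : ℂ) :
    thetaConjC N γ (algebraMap ℂ (FC N) c) = fun _ => c := by
  funext τ
  rw [thetaConjC_apply, ThetaC_algebraMap]

theorem thetaConjC_jC (γ : SL(2, ℤ)) : thetaConjC N γ (jC N) = H28.J := by
  funext τ
  rw [thetaConjC_apply, ThetaC_jC, H28.J_smul]

theorem adjoin_jC_le : Algebra.adjoin ℂ {jC N} ≤ AC N :=
  Algebra.adjoin_le (by
    intro x hx
    rw [Set.mem_singleton_iff] at hx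
    rw [hx]
    exact jC_mem_AC N)

theorem thetaConjC_of_mem_adjoin_jC {c : FC N} (hc : c ∈ Algebra.adjoin ℂ {jC N})
    (γ : SL(2, ℤ)) : thetaConjC N γ c = ThetaC N c := by
  induction hc using Algebra.adjoin_induction with
  | mem x hx =>
    rw [Set.mem_singleton_iff] at hx
    rw [hx, thetaConjC_jC, ThetaC_jC]
  | algebraMap r => rw [thetaConjC_algebraMap, ThetaC_algebraMap]
  | add x y hx hy ihx ihy =>
    have hxA := adjoin_jC_le N hx
    have hyA := adjoin_jC_le N hy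
    funext τ
    have e1 := congr_fun ihx τ
    have e2 := congr_fun ihy τ
    rw [thetaConjC_apply] at e1 e2 ⊢
    rw [ThetaC_add N hxA hyA, Pi.add_apply, Pi.add_apply, e1, e2]
  | mul x y hx hy ihx ihy =>
    have hxA := adjoin_jC_le N hx
    have hyA := adjoin_jC_le N hy
    funext τ
    have e1 := congr_fun ihx τ
    have e2 := congr_fun ihy τ
    rw [thetaConjC_apply] at e1 e2 ⊢
    rw [ThetaC_mul N hxA hyA, Pi.mul_apply, Pi.mul_apply, e1, e2]

theorem thetaConjC_vadd {f : FC N} (hf : f ∈ AC N) (γ : SL(2, ℤ)) (τ : ℍ) :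
    thetaConjC N γ f ((N : ℝ) +ᵥ τ) = thetaConjC N γ f τ := by
  rw [thetaConjC_apply, thetaConjC_apply]
  have h1 : ((N : ℝ) +ᵥ τ) = ModularGroup.T ^ (N : ℤ) • τ := by
    rw [UpperHalfPlane.modular_T_zpow_smul]; simp
  rw [h1]
  have h2 : γ⁻¹ • (ModularGroup.T ^ (N : ℤ) • τ) =
      (γ⁻¹ * ModularGroup.T ^ (N : ℤ) * γ) • (γ⁻¹ • τ) := by
    simp only [mul_smul, smul_inv_smul]
  rw [h2]
  exact ThetaC_smul N hf (H17.conj_T_pow_mem_Gamma0 N γ) _

theorem thetaConjC_jdC (γ : SL(2, ℤ)) (d : ℕ) [NeZero d] (hd : d ∣ N) (τ : ℍ) :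
    thetaConjC N γ (jdC N d hd) τ = H28.J (H17.mulD d (γ⁻¹ • τ)) := by
  rw [thetaConjC_apply, ThetaC_jdC]

theorem thetaConjC_growth_jdC (γ : SL(2, ℤ)) (d : ℕ) [NeZero d] (hd : d ∣ N) :
    ∃ (C : ℝ) (M : ℕ), 0 ≤ C ∧ ∀ τ : ℍ, 1 ≤ τ.im →
      ‖thetaConjC N γ (jdC N d hd) τ‖ ≤ C * Real.exp (2 * Real.pi * M * τ.im) := by
  have hd0 : 0 < d := Nat.pos_of_ne_zero (NeZero.ne d)
  have hd0' : (0 : ℝ) < d := by exact_mod_cast hd0
  obtain ⟨C, hC, hbd⟩ := H28.exists_norm_J_le (c := 1 / (d : ℝ)) (by positivity)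
  refine ⟨C, d, hC, fun τ hτ => ?_⟩
  rw [thetaConjC_jdC]
  have hN : 0 < N := Nat.pos_of_ne_zero (NeZero.ne N)
  refine H15.norm_conj_smul_le H28.J H28.J_smul N d hN hd γ⁻¹ (1 / (d : ℝ)) C (by positivity) hC
    hbd τ ?_
  rw [one_div, inv_mul_cancel₀ hd0'.ne']
  exact hτ

theorem thetaConjC_growth_aux {f : FC N} (hf : f ∈ AC N) (γ : SL(2, ℤ)) :
    ∃ (C : ℝ) (M : ℕ), 0 ≤ C ∧ ∀ τ : ℍ, 1 ≤ τ.im →
      ‖thetaConjC N γ f τ‖ ≤ C * Real.exp (2 * Real.pi * M * τ.im) := by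
  unfold AC at hf
  induction hf using Algebra.adjoin_induction with
  | mem x hx =>
    obtain ⟨d, hd0, hd, rfl⟩ := hx
    exact thetaConjC_growth_jdC N γ d hd
  | algebraMap r =>
    refine ⟨‖r‖, 0, norm_nonneg _, fun τ _ => ?_⟩
    rw [thetaConjC_algebraMap]
    simp
  | add x y hx hy ihx ihy =>
    obtain ⟨C₁, M₁, hC₁, h₁⟩ := ihx
    obtain ⟨C₂, M₂, hC₂, h₂⟩ := ihy
    refine ⟨C₁ + C₂, max M₁ M₂, add_nonneg hC₁ hC₂, fun τ hτ => ?_⟩
    have e : thetaConjC N γ (x + y) τ = thetaConjC N γ x τ + thetaConjC N γ y τ := by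
      simp only [thetaConjC_apply]
      rw [ThetaC_add N hx hy, Pi.add_apply]
    rw [e]
    have hπ : 0 ≤ 2 * Real.pi * τ.im := by
      have := Real.pi_pos
      have := τ.im_pos
      positivity
    have m1 : Real.exp (2 * Real.pi * M₁ * τ.im) ≤
        Real.exp (2 * Real.pi * (max M₁ M₂ : ℕ) * τ.im) := by
      apply Real.exp_le_exp.mpr
      have : (M₁ : ℝ) ≤ (max M₁ M₂ : ℕ) := by exact_mod_cast le_max_left _ _
      nlinarith
    have m2 : Real.exp (2 * Real.pi * M₂ * τ.im) ≤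
        Real.exp (2 * Real.pi * (max M₁ M₂ : ℕ) * τ.im) := by
      apply Real.exp_le_exp.mpr
      have : (M₂ : ℝ) ≤ (max M₁ M₂ : ℕ) := by exact_mod_cast le_max_right _ _
      nlinarith
    calc ‖thetaConjC N γ x τ + thetaConjC N γ y τ‖
        ≤ ‖thetaConjC N γ x τ‖ + ‖thetaConjC N γ y τ‖ := norm_add_le _ _
      _ ≤ C₁ * Real.exp (2 * Real.pi * M₁ * τ.im) + C₂ * Real.exp (2 * Real.pi * M₂ * τ.im) :=
          add_le_add (h₁ τ hτ) (h₂ τ hτ)
      _ ≤ C₁ * Real.exp (2 * Real.pi * (max M₁ M₂ : ℕ) * τ.im) +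
          C₂ * Real.exp (2 * Real.pi * (max M₁ M₂ : ℕ) * τ.im) :=
          add_le_add (mul_le_mul_of_nonneg_left m1 hC₁) (mul_le_mul_of_nonneg_left m2 hC₂)
      _ = (C₁ + C₂) * Real.exp (2 * Real.pi * (max M₁ M₂ : ℕ) * τ.im) := by ring
  | mul x y hx hy ihx ihy =>
    obtain ⟨C₁, M₁, hC₁, h₁⟩ := ihx
    obtain ⟨C₂, M₂, hC₂, h₂⟩ := ihy
    refine ⟨C₁ * C₂, M₁ + M₂, mul_nonneg hC₁ hC₂, fun τ hτ => ?_⟩
    have e : thetaConjC N γ (x * y) τ = thetaConjC N γ x τ * thetaConjC N γ y τ := by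
      simp only [thetaConjC_apply]
      rw [ThetaC_mul N hx hy, Pi.mul_apply]
    rw [e, norm_mul]
    have hexp : Real.exp (2 * Real.pi * ((M₁ + M₂ : ℕ) : ℝ) * τ.im) =
        Real.exp (2 * Real.pi * M₁ * τ.im) * Real.exp (2 * Real.pi * M₂ * τ.im) := by
      rw [← Real.exp_add]
      congr 1
      push_cast
      ring
    rw [hexp]
    calc ‖thetaConjC N γ x τ‖ * ‖thetaConjC N γ y τ‖
        ≤ (C₁ * Real.exp (2 * Real.pi * M₁ * τ.im)) * (C₂ * Real.exp (2 * Real.pi * M₂ * τ.im)) :=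
          mul_le_mul (h₁ τ hτ) (h₂ τ hτ) (norm_nonneg _)
            (mul_nonneg hC₁ (Real.exp_pos _).le)
      _ = _ := by ring

theorem thetaConjC_growth {f : FC N} (hf : f ∈ AC N) (γ : SL(2, ℤ)) :
    ∃ (C : ℝ) (M : ℕ), ∀ τ : ℍ, 1 ≤ τ.im →
      ‖thetaConjC N γ f τ‖ ≤ C * Real.exp (2 * Real.pi * M * τ.im) := by
  obtain ⟨C, M, -, h⟩ := thetaConjC_growth_aux N hf γ
  exact ⟨C, M, h⟩

end Fermat.Agent.S29.H72
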