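import Mathlib
import Fermat.Agent.S29.H72_DictTheta
import Fermat.Agent.S24.H6_KeyA
import Fermat.Agent.S24.H40_Degree
import Fermat.Agent.S24.H40_Separation
import Fermat.Agent.S24.H40_Transcendental
import Fermat.Agent.S24.H15_Conjugates

/-!
# S29 / E0-DICT : the degree `[FC N : ℂ(j)] = [SL(2,ℤ) : Γ₀(N)]` (helper72)

Port of `S24.H40_M123` / `S24.H6_KeyAbstract` to the coefficient field `ℂ` (no descent needed).
-/

set_option autoImplicit false

open Complex Filter Function IntermediateField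
open UpperHalfPlane hiding I
open scoped Real Topology Manifold MatrixGroups

noncomputable section

namespace Fermat.Agent.S29.H72

open Fermat.Agent.S24 ModularCurve

variable (N : ℕ) [NeZero N]

/-- Uniform growth of the finitely many conjugates. -/
theorem exists_uniform_growthC {f : FC N} (hf : f ∈ AC N) :
    ∃ (C : ℝ) (M : ℕ), ∀ (x : H24.XN N) (τ : ℍ), 1 ≤ τ.im →
      ‖thetaXC N x f τ‖ ≤ C * Real.exp (2 * Real.pi * M * τ.im) := by
  choose C M hCM using fun x : H24.XN N => thetaConjC_growth N hf (Quotient.out x)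
  refine ⟨∑ x, |C x|, ∑ x, M x, fun x τ hτ => ?_⟩
  refine (hCM x τ hτ).trans ?_
  have h1 : C x ≤ ∑ y, |C y| := (le_abs_self _).trans
    (Finset.single_le_sum (f := fun y => |C y|) (fun y _ => abs_nonneg _) (Finset.mem_univ x))
  have h2 : M x ≤ ∑ y, M y :=
    Finset.single_le_sum (f := M) (fun y _ => Nat.zero_le _) (Finset.mem_univ x)
  have h3 : Real.exp (2 * Real.pi * M x * τ.im) ≤
      Real.exp (2 * Real.pi * ((∑ y, M y : ℕ) : ℝ) * τ.im) := by
    apply Real.exp_le_exp.mpr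
    have h4 : (M x : ℝ) ≤ ((∑ y, M y : ℕ) : ℝ) := by exact_mod_cast h2
    have hτ0 : 0 ≤ τ.im := by linarith
    have hpi := Real.pi_pos
    gcongr
  have h0 : 0 ≤ ∑ y, |C y| := Finset.sum_nonneg (fun y _ => abs_nonneg _)
  calc C x * Real.exp (2 * Real.pi * M x * τ.im)
      ≤ (∑ y, |C y|) * Real.exp (2 * Real.pi * M x * τ.im) :=
        mul_le_mul_of_nonneg_right h1 (Real.exp_pos _).le
    _ ≤ (∑ y, |C y|) * Real.exp (2 * Real.pi * ((∑ y, M y : ℕ) : ℝ) * τ.im) :=
        mul_le_mul_of_nonneg_left h3 h0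

/-- KEY, function form: the characteristic polynomial of the conjugates of `f ∈ AC N` is the
specialisation at `J τ` of a monic polynomial over `ℂ[J]` of degree `#X_N`. -/
theorem keyC_charpoly {f : FC N} (hf : f ∈ AC N) :
    ∃ P : Polynomial (Polynomial ℂ), P.Monic ∧ P.natDegree = Fintype.card (H24.XN N) ∧
      ∀ τ : ℍ, P.map (Polynomial.evalRingHom (H28.J τ)) =
        ∏ x : H24.XN N, (Polynomial.X - Polynomial.C (thetaXC N x f τ)) := by
  classical
  obtain ⟨C, M, hCM⟩ := exists_uniform_growthC N hf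
  exact H6.exists_charpoly_of_conjugates (fun x => thetaXC N x f)
    (fun x => thetaXC_mdiff N hf x) (fun γ x τ => (thetaXC_smul N hf γ x τ).symm) M C hCM

/-- KEY (weak form): every `f ∈ AC N` is a root of a monic polynomial of degree `#X_N` with
coefficients in `ℂ[j]`. -/
theorem keyC_weak (f : AC N) :
    ∃ P : Polynomial (Polynomial ℂ), P.Monic ∧ P.natDegree = Fintype.card (H24.XN N) ∧
      Polynomial.eval₂ ((Polynomial.aeval (jC N)).toRingHom : Polynomial ℂ →+* FC N)
        (f : FC N) P = 0 := by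
  obtain ⟨P, hPm, hPd, hP⟩ := keyC_charpoly N f.2
  refine ⟨P, hPm, hPd, ?_⟩
  let φ : Polynomial ℂ →+* AC N := (Polynomial.aeval (⟨jC N, jC_mem_AC N⟩ : AC N)).toRingHom
  have hφ : (algebraMap (AC N) (FC N)).comp φ =
      ((Polynomial.aeval (jC N)).toRingHom : Polynomial ℂ →+* FC N) := by
    ext p
    · simp [φ]
    · simp [φ]
  have h0 : Polynomial.eval₂ φ f P = 0 := by
    apply ThetaCHom_injective N
    rw [map_zero, Polynomial.hom_eval₂]
    funext τ
    show (Pi.evalRingHom (fun _ : ℍ => ℂ) τ) (Polynomial.eval₂ ((ThetaCHom N).comp φ)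
      (ThetaCHom N f) P) = 0
    rw [Polynomial.hom_eval₂]
    have hcomp : (Pi.evalRingHom (fun _ : ℍ => ℂ) τ).comp ((ThetaCHom N).comp φ) =
        Polynomial.evalRingHom (H28.J τ) := by
      apply Polynomial.ringHom_ext
      · intro c
        simp only [φ, RingHom.comp_apply, AlgHom.toRingHom_eq_coe, RingHom.coe_coe,
          Polynomial.aeval_C, Pi.evalRingHom_apply, Polynomial.coe_evalRingHom,
          Polynomial.eval_C]
        rw [ThetaCHom_apply]
        show ThetaC N (algebraMap ℂ (FC N) c) τ = c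
        rw [ThetaC_algebraMap]
      · simp only [φ, RingHom.comp_apply, AlgHom.toRingHom_eq_coe, RingHom.coe_coe,
          Polynomial.aeval_X, Pi.evalRingHom_apply, Polynomial.coe_evalRingHom,
          Polynomial.eval_X]
        rw [ThetaCHom_apply]
        show ThetaC N (jC N) τ = H28.J τ
        rw [ThetaC_jC]
    rw [hcomp, Polynomial.eval₂_eq_eval_map, hP τ, Polynomial.eval_prod]
    apply Finset.prod_eq_zero (Finset.mem_univ (QuotientGroup.mk (1 : SL(2, ℤ)) : H24.XN N))
    rw [Polynomial.eval_sub, Polynomial.eval_X, Polynomial.eval_C, Pi.evalRingHom_apply,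
      ThetaCHom_apply, thetaXC_mk N f.2, thetaConjC_one, sub_self]
  have h1 := congrArg (algebraMap (AC N) (FC N)) h0
  rw [Polynomial.hom_eval₂, hφ, map_zero] at h1
  exact h1

/-- `jC N` is transcendental over `ℂ`. -/
theorem transcendental_jC : Transcendental ℂ (jC N) := by
  intro h
  apply H40.transcendental_coeffEmb_jq ℂ
  have := h.algHom (laurentBaseChange ℂ (modularFunctionFieldFull N)).val
  exact this

/-- The conjugates of `j_N` by `γ₁, γ₂` agree iff `γ₁ Γ₀(N) = γ₂ Γ₀(N)`. -/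
theorem thetaConjC_jdC_eq_iff (γ₁ γ₂ : SL(2, ℤ)) :
    thetaConjC N γ₁ (jdC N N dvd_rfl) = thetaConjC N γ₂ (jdC N N dvd_rfl) ↔
      γ₁⁻¹ * γ₂ ∈ CongruenceSubgroup.Gamma0 N := by
  have hN : 0 < N := Nat.pos_of_ne_zero (NeZero.ne N)
  have key := H15.conj_eq_iff_mem_Gamma0 H28.J H28.J_smul H17.tendsto_qParam_mul_J N hN γ₁⁻¹ γ₂⁻¹
  rw [inv_inv] at key
  rw [← key]
  constructor
  · intro h τ
    have := congr_fun h τ
    rwa [thetaConjC_jdC, thetaConjC_jdC] at this
  · intro h
    funext τ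
    rw [thetaConjC_jdC, thetaConjC_jdC]
    exact h τ

theorem thetaXC_jdC_injective :
    Function.Injective (fun x : H24.XN N => thetaXC N x (jdC N N dvd_rfl)) := by
  intro x y hxy
  obtain ⟨γ₁, rfl⟩ := QuotientGroup.mk_surjective x
  obtain ⟨γ₂, rfl⟩ := QuotientGroup.mk_surjective y
  simp only at hxy
  rw [thetaXC_mk N (jdC_mem_AC N N dvd_rfl), thetaXC_mk N (jdC_mem_AC N N dvd_rfl),
    thetaConjC_jdC_eq_iff] at hxy
  exact QuotientGroup.eq.mpr hxy

/-- `FC N` is finite over `ℂ(j)` of degree `#X_N = [SL(2,ℤ) : Γ₀(N)]`. -/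
theorem finrank_FC :
    FiniteDimensional ℂ⟮jC N⟯ (FC N) ∧
      Module.finrank ℂ⟮jC N⟯ (FC N) = Fintype.card (H24.XN N) := by
  obtain ⟨τ₁, hτ₁⟩ := H40.exists_injective_eval
    (fun x : H24.XN N => thetaXC N x (jdC N N dvd_rfl))
    (fun x => thetaXC_mdiff N (jdC_mem_AC N N dvd_rfl) x) (thetaXC_jdC_injective N)
  refine H40.finrank_eq_card_of_conjugates_weak (jC N) (transcendental_jC N) (jdSetC N)
    (finite_jdSetC N) (adjoin_jdSetC_eq_top N) (AC N) (jC_mem_AC N) Algebra.subset_adjoin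
    (fun x => thetaXCHom N x) (QuotientGroup.mk 1 : H24.XN N) (fun x c hc => ?_) (keyC_weak N)
    (Pi.evalRingHom (fun _ : ℍ => ℂ) τ₁) ⟨jdC N N dvd_rfl, jdC_mem_AC N N dvd_rfl⟩ hτ₁
  show thetaConjC N (Quotient.out x) c.1 = thetaConjC N (Quotient.out _) c.1
  rw [thetaConjC_of_mem_adjoin_jC N hc, thetaConjC_of_mem_adjoin_jC N hc]

instance finiteDimensional_FC : FiniteDimensional ℂ⟮jC N⟯ (FC N) := (finrank_FC N).1

theorem finrank_FC_eq : Module.finrank ℂ⟮jC N⟯ (FC N) = Fintype.card (H24.XN N) :=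
  (finrank_FC N).2

theorem finrank_FC_eq_natCard : Module.finrank ℂ⟮jC N⟯ (FC N) = Nat.card (H24.XN N) := by
  rw [finrank_FC_eq, Nat.card_eq_fintype_card]

/-- the `hcard` shape used by `H81.exists_point_of_place` / `H95.exists_cusp_of_place`. -/
theorem card_XN_eq_finrank_FC :
    Fintype.card (H24.XN N) = Module.finrank ℂ⟮jC N⟯ (FC N) := (finrank_FC_eq N).symm

end Fermat.Agent.S29.H72
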