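import Mathlib
import Fermat.Agent.S29.H72_DictTheta
import Fermat.Agent.S29.H72_DictCusp
import Fermat.Agent.S24.H81_Emb

/-!
# S29 / E0-DICT : the realisation `toMer N : FC N →+* Mer` (helper72)

`FC N = ℂ(j(q^d) : d ∣ N) ⊆ ℂ((q))` is realised inside `Mer = Frac Hol` by evaluating `q`-series;
the image consists of `Γ₀(N)`-invariant functions which are meromorphic at all cusps.
-/

set_option autoImplicit false

open Complex Filter Function
open UpperHalfPlane hiding I
open scoped Real Topology Manifold MatrixGroups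

noncomputable section

namespace Fermat.Agent.S29.H72

open Fermat.Agent.S24 Fermat.Agent.S24.H81 Fermat.Agent.S24.H4

variable (N : ℕ) [NeZero N]

instance instIsFractionRingAC : IsFractionRing (AC N) (FC N) :=
  isFractionRing_of_forall_div (AC N) (exists_div_AC N)

/-- `ThetaC` on `AC N` with values in holomorphic functions. -/
def ThetaHol : AC N →+* Hol :=
  (ThetaCHom N).codRestrict Hol (fun f => ThetaC_mdiff N f.2)

@[simp] theorem coe_ThetaHol (f : AC N) : ((ThetaHol N f : Hol) : ℍ → ℂ) = ThetaC N f.1 := rfl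

theorem ThetaHol_injective : Function.Injective (ThetaHol N) := by
  intro f g h
  exact ThetaCHom_injective N (congrArg Subtype.val h)

theorem ThetaHol_ne_zero {b : AC N} (hb : b ≠ 0) : ThetaHol N b ≠ 0 := by
  intro h
  exact hb (ThetaHol_injective N (h.trans (map_zero _).symm))

theorem thetaMerC_injective :
    Function.Injective ((algebraMap Hol Mer).comp (ThetaHol N)) :=
  (IsFractionRing.injective Hol Mer).comp (ThetaHol_injective N)

/-- The realisation of the complex modular function field inside `Mer`. -/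
def toMer : FC N →+* Mer := IsFractionRing.lift (thetaMerC_injective N)

theorem toMer_coe (a : AC N) : toMer N (a : FC N) = algebraMap Hol Mer (ThetaHol N a) :=
  IsFractionRing.lift_algebraMap (thetaMerC_injective N) a

theorem toMer_div (a b : AC N) :
    toMer N ((a : FC N) / (b : FC N)) =
      algebraMap Hol Mer (ThetaHol N a) / algebraMap Hol Mer (ThetaHol N b) := by
  rw [map_div₀, toMer_coe, toMer_coe]

theorem toMer_injective : Function.Injective (toMer N) := (toMer N).injective

/-- Every element of `FC N` is a quotient of elements of `AC N`. -/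
theorem exists_div_AC' (f : FC N) : ∃ a b : AC N, b ≠ 0 ∧ f = (a : FC N) / (b : FC N) := by
  obtain ⟨a, ha, b, hb, hb0, rfl⟩ := exists_div_AC N f
  exact ⟨⟨a, ha⟩, ⟨b, hb⟩, fun h => hb0 (congrArg Subtype.val h), rfl⟩

/-- The constant function as an element of `Mer`. -/
def constMer (c : ℂ) : Mer := algebraMap Hol Mer ⟨fun _ => c, const_mem_Hol c⟩

theorem toMer_algebraMap (c : ℂ) : toMer N (algebraMap ℂ (FC N) c) = constMer c := by
  have h1 : algebraMap ℂ (FC N) c = ((algebraMap ℂ (AC N) c : AC N) : FC N) := rfl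
  rw [h1, toMer_coe, constMer]
  congr 1
  apply Subtype.ext
  rw [coe_ThetaHol]
  exact ThetaC_algebraMap N c

/-- `J` as an element of `Mer`. -/
def JMer : Mer := algebraMap Hol Mer ⟨H28.J, H28.J_mdiff⟩

theorem toMer_jC : toMer N (jC N) = JMer := by
  have h1 : jC N = ((⟨jC N, jC_mem_AC N⟩ : AC N) : FC N) := rfl
  rw [h1, toMer_coe, JMer]
  congr 1
  apply Subtype.ext
  rw [coe_ThetaHol]
  exact ThetaC_jC N

/-- `Γ₀(N)`-invariance on `Hol`. -/
theorem smul_ThetaHol {γ : SL(2, ℤ)} (hγ : γ ∈ CongruenceSubgroup.Gamma0 N) (a : AC N) :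
    γ • ThetaHol N a = ThetaHol N a := by
  apply Subtype.ext
  funext τ
  rw [hol_smul_apply, coe_ThetaHol]
  exact ThetaC_smul N a.2 (inv_mem hγ) τ

/-- `Γ₀(N)`-invariance of the realisation. -/
theorem smul_toMer {γ : SL(2, ℤ)} (hγ : γ ∈ CongruenceSubgroup.Gamma0 N) (f : FC N) :
    γ • toMer N f = toMer N f := by
  obtain ⟨a, b, -, rfl⟩ := exists_div_AC' N f
  rw [toMer_div, mer_smul_div, smul_ThetaHol N hγ, smul_ThetaHol N hγ]

theorem coe_smul_ThetaHol (γ : SL(2, ℤ)) (a : AC N) :
    ((γ • ThetaHol N a : Hol) : ℍ → ℂ) = thetaConjC N γ a.1 := rfl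

theorem isMeroPeriodic_thetaConjC (γ : SL(2, ℤ)) (a : AC N) :
    IsMeroPeriodic (N : ℝ) (thetaConjC N γ a.1) := by
  obtain ⟨C, M, hg⟩ := thetaConjC_growth N a.2 γ
  exact H95.isMeroPeriodic_of_growth (H95.natCast_pos_of_neZero N) (thetaConjC_mdiff N a.2 γ)
    (thetaConjC_vadd N a.2 γ) (C := C) (B := 2 * Real.pi * M) (c := 1) hg

theorem thetaConjC_ne_zero (γ : SL(2, ℤ)) {b : AC N} (hb : b ≠ 0) : thetaConjC N γ b.1 ≠ 0 := by
  intro h
  apply hb
  apply Subtype.ext
  apply ThetaC_eq_zero N b.2
  funext τ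
  have := congrFun h (γ • τ)
  simpa [thetaConjC_apply] using this

/-- The image of `toMer` consists of functions meromorphic at all cusps. -/
theorem toMer_mem_cuspRing (f : FC N) : toMer N f ∈ cuspRing := by
  obtain ⟨a, b, hb, rfl⟩ := exists_div_AC' N f
  rw [toMer_div]
  refine div_mem_cuspRing (ThetaHol_ne_zero N hb) (fun γ => ?_)
  exact growthAt_of_isMeroPeriodic (H95.natCast_pos_of_neZero N) (isMeroPeriodic_thetaConjC N γ a)
    (isMeroPeriodic_thetaConjC N γ b) (thetaConjC_ne_zero N γ hb)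

end Fermat.Agent.S29.H72
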