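import Mathlib
import Fermat.Agent.S29.H72_DictMer
import Fermat.Agent.S29.H72_DictDegree
import Fermat.Agent.S29.H48_FieldSqueeze
import Fermat.Agent.S29.H48_LevelOneMero

/-!
# S29 / E0-DICT : the IMAGE theorem (helper72)

A `Γ₀(N)`-invariant element of `Mer` which is meromorphic at all cusps lies in `toMer N (FC N)`.
Glue of helper48's degree squeeze (`H48_FieldSqueeze`) and level-one structure theorem
(`H48_LevelOneMero`) with the realisation `toMer` and the degree `[FC N : ℂ(j)] = [SL₂(ℤ) : Γ₀(N)]`.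
-/

set_option autoImplicit false

open Complex Filter Function IntermediateField
open UpperHalfPlane hiding I
open scoped Real Topology Manifold MatrixGroups

noncomputable section

namespace Fermat.Agent.S29.H72

open Fermat.Agent.S24 Fermat.Agent.S24.H81

variable (N : ℕ) [NeZero N]

/-- `ThetaC` of a polynomial in `j`. -/
theorem ThetaC_aeval_jC (P : Polynomial ℂ) (τ : ℍ) :
    ThetaC N (Polynomial.aeval (jC N) P) τ = P.eval (H28.J τ) := by
  let φ : Polynomial ℂ →+* AC N := (Polynomial.aeval (⟨jC N, jC_mem_AC N⟩ : AC N)).toRingHom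
  have hφ : ((φ P : AC N) : FC N) = Polynomial.aeval (jC N) P := by
    show ((AC N).val (Polynomial.aeval (⟨jC N, jC_mem_AC N⟩ : AC N) P) : FC N) = _
    rw [← Polynomial.aeval_algHom_apply]
    rfl
  have hcomp : (Pi.evalRingHom (fun _ : ℍ => ℂ) τ).comp ((ThetaCHom N).comp φ) =
      Polynomial.evalRingHom (H28.J τ) := by
    apply Polynomial.ringHom_ext
    · intro c
      simp only [φ, RingHom.comp_apply, AlgHom.toRingHom_eq_coe, RingHom.coe_coe,
        Polynomial.aeval_C, Pi.evalRingHom_apply, Polynomial.coe_evalRingHom,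
        Polynomial.eval_C]
      rw [ThetaCHom_apply]
      show ThetaC N (algebraMap ℂ (FC N) c) τ = c
      rw [ThetaC_algebraMap]
    · simp only [φ, RingHom.comp_apply, AlgHom.toRingHom_eq_coe, RingHom.coe_coe,
        Polynomial.aeval_X, Pi.evalRingHom_apply, Polynomial.coe_evalRingHom,
        Polynomial.eval_X]
      rw [ThetaCHom_apply]
      show ThetaC N (jC N) τ = H28.J τ
      rw [ThetaC_jC]
  have h1 := congrArg (fun f => f P) hcomp
  simp only [RingHom.comp_apply, Pi.evalRingHom_apply, Polynomial.coe_evalRingHom] at h1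
  rw [← h1, ThetaCHom_apply, hφ]

/-- The holomorphic function `τ ↦ P (J τ)`. -/
def polyJ (P : Polynomial ℂ) : Hol :=
  ⟨fun τ => P.eval (H28.J τ), by
    have h : (fun τ => P.eval (H28.J τ)) = ThetaC 1 (Polynomial.aeval (jC 1) P) := by
      funext τ; rw [ThetaC_aeval_jC]
    rw [h]
    exact ThetaC_mdiff 1 (adjoin_jC_le 1 (Polynomial.aeval_mem_adjoin_singleton ℂ (jC 1)))⟩

theorem polyJ_apply (P : Polynomial ℂ) (τ : ℍ) : (polyJ P : ℍ → ℂ) τ = P.eval (H28.J τ) := rfl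

theorem smul_polyJ (γ : SL(2, ℤ)) (P : Polynomial ℂ) : γ • polyJ P = polyJ P := by
  apply Subtype.ext
  funext τ
  rw [hol_smul_apply, polyJ_apply, polyJ_apply, H28.J_smul]

theorem toMer_aeval_jC (P : Polynomial ℂ) :
    toMer N (Polynomial.aeval (jC N) P) = algebraMap Hol Mer (polyJ P) := by
  have hmem : Polynomial.aeval (jC N) P ∈ AC N :=
    adjoin_jC_le N (Polynomial.aeval_mem_adjoin_singleton ℂ (jC N))
  have h1 : Polynomial.aeval (jC N) P = ((⟨_, hmem⟩ : AC N) : FC N) := rfl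
  rw [h1, toMer_coe]
  congr 1
  apply Subtype.ext
  funext τ
  rw [coe_ThetaHol, polyJ_apply]
  exact ThetaC_aeval_jC N P τ

/-- Elements of `ℂ(j)` are realised by `SL(2,ℤ)`-invariant functions. -/
theorem smul_toMer_of_mem_adjoin_jC (k : ℂ⟮jC N⟯) (g : SL(2, ℤ)) :
    g • toMer N (algebraMap ℂ⟮jC N⟯ (FC N) k) = toMer N (algebraMap ℂ⟮jC N⟯ (FC N) k) := by
  obtain ⟨r, s, hrs⟩ := (mem_adjoin_simple_iff ℂ (k : FC N)).mp k.2
  have h1 : algebraMap ℂ⟮jC N⟯ (FC N) k = Polynomial.aeval (jC N) r / Polynomial.aeval (jC N) s :=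
    hrs
  rw [h1, map_div₀, toMer_aeval_jC, toMer_aeval_jC, mer_smul_div, smul_polyJ, smul_polyJ]

/-- `SL(2,ℤ)`-invariant elements of `cuspRing` come from `ℂ(j)` (helper48's level-one structure
theorem in `Mer` form). -/
theorem exists_of_fixed_of_mem_cuspRing {y : Mer} (hy : y ∈ cuspRing)
    (hfix : ∀ g : SL(2, ℤ), g • y = y) :
    ∃ k : ℂ⟮jC N⟯, toMer N (algebraMap ℂ⟮jC N⟯ (FC N) k) = y := by
  obtain ⟨a, b, hb, rfl⟩ := exists_div_hol y
  have hgrow : GrowthAt (a : ℍ → ℂ) (b : ℍ → ℂ) := by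
    have h1 := hy 1
    rw [one_smul] at h1
    exact h1.growthAt hb rfl
  have hinv : ∀ (γ : SL(2, ℤ)) (τ : ℍ),
      (a : ℍ → ℂ) (γ • τ) * (b : ℍ → ℂ) τ = (a : ℍ → ℂ) τ * (b : ℍ → ℂ) (γ • τ) := by
    intro γ τ
    have h1 := hfix γ⁻¹
    rw [mer_smul_div, div_eq_div_iff_hol (hol_smul_ne_zero _ hb) hb] at h1
    have h2 := congrArg (fun f : Hol => (f : ℍ → ℂ) τ) h1
    simpa [hol_smul_apply] using h2
  obtain ⟨P, Q, hQ, hPQ⟩ := H48.exists_polynomial_of_invariant_ratio (a : ℍ → ℂ) (b : ℍ → ℂ)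
    a.2 b.2 (coe_ne_zero hb) hinv hgrow
  have hQj : Polynomial.aeval (jC N) Q ≠ 0 := by
    intro h0
    exact transcendental_jC N ⟨Q, hQ, h0⟩
  have hQm : polyJ Q ≠ 0 := by
    intro h0
    have h1 : toMer N (Polynomial.aeval (jC N) Q) = 0 := by
      rw [toMer_aeval_jC, h0, map_zero]
    exact hQj ((map_eq_zero (toMer N)).mp h1)
  refine ⟨⟨Polynomial.aeval (jC N) P / Polynomial.aeval (jC N) Q, ?_⟩, ?_⟩
  · exact (mem_adjoin_simple_iff ℂ _).mpr ⟨P, Q, rfl⟩
  · show toMer N (Polynomial.aeval (jC N) P / Polynomial.aeval (jC N) Q) = _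
    rw [map_div₀, toMer_aeval_jC, toMer_aeval_jC, div_eq_div_iff_hol hQm hb]
    apply Subtype.ext
    funext τ
    show P.eval (H28.J τ) * (b : ℍ → ℂ) τ = (a : ℍ → ℂ) τ * Q.eval (H28.J τ)
    rw [← hPQ τ]
    ring

/-- **IMAGE.** A `Γ₀(N)`-invariant element of `Mer` which is meromorphic at all cusps is the
realisation of an element of `FC N`. -/
theorem exists_toMer_eq {x : Mer} (hx : x ∈ cuspRing)
    (hinv : ∀ γ ∈ CongruenceSubgroup.Gamma0 N, γ • x = x) : ∃ f : FC N, toMer N f = x := by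
  refine H48.exists_eq_of_fixed_of_index_le (K0 := ℂ⟮jC N⟯) (E := FC N) (G := SL(2, ℤ))
    (toMer N) cuspRing (fun g y hy => smul_mem_cuspRing hy g)
    (fun y hy hfix => exists_of_fixed_of_mem_cuspRing N hy hfix)
    (CongruenceSubgroup.Gamma0 N) (toMer_mem_cuspRing N) (fun f γ hγ => smul_toMer N hγ f)
    (fun k g => smul_toMer_of_mem_adjoin_jC N k g) ?_ x hx hinv
  rw [finrank_FC_eq_natCard]
  exact le_of_eq rfl

/-- IMAGE, uniqueness included. -/
theorem existsUnique_toMer_eq {x : Mer} (hx : x ∈ cuspRing)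
    (hinv : ∀ γ ∈ CongruenceSubgroup.Gamma0 N, γ • x = x) : ∃! f : FC N, toMer N f = x := by
  obtain ⟨f, hf⟩ := exists_toMer_eq N hx hinv
  exact ⟨f, hf, fun g hg => toMer_injective N (hg.trans hf.symm)⟩

/-- The image of `toMer N` is exactly the set of `Γ₀(N)`-invariant elements of `cuspRing`. -/
theorem mem_range_toMer_iff (x : Mer) :
    x ∈ Set.range (toMer N) ↔
      x ∈ cuspRing ∧ ∀ γ ∈ CongruenceSubgroup.Gamma0 N, γ • x = x := by
  constructor
  · rintro ⟨f, rfl⟩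
    exact ⟨toMer_mem_cuspRing N f, fun γ hγ => smul_toMer N hγ f⟩
  · rintro ⟨h1, h2⟩
    exact exists_toMer_eq N h1 h2

/-- IMAGE for roots (the shape consumed by FIN / KUMMER): an invariant `Ψ` with
`Ψ ^ n ∈ toMer N (FC N)` is itself in the image. -/
theorem exists_toMer_eq_of_pow {x : Mer} {n : ℕ} (hn : 0 < n)
    (hpow : ∃ h : FC N, toMer N h = x ^ n)
    (hinv : ∀ γ ∈ CongruenceSubgroup.Gamma0 N, γ • x = x) : ∃ f : FC N, toMer N f = x := by
  obtain ⟨h, hh⟩ := hpow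
  refine exists_toMer_eq N (mem_cuspRing_of_pow_mem hn ?_) hinv
  rw [← hh]
  exact toMer_mem_cuspRing N h

/-- IMAGE, function form: `a / b` with `a, b` holomorphic, `Γ₀(N)`-invariant in cross-multiplied
form and with the growth bound at every cusp, is `ThetaC f / ThetaC g` with `f, g ∈ AC N`. -/
theorem exists_AC_of_invariant_ratio {a b : ℍ → ℂ} (ha : MDiff a) (hb : MDiff b) (hb0 : b ≠ 0)
    (hinv : ∀ γ ∈ CongruenceSubgroup.Gamma0 N, ∀ τ : ℍ, a (γ • τ) * b τ = a τ * b (γ • τ))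
    (hcusp : ∀ σ : SL(2, ℤ), ∃ c C : ℝ, ∃ m : ℕ, ∀ τ : ℍ, c ≤ τ.im →
      ‖a (σ • τ)‖ ≤ C * Real.exp (2 * π * m * τ.im) * ‖b (σ • τ)‖) :
    ∃ f g : AC N, g ≠ 0 ∧ ∀ τ : ℍ, a τ * ThetaC N g.1 τ = ThetaC N f.1 τ * b τ := by
  set a' : Hol := ⟨a, ha⟩
  set b' : Hol := ⟨b, hb⟩
  have hb' : b' ≠ 0 := fun h => hb0 (congrArg Subtype.val h)
  set x : Mer := algebraMap Hol Mer a' / algebraMap Hol Mer b' with hx
  have hxR : x ∈ cuspRing := div_mem_cuspRing hb' (fun γ => hcusp γ⁻¹)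
  have hxinv : ∀ γ ∈ CongruenceSubgroup.Gamma0 N, γ • x = x := by
    intro γ hγ
    rw [hx, mer_smul_div, div_eq_div_iff_hol (hol_smul_ne_zero γ hb') hb']
    apply Subtype.ext
    funext τ
    exact hinv γ⁻¹ (inv_mem hγ) τ
  obtain ⟨F, hF⟩ := exists_toMer_eq N hxR hxinv
  obtain ⟨f, g, hg, rfl⟩ := exists_div_AC' N F
  refine ⟨f, g, hg, fun τ => ?_⟩
  rw [toMer_div, hx, div_eq_div_iff_hol (ThetaHol_ne_zero N hg) hb'] at hF
  have := congrArg (fun u : Hol => (u : ℍ → ℂ) τ) hF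
  simpa [coe_ThetaHol] using this.symm

end Fermat.Agent.S29.H72
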