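import Mathlib
import Fermat.Agent.S29.H72_DictImage
import Fermat.Agent.S29.H25_MerAction
import Fermat.Agent.S29.H85_MerAct
import Fermat.Agent.S29.H65_MerGL

/-!
# S29 / E0-DICT : bridges between the action / realisation vocabularies (helper72)

* `H72.toMer N = H25.thetaC N`;
* my LEFT action `γ • x` on `Mer` is `H25.merComp γ⁻¹ x = H85.actMer γ⁻¹ x = H65.actGL (γ⁻¹) x`;
* IMAGE restated for each of the RIGHT actions.
-/

set_option autoImplicit false

open Complex Filter Function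
open UpperHalfPlane hiding I
open scoped Real Topology Manifold MatrixGroups

noncomputable section

namespace Fermat.Agent.S29.H72

open Fermat.Agent.S24 Fermat.Agent.S24.H81

variable (N : ℕ) [NeZero N]

/-! ### helper25's realisation -/

theorem AC_eq_H25 : AC N = H25.AC N := rfl

theorem ThetaC_eq_H25 (f : FC N) : ThetaC N f = H25.ThetaC N f := rfl

theorem toMer_eq_thetaC : toMer N = H25.thetaC N := by
  ext f
  obtain ⟨a, b, -, rfl⟩ := exists_div_AC' N f
  rw [toMer_div, map_div₀, H25.thetaC_of_mem N (f := (a : FC N)) a.2,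
    H25.thetaC_of_mem N (f := (b : FC N)) b.2]
  rfl

theorem toMer_apply_eq_thetaC (f : FC N) : toMer N f = H25.thetaC N f := by
  rw [toMer_eq_thetaC]

/-! ### the right actions -/

theorem smul_eq_merComp (γ : SL(2, ℤ)) (x : Mer) : γ • x = H25.merComp γ⁻¹ x := by
  obtain ⟨a, b, -, rfl⟩ := exists_div_hol x
  rw [mer_smul_div, map_div₀, H25.merComp_algebraMap, H25.merComp_algebraMap]
  rfl

theorem merComp_eq_smul (γ : SL(2, ℤ)) (x : Mer) : H25.merComp γ x = γ⁻¹ • x := by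
  rw [smul_eq_merComp, inv_inv]

theorem smul_eq_actMer (γ : SL(2, ℤ)) (x : Mer) : γ • x = H85.actMer γ⁻¹ x := by
  obtain ⟨a, b, -, rfl⟩ := exists_div_hol x
  rw [mer_smul_div, H85.actMer_div]
  rfl

theorem actMer_eq_smul (γ : SL(2, ℤ)) (x : Mer) : H85.actMer γ x = γ⁻¹ • x := by
  rw [smul_eq_actMer, inv_inv]

theorem actMer_eq_merComp (γ : SL(2, ℤ)) (x : Mer) : H85.actMer γ x = H25.merComp γ x := by
  rw [actMer_eq_smul, merComp_eq_smul]

/-- `SL(2,ℤ) → GL(2,ℝ)⁺`. -/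
def slToGLPos (γ : SL(2, ℤ)) : GL(2, ℝ)⁺ :=
  ⟨(γ : GL (Fin 2) ℝ), (Matrix.mem_glpos _).mpr (H85.det_SL_pos γ)⟩

theorem actGL_slToGLPos (γ : SL(2, ℤ)) (x : Mer) :
    H65.actGL (slToGLPos γ) x = H85.actMer γ x := by
  obtain ⟨a, b, -, rfl⟩ := exists_div_hol x
  rw [H65.actGL_div, H85.actMer_div]
  rfl

theorem smul_eq_actGL (γ : SL(2, ℤ)) (x : Mer) : γ • x = H65.actGL (slToGLPos γ⁻¹) x := by
  rw [actGL_slToGLPos, smul_eq_actMer]

/-! ### the cusp predicate and IMAGE in the right-action vocabularies -/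

theorem meroAtCusps_iff_merComp (x : Mer) :
    MeroAtCusps x ↔ ∀ σ : SL(2, ℤ), MeroAtInf (H25.merComp σ x) := by
  constructor
  · intro h σ
    rw [merComp_eq_smul]
    exact h σ⁻¹
  · intro h γ
    rw [smul_eq_merComp]
    exact h γ⁻¹

theorem meroAtCusps_iff_actMer (x : Mer) :
    MeroAtCusps x ↔ ∀ σ : SL(2, ℤ), MeroAtInf (H85.actMer σ x) := by
  rw [meroAtCusps_iff_merComp]
  simp only [actMer_eq_merComp]

omit [NeZero N] in
theorem invariant_iff_merComp (x : Mer) :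
    (∀ γ ∈ CongruenceSubgroup.Gamma0 N, γ • x = x) ↔
      ∀ γ ∈ CongruenceSubgroup.Gamma0 N, H25.merComp γ x = x := by
  constructor
  · intro h γ hγ
    rw [merComp_eq_smul]
    exact h γ⁻¹ (inv_mem hγ)
  · intro h γ hγ
    rw [smul_eq_merComp]
    exact h γ⁻¹ (inv_mem hγ)

/-- IMAGE in helper25's vocabulary. -/
theorem exists_thetaC_eq {x : Mer} (hx : ∀ σ : SL(2, ℤ), MeroAtInf (H25.merComp σ x))
    (hinv : ∀ γ ∈ CongruenceSubgroup.Gamma0 N, H25.merComp γ x = x) :
    ∃ f : FC N, H25.thetaC N f = x := by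
  obtain ⟨f, hf⟩ := exists_toMer_eq N ((meroAtCusps_iff_merComp x).mpr hx)
    ((invariant_iff_merComp N x).mpr hinv)
  exact ⟨f, by rw [← toMer_apply_eq_thetaC, hf]⟩

/-- IMAGE for roots in helper25's vocabulary. -/
theorem exists_thetaC_eq_of_pow {x : Mer} {n : ℕ} (hn : 0 < n)
    (hpow : ∃ h : FC N, H25.thetaC N h = x ^ n)
    (hinv : ∀ γ ∈ CongruenceSubgroup.Gamma0 N, H25.merComp γ x = x) :
    ∃ f : FC N, H25.thetaC N f = x := by
  obtain ⟨h, hh⟩ := hpow
  obtain ⟨f, hf⟩ := exists_toMer_eq_of_pow N hn ⟨h, by rw [toMer_apply_eq_thetaC, hh]⟩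
    ((invariant_iff_merComp N x).mpr hinv)
  exact ⟨f, by rw [← toMer_apply_eq_thetaC, hf]⟩

/-- IMAGE in helper85's vocabulary. -/
theorem exists_toMer_eq_of_actMer {x : Mer} (hx : ∀ σ : SL(2, ℤ), MeroAtInf (H85.actMer σ x))
    (hinv : ∀ γ ∈ CongruenceSubgroup.Gamma0 N, H85.actMer γ x = x) :
    ∃ f : FC N, toMer N f = x := by
  refine exists_toMer_eq N ((meroAtCusps_iff_actMer x).mpr hx) ?_
  rw [invariant_iff_merComp]
  intro γ hγ
  rw [← actMer_eq_merComp]
  exact hinv γ hγ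

/-- IMAGE for roots in helper85's vocabulary. -/
theorem exists_toMer_eq_of_pow_of_actMer {x : Mer} {n : ℕ} (hn : 0 < n)
    (hpow : ∃ h : FC N, toMer N h = x ^ n)
    (hinv : ∀ γ ∈ CongruenceSubgroup.Gamma0 N, H85.actMer γ x = x) :
    ∃ f : FC N, toMer N f = x := by
  refine exists_toMer_eq_of_pow N hn hpow ?_
  rw [invariant_iff_merComp]
  intro γ hγ
  rw [← actMer_eq_merComp]
  exact hinv γ hγ

/-- Invariance of the realisation in helper85's vocabulary. -/
theorem actMer_toMer {γ : SL(2, ℤ)} (hγ : γ ∈ CongruenceSubgroup.Gamma0 N) (f : FC N) :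
    H85.actMer γ (toMer N f) = toMer N f := by
  rw [actMer_eq_smul]
  exact smul_toMer N (inv_mem hγ) f

/-- The realisation is meromorphic at all cusps, helper85's vocabulary. -/
theorem meroAtInf_actMer_toMer (σ : SL(2, ℤ)) (f : FC N) :
    MeroAtInf (H85.actMer σ (toMer N f)) :=
  (meroAtCusps_iff_actMer _).mp (toMer_mem_cuspRing N f) σ

end Fermat.Agent.S29.H72
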