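/-
S29 / Stage 3, KUMMER-INST (I4): lower bounds at `i∞`.

A nonzero holomorphic `h`-periodic function on `ℍ` that is bounded at `i∞` has a `q_h`-expansion
`q^m (u₀ + …)`, `u₀ ≠ 0`, hence is bounded BELOW by `C exp(-2π m Im τ / h)` for `Im τ` large.
Consequently the quotient of two such functions has at most exponential growth at `i∞`.

* `exists_lower_bound` : the lower bound;
* `exists_ratio_growth` : `‖a τ‖ ≤ C exp(2π m Im τ / h) ‖b τ‖` for `Im τ ≥ c`.
-/
import Mathlib
import Fermat.Agent.S24.H4_QhExpansion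
import Fermat.Agent.S24.H81_Hol

set_option autoImplicit false

open Complex Filter Function
open UpperHalfPlane hiding I
open scoped Real Topology Manifold

noncomputable section

namespace Fermat.Agent.S29.H85

open Fermat.Agent.S24.H4 Fermat.Agent.S24

local notation "𝕢" => Periodic.qParam

/-- A holomorphic function on `ℍ` vanishing on a half plane `Im τ ≥ c` vanishes identically. -/
theorem eq_zero_of_forall_im_ge {f : ℍ → ℂ} (hf : MDiff f) {c : ℝ}
    (h : ∀ τ : ℍ, c ≤ τ.im → f τ = 0) : f = 0 := by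
  by_contra h0
  -- a point of the half plane
  let τ₀ : ℍ := ⟨⟨0, max c 0 + 1⟩, by
    show 0 < max c 0 + 1
    have := le_max_right c 0
    linarith⟩
  have him : τ₀.im = max c 0 + 1 := rfl
  apply H81.analyticOrderAt_ne_top (H81.mem_Hol.mpr hf) h0 τ₀
  rw [analyticOrderAt_eq_top]
  have hopen : IsOpen {z : ℂ | c < z.im} := isOpen_lt continuous_const Complex.continuous_im
  have hmem : (τ₀ : ℂ) ∈ {z : ℂ | c < z.im} := by
    show c < (τ₀ : ℂ).im
    rw [UpperHalfPlane.coe_im, him]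
    have := le_max_left c 0
    linarith
  have hopen' : IsOpen {z : ℂ | 0 < z.im} := isOpen_lt continuous_const Complex.continuous_im
  have hmem' : (τ₀ : ℂ) ∈ {z : ℂ | 0 < z.im} := τ₀.im_pos
  filter_upwards [hopen.mem_nhds hmem, hopen'.mem_nhds hmem'] with z hz hz'
  simp only [Function.comp_apply]
  rw [ofComplex_apply_of_im_pos hz']
  exact h ⟨z, hz'⟩ (le_of_lt hz)

/-- **Lower bound at `i∞`** for a nonzero holomorphic periodic function bounded at `i∞`. -/
theorem exists_lower_bound {h : ℝ} (hh : 0 < h) {f : ℍ → ℂ} (hf : IsHoloPeriodic h f)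
    (f0 : f ≠ 0) :
    ∃ (m : ℕ) (c C : ℝ), 0 < C ∧
      ∀ τ : ℍ, c ≤ τ.im → C * Real.exp (-(2 * π * m * τ.im / h)) ≤ ‖f τ‖ := by
  have hG : AnalyticAt ℂ (cuspFunction h f) 0 := hf.analyticAt hh
  have hq : Tendsto (fun τ : ℍ => 𝕢 h τ) atImInfty (𝓝 0) := qParam_tendsto_atImInfty hh
  have hval : ∀ τ : ℍ, cuspFunction h f (𝕢 h τ) = f τ := fun τ =>
    eq_cuspFunction τ hh.ne' hf.periodic
  by_cases hz : ∀ᶠ q in 𝓝 (0 : ℂ), cuspFunction h f q = 0
  · exfalso
    have h1 := hq.eventually hz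
    obtain ⟨c, hc⟩ := (atImInfty_mem _).mp h1
    apply f0
    apply eq_zero_of_forall_im_ge hf.mdiff (c := c)
    intro τ hτ
    have := hc τ hτ
    simp only [Set.mem_ofPred_eq] at this
    rwa [hval] at this
  · obtain ⟨m, u, hu, hu0, hGu⟩ := hG.exists_eventuallyEq_pow_smul_nonzero_iff.mpr hz
    have hpos : 0 < ‖u 0‖ := norm_pos_iff.mpr hu0
    have hcont : ∀ᶠ q in 𝓝 (0 : ℂ), ‖u 0‖ / 2 < ‖u q‖ :=
      hu.continuousAt.norm.eventually (lt_mem_nhds (by linarith))
    have h1 := hq.eventually (hGu.and hcont)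
    obtain ⟨c, hc⟩ := (atImInfty_mem _).mp h1
    refine ⟨m, c, ‖u 0‖ / 2, by linarith, fun τ hτ => ?_⟩
    obtain ⟨e1, e2⟩ := hc τ hτ
    rw [hval, sub_zero, smul_eq_mul] at e1
    rw [e1, norm_mul, norm_pow, ← qFun_apply, norm_qFun_pow, mul_comm]
    exact mul_le_mul_of_nonneg_left e2.le (Real.exp_pos _).le

/-- **Growth of a quotient at `i∞`.** -/
theorem exists_ratio_growth {h : ℝ} (hh : 0 < h) {a b : ℍ → ℂ} (ha : IsHoloPeriodic h a)
    (hb : IsHoloPeriodic h b) (b0 : b ≠ 0) :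
    ∃ (m : ℕ) (c C : ℝ), 0 < C ∧
      ∀ τ : ℍ, c ≤ τ.im → ‖a τ‖ ≤ C * Real.exp (2 * π * m * τ.im / h) * ‖b τ‖ := by
  obtain ⟨m, c, C, hC, hlow⟩ := exists_lower_bound hh hb b0
  obtain ⟨M, A, hM⟩ := isBoundedAtImInfty_iff.mp ha.bdd
  refine ⟨m, max c A, (|M| + 1) / C, by positivity, fun τ hτ => ?_⟩
  have h1 := hlow τ (le_trans (le_max_left _ _) hτ)
  have h2 := hM τ (le_trans (le_max_right _ _) hτ)
  have hE : Real.exp (2 * π * m * τ.im / h) * Real.exp (-(2 * π * m * τ.im / h)) = 1 := by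
    rw [← Real.exp_add]; simp
  have hEpos : 0 < Real.exp (2 * π * m * τ.im / h) := Real.exp_pos _
  calc ‖a τ‖ ≤ |M| + 1 := h2.trans ((le_abs_self M).trans (by linarith))
    _ = (|M| + 1) / C * Real.exp (2 * π * m * τ.im / h)
          * (C * Real.exp (-(2 * π * m * τ.im / h))) := by
        have hC' : C ≠ 0 := hC.ne'
        calc |M| + 1 = (|M| + 1) / C * C * (Real.exp (2 * π * m * τ.im / h)
              * Real.exp (-(2 * π * m * τ.im / h))) := by
              rw [hE, mul_one, div_mul_cancel₀ _ hC']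
          _ = _ := by ring
    _ ≤ (|M| + 1) / C * Real.exp (2 * π * m * τ.im / h) * ‖b τ‖ :=
        mul_le_mul_of_nonneg_left h1 (by positivity)

end Fermat.Agent.S29.H85
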