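/-
S29 / Stage 3, KUMMER-INST (I3): the Kummer functions `Φ_χ = A_χ / A_1` in `H81.Mer`.

From helper30's twisted Poincaré series (`H30.exists_poincare_series`): for a subgroup
`Γ(N) ≤ Γ ≤ SL(2, ℤ)` and a unitary character `χ` of `Γ` killing the elements of trace `±2`:

* every slash translate `A_χ ∣[k] σ` is holomorphic, `N`-periodic and bounded at `i∞`
  (`isHoloPeriodic_slash`);
* `Φ_χ := A_χ / A_1 ∈ Mer` is nonzero, satisfies `Φ_χ ∘ γ = χ(γ) Φ_χ` for `γ ∈ Γ`, and both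
  `Φ_χ` and `Φ_χ⁻¹` have at most exponential growth at every cusp (`CuspGrowth`)
  (`exists_kummer_function`).
-/
import Mathlib
import Fermat.Agent.S29.H85_MerAct
import Fermat.Agent.S29.H85_CuspLower
import Fermat.Agent.S29.H30_TwistedEis

set_option autoImplicit false

open Complex Filter Function
open UpperHalfPlane hiding I
open scoped Real Topology Manifold MatrixGroups ModularForm

noncomputable section

namespace Fermat.Agent.S29.H85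

open Fermat.Agent.S24.H4 Fermat.Agent.S24.H81 Fermat.Agent.S29 CongruenceSubgroup

/-- `a / b` has at most exponential growth at every cusp: for every `σ ∈ SL(2, ℤ)`,
`‖a (σ τ)‖ ≤ C exp(2π m Im τ) ‖b (σ τ)‖` for `Im τ ≥ c`. -/
def CuspGrowth (a b : ℍ → ℂ) : Prop :=
  ∀ σ : SL(2, ℤ), ∃ (c C : ℝ) (m : ℕ), ∀ τ : ℍ, c ≤ τ.im →
    ‖a (σ • τ)‖ ≤ C * Real.exp (2 * π * m * τ.im) * ‖b (σ • τ)‖

/-! ### slash calculus -/

theorem slash_eq_smul_of_law {A : ℍ → ℂ} {k : ℤ} {γ : SL(2, ℤ)} {c : ℂ}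
    (h : ∀ z : ℍ, A (γ • z) = c * denom γ z ^ k * A z) : A ∣[k] γ = c • A := by
  ext z
  rw [ModularForm.SL_slash_apply, h z, Pi.smul_apply, smul_eq_mul, zpow_neg]
  have hd : denom (γ : GL (Fin 2) ℝ) z ^ k ≠ 0 := zpow_ne_zero k (denom_ne_zero _ z)
  field_simp

theorem denom_T_zpow (n : ℤ) (τ : ℍ) :
    denom ((ModularGroup.T ^ n : SL(2, ℤ)) : GL (Fin 2) ℝ) τ = 1 := by
  rw [ModularGroup.denom_apply]
  simp [ModularGroup.coe_T_zpow]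

theorem slash_T_zpow_apply (g : ℍ → ℂ) (k : ℤ) (n : ℤ) (τ : ℍ) :
    (g ∣[k] (ModularGroup.T ^ n : SL(2, ℤ))) τ = g ((n : ℝ) +ᵥ τ) := by
  rw [ModularForm.SL_slash_apply, denom_T_zpow, one_zpow, mul_one, modular_T_zpow_smul]

theorem slash_ne_zero {A : ℍ → ℂ} (hA : A ≠ 0) (k : ℤ) (σ : SL(2, ℤ)) : A ∣[k] σ ≠ 0 := by
  intro h
  apply hA
  have h1 : (A ∣[k] σ) ∣[k] σ⁻¹ = A := by
    rw [← SlashAction.slash_mul, mul_inv_cancel, SlashAction.slash_one]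
  rw [← h1, h, SlashAction.zero_slash]

/-- The conjugate `σ Tᴺ σ⁻¹` lies in `Γ(N)`. -/
theorem conj_T_pow_mem_Gamma (N : ℕ) (σ : SL(2, ℤ)) :
    σ * ModularGroup.T ^ (N : ℤ) * σ⁻¹ ∈ CongruenceSubgroup.Gamma N := by
  have h1 : ModularGroup.T ^ (N : ℤ) ∈ CongruenceSubgroup.Gamma N := by
    simpa using ModularGroup_T_pow_mem_Gamma (N : ℤ) (N : ℤ) dvd_rfl
  exact (Gamma_normal N).conj_mem _ h1 σ

theorem trace_conj_T_zpow (n : ℤ) (σ : SL(2, ℤ)) :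
    (σ * ModularGroup.T ^ n * σ⁻¹) 0 0 + (σ * ModularGroup.T ^ n * σ⁻¹) 1 1 = 2 := by
  have h := Matrix.trace_mul_cycle (σ : Matrix (Fin 2) (Fin 2) ℤ)
    ((ModularGroup.T ^ n : SL(2, ℤ)) : Matrix (Fin 2) (Fin 2) ℤ)
    ((σ⁻¹ : SL(2, ℤ)) : Matrix (Fin 2) (Fin 2) ℤ)
  have h2 : ((σ⁻¹ : SL(2, ℤ)) : Matrix (Fin 2) (Fin 2) ℤ) * (σ : Matrix (Fin 2) (Fin 2) ℤ) = 1 := by
    rw [← Matrix.SpecialLinearGroup.coe_mul, inv_mul_cancel, Matrix.SpecialLinearGroup.coe_one]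
  rw [h2, one_mul, ModularGroup.coe_T_zpow] at h
  have h3 : (Matrix.trace (!![1, n; 0, 1] : Matrix (Fin 2) (Fin 2) ℤ)) = 2 := by
    rw [Matrix.trace_fin_two]; simp
  rw [h3, Matrix.trace_fin_two] at h
  rw [← ModularGroup.coe_T_zpow, ← Matrix.SpecialLinearGroup.coe_mul,
    ← Matrix.SpecialLinearGroup.coe_mul] at h
  exact h

section periodic

variable {N : ℕ} {Γ : Subgroup SL(2, ℤ)} {χ : Γ →* ℂˣ} {k : ℤ} {A : ℍ → ℂ}

/-- Slash translates of a `χ`-automorphic function are `N`-periodic when `χ` kills the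
parabolic elements. -/
theorem slash_vadd_of_law (hΓ : CongruenceSubgroup.Gamma N ≤ Γ)
    (hpar : ∀ γ : Γ, ((γ : SL(2, ℤ)) 0 0 + (γ : SL(2, ℤ)) 1 1 = 2 ∨
      (γ : SL(2, ℤ)) 0 0 + (γ : SL(2, ℤ)) 1 1 = -2) → χ γ = 1)
    (hlaw : ∀ (γ : Γ) (z : ℍ), A ((γ : SL(2, ℤ)) • z) =
      ((χ γ : ℂˣ) : ℂ) * denom (γ : SL(2, ℤ)) z ^ k * A z)
    (σ : SL(2, ℤ)) (τ : ℍ) : (A ∣[k] σ) (((N : ℕ) : ℝ) +ᵥ τ) = (A ∣[k] σ) τ := by
  set γ₀ : SL(2, ℤ) := σ * ModularGroup.T ^ (N : ℤ) * σ⁻¹ with hγ₀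
  have hmem : γ₀ ∈ Γ := hΓ (conj_T_pow_mem_Gamma N σ)
  have hχ : χ ⟨γ₀, hmem⟩ = 1 := hpar ⟨γ₀, hmem⟩ (Or.inl (trace_conj_T_zpow _ σ))
  have h1 : A ∣[k] γ₀ = A := by
    have := slash_eq_smul_of_law (A := A) (k := k) (γ := γ₀)
      (c := ((χ ⟨γ₀, hmem⟩ : ℂˣ) : ℂ)) (fun z => hlaw ⟨γ₀, hmem⟩ z)
    rw [this, hχ, Units.val_one, one_smul]
  have h2 : σ * ModularGroup.T ^ (N : ℤ) = γ₀ * σ := by
    rw [hγ₀, inv_mul_cancel_right]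
  have h3 : (A ∣[k] σ) ∣[k] (ModularGroup.T ^ (N : ℤ) : SL(2, ℤ)) = A ∣[k] σ := by
    rw [← SlashAction.slash_mul, h2, SlashAction.slash_mul, h1]
  have h4 := slash_T_zpow_apply (A ∣[k] σ) k (N : ℤ) τ
  rw [h3] at h4
  rw [h4]
  simp

theorem isHoloPeriodic_slash (hΓ : CongruenceSubgroup.Gamma N ≤ Γ)
    (hpar : ∀ γ : Γ, ((γ : SL(2, ℤ)) 0 0 + (γ : SL(2, ℤ)) 1 1 = 2 ∨
      (γ : SL(2, ℤ)) 0 0 + (γ : SL(2, ℤ)) 1 1 = -2) → χ γ = 1)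
    (hA : MDiff A)
    (hlaw : ∀ (γ : Γ) (z : ℍ), A ((γ : SL(2, ℤ)) • z) =
      ((χ γ : ℂˣ) : ℂ) * denom (γ : SL(2, ℤ)) z ^ k * A z)
    (hbdd : ∀ σ : SL(2, ℤ), IsBoundedAtImInfty (A ∣[k] σ)) (σ : SL(2, ℤ)) :
    IsHoloPeriodic (N : ℝ) (A ∣[k] σ) where
  mdiff := hA.slash k (σ : GL (Fin 2) ℝ)
  periodic := periodic_comp_ofComplex_iff.mpr (slash_vadd_of_law hΓ hpar hlaw σ)
  bdd := hbdd σ

end periodic

/-- Growth of the quotient of two automorphic functions of the same weight at a cusp. -/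
theorem cuspGrowth_of_isHoloPeriodic {N : ℕ} (hN : N ≠ 0) {k : ℤ} {A B : ℍ → ℂ}
    (hA : ∀ σ : SL(2, ℤ), IsHoloPeriodic (N : ℝ) (A ∣[k] σ))
    (hB : ∀ σ : SL(2, ℤ), IsHoloPeriodic (N : ℝ) (B ∣[k] σ)) (B0 : B ≠ 0) :
    CuspGrowth A B := by
  intro σ
  have hN' : (0 : ℝ) < N := by exact_mod_cast Nat.pos_of_ne_zero hN
  have hN1 : (1 : ℝ) ≤ N := by exact_mod_cast Nat.one_le_iff_ne_zero.mpr hN
  obtain ⟨m, c, C, hC, h⟩ := exists_ratio_growth hN' (hA σ) (hB σ) (slash_ne_zero B0 k σ)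
  refine ⟨c, C, m, fun τ hτ => ?_⟩
  have h1 := h τ hτ
  rw [ModularForm.SL_slash_apply, ModularForm.SL_slash_apply, norm_mul, norm_mul, ← mul_assoc] at h1
  have hd : 0 < ‖denom (σ : GL (Fin 2) ℝ) τ ^ (-k)‖ :=
    norm_pos_iff.mpr (zpow_ne_zero _ (denom_ne_zero _ τ))
  have h2 := le_of_mul_le_mul_right h1 hd
  refine h2.trans ?_
  apply mul_le_mul_of_nonneg_right _ (norm_nonneg _)
  apply mul_le_mul_of_nonneg_left _ hC.le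
  apply Real.exp_le_exp.mpr
  have hpos : 0 ≤ 2 * π * m * τ.im := by
    have := τ.im_pos
    positivity
  exact div_le_self hpos hN1

/-- **The Kummer functions.** One denominator `b` for all characters; for every unitary
character `χ` of `Γ ⊇ Γ(N)` killing the elements of trace `±2` a numerator `a` with
`(a/b) ∘ γ = χ(γ) (a/b)`, and `a/b`, `b/a` of at most exponential growth at every cusp. -/
theorem exists_kummer_function {N : ℕ} (hN : N ≠ 0) {Γ : Subgroup SL(2, ℤ)} (hΓ : CongruenceSubgroup.Gamma N ≤ Γ) :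
    ∃ b : Hol, b ≠ 0 ∧ ∀ χ : Γ →* ℂˣ,
      (∀ γ : Γ, ((γ : SL(2, ℤ)) 0 0 + (γ : SL(2, ℤ)) 1 1 = 2 ∨
        (γ : SL(2, ℤ)) 0 0 + (γ : SL(2, ℤ)) 1 1 = -2) → χ γ = 1) →
      H30.IsUnitary Γ χ →
      ∃ a : Hol, a ≠ 0 ∧
        (∀ γ : Γ, actMer (γ : SL(2, ℤ)) (algebraMap Hol Mer a / algebraMap Hol Mer b)
          = constMer ((χ γ : ℂˣ) : ℂ) * (algebraMap Hol Mer a / algebraMap Hol Mer b)) ∧
        CuspGrowth (a : ℍ → ℂ) (b : ℍ → ℂ) ∧ CuspGrowth (b : ℍ → ℂ) (a : ℍ → ℂ) := by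
  obtain ⟨k, -, -, hk⟩ := H30.exists_poincare_series
  -- the denominator: trivial character
  have hpar1 : ∀ γ : Γ, ((γ : SL(2, ℤ)) 0 0 + (γ : SL(2, ℤ)) 1 1 = 2 ∨
      (γ : SL(2, ℤ)) 0 0 + (γ : SL(2, ℤ)) 1 1 = -2) → (1 : Γ →* ℂˣ) γ = 1 := fun _ _ => rfl
  obtain ⟨B, hBmd, hBlaw, hB2, hBbdd⟩ := hk Γ 1 (fun _ _ => rfl) (fun _ => by simp)
  have B0 : B ≠ 0 := fun h => hB2 (by rw [h]; rfl)
  have hBper := isHoloPeriodic_slash hΓ hpar1 hBmd hBlaw hBbdd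
  have hb0 : (⟨B, hBmd⟩ : Hol) ≠ 0 := fun h => B0 (congrArg Subtype.val h)
  refine ⟨⟨B, hBmd⟩, hb0, fun χ hpar hU => ?_⟩
  obtain ⟨A, hAmd, hAlaw, hA2, hAbdd⟩ :=
    hk Γ χ (H30.trivialOnTriangular_of_trace hpar) hU
  have A0 : A ≠ 0 := fun h => hA2 (by rw [h]; rfl)
  have hAper := isHoloPeriodic_slash hΓ hpar hAmd hAlaw hAbdd
  refine ⟨⟨A, hAmd⟩, fun h => A0 (congrArg Subtype.val h), fun γ => ?_,
    cuspGrowth_of_isHoloPeriodic hN hAper hBper B0, cuspGrowth_of_isHoloPeriodic hN hBper hAper A0⟩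
  apply actMer_div_of_automorphy (γ : SL(2, ℤ)) k _ hb0
  · intro τ
    exact hAlaw γ τ
  · intro τ
    have := hBlaw γ τ
    simpa using this

end Fermat.Agent.S29.H85
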