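/-
S29 / Stage 3, KUMMER-INST (I5): the concrete instance of helper88's abstract `KummerSetup`
at level `N`:

  `(K, F, M, Θ, Γ, act, Adm, X) = (ℂ, FC N, H81.Mer, toMer N, Γ₀(N), Φ ↦ Φ ∘ γ, cusp-admissible
  units, Kummer characters of the lattice parabolicHoms ℤ Γ₀(N) ℤ)`.

* `merAlgebra : Algebra ℂ Mer` (a `def`, used as a LOCAL instance: `algebraMap ℂ Mer = constMer`);
* `thetaAlg N : FC N →ₐ[ℂ] Mer` (helper72's `toMer`), `actAlg N γ : Mer →ₐ[ℂ] Mer` (`actMer γ`);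
* `actMer_eq_inv_smul` : `actMer γ x = γ⁻¹ • x` (bridge to helper72's left action on `Mer`);
* `admUnits : Subgroup Merˣ` : units `Φ` with `Φ, Φ⁻¹ ∈ H72.cuspRing`;
* `kummerSetup` : the `KummerSetup`, from the two named DICT inputs `ImageHyp N` (IMAGE) and
  `DvdHyp N n` ((D5) pointwise); `pow_eq_one`, `theta_inv`, `const`, `exist` are PROVED here
  (`exist` from helper30's Poincaré series via `H85.exists_kummer_function`);
* `exists_lam0` : `lam0 : Lat →+ Pic0 ℂ (FC N)` with `n • lam0 = 0`, kernel `n Lat`, and the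
  read-off lemma for HECKE-EQUIV.
-/
import Mathlib
import Fermat.Agent.S29.H85_PoincareMer
import Fermat.Agent.S29.H85_CharLat
import Fermat.Agent.S29.H88_KummerGlue
import Fermat.Agent.S29.H72_DictMer
import Fermat.Agent.S29.H72_DictDegree
import Fermat.Agent.S29.H74_FFBankL

set_option autoImplicit false
set_option linter.unusedSectionVars false

open UpperHalfPlane AlgebraicCurve ModularCurve
open scoped MatrixGroups Manifold

noncomputable section

namespace Fermat.Agent.S29.H85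

open Fermat.Agent.S24.H81 Fermat.Agent.S29 CongruenceSubgroup
open ModularCurve.Period

/-! ### the `ℂ`-algebra structure on `Mer` -/

/-- `Mer` as a `ℂ`-algebra via the constants.  NOT a global instance. -/
@[reducible] def merAlgebra : Algebra ℂ Mer := constMer.toAlgebra

attribute [local instance] merAlgebra

theorem algebraMap_mer (c : ℂ) : algebraMap ℂ Mer c = constMer c := rfl

theorem constMer_eq_H72 (c : ℂ) : constMer c = H72.constMer c := rfl

/-! ### bridge to helper72's left action -/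

theorem compHol_eq_inv_smul (γ : SL(2, ℤ)) (a : Hol) : compHol γ a = γ⁻¹ • a := by
  apply Subtype.ext
  funext τ
  rw [H72.hol_smul_apply, inv_inv]
  rfl

/-- `Φ ∘ γ = γ⁻¹ • Φ`. -/
theorem actMer_eq_inv_smul (γ : SL(2, ℤ)) (x : Mer) : actMer γ x = γ⁻¹ • x := by
  obtain ⟨a, b, -, rfl⟩ := exists_eq_div x
  rw [actMer_div, H72.mer_smul_div, compHol_eq_inv_smul, compHol_eq_inv_smul]

theorem smul_eq_actMer_inv (γ : SL(2, ℤ)) (x : Mer) : γ • x = actMer γ⁻¹ x := by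
  rw [actMer_eq_inv_smul, inv_inv]

/-! ### the concrete data -/

variable (N : ℕ) [NeZero N]

/-- helper72's realisation `toMer`, as a `ℂ`-algebra hom. -/
def thetaAlg : H72.FC N →ₐ[ℂ] Mer :=
  { H72.toMer N with
    commutes' := fun c => H72.toMer_algebraMap N c }

@[simp] theorem thetaAlg_apply (f : H72.FC N) : thetaAlg N f = H72.toMer N f := rfl

/-- `Φ ↦ Φ ∘ γ` for `γ ∈ Γ₀(N)`, as a `ℂ`-algebra hom. -/
def actAlg (γ : Gamma0 N) : Mer →ₐ[ℂ] Mer :=
  { actMer (γ : SL(2, ℤ)) with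
    commutes' := fun c => actMer_constMer _ c }

@[simp] theorem actAlg_apply (γ : Gamma0 N) (x : Mer) : actAlg N γ x = actMer (γ : SL(2, ℤ)) x :=
  rfl

theorem actAlg_thetaAlg (f : H72.FC N) (γ : Gamma0 N) : actAlg N γ (thetaAlg N f) = thetaAlg N f := by
  rw [actAlg_apply, thetaAlg_apply, actMer_eq_inv_smul]
  exact H72.smul_toMer N (inv_mem γ.2) f

/-- The admissible units: `Φ` and `Φ⁻¹` are meromorphic at all cusps. -/
def admUnits : Subgroup Merˣ where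
  carrier := {Φ | (Φ : Mer) ∈ H72.cuspRing ∧ ((Φ⁻¹ : Merˣ) : Mer) ∈ H72.cuspRing}
  one_mem' := ⟨H72.cuspRing.one_mem, by rw [inv_one]; exact H72.cuspRing.one_mem⟩
  mul_mem' := by
    rintro Φ Ψ ⟨h1, h2⟩ ⟨h3, h4⟩
    refine ⟨?_, ?_⟩
    · rw [Units.val_mul]; exact H72.cuspRing.mul_mem h1 h3
    · rw [mul_inv, Units.val_mul]; exact H72.cuspRing.mul_mem h2 h4
  inv_mem' := by
    rintro Φ ⟨h1, h2⟩
    exact ⟨h2, by rw [inv_inv]; exact h1⟩

theorem mem_admUnits {Φ : Merˣ} :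
    Φ ∈ admUnits ↔ (Φ : Mer) ∈ H72.cuspRing ∧ ((Φ⁻¹ : Merˣ) : Mer) ∈ H72.cuspRing := Iff.rfl

/-- `CuspGrowth` gives membership in helper72's `cuspRing`. -/
theorem div_mem_cuspRing_of_cuspGrowth {a b : Hol} (hb : b ≠ 0)
    (h : CuspGrowth (a : ℍ → ℂ) (b : ℍ → ℂ)) :
    algebraMap Hol Mer a / algebraMap Hol Mer b ∈ H72.cuspRing :=
  H72.div_mem_cuspRing hb fun γ => h γ⁻¹

/-- The unit `a / b` of `Mer`. -/
def unitDiv (a b : Hol) (ha : a ≠ 0) (hb : b ≠ 0) : Merˣ :=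
  Units.mk0 (algebraMap Hol Mer a / algebraMap Hol Mer b)
    (div_ne_zero (H72.algebraMap_hol_ne_zero ha) (H72.algebraMap_hol_ne_zero hb))

@[simp] theorem val_unitDiv (a b : Hol) (ha : a ≠ 0) (hb : b ≠ 0) :
    ((unitDiv a b ha hb : Merˣ) : Mer) = algebraMap Hol Mer a / algebraMap Hol Mer b := rfl

theorem val_inv_unitDiv (a b : Hol) (ha : a ≠ 0) (hb : b ≠ 0) :
    (((unitDiv a b ha hb)⁻¹ : Merˣ) : Mer) = algebraMap Hol Mer b / algebraMap Hol Mer a := by
  rw [Units.val_inv_eq_inv_val, val_unitDiv, inv_div]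

theorem unitDiv_mem_admUnits {a b : Hol} (ha : a ≠ 0) (hb : b ≠ 0)
    (h1 : CuspGrowth (a : ℍ → ℂ) (b : ℍ → ℂ)) (h2 : CuspGrowth (b : ℍ → ℂ) (a : ℍ → ℂ)) :
    unitDiv a b ha hb ∈ admUnits := by
  refine ⟨div_mem_cuspRing_of_cuspGrowth hb h1, ?_⟩
  rw [val_inv_unitDiv]
  exact div_mem_cuspRing_of_cuspGrowth ha h2

theorem Gamma_le_Gamma0 (N : ℕ) : Gamma N ≤ Gamma0 N := by
  intro γ hγ
  rw [Gamma0_mem]
  exact (Gamma_mem.mp hγ).2.2.1

/-- **(exist)**: every Kummer character is the character of an admissible unit. -/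
theorem exists_admissible_isAut (n : ℕ) {χ : Gamma0 N →* ℂˣ} (hχ : χ ∈ charX (Gamma0 N) n) :
    ∃ Φ ∈ admUnits, H88.IsAut (actAlg N) χ (Φ : Mer) := by
  obtain ⟨b, hb, h⟩ := exists_kummer_function (NeZero.ne N) (Gamma_le_Gamma0 N)
  obtain ⟨a, ha, haut, hg1, hg2⟩ :=
    h χ (fun γ hγ => apply_eq_one_of_trace hχ hγ) (isUnitary_of_mem_charX hχ)
  exact ⟨unitDiv a b ha hb, unitDiv_mem_admUnits ha hb hg1 hg2, fun γ => haut γ⟩

/-! ### the function-field bank at `ℂ` -/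

instance finiteDimensional_FC' :
    FiniteDimensional (IntermediateField.adjoin ℂ {S37.H8.jL ℂ N}) (S37.H8.FL ℂ N) :=
  H72.finiteDimensional_FC N

theorem hasPrincipalDivisors_FC : HasPrincipalDivisors ℂ (H72.FC N) :=
  H74.hasPrincipalDivisors_FL' ℂ N

theorem const_FC (f : H72.FC N) (_hf : f ≠ 0) (h : ∀ v : Place ℂ (H72.FC N), v.ord f = 0) :
    ∃ c : ℂ, f = algebraMap ℂ (H72.FC N) c :=
  H74.eq_algebraMap_of_forall_ord_eq_zero ℂ N h

/-! ### the two DICT inputs, as named hypotheses -/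

/-- **IMAGE** (helper72): a `Γ₀(N)`-invariant element of `Mer` which is meromorphic at all cusps
comes from the function field. -/
def ImageHyp : Prop :=
  ∀ x : Mer, x ∈ H72.cuspRing → (∀ γ ∈ Gamma0 N, γ • x = x) → ∃ f : H72.FC N, H72.toMer N f = x

/-- **(D5)**, pointwise form (helper83's `exists_divisor_of_kummer` + (A4)(A5)(B4)): if
`Φ ^ n = toMer f` and `Φ` transforms under `Γ₀(N)` by a Kummer character, then `n` divides all
orders of `f`. -/
def DvdHyp (n : ℕ) : Prop :=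
  ∀ χ ∈ charX (Gamma0 N) n, ∀ Φ : Mer, Φ ≠ 0 →
    (∀ γ : Gamma0 N, actMer (γ : SL(2, ℤ)) Φ = constMer ((χ γ : ℂˣ) : ℂ) * Φ) →
    ∀ f : H72.FC N, H72.toMer N f = Φ ^ n → ∀ v : Place ℂ (H72.FC N), (n : ℤ) ∣ v.ord f

/-- **The concrete Kummer setup.** -/
theorem kummerSetup {n : ℕ} (hn : 0 < n) (hI : ImageHyp N) (hD : DvdHyp N n) :
    H88.KummerSetup n (thetaAlg N) (actAlg N) admUnits (charX (Gamma0 N) n) := by
  have := hasPrincipalDivisors_FC N
  refine H88.KummerSetup.of_dvd hn ?_ ?_ ?_ ?_ ?_ ?_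
  · exact fun χ hχ => pow_eq_one_of_mem_charX hn.ne' hχ
  · exact actAlg_thetaAlg N
  · intro Φ hΦ hinv
    refine hI (Φ : Mer) hΦ.1 fun γ hγ => ?_
    rw [smul_eq_actMer_inv]
    exact hinv ⟨γ⁻¹, inv_mem hγ⟩
  · intro χ hχ Φ _ haut f hf v
    exact hD χ hχ (Φ : Mer) Φ.ne_zero (fun γ => haut γ) f hf v
  · exact const_FC N
  · exact fun χ hχ => exists_admissible_isAut N n hχ

/-- **The Kummer–Poincaré map on the lattice** (before the Atkin–Lehner twist): additive, killed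
by `n`, with kernel `n L`, and computed by helper88's `lam`. -/
theorem exists_lam0 {n : ℕ} (hn : 0 < n) (hI : ImageHyp N) (hD : DvdHyp N n) :
    ∃ lam0 : parabolicHoms ℤ (Gamma0 N) ℤ →+ Pic0 ℂ (H72.FC N),
      (∀ x, (n : ℤ) • lam0 x = 0) ∧
      (∀ x, lam0 x = 0 → ∃ y : parabolicHoms ℤ (Gamma0 N) ℤ, x = (n : ℤ) • y) ∧
      ∀ x, lam0 x = (kummerSetup N hn hI hD).lam hn (chiLat (Gamma0 N) n x) :=
  (kummerSetup N hn hI hD).exists_lam_comp hn (chiLat (Gamma0 N) n)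
    (fun x => ∃ y : parabolicHoms ℤ (Gamma0 N) ℤ, x = (n : ℤ) • y)
    (fun x hx => (chiLat_eq_zero_iff_exists hn.ne' x).mp hx)

end Fermat.Agent.S29.H85
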