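import Mathlib
import Fermat.Agent.S29.H72_CuspScale
import Fermat.Agent.S29.H72_DictBridge
import Fermat.Agent.S29.H65_Gamma0Pos
import Fermat.Agent.S29.H65_RepSystem
import Fermat.Agent.S29.H85_KummerInst
import Fermat.Agent.S29.H47_NormAnBeta

/-!
# S29 / NORM-AN (hAdm) : the Hecke products preserve the admissible units (helper72)

Bridges from `H72_CuspScale` (stability of `cuspRing` under `τ ↦ l τ`) to the vocabularies of
helper65 (`actGL`, `diagPos`, `slp`, `heckeMer`), helper47 (`H47.scaleMer`) and helper85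
(`admUnits`).

* `actGL_diagPos` : `actGL (diagPos l hl) = H72.scaleMer l`; `scaleMer_eq_H47`;
* `cuspStab : Submonoid GL(2,ℝ)⁺` : the `g` with `actGL g (cuspRing) ⊆ cuspRing`;
  `slp_mem_cuspStab`, `diagPos_mem_cuspStab`, `mem_cuspStab_of_coe_eq`;
* `act_mem_admUnits`, **`heckeMer_mem_admUnits`** : `Φ ∈ admUnits → heckeMer D Φ ∈ admUnits`
  when all representatives of `D` lie in `cuspStab`;
* `heckeMer_mem_admUnits_of_diag` : the same when every `D.α i` is `diag(l,1) * γ_i`,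
  `γ_i ∈ SL(2,ℤ)` (this covers `picTPos`, `picUPos` and `posDatum (cstDatum.comp (repDatum h))`).
-/

set_option autoImplicit false

open Complex Filter Function
open UpperHalfPlane hiding I
open scoped Real Topology Manifold MatrixGroups
open ModularForm

noncomputable section

namespace Fermat.Agent.S29.H72

open Fermat.Agent.S24 Fermat.Agent.S24.H81 Fermat.Agent.S41.H85
open P2MW.S_ModularForm_heckeT_slash_eq_self_of_mem_Gamma0.ModularForm.HeckeSlashInvariance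

/-! ### `diag(l,1)` is `τ ↦ l τ` -/

theorem diagPos_smul (l : ℕ) (hl : l ≠ 0) (τ : ℍ) :
    ((H65.diagPos l hl : GL(2, ℝ)⁺) : GL (Fin 2) ℝ) • τ
      = H15.aff l 0 1 (Nat.pos_of_ne_zero hl) one_pos τ := by
  apply UpperHalfPlane.ext
  rw [H65.coe_diagPos_smul, H15.coe_aff]
  simp

theorem compHol_diagPos (l : ℕ) (hl : l ≠ 0) (a : Hol) :
    H65.compHol (H65.diagPos l hl) a = scaleHol l (Nat.pos_of_ne_zero hl) a := by
  apply Subtype.ext
  funext τ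
  rw [H65.compHol_apply, scaleHol_apply, diagPos_smul]

/-- helper65's `actGL (diag(l,1))` is `scaleMer l`. -/
theorem actGL_diagPos (l : ℕ) (hl : l ≠ 0) (x : Mer) :
    H65.actGL (H65.diagPos l hl) x = scaleMer l (Nat.pos_of_ne_zero hl) x := by
  obtain ⟨a, b, -, rfl⟩ := exists_div_hol x
  rw [H65.actGL_div, scaleMer_div, compHol_diagPos, compHol_diagPos]

/-- helper47's `scaleMer` is mine. -/
theorem scaleMer_eq_H47 (l : ℕ) [NeZero l] (x : Mer) :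
    H47.scaleMer l x = scaleMer l (Nat.pos_of_ne_zero (NeZero.ne l)) x := by
  obtain ⟨a, b, -, rfl⟩ := exists_div_hol x
  rw [H47.scaleMer_div, scaleMer_div]
  rfl

theorem H47_scaleMer_eq_actGL (l : ℕ) [NeZero l] (x : Mer) :
    H47.scaleMer l x = H65.actGL (H65.diagPos l (NeZero.ne l)) x := by
  rw [scaleMer_eq_H47, actGL_diagPos]

/-- helper47's scaling preserves `cuspRing`. -/
theorem H47_scaleMer_mem_cuspRing (l : ℕ) [NeZero l] {x : Mer} (hx : x ∈ cuspRing) :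
    H47.scaleMer l x ∈ cuspRing := by
  rw [scaleMer_eq_H47]
  exact scaleMer_mem_cuspRing l _ hx

theorem actGL_slp_eq_smul (γ : SL(2, ℤ)) (x : Mer) : H65.actGL (H65.slp γ) x = γ⁻¹ • x := by
  rw [H65.actGL_slp, merComp_eq_smul]

theorem merComp_mem_cuspRing (γ : SL(2, ℤ)) {x : Mer} (hx : x ∈ cuspRing) :
    H25.merComp γ x ∈ cuspRing := by
  rw [merComp_eq_smul]
  exact smul_mem_cuspRing hx _

theorem actMer_mem_cuspRing (γ : SL(2, ℤ)) {x : Mer} (hx : x ∈ cuspRing) :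
    H85.actMer γ x ∈ cuspRing := by
  rw [actMer_eq_smul]
  exact smul_mem_cuspRing hx _

/-- The shape of the right-hand side of NORM-AN: a finite product of `SL(2,ℤ)`-translates of
`scaleMer l x` stays in `cuspRing`. -/
theorem prod_merComp_scaleMer_mem_cuspRing (l : ℕ) [NeZero l] {ι : Type*} (s : Finset ι)
    (γ : ι → SL(2, ℤ)) {x : Mer} (hx : x ∈ cuspRing) :
    ∏ i ∈ s, H25.merComp (γ i) (H47.scaleMer l x) ∈ cuspRing :=
  Subring.prod_mem _ fun i _ => merComp_mem_cuspRing (γ i) (H47_scaleMer_mem_cuspRing l hx)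

/-! ### the stabiliser of `cuspRing` in `GL(2,ℝ)⁺` -/

/-- The submonoid of `g ∈ GL(2,ℝ)⁺` with `x ∈ cuspRing → x ∘ g ∈ cuspRing`. -/
def cuspStab : Submonoid GL(2, ℝ)⁺ where
  carrier := {g | ∀ x ∈ cuspRing, H65.actGL g x ∈ cuspRing}
  one_mem' := fun x hx => by rw [H65.actGL_one]; exact hx
  mul_mem' := fun {g h} hg hh x hx => by rw [H65.actGL_mul]; exact hh _ (hg _ hx)

theorem mem_cuspStab {g : GL(2, ℝ)⁺} :
    g ∈ cuspStab ↔ ∀ x ∈ cuspRing, H65.actGL g x ∈ cuspRing := Iff.rfl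

theorem slp_mem_cuspStab (γ : SL(2, ℤ)) : H65.slp γ ∈ cuspStab := fun x hx => by
  rw [actGL_slp_eq_smul]
  exact smul_mem_cuspRing hx _

theorem glp_mem_cuspStab (N : ℕ) (γ : CongruenceSubgroup.Gamma0 N) : H65.glp N γ ∈ cuspStab :=
  slp_mem_cuspStab _

theorem diagPos_mem_cuspStab (l : ℕ) (hl : l ≠ 0) : H65.diagPos l hl ∈ cuspStab := fun x hx => by
  rw [actGL_diagPos]
  exact scaleMer_mem_cuspRing l _ hx

theorem diagPos_mul_slp_mem_cuspStab (l : ℕ) (hl : l ≠ 0) (γ : SL(2, ℤ)) :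
    H65.diagPos l hl * H65.slp γ ∈ cuspStab :=
  cuspStab.mul_mem (diagPos_mem_cuspStab l hl) (slp_mem_cuspStab γ)

/-- Membership from the underlying matrix: `g = diag(l,1) * γ`, `γ ∈ SL(2,ℤ)`. -/
theorem mem_cuspStab_of_coe_eq {g : GL(2, ℝ)⁺} (l : ℕ) (hl : l ≠ 0) (γ : SL(2, ℤ))
    (hg : (g : GL (Fin 2) ℝ) = heckeDiagMatrix l * Matrix.SpecialLinearGroup.mapGL ℝ γ) :
    g ∈ cuspStab := by
  have : g = H65.diagPos l hl * H65.slp γ := Subtype.ext hg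
  rw [this]
  exact diagPos_mul_slp_mem_cuspStab l hl γ

/-! ### admissible units -/

theorem act_mem_admUnits {g : GL(2, ℝ)⁺} (hg : g ∈ cuspStab) {Φ : Merˣ}
    (hΦ : Φ ∈ H85.admUnits) : H65.merUnitsSetup.act g Φ ∈ H85.admUnits := by
  refine ⟨hg _ hΦ.1, ?_⟩
  rw [← map_inv]
  exact hg _ hΦ.2

section hecke

variable {Γ₁ Γ₂ : Type*} [Group Γ₁] [Group Γ₂] {ι₁ : Γ₁ →* GL(2, ℝ)⁺} {ι₂ : Γ₂ →* GL(2, ℝ)⁺}
  {I : Type*} [Fintype I]

/-- **(hAdm)**, general form: the Hecke product of a coset datum with representatives in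
`cuspStab` preserves the admissible units. -/
theorem heckeMer_mem_admUnits (D : CosetDatum ι₁ ι₂ I) (hD : ∀ i, D.α i ∈ cuspStab) {Φ : Merˣ}
    (hΦ : Φ ∈ H85.admUnits) : H65.heckeMer D Φ ∈ H85.admUnits := by
  rw [H65.heckeMer_apply]
  exact Subgroup.prod_mem _ fun i _ => act_mem_admUnits (hD i) hΦ

/-- **(hAdm)** for representatives of the shape `diag(l,1) * γ_i`, `γ_i ∈ SL(2,ℤ)`. -/
theorem heckeMer_mem_admUnits_of_diag (D : CosetDatum ι₁ ι₂ I) (l : ℕ) (hl : l ≠ 0)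
    (hD : ∀ i, ∃ γ : SL(2, ℤ),
      ((D.α i : GL(2, ℝ)⁺) : GL (Fin 2) ℝ) = heckeDiagMatrix l * Matrix.SpecialLinearGroup.mapGL ℝ γ)
    {Φ : Merˣ} (hΦ : Φ ∈ H85.admUnits) : H65.heckeMer D Φ ∈ H85.admUnits :=
  heckeMer_mem_admUnits D (fun i => by
    obtain ⟨γ, hγ⟩ := hD i
    exact mem_cuspStab_of_coe_eq l hl γ hγ) hΦ

end hecke

/-! ### the concrete Hecke data of helper65 -/

section concrete

open Fermat.Agent.S41.H65 Fermat.Agent.S29.H65 CongruenceSubgroup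

variable {N ℓ : ℕ}

/-- **(hAdm)** for `T_ℓ` (`ℓ ∤ N`), datum `picTPos`. -/
theorem heckeMer_picTPos_mem_admUnits [NeZero ℓ] (D : Fermat.Agent.S41.H72.ALData N ℓ)
    (hℓ : ℓ.Prime) (hℓN : ¬ ℓ ∣ N)
    (hN : N ≠ 0) {Φ : Merˣ} (hΦ : Φ ∈ H85.admUnits) :
    H65.heckeMer (picTPos D hℓ hℓN hN) Φ ∈ H85.admUnits :=
  heckeMer_mem_admUnits_of_diag _ ℓ hℓ.ne_zero
    (fun i => ⟨((corRep D i.2 : Gamma0 N) : SL(2, ℤ)), rfl⟩) hΦ

/-- **(hAdm)** for `U_ℓ` (`ℓ ∣ N`), datum `picUPos`. -/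
theorem heckeMer_picUPos_mem_admUnits (hN : N ≠ 0) (hℓN : ℓ ∣ N) [NeZero ℓ] {Φ : Merˣ}
    (hΦ : Φ ∈ H85.admUnits) : H65.heckeMer (picUPos hN hℓN) Φ ∈ H85.admUnits :=
  heckeMer_mem_admUnits_of_diag _ ℓ (NeZero.ne ℓ)
    (fun i => ⟨((lowGamma0 N ((i.2 : ZMod ℓ).val : ℤ) : Gamma0 N) : SL(2, ℤ)), rfl⟩) hΦ

/-- **(hAdm)** for the datum `cstDatum.comp (repDatum h)` of ANY system of representatives of
`Γ₀(Nℓ) \ Γ₀(N)` (the datum of `H65.comp_repDatum_op`), for any way `hα` of placing it in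
`GL(2,ℝ)⁺`. -/
theorem heckeMer_comp_repDatum_mem_admUnits (hℓ : ℓ ≠ 0) {Q : Type*} [Fintype Q]
    {r : Q → Gamma0 N} (h : IsRepSystem (gl (N * ℓ)) (gl N) r)
    (hα : ∀ i, ((cstDatum N hℓ).comp (repDatum h)).α i ∈ GL(2, ℝ)⁺) {Φ : Merˣ}
    (hΦ : Φ ∈ H85.admUnits) :
    H65.heckeMer (posDatum ((cstDatum N hℓ).comp (repDatum h)) hα) Φ ∈ H85.admUnits :=
  heckeMer_mem_admUnits_of_diag _ ℓ hℓ (fun i => ⟨((r i.2 : Gamma0 N) : SL(2, ℤ)), rfl⟩) hΦ

theorem comp_repDatum_α_mem (hℓ : ℓ ≠ 0) {Q : Type*}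
    {r : Q → Gamma0 N} (h : IsRepSystem (gl (N * ℓ)) (gl N) r) (i : Unit × Q) :
    ((cstDatum N hℓ).comp (repDatum h)).α i ∈ GL(2, ℝ)⁺ := by
  show heckeDiagMatrix ℓ * gl N (r i.2) ∈ GL(2, ℝ)⁺
  exact mul_mem (heckeDiagMatrix_mem_glPos hℓ) (gl_mem_glPos N _)

end concrete

end Fermat.Agent.S29.H72
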