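/-
(C4) LOCAL-par: at a cusp of width `h ∣ N`, the `q_N`-order of a quotient `a / b` of two
`N`-periodic holomorphic functions meromorphic at `i∞`, whose quotient is `h`-periodic
(cross-multiplied form), is divisible by `N / h`.

Translation by `t` multiplies the `n`-th `q_H`-coefficient by `ζ ^ n`, `ζ = exp (2 π i t / H)`;
comparing lowest-order coefficients in `(a ∘ T_t) * b = a * (b ∘ T_t)` gives
`ζ ^ (ord a - ord b) = 1`.
-/
import Mathlib
import Fermat.Agent.S24.H4_QhExpansion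

open Complex Filter Function
open UpperHalfPlane hiding I
open scoped Real Topology Manifold

noncomputable section

namespace Fermat.Agent.S29.H32

open Fermat.Agent.S24

local notation "𝕢" => Periodic.qParam

/-! ## Twisting a Laurent series coefficientwise by `z ^ n` -/

section twist

variable {A A' : LaurentSeries ℂ} {z : ℂ}

lemma twist_eq_zero_iff (hz : z ≠ 0) (h : ∀ n : ℤ, A'.coeff n = z ^ n * A.coeff n) :
    A' = 0 ↔ A = 0 := by
  constructor
  · intro h0
    ext n
    have := h n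
    rw [h0, HahnSeries.coeff_zero] at this
    rcases mul_eq_zero.mp this.symm with h1 | h1
    · exact absurd h1 (zpow_ne_zero _ hz)
    · simpa using h1
  · intro h0
    ext n
    rw [h n, h0]
    simp

lemma twist_order_eq (hz : z ≠ 0) (h : ∀ n : ℤ, A'.coeff n = z ^ n * A.coeff n) :
    A'.order = A.order := by
  by_cases hA : A = 0
  · rw [hA, (twist_eq_zero_iff hz h).mpr hA]
  have hA' : A' ≠ 0 := fun h0 => hA ((twist_eq_zero_iff hz h).mp h0)
  apply le_antisymm
  · apply HahnSeries.order_le_of_coeff_ne_zero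
    rw [h]
    exact mul_ne_zero (zpow_ne_zero _ hz) (HahnSeries.coeff_order_eq_zero.not.mpr hA)
  · apply HahnSeries.order_le_of_coeff_ne_zero
    have h1 : A'.coeff A'.order ≠ 0 := HahnSeries.coeff_order_eq_zero.not.mpr hA'
    rw [h] at h1
    exact right_ne_zero_of_mul h1

lemma twist_leadingCoeff (hz : z ≠ 0) (h : ∀ n : ℤ, A'.coeff n = z ^ n * A.coeff n) :
    A'.leadingCoeff = z ^ A.order * A.leadingCoeff := by
  rw [HahnSeries.leadingCoeff_eq, HahnSeries.leadingCoeff_eq, twist_order_eq hz h, h]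

end twist

/-! ## The multiplier of a translation on the `q_H`-orders -/

/-- General real form: `a`, `b` holomorphic, `H`-periodic and meromorphic at `i∞`, nonzero, with
`a / b` invariant under `τ ↦ τ + t` (cross-multiplied). Then
`exp (2 π i t / H) ^ (ord a - ord b) = 1`, the orders being those of the `q_H`-expansions. -/
theorem qParam_zpow_order_sub_eq_one {H : ℝ} (hH : 0 < H) (t : ℝ) {a b : ℍ → ℂ}
    (ha : H4.IsMeroPeriodic H a) (hb : H4.IsMeroPeriodic H b) (ha0 : a ≠ 0) (hb0 : b ≠ 0)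
    (hper : ∀ τ : ℍ, a (t +ᵥ τ) * b τ = a τ * b (t +ᵥ τ)) :
    𝕢 H (t : ℂ) ^ ((H4.qhExpansion H a).order - (H4.qhExpansion H b).order) = 1 := by
  set z : ℂ := 𝕢 H (t : ℂ) with hzdef
  have hz : z ≠ 0 := Periodic.qParam_ne_zero _
  set A := H4.qhExpansion H a with hAdef
  set B := H4.qhExpansion H b with hBdef
  have ha' := ha.comp_vadd hH t
  have hb' := hb.comp_vadd hH t
  set A' := H4.qhExpansion H (fun τ : ℍ => a (t +ᵥ τ)) with hA'def
  set B' := H4.qhExpansion H (fun τ : ℍ => b (t +ᵥ τ)) with hB'def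
  have hAA' : ∀ n : ℤ, A'.coeff n = z ^ n * A.coeff n :=
    fun n => H4.qhExpansion_comp_vadd_coeff hH ha t n
  have hBB' : ∀ n : ℤ, B'.coeff n = z ^ n * B.coeff n :=
    fun n => H4.qhExpansion_comp_vadd_coeff hH hb t n
  have hA0 : A ≠ 0 := fun h0 => ha0 ((H4.qhExpansion_eq_zero_iff hH ha).mp h0)
  have hB0 : B ≠ 0 := fun h0 => hb0 ((H4.qhExpansion_eq_zero_iff hH hb).mp h0)
  -- the product identity on expansions
  have hfun : (fun τ : ℍ => a (t +ᵥ τ)) * b = a * (fun τ : ℍ => b (t +ᵥ τ)) := by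
    funext τ
    exact hper τ
  have hprod : A' * B = A * B' := by
    rw [hA'def, hBdef, ← H4.qhExpansion_mul hH ha' hb, hfun, H4.qhExpansion_mul hH ha hb']
  -- compare leading coefficients
  have hlc := congrArg HahnSeries.leadingCoeff hprod
  rw [HahnSeries.leadingCoeff_mul, HahnSeries.leadingCoeff_mul, twist_leadingCoeff hz hAA',
    twist_leadingCoeff hz hBB'] at hlc
  have hlA : A.leadingCoeff ≠ 0 := HahnSeries.leadingCoeff_ne_zero.mpr hA0
  have hlB : B.leadingCoeff ≠ 0 := HahnSeries.leadingCoeff_ne_zero.mpr hB0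
  have hzz : z ^ A.order = z ^ B.order := by
    have h1 : z ^ A.order * (A.leadingCoeff * B.leadingCoeff)
        = z ^ B.order * (A.leadingCoeff * B.leadingCoeff) := by
      rw [← mul_assoc, hlc]; ring
    exact mul_right_cancel₀ (mul_ne_zero hlA hlB) h1
  rw [zpow_sub₀ hz, hzz, div_self (zpow_ne_zero _ hz)]

/-- `exp (2 π i h / N)` is a primitive `(N / h)`-th root of unity when `h ∣ N`. -/
lemma isPrimitiveRoot_qParam {N h : ℕ} (hN : 0 < N) (hh : 0 < h) (hhN : h ∣ N) :
    IsPrimitiveRoot (𝕢 (N : ℝ) ((h : ℝ) : ℂ)) (N / h) := by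
  obtain ⟨d, rfl⟩ := hhN
  have hd : 0 < d := by
    rcases Nat.eq_zero_or_pos d with h0 | h0
    · simp [h0] at hN
    · exact h0
  rw [Nat.mul_div_cancel_left d hh]
  have := Complex.isPrimitiveRoot_exp d hd.ne'
  convert this using 1
  rw [Periodic.qParam]
  congr 1
  have hh' : (h : ℂ) ≠ 0 := by exact_mod_cast hh.ne'
  have hd' : (d : ℂ) ≠ 0 := by exact_mod_cast hd.ne'
  push_cast
  field_simp

/-- **(C4) LOCAL-par.** `a`, `b` holomorphic on `ℍ`, `N`-periodic, meromorphic at `i∞`, nonzero;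
`a / b` is `h`-periodic (cross-multiplied), `h ∣ N`. Then `N / h` divides the difference of the
`q_N`-orders of `a` and `b`. -/
theorem div_dvd_order_sub {N h : ℕ} (hN : 0 < N) (hh : 0 < h) (hhN : h ∣ N) {a b : ℍ → ℂ}
    (ha : H4.IsMeroPeriodic (N : ℝ) a) (hb : H4.IsMeroPeriodic (N : ℝ) b)
    (ha0 : a ≠ 0) (hb0 : b ≠ 0)
    (hper : ∀ τ : ℍ, a ((h : ℝ) +ᵥ τ) * b τ = a τ * b ((h : ℝ) +ᵥ τ)) :
    ((N / h : ℕ) : ℤ) ∣
      (H4.qhExpansion (N : ℝ) a).order - (H4.qhExpansion (N : ℝ) b).order := by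
  have hN' : (0 : ℝ) < (N : ℝ) := by exact_mod_cast hN
  have h1 := qParam_zpow_order_sub_eq_one hN' (h : ℝ) ha hb ha0 hb0 hper
  exact ((isPrimitiveRoot_qParam hN hh hhN).zpow_eq_one_iff_dvd _).mp h1

end Fermat.Agent.S29.H32
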