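import Mathlib

/-!
# `p`-th roots of holomorphic functions on the upper half plane (helper32, S29 / E1a)

Mathlib-only analytic core of the Kummer injection `Pic⁰(ℂ F_N)[p] ↪ Hom(Γ₀(N), μ_p)`:
a holomorphic function on `ℍ` all of whose orders of vanishing are divisible by `p` is the `p`-th
power of a holomorphic function; two `p`-th roots differ by a `p`-th root of unity; and hence a
root of a `Γ`-invariant quotient `a / b` transforms under `Γ` by a character with values in `μ_p`.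
-/

set_option autoImplicit false

noncomputable section

namespace Fermat.Agent.S29.H32

open Complex Metric Set Filter Topology

/-! ### Logarithms and roots of nowhere vanishing functions on a ball -/

/-- A nowhere vanishing holomorphic function on a ball has a holomorphic logarithm. -/
theorem exists_log_on_ball {c : ℂ} {r : ℝ} {u : ℂ → ℂ} (hu : DifferentiableOn ℂ u (ball c r))
    (hu0 : ∀ z ∈ ball c r, u z ≠ 0) :
    ∃ L : ℂ → ℂ, DifferentiableOn ℂ L (ball c r) ∧ ∀ z ∈ ball c r, u z = Complex.exp (L z) := by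
  by_cases hr : 0 < r
  swap
  · refine ⟨0, differentiableOn_const 0, fun z hz => ?_⟩
    rw [ball_eq_empty.2 (not_lt.1 hr)] at hz
    exact absurd hz (notMem_empty z)
  have hc : c ∈ ball c r := mem_ball_self hr
  have hq : DifferentiableOn ℂ (fun z => deriv u z / u z) (ball c r) :=
    (hu.deriv isOpen_ball).div hu hu0
  obtain ⟨L₀, hL₀⟩ := hq.isExactOn_ball
  have hL₀d : DifferentiableOn ℂ L₀ (ball c r) := fun z hz =>
    (hL₀ z hz).differentiableAt.differentiableWithinAt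
  -- `u * exp (-L₀)` is constant
  set F : ℂ → ℂ := fun z => u z * Complex.exp (-L₀ z) with hF
  have hFd : DifferentiableOn ℂ F (ball c r) := hu.mul (hL₀d.neg.cexp)
  have hF' : (ball c r).EqOn (deriv F) 0 := by
    intro z hz
    have h1 : HasDerivAt u (deriv u z) z :=
      (hu.differentiableAt (isOpen_ball.mem_nhds hz)).hasDerivAt
    have h2 : HasDerivAt (fun z => Complex.exp (-L₀ z))
        (Complex.exp (-L₀ z) * -(deriv u z / u z)) z := (hL₀ z hz).neg.cexp
    have h3 := h1.mul h2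
    have h4 : deriv F z = deriv u z * Complex.exp (-L₀ z)
        + u z * (Complex.exp (-L₀ z) * -(deriv u z / u z)) := h3.deriv
    rw [h4, Pi.zero_apply]
    field_simp [hu0 z hz]
    ring
  have hconst : ∀ z ∈ ball c r, F z = F c := fun z hz =>
    isOpen_ball.is_const_of_deriv_eq_zero (convex_ball c r).isPreconnected hFd hF' hz hc
  have hFc : F c ≠ 0 := mul_ne_zero (hu0 c hc) (Complex.exp_ne_zero _)
  refine ⟨fun z => L₀ z + Complex.log (F c), hL₀d.add_const _, fun z hz => ?_⟩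
  rw [Complex.exp_add, Complex.exp_log hFc, ← hconst z hz, hF]
  simp only
  rw [mul_comm, mul_assoc, ← Complex.exp_add, neg_add_cancel, Complex.exp_zero, mul_one]

/-- A nowhere vanishing holomorphic function on a ball has a holomorphic `p`-th root. -/
theorem exists_root_on_ball_of_ne_zero {p : ℕ} (hp : 0 < p) {c : ℂ} {r : ℝ} {u : ℂ → ℂ}
    (hu : DifferentiableOn ℂ u (ball c r)) (hu0 : ∀ z ∈ ball c r, u z ≠ 0) :
    ∃ h : ℂ → ℂ, DifferentiableOn ℂ h (ball c r) ∧ ∀ z ∈ ball c r, h z ^ p = u z := by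
  obtain ⟨L, hL, hLu⟩ := exists_log_on_ball hu hu0
  refine ⟨fun z => Complex.exp (L z / p), (hL.div_const _).cexp, fun z hz => ?_⟩
  have hp' : (p : ℂ) ≠ 0 := Nat.cast_ne_zero.2 hp.ne'
  rw [← Complex.exp_nat_mul, mul_div_cancel₀ _ hp', hLu z hz]

/-! ### Dividing out a zero -/

/-- Global division by `(z - a) ^ m`, `m` the order of vanishing at `a`. -/
theorem exists_eq_pow_mul {B : Set ℂ} (hB : IsOpen B) {G : ℂ → ℂ} (hG : DifferentiableOn ℂ G B)
    {a : ℂ} (ha : a ∈ B) {m : ℕ} (hm : analyticOrderAt G a = m) :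
    ∃ G₁ : ℂ → ℂ, DifferentiableOn ℂ G₁ B ∧ G₁ a ≠ 0 ∧ ∀ z, G z = (z - a) ^ m * G₁ z := by
  have hGa : AnalyticAt ℂ G a := hG.analyticAt (hB.mem_nhds ha)
  obtain ⟨g, hg, hga, hev⟩ := hGa.analyticOrderAt_eq_natCast.1 hm
  classical
  set G₁ : ℂ → ℂ := fun z => if z = a then g a else G z / (z - a) ^ m with hG₁
  have hG₁a : G₁ a = g a := by simp [hG₁]
  have hnear : G₁ =ᶠ[𝓝 a] g := by
    filter_upwards [hev] with z hz
    by_cases hza : z = a
    · rw [hza, hG₁a]
    · have h0 : (z - a) ^ m ≠ 0 := pow_ne_zero _ (sub_ne_zero.2 hza)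
      simp only [hG₁, if_neg hza]
      rw [hz, smul_eq_mul, mul_div_cancel_left₀ _ h0]
  refine ⟨G₁, ?_, ?_, ?_⟩
  · intro z hz
    by_cases hza : z = a
    · subst hza
      exact (hg.differentiableAt.congr_of_eventuallyEq hnear).differentiableWithinAt
    · have hopen : IsOpen (B ∩ {a}ᶜ) := hB.inter isOpen_compl_singleton
      have hzmem : z ∈ B ∩ {a}ᶜ := ⟨hz, hza⟩
      have hd : DifferentiableAt ℂ (fun z => G z / (z - a) ^ m) z := by
        have h1 : DifferentiableAt ℂ G z := hG.differentiableAt (hB.mem_nhds hz)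
        have h2 : DifferentiableAt ℂ (fun z : ℂ => (z - a) ^ m) z := by fun_prop
        exact h1.div h2 (pow_ne_zero _ (sub_ne_zero.2 hza))
      have hev2 : G₁ =ᶠ[𝓝 z] fun z => G z / (z - a) ^ m := by
        filter_upwards [hopen.mem_nhds hzmem] with w hw
        simp only [hG₁, if_neg (show w ≠ a from hw.2)]
      exact (hd.congr_of_eventuallyEq hev2).differentiableWithinAt
  · rw [hG₁a]; exact hga
  · intro z
    by_cases hza : z = a
    · subst hza
      rw [hG₁a]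
      have := hev.self_of_nhds
      rw [smul_eq_mul] at this
      exact this
    · have h0 : (z - a) ^ m ≠ 0 := pow_ne_zero _ (sub_ne_zero.2 hza)
      simp only [hG₁, if_neg hza]
      rw [mul_div_cancel₀ _ h0]

/-- Orders away from `a` do not change under division by `(z - a) ^ m`. -/
theorem analyticOrderAt_eq_of_eq_pow_mul {B : Set ℂ} (hB : IsOpen B) {G G₁ : ℂ → ℂ}
    (hG₁ : DifferentiableOn ℂ G₁ B) {a : ℂ} {m : ℕ} (h : ∀ z, G z = (z - a) ^ m * G₁ z)
    {z : ℂ} (hz : z ∈ B) (hza : z ≠ a) : analyticOrderAt G z = analyticOrderAt G₁ z := by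
  have hfun : G = (fun z => (z - a) ^ m) * G₁ := funext h
  have h1 : AnalyticAt ℂ (fun z : ℂ => (z - a) ^ m) z := by fun_prop
  have h2 : AnalyticAt ℂ G₁ z := hG₁.analyticAt (hB.mem_nhds hz)
  rw [hfun, analyticOrderAt_mul h1 h2,
    h1.analyticOrderAt_eq_zero.2 (pow_ne_zero _ (sub_ne_zero.2 hza)), zero_add]

/-! ### Roots on a ball: finitely many zeros -/

/-- A holomorphic function on a ball with finitely many zeros, all of order divisible by `p`,
has a holomorphic `p`-th root. -/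
theorem exists_root_on_ball_aux {p : ℕ} (hp : 0 < p) {c : ℂ} {r : ℝ} :
    ∀ (n : ℕ) (G : ℂ → ℂ), DifferentiableOn ℂ G (ball c r) →
      ∀ (hfin : {z | z ∈ ball c r ∧ G z = 0}.Finite), hfin.toFinset.card = n →
      (∀ z ∈ ball c r, p ∣ analyticOrderNatAt G z) →
      ∃ h : ℂ → ℂ, DifferentiableOn ℂ h (ball c r) ∧ ∀ z ∈ ball c r, h z ^ p = G z := by
  intro n
  induction n with
  | zero =>
    intro G hG hfin hcard _
    have hempty : {z | z ∈ ball c r ∧ G z = 0} = ∅ := by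
      rw [Finset.card_eq_zero] at hcard
      rw [← hfin.coe_toFinset, hcard, Finset.coe_empty]
    refine exists_root_on_ball_of_ne_zero hp hG (fun z hz h0 => ?_)
    have : z ∈ {z | z ∈ ball c r ∧ G z = 0} := ⟨hz, h0⟩
    rw [hempty] at this
    exact this
  | succ n ih =>
    intro G hG hfin hcard hdiv
    have hne : hfin.toFinset.Nonempty := by
      rw [← Finset.card_pos, hcard]; exact Nat.succ_pos n
    obtain ⟨a, ha⟩ := hne
    rw [Set.Finite.mem_toFinset] at ha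
    obtain ⟨haB, hGa0⟩ := ha
    have hGa : AnalyticAt ℂ G a := hG.analyticAt (isOpen_ball.mem_nhds haB)
    -- the order at `a` is finite
    have htop : analyticOrderAt G a ≠ ⊤ := by
      intro htop
      rw [analyticOrderAt_eq_top] at htop
      have hmem : {z | z ∈ ball c r ∧ G z = 0} ∈ 𝓝 a := by
        filter_upwards [htop, isOpen_ball.mem_nhds haB] with z hz hzB using ⟨hzB, hz⟩
      exact (infinite_of_mem_nhds a hmem) hfin
    set m := analyticOrderNatAt G a with hm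
    have hmeq : analyticOrderAt G a = m := (Nat.cast_analyticOrderNatAt htop).symm
    obtain ⟨k, hk⟩ := hdiv a haB
    obtain ⟨G₁, hG₁d, hG₁a, hG₁⟩ := exists_eq_pow_mul isOpen_ball hG haB hmeq
    have hm0 : m ≠ 0 := by
      intro h0
      have := hG₁ a
      rw [h0, pow_zero, one_mul] at this
      exact hG₁a (this ▸ hGa0)
    -- zero set of `G₁`
    have hset : {z | z ∈ ball c r ∧ G₁ z = 0} = {z | z ∈ ball c r ∧ G z = 0} \ {a} := by
      ext z
      constructor
      · rintro ⟨hzB, hz0⟩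
        exact ⟨⟨hzB, by rw [hG₁ z, hz0, mul_zero]⟩,
          fun hza => hG₁a ((show z = a from hza) ▸ hz0)⟩
      · rintro ⟨⟨hzB, hz0⟩, hza⟩
        have hza' : z ≠ a := fun h => hza h
        refine ⟨hzB, ?_⟩
        rw [hG₁ z] at hz0
        exact (mul_eq_zero.1 hz0).resolve_left (pow_ne_zero _ (sub_ne_zero.2 hza'))
    have hfin₁ : {z | z ∈ ball c r ∧ G₁ z = 0}.Finite := by
      rw [hset]; exact hfin.subset sdiff_subset
    have hcard₁ : hfin₁.toFinset.card = n := by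
      have h1 : hfin₁.toFinset = hfin.toFinset.erase a := by
        ext z
        rw [Set.Finite.mem_toFinset, Finset.mem_erase, Set.Finite.mem_toFinset, hset]
        constructor
        · rintro ⟨h, hza⟩
          exact ⟨fun h' => hza h', h⟩
        · rintro ⟨hza, h⟩
          exact ⟨h, fun h' => hza h'⟩
      rw [h1, Finset.card_erase_of_mem (by rw [Set.Finite.mem_toFinset]; exact ⟨haB, hGa0⟩),
        hcard, Nat.add_sub_cancel]
    have hdiv₁ : ∀ z ∈ ball c r, p ∣ analyticOrderNatAt G₁ z := by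
      intro z hz
      by_cases hza : z = a
      · have h0 : analyticOrderAt G₁ a = 0 :=
          (hG₁d.analyticAt (isOpen_ball.mem_nhds haB)).analyticOrderAt_eq_zero.2 hG₁a
        rw [hza, analyticOrderNatAt, h0]
        simp
      · have := analyticOrderAt_eq_of_eq_pow_mul isOpen_ball hG₁d hG₁ hz hza
        rw [analyticOrderNatAt, ← this]
        exact hdiv z hz
    obtain ⟨h₁, hh₁d, hh₁⟩ := ih G₁ hG₁d hfin₁ hcard₁ hdiv₁
    refine ⟨fun z => (z - a) ^ k * h₁ z, ?_, fun z hz => ?_⟩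
    · exact (by fun_prop : DifferentiableOn ℂ (fun z : ℂ => (z - a) ^ k) (ball c r)).mul hh₁d
    · rw [mul_pow, ← pow_mul, hh₁ z hz, hG₁ z, hm, hk, mul_comm k p]

/-- Packaged version: finitely many zeros in the ball, all orders divisible by `p`. -/
theorem exists_root_on_ball {p : ℕ} (hp : 0 < p) {c : ℂ} {r : ℝ} {G : ℂ → ℂ}
    (hG : DifferentiableOn ℂ G (ball c r)) (hfin : {z | z ∈ ball c r ∧ G z = 0}.Finite)
    (hdiv : ∀ z ∈ ball c r, p ∣ analyticOrderNatAt G z) :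
    ∃ h : ℂ → ℂ, DifferentiableOn ℂ h (ball c r) ∧ ∀ z ∈ ball c r, h z ^ p = G z :=
  exists_root_on_ball_aux hp _ G hG hfin rfl hdiv

/-! ### Uniqueness of roots up to roots of unity -/

theorem finite_setOf_pow_eq_one {p : ℕ} (hp : 0 < p) : {w : ℂ | w ^ p = 1}.Finite := by
  have : {w : ℂ | w ^ p = 1} = ↑(Polynomial.nthRootsFinset p (1 : ℂ)) := by
    ext w
    rw [Finset.mem_coe, Polynomial.mem_nthRootsFinset hp]
    rfl
  rw [this]
  exact Finset.finite_toSet _

/-- Two holomorphic `p`-th roots of the same function on a connected open set which agree at a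
point where they do not vanish are equal. -/
theorem eqOn_of_pow_eq_of_eq {p : ℕ} (hp : 0 < p) {B : Set ℂ} (hB : IsOpen B)
    (hBc : IsPreconnected B) {c₁ c₂ : ℂ → ℂ} (h₁ : DifferentiableOn ℂ c₁ B)
    (h₂ : DifferentiableOn ℂ c₂ B) (hpow : ∀ z ∈ B, c₁ z ^ p = c₂ z ^ p) {z₀ : ℂ} (hz₀ : z₀ ∈ B)
    (hne : c₂ z₀ ≠ 0) (heq : c₁ z₀ = c₂ z₀) : EqOn c₁ c₂ B := by
  have hcont : ContinuousAt c₂ z₀ := (h₂.differentiableAt (hB.mem_nhds hz₀)).continuousAt
  have hev : ∀ᶠ z in 𝓝 z₀, z ∈ B ∧ c₂ z ≠ 0 :=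
    Filter.Eventually.and (hB.mem_nhds hz₀) (hcont.eventually_ne hne)
  obtain ⟨ε, hε, hεV⟩ := Metric.eventually_nhds_iff_ball.1 hev
  -- the quotient is locally constant near `z₀`
  have hquot : ContinuousOn (fun z => c₁ z / c₂ z) (ball z₀ ε) :=
    (h₁.continuousOn.mono fun z hz => (hεV z hz).1).div
      (h₂.continuousOn.mono fun z hz => (hεV z hz).1) fun z hz => (hεV z hz).2
  have hmaps : MapsTo (fun z => c₁ z / c₂ z) (ball z₀ ε) {w : ℂ | w ^ p = 1} := by
    intro z hz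
    show (c₁ z / c₂ z) ^ p = 1
    rw [div_pow, hpow z (hεV z hz).1, div_self (pow_ne_zero _ (hεV z hz).2)]
  have hconst : ∀ z ∈ ball z₀ ε, c₁ z / c₂ z = c₁ z₀ / c₂ z₀ := fun z hz =>
    (convex_ball z₀ ε).isPreconnected.constant_of_mapsTo (finite_setOf_pow_eq_one hp).isDiscrete
      hquot hmaps hz (mem_ball_self hε)
  have hloc : c₁ =ᶠ[𝓝 z₀] c₂ := by
    filter_upwards [ball_mem_nhds z₀ hε] with z hz
    have h := hconst z hz
    rw [heq, div_self hne, div_eq_one_iff_eq (hεV z hz).2] at h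
    exact h
  exact (h₁.analyticOnNhd hB).eqOn_of_preconnected_of_eventuallyEq (h₂.analyticOnNhd hB) hBc hz₀
    hloc

/-! ### Exhaustion of the upper half plane by balls -/

/-- The centre of the `n`-th exhausting ball. -/
def cen (n : ℕ) : ℂ := ⟨0, (n : ℝ) + 2⟩

/-- The radius of the `n`-th exhausting ball. -/
def rad (n : ℕ) : ℝ := ((n : ℝ) + 2) - 1 / ((n : ℝ) + 2)

theorem closedBall_subset_upper (n : ℕ) : closedBall (cen n) (rad n) ⊆ {z : ℂ | 0 < z.im} := by
  intro z hz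
  rw [mem_closedBall, Complex.dist_eq] at hz
  have h1 : |(z - cen n).im| ≤ ‖z - cen n‖ := Complex.abs_im_le_norm _
  have h2 : (z - cen n).im = z.im - ((n : ℝ) + 2) := by simp [cen]
  have h3 : (0 : ℝ) < 1 / ((n : ℝ) + 2) := by positivity
  have h4 := (abs_le.1 (h1.trans hz)).1
  rw [h2, rad] at h4
  show 0 < z.im
  linarith

theorem ball_subset_ball_of_le {m n : ℕ} (h : m ≤ n) :
    ball (cen m) (rad m) ⊆ ball (cen n) (rad n) := by
  apply ball_subset_ball'
  have hd : dist (cen m) (cen n) = (n : ℝ) - m := by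
    rw [Complex.dist_eq]
    have : cen m - cen n = ⟨0, (m : ℝ) - n⟩ := by
      apply Complex.ext <;> simp [cen]
    rw [this]
    have h0 : (⟨0, (m : ℝ) - n⟩ : ℂ) = (((m : ℝ) - n : ℝ) : ℂ) * Complex.I := by
      apply Complex.ext <;> simp
    rw [h0, norm_mul, Complex.norm_I, mul_one, Complex.norm_real, Real.norm_eq_abs,
      abs_sub_comm, abs_of_nonneg]
    have : (m : ℝ) ≤ n := by exact_mod_cast h
    linarith
  rw [hd, rad, rad]
  have hm : (0 : ℝ) < (m : ℝ) + 2 := by positivity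
  have hmn : (m : ℝ) + 2 ≤ (n : ℝ) + 2 := by
    have : (m : ℝ) ≤ n := by exact_mod_cast h
    linarith
  have := one_div_le_one_div_of_le hm hmn
  linarith

theorem exists_mem_ball {z : ℂ} (hz : 0 < z.im) : ∃ n : ℕ, z ∈ ball (cen n) (rad n) := by
  obtain ⟨n, hn⟩ := exists_nat_gt ((z.re ^ 2 + z.im ^ 2 + 2) / (2 * z.im))
  refine ⟨n, ?_⟩
  rw [mem_ball, Complex.dist_eq]
  have hR : (0 : ℝ) < (n : ℝ) + 2 := by positivity
  have hrad : 0 < rad n := by
    rw [rad, sub_pos, div_lt_iff₀ hR]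
    nlinarith
  have hsq : ‖z - cen n‖ ^ 2 < rad n ^ 2 := by
    rw [Complex.sq_norm, Complex.normSq_apply]
    have h1 : (z - cen n).re = z.re := by simp [cen]
    have h2 : (z - cen n).im = z.im - ((n : ℝ) + 2) := by simp [cen]
    rw [h1, h2, rad]
    have h3 : (z.re ^ 2 + z.im ^ 2 + 2) < n * (2 * z.im) := by
      rwa [div_lt_iff₀ (by linarith)] at hn
    have h4 : ((n : ℝ) + 2 - 1 / ((n : ℝ) + 2)) ^ 2
        = ((n : ℝ) + 2) ^ 2 - 2 + (1 / ((n : ℝ) + 2)) ^ 2 := by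
      field_simp
      ring
    rw [h4]
    have h5 : (0 : ℝ) ≤ (1 / ((n : ℝ) + 2)) ^ 2 := by positivity
    nlinarith
  exact lt_of_pow_lt_pow_left₀ 2 hrad.le hsq

theorem isConnected_upper : IsConnected {z : ℂ | 0 < z.im} :=
  ⟨⟨Complex.I, by simp⟩, (convex_halfSpace_im_gt 0).isPreconnected⟩

theorem isOpen_upper : IsOpen {z : ℂ | 0 < z.im} :=
  isOpen_lt continuous_const Complex.continuous_im

/-! ### Roots on the upper half plane -/

/-- **Main analytic lemma** (set form): a holomorphic function on the upper half plane which is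
not identically zero and all of whose orders of vanishing are divisible by `p` is a `p`-th power
of a holomorphic function. -/
theorem exists_root_upper {p : ℕ} (hp : 0 < p) {G : ℂ → ℂ}
    (hG : DifferentiableOn ℂ G {z : ℂ | 0 < z.im}) {z₀ : ℂ} (hz₀ : 0 < z₀.im)
    (hGz₀ : G z₀ ≠ 0) (hdiv : ∀ z : ℂ, 0 < z.im → p ∣ analyticOrderNatAt G z) :
    ∃ C : ℂ → ℂ, DifferentiableOn ℂ C {z : ℂ | 0 < z.im} ∧
      ∀ z : ℂ, 0 < z.im → C z ^ p = G z := by
  classical
  have hGan : AnalyticOnNhd ℂ G {z : ℂ | 0 < z.im} := hG.analyticOnNhd isOpen_upper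
  have hcod : G ⁻¹' {0}ᶜ ∈ codiscreteWithin {z : ℂ | 0 < z.im} :=
    hGan.preimage_zero_mem_codiscreteWithin hGz₀ hz₀ isConnected_upper
  -- roots on each ball
  have hballU : ∀ n, ball (cen n) (rad n) ⊆ {z : ℂ | 0 < z.im} := fun n =>
    ball_subset_closedBall.trans (closedBall_subset_upper n)
  have hroot : ∀ n, ∃ h : ℂ → ℂ, DifferentiableOn ℂ h (ball (cen n) (rad n)) ∧
      ∀ z ∈ ball (cen n) (rad n), h z ^ p = G z := by
    intro n
    have hfinK : (closedBall (cen n) (rad n) \ (G ⁻¹' {0}ᶜ)).Finite :=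
      (isCompact_closedBall _ _).finite_sdiff_of_mem_codiscreteWithin
        (Filter.codiscreteWithin_mono (closedBall_subset_upper n) hcod)
    have hfin : {z | z ∈ ball (cen n) (rad n) ∧ G z = 0}.Finite := by
      refine hfinK.subset ?_
      rintro z ⟨hzB, hz0⟩
      exact ⟨ball_subset_closedBall hzB, fun h => h hz0⟩
    exact exists_root_on_ball hp (hG.mono (hballU n)) hfin fun z hz => hdiv z (hballU n hz)
  obtain ⟨w, hw⟩ := IsAlgClosed.exists_pow_nat_eq (G z₀) hp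
  have hw0 : w ≠ 0 := by
    rintro rfl
    rw [zero_pow hp.ne'] at hw
    exact hGz₀ hw.symm
  obtain ⟨n₀, hn₀⟩ := exists_mem_ball hz₀
  have hz₀mem : ∀ k, z₀ ∈ ball (cen (n₀ + k)) (rad (n₀ + k)) := fun k =>
    ball_subset_ball_of_le (Nat.le_add_right n₀ k) hn₀
  -- normalised roots
  have hnorm : ∀ k, ∃ h : ℂ → ℂ, DifferentiableOn ℂ h (ball (cen (n₀ + k)) (rad (n₀ + k))) ∧
      (∀ z ∈ ball (cen (n₀ + k)) (rad (n₀ + k)), h z ^ p = G z) ∧ h z₀ = w := by
    intro k
    obtain ⟨h, hd, hpow⟩ := hroot (n₀ + k)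
    have hz0 : h z₀ ≠ 0 := by
      intro h0
      have := hpow z₀ (hz₀mem k)
      rw [h0, zero_pow hp.ne'] at this
      exact hGz₀ this.symm
    refine ⟨fun z => w / h z₀ * h z, hd.const_mul _, fun z hz => ?_, ?_⟩
    · rw [mul_pow, div_pow, hw, hpow z₀ (hz₀mem k), div_self hGz₀, one_mul, hpow z hz]
    · simp only
      rw [div_mul_cancel₀ _ hz0]
  choose H hHd hHp hHz using hnorm
  -- compatibility
  have hcompat : ∀ k l, k ≤ l → EqOn (H k) (H l) (ball (cen (n₀ + k)) (rad (n₀ + k))) := by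
    intro k l hkl
    have hsub : ball (cen (n₀ + k)) (rad (n₀ + k)) ⊆ ball (cen (n₀ + l)) (rad (n₀ + l)) :=
      ball_subset_ball_of_le (Nat.add_le_add_left hkl n₀)
    refine eqOn_of_pow_eq_of_eq hp isOpen_ball (convex_ball _ _).isPreconnected (hHd k)
      ((hHd l).mono hsub) (fun z hz => ?_) (hz₀mem k) ?_ ?_
    · rw [hHp k z hz, hHp l z (hsub hz)]
    · rw [hHz l]; exact hw0
    · rw [hHz k, hHz l]
  have hex : ∀ z : ℂ, 0 < z.im → ∃ k, z ∈ ball (cen (n₀ + k)) (rad (n₀ + k)) := by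
    intro z hz
    obtain ⟨n, hn⟩ := exists_mem_ball hz
    exact ⟨n, ball_subset_ball_of_le (Nat.le_add_left n n₀) hn⟩
  set C : ℂ → ℂ := fun z =>
    if h : ∃ k, z ∈ ball (cen (n₀ + k)) (rad (n₀ + k)) then H (Nat.find h) z else 0 with hC
  have hCeq : ∀ k, ∀ z ∈ ball (cen (n₀ + k)) (rad (n₀ + k)), C z = H k z := by
    intro k z hz
    have h : ∃ k, z ∈ ball (cen (n₀ + k)) (rad (n₀ + k)) := ⟨k, hz⟩
    simp only [hC, dif_pos h]
    exact hcompat _ _ (Nat.find_min' h hz) (Nat.find_spec h)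
  refine ⟨C, fun z hz => ?_, fun z hz => ?_⟩
  · obtain ⟨k, hk⟩ := hex z hz
    have hev : C =ᶠ[𝓝 z] H k := by
      filter_upwards [isOpen_ball.mem_nhds hk] with y hy using hCeq k y hy
    exact (((hHd k).differentiableAt (isOpen_ball.mem_nhds hk)).congr_of_eventuallyEq
      hev).differentiableWithinAt
  · obtain ⟨k, hk⟩ := hex z hz
    rw [hCeq k z hk, hHp k z hk]

/-! ### Holomorphic functions on `ℍ` -/

section Upper

open UpperHalfPlane
open scoped Manifold

theorem comp_ofComplex_coe (g : ℍ → ℂ) (τ : ℍ) : (g ∘ ofComplex) (τ : ℂ) = g τ := by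
  rw [Function.comp_apply, ofComplex_apply]

/-- A holomorphic function on `ℍ` which is not identically zero has finite order everywhere. -/
theorem analyticOrderAt_ne_top_of_ne_zero {g : ℍ → ℂ} (hg : MDiff g) (hg0 : g ≠ 0) (τ : ℍ) :
    analyticOrderAt (g ∘ ofComplex) (τ : ℂ) ≠ ⊤ := by
  intro htop
  rw [analyticOrderAt_eq_top] at htop
  have hG : AnalyticOnNhd ℂ (g ∘ ofComplex) {z : ℂ | 0 < z.im} :=
    (UpperHalfPlane.mdifferentiable_iff.1 hg).analyticOnNhd isOpen_upper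
  have h0 := hG.eqOn_zero_of_preconnected_of_eventuallyEq_zero isConnected_upper.isPreconnected
    τ.im_pos htop
  apply hg0
  funext σ
  have := h0 σ.im_pos
  rwa [comp_ofComplex_coe] at this

/-- **(R1)** A holomorphic function on `ℍ`, not identically zero, all of whose orders of
vanishing are divisible by `p`, is the `p`-th power of a holomorphic function. -/
theorem exists_mdifferentiable_root {p : ℕ} (hp : 0 < p) {g : ℍ → ℂ} (hg : MDiff g)
    (hg0 : g ≠ 0) (hdiv : ∀ τ : ℍ, p ∣ analyticOrderNatAt (g ∘ ofComplex) (τ : ℂ)) :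
    ∃ c : ℍ → ℂ, MDiff c ∧ c ^ p = g := by
  obtain ⟨τ₀, hτ₀⟩ := Function.ne_iff.1 hg0
  have hG := UpperHalfPlane.mdifferentiable_iff.1 hg
  obtain ⟨C, hCd, hC⟩ := exists_root_upper hp hG τ₀.im_pos
    (by rw [comp_ofComplex_coe]; exact hτ₀) (fun z hz => hdiv ⟨z, hz⟩)
  refine ⟨fun τ => C (τ : ℂ), ?_, ?_⟩
  · rw [UpperHalfPlane.mdifferentiable_iff]
    refine hCd.congr fun z hz => ?_
    rw [Function.comp_apply, ofComplex_apply_of_im_pos hz]
  · funext τ
    rw [Pi.pow_apply, hC (τ : ℂ) τ.im_pos, comp_ofComplex_coe]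

/-- **(R2)** Two holomorphic `p`-th roots of the same function on `ℍ` differ by a `p`-th root of
unity. -/
theorem eq_const_smul_of_pow_eq {p : ℕ} (hp : 0 < p) {c₁ c₂ : ℍ → ℂ} (h₁ : MDiff c₁)
    (h₂ : MDiff c₂) (h0 : c₂ ≠ 0) (hpow : c₁ ^ p = c₂ ^ p) :
    ∃ ζ : ℂ, ζ ^ p = 1 ∧ c₁ = ζ • c₂ := by
  obtain ⟨τ₀, hτ₀⟩ := Function.ne_iff.1 h0
  have hτ₀' : c₂ τ₀ ≠ 0 := hτ₀
  have hpw : ∀ τ : ℍ, c₁ τ ^ p = c₂ τ ^ p := fun τ => congrFun hpow τ
  set ζ : ℂ := c₁ τ₀ / c₂ τ₀ with hζ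
  have hζp : ζ ^ p = 1 := by
    rw [hζ, div_pow, hpw τ₀, div_self (pow_ne_zero _ hτ₀')]
  refine ⟨ζ, hζp, ?_⟩
  have hE := eqOn_of_pow_eq_of_eq hp isOpen_upper isConnected_upper.isPreconnected
    (UpperHalfPlane.mdifferentiable_iff.1 h₁) ((UpperHalfPlane.mdifferentiable_iff.1 h₂).const_mul ζ)
    (z₀ := (τ₀ : ℂ)) (fun z hz => ?_) τ₀.im_pos ?_ ?_
  · funext τ
    have := hE τ.im_pos
    simpa [comp_ofComplex_coe] using this
  · have := hpw ⟨z, hz⟩
    simp only [Function.comp_apply, ofComplex_apply_of_im_pos hz]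
    rw [mul_pow, hζp, one_mul, this]
  · simp only [Function.comp_apply, ofComplex_apply]
    exact mul_ne_zero (by rw [hζ]; exact div_ne_zero (by
      intro h
      have := hpw τ₀
      rw [h, zero_pow hp.ne'] at this
      exact pow_ne_zero _ hτ₀' this.symm) hτ₀') hτ₀'
  · simp only [Function.comp_apply, ofComplex_apply]
    rw [hζ, div_mul_cancel₀ _ hτ₀']

/-- **(R3)** fraction form: if `a / b` has all orders divisible by `p`, then `a * b ^ (p - 1)` is
the `p`-th power of a holomorphic `c`; so `(c / b) ^ p = a / b`. -/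
theorem exists_root_of_quotient {p : ℕ} (hp : 0 < p) {a b : ℍ → ℂ} (ha : MDiff a) (hb : MDiff b)
    (ha0 : a ≠ 0) (hb0 : b ≠ 0)
    (hdiv : ∀ τ : ℍ, (p : ℤ) ∣ (analyticOrderNatAt (a ∘ ofComplex) (τ : ℂ) : ℤ)
      - (analyticOrderNatAt (b ∘ ofComplex) (τ : ℂ) : ℤ)) :
    ∃ c : ℍ → ℂ, MDiff c ∧ c ≠ 0 ∧ c ^ p = a * b ^ (p - 1) ∧ c ^ p * b = a * b ^ p := by
  have hbp : MDiff (b ^ (p - 1)) := hb.pow (p - 1)
  have hg : MDiff (a * b ^ (p - 1)) := ha.mul hbp
  have hbp0 : b ^ (p - 1) ≠ 0 := pow_ne_zero _ hb0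
  have hg0 : a * b ^ (p - 1) ≠ 0 := fun h =>
    ((UpperHalfPlane.mul_eq_zero_iff ha hbp).1 h).elim ha0 hbp0
  have hdiv' : ∀ τ : ℍ, p ∣ analyticOrderNatAt ((a * b ^ (p - 1)) ∘ ofComplex) (τ : ℂ) := by
    intro τ
    have hA : AnalyticAt ℂ (a ∘ ofComplex) (τ : ℂ) :=
      (UpperHalfPlane.mdifferentiable_iff.1 ha).analyticAt (isOpen_upper.mem_nhds τ.im_pos)
    have hB : AnalyticAt ℂ (b ∘ ofComplex) (τ : ℂ) :=
      (UpperHalfPlane.mdifferentiable_iff.1 hb).analyticAt (isOpen_upper.mem_nhds τ.im_pos)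
    have hfun : (a * b ^ (p - 1)) ∘ ofComplex = (a ∘ ofComplex) * (b ∘ ofComplex) ^ (p - 1) := by
      funext z
      simp
    have hBtop : analyticOrderAt ((b ∘ ofComplex) ^ (p - 1)) (τ : ℂ) ≠ ⊤ := by
      have hb' := analyticOrderAt_ne_top_of_ne_zero hb hb0 τ
      rw [analyticOrderAt_pow hB]
      lift analyticOrderAt (b ∘ ofComplex) (τ : ℂ) to ℕ using hb' with k
      rw [nsmul_eq_mul]
      exact_mod_cast ENat.natCast_ne_top ((p - 1) * k)
    rw [hfun, analyticOrderNatAt_mul hA (hB.pow _) (analyticOrderAt_ne_top_of_ne_zero ha ha0 τ)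
      hBtop, analyticOrderNatAt_pow hB]
    have h := hdiv τ
    set m := analyticOrderNatAt (a ∘ ofComplex) (τ : ℂ)
    set n := analyticOrderNatAt (b ∘ ofComplex) (τ : ℂ)
    have : ((m + (p - 1) • n : ℕ) : ℤ) = ((m : ℤ) - n) + p * n := by
      have hp1 : ((p - 1 : ℕ) : ℤ) = (p : ℤ) - 1 := by
        rw [Nat.cast_sub hp]; simp
      rw [smul_eq_mul]
      push_cast [hp1]
      ring
    exact Int.natCast_dvd_natCast.1 (this ▸ dvd_add h (dvd_mul_right _ _))
  obtain ⟨c, hc, hcp⟩ := exists_mdifferentiable_root hp hg hg0 hdiv'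
  refine ⟨c, hc, ?_, hcp, ?_⟩
  · rintro rfl
    rw [zero_pow hp.ne'] at hcp
    exact hg0 hcp.symm
  · rw [hcp, mul_assoc, ← pow_succ, Nat.sub_add_cancel hp]

end Upper

/-! ### The Kummer character of a root of an invariant quotient -/

section Character

open UpperHalfPlane
open scoped Manifold

variable {G : Type*} [Group G] [MulAction G ℍ]

/-- `IsMultiplier c d g ζ` says that the quotient `Φ = c / d` satisfies `Φ ∘ g = ζ • Φ`
(written without division). -/
def IsMultiplier (c d : ℍ → ℂ) (g : G) (ζ : ℂ) : Prop :=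
  ∀ τ : ℍ, c (g • τ) * d τ = ζ * (c τ * d (g • τ))

theorem isMultiplier_one_iff {c d : ℍ → ℂ} {g : G} :
    IsMultiplier c d g 1 ↔ ∀ τ : ℍ, c (g • τ) * d τ = c τ * d (g • τ) := by
  simp only [IsMultiplier, one_mul]

theorem comp_smul_ne_zero {b : ℍ → ℂ} (hb0 : b ≠ 0) (g : G) : (fun τ : ℍ => b (g • τ)) ≠ 0 := by
  intro h
  apply hb0
  funext τ
  have := congrFun h (g⁻¹ • τ)
  simpa [smul_inv_smul] using this

variable (hact : ∀ g : G, MDiff (fun τ : ℍ => g • τ))

include hact in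
theorem mdiff_comp_smul {b : ℍ → ℂ} (hb : MDiff b) (g : G) : MDiff (fun τ : ℍ => b (g • τ)) :=
  hb.comp (hact g)

include hact in
theorem IsMultiplier.unique {c d : ℍ → ℂ} (hc : MDiff c) (hd : MDiff d) (hc0 : c ≠ 0)
    (hd0 : d ≠ 0) {g : G} {ζ ζ' : ℂ} (h : IsMultiplier c d g ζ) (h' : IsMultiplier c d g ζ') :
    ζ = ζ' := by
  have hR : c * (fun τ : ℍ => d (g • τ)) ≠ 0 := fun h0 =>
    ((UpperHalfPlane.mul_eq_zero_iff hc (mdiff_comp_smul hact hd g)).1 h0).elim hc0
      (comp_smul_ne_zero hd0 g)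
  obtain ⟨τ, hτ⟩ := Function.ne_iff.1 hR
  have hτ' : c τ * d (g • τ) ≠ 0 := hτ
  have := (h τ).symm.trans (h' τ)
  exact mul_right_cancel₀ hτ' this

theorem IsMultiplier.one (c d : ℍ → ℂ) : IsMultiplier c d (1 : G) 1 := by
  intro τ
  rw [one_smul, one_mul]

include hact in
theorem IsMultiplier.mul {c d : ℍ → ℂ} (hc : MDiff c) (hd : MDiff d) (hd0 : d ≠ 0) {g h : G}
    {ζ ξ : ℂ} (hg : IsMultiplier c d g ζ) (hh : IsMultiplier c d h ξ) :
    IsMultiplier c d (g * h) (ζ * ξ) := by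
  set E : ℍ → ℂ := fun τ => c ((g * h) • τ) * d τ - ζ * ξ * (c τ * d ((g * h) • τ)) with hE
  have hEd : MDiff E :=
    ((mdiff_comp_smul hact hc (g * h)).mul hd).sub
      (mdifferentiable_const.mul (hc.mul (mdiff_comp_smul hact hd (g * h))))
  have hmul : (fun τ : ℍ => d (h • τ)) * E = 0 := by
    funext τ
    have H1 := hg (h • τ)
    have H2 := hh τ
    simp only [Pi.mul_apply, Pi.zero_apply, hE, mul_smul]
    linear_combination (d τ) * H1 + (ζ * d (g • h • τ)) * H2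
  have hE0 : E = 0 :=
    ((UpperHalfPlane.mul_eq_zero_iff (mdiff_comp_smul hact hd h) hEd).1 hmul).resolve_left
      (comp_smul_ne_zero hd0 h)
  intro τ
  have := congrFun hE0 τ
  simp only [hE, Pi.zero_apply, sub_eq_zero] at this
  rw [this, mul_assoc]

include hact in
/-- **(R4), one element.** If `(c / d) ^ p = a / b` and `a / b` is invariant under `g`, then
`c / d` is multiplied by a `p`-th root of unity under `g`. -/
theorem exists_isMultiplier {p : ℕ} (hp : 0 < p) {a b c d : ℍ → ℂ} (hb : MDiff b)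
    (hc : MDiff c) (hd : MDiff d) (hb0 : b ≠ 0) (hc0 : c ≠ 0) (hd0 : d ≠ 0)
    (hroot : c ^ p * b = a * d ^ p) (g : G)
    (hinv : ∀ τ : ℍ, a (g • τ) * b τ = a τ * b (g • τ)) :
    ∃ ζ : ℂ, ζ ^ p = 1 ∧ IsMultiplier c d g ζ := by
  set L : ℍ → ℂ := fun τ => c (g • τ) * d τ with hL
  set R : ℍ → ℂ := fun τ => c τ * d (g • τ) with hR
  have hLd : MDiff L := (mdiff_comp_smul hact hc g).mul hd
  have hRd : MDiff R := hc.mul (mdiff_comp_smul hact hd g)
  have hR0 : R ≠ 0 := fun h0 =>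
    ((UpperHalfPlane.mul_eq_zero_iff hc (mdiff_comp_smul hact hd g)).1 h0).elim hc0
      (comp_smul_ne_zero hd0 g)
  have hbb : b * (fun τ : ℍ => b (g • τ)) ≠ 0 := fun h0 =>
    ((UpperHalfPlane.mul_eq_zero_iff hb (mdiff_comp_smul hact hb g)).1 h0).elim hb0
      (comp_smul_ne_zero hb0 g)
  have hmul : (L ^ p - R ^ p) * (b * (fun τ : ℍ => b (g • τ))) = 0 := by
    funext τ
    have h1 := congrFun hroot τ
    have h2 := congrFun hroot (g • τ)
    have h3 := hinv τ
    simp only [Pi.mul_apply, Pi.pow_apply] at h1 h2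
    simp only [Pi.mul_apply, Pi.sub_apply, Pi.pow_apply, Pi.zero_apply, hL, hR]
    linear_combination (d τ ^ p * b τ) * h2 - (d (g • τ) ^ p * b (g • τ)) * h1
      + (d (g • τ) ^ p * d τ ^ p) * h3
  have hpow : L ^ p = R ^ p := by
    have := ((UpperHalfPlane.mul_eq_zero_iff ((hLd.pow p).sub (hRd.pow p))
      (hb.mul (mdiff_comp_smul hact hb g))).1 hmul).resolve_right hbb
    exact sub_eq_zero.1 this
  obtain ⟨ζ, hζ, hLR⟩ := eq_const_smul_of_pow_eq hp hLd hRd hR0 hpow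
  refine ⟨ζ, hζ, fun τ => ?_⟩
  have := congrFun hLR τ
  simpa [hL, hR] using this

include hact in
/-- **(R4)** the Kummer character: if `(c / d) ^ p = a / b` and `a / b` is `G`-invariant, then
`c / d` transforms under `G` by a character with values in the `p`-th roots of unity. -/
theorem exists_character {p : ℕ} (hp : 0 < p) {a b c d : ℍ → ℂ} (hb : MDiff b)
    (hc : MDiff c) (hd : MDiff d) (hb0 : b ≠ 0) (hc0 : c ≠ 0) (hd0 : d ≠ 0)
    (hroot : c ^ p * b = a * d ^ p)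
    (hinv : ∀ (g : G) (τ : ℍ), a (g • τ) * b τ = a τ * b (g • τ)) :
    ∃ χ : G →* ℂˣ, (∀ g, χ g ^ p = 1) ∧ ∀ g, IsMultiplier c d g (χ g : ℂ) := by
  choose ζ hζp hζ using fun g : G =>
    exists_isMultiplier hact hp hb hc hd hb0 hc0 hd0 hroot g (hinv g)
  have hζ0 : ∀ g, ζ g ≠ 0 := fun g h0 => by
    have := hζp g
    rw [h0, zero_pow hp.ne'] at this
    exact zero_ne_one this
  refine ⟨MonoidHom.mk' (fun g => Units.mk0 (ζ g) (hζ0 g)) (fun g h => ?_), fun g => ?_,
    fun g => ?_⟩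
  · apply Units.ext
    simp only [Units.val_mk0, Units.val_mul]
    exact IsMultiplier.unique hact hc hd hc0 hd0 (hζ (g * h))
      (IsMultiplier.mul hact hc hd hd0 (hζ g) (hζ h))
  · apply Units.ext
    simp only [MonoidHom.mk'_apply, Units.val_pow_eq_pow_val, Units.val_mk0, Units.val_one]
    exact hζp g
  · simpa using hζ g

include hact in
/-- The multiplier only depends on the `p`-th power of the quotient `c / d`. -/
theorem IsMultiplier.congr_root {p : ℕ} (hp : 0 < p) {c d c' d' : ℍ → ℂ} (hc : MDiff c)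
    (hd : MDiff d) (hc' : MDiff c') (hd' : MDiff d') (hc'0 : c' ≠ 0) (hd0 : d ≠ 0)
    (hsame : (c * d') ^ p = (c' * d) ^ p) {g : G} {ζ : ℂ} (h : IsMultiplier c d g ζ) :
    IsMultiplier c' d' g ζ := by
  have hcd0 : c' * d ≠ 0 := fun h0 =>
    ((UpperHalfPlane.mul_eq_zero_iff hc' hd).1 h0).elim hc'0 hd0
  obtain ⟨ξ, hξ, hE⟩ := eq_const_smul_of_pow_eq hp (hc.mul hd') (hc'.mul hd) hcd0 hsame
  have hξ0 : ξ ≠ 0 := fun h0 => by
    rw [h0, zero_pow hp.ne'] at hξ
    exact zero_ne_one hξ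
  set E : ℍ → ℂ := fun τ => c' (g • τ) * d' τ - ζ * (c' τ * d' (g • τ)) with hEdef
  have hEd : MDiff E :=
    ((mdiff_comp_smul hact hc' g).mul hd').sub
      (mdifferentiable_const.mul (hc'.mul (mdiff_comp_smul hact hd' g)))
  have hdd : (fun τ : ℍ => d (g • τ)) * d ≠ 0 := fun h0 =>
    ((UpperHalfPlane.mul_eq_zero_iff (mdiff_comp_smul hact hd g) hd).1 h0).elim
      (comp_smul_ne_zero hd0 g) hd0
  have hmul : ((fun τ : ℍ => d (g • τ)) * d) * E = 0 := by
    funext τ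
    have e1 := congrFun hE τ
    have e2 := congrFun hE (g • τ)
    have e3 := h τ
    simp only [Pi.mul_apply, Pi.smul_apply, smul_eq_mul] at e1 e2
    simp only [Pi.mul_apply, Pi.zero_apply, hEdef]
    have key : ξ * (d (g • τ) * d τ * (c' (g • τ) * d' τ - ζ * (c' τ * d' (g • τ)))) = 0 := by
      linear_combination (-(d' τ * d τ)) * e2 + (d' (g • τ) * d' τ) * e3
        + (ζ * d (g • τ) * d' (g • τ)) * e1
    exact (mul_eq_zero.1 key).resolve_left hξ0
  have hE0 : E = 0 :=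
    ((UpperHalfPlane.mul_eq_zero_iff ((mdiff_comp_smul hact hd g).mul hd) hEd).1 hmul).resolve_left
      hdd
  intro τ
  have := congrFun hE0 τ
  simpa [hEdef, sub_eq_zero] using this

/-- Multipliers of products of quotients multiply. -/
theorem IsMultiplier.mul_root {c d c' d' : ℍ → ℂ} {g : G} {ζ ζ' : ℂ} (h : IsMultiplier c d g ζ)
    (h' : IsMultiplier c' d' g ζ') : IsMultiplier (c * c') (d * d') g (ζ * ζ') := by
  intro τ
  have h1 := h τ
  have h2 := h' τ
  simp only [Pi.mul_apply]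
  linear_combination (c' (g • τ) * d' τ) * h1 + (ζ * (c τ * d (g • τ))) * h2

end Character

section SL

open UpperHalfPlane
open scoped Manifold MatrixGroups

/-- The action of `SL(2, ℤ)` on `ℍ` is holomorphic (instance of the hypothesis `hact`). -/
theorem mdiff_SL_smul (γ : SL(2, ℤ)) : MDiff (fun τ : ℍ => γ • τ) :=
  UpperHalfPlane.mdifferentiable_smul (g := (γ : GL (Fin 2) ℝ)) (by simp)

/-- The action of a subgroup of `SL(2, ℤ)` on `ℍ` is holomorphic. -/
theorem mdiff_subgroup_smul (Γ : Subgroup SL(2, ℤ)) (γ : Γ) : MDiff (fun τ : ℍ => γ • τ) :=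
  mdiff_SL_smul (γ : SL(2, ℤ))

/-- **Consumer form (R3 + R4)** for a subgroup `Γ` of `SL(2, ℤ)`: a `Γ`-invariant quotient `a / b`
of holomorphic functions all of whose orders are divisible by `p` has a `p`-th root `c / b`
which transforms under `Γ` by a character `χ` with values in the `p`-th roots of unity. -/
theorem exists_root_and_character {p : ℕ} (hp : 0 < p) (Γ : Subgroup SL(2, ℤ)) {a b : ℍ → ℂ}
    (ha : MDiff a) (hb : MDiff b) (ha0 : a ≠ 0) (hb0 : b ≠ 0)
    (hdiv : ∀ τ : ℍ, (p : ℤ) ∣ (analyticOrderNatAt (a ∘ ofComplex) (τ : ℂ) : ℤ)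
      - (analyticOrderNatAt (b ∘ ofComplex) (τ : ℂ) : ℤ))
    (hinv : ∀ (γ : Γ) (τ : ℍ), a (γ • τ) * b τ = a τ * b (γ • τ)) :
    ∃ (c : ℍ → ℂ) (χ : Γ →* ℂˣ), MDiff c ∧ c ≠ 0 ∧ c ^ p * b = a * b ^ p ∧ (∀ γ, χ γ ^ p = 1) ∧
      ∀ (γ : Γ) (τ : ℍ), c (γ • τ) * b τ = (χ γ : ℂ) * (c τ * b (γ • τ)) := by
  obtain ⟨c, hc, hc0, -, hroot⟩ := exists_root_of_quotient hp ha hb ha0 hb0 hdiv
  obtain ⟨χ, hχp, hχ⟩ := exists_character (G := Γ) (mdiff_subgroup_smul Γ) hp hb hc hb hb0 hc0 hb0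
    hroot hinv
  exact ⟨c, χ, hc, hc0, hroot, hχp, hχ⟩

end SL

end Fermat.Agent.S29.H32
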