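/-
(C4r) LOCAL-par, root version.  `A`, `B` holomorphic, `N`-periodic, meromorphic at `i∞`;
`c` a holomorphic function with `c ^ n = A * B ^ (n - 1)` (so `(c / B) ^ n = A / B`) and with
`c / B` invariant under `τ ↦ τ + h` (cross-multiplied), `h ∣ N`.  Then `n * (N / h)` divides
`ord_{q_N} A - ord_{q_N} B`.
-/
import Mathlib
import Fermat.Agent.S24.H4_QhExpansion
import Fermat.Agent.S29.H32_MeroRoot
import Fermat.Agent.S29.H32_LocalPar

open Complex Filter Function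
open UpperHalfPlane hiding I
open scoped Real Topology Manifold

noncomputable section

namespace Fermat.Agent.S29.H32

open Fermat.Agent.S24

local notation "𝕢" => Periodic.qParam

/-! ## Translations -/

lemma mdiff_comp_vadd {c : ℍ → ℂ} (hc : MDiff c) (t : ℝ) : MDiff (fun τ : ℍ => c (t +ᵥ τ)) := by
  rw [UpperHalfPlane.mdifferentiable_iff]
  have h1 := UpperHalfPlane.mdifferentiable_iff.mp hc
  have h2 : DifferentiableOn ℂ (fun z : ℂ => z + (t : ℂ)) {z | 0 < z.im} := by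
    fun_prop
  have h3 : Set.MapsTo (fun z : ℂ => z + (t : ℂ)) {z | 0 < z.im} {z | 0 < z.im} := by
    intro z hz
    simp only [Set.mem_ofPred_eq] at hz ⊢
    simpa using hz
  refine (h1.comp h2 h3).congr fun z hz => ?_
  simp only [Set.mem_ofPred_eq] at hz
  simp only [Function.comp_apply]
  congr 1
  apply UpperHalfPlane.ext
  rw [UpperHalfPlane.coe_vadd, ofComplex_apply_of_im_pos hz, ofComplex_apply_of_im_pos (h3 hz)]
  simp [add_comm]

lemma vadd_nat_mul (H : ℝ) (k : ℕ) (τ : ℍ) :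
    (((k + 1 : ℕ) : ℝ) * H) +ᵥ τ = H +ᵥ (((k : ℝ) * H) +ᵥ τ) := by
  apply UpperHalfPlane.ext
  simp only [UpperHalfPlane.coe_vadd]
  push_cast
  ring

/-! ## A holomorphic `n`-th root of a periodic function -/

/-- A holomorphic `n`-th root of an `H`-periodic function is `(n * H)`-periodic. -/
theorem vadd_nat_mul_eq_of_pow {H : ℝ} {n : ℕ} (hn : 0 < n) {c A : ℍ → ℂ}
    (hc : MDiff c) (hA : ∀ τ : ℍ, A (H +ᵥ τ) = A τ) (hcA : c ^ n = A) (τ : ℍ) :
    c (((n : ℝ) * H) +ᵥ τ) = c τ := by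
  by_cases hc0 : c = 0
  · simp [hc0]
  have hc' : MDiff (fun τ : ℍ => c (H +ᵥ τ)) := mdiff_comp_vadd hc H
  have hpow : (fun τ : ℍ => c (H +ᵥ τ)) ^ n = c ^ n := by
    funext τ
    have h1 := congrFun hcA (H +ᵥ τ)
    have h2 := congrFun hcA τ
    simp only [Pi.pow_apply] at h1 h2 ⊢
    rw [h1, h2, hA]
  obtain ⟨ζ, hζ, hζc⟩ := eq_const_smul_of_pow_eq hn hc' hc hc0 hpow
  have key : ∀ k : ℕ, ∀ τ : ℍ, c (((k : ℝ) * H) +ᵥ τ) = ζ ^ k * c τ := by
    intro k
    induction k with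
    | zero =>
      intro τ
      have : ((((0 : ℕ) : ℝ) * H) +ᵥ τ) = τ := by
        apply UpperHalfPlane.ext
        simp
      rw [this]; simp
    | succ k ih =>
      intro τ
      rw [vadd_nat_mul]
      have h1 := congrFun hζc (((k : ℝ) * H) +ᵥ τ)
      simp only [Pi.smul_apply, smul_eq_mul] at h1
      rw [h1, ih τ, pow_succ]
      ring
  rw [key n τ, hζ, one_mul]

/-- A holomorphic `n`-th root of a holomorphic `H`-periodic function which is meromorphic at `i∞`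
is `(n * H)`-periodic and meromorphic at `i∞`. -/
theorem isMeroPeriodic_of_pow {H : ℝ} {n : ℕ} (hn : 0 < n) {c A : ℍ → ℂ}
    (hc : MDiff c) (hA : H4.IsMeroPeriodic H A) (hcA : c ^ n = A) :
    H4.IsMeroPeriodic ((n : ℝ) * H) c := by
  refine ⟨hc, ?_, ?_⟩
  · exact H4.periodic_comp_ofComplex_iff.mpr
      (fun τ => vadd_nat_mul_eq_of_pow hn hc (fun τ => hA.vadd τ) hcA τ)
  · obtain ⟨M, hM⟩ := hA.exists_bdd
    refine ⟨M, ?_⟩
    rw [isBoundedAtImInfty_iff] at hM ⊢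
    obtain ⟨K, A0, hK⟩ := hM
    refine ⟨max 1 K, A0, fun τ hτ => ?_⟩
    have h1 := hK τ hτ
    have e : (H4.qFun H ^ M * A) τ = ((H4.qFun ((n : ℝ) * H) ^ M * c) τ) ^ n := by
      simp only [Pi.mul_apply, Pi.pow_apply]
      rw [mul_pow, ← pow_mul, mul_comm M n, pow_mul, H4.qFun_nat_mul_pow H hn.ne']
      congr 1
      have := congrFun hcA τ
      simp only [Pi.pow_apply] at this
      exact this.symm
    rw [e, norm_pow] at h1
    set x := ‖(H4.qFun ((n : ℝ) * H) ^ M * c) τ‖ with hx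
    by_cases hx1 : x ≤ 1
    · exact hx1.trans (le_max_left _ _)
    · rw [not_le] at hx1
      have h2 : x ≤ x ^ n := le_self_pow₀ hx1.le hn.ne'
      exact (h2.trans h1).trans (le_max_right _ _)

/-! ## Orders under change of period -/

lemma order_embDomain_mulEmb {d : ℕ} (hd : d ≠ 0) (x : LaurentSeries ℂ) :
    (HahnSeries.embDomain (H4.mulEmb d hd) x).order = (d : ℤ) * x.order := by
  by_cases hx : x = 0
  · simp [hx]
  have hx' : HahnSeries.embDomain (H4.mulEmb d hd) x ≠ 0 := by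
    intro h0
    apply hx
    have : x.coeff x.order = 0 := by
      rw [← HahnSeries.embDomain_coeff (f := H4.mulEmb d hd), h0, HahnSeries.coeff_zero]
    exact HahnSeries.coeff_order_eq_zero.mp this
  apply le_antisymm
  · apply HahnSeries.order_le_of_coeff_ne_zero
    rw [← H4.mulEmb_apply d hd, HahnSeries.embDomain_coeff]
    exact HahnSeries.coeff_order_eq_zero.not.mpr hx
  · have h1 : (HahnSeries.embDomain (H4.mulEmb d hd) x).coeff
        (HahnSeries.embDomain (H4.mulEmb d hd) x).order ≠ 0 :=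
      HahnSeries.coeff_order_eq_zero.not.mpr hx'
    by_cases hr : (HahnSeries.embDomain (H4.mulEmb d hd) x).order ∈ Set.range (H4.mulEmb d hd)
    · obtain ⟨m, hm⟩ := hr
      rw [← hm, HahnSeries.embDomain_coeff] at h1
      have h2 : x.order ≤ m := HahnSeries.order_le_of_coeff_ne_zero h1
      rw [← hm, H4.mulEmb_apply]
      exact mul_le_mul_of_nonneg_left h2 (by positivity)
    · exact absurd (HahnSeries.embDomain_of_notMem_range hr) h1

lemma order_qhExpansion_nat_mul {H : ℝ} (hH : 0 < H) {f : ℍ → ℂ} (hf : H4.IsMeroPeriodic H f)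
    {d : ℕ} (hd : d ≠ 0) :
    (H4.qhExpansion ((d : ℝ) * H) f).order = (d : ℤ) * (H4.qhExpansion H f).order := by
  rw [H4.qhExpansion_nat_mul hH hf hd, order_embDomain_mulEmb]

/-! ## The root version of LOCAL-par -/

/-- **(C4r) LOCAL-par, root version.** -/
theorem mul_div_dvd_order_sub_of_root {N h n : ℕ} (hN : 0 < N) (hh : 0 < h) (hhN : h ∣ N)
    (hn : 0 < n) {A B c : ℍ → ℂ} (hA : H4.IsMeroPeriodic (N : ℝ) A)
    (hB : H4.IsMeroPeriodic (N : ℝ) B) (hA0 : A ≠ 0) (hB0 : B ≠ 0) (hc : MDiff c)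
    (hcn : c ^ n = A * B ^ (n - 1))
    (hper : ∀ τ : ℍ, c ((h : ℝ) +ᵥ τ) * B τ = c τ * B ((h : ℝ) +ᵥ τ)) :
    ((n * (N / h) : ℕ) : ℤ) ∣
      (H4.qhExpansion (N : ℝ) A).order - (H4.qhExpansion (N : ℝ) B).order := by
  have hN' : (0 : ℝ) < (N : ℝ) := by exact_mod_cast hN
  have hnN' : (0 : ℝ) < (n : ℝ) * (N : ℝ) := by positivity
  have hEA : H4.qhExpansion (N : ℝ) A ≠ 0 :=
    fun h0 => hA0 ((H4.qhExpansion_eq_zero_iff hN' hA).mp h0)
  have hEB : H4.qhExpansion (N : ℝ) B ≠ 0 :=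
    fun h0 => hB0 ((H4.qhExpansion_eq_zero_iff hN' hB).mp h0)
  -- the `n`-th power of `c`
  have hP : H4.IsMeroPeriodic (N : ℝ) (A * B ^ (n - 1)) := hA.mul (hB.pow _)
  have hEP : H4.qhExpansion (N : ℝ) (A * B ^ (n - 1))
      = H4.qhExpansion (N : ℝ) A * H4.qhExpansion (N : ℝ) B ^ (n - 1) := by
    rw [H4.qhExpansion_mul hN' hA (hB.pow _), H4.qhExpansion_pow hN' hB]
  have hEP0 : H4.qhExpansion (N : ℝ) (A * B ^ (n - 1)) ≠ 0 := by
    rw [hEP]; exact mul_ne_zero hEA (pow_ne_zero _ hEB)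
  have hP0 : A * B ^ (n - 1) ≠ 0 := by
    intro h0
    apply hEP0
    rw [h0]; exact H4.qhExpansion_zero hN'
  have hc0 : c ≠ 0 := by
    intro h0
    apply hP0
    rw [← hcn, h0]
    exact zero_pow hn.ne'
  -- `c` and `B` for the period `n * N`
  have hcM : H4.IsMeroPeriodic ((n : ℝ) * (N : ℝ)) c := isMeroPeriodic_of_pow hn hc hP hcn
  have hBM : H4.IsMeroPeriodic ((n : ℝ) * (N : ℝ)) B := hB.nat_mul hn.ne'
  have h1 := qParam_zpow_order_sub_eq_one hnN' (h : ℝ) hcM hBM hc0 hB0 hper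
  have hprim : IsPrimitiveRoot (𝕢 ((n : ℝ) * (N : ℝ)) ((h : ℝ) : ℂ)) (n * (N / h)) := by
    have := isPrimitiveRoot_qParam (N := n * N) (h := h) (Nat.mul_pos hn hN) hh
      (Dvd.dvd.mul_left hhN n)
    rw [Nat.mul_div_assoc n hhN] at this
    rwa [Nat.cast_mul] at this
  have h2 := (hprim.zpow_eq_one_iff_dvd _).mp h1
  -- compute the orders for the period `n * N`
  have hoB : (H4.qhExpansion ((n : ℝ) * (N : ℝ)) B).order
      = (n : ℤ) * (H4.qhExpansion (N : ℝ) B).order := order_qhExpansion_nat_mul hN' hB hn.ne'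
  have hoc : (n : ℤ) * (H4.qhExpansion ((n : ℝ) * (N : ℝ)) c).order
      = (n : ℤ) * ((H4.qhExpansion (N : ℝ) A).order
          + ((n - 1 : ℕ) : ℤ) * (H4.qhExpansion (N : ℝ) B).order) := by
    have e1 : H4.qhExpansion ((n : ℝ) * (N : ℝ)) (c ^ n)
        = H4.qhExpansion ((n : ℝ) * (N : ℝ)) c ^ n := H4.qhExpansion_pow hnN' hcM n
    have e2 := order_qhExpansion_nat_mul hN' hP hn.ne'
    have e3 : H4.qhExpansion ((n : ℝ) * (N : ℝ)) (A * B ^ (n - 1))
        = H4.qhExpansion ((n : ℝ) * (N : ℝ)) c ^ n := by rw [← hcn]; exact e1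
    rw [e3, HahnSeries.order_pow, hEP, HahnSeries.order_mul hEA (pow_ne_zero _ hEB),
      HahnSeries.order_pow] at e2
    simpa [nsmul_eq_mul] using e2
  have hn' : (n : ℤ) ≠ 0 := by exact_mod_cast hn.ne'
  have hoc' := mul_left_cancel₀ hn' hoc
  have hcast : ((n - 1 : ℕ) : ℤ) = (n : ℤ) - 1 := by
    rw [Nat.cast_sub hn]; simp
  have e : (H4.qhExpansion ((n : ℝ) * (N : ℝ)) c).order
      - (H4.qhExpansion ((n : ℝ) * (N : ℝ)) B).order
      = (H4.qhExpansion (N : ℝ) A).order - (H4.qhExpansion (N : ℝ) B).order := by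
    rw [hoc', hoB, hcast]; ring
  rwa [e] at h2

/-- Consumer form: if the difference of the `q_N`-orders is `(N / h) * k` (the dictionary at a cusp
of width `h`), then `n ∣ k`. -/
theorem dvd_of_root_of_order_sub_eq {N h n : ℕ} (hN : 0 < N) (hh : 0 < h) (hhN : h ∣ N)
    (hn : 0 < n) {A B c : ℍ → ℂ} (hA : H4.IsMeroPeriodic (N : ℝ) A)
    (hB : H4.IsMeroPeriodic (N : ℝ) B) (hA0 : A ≠ 0) (hB0 : B ≠ 0) (hc : MDiff c)
    (hcn : c ^ n = A * B ^ (n - 1))
    (hper : ∀ τ : ℍ, c ((h : ℝ) +ᵥ τ) * B τ = c τ * B ((h : ℝ) +ᵥ τ)) {k : ℤ}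
    (hk : (H4.qhExpansion (N : ℝ) A).order - (H4.qhExpansion (N : ℝ) B).order
      = ((N / h : ℕ) : ℤ) * k) : (n : ℤ) ∣ k := by
  have h1 := mul_div_dvd_order_sub_of_root hN hh hhN hn hA hB hA0 hB0 hc hcn hper
  rw [hk, Nat.cast_mul, mul_comm (n : ℤ)] at h1
  have hd : ((N / h : ℕ) : ℤ) ≠ 0 := by
    have : 0 < N / h := Nat.div_pos (Nat.le_of_dvd hN hhN) hh
    exact_mod_cast this.ne'
  exact (mul_dvd_mul_iff_left hd).mp h1

end Fermat.Agent.S29.H32
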