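import Mathlib
import Fermat.Agent.S29.H72_DictTheta
import Fermat.Agent.S24.H95_CuspPlaces
import Fermat.Agent.S24.H95_EmbCuspJ
import Fermat.Agent.S24.H76_Cosets
import Fermat.Agent.S24.H46_Separable
import Fermat.Agent.S37.H8_FinDimL
import Fermat.Agent.RR.H52_FFInst

/-!
# S29 / (A5) DICT-CUSPS over `ℂ` (helper7)

The places of `FC N = ℂ(j(q^d) : d ∣ N)` over `j = ∞` are the cusps of `Γ₀(N)`:
every pole `v` of `jC N` is the `q`-order at `i∞` of the conjugate `ThetaC f ∘ γ⁻¹` for some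
`γ : SL(2,ℤ)`, with the exact multiplier `N / h`, `h` the width of the cusp `γ⁻¹ ∞`.
-/

set_option autoImplicit false
set_option linter.unusedSectionVars false
set_option linter.style.haveILetI false

open UpperHalfPlane AlgebraicCurve IntermediateField ModularGroup
open scoped Manifold MatrixGroups

noncomputable section

namespace Fermat.Agent.S29.H7

open Fermat.Agent.S24 Fermat.Agent.S24.H4 Fermat.Agent.S29.H72

variable (N : ℕ) [NeZero N]

/-- The order at the cusp `i∞` in the local parameter `q_N` (complex dictionary). -/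
def ordInfC (g : ℍ → ℂ) : ℤ := (qhExpansion (N : ℝ) g).order

theorem ordInfC_def (g : ℍ → ℂ) : ordInfC N g = (qhExpansion (N : ℝ) g).order := rfl

/-- (C1) every conjugate of `ThetaC f`, `f ∈ AC N`, is `N`-periodic and meromorphic at `i∞`. -/
theorem isMeroPeriodic_thetaConjC {f : FC N} (hf : f ∈ AC N) (γ : SL(2, ℤ)) :
    IsMeroPeriodic (N : ℝ) (thetaConjC N γ f) := by
  obtain ⟨C, M, hg⟩ := thetaConjC_growth N hf γ
  exact H95.isMeroPeriodic_of_growth (H95.natCast_pos_of_neZero N) (thetaConjC_mdiff N hf γ)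
    (thetaConjC_vadd N hf γ) (C := C) (B := 2 * Real.pi * M) (c := 1) hg

theorem isMeroPeriodic_thetaXCHom (x : H24.XN N) (f : AC N) :
    IsMeroPeriodic (N : ℝ) (thetaXCHom N x f) :=
  isMeroPeriodic_thetaConjC N f.2 (Quotient.out x)

/-- distinct cosets give distinct conjugates of `j_N`. -/
theorem thetaConjC_jdC_eq_iff (γ₁ γ₂ : SL(2, ℤ)) :
    thetaConjC N γ₁ (jdC N N dvd_rfl) = thetaConjC N γ₂ (jdC N N dvd_rfl) ↔
      γ₁⁻¹ * γ₂ ∈ CongruenceSubgroup.Gamma0 N := by
  have hN : 0 < N := Nat.pos_of_ne_zero (NeZero.ne N)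
  have key := H15.conj_eq_iff_mem_Gamma0 H28.J H28.J_smul H17.tendsto_qParam_mul_J N hN γ₁⁻¹ γ₂⁻¹
  rw [inv_inv] at key
  rw [← key]
  constructor
  · intro h τ
    have := congr_fun h τ
    rwa [thetaConjC_jdC, thetaConjC_jdC] at this
  · intro h
    funext τ
    rw [thetaConjC_jdC, thetaConjC_jdC]
    exact h τ

theorem thetaXC_jdC_injective :
    Function.Injective (fun x : H24.XN N => thetaXC N x (jdC N N dvd_rfl)) := by
  intro x y hxy
  obtain ⟨γ₁, rfl⟩ := QuotientGroup.mk_surjective x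
  obtain ⟨γ₂, rfl⟩ := QuotientGroup.mk_surjective y
  simp only at hxy
  rw [thetaXC_mk N (jdC_mem_AC N N dvd_rfl), thetaXC_mk N (jdC_mem_AC N N dvd_rfl),
    thetaConjC_jdC_eq_iff] at hxy
  exact QuotientGroup.eq.mpr hxy

theorem ordInfC_one : ordInfC N 1 = 0 := by
  rw [ordInfC, qhExpansion_one (H95.natCast_pos_of_neZero N)]
  exact HahnSeries.order_one

theorem ordInfC_J : ordInfC N H28.J = -(N : ℤ) := H95.order_qhExpansion_J N

/-- invariance of the order under `τ ↦ τ + 1` on the conjugate side. -/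
theorem ordInfC_trans {f : FC N} (hf : f ∈ AC N) (γ : SL(2, ℤ)) :
    ordInfC N (thetaConjC N (T * γ) f) = ordInfC N (thetaConjC N γ f) := by
  have h1 : thetaConjC N (T * γ) f = fun τ : ℍ => thetaConjC N γ f ((-1 : ℝ) +ᵥ τ) := by
    funext τ
    rw [thetaConjC_apply, thetaConjC_apply, mul_inv_rev, mul_smul, H95.neg_one_vadd_eq_T_inv_smul]
  rw [h1, ordInfC, ordInfC,
    H95.qhExpansion_vadd_order (H95.natCast_pos_of_neZero N) (isMeroPeriodic_thetaConjC N hf γ)]

/-! ### (C2) every pole of `j` is a cusp (unknown positive multiplier) -/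

/-- `jC N` (helper72) is helper8's `jL ℂ N`. -/
theorem jC_eq_jL : jC N = S37.H8.jL ℂ N := rfl

instance finiteDimensional_FC : FiniteDimensional ℂ⟮jC N⟯ (FC N) :=
  S37.H8.finiteDimensional_FL ℂ N

instance isSeparable_FC : Algebra.IsSeparable ℂ⟮jC N⟯ (FC N) :=
  H46.isSeparable_adjoin_of_charZero (K := ℂ) (jC N)

theorem transcendental_jC : Transcendental ℂ (jC N) := S37.H8.transcendental_jL ℂ N

theorem mem_adjoin_jC_of_mem {c : AC N}
    (hc : c ∈ Algebra.adjoin ℂ {(⟨jC N, jC_mem_AC N⟩ : AC N)}) :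
    (c : FC N) ∈ Algebra.adjoin ℂ {jC N} := by
  have h1 : (AC N).val c ∈ (Algebra.adjoin ℂ
      {(⟨jC N, jC_mem_AC N⟩ : AC N)}).map (AC N).val :=
    Subalgebra.mem_map.mpr ⟨c, hc, rfl⟩
  rw [AlgHom.map_adjoin, Set.image_singleton] at h1
  exact h1

/-- (C2) **every pole of `j` is a cusp**: the order at `v` is, up to a positive multiple, the
`q_N`-order at `i∞` of the conjugate by some `γ : SL(2,ℤ)`.  `hdeg` is the degree formula
`[FC N : ℂ(j)] = [SL(2,ℤ) : Γ₀(N)]`. -/
theorem place_cusp_C (hdeg : Module.finrank ℂ⟮jC N⟯ (FC N) = Nat.card (H24.XN N))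
    (v : Place ℂ (FC N)) (hv : v.ord (jC N) < 0) :
    ∃ γ : SL(2, ℤ), ∃ m : ℤ, 0 < m ∧
      ∀ f ∈ AC N, f ≠ 0 → ordInfC N (thetaConjC N γ f) = m * v.ord f := by
  have hcard : Fintype.card (H24.XN N) = Module.finrank ℂ⟮jC N⟯ (FC N) := by
    rw [hdeg, Nat.card_eq_fintype_card]
  obtain ⟨x, m, hm, hx⟩ := H95.exists_cusp_of_place (K := ℂ) (F := FC N) (AC N)
    (exists_div_AC N) (jC N) (jC_mem_AC N) hcard (RingHom.id ℂ)
    (H95.natCast_pos_of_neZero N) (fun x => thetaXCHom N x)
    (fun x f => isMeroPeriodic_thetaXCHom N x f)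
    (fun x => thetaXCHom_injective N x)
    (fun x c => by
      rw [thetaXCHom_apply]
      exact thetaConjC_algebraMap N (Quotient.out x) c)
    (fun x y c hc => by
      rw [thetaXCHom_apply, thetaXCHom_apply]
      have hc' : (c : FC N) ∈ Algebra.adjoin ℂ {jC N} := mem_adjoin_jC_of_mem N hc
      show thetaConjC N (Quotient.out x) c = thetaConjC N (Quotient.out y) c
      rw [thetaConjC_of_mem_adjoin_jC N hc', thetaConjC_of_mem_adjoin_jC N hc'])
    (fun x y hxy => by
      refine ⟨⟨jdC N N dvd_rfl, jdC_mem_AC N N dvd_rfl⟩, fun heq => hxy ?_⟩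
      exact thetaXC_jdC_injective N heq)
    (fun x => by
      have h1 : thetaXCHom N x ⟨jC N, jC_mem_AC N⟩ = H28.J := by
        rw [thetaXCHom_apply]
        exact thetaConjC_jC N (Quotient.out x)
      rw [h1, H95.order_qhExpansion_J N]
      have : (0 : ℤ) < N := by exact_mod_cast Nat.pos_of_ne_zero (NeZero.ne N)
      omega)
    v hv
  refine ⟨Quotient.out x, (m : ℤ), by exact_mod_cast hm, fun f hf hf0 => ?_⟩
  have := hx ⟨f, hf⟩ (fun h0 => hf0 (congrArg Subtype.val h0))
  exact this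

/-! ### (C3) the exact multiplier: the squeeze at the cusps -/

/-- The finite set of poles of `j`, with `∑ ord_v j = -[FC N : ℂ(j)]`. -/
theorem exists_poleSet :
    ∃ Z : Finset (Place ℂ (FC N)), (∀ v, v ∈ Z ↔ v.ord (jC N) < 0) ∧
      ∑ v ∈ Z, v.ord (jC N) = -(Module.finrank ℂ⟮jC N⟯ (FC N) : ℤ) := by
  have ht := transcendental_jC N
  have h := RR.H52.ffInputs (jC N) ht
  have hD : ∀ v, h.divPole (jC N) v = max (-v.ord (jC N)) 0 := h.divPole_apply (jC N)
  refine ⟨(h.divPole (jC N)).support, fun v => ?_, ?_⟩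
  · rw [Finsupp.mem_support_iff, hD]
    constructor
    · intro h1
      by_contra h2
      exact h1 (max_eq_right (by omega))
    · intro h1 h2
      have := le_max_left (-v.ord (jC N)) 0
      omega
  · have h1 := RR.H52.degree_divPole_eq (jC N) ht ht
    have h2 : Divisor.degree (h.divPole (jC N)) =
        ∑ v ∈ (h.divPole (jC N)).support, h.divPole (jC N) v * (v.deg : ℤ) := by
      simp [Divisor.degree, Finsupp.sum]
    rw [← h1, h2, ← Finset.sum_neg_distrib]
    refine Finset.sum_congr rfl fun v hv => ?_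
    rw [RR.H52.deg_eq_one (jC N) ht v, hD]
    rw [Finsupp.mem_support_iff, hD] at hv
    have : ¬ (-v.ord (jC N) ≤ 0) := fun h3 => hv (max_eq_right h3)
    rw [max_eq_left (by omega)]
    simp

end Fermat.Agent.S29.H7
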