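import Mathlib
import Fermat.Agent.S29.H7_CuspDict

/-!
# S29 / (A5) DICT-CUSPS over `ℂ`, part 2: exact multipliers (helper7)

The squeeze at the cusps: for every pole `v` of `jC N` there is `γ : SL(2,ℤ)` such that, with
`h` the width of the cusp (`= minimalPeriod` of `T` on the coset `γ Γ₀(N)`), `-v.ord j = h` and
`ord_{q_N} (ThetaC f ∘ γ⁻¹) = (N / h) * v.ord f`.  Conversely every `γ` arises.
-/

set_option autoImplicit false
set_option linter.unusedSectionVars false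
set_option linter.style.haveILetI false

open UpperHalfPlane AlgebraicCurve IntermediateField ModularGroup
open scoped Manifold MatrixGroups

noncomputable section

namespace Fermat.Agent.S29.H7

open Fermat.Agent.S24 Fermat.Agent.S24.H4 Fermat.Agent.S29.H72

variable (N : ℕ) [NeZero N]

/-- the width of the cusp `γ⁻¹ ∞` of `Γ₀(N)`: the size of the `T`-orbit of the coset `γ Γ₀(N)`. -/
def cuspWidth (γ : SL(2, ℤ)) : ℕ :=
  Function.minimalPeriod (H76.permXN N T) (QuotientGroup.mk γ : H76.XN N)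

theorem cuspWidth_pos (γ : SL(2, ℤ)) : 0 < cuspWidth N γ := by
  letI : Fintype (H76.XN N) := Fintype.ofFinite _
  exact H76.minimalPeriod_pos _ _

theorem cuspWidth_dvd (γ : SL(2, ℤ)) : cuspWidth N γ ∣ N := by
  apply Function.IsPeriodicPt.minimalPeriod_dvd
  show (H76.permXN N T : H76.XN N → H76.XN N)^[N] _ = _
  rw [← Equiv.Perm.coe_pow, H76.permXN_T_pow_N]; rfl

theorem conj_T_pow_cuspWidth_mem (γ : SL(2, ℤ)) :
    γ⁻¹ * T ^ cuspWidth N γ * γ ∈ CongruenceSubgroup.Gamma0 N :=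
  H76.conj_pow_minimalPeriod_mem T γ

/-- a function invariant under `γ⁻¹ T^k γ` has a `k`-periodic `γ`-conjugate. -/
theorem conj_vadd_of_invariant {Ψ : ℍ → ℂ} (γ : SL(2, ℤ)) (k : ℕ)
    (hΨ : ∀ τ : ℍ, Ψ ((γ⁻¹ * T ^ k * γ) • τ) = Ψ τ) (τ : ℍ) :
    Ψ (γ⁻¹ • ((k : ℝ) +ᵥ τ)) = Ψ (γ⁻¹ • τ) := by
  have h1 : ((k : ℝ) +ᵥ τ) = T ^ (k : ℤ) • τ := by
    rw [UpperHalfPlane.modular_T_zpow_smul]; simp
  rw [h1]
  have h2 : γ⁻¹ • (T ^ (k : ℤ) • τ) = (γ⁻¹ * T ^ k * γ) • (γ⁻¹ • τ) := by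
    rw [zpow_natCast]
    simp only [mul_smul, smul_inv_smul]
  rw [h2]
  exact hΨ _

theorem thetaConjC_vadd_of_conj_mem {f : FC N} (hf : f ∈ AC N) (γ : SL(2, ℤ)) (k : ℕ)
    (hk : γ⁻¹ * T ^ k * γ ∈ CongruenceSubgroup.Gamma0 N) (τ : ℍ) :
    thetaConjC N γ f ((k : ℝ) +ᵥ τ) = thetaConjC N γ f τ := by
  rw [thetaConjC_apply, thetaConjC_apply]
  exact conj_vadd_of_invariant γ k (fun τ => ThetaC_smul N hf hk τ) τ

/-- divisibility of the `q_N`-order by `N / k` for `k`-periodic conjugates. -/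
theorem ordInfC_dvd {f : FC N} (hf : f ∈ AC N) (γ : SL(2, ℤ)) (k : ℕ) (hkN : k ∣ N)
    (hk : γ⁻¹ * T ^ k * γ ∈ CongruenceSubgroup.Gamma0 N) :
    ((N / k : ℕ) : ℤ) ∣ ordInfC N (thetaConjC N γ f) := by
  have hN : 0 < N := Nat.pos_of_ne_zero (NeZero.ne N)
  have hk0 : 0 < k := Nat.pos_of_dvd_of_pos hkN hN
  exact H95.natCast_div_dvd_order_of_periodic hk0 hkN hN (isMeroPeriodic_thetaConjC N hf γ)
    (thetaConjC_vadd_of_conj_mem N hf γ k hk)

theorem ordInfC_thetaConjC_one (γ : SL(2, ℤ)) : ordInfC N (thetaConjC N γ 1) = 0 := by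
  have : thetaConjC N γ (1 : FC N) = 1 := by
    funext τ
    rw [thetaConjC_apply, ThetaC_one]
    rfl
  rw [this, ordInfC_one]

theorem ordInfC_thetaConjC_jC (γ : SL(2, ℤ)) : ordInfC N (thetaConjC N γ (jC N)) = -(N : ℤ) := by
  rw [thetaConjC_jC, ordInfC_J]

theorem ordInfC_mul_right {f : FC N} (hf : f ∈ AC N) (γ δ : SL(2, ℤ))
    (hδ : δ ∈ CongruenceSubgroup.Gamma0 N) :
    ordInfC N (thetaConjC N (γ * δ) f) = ordInfC N (thetaConjC N γ f) := by
  rw [thetaConjC_mul_right N hf γ hδ]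

/-- the `q_N`-order function attached to a coset. -/
def valX (x : H76.XN N) (f : FC N) : ℤ := ordInfC N (thetaXC N x f)

theorem valX_mk {f : FC N} (hf : f ∈ AC N) (γ : SL(2, ℤ)) :
    valX N (QuotientGroup.mk γ : H76.XN N) f = ordInfC N (thetaConjC N γ f) := by
  unfold valX
  rw [thetaXC_mk N hf γ]

theorem hfrac_AC (f : FC N) (hf : f ≠ 0) :
    ∃ p q : FC N, p ∈ (AC N : Set (FC N)) ∧ q ∈ (AC N : Set (FC N)) ∧ p ≠ 0 ∧ q ≠ 0 ∧
      f * q = p := by
  obtain ⟨a, ha, b, hb, hb0, rfl⟩ := exists_div_AC N f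
  refine ⟨a, b, ha, hb, ?_, hb0, div_mul_cancel₀ a hb0⟩
  rintro rfl
  exact hf (zero_div b)

/-- **The squeeze at the cusps.** -/
theorem squeeze_cusps (hdeg : Module.finrank ℂ⟮jC N⟯ (FC N) = Nat.card (H24.XN N)) :
    ∃ Z : Finset (Place ℂ (FC N)), (∀ v, v ∈ Z ↔ v.ord (jC N) < 0) ∧
      Z.card = Nat.card (H76.OrbQ (H76.permXN N T)) ∧
      ∀ v ∈ Z, ∃ x : H76.XN N,
        (∃ m : ℤ, 0 < m ∧ ∀ f ∈ (AC N : Set (FC N)), f ≠ 0 → valX N x f = m * v.ord f) ∧
        v.ord (jC N)⁻¹ = Function.minimalPeriod (H76.permXN N T) x := by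
  classical
  letI : Fintype (H76.XN N) := Fintype.ofFinite _
  obtain ⟨Z, hZ, hsum⟩ := exists_poleSet N
  have hN : 0 < N := Nat.pos_of_ne_zero (NeZero.ne N)
  have hj0 : jC N ≠ 0 := fun h => (transcendental_jC N) (h ▸ isAlgebraic_zero)
  have hord : ∀ v : Place ℂ (FC N), v.ord (jC N)⁻¹ = -v.ord (jC N) := fun v => v.ord_inv (jC N)
  have key := H76.squeeze_on (K := ℂ) (AC N : Set (FC N)) (hfrac_AC N) (jC N)⁻¹
    (H76.permXN N T) N hN H76.permXN_T_pow_N (valX N) Z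
    (fun v hv => by rw [hord]; have := (hZ v).mp hv; omega)
    (by
      simp_rw [hord]
      rw [Finset.sum_neg_distrib, hsum, neg_neg, hdeg, Nat.card_eq_fintype_card])
    (fun v hv => by
      obtain ⟨γ, m, hm, hγ⟩ := place_cusp_C N hdeg v ((hZ v).mp hv)
      exact ⟨QuotientGroup.mk γ, m, hm, fun f hfA hf0 => by
        rw [valX_mk N hfA, hγ f hfA hf0]⟩)
    (fun x f hfA hf0 => by
      induction x using QuotientGroup.induction_on with
      | H γ =>
        show valX N (T • (QuotientGroup.mk γ : H76.XN N)) f = valX N (QuotientGroup.mk γ) f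
        rw [H76.smul_mk_XN, valX_mk N hfA, valX_mk N hfA]
        exact ordInfC_trans N hfA γ)
    ⟨1, jC N, one_mem _, jC_mem_AC N, one_ne_zero, hj0, inv_mul_cancel₀ hj0, fun x => by
      induction x using QuotientGroup.induction_on with
      | H γ =>
        rw [valX_mk N (one_mem _), valX_mk N (jC_mem_AC N), ordInfC_thetaConjC_one,
          ordInfC_thetaConjC_jC]
        ring⟩
    (fun x f hfA hf0 => by
      induction x using QuotientGroup.induction_on with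
      | H γ =>
        rw [valX_mk N hfA]
        exact ordInfC_dvd N hfA γ _ (cuspWidth_dvd N γ) (conj_T_pow_cuspWidth_mem N γ))
  exact ⟨Z, hZ, key.1, key.2.2⟩

/-- from a proportionality `valX x = m * v.ord` and `-v.ord j = ` width, the multiplier is
`N / width`. -/
theorem multiplier_eq {v : Place ℂ (FC N)} {γ : SL(2, ℤ)} {m : ℤ}
    (hm : ∀ f ∈ (AC N : Set (FC N)), f ≠ 0 →
      valX N (QuotientGroup.mk γ : H76.XN N) f = m * v.ord f)
    (hw : v.ord (jC N)⁻¹ = cuspWidth N γ) : m = ((N / cuspWidth N γ : ℕ) : ℤ) := by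
  have hj0 : jC N ≠ 0 := fun h => (transcendental_jC N) (h ▸ isAlgebraic_zero)
  have h1 := hm (jC N) (jC_mem_AC N) hj0
  rw [valX_mk N (jC_mem_AC N), ordInfC_thetaConjC_jC] at h1
  rw [v.ord_inv] at hw
  have h2 : m * (cuspWidth N γ : ℤ) = N := by
    rw [← hw]; linarith
  obtain ⟨d, hd⟩ := cuspWidth_dvd N γ
  have hpos : 0 < cuspWidth N γ := cuspWidth_pos N γ
  have h3 : N / cuspWidth N γ = d := Nat.div_eq_of_eq_mul_right hpos hd
  rw [h3]
  have h4 : m * (cuspWidth N γ : ℤ) = (d : ℤ) * (cuspWidth N γ : ℤ) := by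
    rw [h2]
    have : (N : ℤ) = ((cuspWidth N γ * d : ℕ) : ℤ) := by rw [← hd]
    rw [this]
    push_cast
    ring
  exact mul_right_cancel₀ (by exact_mod_cast hpos.ne') h4

/-- (C3) **every pole of `j` is a cusp, with exact multiplier**: for a pole `v` of `jC N` there
is `γ : SL(2,ℤ)` such that `-v.ord j` is the width `h` of the cusp `γ⁻¹∞` and the `q_N`-order at
`i∞` of `ThetaC f ∘ γ⁻¹` is `(N / h) * v.ord f`, i.e. the `q_h`-order is `v.ord f`. -/
theorem exists_cusp_exact (hdeg : Module.finrank ℂ⟮jC N⟯ (FC N) = Nat.card (H24.XN N))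
    (v : Place ℂ (FC N)) (hv : v.ord (jC N) < 0) :
    ∃ γ : SL(2, ℤ), -v.ord (jC N) = cuspWidth N γ ∧
      ∀ f ∈ AC N, f ≠ 0 →
        ordInfC N (thetaConjC N γ f) = ((N / cuspWidth N γ : ℕ) : ℤ) * v.ord f := by
  obtain ⟨Z, hZ, -, hex⟩ := squeeze_cusps N hdeg
  obtain ⟨x, ⟨m, -, hm⟩, hw⟩ := hex v ((hZ v).mpr hv)
  obtain ⟨γ, rfl⟩ := QuotientGroup.mk_surjective x
  have hw' : v.ord (jC N)⁻¹ = cuspWidth N γ := hw
  refine ⟨γ, ?_, fun f hf hf0 => ?_⟩
  · rw [← hw', v.ord_inv]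
  · rw [← multiplier_eq N hm hw', ← valX_mk N hf]
    exact hm f hf hf0

/-- (C3), converse: **every cusp is a pole of `j`**. -/
theorem exists_place_of_cusp (hdeg : Module.finrank ℂ⟮jC N⟯ (FC N) = Nat.card (H24.XN N))
    (γ : SL(2, ℤ)) :
    ∃ v : Place ℂ (FC N), v.ord (jC N) < 0 ∧ -v.ord (jC N) = cuspWidth N γ ∧
      ∀ f ∈ AC N, f ≠ 0 →
        ordInfC N (thetaConjC N γ f) = ((N / cuspWidth N γ : ℕ) : ℤ) * v.ord f := by
  classical
  letI : Fintype (H76.XN N) := Fintype.ofFinite _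
  letI : Fintype (H76.OrbQ (H76.permXN N T)) := Fintype.ofFinite _
  obtain ⟨Z, hZ, hcard, hex⟩ := squeeze_cusps N hdeg
  choose! φ hφ hφw using hex
  -- invariance of `valX` along `T`-orbits
  have hinv : ∀ f ∈ (AC N : Set (FC N)), ∀ x : H76.XN N,
      valX N (H76.permXN N T x) f = valX N x f := by
    intro f hfA x
    induction x using QuotientGroup.induction_on with
    | H γ' =>
      show valX N (T • (QuotientGroup.mk γ' : H76.XN N)) f = valX N (QuotientGroup.mk γ') f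
      rw [H76.smul_mk_XN, valX_mk N hfA, valX_mk N hfA]
      exact ordInfC_trans N hfA γ'
  let ψ : {v // v ∈ Z} → H76.OrbQ (H76.permXN N T) := fun v => Quotient.mk'' (φ v.1)
  have hψinj : Function.Injective ψ := by
    intro v w hvw
    have horb : φ v.1 ∈ MulAction.orbit (Subgroup.zpowers (H76.permXN N T)) (φ w.1) :=
      Quotient.eq''.mp hvw
    obtain ⟨m, hm, hval⟩ := hφ v.1 v.2
    obtain ⟨m', hm', hval'⟩ := hφ w.1 w.2
    apply Subtype.ext
    apply H76.place_eq_of_ord_proportional hm hm'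
    intro f hf
    obtain ⟨p, q, hpA, hqA, hp0, hq0, hfq⟩ := hfrac_AC N f hf
    rw [H76.ord_eq_sub_of_mul_eq v.1 hf hq0 hfq, H76.ord_eq_sub_of_mul_eq w.1 hf hq0 hfq,
      mul_sub, mul_sub, ← hval p hpA hp0, ← hval' p hpA hp0, ← hval q hqA hq0,
      ← hval' q hqA hq0]
    rw [H76.eq_of_mem_orbit_of_invariant (H76.permXN N T) (fun x => valX N x p)
        (hinv p hpA) horb,
      H76.eq_of_mem_orbit_of_invariant (H76.permXN N T) (fun x => valX N x q)
        (hinv q hqA) horb]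
  have hψsurj : Function.Surjective ψ := by
    have hc : Fintype.card {v // v ∈ Z} = Fintype.card (H76.OrbQ (H76.permXN N T)) := by
      rw [Fintype.card_coe, hcard, Nat.card_eq_fintype_card]
    exact ((Fintype.bijective_iff_injective_and_card ψ).mpr ⟨hψinj, hc⟩).2
  obtain ⟨⟨v, hvZ⟩, hv⟩ := hψsurj (Quotient.mk'' (QuotientGroup.mk γ : H76.XN N))
  have horb : (QuotientGroup.mk γ : H76.XN N) ∈
      MulAction.orbit (Subgroup.zpowers (H76.permXN N T)) (φ v) :=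
    Quotient.eq''.mp hv.symm
  obtain ⟨m, hm, hval⟩ := hφ v hvZ
  have hval' : ∀ f ∈ (AC N : Set (FC N)), f ≠ 0 →
      valX N (QuotientGroup.mk γ : H76.XN N) f = m * v.ord f := by
    intro f hfA hf0
    rw [← hval f hfA hf0]
    exact H76.eq_of_mem_orbit_of_invariant (H76.permXN N T) (fun x => valX N x f)
      (hinv f hfA) horb
  have hw : v.ord (jC N)⁻¹ = cuspWidth N γ := by
    rw [hφw v hvZ]
    congr 1
    exact (H76.minimalPeriod_eq_of_mem_orbit (H76.permXN N T) horb).symm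
  refine ⟨v, (hZ v).mp hvZ, ?_, fun f hf hf0 => ?_⟩
  · rw [← hw, v.ord_inv]
  · rw [← multiplier_eq N hval' hw, ← valX_mk N hf]
    exact hval' f hf hf0

/-- (C3) for fractions: `F = a / b`, `a b ∈ AC N`. -/
theorem ordInfC_sub_eq {v : Place ℂ (FC N)} {γ : SL(2, ℤ)} {m : ℤ}
    (h : ∀ f ∈ AC N, f ≠ 0 → ordInfC N (thetaConjC N γ f) = m * v.ord f)
    {a b : FC N} (ha : a ∈ AC N) (hb : b ∈ AC N) (ha0 : a ≠ 0) (hb0 : b ≠ 0) :
    ordInfC N (thetaConjC N γ a) - ordInfC N (thetaConjC N γ b) = m * v.ord (a / b) := by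
  rw [h a ha ha0, h b hb hb0, div_eq_mul_inv, v.ord_mul ha0 (inv_ne_zero hb0), v.ord_inv]
  ring

end Fermat.Agent.S29.H7
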