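/-
S29 / Stage 3, KUMMER-INST: an element of `Mer = Frac Hol` whose `n`-th power is holomorphic is
holomorphic (`Hol` is "integrally closed for pure equations"); more generally an element of `Mer`
with nonnegative order everywhere is holomorphic.

* `exists_hol_of_merOrd_nonneg` ; `exists_hol_of_pow`.
-/
import Mathlib
import Fermat.Agent.S29.H85_MerAct
import Fermat.Agent.S29.H48_HolDiv

set_option autoImplicit false

open UpperHalfPlane
open scoped MatrixGroups Manifold

noncomputable section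

namespace Fermat.Agent.S29.H85

open Fermat.Agent.S24 Fermat.Agent.S24.H81 Fermat.Agent.S29

/-- `H81.Hol → H8.Hol` (same carrier). -/
def toH8 (a : Hol) : H8.Hol := ⟨(a : ℍ → ℂ), a.2⟩

theorem toH8_ne_zero {a : Hol} (ha : a ≠ 0) : toH8 a ≠ 0 := fun h =>
  ha (Subtype.ext (congrArg Subtype.val h))

theorem ordHol_toH8 (τ : ℍ) (a : Hol) : H8.ordHol τ (toH8 a) = (ordNat τ (a : ℍ → ℂ) : ℤ) := rfl

/-- An element of `Mer` without poles is holomorphic. -/
theorem exists_hol_of_merOrd_nonneg {x : Mer} (h : ∀ τ : ℍ, 0 ≤ merOrd τ x) :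
    ∃ ψ : Hol, x = algebraMap Hol Mer ψ := by
  obtain ⟨a, b, hb, rfl⟩ := exists_eq_div x
  by_cases ha : a = 0
  · exact ⟨0, by rw [ha, map_zero, zero_div]⟩
  have hord : ∀ τ : ℍ, H8.ordHol τ (toH8 b) ≤ H8.ordHol τ (toH8 a) := by
    intro τ
    have := h τ
    rw [merOrd_div τ ha hb] at this
    rw [ordHol_toH8, ordHol_toH8]
    omega
  obtain ⟨c, hc⟩ := H48.exists_mul_eq_of_ordHol_le (toH8_ne_zero ha) (toH8_ne_zero hb) hord
  refine ⟨⟨(c : ℍ → ℂ), c.2⟩, ?_⟩
  have hb' : algebraMap Hol Mer b ≠ 0 :=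
    (map_ne_zero_iff _ (IsFractionRing.injective Hol Mer)).mpr hb
  rw [div_eq_iff hb', ← map_mul]
  congr 1
  apply Subtype.ext
  have := congrArg (fun g : H8.Hol => (g : ℍ → ℂ)) hc
  exact this.symm

theorem merOrd_pow' (τ0 : ℍ) {x : Mer} (hx : x ≠ 0) (n : ℕ) :
    merOrd τ0 (x ^ n) = n * merOrd τ0 x := by
  induction n with
  | zero =>
    simp only [pow_zero, Nat.cast_zero, zero_mul]
    have h1 : (1 : Mer) ≠ 0 := one_ne_zero
    have := merOrd_mul τ0 h1 h1
    rw [one_mul] at this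
    omega
  | succ k ih =>
    rw [pow_succ, merOrd_mul τ0 (pow_ne_zero k hx) hx, ih]
    push_cast
    ring

/-- An element of `Mer` whose `n`-th power is holomorphic is holomorphic. -/
theorem exists_hol_of_pow {x : Mer} {n : ℕ} (hn : 0 < n) {g : Hol}
    (h : x ^ n = algebraMap Hol Mer g) : ∃ ψ : Hol, x = algebraMap Hol Mer ψ := by
  by_cases hx : x = 0
  · exact ⟨0, by rw [hx, map_zero]⟩
  apply exists_hol_of_merOrd_nonneg
  intro τ
  have hg : g ≠ 0 := by
    rintro rfl
    rw [map_zero] at h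
    exact hx (pow_eq_zero_iff hn.ne' |>.mp h)
  have h1 := merOrd_pow' τ hx n
  rw [h, merOrd_algebraMap τ hg] at h1
  have hn' : (0 : ℤ) < n := by exact_mod_cast hn
  by_contra hneg
  rw [not_le] at hneg
  have : (n : ℤ) * merOrd τ x < 0 := mul_neg_of_pos_of_neg hn' hneg
  omega

end Fermat.Agent.S29.H85
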