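/-
S29 / Stage 3, KUMMER-INST: from a Kummer function `Φ : Mer` (`Φ ∘ γ = χ(γ) Φ`, `Φ ^ n = toMer f`)
to the function-level data consumed by the cusp dictionary:

  `f = a / b` with `a, b ∈ AC N`, and a HOLOMORPHIC `ψ = Φ · Θ(b)` with
  `ψ ^ n = Θ(a) Θ(b)^(n-1)` and `ψ (γ τ) = χ(γ) ψ(τ)` for `γ ∈ Γ₀(N)`.
-/
import Mathlib
import Fermat.Agent.S29.H85_HolPow
import Fermat.Agent.S29.H72_DictMer

set_option autoImplicit false

open UpperHalfPlane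
open scoped MatrixGroups Manifold

noncomputable section

namespace Fermat.Agent.S29.H85

open Fermat.Agent.S24 Fermat.Agent.S24.H81 Fermat.Agent.S29 CongruenceSubgroup

variable (N : ℕ) [NeZero N]

theorem compHol_ThetaHol (γ : Gamma0 N) (b : H72.AC N) :
    compHol (γ : SL(2, ℤ)) (H72.ThetaHol N b) = H72.ThetaHol N b := by
  apply Subtype.ext
  funext τ
  rw [compHol_apply, H72.coe_ThetaHol]
  exact H72.ThetaC_smul N b.2 γ.2 τ

/-- **Holomorphic Kummer root.** -/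
theorem exists_holomorphic_kummer_root {n : ℕ} (hn : 0 < n) (χ : Gamma0 N →* ℂˣ) {Φ : Mer}
    (hΦ : Φ ≠ 0)
    (haut : ∀ γ : Gamma0 N, actMer (γ : SL(2, ℤ)) Φ = constMer ((χ γ : ℂˣ) : ℂ) * Φ)
    {f : H72.FC N} (hf : H72.toMer N f = Φ ^ n) :
    ∃ (a b : H72.AC N) (ψ : ℍ → ℂ), a ≠ 0 ∧ b ≠ 0 ∧ f = (a : H72.FC N) / (b : H72.FC N) ∧
      MDiff ψ ∧ ψ ≠ 0 ∧
      (∀ τ : ℍ, ψ τ ^ n = H72.ThetaC N a.1 τ * H72.ThetaC N b.1 τ ^ (n - 1)) ∧
      ∀ (γ : Gamma0 N) (τ : ℍ), ψ ((γ : SL(2, ℤ)) • τ) = ((χ γ : ℂˣ) : ℂ) * ψ τ := by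
  have hf0 : f ≠ 0 := by
    rintro rfl
    rw [map_zero] at hf
    exact pow_ne_zero n hΦ hf.symm
  obtain ⟨a, b, hb, rfl⟩ := H72.exists_div_AC' N f
  have ha : a ≠ 0 := by
    rintro rfl
    apply hf0
    simp
  have hb' : H72.ThetaHol N b ≠ 0 := H72.ThetaHol_ne_zero N hb
  have hbM : algebraMap Hol Mer (H72.ThetaHol N b) ≠ 0 := H72.algebraMap_hol_ne_zero hb'
  -- `Ψ = Φ · Θ(b)` has a holomorphic `n`-th power
  have hpow : (Φ * algebraMap Hol Mer (H72.ThetaHol N b)) ^ n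
      = algebraMap Hol Mer (H72.ThetaHol N a * H72.ThetaHol N b ^ (n - 1)) := by
    rw [mul_pow, ← hf, H72.toMer_div, map_mul, map_pow]
    obtain ⟨k, rfl⟩ : ∃ k, n = k + 1 := ⟨n - 1, by omega⟩
    rw [Nat.add_sub_cancel, pow_succ]
    field_simp
  obtain ⟨ψ, hψ⟩ := exists_hol_of_pow hn hpow
  have hψpow : ψ ^ n = H72.ThetaHol N a * H72.ThetaHol N b ^ (n - 1) := by
    apply IsFractionRing.injective Hol Mer
    rw [map_pow, ← hψ, hpow]
  have hψ0 : ψ ≠ 0 := by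
    rintro rfl
    rw [map_zero] at hψ
    exact mul_ne_zero hΦ hbM hψ
  refine ⟨a, b, (ψ : ℍ → ℂ), ha, hb, rfl, ψ.2, fun h => hψ0 (Subtype.ext h), fun τ => ?_,
    fun γ τ => ?_⟩
  · have := congrArg (fun g : Hol => (g : ℍ → ℂ) τ) hψpow
    simpa [H72.coe_ThetaHol] using this
  · have h1 : actMer (γ : SL(2, ℤ)) (algebraMap Hol Mer ψ)
        = constMer ((χ γ : ℂˣ) : ℂ) * algebraMap Hol Mer ψ := by
      rw [← hψ, map_mul, haut γ, actMer_algebraMap, compHol_ThetaHol]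
      ring
    rw [actMer_algebraMap, constMer_apply, ← map_mul] at h1
    have h2 := IsFractionRing.injective Hol Mer h1
    have := congrArg (fun g : Hol => (g : ℍ → ℂ) τ) h2
    simpa using this

end Fermat.Agent.S29.H85
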