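/-
S29 / Stage 3, KUMMER-INST (I7): the cusp half of (D5) is a THEOREM.

`cuspDvdHyp N hn : CuspDvdHyp N n` from helper7's cusp dictionary (C3) `H7.exists_cusp_exact`,
helper32's root version of LOCAL-par `H32.dvd_of_root_of_order_sub_eq` and the holomorphic Kummer
root `H85.exists_holomorphic_kummer_root`.  Consequently the concrete `KummerSetup` and the
Kummer–Poincaré map `lam0` are UNCONDITIONAL (`kummerSetupFinal`, `exists_lam0_final`).
-/
import Mathlib
import Fermat.Agent.S29.H85_KummerFinal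
import Fermat.Agent.S29.H85_CuspBridge
import Fermat.Agent.S29.H7_CuspExact
import Fermat.Agent.S29.H32_LocalParRoot

set_option autoImplicit false
set_option linter.unusedSectionVars false

open UpperHalfPlane AlgebraicCurve ModularCurve
open scoped MatrixGroups Manifold

noncomputable section

namespace Fermat.Agent.S29.H85

open Fermat.Agent Fermat.Agent.S24 Fermat.Agent.S24.H81 Fermat.Agent.S29 CongruenceSubgroup
open ModularCurve.Period

attribute [local instance] merAlgebra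

variable (N : ℕ) [NeZero N]

/-- **The cusp half of (D5).** -/
theorem cuspDvdHyp {n : ℕ} (hn : 0 < n) : CuspDvdHyp N n := by
  intro χ hχ Φ hΦ haut f hf v hv
  obtain ⟨a, b, ψ, ha, hb, rfl, hψmd, -, hψpow, hψaut⟩ :=
    exists_holomorphic_kummer_root N hn χ hΦ haut hf
  obtain ⟨γ, -, hord⟩ := H7.exists_cusp_exact N (H72.finrank_FC_eq_natCard N) v hv
  have hh : 0 < H7.cuspWidth N γ := H7.cuspWidth_pos N γ
  have hhN : H7.cuspWidth N γ ∣ N := H7.cuspWidth_dvd N γ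
  have hmem := H7.conj_T_pow_cuspWidth_mem N γ
  have ha' : (a : H72.FC N) ≠ 0 := fun h => ha (Subtype.ext h)
  have hb' : (b : H72.FC N) ≠ 0 := fun h => hb (Subtype.ext h)
  -- the character kills the parabolic element `γ⁻¹ T^h γ`
  have htr : (γ⁻¹ * ModularGroup.T ^ H7.cuspWidth N γ * γ) 0 0
      + (γ⁻¹ * ModularGroup.T ^ H7.cuspWidth N γ * γ) 1 1 = 2 := by
    have := trace_conj_T_zpow (H7.cuspWidth N γ : ℤ) γ⁻¹
    rwa [inv_inv, zpow_natCast] at this
  have hχ1 : χ ⟨_, hmem⟩ = 1 := apply_eq_one_of_trace hχ (γ := ⟨_, hmem⟩) (Or.inl htr)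
  have hψinv : ∀ τ : ℍ, ψ ((γ⁻¹ * ModularGroup.T ^ H7.cuspWidth N γ * γ) • τ) = ψ τ := by
    intro τ
    have := hψaut ⟨_, hmem⟩ τ
    rwa [hχ1, Units.val_one, one_mul] at this
  -- the data of helper32's lemma
  have hA := H7.isMeroPeriodic_thetaConjC N a.2 γ
  have hB := H7.isMeroPeriodic_thetaConjC N b.2 γ
  have hA0 : H72.thetaConjC N γ a.1 ≠ 0 := H72.thetaConjC_ne_zero N γ ha
  have hB0 : H72.thetaConjC N γ b.1 ≠ 0 := H72.thetaConjC_ne_zero N γ hb
  have hc : MDiff (fun τ : ℍ => ψ (γ⁻¹ • τ)) := (compHol γ⁻¹ ⟨ψ, hψmd⟩).2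
  have hcn : (fun τ : ℍ => ψ (γ⁻¹ • τ)) ^ n
      = H72.thetaConjC N γ a.1 * H72.thetaConjC N γ b.1 ^ (n - 1) := by
    funext τ
    simp only [Pi.pow_apply, Pi.mul_apply, H72.thetaConjC_apply]
    exact hψpow _
  have hper : ∀ τ : ℍ,
      (fun τ : ℍ => ψ (γ⁻¹ • τ)) ((H7.cuspWidth N γ : ℝ) +ᵥ τ) * H72.thetaConjC N γ b.1 τ
        = (fun τ : ℍ => ψ (γ⁻¹ • τ)) τ
          * H72.thetaConjC N γ b.1 ((H7.cuspWidth N γ : ℝ) +ᵥ τ) := by
    intro τ
    have h1 := H7.conj_vadd_of_invariant γ (H7.cuspWidth N γ) hψinv τ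
    have h2 := H7.thetaConjC_vadd_of_conj_mem N b.2 γ (H7.cuspWidth N γ) hmem τ
    simp only
    rw [h1, h2]
  have hk := H7.ordInfC_sub_eq N hord a.2 b.2 ha' hb'
  exact H32.dvd_of_root_of_order_sub_eq (Nat.pos_of_ne_zero (NeZero.ne N)) hh hhN hn hA hB hA0
    hB0 hc hcn hper hk

/-- **The concrete Kummer setup, unconditional.** -/
theorem kummerSetupFinal {n : ℕ} (hn : 0 < n) :
    H88.KummerSetup n (thetaAlg N) (actAlg N) admUnits (charX (Gamma0 N) n) :=
  kummerSetup' N hn (cuspDvdHyp N hn)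

/-- **The Kummer–Poincaré map on the lattice, unconditional**: additive, killed by `n`, with kernel
`n L`, computed by helper88's `lam`. -/
theorem exists_lam0_final {n : ℕ} (hn : 0 < n) :
    ∃ lam0 : parabolicHoms ℤ (Gamma0 N) ℤ →+ Pic0 ℂ (H72.FC N),
      (∀ x, (n : ℤ) • lam0 x = 0) ∧
      (∀ x, lam0 x = 0 → ∃ y : parabolicHoms ℤ (Gamma0 N) ℤ, x = (n : ℤ) • y) ∧
      ∀ x, lam0 x = (kummerSetupFinal N hn).lam hn (chiLat (Gamma0 N) n x) :=
  (kummerSetupFinal N hn).exists_lam_comp hn (chiLat (Gamma0 N) n)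
    (fun x => ∃ y : parabolicHoms ℤ (Gamma0 N) ℤ, x = (n : ℤ) • y)
    (fun x hx => (chiLat_eq_zero_iff_exists hn.ne' x).mp hx)

/-- `H80.KummerPoincare N n` from HECKE-EQUIV alone. -/
theorem kummerPoincare_final {n : ℕ} (hn : 0 < n)
    (hHE : ∀ lam0 : H80.Lat N →+ H80.JL ℂ N,
      (∀ x, lam0 x = (kummerSetupFinal N hn).lam hn (chiLat (Gamma0 N) n x)) →
      ∀ (ℓ : Nat.Primes) (x : H80.Lat N),
        lam0 (wLat N (H80.cohT N ℓ (wLat N x))) = H80.TL ℂ N ℓ (lam0 x)) :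
    H80.KummerPoincare N n :=
  kummerPoincare_of N hn (cuspDvdHyp N hn) hHE

end Fermat.Agent.S29.H85
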