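/-
S29 / Stage 3, final instantiation: the package `H80.KummerPoincare N n` is a THEOREM.

`kummerPoincare N hn : H80.KummerPoincare N n` for every level `N` and every `n ≥ 1`:
`lam := H65.lamW (H85.kummerSetupFinal N hn) hn`, clauses 1–2 by `H65.lamW_zsmul`,
`H65.lamW_eq_zero`, clause 3 by helper65's `H65.lamW_cohHecke` fed with

* `hin`   : helper8's `S37.H8.heckeInputsAlong_L ℂ N ℓ`;
* `D`     : `posDatum (cstDatum.comp (repDatum (outRep)))`, `hDop` by `H65.comp_repDatum_op`;
* `hAdm`  : helper72's `H72.heckeMer_comp_repDatum_mem_admUnits`;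
* `hnorm` : helper90's NORM-AN `H90.thetaC_heckeNorm_eq_prod_of_alpha` + `H65.heckeMer_val`.
-/
import Mathlib
import Fermat.Agent.S29.H85_CuspDvd
import Fermat.Agent.S29.H65_HeckeInst
import Fermat.Agent.S29.H65_Bridges
import Fermat.Agent.S29.H90_NormAnFinal
import Fermat.Agent.S29.H72_CuspScaleBridge
import Fermat.Agent.S29.H58_CohSupportPkg
import Fermat.Agent.S29.H80_Interface
import Fermat.Agent.S37.H8_FinDimL

set_option autoImplicit false
set_option linter.unusedSectionVars false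
set_option linter.style.haveILetI false

open UpperHalfPlane AlgebraicCurve ModularCurve
open scoped MatrixGroups Manifold

noncomputable section

namespace Fermat.Agent.S29.H85

open Fermat.Agent Fermat.Agent.S24 Fermat.Agent.S24.H81 Fermat.Agent.S29 CongruenceSubgroup
open ModularCurve.Period

attribute [local instance] merAlgebra

variable (N : ℕ) [NeZero N]

/-- `act γ` of the concrete Kummer setup is helper65's `actGL (glp N γ)`. -/
theorem actAlg_eq_actGL (γ : Gamma0 N) (x : Mer) :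
    actAlg N γ x = H65.actGL (H65.glp N γ) x := by
  rw [H65.glp_eq_slp, ← H65.actMer_eq]
  rfl

/-- **HECKE-EQUIV for the concrete Kummer setup.** -/
theorem lamW_cohT {n : ℕ} (hn : 0 < n) (ℓ : Nat.Primes) (x : H80.Lat N) :
    H65.lamW (kummerSetupFinal N hn) hn (H80.cohT N ℓ x)
      = H80.TL ℂ N ℓ (H65.lamW (kummerSetupFinal N hn) hn x) := by
  haveI : NeZero (ℓ : ℕ) := ⟨ℓ.2.ne_zero⟩
  letI : Fintype (Gamma0 N ⧸ (Gamma0 (N * ℓ)).subgroupOf (Gamma0 N)) := Fintype.ofFinite _
  have hrep := H90.isRepSystem_outRep_Gamma0 N ℓ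
  rw [← H58.cohHecke_heckeGen_eq_cohT]
  refine H65.lamW_cohHecke (kummerSetupFinal N hn) hn (fun c => rfl) (actAlg_eq_actGL N) ℓ
    (S37.H8.heckeInputsAlong_L ℂ N ℓ)
    (H65.posDatum ((S41.H65.cstDatum N ℓ.2.ne_zero).comp (H65.repDatum hrep))
      (H72.comp_repDatum_α_mem ℓ.2.ne_zero hrep))
    ?_ ?_ ?_ x
  · rw [H65.posDatum_op]
    exact H65.comp_repDatum_op (NeZero.ne N) ℓ ℓ.2 hrep
  · intro Φ hΦ
    exact H72.heckeMer_comp_repDatum_mem_admUnits ℓ.2.ne_zero hrep _ hΦ
  · intro f Φ hΦ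
    rw [H65.heckeMer_val]
    have key := H90.thetaC_heckeNorm_eq_prod_of_alpha hrep
      (Equiv.uniqueProd (Gamma0 N ⧸ (Gamma0 (N * ℓ)).subgroupOf (Gamma0 N)) Unit)
      (H65.posDatum ((S41.H65.cstDatum N ℓ.2.ne_zero).comp (H65.repDatum hrep))
        (H72.comp_repDatum_α_mem ℓ.2.ne_zero hrep)).α
      (fun i => Subtype.ext rfl) f
    rw [← hΦ]
    exact key

/-- **The Kummer–Poincaré package `H80.KummerPoincare N n`, unconditional.** -/
theorem kummerPoincare {n : ℕ} (hn : 0 < n) : H80.KummerPoincare N n :=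
  ⟨H65.lamW (kummerSetupFinal N hn) hn, H65.lamW_zsmul _ hn,
    fun _ hx => H65.lamW_eq_zero _ hn hx, lamW_cohT N hn⟩

end Fermat.Agent.S29.H85
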