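import Fermat.Agent.S29.H20_ConstExtDiv
import Fermat.Prelude.Def_AlgebraicCurve_BaseChangeGalois

/-!
# Constant field extension: the Galois action (package S29/E5, part 4)

A group `G` acts semilinearly on `F'/K`, fixing `ι F` pointwise, such that elements of `K` with
finite orbit lie in `k` and `G`-fixed elements of `F'` lie in `ι F`.

* `GaloisData.smul_ext` : places above places of `F` are fixed;
* `GaloisData.isRational_of_finite_orbit` : a place with finite orbit is rational;
* `GaloisData.baseChangePic0_injective`.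
-/

set_option autoImplicit false

noncomputable section

namespace Fermat.Agent.S29.H20

open AlgebraicCurve Fermat.Agent.S24

/-! ### the maximal ideal of a place, in terms of `ord` -/

section Vanishes

variable {K F : Type*} [Field K] [Field F] [Algebra K F]

/-- `x` lies in the maximal ideal of the place `w`. -/
def Vanishes (w : Place K F) (x : F) : Prop := x = 0 ∨ 0 < w.ord x

theorem Vanishes.add {w : Place K F} {x y : F} (hx : Vanishes w x) (hy : Vanishes w y) :
    Vanishes w (x + y) := by
  by_cases hxy : x + y = 0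
  · exact Or.inl hxy
  rcases hx with rfl | hx
  · rwa [zero_add]
  rcases hy with rfl | hy
  · rw [add_zero]; exact Or.inr hx
  refine Or.inr ?_
  have := H27.min_ord_le_ord_add w hxy
  exact lt_of_lt_of_le (lt_min hx hy) this

theorem Vanishes.neg {w : Place K F} {x : F} (hx : Vanishes w x) : Vanishes w (-x) := by
  rcases hx with rfl | hx
  · exact Or.inl neg_zero
  · exact Or.inr (by rw [H27.ord_neg]; exact hx)

theorem Vanishes.sub {w : Place K F} {x y : F} (hx : Vanishes w x) (hy : Vanishes w y) :
    Vanishes w (x - y) := by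
  rw [sub_eq_add_neg]
  exact hx.add hy.neg

theorem Vanishes.mul_left {w : Place K F} {x : F} (hx : Vanishes w x) {y : F}
    (hy : y = 0 ∨ 0 ≤ w.ord y) : Vanishes w (y * x) := by
  rcases hx with rfl | hx
  · exact Or.inl (mul_zero _)
  rcases hy with rfl | hy
  · exact Or.inl (zero_mul _)
  by_cases hy0 : y = 0
  · exact Or.inl (by rw [hy0, zero_mul])
  have hx0 : x ≠ 0 := by
    rintro rfl
    rw [Place.ord_zero] at hx
    exact lt_irrefl _ hx
  refine Or.inr ?_
  rw [w.ord_mul hy0 hx0]
  omega

theorem Vanishes.const_mul {w : Place K F} {x : F} (hx : Vanishes w x) (c : K) :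
    Vanishes w (algebraMap K F c * x) :=
  hx.mul_left (Or.inr (by rw [H27.ord_algebraMap]))

theorem vanishes_algebraMap_iff {w : Place K F} {c : K} :
    Vanishes w (algebraMap K F c) ↔ c = 0 := by
  constructor
  · rintro (h | h)
    · simpa using h
    · rw [H27.ord_algebraMap] at h
      exact absurd h (lt_irrefl _)
  · rintro rfl
    exact Or.inl (map_zero _)

/-- The residue of a function at a place is unique. -/
theorem Vanishes.residue_unique {w : Place K F} {x : F} {a b : K}
    (ha : Vanishes w (x - algebraMap K F a)) (hb : Vanishes w (x - algebraMap K F b)) :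
    a = b := by
  have h := hb.sub ha
  have h2 : x - algebraMap K F b - (x - algebraMap K F a) = algebraMap K F (a - b) := by
    rw [map_sub]; ring
  rw [h2, vanishes_algebraMap_iff] at h
  exact sub_eq_zero.mp h

theorem ConstExt.ResTriv.exists_vanishes {w : Place K F} (hw : ConstExt.ResTriv w) {x : F}
    (hx : x = 0 ∨ 0 ≤ w.ord x) : ∃ a : K, Vanishes w (x - algebraMap K F a) := by
  obtain ⟨c, hc⟩ := hw x ((H27.mem_toValuationSubring_iff w).mpr hx)
  refine ⟨c, ?_⟩
  rcases hc with hc | hc
  · exact Or.inl (sub_eq_zero.mpr hc)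
  · exact Or.inr hc

end Vanishes

/-! ### Galois data -/

variable {k K F F' : Type*} [Field k] [Field K] [Field F] [Field F']
  [Algebra k K] [Algebra k F] [Algebra K F']

/-- A semilinear group action on `F'/K` adapted to the constant field extension. -/
structure GaloisData (E : ConstExt k K F F') {G : Type*} [Group G]
    (ρ : G →* SemilinearAut K F') : Prop where
  fixes : ∀ (g : G) (f : F), ρ g • E.ι f = E.ι f
  base_of_finite_orbit : ∀ a : K,
    (Set.range fun g : G => SemilinearAut.baseAut (ρ g) a).Finite →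
      a ∈ Set.range (algebraMap k K)
  of_fixed : ∀ x : F', (∀ g : G, ρ g • x = x) → x ∈ Set.range E.ι

namespace GaloisData

open ConstExt

variable {E : ConstExt k K F F'} {G : Type*} [Group G] {ρ : G →* SemilinearAut K F'}

theorem vanishes_smul (g : G) {w : Place K F'} {x : F'} (hx : Vanishes w x) :
    Vanishes (ρ g • w) (ρ g • x) := by
  rcases hx with rfl | hx
  · exact Or.inl (smul_zero _)
  · exact Or.inr (by rw [SemilinearAut.ord_smul]; exact hx)

theorem ord_smul_place (g : G) (w : Place K F') (x : F') :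
    (ρ g • w).ord x = w.ord ((ρ g)⁻¹ • x) := by
  have h := SemilinearAut.ord_smul (ρ g) w ((ρ g)⁻¹ • x)
  rwa [smul_inv_smul] at h

/-- Places above places of `F` are fixed by `G`. -/
theorem smul_ext (hG : GaloisData E ρ) (h : E.DegOne) (g : G) (v : Place k F) :
    ρ g • ext h v = ext h v := by
  apply Lies.eq_ext h
  intro f
  have h1 := SemilinearAut.ord_smul (ρ g) (ext h v) (E.ι f)
  rw [hG.fixes] at h1
  rw [h1, ord_ext]

theorem smul_baseChangeDiv (hG : GaloisData E ρ) (h : E.DegOne) (g : G) (D : Divisor k F) :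
    ρ g • baseChangeDiv h D = baseChangeDiv h D := by
  induction D using Finsupp.induction with
  | zero => rw [map_zero, smul_zero]
  | single_add v n D _ _ ih =>
      rw [map_add, smul_add, ih, baseChangeDiv_single, SemilinearAut.smul_single,
        hG.smul_ext h]

theorem isRational_smul_iff (hG : GaloisData E ρ) (g : G) (w : Place K F') :
    E.IsRational (ρ g • w) ↔ E.IsRational w := by
  have key : ∀ f : F, (ρ g • w).ord (E.ι f) = w.ord (E.ι f) := by
    intro f
    have h1 := SemilinearAut.ord_smul (ρ g) w (E.ι f)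
    rwa [hG.fixes] at h1
  constructor
  · rintro ⟨f, hf⟩
    exact ⟨f, by rwa [← key f]⟩
  · rintro ⟨f, hf⟩
    exact ⟨f, by rwa [key f]⟩

/-- A place of `F'/K` with finite orbit is rational over `F`. -/
theorem isRational_of_finite_orbit (hG : GaloisData E ρ) (h : E.DegOne)
    (hnc : ∃ f : F, ∀ c : k, f ≠ algebraMap k F c) (w : Place K F')
    (hw : (Set.range fun g : G => ρ g • w).Finite) : E.IsRational w := by
  classical
  obtain ⟨f, hf⟩ := hnc
  by_contra hrat
  have hord : ∀ f' : F, w.ord (E.ι f') = 0 := ord_ι_eq_zero_of_not_isRational hrat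
  have hres : ResTriv w := resTriv_of_deg_eq_one w (h.deg_eq_one' w)
  obtain ⟨a, ha⟩ := hres.exists_vanishes (x := E.ι f) (Or.inr (by rw [hord f]))
  -- the orbit of `a` is finite
  have hfac : Function.FactorsThrough (fun g : G => SemilinearAut.baseAut (ρ g) a)
      (fun g : G => ρ g • w) := by
    intro g g' hgg'
    have h1 := vanishes_smul (ρ := ρ) g ha
    have h2 := vanishes_smul (ρ := ρ) g' ha
    simp only [smul_sub, hG.fixes, SemilinearAut.smul_algebraMap] at h1 h2
    have hgg'' : ρ g • w = ρ g' • w := hgg'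
    rw [hgg''] at h1
    exact h1.residue_unique h2
  obtain ⟨φ, hφ⟩ := (Function.factorsThrough_iff _).mp hfac
  have hfin : (Set.range fun g : G => SemilinearAut.baseAut (ρ g) a).Finite := by
    rw [hφ, Set.range_comp]
    exact hw.image φ
  obtain ⟨c, rfl⟩ := hG.base_of_finite_orbit a hfin
  rw [← E.map_algebraMap, ← map_sub] at ha
  rcases ha with ha | ha
  · have := E.ι_injective (ha.trans (map_zero _).symm)
    exact hf c (sub_eq_zero.mp this)
  · rw [hord] at ha
    exact lt_irrefl _ ha

/-- **Injectivity of base change** on divisor classes of degree zero. -/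
theorem baseChangePic0_injective (hG : GaloisData E ρ) (h : E.DegOne)
    (hconst : ∀ x : F', x ≠ 0 → (∀ w : Place K F', w.ord x = 0) →
      x ∈ Set.range (algebraMap K F'))
    (v₀ : Place k F) : Function.Injective (baseChangePic0 (E := E) h) := by
  rw [injective_iff_map_eq_zero]
  intro c hc
  obtain ⟨D, rfl⟩ := Pic0.mk_surjective c
  rw [baseChangePic0_mk, pic0_mk_eq_zero_iff, coe_baseChangeDegZero] at hc
  rw [pic0_mk_eq_zero_iff]
  obtain ⟨x, hx0, hx⟩ := hc
  set w₀ := ext h v₀ with hw₀
  obtain ⟨π, hπ0, hπ⟩ := H27.exists_ord_eq_one v₀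
  have hιπ0 : E.ι π ≠ 0 := E.ι_ne_zero hπ0
  have hιπ : w₀.ord (E.ι π) = 1 := by rw [hw₀, ord_ext, hπ]
  set m := w₀.ord x with hm
  have hz0 : E.ι π ^ (-m) ≠ 0 := zpow_ne_zero _ hιπ0
  set u := x * E.ι π ^ (-m) with hu
  have hu0 : u ≠ 0 := mul_ne_zero hx0 hz0
  have huord : w₀.ord u = 0 := by
    rw [hu, w₀.ord_mul hx0 hz0, w₀.ord_zpow, hιπ]
    ring
  have hres : ResTriv w₀ := resTriv_of_deg_eq_one w₀ (h.deg_eq_one' w₀)
  obtain ⟨a, ha⟩ := hres.exists_vanishes (x := u) (Or.inr (by rw [huord]))
  have ha0 : a ≠ 0 := by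
    rintro rfl
    rw [map_zero, sub_zero] at ha
    rcases ha with ha | ha
    · exact hu0 ha
    · rw [huord] at ha
      exact lt_irrefl _ ha
  have hA0 : algebraMap K F' a ≠ 0 := by simpa using ha0
  -- normalise
  set x' := x * (algebraMap K F' a)⁻¹ with hx'
  have hx'0 : x' ≠ 0 := mul_ne_zero hx0 (inv_ne_zero hA0)
  have hx'ord : ∀ w : Place K F', w.ord x' = baseChangeDiv h (D : Divisor k F) w := by
    intro w
    rw [hx', w.ord_mul hx0 (inv_ne_zero hA0), w.ord_inv, H27.ord_algebraMap, hx w]
    ring
  set u' := x' * E.ι π ^ (-m) with hu'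
  have hu'van : Vanishes w₀ (u' - 1) := by
    have h1 : u' - 1 = (algebraMap K F' a)⁻¹ * (u - algebraMap K F' a) := by
      rw [hu', hx', hu]
      field_simp
    rw [h1, ← map_inv₀]
    exact ha.const_mul _
  -- `x'` is fixed by `G`
  have hfix : ∀ g : G, ρ g • x' = x' := by
    intro g
    have hgx0 : ρ g • x' ≠ 0 := by
      intro h0
      apply hx'0
      have := congrArg (fun y => (ρ g)⁻¹ • y) h0
      simpa using this
    have hq0 : (ρ g • x') / x' ≠ 0 := div_ne_zero hgx0 hx'0
    have hqord : ∀ w : Place K F', w.ord ((ρ g • x') / x') = 0 := by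
      intro w
      rw [div_eq_mul_inv, w.ord_mul hgx0 (inv_ne_zero hx'0), w.ord_inv, hx'ord w]
      have h1 := SemilinearAut.ord_smul (ρ g) ((ρ g)⁻¹ • w) x'
      rw [smul_inv_smul] at h1
      rw [h1, hx'ord]
      have h2 := congrArg (fun D' : Divisor K F' => D' w) (hG.smul_baseChangeDiv h g (D : Divisor k F))
      simp only [SemilinearAut.divisor_smul_apply] at h2
      rw [h2]
      ring
    obtain ⟨c, hc⟩ := hconst _ hq0 hqord
    have hgx : ρ g • x' = algebraMap K F' c * x' := by
      rw [hc]
      field_simp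
    -- compute the residue of `c`
    have h1 := vanishes_smul (ρ := ρ) g hu'van
    rw [hG.smul_ext h] at h1
    have hz : ρ g • (E.ι π ^ (-m)) = E.ι π ^ (-m) := by
      rw [SemilinearAut.smul_def, map_zpow₀, ← SemilinearAut.smul_def, hG.fixes]
    have h2 : ρ g • (u' - 1) = algebraMap K F' c * u' - 1 := by
      rw [smul_sub, smul_one, hu', smul_mul', hz, hgx]
      ring
    rw [h2] at h1
    have h3 := h1.sub (hu'van.const_mul c)
    have h4 : algebraMap K F' c * u' - 1 - algebraMap K F' c * (u' - 1)
        = algebraMap K F' (c - 1) := by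
      rw [map_sub, map_one]; ring
    rw [h4, vanishes_algebraMap_iff] at h3
    rw [hgx, sub_eq_zero.mp h3, map_one, one_mul]
  obtain ⟨f₀, hf₀⟩ := hG.of_fixed x' hfix
  have hf₀0 : f₀ ≠ 0 := by
    rintro rfl
    rw [map_zero] at hf₀
    exact hx'0 hf₀.symm
  refine ⟨f₀, hf₀0, fun v => ?_⟩
  rw [← baseChangeDiv_ext h (D : Divisor k F) v, ← hx'ord, ← hf₀, ord_ext]

end GaloisData

end Fermat.Agent.S29.H20
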