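import Fermat.Agent.S29.H20_LaurentConstExt
import Fermat.Agent.S29.H20_ConstExtGalois
import Fermat.Agent.S23.H71_AutC
import Fermat.Prelude.Def_ModularCurve_ArithmeticGalois

/-!
# The Galois data of `laurentBaseChange k F₀ ⊆ laurentBaseChange K F₀` (package S29/E5, part 8)

For algebraically closed fields `k ⊆ K` of characteristic zero, the group `K ≃ₐ[k] K` acts
coefficientwise on `laurentBaseChange K F₀` (prelude: `arithmeticGalois`), and this action
satisfies the axioms `GaloisData`.
-/

set_option autoImplicit false
set_option linter.unusedSectionVars false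

noncomputable section

namespace Fermat.Agent.S29.H20

open ModularCurve HahnSeries AlgebraicCurve

variable {k K : Type*} [Field k] [Field K] [Algebra ℚ k] [Algebra ℚ K] [Algebra k K]

theorem isScalarTower_rat : IsScalarTower ℚ k K :=
  IsScalarTower.of_algebraMap_eq fun x =>
    RingHom.congr_fun (Subsingleton.elim (algebraMap ℚ K) ((algebraMap k K).comp (algebraMap ℚ k))) x

variable (k K) in
/-- Restriction of scalars `(K ≃ₐ[k] K) →* (K ≃ₐ[ℚ] K)`. -/
def restrictRatHom : (K ≃ₐ[k] K) →* (K ≃ₐ[ℚ] K) :=
  haveI := isScalarTower_rat (k := k) (K := K)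
  { toFun := fun σ => σ.restrictScalars ℚ
    map_one' := rfl
    map_mul' := fun _ _ => rfl }

@[simp]
theorem restrictRatHom_apply (σ : K ≃ₐ[k] K) (x : K) : restrictRatHom k K σ x = σ x := rfl

variable (F₀ : IntermediateField ℚ (LaurentSeries ℚ))

variable (k K) in
/-- The coefficientwise action of `K ≃ₐ[k] K` on `laurentBaseChange K F₀`. -/
def laurentGalois : (K ≃ₐ[k] K) →* SemilinearAut K (laurentBaseChange K F₀) :=
  (arithmeticGalois F₀).comp (restrictRatHom k K)

theorem coe_laurentGalois_smul (σ : K ≃ₐ[k] K) (x : laurentBaseChange K F₀) :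
    ((laurentGalois k K F₀ σ • x : laurentBaseChange K F₀) : LaurentSeries K)
      = coeffMap ((restrictRatHom k K σ : K ≃ₐ[ℚ] K) : K →+* K) (x : LaurentSeries K) := rfl

theorem coeff_laurentGalois_smul (σ : K ≃ₐ[k] K) (x : laurentBaseChange K F₀) (n : ℤ) :
    ((laurentGalois k K F₀ σ • x : laurentBaseChange K F₀) : LaurentSeries K).coeff n
      = σ ((x : LaurentSeries K).coeff n) := rfl

theorem baseAut_laurentGalois (σ : K ≃ₐ[k] K) (a : K) :
    SemilinearAut.baseAut (laurentGalois k K F₀ σ) a = σ a := rfl

/-! ### elements with finite orbit -/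

theorem mem_range_of_isIntegral [IsAlgClosed k] {a : K} (ha : IsIntegral k a) :
    a ∈ Set.range (algebraMap k K) := by
  have h : (minpoly k a).degree = 1 :=
    IsAlgClosed.degree_eq_one_of_irreducible k (minpoly.irreducible ha)
  exact minpoly.degree_eq_one_iff.mp h

open MvPolynomial in
/-- A transcendental element can be translated by an automorphism. -/
theorem exists_algEquiv_add_nat [IsAlgClosed K] {a : K} (ha : Transcendental k a) (n : ℕ) :
    ∃ σ : K ≃ₐ[k] K, σ a = a + n := by
  classical
  have hs : AlgebraicIndepOn k id ({a} : Set K) := by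
    have : AlgebraicIndependent k (fun i : ({a} : Set K) => (i : K)) :=
      (algebraicIndependent_singleton_iff (R := k) (x := fun i : ({a} : Set K) => (i : K))
        ⟨a, rfl⟩).2 ha
    exact this
  obtain ⟨t, hat, ht⟩ := exists_isTranscendenceBasis_superset hs
  have hat' : a ∈ t := hat rfl
  let i₀ : t := ⟨a, hat'⟩
  obtain ⟨σ, hσ⟩ := S23.H71.exists_ringEquiv_of_mvPolynomial_equiv (R := k) ((↑) : t → K) ht
    (S23.H71.shiftEquiv (fun i => if i = i₀ then (n : k) else 0)).toRingEquiv
  have hcomm : ∀ c : k, σ (algebraMap k K c) = algebraMap k K c := by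
    intro c
    have := hσ (C c)
    simpa [S23.H71.shiftEquiv] using this
  refine ⟨AlgEquiv.ofRingEquiv (f := σ) hcomm, ?_⟩
  have := hσ (X i₀)
  simp only [aeval_X] at this
  show σ a = a + n
  rw [show ((i₀ : t) : K) = a from rfl] at this
  rw [this]
  simp [S23.H71.shiftEquiv, i₀]

/-- An element of `K` with finite orbit under `K ≃ₐ[k] K` lies in `k`. -/
theorem mem_range_of_finite_orbit [IsAlgClosed k] [IsAlgClosed K] [CharZero K] (a : K)
    (ha : (Set.range fun σ : K ≃ₐ[k] K => σ a).Finite) : a ∈ Set.range (algebraMap k K) := by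
  by_contra hna
  have htr : Transcendental k a := fun halg => hna (mem_range_of_isIntegral halg.isIntegral)
  choose σ hσ using fun n : ℕ => exists_algEquiv_add_nat htr n
  have hinj : Function.Injective fun n : ℕ => a + (n : K) := fun n m h => by
    have : (n : K) = m := add_left_cancel h
    exact_mod_cast this
  have hinf : (Set.range fun n : ℕ => a + (n : K)).Infinite := Set.infinite_range_of_injective hinj
  apply hinf
  refine ha.subset ?_
  rintro _ ⟨n, rfl⟩
  exact ⟨σ n, hσ n⟩

/-! ### fixed elements -/

/-- Descent of coefficients: a series in `laurentBaseChange K F₀` all of whose coefficients lie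
in `k` comes from `laurentBaseChange k F₀`. -/
theorem mem_range_laurentι_of_coeff (x : laurentBaseChange K F₀)
    (hx : ∀ n : ℤ, (x : LaurentSeries K).coeff n ∈ Set.range (algebraMap k K)) :
    x ∈ Set.range (laurentι (k := k) (K := K) F₀) := by
  classical
  -- the series over `k`
  let r : ZeroHom K k :=
    { toFun := Function.invFun (algebraMap k K)
      map_zero' := by
        have h := Function.leftInverse_invFun (algebraMap k K).injective (0 : k)
        rwa [map_zero] at h }
  have hr : ∀ c : k, r (algebraMap k K c) = c :=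
    Function.leftInverse_invFun (algebraMap k K).injective
  set y : LaurentSeries k := (x : LaurentSeries K).map r with hy
  have hxy : coeffIncl k K y = (x : LaurentSeries K) := by
    ext n
    obtain ⟨c, hc⟩ := hx n
    rw [coeffIncl_coeff, hy, HahnSeries.map_coeff, ← hc, hr]
  -- it suffices to show `y ∈ laurentBaseChange k F₀`
  suffices hmem : y ∈ laurentBaseChange k F₀ from ⟨⟨y, hmem⟩, Subtype.ext hxy⟩
  by_cases hx0 : x = 0
  · have : y = 0 := by
      apply coeffIncl_injective (k := k) (K := K)
      rw [hxy, hx0, map_zero]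
      rfl
    rw [this]
    exact zero_mem _
  let E := laurentConstExt (k := k) (K := K) F₀
  obtain ⟨A, hA, B, hB, hB0, hAB⟩ := E.gen x
  have hB' : B ∈ Submodule.span K
      (E.ι '' (((⊤ : Submodule k (laurentBaseChange k F₀)) : Set (laurentBaseChange k F₀)))) := by
    simpa using hB
  have hA' : A ∈ Submodule.span K
      (E.ι '' (((⊤ : Submodule k (laurentBaseChange k F₀)) : Set (laurentBaseChange k F₀)))) := by
    simpa using hA
  obtain ⟨n, b, h, hb, -, hBeq⟩ := E.exists_normalForm ⊤ hB'
  obtain ⟨m, a, g, -, -, hAeq⟩ := E.exists_normalForm ⊤ hA'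
  -- some `h j₀` is nonzero
  obtain ⟨j₀, hj₀⟩ : ∃ j, h j ≠ 0 := by
    by_contra hcon
    push Not at hcon
    apply hB0
    rw [hBeq]
    exact Finset.sum_eq_zero fun i _ => by rw [hcon i, map_zero, mul_zero]
  -- a `k`-linear functional picking out the coefficient of `b j₀`
  obtain ⟨lam, hlam⟩ : ∃ lam : K →ₗ[k] k, ∀ j, lam (b j) = if j = j₀ then 1 else 0 := by
    let f : Submodule.span k (Set.range b) →ₗ[k] k :=
      (Finsupp.lapply j₀).comp hb.repr
    obtain ⟨lam, hlam⟩ := LinearMap.exists_extend f
    refine ⟨lam, fun j => ?_⟩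
    have h1 := LinearMap.congr_fun hlam ⟨b j, Submodule.subset_span (Set.mem_range_self j)⟩
    simp only [LinearMap.coe_comp, Function.comp_apply, Submodule.coe_subtype] at h1
    rw [h1]
    show (hb.repr ⟨b j, _⟩) j₀ = _
    rw [hb.repr_eq_single j ⟨b j, _⟩ rfl, Finsupp.single_apply]
  -- apply `lam` coefficientwise to `x * B = A`
  have hcoef : ∀ N : ℤ, ((y * (h j₀ : LaurentSeries k)).coeff N)
      = (∑ i, algebraMap k (LaurentSeries k) (lam (a i)) * (g i : LaurentSeries k)).coeff N := by
    intro N
    have h1 := congrArg (fun z : laurentBaseChange K F₀ => lam ((z : LaurentSeries K).coeff N))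
      hAB
    simp only [MulMemClass.coe_mul] at h1
    rw [hBeq, hAeq] at h1
    simp only [AddSubmonoidClass.coe_finsetSum, MulMemClass.coe_mul, Finset.mul_sum,
      HahnSeries.coeff_sum, map_sum] at h1
    have hL : ∀ j : Fin n, lam (((x : LaurentSeries K) *
        (((algebraMap K (laurentBaseChange K F₀) (b j) : laurentBaseChange K F₀) :
          LaurentSeries K) * ((E.ι (h j) : laurentBaseChange K F₀) : LaurentSeries K))).coeff N)
        = lam (b j) * (y * (h j : LaurentSeries k)).coeff N := by
      intro j
      have e1 : (x : LaurentSeries K) *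
          (((algebraMap K (laurentBaseChange K F₀) (b j) : laurentBaseChange K F₀) :
            LaurentSeries K) * ((E.ι (h j) : laurentBaseChange K F₀) : LaurentSeries K))
          = algebraMap K (LaurentSeries K) (b j) *
            coeffIncl k K (y * (h j : LaurentSeries k)) := by
        rw [map_mul, hxy]
        show (x : LaurentSeries K) * (algebraMap K (LaurentSeries K) (b j) *
          coeffIncl k K (h j : LaurentSeries k)) = _
        ring
      rw [e1, coeff_algebraMap_mul, coeffIncl_coeff, mul_comm (b j), ← Algebra.smul_def,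
        map_smul, smul_eq_mul, mul_comm]
    have hR : ∀ i : Fin m, lam ((((algebraMap K (laurentBaseChange K F₀) (a i) :
        laurentBaseChange K F₀) : LaurentSeries K) *
          ((E.ι (g i) : laurentBaseChange K F₀) : LaurentSeries K)).coeff N)
        = lam (a i) * ((g i : LaurentSeries k)).coeff N := by
      intro i
      have e1 : ((algebraMap K (laurentBaseChange K F₀) (a i) : laurentBaseChange K F₀) :
          LaurentSeries K) * ((E.ι (g i) : laurentBaseChange K F₀) : LaurentSeries K)
          = algebraMap K (LaurentSeries K) (a i) * coeffIncl k K (g i : LaurentSeries k) := rfl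
      rw [e1, coeff_algebraMap_mul, coeffIncl_coeff, mul_comm (a i), ← Algebra.smul_def,
        map_smul, smul_eq_mul, mul_comm]
    simp only [hL, hR, hlam] at h1
    rw [Finset.sum_eq_single j₀ (fun j _ hj => by rw [if_neg hj, zero_mul])
      (fun hj => absurd (Finset.mem_univ _) hj), if_pos rfl, one_mul] at h1
    rw [h1, HahnSeries.coeff_sum]
    refine Finset.sum_congr rfl fun i _ => ?_
    rw [coeff_algebraMap_mul]
  have hprod : y * (h j₀ : LaurentSeries k)
      = ∑ i, algebraMap k (LaurentSeries k) (lam (a i)) * (g i : LaurentSeries k) :=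
    HahnSeries.ext (funext hcoef)
  have hprod_mem : y * (h j₀ : LaurentSeries k) ∈ laurentBaseChange k F₀ := by
    rw [hprod]
    refine sum_mem fun i _ => ?_
    exact mul_mem ((laurentBaseChange k F₀).algebraMap_mem _) (g i).2
  have hj₀' : ((h j₀ : laurentBaseChange k F₀) : LaurentSeries k) ≠ 0 := fun h0 =>
    hj₀ (Subtype.ext h0)
  have : y = (y * (h j₀ : LaurentSeries k)) * ((h j₀ : LaurentSeries k))⁻¹ := by
    rw [mul_assoc, mul_inv_cancel₀ hj₀', mul_one]
  rw [this]
  exact mul_mem hprod_mem (inv_mem (h j₀).2)

/-- **The Galois data** of the Laurent constant field extension. -/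
theorem laurentGaloisData [IsAlgClosed k] [IsAlgClosed K] [CharZero K] :
    GaloisData (laurentConstExt (k := k) (K := K) F₀) (laurentGalois k K F₀) where
  fixes σ f := by
    apply Subtype.ext
    ext n
    rw [coeff_laurentGalois_smul]
    show σ ((coeffIncl k K (f : LaurentSeries k)).coeff n) = (coeffIncl k K _).coeff n
    rw [coeffIncl_coeff, σ.commutes]
  base_of_finite_orbit a ha := mem_range_of_finite_orbit a ha
  of_fixed x hx := by
    apply mem_range_laurentι_of_coeff
    intro n
    apply mem_range_of_finite_orbit
    have : (Set.range fun σ : K ≃ₐ[k] K => σ ((x : LaurentSeries K).coeff n))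
        = {(x : LaurentSeries K).coeff n} := by
      ext z
      constructor
      · rintro ⟨σ, rfl⟩
        have := congrArg (fun y : laurentBaseChange K F₀ => (y : LaurentSeries K).coeff n) (hx σ)
        simp only [coeff_laurentGalois_smul] at this
        exact this
      · rintro rfl
        exact ⟨1, rfl⟩
    rw [this]
    exact Set.finite_singleton _

end Fermat.Agent.S29.H20
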