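import Mathlib
import Fermat.Prelude.Def_GaloisRep_Residual
import Fermat.Prelude.Def_FreyPackage_EigenformResidualAttachment
import Fermat.Agent.S13.H84_Struct
import Fermat.Agent.S13.H32_Mink

/-!
# S29 / E6b (helper66): the frozen statement S42 follows from the frozen statement S29

`s42_of_s29`: if every normalised weight-2 eigenform has attached residual representations
(statement S29), then `EigenformResidualAttachmentAt M` holds for every Frey package and every
level `M > 0` (statement S42).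

Given `g` and a maximal ideal `𝔪` of `ℤ̄` over `p`: `K := ℤ̄ ⧸ 𝔪`, `ψ` the quotient map, `ρ` the
representation of S29 over `K`; trace and determinant are read off from the characteristic
polynomial `X² - ψ(a_ℓ) X + ℓ`; the finite Galois level `F` is the normal closure of the compositum
of the level of `ρ` and the field of definition of the `p`-torsion of the Frey curve.
-/

set_option autoImplicit false

open Polynomial

namespace Fermat.Agent.S29.H66

local notation "Qb" => AlgebraicClosure ℚ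

section LinearAlgebra

variable {K : Type*} [Field K] {V : Type*} [AddCommGroup V] [Module K V] [Module.Finite K V]

/-- trace of an endomorphism of a `2`-dimensional space from its characteristic polynomial. -/
theorem trace_eq_of_charpoly_eq (h2 : Module.finrank K V = 2) (f : Module.End K V) (t d : K)
    (hf : LinearMap.charpoly f = X ^ 2 - C t * X + C d) : LinearMap.trace K V f = t := by
  let b := Module.finBasis K V
  have hcard : Fintype.card (Fin (Module.finrank K V)) = 2 := by rw [Fintype.card_fin, h2]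
  have hne : Nonempty (Fin (Module.finrank K V)) := by
    rw [h2]; exact ⟨0⟩
  rw [LinearMap.trace_eq_matrix_trace K b f, Matrix.trace_eq_neg_charpoly_coeff,
    LinearMap.charpoly_toMatrix, hf, hcard]
  simp [coeff_C]

/-- determinant of an endomorphism of a `2`-dimensional space from its characteristic
polynomial. -/
theorem det_eq_of_charpoly_eq (h2 : Module.finrank K V = 2) (f : Module.End K V) (t d : K)
    (hf : LinearMap.charpoly f = X ^ 2 - C t * X + C d) : LinearMap.det f = d := by
  rw [LinearMap.det_eq_sign_charpoly_coeff, h2, hf]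
  simp [coeff_X, coeff_C]

end LinearAlgebra

section Level

/-- an automorphism in the kernel of `restrictNormalHom F` fixes the image of `F`. -/
theorem apply_algebraMap_of_mem_ker {F : Type*} [Field F] [Algebra ℚ F] [Algebra F Qb]
    [IsScalarTower ℚ F Qb] [Normal ℚ F] (σ : Qb ≃ₐ[ℚ] Qb)
    (h : σ ∈ (AlgEquiv.restrictNormalHom (F := ℚ) (K₁ := Qb) F).ker) (x : F) :
    σ (algebraMap F Qb x) = algebraMap F Qb x := by
  rw [MonoidHom.mem_ker] at h
  have h1 := AlgEquiv.restrictNormal_commutes σ F x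
  rw [← h1]
  congr 1
  exact DFunLike.congr_fun h x

/-- every finite-dimensional intermediate field of `ℚ̄/ℚ` is contained in a finite Galois level,
in the shape of the frozen statement S42. -/
theorem exists_galois_level (L : IntermediateField ℚ Qb) (hL : FiniteDimensional ℚ L) :
    ∃ (F : Type) (_ : Field F) (_ : NumberField F) (_ : IsGalois ℚ F)
      (_ : Algebra F Qb) (_ : IsScalarTower ℚ F Qb),
      ∀ σ : Qb ≃ₐ[ℚ] Qb, σ ∈ (AlgEquiv.restrictNormalHom (F := ℚ) (K₁ := Qb) F).ker →
        ∀ x ∈ L, σ x = x := by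
  have hQc : IsAlgClosure ℚ Qb := AlgebraicClosure.instIsAlgClosure ℚ
  have hQb : IsGalois ℚ Qb := IsAlgClosure.isGalois ℚ Qb
  let E : IntermediateField ℚ Qb := IntermediateField.normalClosure ℚ L Qb
  have hEfin : FiniteDimensional ℚ E := normalClosure.is_finiteDimensional ℚ L Qb
  have hEgal : IsGalois ℚ E := IsGalois.normalClosure ℚ L Qb
  have hnf : NumberField E := { to_charZero := inferInstance, to_finiteDimensional := hEfin }
  have halg : (DivisionRing.toRatAlgebra : Algebra ℚ E) = E.algebra' := Subsingleton.elim _ _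
  refine ⟨E, inferInstance, hnf, ?_, inferInstance, ?_, ?_⟩
  · convert hEgal
  · convert (inferInstance : IsScalarTower ℚ E Qb)
  · intro σ hσ x hx
    have hxE : x ∈ E := IntermediateField.le_normalClosure L hx
    exact apply_algebraMap_of_mem_ker σ hσ ⟨x, hxE⟩

end Level

open WeierstrassCurve WeierstrassCurve.Affine WeierstrassCurve.Affine.Point in
/-- **S42 from S29**: the frozen statement S42 follows from the frozen statement S29. -/
theorem s42_of_s29
    (hS29 : ∀ {N : ℕ} {g : CuspForm (CongruenceSubgroup.Gamma0 N) 2}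
      (_ : g.IsNormalizedEigenform) {p : ℕ} (_ : p.Prime) {k : Type} [Field k] [CharP k p]
      (φ : integralClosure ℤ ℂ →+* k),
      ∃ ρ : ResidualGaloisRep k, ρ.IsAttachedTo g φ ∧
        ∀ ℓ : ℕ, ℓ.Prime → ¬ ℓ ∣ N * p → ρ.IsUnramifiedAt ℓ)
    (P : FreyPackage) : ∀ M : ℕ, 0 < M → P.EigenformResidualAttachmentAt M := by
  intro M _ g hg 𝔪 hmax hp𝔪
  let iK : Field (integralClosure ℤ ℂ ⧸ 𝔪) := Ideal.Quotient.field 𝔪
  let K : Type := integralClosure ℤ ℂ ⧸ 𝔪
  let ψ : integralClosure ℤ ℂ →+* K := Ideal.Quotient.mk 𝔪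
  have hpK : ((P.p : ℕ) : K) = 0 := by
    have h : ψ (P.p : integralClosure ℤ ℂ) = 0 := Ideal.Quotient.eq_zero_iff_mem.2 hp𝔪
    rwa [map_natCast] at h
  have iChar : CharP K P.p := (CharP.charP_iff_prime_eq_zero P.pp).2 hpK
  obtain ⟨ρ, hatt, -⟩ := hS29 hg P.pp ψ
  -- the Galois level
  have hfin : Finite (Submodule.torsionBy ℤ (P.freyCurve⁄Qb).Point P.p) :=
    Fermat.Agent.S13.H84.frey_finite P
  obtain ⟨L1, hL1, hfix1⟩ :=
    @Fermat.Agent.S13.H32.exists_finiteDimensional_fixing_torsion P.freyCurve P.p hfin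
  obtain ⟨L2, hL2, hfix2⟩ := ρ.factorsThroughFiniteLevel
  obtain ⟨F, iF, iNF, iGal, iAlg, iST, hF⟩ :=
    exists_galois_level (L1 ⊔ L2) (@IntermediateField.finiteDimensional_sup _ _ _ _ _ L1 L2 hL1 hL2)
  have hℓK : ∀ ℓ : ℕ, ℓ.Prime → ℓ ≠ P.p → ((ℓ : ℕ) : K) ≠ 0 := by
    intro ℓ hℓ hℓp h0
    rw [CharP.cast_eq_zero_iff K P.p] at h0
    exact hℓp ((Nat.prime_dvd_prime_iff_eq P.pp hℓ).1 h0).symm
  refine ⟨K, inferInstance, ZMod.algebra K P.p, ρ.V, inferInstance, inferInstance, ρ.ρ, ψ,
    F, iF, iNF, iGal, iAlg, iST, ?_, ρ.finrank_eq, ?_, ?_, ?_⟩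
  · rw [Ideal.mk_ker]
  · intro σ hσ
    have h := hF σ hσ
    refine ⟨?_, ?_⟩
    · apply (MonoidHom.mem_ker (f := galoisRepModuleEnd ℚ (P.freyCurve : Affine ℚ) P.p)).2
      ext x
      have hx := hfix1 σ (fun y => h y.1 (le_sup_left (a := L1) (b := L2) y.2)) x
      exact congrArg Subtype.val hx
    · apply (MonoidHom.mem_ker (f := ρ.ρ)).2
      exact hfix2 σ (fun y hy => h y (le_sup_right (a := L1) (b := L2) hy))
  · intro ℓ hℓ hℓM hℓp A hA τ hτ
    obtain ⟨a, ha, hchar⟩ := hatt ℓ hℓ hℓM (hℓK ℓ hℓ hℓp) A hA τ hτ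
    exact ⟨a, ha, trace_eq_of_charpoly_eq ρ.finrank_eq _ _ _ hchar⟩
  · intro ℓ hℓ hℓM hℓp A hA τ hτ
    obtain ⟨a, -, hchar⟩ := hatt ℓ hℓ hℓM (hℓK ℓ hℓ hℓp) A hA τ hτ
    exact det_eq_of_charpoly_eq ρ.finrank_eq _ _ _ hchar

end Fermat.Agent.S29.H66
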