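/-
Stage 3 (project S29) : combined exports (general `n ≥ 1`), owner helper80.

From the two package statements of `H80_Interface` (`KummerPoincare N n`, `BaseChangeDescent N n`)
we derive, for ARBITRARY `n` (no primality):

* `exists_lam_JZero_of` : an additive map `lam : Lat N → J₀(N)(ℚ̄)` killed by `n`, injective modulo
  `n`, equivariant for the cohomological Hecke operators `cohT N ℓ` on the lattice and the prelude
  operators `heckeOperatorBar N ℓ` on `JZero N` (all primes `ℓ`).  This is the form consumed by
  S30/S31 (Tate module) at `n = p ^ k`;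
* `finite_torsion_JZero_of` : finiteness of `J₀(N)(ℚ̄)[n]` from the finiteness over `ℂ`;
* `eigenformSupportAt_of_exports` : (T0) for primes `p` from (T1) and the two packages, with
  COH-SUPPORT (helper58) discharged.
-/
import Mathlib
import Fermat.Agent.S29.H80_Interface
import Fermat.Agent.S29.H58_CohSupportPkg

set_option autoImplicit false

noncomputable section

namespace Fermat.Agent.S29.H80

open ModularCurve AlgebraicCurve ModularCurve.Period CongruenceSubgroup

/-- The combined map `bc⁻¹ ∘ lam : Lat N → JZero N` for general `n`. -/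
theorem exists_lam_JZero_of (N n : ℕ) [NeZero N] (hK : KummerPoincare N n)
    (hB : BaseChangeDescent N n) :
    ∃ lam : Lat N →+ JZero N,
      (∀ x : Lat N, (n : ℤ) • lam x = 0) ∧
      (∀ x : Lat N, lam x = 0 → ∃ y : Lat N, x = (n : ℤ) • y) ∧
      ∀ (ℓ : Nat.Primes) (x : Lat N), lam (cohT N ℓ x) = heckeOperatorBar N ℓ (lam x) := by
  obtain ⟨lamC, h1, h2, h3⟩ := hK
  obtain ⟨bc, b1, b2, b3⟩ := hB
  choose g hg using fun x => b3 (lamC x) (h1 x)
  let lam : Lat N →+ JZero N :=
    { toFun := g
      map_zero' := b1 (by rw [hg, map_zero, map_zero])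
      map_add' := fun x y => b1 (by rw [hg, map_add, map_add, hg, hg]) }
  have hlam : ∀ x, bc (lam x) = lamC x := hg
  refine ⟨lam, fun x => ?_, fun x hx => ?_, fun ℓ x => ?_⟩
  · apply b1
    rw [map_zsmul, hlam, h1, map_zero]
  · apply h2
    rw [← hlam, hx, map_zero]
  · apply b1
    rw [hlam, heckeOperatorBar_eq_TL, b2, hlam]
    exact h3 ℓ x

/-- Finiteness of the `n`-torsion of `J₀(N)(ℚ̄)` from the finiteness over `ℂ` and an injective
additive map. -/
theorem finite_torsion_JZero_of (N n : ℕ) [NeZero N]
    (bc : JZero N →+ JL ℂ N) (hbc : Function.Injective bc)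
    (hfin : Finite {y : JL ℂ N // (n : ℤ) • y = 0}) :
    Finite {x : JZero N // (n : ℤ) • x = 0} := by
  let f : {x : JZero N // (n : ℤ) • x = 0} → {y : JL ℂ N // (n : ℤ) • y = 0} :=
    fun x => ⟨bc x.1, by rw [← map_zsmul, x.2, map_zero]⟩
  have hf : Function.Injective f := by
    intro x y hxy
    apply Subtype.ext
    apply hbc
    exact congrArg Subtype.val hxy
  exact Finite.of_injective f hf

/-- (T0) from (T1) and the two analytic packages; COH-SUPPORT is helper58's theorem. -/
theorem eigenformSupportAt_of_exports (N p : ℕ) [NeZero N] [Fact p.Prime]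
    (hcomm : HeckeOperatorsCommuteBar N)
    (hK : KummerPoincare N p) (hB : BaseChangeDescent N p) :
    letI := heckeModuleBar N
    EigenformSupportAt N p (JZero N) :=
  eigenformSupportAt_of_packages N p hcomm hK hB (H58.cohSupport N p)

end Fermat.Agent.S29.H80
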