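/-
S29 / S42: the final chain, compile-checked against the frozen shape of S37 and the Stage-3
interface `H80_Interface` / `H80_Combined`.

* `s29_of_stages` : frozen S37 (as a hypothesis) + (T1) + `KummerPoincare` + `BaseChangeDescent`
  ⟹ the frozen S29 statement.
* `s42_of_stages` : the same inputs ⟹ the frozen S42 statement.

So `Fermat/Agent/S29.lean` is
`H66.s29_of_stages (fun N p _ hc => Fermat.Agent.S37.result N p hc) T1 kummerPoincare baseChangeDescent hg hp φ`.
-/
import Mathlib
import Fermat.Agent.S29.H66_S29Final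
import Fermat.Agent.S29.H66_S42Wrap
import Fermat.Agent.S29.H80_Combined

set_option autoImplicit false

open CongruenceSubgroup ModularFormClass ModularCurve

namespace Fermat.Agent.S29.H66

/-- **Frozen S29** from the frozen S37 statement, (T1), and the two Stage-3 packages. -/
theorem s29_of_stages
    (h37 : ∀ (N p : ℕ) [NeZero N] (_ : ModularCurve.HeckeOperatorsCommuteBar N),
      letI := ModularCurve.heckeModuleBar N
      ∀ (_ : SMulCommClass (AlgebraicClosure ℚ ≃ₐ[ℚ] AlgebraicClosure ℚ) ModularCurve.HeckeAlg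
        (ModularCurve.JZero N)),
        ModularCurve.SpecializationExists (K := ℚ) (L := AlgebraicClosure ℚ) N p
          (ModularCurve.JZero N))
    (hT1 : ∀ (N : ℕ) [NeZero N], HeckeOperatorsCommuteBar N)
    (hK : ∀ (N p : ℕ) [NeZero N], p.Prime → H80.KummerPoincare N p)
    (hB : ∀ (N p : ℕ) [NeZero N], p.Prime → H80.BaseChangeDescent N p)
    {N : ℕ} {g : CuspForm (CongruenceSubgroup.Gamma0 N) 2} (hg : g.IsNormalizedEigenform)
    {p : ℕ} (hp : p.Prime) {k : Type} [Field k] [CharP k p]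
    (φ : integralClosure ℤ ℂ →+* k) :
    ∃ ρ : ResidualGaloisRep k, ρ.IsAttachedTo g φ ∧
      ∀ ℓ : ℕ, ℓ.Prime → ¬ ℓ ∣ N * p → ρ.IsUnramifiedAt ℓ :=
  s29_of_inputs
    (fun N p _ _ => h37 N p (hT1 N) (Fermat.Agent.S29.H28.smulCommClass_heckeModuleBar N))
    (fun N p _ hp =>
      haveI : Fact p.Prime := ⟨hp⟩
      H80.eigenformSupportAt_of_exports N p (hT1 N) (hK N p hp) (hB N p hp)) hg hp φ

/-- **Frozen S42** from the same inputs. -/
theorem s42_of_stages
    (h37 : ∀ (N p : ℕ) [NeZero N] (_ : ModularCurve.HeckeOperatorsCommuteBar N),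
      letI := ModularCurve.heckeModuleBar N
      ∀ (_ : SMulCommClass (AlgebraicClosure ℚ ≃ₐ[ℚ] AlgebraicClosure ℚ) ModularCurve.HeckeAlg
        (ModularCurve.JZero N)),
        ModularCurve.SpecializationExists (K := ℚ) (L := AlgebraicClosure ℚ) N p
          (ModularCurve.JZero N))
    (hT1 : ∀ (N : ℕ) [NeZero N], HeckeOperatorsCommuteBar N)
    (hK : ∀ (N p : ℕ) [NeZero N], p.Prime → H80.KummerPoincare N p)
    (hB : ∀ (N p : ℕ) [NeZero N], p.Prime → H80.BaseChangeDescent N p)
    (P : FreyPackage) : ∀ M : ℕ, 0 < M → P.EigenformResidualAttachmentAt M :=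
  s42_of_s29 (fun hg _ hp _ _ _ φ => s29_of_stages h37 hT1 hK hB hg hp φ) P

end Fermat.Agent.S29.H66
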