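import Mathlib
import Fermat.Agent.S37.H8_FinDimL
import Fermat.Agent.S29.H74_FFBankL

/-!
# S29 / (A6): the function-field bank over `ℂ` (and over any `L ⊇ ℚ`), unconditionally

With helper8's `finiteDimensional_FL` (a global instance of `S37/H8_FinDimL`) every statement of
`H74_FFBankL` holds without hypotheses.  This file is the one-stop import: it re-exports the
unconditional forms as instances / named theorems, and fixes the names `FC M`, `jC M` over `ℂ`.
-/

set_option autoImplicit false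

namespace Fermat.Agent.S29.H74

open AlgebraicCurve IntermediateField Fermat.Agent.RR Fermat.Agent.S37.H8

section Generic

variable (L : Type*) [Field L] [Algebra ℚ L] (M : ℕ) [NeZero M]

/-- Principal divisors exist on `FL L M`, for every field `L ⊇ ℚ`. -/
instance instHasPrincipalDivisorsFL : HasPrincipalDivisors L (FL L M) :=
  hasPrincipalDivisors_FL' L M

theorem ffBase_FL_uncond : H76.FFBase L (FL L M) := ffBase_FL L M

theorem finite_ord_ne_zero_FL_uncond {f : FL L M} (hf : f ≠ 0) :
    {v : Place L (FL L M) | v.ord f ≠ 0}.Finite := finite_ord_ne_zero_FL L M hf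

theorem deg_eq_one_FL_uncond [IsAlgClosed L] (v : Place L (FL L M)) : v.deg = 1 :=
  deg_eq_one_FL' L M v

theorem eq_algebraMap_of_forall_ord_eq_zero_uncond [IsAlgClosed L] {f : FL L M}
    (h : ∀ v : Place L (FL L M), v.ord f = 0) : ∃ a : L, f = algebraMap L (FL L M) a :=
  eq_algebraMap_of_forall_ord_eq_zero L M h

end Generic

section Complex

variable (M : ℕ) [NeZero M]

/-- The function field of `X₀(M)` over `ℂ`. -/
abbrev FC : Type := FL ℂ M

/-- `j ∈ FC M`. -/
noncomputable abbrev jC : FC M := jL ℂ M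

theorem transcendental_jC : Transcendental ℂ (jC M) := transcendental_jL ℂ M

theorem finiteDimensional_FC : FiniteDimensional ℂ⟮jC M⟯ (FC M) := finiteDimensional_FL ℂ M

theorem hasPrincipalDivisors_FC : HasPrincipalDivisors ℂ (FC M) := inferInstance

theorem deg_eq_one_FC (v : Place ℂ (FC M)) : v.deg = 1 := deg_eq_one_FL' ℂ M v

theorem finite_ord_ne_zero_FC {f : FC M} (hf : f ≠ 0) :
    {v : Place ℂ (FC M) | v.ord f ≠ 0}.Finite := finite_ord_ne_zero_FL ℂ M hf

/-- A function on `X₀(M)_ℂ` without zeros and poles is constant. -/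
theorem eq_algebraMap_of_forall_ord_eq_zero_FC {f : FC M}
    (h : ∀ v : Place ℂ (FC M), v.ord f = 0) : ∃ a : ℂ, f = algebraMap ℂ (FC M) a :=
  eq_algebraMap_of_forall_ord_eq_zero ℂ M h

theorem eq_const_mul_of_ord_eq_FC {f g : FC M} (hf : f ≠ 0) (hg : g ≠ 0)
    (h : ∀ v : Place ℂ (FC M), v.ord f = v.ord g) :
    ∃ a : ℂ, a ≠ 0 ∧ f = algebraMap ℂ (FC M) a * g :=
  eq_const_mul_of_ord_eq ℂ M hf hg h

theorem degree_eq_sum_FC (D : Divisor ℂ (FC M)) : Divisor.degree D = D.sum fun _ n => n :=
  degree_eq_sum_FL ℂ M D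

theorem degree_divFL_FC (f : FC M) : Divisor.degree (divFL ℂ M f) = 0 := degree_divFL ℂ M f

theorem ffBase_FC : H76.FFBase ℂ (FC M) := ffBase_FL ℂ M

theorem ell_zero_eq_one_FC : H76.ell (0 : Divisor ℂ (FC M)) = 1 := ell_zero_eq_one_FL ℂ M

theorem heckeInputsAlong_FC (N ℓ : ℕ) [NeZero N] [NeZero ℓ] :
    ModularCurve.HeckeInputsAlong ℂ N ℓ := heckeInputsAlong_L ℂ N ℓ

end Complex

end Fermat.Agent.S29.H74
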