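import Mathlib
import Fermat.Prelude.Def_AlgebraicCurve_DivisorClassGroup

/-!
# S29 / Stage 3 / FIN : finiteness of the `n`-torsion of `Pic⁰` by Kummer theory (abstract core)

`K ⊆ F` a function field, `Theta : F →+* M` a realisation of `F` inside a field `M` of
"meromorphic functions" on which a (finitely generated) group `Gam` acts, `Theta F` consisting of
invariant functions.  Hypotheses:

* `hroot`  : every `f ≠ 0` all of whose orders are divisible by `n` has an `n`-th root in `M`;
* `himage` : an invariant `Ψ : M` with `Ψ ^ n ∈ Theta F` lies in `Theta F`;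
* `hS`     : a finite set `S ⊆ Gam` such that invariance under `S` implies invariance under `Gam`.

Then `Pic⁰ K F [n]` is finite: it injects into the finite set `S → μ_n(M)` through the "Kummer
character" `γ ↦ (Φ ∘ γ) / Φ`, `Φ ^ n = Theta f`, `div f = n D`.

* `finite_torsion_of_kummer` : the abstract theorem.
* `exists_finset_forall_fixed` : for a finitely generated group acting (on either side) the set `S`
  exists.
* `gamma0_fg` : `Γ₀(N)` is finitely generated.
-/

set_option autoImplicit false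

open AlgebraicCurve

namespace Fermat.Agent.S29.H58

section Abstract

variable {K F M : Type*} [Field K] [Field F] [Algebra K F] [Field M] {Gam : Type*}

/-- the `n`-th roots of unity of a field form a finite set. -/
theorem finite_setOf_pow_eq_one (M : Type*) [Field M] {n : ℕ} (hn : 0 < n) :
    {ζ : M | ζ ^ n = 1}.Finite := by
  classical
  have h : {ζ : M | ζ ^ n = 1} = ((Polynomial.nthRoots n (1 : M)).toFinset : Set M) := by
    ext ζ
    simp [Polynomial.mem_nthRoots hn]
  rw [h]
  exact Finset.finite_toSet _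

/-- **FIN, abstract core.**  The `n`-torsion of `Pic⁰ K F` is finite as soon as `n`-th roots exist
in a field `M ⊇ Theta F` with a `Gam`-action, invariant `n`-th roots of elements of `Theta F` lie in
`Theta F`, and invariance can be tested on a finite set `S ⊆ Gam`. -/
theorem finite_torsion_of_kummer (Theta : F →+* M) (act : Gam → M →+* M) {n : ℕ} (hn : 0 < n)
    (hinv : ∀ (γ : Gam) (f : F), act γ (Theta f) = Theta f)
    (hroot : ∀ f : F, f ≠ 0 → (∀ v : Place K F, (n : ℤ) ∣ v.ord f) → ∃ Φ : M, Φ ^ n = Theta f)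
    (himage : ∀ Ψ : M, (∀ γ, act γ Ψ = Ψ) → (∃ h : F, Theta h = Ψ ^ n) → ∃ h : F, Theta h = Ψ)
    (S : Finset Gam) (hS : ∀ Ψ : M, (∀ γ ∈ S, act γ Ψ = Ψ) → ∀ γ, act γ Ψ = Ψ) :
    Finite {c : Pic0 K F // (n : ℤ) • c = 0} := by
  classical
  have hn0 : (n : ℤ) ≠ 0 := by exact_mod_cast hn.ne'
  -- choice of the Kummer data
  have hdata : ∀ c : {c : Pic0 K F // (n : ℤ) • c = 0},
      ∃ (D : Divisor.degZero (K := K) (F := F)) (f : F) (Φ : M), Pic0.mk D = c.1 ∧ f ≠ 0 ∧
        (∀ v : Place K F, (n : ℤ) * (D : Divisor K F) v = v.ord f) ∧ Φ ^ n = Theta f := by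
    rintro ⟨c, hc⟩
    obtain ⟨D, rfl⟩ := Pic0.mk_surjective c
    have h1 : ((n : ℤ) • D : Divisor.degZero (K := K) (F := F)) ∈
        (Divisor.principal (K := K) (F := F)).addSubgroupOf Divisor.degZero := by
      have h2 : Pic0.mk ((n : ℤ) • D) = 0 := hc
      exact (QuotientAddGroup.eq_zero_iff _).mp h2
    rw [AddSubgroup.mem_addSubgroupOf] at h1
    obtain ⟨f, hf, hDf⟩ := h1
    have hDf' : ∀ v : Place K F, (n : ℤ) * (D : Divisor K F) v = v.ord f := by
      intro v
      rw [← hDf v]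
      simp
    obtain ⟨Φ, hΦ⟩ := hroot f hf (fun v => ⟨_, (hDf' v).symm⟩)
    exact ⟨D, f, Φ, rfl, hf, hDf', hΦ⟩
  choose D f Φ hD hf hDf hΦ using hdata
  have hΦ0 : ∀ c, Φ c ≠ 0 := by
    intro c h0
    have h1 := hΦ c
    rw [h0, zero_pow hn.ne'] at h1
    exact hf c ((map_eq_zero Theta).mp h1.symm)
  -- the Kummer character restricted to `S`
  have hχ : ∀ c (γ : Gam), (act γ (Φ c) / Φ c) ^ n = 1 := by
    intro c γ
    rw [div_pow, ← map_pow, hΦ c, hinv, div_self]
    rw [← hΦ c]
    exact pow_ne_zero _ (hΦ0 c)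
  have : Finite {ζ : M // ζ ^ n = 1} := (finite_setOf_pow_eq_one M hn).to_subtype
  let κ : {c : Pic0 K F // (n : ℤ) • c = 0} → (S → {ζ : M // ζ ^ n = 1}) :=
    fun c γ => ⟨act γ.1 (Φ c) / Φ c, hχ c γ.1⟩
  refine Finite.of_injective κ ?_
  intro c c' hcc'
  -- `Ψ := Φ c / Φ c'` is invariant
  have hΨinv : ∀ γ, act γ (Φ c / Φ c') = Φ c / Φ c' := by
    apply hS
    intro γ hγ
    have h1 := congrArg (fun g => (g ⟨γ, hγ⟩ : {ζ : M // ζ ^ n = 1}).1) hcc'
    simp only [κ] at h1
    rw [map_div₀]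
    have h2 : act γ (Φ c') ≠ 0 := (map_ne_zero (act γ)).mpr (hΦ0 c')
    rw [div_eq_div_iff (hΦ0 c) (hΦ0 c')] at h1
    rw [div_eq_div_iff h2 (hΦ0 c'), h1]
    ring
  obtain ⟨h, hh⟩ := himage (Φ c / Φ c') hΨinv ⟨f c / f c', by
    rw [map_div₀, div_pow, hΦ c, hΦ c']⟩
  -- `h ^ n = f c / f c'`
  have hpow : h ^ n = f c / f c' := by
    apply Theta.injective
    rw [map_pow, hh, map_div₀, div_pow, hΦ c, hΦ c']
  have hh0 : h ≠ 0 := by
    intro h0
    rw [h0, zero_pow hn.ne'] at hpow
    exact (div_ne_zero (hf c) (hf c')) hpow.symm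
  -- `div h = D c - D c'`
  have hdiv : ∀ v : Place K F, ((D c : Divisor K F) - (D c' : Divisor K F)) v = v.ord h := by
    intro v
    have h1 : v.ord (h ^ n) = (n : ℤ) * v.ord h := by
      have := v.ord_zpow h (n : ℤ)
      rwa [zpow_natCast] at this
    have h2 : v.ord (f c / f c') = v.ord (f c) - v.ord (f c') := by
      rw [div_eq_mul_inv, v.ord_mul (hf c) (inv_ne_zero (hf c')), v.ord_inv]
      ring
    rw [hpow, h2, ← hDf c v, ← hDf c' v, ← mul_sub] at h1
    rw [Finsupp.sub_apply]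
    exact mul_left_cancel₀ hn0 h1
  apply Subtype.ext
  rw [← hD c, ← hD c']
  apply (QuotientAddGroup.eq_iff_sub_mem).mpr
  rw [AddSubgroup.mem_addSubgroupOf]
  exact ⟨h, hh0, fun v => by
    rw [← hdiv v]
    rfl⟩

end Abstract

/-! ### Testing invariance on a finite generating set -/

section FG

variable {Gam X : Type*} [Group Gam]

/-- left actions: invariance under a generating set implies invariance. -/
theorem forall_fixed_of_closure_eq_top (act : Gam → X → X) (hone : ∀ x, act 1 x = x)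
    (hmul : ∀ γ γ' x, act (γ * γ') x = act γ (act γ' x)) {S : Set Gam}
    (hS : Subgroup.closure S = ⊤) (x : X) (hx : ∀ γ ∈ S, act γ x = x) (γ : Gam) :
    act γ x = x := by
  have hmem : γ ∈ Subgroup.closure S := hS ▸ Subgroup.mem_top γ
  induction hmem using Subgroup.closure_induction with
  | mem γ hγ => exact hx γ hγ
  | one => exact hone x
  | mul γ γ' _ _ h h' => rw [hmul, h', h]
  | inv γ _ h =>
    calc act γ⁻¹ x = act γ⁻¹ (act γ x) := by rw [h]
      _ = x := by rw [← hmul, inv_mul_cancel, hone]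

/-- right actions (`x ↦ x ∘ γ`): invariance under a generating set implies invariance. -/
theorem forall_fixed_of_closure_eq_top' (act : Gam → X → X) (hone : ∀ x, act 1 x = x)
    (hmul : ∀ γ γ' x, act (γ * γ') x = act γ' (act γ x)) {S : Set Gam}
    (hS : Subgroup.closure S = ⊤) (x : X) (hx : ∀ γ ∈ S, act γ x = x) (γ : Gam) :
    act γ x = x := by
  have hmem : γ ∈ Subgroup.closure S := hS ▸ Subgroup.mem_top γ
  induction hmem using Subgroup.closure_induction with
  | mem γ hγ => exact hx γ hγ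
  | one => exact hone x
  | mul γ γ' _ _ h h' => rw [hmul, h, h']
  | inv γ _ h =>
    calc act γ⁻¹ x = act γ⁻¹ (act γ x) := by rw [h]
      _ = x := by rw [← hmul, mul_inv_cancel, hone]

/-- a finitely generated group acting on the left: there is a finite test set for invariance. -/
theorem exists_finset_forall_fixed [Group.FG Gam] (act : Gam → X → X) (hone : ∀ x, act 1 x = x)
    (hmul : ∀ γ γ' x, act (γ * γ') x = act γ (act γ' x)) :
    ∃ S : Finset Gam, ∀ x, (∀ γ ∈ S, act γ x = x) → ∀ γ, act γ x = x := by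
  obtain ⟨S, hS⟩ := Group.fg_def.mp (inferInstance : Group.FG Gam)
  exact ⟨S, fun x hx γ => forall_fixed_of_closure_eq_top act hone hmul hS x
    (fun γ hγ => hx γ (Finset.mem_coe.mp hγ)) γ⟩

/-- a finitely generated group acting on the right: there is a finite test set for invariance. -/
theorem exists_finset_forall_fixed' [Group.FG Gam] (act : Gam → X → X) (hone : ∀ x, act 1 x = x)
    (hmul : ∀ γ γ' x, act (γ * γ') x = act γ' (act γ x)) :
    ∃ S : Finset Gam, ∀ x, (∀ γ ∈ S, act γ x = x) → ∀ γ, act γ x = x := by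
  obtain ⟨S, hS⟩ := Group.fg_def.mp (inferInstance : Group.FG Gam)
  exact ⟨S, fun x hx γ => forall_fixed_of_closure_eq_top' act hone hmul hS x
    (fun γ hγ => hx γ (Finset.mem_coe.mp hγ)) γ⟩

end FG

/-! ### `Γ₀(N)` is finitely generated -/

section Gamma0

open Matrix ModularGroup CongruenceSubgroup
open scoped MatrixGroups

/-- `SL(2, ℤ) = ⟨S, T⟩` is finitely generated. -/
theorem sl2Z_fg : Group.FG SL(2, ℤ) := by
  classical
  refine Group.fg_def.mpr ⟨{S, T}, ?_⟩
  rw [Finset.coe_insert, Finset.coe_singleton]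
  exact SpecialLinearGroup.SL2Z_generators

/-- every finite index subgroup of `SL(2, ℤ)` is finitely generated. -/
theorem fg_of_finiteIndex_sl2Z (Γ : Subgroup SL(2, ℤ)) [Γ.FiniteIndex] : Group.FG Γ :=
  haveI := sl2Z_fg
  Subgroup.fg_of_index_ne_zero Γ

/-- `Γ₀(N)` is finitely generated. -/
theorem gamma0_fg (N : ℕ) [NeZero N] : Group.FG (Gamma0 N) :=
  fg_of_finiteIndex_sl2Z (Gamma0 N)

end Gamma0

/-! ### FIN for a finitely generated group acting on `M` -/

section Consumer

variable {K F M : Type*} [Field K] [Field F] [Algebra K F] [Field M] {Gam : Type*} [Group Gam]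

/-- **FIN**, consumer form: `Gam` finitely generated, acting on `M` by ring homomorphisms, on the
right (`act (γ γ') = act γ' ∘ act γ`, e.g. `Φ ↦ Φ ∘ γ`). -/
theorem finite_torsion_of_kummer_fg' [Group.FG Gam] (Theta : F →+* M) (act : Gam → M →+* M)
    (hone : ∀ x, act 1 x = x) (hmul : ∀ γ γ' x, act (γ * γ') x = act γ' (act γ x))
    {n : ℕ} (hn : 0 < n)
    (hinv : ∀ (γ : Gam) (f : F), act γ (Theta f) = Theta f)
    (hroot : ∀ f : F, f ≠ 0 → (∀ v : Place K F, (n : ℤ) ∣ v.ord f) → ∃ Φ : M, Φ ^ n = Theta f)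
    (himage : ∀ Ψ : M, (∀ γ, act γ Ψ = Ψ) → (∃ h : F, Theta h = Ψ ^ n) → ∃ h : F, Theta h = Ψ) :
    Finite {c : Pic0 K F // (n : ℤ) • c = 0} := by
  obtain ⟨S, hS⟩ := exists_finset_forall_fixed' (fun γ x => act γ x) hone hmul
  exact finite_torsion_of_kummer Theta act hn hinv hroot himage S hS

/-- **FIN**, consumer form: `Gam` finitely generated, acting on `M` by ring homomorphisms, on the
left (`act (γ γ') = act γ ∘ act γ'`). -/
theorem finite_torsion_of_kummer_fg [Group.FG Gam] (Theta : F →+* M) (act : Gam → M →+* M)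
    (hone : ∀ x, act 1 x = x) (hmul : ∀ γ γ' x, act (γ * γ') x = act γ (act γ' x))
    {n : ℕ} (hn : 0 < n)
    (hinv : ∀ (γ : Gam) (f : F), act γ (Theta f) = Theta f)
    (hroot : ∀ f : F, f ≠ 0 → (∀ v : Place K F, (n : ℤ) ∣ v.ord f) → ∃ Φ : M, Φ ^ n = Theta f)
    (himage : ∀ Ψ : M, (∀ γ, act γ Ψ = Ψ) → (∃ h : F, Theta h = Ψ ^ n) → ∃ h : F, Theta h = Ψ) :
    Finite {c : Pic0 K F // (n : ℤ) • c = 0} := by
  obtain ⟨S, hS⟩ := exists_finset_forall_fixed (fun γ x => act γ x) hone hmul
  exact finite_torsion_of_kummer Theta act hn hinv hroot himage S hS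

/-- the torsion subgroup `Pic0.torsion K F n` of the prelude is finite under the same
hypotheses. -/
theorem finite_torsion_of_finite_subtype {n : ℕ}
    (h : Finite {c : Pic0 K F // (n : ℤ) • c = 0}) : Finite (Pic0.torsion K F n) := by
  refine Finite.of_injective
    (fun c : Pic0.torsion K F n => (⟨c.1, Pic0.mem_torsion.mp c.2⟩ :
      {c : Pic0 K F // (n : ℤ) • c = 0})) ?_
  intro c c' hcc'
  exact Subtype.ext (congrArg Subtype.val hcc')

end Consumer

end Fermat.Agent.S29.H58
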