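import Mathlib
import Fermat.Agent.S29.H58_FiniteTorsion
import Fermat.Agent.S29.H25_MerAction
import Fermat.Agent.S29.H32_MeroRoot

/-!
# S29 / Stage 3 / FIN : the instance for `X₀(N)` over `ℂ`

* `exists_mer_root` (ROOT in the `Mer` vocabulary): a nonzero meromorphic function on `ℍ` all of
  whose orders are divisible by `n` is an `n`-th power in `Mer` (from helper32's
  `exists_root_of_quotient`).
* `finite_torsion_FC` : `Pic⁰(ℂ F_N)[n]` is finite, from two named inputs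
  - `hord`   : every point `τ` of `ℍ` gives a place `v` of `ℂ F_N` and an integer `e` with
               `merOrd τ (thetaC N f) = e * v.ord f` (DICT, orders);
  - `himage` : a `Γ₀(N)`-invariant `Ψ : Mer` with `Ψ ^ n ∈ thetaC (FC N)` lies in
               `thetaC (FC N)` (DICT, image).
-/

set_option autoImplicit false

open AlgebraicCurve UpperHalfPlane ModularCurve CongruenceSubgroup
open scoped MatrixGroups Manifold

namespace Fermat.Agent.S29.H58

open Fermat.Agent.S24.H81 (Hol Mer ordNat merOrd)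
open Fermat.Agent.S29

/-- **ROOT** in the `Mer = FractionRing Hol` vocabulary: a nonzero meromorphic function on the
upper half plane all of whose orders are divisible by `n` has an `n`-th root in `Mer`. -/
theorem exists_mer_root {n : ℕ} (hn : 0 < n) {x : Mer} (hx : x ≠ 0)
    (hdiv : ∀ τ : ℍ, (n : ℤ) ∣ merOrd τ x) : ∃ Φ : Mer, Φ ^ n = x := by
  obtain ⟨a, b, hb, rfl⟩ := H25.exists_eq_div x
  have ha : a ≠ 0 := by
    rintro rfl
    simp at hx
  have ha' : (a : ℍ → ℂ) ≠ 0 := Fermat.Agent.S24.H81.coe_ne_zero ha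
  have hb' : (b : ℍ → ℂ) ≠ 0 := Fermat.Agent.S24.H81.coe_ne_zero hb
  have hdiv' : ∀ τ : ℍ, (n : ℤ) ∣ (analyticOrderNatAt ((a : ℍ → ℂ) ∘ ofComplex) (τ : ℂ) : ℤ)
      - (analyticOrderNatAt ((b : ℍ → ℂ) ∘ ofComplex) (τ : ℂ) : ℤ) := by
    intro τ
    have h := hdiv τ
    rw [H25.merOrd_div τ ha hb] at h
    exact h
  obtain ⟨c, hc, -, -, hcb⟩ := H32.exists_root_of_quotient hn
    (Fermat.Agent.S24.H81.mem_Hol.mp a.2) (Fermat.Agent.S24.H81.mem_Hol.mp b.2) ha' hb' hdiv'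
  have hbM : algebraMap Hol Mer b ≠ 0 := by
    rwa [ne_eq, map_eq_zero_iff _ (IsFractionRing.injective Hol Mer)]
  refine ⟨algebraMap Hol Mer ⟨c, hc⟩ / algebraMap Hol Mer b, ?_⟩
  have h1 : (⟨c, hc⟩ : Hol) ^ n * b = a * b ^ n := Subtype.ext hcb
  have h2 := congrArg (algebraMap Hol Mer) h1
  rw [map_mul, map_mul, map_pow, map_pow] at h2
  rw [div_pow, div_eq_div_iff (pow_ne_zero _ hbM) hbM, h2]

variable (N : ℕ) [NeZero N]

/-- **FIN** for `X₀(N)` over `ℂ`, from the two DICT inputs `hord` (orders) and `himage`. -/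
theorem finite_torsion_FC {n : ℕ} (hn : 0 < n)
    (hord : ∀ τ : ℍ, ∃ (v : Place ℂ (H25.FC N)) (e : ℤ), ∀ f : H25.FC N, f ≠ 0 →
      merOrd τ (H25.thetaC N f) = e * v.ord f)
    (himage : ∀ Ψ : Mer, (∀ γ ∈ Gamma0 N, H25.merComp γ Ψ = Ψ) →
      (∃ h : H25.FC N, H25.thetaC N h = Ψ ^ n) → ∃ h : H25.FC N, H25.thetaC N h = Ψ) :
    Finite {c : Pic0 ℂ (H25.FC N) // (n : ℤ) • c = 0} := by
  have : Group.FG (Gamma0 N) := gamma0_fg N
  refine finite_torsion_of_kummer_fg' (Gam := Gamma0 N) (H25.thetaC N)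
    (fun γ => H25.merComp (γ : SL(2, ℤ))) (fun x => H25.merComp_one x)
    (fun γ γ' x => H25.merComp_mul (γ : SL(2, ℤ)) (γ' : SL(2, ℤ)) x) hn
    (fun γ f => H25.merComp_thetaC N γ.2 f) ?_ ?_
  · intro f hf hfdiv
    have hx : H25.thetaC N f ≠ 0 := (map_ne_zero (H25.thetaC N)).mpr hf
    refine exists_mer_root hn hx (fun τ => ?_)
    obtain ⟨v, e, hve⟩ := hord τ
    rw [hve f hf]
    exact Dvd.dvd.mul_left (hfdiv v) e
  · intro Ψ hΨ hpow
    exact himage Ψ (fun γ hγ => hΨ ⟨γ, hγ⟩) hpow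

/-- the same statement with the type of `JL ℂ N` (`H80_Interface`) / `JZeroComplex N`
(`H85_SupportSkeleton`) spelled out. -/
theorem finite_torsion_JLC {n : ℕ} (hn : 0 < n)
    (hord : ∀ τ : ℍ, ∃ (v : Place ℂ (H25.FC N)) (e : ℤ), ∀ f : H25.FC N, f ≠ 0 →
      merOrd τ (H25.thetaC N f) = e * v.ord f)
    (himage : ∀ Ψ : Mer, (∀ γ ∈ Gamma0 N, H25.merComp γ Ψ = Ψ) →
      (∃ h : H25.FC N, H25.thetaC N h = Ψ ^ n) → ∃ h : H25.FC N, H25.thetaC N h = Ψ) :
    Finite {c : Pic0 ℂ (laurentBaseChange ℂ (modularFunctionFieldFull N)) // (n : ℤ) • c = 0} :=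
  finite_torsion_FC N hn hord himage

/-- ... and for the prelude's `Pic0.torsion`. -/
theorem finite_pic0_torsion_JLC {n : ℕ} (hn : 0 < n)
    (hord : ∀ τ : ℍ, ∃ (v : Place ℂ (H25.FC N)) (e : ℤ), ∀ f : H25.FC N, f ≠ 0 →
      merOrd τ (H25.thetaC N f) = e * v.ord f)
    (himage : ∀ Ψ : Mer, (∀ γ ∈ Gamma0 N, H25.merComp γ Ψ = Ψ) →
      (∃ h : H25.FC N, H25.thetaC N h = Ψ ^ n) → ∃ h : H25.FC N, H25.thetaC N h = Ψ) :
    Finite (Pic0.torsion ℂ (laurentBaseChange ℂ (modularFunctionFieldFull N)) n) :=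
  finite_torsion_of_finite_subtype (finite_torsion_FC N hn hord himage)

end Fermat.Agent.S29.H58
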