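import Mathlib
import Fermat.Agent.S24.H37_PlaceOfOrd
import Fermat.Agent.S29.H25_MerAction

/-!
# S29 / Stage 3 / FIN : every point of `ℍ` gives a place of `ℂ F_N` (weak form of (A4)(ii))

For `τ0 : ℍ` the function `f ↦ merOrd τ0 (thetaC N f)` is a nontrivial order function on `FC N`,
trivial on `ℂ`; hence (`H37.exists_place_of_ord`) there are a place `v` of `FC N` and `e > 0` with
`merOrd τ0 (thetaC N f) = e * v.ord f` for all `f ≠ 0`.
-/

set_option autoImplicit false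

open AlgebraicCurve UpperHalfPlane ModularCurve
open scoped MatrixGroups Manifold

noncomputable section

namespace Fermat.Agent.S29.H58

open Fermat.Agent.S24.H81 (Hol Mer ordNat merOrd)
open Fermat.Agent.S24
open Fermat.Agent.S29

variable (N : ℕ) [NeZero N]

/-- **(A4)(ii), weak form.**  Every `τ0 : ℍ` gives a place `v` of `ℂ F_N` and `e > 0` with
`ord_{τ0} (thetaC f) = e * v.ord f`. -/
theorem exists_place_of_point (τ0 : ℍ) :
    ∃ (v : Place ℂ (H25.FC N)) (e : ℕ), 0 < e ∧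
      (∀ f : H25.FC N, f ≠ 0 → merOrd τ0 (H25.thetaC N f) = e * v.ord f) ∧
      ∀ f : H25.FC N, f ∈ v.toValuationSubring ↔ f = 0 ∨ 0 ≤ merOrd τ0 (H25.thetaC N f) := by
  have hne : ∀ f : H25.FC N, f ≠ 0 → H25.thetaC N f ≠ 0 := fun f hf =>
    (map_ne_zero (H25.thetaC N)).mpr hf
  refine H37.exists_place_of_ord (K := ℂ) (fun f => merOrd τ0 (H25.thetaC N f)) ?_ ?_ ?_ ?_
  · intro f g hf hg
    show merOrd τ0 (H25.thetaC N (f * g))
      = merOrd τ0 (H25.thetaC N f) + merOrd τ0 (H25.thetaC N g)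
    rw [RingHom.map_mul]
    exact H81.merOrd_mul τ0 (hne f hf) (hne g hg)
  · intro f g hf hg hfg
    show min (merOrd τ0 (H25.thetaC N f)) (merOrd τ0 (H25.thetaC N g))
      ≤ merOrd τ0 (H25.thetaC N (f + g))
    rw [RingHom.map_add]
    refine H81.min_merOrd_le_merOrd_add τ0 (hne f hf) (hne g hg) ?_
    rw [← RingHom.map_add]
    exact hne _ hfg
  · intro c hc
    show merOrd τ0 (H25.thetaC N (algebraMap ℂ (H25.FC N) c)) = 0
    rw [H25.thetaC_algebraMap]
    have h0 : (⟨fun _ => c, H81.const_mem_Hol c⟩ : Hol) ≠ 0 := by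
      intro h
      have := congrArg (fun g : Hol => (g : ℍ → ℂ) τ0) h
      exact hc this
    rw [H81.merOrd_algebraMap τ0 h0, H81.ordNat_const hc]
    rfl
  · -- nontriviality: `j - J(τ0)` vanishes at `τ0`
    set c : ℂ := H28.J τ0 with hc
    set f : H25.FC N := H25.jC N - algebraMap ℂ (H25.FC N) c with hf
    have hf0 : f ≠ 0 := by
      intro h0
      have h1 : H25.jC N = algebraMap ℂ (H25.FC N) c := sub_eq_zero.mp h0
      exact H25.transcendental_jC N (h1 ▸ isAlgebraic_algebraMap c)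
    refine ⟨f, hf0, ?_⟩
    show merOrd τ0 (H25.thetaC N f) ≠ 0
    have hth : H25.thetaC N f
        = algebraMap Hol Mer (⟨H28.J, H28.J_mdiff⟩ - ⟨fun _ => c, H81.const_mem_Hol c⟩) := by
      rw [hf, RingHom.map_sub, H25.thetaC_jC, H25.thetaC_algebraMap, RingHom.map_sub]
    have hg0 : (⟨H28.J, H28.J_mdiff⟩ - ⟨fun _ => c, H81.const_mem_Hol c⟩ : Hol) ≠ 0 := by
      intro h0
      apply hne f hf0
      rw [hth, h0, map_zero]
    rw [hth, H81.merOrd_algebraMap τ0 hg0]
    have hpos : 0 < ordNat τ0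
        ((⟨H28.J, H28.J_mdiff⟩ - ⟨fun _ => c, H81.const_mem_Hol c⟩ : Hol) : ℍ → ℂ) := by
      rw [H81.ordNat_pos_iff (Subtype.property _) (H81.coe_ne_zero hg0)]
      show H28.J τ0 - c = 0
      rw [hc, sub_self]
    exact_mod_cast hpos.ne'

/-- the hypothesis `hord` of `finite_torsion_FC`. -/
theorem hord (τ0 : ℍ) :
    ∃ (v : Place ℂ (H25.FC N)) (e : ℤ), ∀ f : H25.FC N, f ≠ 0 →
      merOrd τ0 (H25.thetaC N f) = e * v.ord f := by
  obtain ⟨v, e, -, h, -⟩ := exists_place_of_point N τ0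
  exact ⟨v, (e : ℤ), h⟩

end Fermat.Agent.S29.H58
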