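import Mathlib
import Fermat.Agent.S29.H58_PointPlace
import Fermat.Agent.S29.H58_FiniteTorsionInst
import Fermat.Agent.S29.H72_DictBridge

/-!
# S29 / Stage 3 / FIN : `Pic⁰(ℂ F_N)[n]` is finite (hypothesis-free)

`finite_torsion` : for every `N ≥ 1` and `n ≥ 1` the `n`-torsion of `Pic⁰` of the function field
of `X₀(N)` over `ℂ` (prelude model `laurentBaseChange ℂ (modularFunctionFieldFull N)`) is finite.

Proof: Kummer injection `Pic⁰[n] ↪ (S → μ_n)` for a finite generating set `S` of `Γ₀(N)`
(`H58_FiniteTorsion`), with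
* ROOT: helper32's `exists_root_of_quotient` (`H58.exists_mer_root`),
* orders at the points of `ℍ`: `H58.hord` (`H37.exists_place_of_ord`),
* IMAGE: helper72/helper48's `H72.exists_thetaC_eq_of_pow`.
-/

set_option autoImplicit false

open AlgebraicCurve UpperHalfPlane ModularCurve CongruenceSubgroup
open scoped MatrixGroups Manifold

noncomputable section

namespace Fermat.Agent.S29.H58

open Fermat.Agent.S29

variable (N : ℕ) [NeZero N]

/-- **FIN.**  The `n`-torsion of `Pic⁰(ℂ F_N)` is finite. -/
theorem finite_torsion {n : ℕ} (hn : 0 < n) :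
    Finite {c : Pic0 ℂ (laurentBaseChange ℂ (modularFunctionFieldFull N)) // (n : ℤ) • c = 0} :=
  finite_torsion_FC N hn (hord N)
    (fun _ hΨ hpow => H72.exists_thetaC_eq_of_pow N hn hpow hΨ)

/-- **FIN**, for the prelude's `Pic0.torsion`. -/
theorem finite_pic0_torsion {n : ℕ} (hn : 0 < n) :
    Finite (Pic0.torsion ℂ (laurentBaseChange ℂ (modularFunctionFieldFull N)) n) :=
  finite_torsion_of_finite_subtype (finite_torsion N hn)

/-- **FIN**, set form. -/
theorem finite_setOf_torsion {n : ℕ} (hn : 0 < n) :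
    {c : Pic0 ℂ (laurentBaseChange ℂ (modularFunctionFieldFull N)) | (n : ℤ) • c = 0}.Finite :=
  Set.finite_coe_iff.mp (finite_torsion N hn)

end Fermat.Agent.S29.H58
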