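import Fermat.Agent.S29.H20_ConstExtGalois

/-!
# Constant field extension: descent of divisor classes with finite orbit (package S29/E5, part 5)

For a divisor `D'` of degree zero on `F'/K` let `t` be minimal such that `D' + t·∞` is linearly
equivalent to an effective divisor `E'`.  Then `E'` is unique, hence compatible with the Galois
action; if the class of `D'` has finite orbit, so has `E'`, so its support consists of rational
places and the class of `D'` is a base change.

Main result: `GaloisData.mem_range_baseChangePic0_of_finite_orbit`.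
-/

set_option autoImplicit false

noncomputable section

namespace Fermat.Agent.S29.H20

open AlgebraicCurve Fermat.Agent.S24

section MinRep

variable {K F : Type*} [Field K] [Field F] [Algebra K F]

/-- Effective divisors. -/
def Effective (D : Divisor K F) : Prop := ∀ w : Place K F, 0 ≤ D w

/-- `E` is an effective divisor linearly equivalent to `D + t·wI`. -/
def IsRep (wI : Place K F) (D : Divisor K F) (t : ℕ) (E : Divisor K F) : Prop :=
  Effective E ∧ E - Finsupp.single wI (t : ℤ) - D ∈ Divisor.principal (K := K) (F := F)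

/-- ... with `t` minimal. -/
def IsMinRep (wI : Place K F) (D : Divisor K F) (t : ℕ) (E : Divisor K F) : Prop :=
  IsRep wI D t E ∧ ∀ t' < t, ∀ E' : Divisor K F, ¬ IsRep wI D t' E'

theorem degree_eq_zero_of_mem_principal [HasPrincipalDivisors K F] {D : Divisor K F}
    (hD : D ∈ Divisor.principal (K := K) (F := F)) : Divisor.degree D = 0 := by
  obtain ⟨f, hf, hDf⟩ := hD
  obtain ⟨D₁, h1, h2⟩ := HasPrincipalDivisors.exists_divisor (K := K) f hf
  have : D = D₁ := Finsupp.ext fun v => by rw [hDf v, h1 v]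
  rw [this, h2]

theorem IsRep.degree_eq [HasPrincipalDivisors K F] (hdeg : ∀ w : Place K F, w.deg = 1)
    {wI : Place K F} {D : Divisor K F} {t : ℕ} {E : Divisor K F} (h : IsRep wI D t E) :
    Divisor.degree E = t + Divisor.degree D := by
  have h1 := degree_eq_zero_of_mem_principal h.2
  rw [map_sub, map_sub, Divisor.degree_single, hdeg] at h1
  push_cast at h1
  linarith

theorem Effective.eq_zero_of_degree_eq_zero (hdeg : ∀ w : Place K F, w.deg = 1)
    {E : Divisor K F} (hE : Effective E) (h0 : Divisor.degree E = 0) : E = 0 := by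
  have h1 : Divisor.degree E = ∑ w ∈ E.support, E w := by
    rw [Divisor.degree, Finsupp.liftAddHom_apply, Finsupp.sum]
    refine Finset.sum_congr rfl fun w _ => ?_
    simp [hdeg w]
  rw [h1] at h0
  have h2 := (Finset.sum_eq_zero_iff_of_nonneg fun w _ => hE w).mp h0
  ext w
  by_cases hw : w ∈ E.support
  · exact h2 w hw
  · simpa using hw

theorem IsRep.congr {wI : Place K F} {D D' : Divisor K F}
    (hDD' : D - D' ∈ Divisor.principal (K := K) (F := F)) {t : ℕ} {E : Divisor K F}
    (h : IsRep wI D t E) : IsRep wI D' t E := by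
  refine ⟨h.1, ?_⟩
  have h1 := add_mem h.2 hDD'
  have h2 : E - Finsupp.single wI (t : ℤ) - D + (D - D') = E - Finsupp.single wI (t : ℤ) - D' := by
    abel
  rwa [h2] at h1

theorem IsMinRep.congr {wI : Place K F} {D D' : Divisor K F}
    (hDD' : D - D' ∈ Divisor.principal (K := K) (F := F)) {t : ℕ} {E : Divisor K F}
    (h : IsMinRep wI D t E) : IsMinRep wI D' t E := by
  refine ⟨h.1.congr hDD', fun t' ht' E' hE' => h.2 t' ht' E' (hE'.congr ?_)⟩
  have := neg_mem hDD'
  rwa [neg_sub] at this

theorem IsMinRep.t_unique {wI : Place K F} {D : Divisor K F} {t₁ t₂ : ℕ} {E₁ E₂ : Divisor K F}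
    (h₁ : IsMinRep wI D t₁ E₁) (h₂ : IsMinRep wI D t₂ E₂) : t₁ = t₂ := by
  rcases lt_trichotomy t₁ t₂ with h | h | h
  · exact absurd h₁.1 (h₂.2 t₁ h E₁)
  · exact h
  · exact absurd h₂.1 (h₁.2 t₂ h E₂)

theorem exists_isMinRep {wI : Place K F} {D : Divisor K F}
    (h : ∃ (t : ℕ) (E : Divisor K F), IsRep wI D t E) :
    ∃ (t : ℕ) (E : Divisor K F), IsMinRep wI D t E := by
  classical
  have h' : ∃ t : ℕ, ∃ E : Divisor K F, IsRep wI D t E := h
  obtain ⟨E, hE⟩ := Nat.find_spec h'
  exact ⟨Nat.find h', E, hE, fun t' ht' E' hE' => Nat.find_min h' ht' ⟨E', hE'⟩⟩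

/-- **Uniqueness** of the minimal effective representative. -/
theorem IsMinRep.unique [HasPrincipalDivisors K F] (hdeg : ∀ w : Place K F, w.deg = 1)
    {wI : Place K F} {D : Divisor K F} (hD : Divisor.degree D = 0) {t : ℕ}
    {E₁ E₂ : Divisor K F} (h₁ : IsMinRep wI D t E₁) (h₂ : IsMinRep wI D t E₂) : E₁ = E₂ := by
  classical
  -- the case `t = 0`
  rcases Nat.eq_zero_or_pos t with ht | ht
  · subst ht
    have e1 := h₁.1.degree_eq hdeg
    have e2 := h₂.1.degree_eq hdeg
    rw [hD] at e1 e2
    rw [h₁.1.1.eq_zero_of_degree_eq_zero hdeg (by simpa using e1),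
      h₂.1.1.eq_zero_of_degree_eq_zero hdeg (by simpa using e2)]
  obtain ⟨t', rfl⟩ : ∃ t', t = t' + 1 := ⟨t - 1, by omega⟩
  by_contra hne
  -- `E₁ - E₂ = div y`
  have hP : E₁ - E₂ ∈ Divisor.principal (K := K) (F := F) := by
    have := sub_mem h₁.1.2 h₂.1.2
    have h2 : E₁ - Finsupp.single wI ((t' + 1 : ℕ) : ℤ) - D
        - (E₂ - Finsupp.single wI ((t' + 1 : ℕ) : ℤ) - D) = E₁ - E₂ := by abel
    rwa [h2] at this
  obtain ⟨y, hy0, hy⟩ := hP
  have hy' : ∀ w : Place K F, w.ord y = E₁ w - E₂ w := fun w => by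
    rw [← hy w, Finsupp.sub_apply]
  have hync : ∀ c : K, y ≠ algebraMap K F c := by
    intro c hc
    apply hne
    ext w
    have := hy' w
    rw [hc, H27.ord_algebraMap] at this
    omega
  -- the residues at `wI`
  set e : ℤ := E₂ wI with he
  have he0 : 0 ≤ e := h₂.1.1 wI
  obtain ⟨π, hπ0, hπ⟩ := H27.exists_ord_eq_one wI
  have hπe0 : π ^ e ≠ 0 := zpow_ne_zero _ hπ0
  have hπe : wI.ord (π ^ e) = e := by rw [wI.ord_zpow, hπ, mul_one]
  have hres : ConstExt.ResTriv wI := ConstExt.resTriv_of_deg_eq_one wI (hdeg wI)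
  obtain ⟨a₁, ha₁⟩ := hres.exists_vanishes (x := π ^ e) (Or.inr (by rw [hπe]; exact he0))
  have hyπ0 : y * π ^ e ≠ 0 := mul_ne_zero hy0 hπe0
  have hyπ : wI.ord (y * π ^ e) = E₁ wI := by
    rw [wI.ord_mul hy0 hπe0, hπe, hy' wI]
    ring
  obtain ⟨ay, hay⟩ := hres.exists_vanishes (x := y * π ^ e)
    (Or.inr (by rw [hyπ]; exact h₁.1.1 wI))
  have hsucc : Finsupp.single wI ((t' + 1 : ℕ) : ℤ)
      = Finsupp.single wI (t' : ℤ) + Finsupp.single wI (1 : ℤ) := by
    rw [← Finsupp.single_add]
    push_cast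
    rfl
  by_cases ha₁0 : a₁ = 0
  · -- `E₂ - wI` is effective
    rw [ha₁0, map_zero, sub_zero] at ha₁
    have hepos : 0 < e := by
      rcases ha₁ with h | h
      · exact absurd h hπe0
      · rwa [hπe] at h
    apply h₂.2 t' (Nat.lt_succ_self t') (E₂ - Finsupp.single wI (1 : ℤ))
    refine ⟨fun w => ?_, ?_⟩
    · rw [Finsupp.sub_apply, Finsupp.single_apply]
      split_ifs with hw
      · subst hw; omega
      · have := h₂.1.1 w; omega
    · have := h₂.1.2
      rw [hsucc] at this
      have h2 : E₂ - (Finsupp.single wI (t' : ℤ) + Finsupp.single wI (1 : ℤ)) - D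
          = E₂ - Finsupp.single wI (1 : ℤ) - Finsupp.single wI (t' : ℤ) - D := by abel
      rwa [h2] at this
  · -- `z = ay - a₁ y` vanishes to higher order at `wI`
    set z : F := algebraMap K F ay - algebraMap K F a₁ * y with hz
    have hz0 : z ≠ 0 := by
      intro h0
      have hA : algebraMap K F a₁ ≠ 0 := by simpa using ha₁0
      apply hync (ay / a₁)
      rw [map_div₀]
      field_simp
      linear_combination -h0
    have hzπ : Vanishes wI (z * π ^ e) := by
      have h1 := (ha₁.const_mul ay).sub (hay.const_mul a₁)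
      have h2 : algebraMap K F ay * (π ^ e - algebraMap K F a₁)
          - algebraMap K F a₁ * (y * π ^ e - algebraMap K F ay) = z * π ^ e := by
        rw [hz]; ring
      rwa [h2] at h1
    have hzord : 0 < wI.ord z + e := by
      rcases hzπ with h | h
      · exact absurd h (mul_ne_zero hz0 hπe0)
      · rwa [wI.ord_mul hz0 hπe0, hπe] at h
    have hzw : ∀ w : Place K F, 0 ≤ w.ord z + E₂ w := by
      intro w
      have hE1 := h₁.1.1 w
      have hE2 := h₂.1.1 w
      have hA : algebraMap K F a₁ ≠ 0 := by simpa using ha₁0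
      have hAy : algebraMap K F a₁ * y ≠ 0 := mul_ne_zero hA hy0
      have hAyord : w.ord (algebraMap K F a₁ * y) = E₁ w - E₂ w := by
        rw [w.ord_mul hA hy0, H27.ord_algebraMap, hy' w, zero_add]
      by_cases hay0 : ay = 0
      · have : z = -(algebraMap K F a₁ * y) := by rw [hz, hay0, map_zero, zero_sub]
        rw [this, H27.ord_neg, hAyord]
        omega
      · have hB : algebraMap K F ay ≠ 0 := by simpa using hay0
        have h1 := H27.min_ord_le_ord_add w (f := algebraMap K F ay)
          (g := -(algebraMap K F a₁ * y)) (by rw [← sub_eq_add_neg]; exact hz0)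
        rw [← sub_eq_add_neg, H27.ord_neg, H27.ord_algebraMap, hAyord] at h1
        have h2 : min 0 (E₁ w - E₂ w) ≤ w.ord z := h1
        rcases min_choice 0 (E₁ w - E₂ w) with h3 | h3 <;> rw [h3] at h2 <;> omega
    obtain ⟨Dz, hDz, -⟩ := HasPrincipalDivisors.exists_divisor (K := K) z hz0
    apply h₂.2 t' (Nat.lt_succ_self t') (Dz + E₂ - Finsupp.single wI (1 : ℤ))
    refine ⟨fun w => ?_, ?_⟩
    · rw [Finsupp.sub_apply, Finsupp.add_apply, Finsupp.single_apply, hDz w]
      split_ifs with hw
      · subst hw; omega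
      · have := hzw w; omega
    · have h1 : Dz ∈ Divisor.principal (K := K) (F := F) := ⟨z, hz0, hDz⟩
      have h2 := add_mem h1 h₂.1.2
      rw [hsucc] at h2
      have h3 : Dz + (E₂ - (Finsupp.single wI (t' : ℤ) + Finsupp.single wI (1 : ℤ)) - D)
          = Dz + E₂ - Finsupp.single wI (1 : ℤ) - Finsupp.single wI (t' : ℤ) - D := by abel
      rwa [h3] at h2

end MinRep

/-! ### equivariance and descent -/

variable {k K F F' : Type*} [Field k] [Field K] [Field F] [Field F']
  [Algebra k K] [Algebra k F] [Algebra K F']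

namespace GaloisData

open ConstExt

variable {E : ConstExt k K F F'} {G : Type*} [Group G] {ρ : G →* SemilinearAut K F'}

theorem effective_smul (g : G) {D' : Divisor K F'} (hD' : Effective D') :
    Effective (ρ g • D') := fun w => by
  rw [SemilinearAut.divisor_smul_apply]
  exact hD' _

theorem isRep_smul (g : G) {wI : Place K F'} (hwI : ρ g • wI = wI) {D' : Divisor K F'} {t : ℕ}
    {E' : Divisor K F'} (h : IsRep wI D' t E') : IsRep wI (ρ g • D') t (ρ g • E') := by
  refine ⟨effective_smul g h.1, ?_⟩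
  have h1 := SemilinearAut.smul_mem_principal (ρ g) h.2
  rwa [smul_sub, smul_sub, SemilinearAut.smul_single, hwI] at h1

theorem isMinRep_smul (g : G) {wI : Place K F'} (hwI : ∀ g : G, ρ g • wI = wI)
    {D' : Divisor K F'} {t : ℕ} {E' : Divisor K F'} (h : IsMinRep wI D' t E') :
    IsMinRep wI (ρ g • D') t (ρ g • E') := by
  refine ⟨isRep_smul g (hwI g) h.1, fun t' ht' E'' hE'' => h.2 t' ht' (ρ g⁻¹ • E'') ?_⟩
  have h1 := isRep_smul g⁻¹ (hwI g⁻¹) hE''
  rwa [← mul_smul, ← map_mul, inv_mul_cancel, map_one, one_smul] at h1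

/-- **Descent**: a divisor class of degree zero on `F'/K` with finite Galois orbit is a base
change. -/
theorem mem_range_baseChangePic0_of_finite_orbit [HasPrincipalDivisors K F']
    (hG : GaloisData E ρ) (h : E.DegOne)
    (hnc : ∃ f : F, ∀ c : k, f ≠ algebraMap k F c) (vI : Place k F)
    (hRR : ∀ D' : Divisor K F', Divisor.degree D' = 0 →
      ∃ (t : ℕ) (E' : Divisor K F'), IsRep (ext h vI) D' t E')
    (c : Pic0 K F') (hfin : (Set.range fun g : G => ρ g • c).Finite) :
    c ∈ Set.range (baseChangePic0 (E := E) h) := by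
  classical
  obtain ⟨D', rfl⟩ := Pic0.mk_surjective c
  set wI := ext h vI with hwIdef
  have hwI : ∀ g : G, ρ g • wI = wI := fun g => hG.smul_ext h g vI
  have hD'0 : Divisor.degree (D' : Divisor K F') = 0 := D'.2
  obtain ⟨t, E', hE'⟩ := exists_isMinRep (hRR D' hD'0)
  -- the orbit of `E'` is finite
  have hfac : Function.FactorsThrough (fun g : G => ρ g • E')
      (fun g : G => ρ g • Pic0.mk D') := by
    intro g g' hgg'
    have h1 : Pic0.mk (SemilinearAut.degZeroSMulHom (ρ g) D')
        = Pic0.mk (SemilinearAut.degZeroSMulHom (ρ g') D') := hgg'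
    have h2 : (ρ g' • (D' : Divisor K F')) - ρ g • (D' : Divisor K F')
        ∈ Divisor.principal (K := K) (F := F') := by
      have h3 := (QuotientAddGroup.eq (s := (Divisor.principal (K := K) (F := F')).addSubgroupOf
        (Divisor.degZero (K := K) (F := F')))).mp h1
      rw [AddSubgroup.mem_addSubgroupOf] at h3
      have h4 : ((-(SemilinearAut.degZeroSMulHom (ρ g) D')
          + (SemilinearAut.degZeroSMulHom (ρ g') D') : Divisor.degZero (K := K) (F := F')) :
            Divisor K F') = ρ g' • (D' : Divisor K F') - ρ g • (D' : Divisor K F') := by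
        push_cast
        rw [SemilinearAut.coe_degZeroSMulHom, SemilinearAut.coe_degZeroSMulHom]
        abel
      rwa [h4] at h3
    have h5 : IsMinRep wI (ρ g • (D' : Divisor K F')) t (ρ g • E') :=
      isMinRep_smul g hwI hE'
    have h6 : IsMinRep wI (ρ g • (D' : Divisor K F')) t (ρ g' • E') :=
      (isMinRep_smul g' hwI hE').congr h2
    exact h5.unique h.deg_eq_one' (by rw [SemilinearAut.degree_smul]; exact hD'0) h6
  obtain ⟨φ, hφ⟩ := (Function.factorsThrough_iff _).mp hfac
  have hfinE : (Set.range fun g : G => ρ g • E').Finite := by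
    rw [hφ, Set.range_comp]
    exact hfin.image φ
  -- hence every place in the support of `E'` has finite orbit
  have hsupp : ∀ w ∈ E'.support, E.IsRational w := by
    intro w hw
    apply hG.isRational_of_finite_orbit h hnc
    refine Set.Finite.subset (Set.Finite.biUnion hfinE
      (fun E'' _ => (E''.support.finite_toSet))) ?_
    rintro _ ⟨g, rfl⟩
    simp only [Set.mem_iUnion, Finset.mem_coe, Finsupp.mem_support_iff, exists_prop]
    refine ⟨ρ g • E', ⟨g, rfl⟩, ?_⟩
    rw [SemilinearAut.divisor_smul_apply_smul]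
    exact Finsupp.mem_support_iff.mp hw
  obtain ⟨E₀, hE₀⟩ := exists_baseChangeDiv_eq h E' hsupp
  -- the divisor over `k`
  set D₀ : Divisor k F := E₀ - Finsupp.single vI (t : ℤ) with hD₀
  have hbD₀ : baseChangeDiv h D₀ = E' - Finsupp.single wI (t : ℤ) := by
    rw [hD₀, map_sub, hE₀, baseChangeDiv_single]
  have hprin : baseChangeDiv h D₀ - (D' : Divisor K F')
      ∈ Divisor.principal (K := K) (F := F') := by
    rw [hbD₀]
    exact hE'.1.2
  have hdeg₀ : D₀ ∈ Divisor.degZero (K := k) (F := F) := by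
    rw [Divisor.mem_degZero, ← degree_baseChangeDiv h]
    have h1 := degree_eq_zero_of_mem_principal hprin
    rw [map_sub, hD'0, sub_zero] at h1
    exact h1
  refine ⟨Pic0.mk ⟨D₀, hdeg₀⟩, ?_⟩
  rw [baseChangePic0_mk]
  refine (QuotientAddGroup.eq (s := (Divisor.principal (K := K) (F := F')).addSubgroupOf
    (Divisor.degZero (K := K) (F := F')))).mpr ?_
  rw [AddSubgroup.mem_addSubgroupOf]
  have h4 : ((-(baseChangeDegZero h ⟨D₀, hdeg₀⟩) + D' : Divisor.degZero (K := K) (F := F')) :
      Divisor K F') = -(baseChangeDiv h D₀ - (D' : Divisor K F')) := by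
    push_cast
    rw [coe_baseChangeDegZero]
    abel
  rw [h4]
  exact neg_mem hprin

end GaloisData

end Fermat.Agent.S29.H20
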