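import Mathlib

/-!
# S29 / E5 (descent ℂ → ℚbar): the FIXED-FIELD lemma (helper62)

`K` an algebraically closed field, `k` a subfield (given as `Algebra k K`).  If `z : K` is
transcendental over `k`, then for every `c : k` there is a `k`-automorphism of `K` sending
`z ↦ z + c`; hence the orbit of `z` under `Aut(K/k)` is infinite (for `k` infinite).  Consequently,
for `k` algebraically closed, an element of `K` with finite `Aut(K/k)`-orbit lies in `k`.
Mathlib only.
-/

set_option autoImplicit false

namespace Fermat.Agent.S29.H62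

open MvPolynomial

section Shift

variable {k : Type*} [CommRing k] {ι : Type*} [DecidableEq ι]

/-- The `k`-algebra endomorphism `X i0 ↦ X i0 + C c` of `MvPolynomial ι k`. -/
noncomputable def shiftHom (i0 : ι) (c : k) : MvPolynomial ι k →ₐ[k] MvPolynomial ι k :=
  aeval (fun i => if i = i0 then X i0 + C c else X i)

theorem shiftHom_X_self (i0 : ι) (c : k) : shiftHom i0 c (X i0) = X i0 + C c := by
  simp [shiftHom]

theorem shiftHom_X_of_ne (i0 : ι) (c : k) {i : ι} (h : i ≠ i0) : shiftHom i0 c (X i) = X i := by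
  simp [shiftHom, h]

theorem shiftHom_comp_neg (i0 : ι) (c : k) :
    (shiftHom i0 c).comp (shiftHom i0 (-c)) = AlgHom.id k (MvPolynomial ι k) := by
  apply MvPolynomial.algHom_ext
  intro i
  by_cases h : i = i0
  · subst h
    simp [shiftHom]
  · simp [shiftHom, h]

/-- The shift `X i0 ↦ X i0 + C c` as an automorphism. -/
noncomputable def shiftEquiv (i0 : ι) (c : k) : MvPolynomial ι k ≃ₐ[k] MvPolynomial ι k :=
  AlgEquiv.ofAlgHom (shiftHom i0 c) (shiftHom i0 (-c)) (shiftHom_comp_neg i0 c)
    (by simpa using shiftHom_comp_neg i0 (-c))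

theorem shiftEquiv_X_self (i0 : ι) (c : k) : shiftEquiv i0 c (X i0) = X i0 + C c :=
  shiftHom_X_self i0 c

end Shift

variable {k K : Type*} [Field k] [Field K] [Algebra k K] [IsAlgClosed K]

/-- **(F1)** If `z` is transcendental over `k` and `K` is algebraically closed, then for every
`c : k` some `k`-automorphism of `K` sends `z` to `z + c`. -/
theorem exists_algEquiv_apply_eq_add {z : K} (hz : Transcendental k z) (c : k) :
    ∃ σ : K ≃ₐ[k] K, σ z = z + algebraMap k K c := by
  classical
  have hs : AlgebraicIndepOn k id ({z} : Set K) := by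
    have : AlgebraicIndependent k (fun x : ({z} : Set K) => id (x : K)) := by
      letI : Unique ({z} : Set K) := Set.uniqueSingleton z
      rw [algebraicIndependent_unique_type_iff]
      exact hz
    exact this
  obtain ⟨t, hzt, ht⟩ := exists_isTranscendenceBasis_superset hs
  let i0 : t := ⟨z, hzt rfl⟩
  let e0 : MvPolynomial t k ≃ₐ[k] MvPolynomial t k := shiftEquiv i0 c
  let e : Algebra.adjoin k (Set.range ((↑) : t → K)) ≃ₐ[k]
      Algebra.adjoin k (Set.range ((↑) : t → K)) :=
    (ht.1.aevalEquiv.symm.trans e0).trans ht.1.aevalEquiv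
  have hcl := IsAlgClosed.isAlgClosure_of_transcendence_basis ((↑) : t → K) ht
  let σ0 : K ≃+* K := IsAlgClosure.equivOfEquiv K K e.toRingEquiv
  have hσ0 : ∀ a : Algebra.adjoin k (Set.range ((↑) : t → K)),
      σ0 (algebraMap _ K a) = algebraMap _ K (e a) := fun a =>
    IsAlgClosure.equivOfEquiv_algebraMap K K e.toRingEquiv a
  have hcomm : ∀ r : k, σ0 (algebraMap k K r) = algebraMap k K r := by
    intro r
    have h1 : algebraMap k K r =
        algebraMap (Algebra.adjoin k (Set.range ((↑) : t → K))) K (algebraMap k _ r) := rfl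
    rw [h1, hσ0, e.commutes]
  refine ⟨AlgEquiv.ofRingEquiv (f := σ0) hcomm, ?_⟩
  show σ0 z = z + algebraMap k K c
  have hzmem : z ∈ Algebra.adjoin k (Set.range ((↑) : t → K)) :=
    Algebra.subset_adjoin ⟨i0, rfl⟩
  have h2 : z = algebraMap (Algebra.adjoin k (Set.range ((↑) : t → K))) K ⟨z, hzmem⟩ := rfl
  have h3 : ht.1.aevalEquiv (X i0) = ⟨z, hzmem⟩ := by
    apply Subtype.ext
    rw [AlgebraicIndependent.aevalEquiv_apply_coe]
    simp [i0]
  have h4 : e ⟨z, hzmem⟩ = ht.1.aevalEquiv (X i0 + C c) := by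
    show ht.1.aevalEquiv (e0 (ht.1.aevalEquiv.symm ⟨z, hzmem⟩)) = _
    rw [← h3, AlgEquiv.symm_apply_apply]
    show ht.1.aevalEquiv (shiftEquiv i0 c (X i0)) = _
    rw [shiftEquiv_X_self]
  conv_lhs => rw [h2]
  rw [hσ0, h4]
  show ((ht.1.aevalEquiv (X i0 + C c) : Algebra.adjoin k (Set.range ((↑) : t → K))) : K) = _
  rw [AlgebraicIndependent.aevalEquiv_apply_coe]
  simp [i0]

/-- **(F2)** The `Aut(K/k)`-orbit of an element transcendental over an infinite field `k` is
infinite. -/
theorem infinite_orbit_of_transcendental [Infinite k] {z : K} (hz : Transcendental k z) :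
    (Set.range fun σ : K ≃ₐ[k] K => σ z).Infinite := by
  have hinj : Function.Injective (fun c : k => z + algebraMap k K c) := by
    intro c c' h
    exact (algebraMap k K).injective (add_left_cancel h)
  have hsub : Set.range (fun c : k => z + algebraMap k K c) ⊆
      Set.range fun σ : K ≃ₐ[k] K => σ z := by
    rintro _ ⟨c, rfl⟩
    obtain ⟨σ, hσ⟩ := exists_algEquiv_apply_eq_add hz c
    exact ⟨σ, hσ⟩
  exact (Set.infinite_range_of_injective hinj).mono hsub

/-- **(F3)** For `k` algebraically closed: an element of `K` with finite `Aut(K/k)`-orbit lies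
in `k`. -/
theorem mem_range_algebraMap_of_finite_orbit [IsAlgClosed k] {z : K}
    (h : (Set.range fun σ : K ≃ₐ[k] K => σ z).Finite) : z ∈ Set.range (algebraMap k K) := by
  by_contra hz
  have htr : Transcendental k z := by
    intro halg
    have hint : IsIntegral k z := halg.isIntegral
    have h1 : (minpoly k z).degree = 1 :=
      IsAlgClosed.degree_eq_one_of_irreducible k (minpoly.irreducible hint)
    exact hz (minpoly.mem_range_of_degree_eq_one k z h1)
  exact (infinite_orbit_of_transcendental htr) h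

/-- **(F3')** subgroup form: if a finite-index subgroup of `Aut(K/k)` fixes `z`, then `z ∈ k`
(for `k` algebraically closed). -/
theorem mem_range_algebraMap_of_finiteIndex_fixing [IsAlgClosed k] {z : K}
    (H : Subgroup (K ≃ₐ[k] K)) [H.FiniteIndex] (hH : ∀ σ ∈ H, σ z = z) :
    z ∈ Set.range (algebraMap k K) := by
  apply mem_range_algebraMap_of_finite_orbit
  haveI : Finite ((K ≃ₐ[k] K) ⧸ H) := Subgroup.finite_quotient_of_finiteIndex
  refine (Set.finite_range (fun q : (K ≃ₐ[k] K) ⧸ H => (q.out : K ≃ₐ[k] K) z)).subset ?_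
  rintro _ ⟨σ, rfl⟩
  refine ⟨(QuotientGroup.mk σ : (K ≃ₐ[k] K) ⧸ H), ?_⟩
  set τ : K ≃ₐ[k] K := (QuotientGroup.mk σ : (K ≃ₐ[k] K) ⧸ H).out with hτ
  have h1 : τ⁻¹ * σ ∈ H := by
    rw [← QuotientGroup.eq]
    exact QuotientGroup.out_eq' _
  have h2 := hH _ h1
  rw [AlgEquiv.mul_apply] at h2
  show τ z = σ z
  have h3 := congrArg τ h2
  rw [← AlgEquiv.mul_apply, mul_inv_cancel, AlgEquiv.one_apply] at h3
  exact h3.symm

/-- **(F4)** fixed-field form: the fixed field of `Aut(K/k)` is `k` (for `k`, `K` algebraically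
closed). -/
theorem mem_range_algebraMap_of_forall_fixed [IsAlgClosed k] {z : K}
    (h : ∀ σ : K ≃ₐ[k] K, σ z = z) : z ∈ Set.range (algebraMap k K) := by
  apply mem_range_algebraMap_of_finite_orbit
  refine (Set.finite_singleton z).subset ?_
  rintro _ ⟨σ, rfl⟩
  exact h σ

end Fermat.Agent.S29.H62
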