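import Mathlib
import Fermat.Prelude.Def_ModularCurve_ArithmeticGalois
import Fermat.Agent.S29.H62_FixedField
import Fermat.Agent.S29.H62_BaseChangeField

/-!
# S29 / E5 (descent ℂ → ℚbar), BASECHANGE-INJ part 2 (helper62)

`k ⊆ L` algebraically closed fields of characteristic `0`, `Fk := laurentBaseChange k F₀`,
`FL := laurentBaseChange L F₀`.

* (B2) **normalisation**: if `f ∈ FL`, `f ≠ 0`, and every `σ ∈ Aut(L/k)` multiplies `f` by a
  constant, then `f = a * bcField g` with `a ∈ Lˣ`, `g ∈ Fk`.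
* (B3) **consumer form**: if the divisor of `f ∈ FL` is `Aut(L/k)`-invariant (and a function without
  zeros and poles is constant), then `f = a * bcField g`: a `k`-rational divisor which is principal
  over `L` is principal over `k`.
-/

set_option autoImplicit false

noncomputable section

namespace Fermat.Agent.S29.H62

open ModularCurve HahnSeries AlgebraicCurve

variable {k L : Type*} [Field k] [Field L] [Algebra ℚ k] [Algebra ℚ L] [Algebra k L]
  [IsScalarTower ℚ k L]

variable (F₀ : IntermediateField ℚ (LaurentSeries ℚ))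

/-- The semilinear automorphism of `FL` attached to `σ ∈ Aut(L/k)`. -/
def galAct (σ : L ≃ₐ[k] L) : SemilinearAut L ↥(laurentBaseChange L F₀) :=
  arithmeticGalois F₀ (σ.restrictScalars ℚ)

theorem coe_galAct_smul (σ : L ≃ₐ[k] L) (f : ↥(laurentBaseChange L F₀)) :
    ((galAct F₀ σ • f : ↥(laurentBaseChange L F₀)) : LaurentSeries L) =
      coeffMap ((σ.restrictScalars ℚ : L ≃ₐ[ℚ] L) : L →+* L) (f : LaurentSeries L) :=
  rfl

theorem coeff_galAct_smul (σ : L ≃ₐ[k] L) (f : ↥(laurentBaseChange L F₀)) (n : ℤ) :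
    ((galAct F₀ σ • f : ↥(laurentBaseChange L F₀)) : LaurentSeries L).coeff n =
      σ ((f : LaurentSeries L).coeff n) :=
  rfl

theorem galAct_mul (σ τ : L ≃ₐ[k] L) : galAct F₀ (σ * τ) = galAct F₀ σ * galAct F₀ τ := by
  unfold galAct
  rw [← map_mul]
  rfl

theorem galAct_one : galAct F₀ (1 : L ≃ₐ[k] L) = 1 := by
  unfold galAct
  rw [← map_one (arithmeticGalois (L := L) F₀)]
  rfl

theorem galAct_inv (σ : L ≃ₐ[k] L) : galAct F₀ σ⁻¹ = (galAct F₀ σ)⁻¹ := by
  rw [eq_inv_iff_mul_eq_one, ← galAct_mul, inv_mul_cancel, galAct_one]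

/-- `Aut(L/k)` fixes the image of `Fk` pointwise. -/
theorem galAct_smul_bcField (σ : L ≃ₐ[k] L) (g : ↥(laurentBaseChange k F₀)) :
    galAct F₀ σ • bcField (L := L) F₀ g = bcField F₀ g := by
  apply Subtype.ext
  ext n
  rw [coeff_galAct_smul, coe_bcField, coeffMap_coeff, σ.commutes]

theorem coeff_algebraMap_mul (c : L) (f : ↥(laurentBaseChange L F₀)) (n : ℤ) :
    ((algebraMap L ↥(laurentBaseChange L F₀) c * f : ↥(laurentBaseChange L F₀)) :
      LaurentSeries L).coeff n = c * (f : LaurentSeries L).coeff n := by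
  show (algebraMap L (LaurentSeries L) c * (f : LaurentSeries L)).coeff n = _
  rw [algebraMap_laurentSeries_eq_single, HahnSeries.single_zero_mul_eq_smul,
    HahnSeries.coeff_smul, smul_eq_mul]

variable [IsAlgClosed k] [IsAlgClosed L]

/-- **(B2) normalisation.** -/
theorem exists_eq_const_mul_bcField (f : ↥(laurentBaseChange L F₀)) (hf : f ≠ 0)
    (hsemi : ∀ σ : L ≃ₐ[k] L, ∃ c : L,
      galAct F₀ σ • f = algebraMap L ↥(laurentBaseChange L F₀) c * f) :
    ∃ a : L, a ≠ 0 ∧ ∃ g : ↥(laurentBaseChange k F₀),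
      f = algebraMap L ↥(laurentBaseChange L F₀) a * bcField F₀ g := by
  classical
  have hx0 : (f : LaurentSeries L) ≠ 0 := fun h => hf (Subtype.ext h)
  set n0 : ℤ := (f : LaurentSeries L).order with hn0
  set a : L := (f : LaurentSeries L).coeff n0 with ha
  have ha0 : a ≠ 0 := fun h => hx0 (HahnSeries.coeff_order_eq_zero.mp h)
  -- the normalised function
  set f' : ↥(laurentBaseChange L F₀) := algebraMap L ↥(laurentBaseChange L F₀) a⁻¹ * f with hf'
  have hf'coeff : ∀ n, (f' : LaurentSeries L).coeff n = a⁻¹ * (f : LaurentSeries L).coeff n :=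
    fun n => coeff_algebraMap_mul F₀ a⁻¹ f n
  -- every coefficient of `f'` is fixed by `Aut(L/k)`
  have hfix : ∀ (σ : L ≃ₐ[k] L) (n : ℤ),
      σ ((f' : LaurentSeries L).coeff n) = (f' : LaurentSeries L).coeff n := by
    intro σ n
    obtain ⟨c, hc⟩ := hsemi σ
    have h1 : ∀ m, σ ((f : LaurentSeries L).coeff m) = c * (f : LaurentSeries L).coeff m := by
      intro m
      rw [← coeff_galAct_smul, hc, coeff_algebraMap_mul]
    have h2 : σ a = c * a := h1 n0
    have hσa : σ a ≠ 0 := by
      rw [ne_eq, map_eq_zero]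
      exact ha0
    rw [hf'coeff, map_mul, map_inv₀, h1 n, h2]
    have hc0 : c ≠ 0 := by
      intro h
      apply hσa
      rw [h2, h, zero_mul]
    field_simp
  -- hence in `k`
  have hmem : ∀ n, ∃ y : k, algebraMap k L y = (f' : LaurentSeries L).coeff n := by
    intro n
    exact mem_range_algebraMap_of_forall_fixed (fun σ => hfix σ n)
  choose y hy using hmem
  have hsupp : Function.support y = (f' : LaurentSeries L).support := by
    ext n
    rw [Function.mem_support, HahnSeries.mem_support, ← hy n, ne_eq, ne_eq, map_eq_zero]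
  let Y : LaurentSeries k :=
    { coeff := y
      isPWO_support' := by
        rw [hsupp]
        exact (f' : LaurentSeries L).isPWO_support }
  have hY : (f' : LaurentSeries L) = coeffMap (algebraMap k L) Y := by
    ext n
    rw [coeffMap_coeff]
    exact (hy n).symm
  obtain ⟨g, hg⟩ := exists_bcField_eq_of_coeffMap_eq F₀ hY
  refine ⟨a, ha0, g, ?_⟩
  rw [hg, hf', ← mul_assoc, ← map_mul, mul_inv_cancel₀ ha0, map_one, one_mul]

/-- **(B3) consumer form, divisor-of-`σ f` version**: if `σ f` has the same divisor as `f` for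
every `σ ∈ Aut(L/k)`, then `f` is a constant times an element of `Fk`. -/
theorem exists_eq_const_mul_bcField_of_ord (f : ↥(laurentBaseChange L F₀)) (hf : f ≠ 0)
    (hinv : ∀ (σ : L ≃ₐ[k] L) (w : Place L ↥(laurentBaseChange L F₀)),
      w.ord (galAct F₀ σ • f) = w.ord f)
    (hconst : ∀ h : ↥(laurentBaseChange L F₀), h ≠ 0 →
      (∀ w : Place L ↥(laurentBaseChange L F₀), w.ord h = 0) →
        ∃ c : L, h = algebraMap L ↥(laurentBaseChange L F₀) c) :
    ∃ a : L, a ≠ 0 ∧ ∃ g : ↥(laurentBaseChange k F₀),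
      f = algebraMap L ↥(laurentBaseChange L F₀) a * bcField F₀ g := by
  apply exists_eq_const_mul_bcField F₀ f hf
  intro σ
  have hσf : galAct F₀ σ • f ≠ 0 := by
    rw [ne_eq, smul_eq_zero_iff_eq]
    exact hf
  have hh : (galAct F₀ σ • f) * f⁻¹ ≠ 0 := mul_ne_zero hσf (inv_ne_zero hf)
  obtain ⟨c, hc⟩ := hconst _ hh (fun w => by
    rw [w.ord_mul hσf (inv_ne_zero hf), w.ord_inv, hinv σ w, add_neg_cancel])
  refine ⟨c, ?_⟩
  rw [← hc, mul_assoc, inv_mul_cancel₀ hf, mul_one]

/-- **(B3) consumer form, place version**: if the divisor of `f` is invariant under `Aut(L/k)`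
(`ord_{σ w} f = ord_w f`), then `f` is a constant times an element of `Fk`. -/
theorem exists_eq_const_mul_bcField_of_place (f : ↥(laurentBaseChange L F₀)) (hf : f ≠ 0)
    (hinv : ∀ (σ : L ≃ₐ[k] L) (w : Place L ↥(laurentBaseChange L F₀)),
      (galAct F₀ σ • w).ord f = w.ord f)
    (hconst : ∀ h : ↥(laurentBaseChange L F₀), h ≠ 0 →
      (∀ w : Place L ↥(laurentBaseChange L F₀), w.ord h = 0) →
        ∃ c : L, h = algebraMap L ↥(laurentBaseChange L F₀) c) :
    ∃ a : L, a ≠ 0 ∧ ∃ g : ↥(laurentBaseChange k F₀),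
      f = algebraMap L ↥(laurentBaseChange L F₀) a * bcField F₀ g := by
  apply exists_eq_const_mul_bcField_of_ord F₀ f hf _ hconst
  intro σ w
  have h1 := SemilinearAut.ord_smul (galAct F₀ σ) ((galAct F₀ σ)⁻¹ • w) f
  rw [smul_inv_smul] at h1
  rw [h1, ← galAct_inv, hinv σ⁻¹ w]

end Fermat.Agent.S29.H62
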