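import Mathlib
import Fermat.Prelude.Def_ModularCurve_ArithmeticGalois
import Fermat.Agent.S29.H20_ConstExtGalois
import Fermat.Agent.S29.H62_BaseChangeInj

/-!
# S29 / E5: instantiation of helper20's constant-field-extension core for `laurentBaseChange`
(helper62)

`k ⊆ K` fields of characteristic `0`, `F₀ ⊆ ℚ((q))`, `F := laurentBaseChange k F₀`,
`F' := laurentBaseChange K F₀`.

* `constExtLaurent k K F₀ : H20.ConstExt k K F F'` (`ι := bcField F₀`);
* `galActHom k K F₀ : (K ≃ₐ[k] K) →* SemilinearAut K F'`;
* `galoisDataLaurent : H20.GaloisData (constExtLaurent k K F₀) (galActHom k K F₀)` for `k`, `K`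
  algebraically closed.
-/

set_option autoImplicit false

noncomputable section

namespace Fermat.Agent.S29.H62

open ModularCurve HahnSeries AlgebraicCurve

variable (k K : Type*) [Field k] [Field K] [Algebra ℚ k] [Algebra ℚ K] [Algebra k K]
  [IsScalarTower ℚ k K]

variable (F₀ : IntermediateField ℚ (LaurentSeries ℚ))

/-! ### `gen` -/

variable {k K} in
/-- an element of the `K`-span of the image of `Fk` lies in `F'`, and, as an element of `F'`, in
the `K`-span of the range of `bcField`. -/
theorem mem_span_range_bcField_of_mem_span {a : LaurentSeries K}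
    (ha : a ∈ @Submodule.span K (LaurentSeries K) _ _ Algebra.toModule (imageFk k K F₀)) :
    ∃ h : a ∈ laurentBaseChange K F₀,
      (⟨a, h⟩ : ↥(laurentBaseChange K F₀)) ∈
        Submodule.span K (Set.range (bcField (k := k) (L := K) F₀)) := by
  induction ha using Submodule.span_induction with
  | mem x hx =>
      obtain ⟨y, hy, rfl⟩ := hx
      refine ⟨coeffMap_tower_mem F₀ hy, Submodule.subset_span ⟨⟨y, hy⟩, rfl⟩⟩
  | zero =>
      exact ⟨zero_mem _, by
        have : (⟨0, zero_mem _⟩ : ↥(laurentBaseChange K F₀)) = 0 := rfl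
        rw [this]
        exact zero_mem _⟩
  | add x y _ _ hx hy =>
      obtain ⟨hx1, hx2⟩ := hx
      obtain ⟨hy1, hy2⟩ := hy
      refine ⟨add_mem hx1 hy1, ?_⟩
      have : (⟨x + y, add_mem hx1 hy1⟩ : ↥(laurentBaseChange K F₀)) = ⟨x, hx1⟩ + ⟨y, hy1⟩ := rfl
      rw [this]
      exact add_mem hx2 hy2
  | smul c x _ hx =>
      obtain ⟨hx1, hx2⟩ := hx
      have hmem := (laurentBaseChange K F₀).smul_mem hx1 (x := c)
      refine ⟨hmem, ?_⟩
      have hsm := Submodule.smul_mem _ c hx2
      exact hsm

variable {k K} in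
theorem mem_span_range_bcField_of_mem_algFk {a : LaurentSeries K} (ha : a ∈ algFk k K F₀) :
    ∃ h : a ∈ laurentBaseChange K F₀,
      (⟨a, h⟩ : ↥(laurentBaseChange K F₀)) ∈
        Submodule.span K (Set.range (bcField (k := k) (L := K) F₀)) := by
  have ha' : a ∈ Subalgebra.toSubmodule (Algebra.adjoin K (imageFk k K F₀)) := ha
  rw [Algebra.adjoin_eq_span, closure_imageFk] at ha'
  exact mem_span_range_bcField_of_mem_span F₀ ha'

/-! ### the constant field extension -/

/-- helper20's `ConstExt` for `laurentBaseChange k F₀ ⊆ laurentBaseChange K F₀`. -/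
def constExtLaurent :
    H20.ConstExt k K ↥(laurentBaseChange k F₀) ↥(laurentBaseChange K F₀) where
  ι := bcField F₀
  map_algebraMap := bcField_algebraMap F₀
  linDisj := by
    intro n a ha g hsum i
    apply Subtype.ext
    ext m
    have h1 := congrArg (fun z : ↥(laurentBaseChange K F₀) => (z : LaurentSeries K).coeff m) hsum
    have h2 : ((∑ i, algebraMap K ↥(laurentBaseChange K F₀) (a i) * bcField F₀ (g i) :
        ↥(laurentBaseChange K F₀)) : LaurentSeries K).coeff m =
        ∑ i, ((g i : LaurentSeries k).coeff m) • a i := by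
      rw [AddSubmonoidClass.coe_finset_sum, HahnSeries.coeff_sum]
      refine Finset.sum_congr rfl fun i _ => ?_
      rw [coeff_algebraMap_mul, coe_bcField, coeffMap_coeff, Algebra.smul_def, mul_comm]
    rw [h2] at h1
    have h3 := Fintype.linearIndependent_iff.mp ha (fun i => (g i : LaurentSeries k).coeff m) h1 i
    simpa using h3
  gen := by
    intro x
    obtain ⟨a, ha, b, hb, hb0, hab⟩ := exists_mul_eq_of_mem (k := k) F₀ x.2
    obtain ⟨ha1, ha2⟩ := mem_span_range_bcField_of_mem_algFk F₀ ha
    obtain ⟨hb1, hb2⟩ := mem_span_range_bcField_of_mem_algFk F₀ hb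
    refine ⟨⟨a, ha1⟩, ha2, ⟨b, hb1⟩, hb2, fun h => hb0 (congrArg Subtype.val h), ?_⟩
    exact Subtype.ext hab

@[simp]
theorem constExtLaurent_ι : (constExtLaurent k K F₀).ι = bcField F₀ := rfl

/-! ### the Galois action -/

/-- `Aut(K/k)` acting semilinearly on `F'` through the coefficients. -/
def galActHom : (K ≃ₐ[k] K) →* SemilinearAut K ↥(laurentBaseChange K F₀) where
  toFun σ := galAct F₀ σ
  map_one' := galAct_one F₀
  map_mul' σ τ := galAct_mul F₀ σ τ

@[simp]
theorem galActHom_apply (σ : K ≃ₐ[k] K) : galActHom k K F₀ σ = galAct F₀ σ := rfl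

theorem baseAut_galActHom (σ : K ≃ₐ[k] K) (a : K) :
    SemilinearAut.baseAut (galActHom k K F₀ σ) a = σ a := rfl

/-- compatibility with the prelude's Galois action on `Pic0`. -/
theorem galActHom_smul_pic0 (σ : K ≃ₐ[k] K) (x : Pic0 K ↥(laurentBaseChange K F₀)) :
    galActHom k K F₀ σ • x = (σ.restrictScalars ℚ : K ≃ₐ[ℚ] K) • x := rfl

variable {k K} in
/-- an element of `F'` all of whose coefficients are fixed by `Aut(K/k)` comes from `F`. -/
theorem exists_bcField_eq_of_forall_fixed [IsAlgClosed k] [IsAlgClosed K]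
    (x : ↥(laurentBaseChange K F₀)) (hx : ∀ σ : K ≃ₐ[k] K, galAct F₀ σ • x = x) :
    ∃ g : ↥(laurentBaseChange k F₀), bcField F₀ g = x := by
  classical
  have hfix : ∀ (σ : K ≃ₐ[k] K) (n : ℤ),
      σ ((x : LaurentSeries K).coeff n) = (x : LaurentSeries K).coeff n := by
    intro σ n
    rw [← coeff_galAct_smul, hx σ]
  have hmem : ∀ n, ∃ y : k, algebraMap k K y = (x : LaurentSeries K).coeff n :=
    fun n => mem_range_algebraMap_of_forall_fixed (fun σ => hfix σ n)
  choose y hy using hmem
  have hsupp : Function.support y = (x : LaurentSeries K).support := by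
    ext n
    rw [Function.mem_support, HahnSeries.mem_support, ← hy n, ne_eq, ne_eq, map_eq_zero]
  let Y : LaurentSeries k :=
    { coeff := y
      isPWO_support' := by
        rw [hsupp]
        exact (x : LaurentSeries K).isPWO_support }
  have hY : (x : LaurentSeries K) = coeffMap (algebraMap k K) Y := by
    ext n
    rw [coeffMap_coeff]
    exact (hy n).symm
  exact exists_bcField_eq_of_coeffMap_eq F₀ hY

/-- helper20's `GaloisData` for `G = Aut(K/k)` acting on `laurentBaseChange K F₀`. -/
theorem galoisDataLaurent [IsAlgClosed k] [IsAlgClosed K] :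
    H20.GaloisData (constExtLaurent k K F₀) (galActHom k K F₀) where
  fixes σ f := galAct_smul_bcField F₀ σ f
  base_of_finite_orbit a ha := mem_range_algebraMap_of_finite_orbit ha
  of_fixed x hx := by
    obtain ⟨g, hg⟩ := exists_bcField_eq_of_forall_fixed F₀ x hx
    exact ⟨g, hg⟩

end Fermat.Agent.S29.H62
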