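import Mathlib
import Fermat.Prelude.Def_GaloisRep_ComplexConjugation
import Fermat.Prelude.Def_ModularCurve_ArithmeticGalois
import Fermat.Agent.S29.H62_ConstExtInst
import Fermat.Agent.S29.H20_ConstExtDescent
import Fermat.Agent.S29.H3_MinEffective
import Fermat.Agent.S29.H74_FFBankL
import Fermat.Agent.S37.H8_FinDimL

/-!
# S29 / E5: the base change package `bc : J₀(N)(ℚ̄) → Pic⁰(ℂ F_N)`

`bcJ N : JZero N →+ Pic0 ℂ (laurentBaseChange ℂ (modularFunctionFieldFull N))` is helper20's
`H20.baseChangePic0` for the constant field extension `H62.constExtLaurent ℚ̄ ℂ` along the prelude's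
`complexEmbedding : ℚ̄ →ₐ[ℚ] ℂ`.

* `bcJ_injective` : `bcJ N` is injective (unconditional);
* `exists_bcJ_eq_of_finite_orbit` : a class with finite `Aut(ℂ/ℚ̄)`-orbit is a base change
  (unconditional);
* `exists_bcJ_eq_of_finite_torsion` : if `Pic⁰(ℂ F_N)[n]` is finite (FIN, helper58), every
  `n`-torsion class is a base change;
* `exists_bc` : the package in the shape of `H85.eigenformSupportAt_of_lamC_bc`.
-/

set_option autoImplicit false

noncomputable section

namespace Fermat.Agent.S29.H62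

open ModularCurve AlgebraicCurve Fermat.Agent.RR Fermat.Agent.S37.H8

/-- The `ℚ̄`-algebra structure of `ℂ` given by the prelude's `complexEmbedding`. -/
@[reducible] def algebraQbarComplex : Algebra (AlgebraicClosure ℚ) ℂ :=
  complexEmbedding.toRingHom.toAlgebra

attribute [local instance] algebraQbarComplex

theorem isScalarTower_qbar_complex : IsScalarTower ℚ (AlgebraicClosure ℚ) ℂ :=
  IsScalarTower.of_algebraMap_eq' (Subsingleton.elim _ _)

attribute [local instance] isScalarTower_qbar_complex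

theorem algebraMap_qbar_complex (a : AlgebraicClosure ℚ) :
    algebraMap (AlgebraicClosure ℚ) ℂ a = complexEmbedding a := rfl

variable (N : ℕ) [NeZero N]

/-- The constant field extension `ℚ̄ F_N ⊆ ℂ F_N`. -/
def constExtJ : H20.ConstExt (AlgebraicClosure ℚ) ℂ
    ↥(laurentBaseChange (AlgebraicClosure ℚ) (modularFunctionFieldFull N))
    ↥(laurentBaseChange ℂ (modularFunctionFieldFull N)) :=
  constExtLaurent (AlgebraicClosure ℚ) ℂ (modularFunctionFieldFull N)

/-- The Galois action of `Aut(ℂ/ℚ̄)`. -/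
def galActJ : (ℂ ≃ₐ[AlgebraicClosure ℚ] ℂ) →*
    SemilinearAut ℂ ↥(laurentBaseChange ℂ (modularFunctionFieldFull N)) :=
  galActHom (AlgebraicClosure ℚ) ℂ (modularFunctionFieldFull N)

omit [NeZero N] in
theorem galoisDataJ : H20.GaloisData (constExtJ N) (galActJ N) :=
  galoisDataLaurent (AlgebraicClosure ℚ) ℂ (modularFunctionFieldFull N)

theorem degOne_constExtJ : (constExtJ N).DegOne :=
  ⟨fun v => H74.deg_eq_one_FL' (AlgebraicClosure ℚ) N v, fun w => H74.deg_eq_one_FL' ℂ N w⟩

/-- **The base change map** `J₀(N)(ℚ̄) → Pic⁰(ℂ F_N)`. -/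
def bcJ : JZero N →+ Pic0 ℂ ↥(laurentBaseChange ℂ (modularFunctionFieldFull N)) :=
  H20.ConstExt.baseChangePic0 (E := constExtJ N) (degOne_constExtJ N)

theorem bcJ_mk (D : Divisor.degZero (K := AlgebraicClosure ℚ)
    (F := ↥(laurentBaseChange (AlgebraicClosure ℚ) (modularFunctionFieldFull N)))) :
    bcJ N (Pic0.mk D) = Pic0.mk (H20.ConstExt.baseChangeDegZero (degOne_constExtJ N) D) :=
  H20.ConstExt.baseChangePic0_mk (degOne_constExtJ N) D

/-- There is a place of `ℚ̄ F_N`. -/
theorem nonempty_place_FN :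
    Nonempty (Place (AlgebraicClosure ℚ)
      ↥(laurentBaseChange (AlgebraicClosure ℚ) (modularFunctionFieldFull N))) :=
  (H74.ffBase_FL (AlgebraicClosure ℚ) N).exists_place

/-- **(E5a)** the base change map is injective. -/
theorem bcJ_injective : Function.Injective (bcJ N) := by
  obtain ⟨v₀⟩ := nonempty_place_FN N
  refine H20.GaloisData.baseChangePic0_injective (galoisDataJ N) (degOne_constExtJ N) ?_ v₀
  intro x _ hx
  obtain ⟨a, ha⟩ := H74.eq_algebraMap_of_forall_ord_eq_zero ℂ N hx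
  exact ⟨a, ha.symm⟩

/-- Weak Riemann over `ℂ`, in the shape of helper20's `hRR`. -/
theorem exists_isRep (wI : Place ℂ ↥(laurentBaseChange ℂ (modularFunctionFieldFull N)))
    (D' : Divisor ℂ ↥(laurentBaseChange ℂ (modularFunctionFieldFull N)))
    (hD' : Divisor.degree D' = 0) :
    ∃ (t : ℕ) (E' : Divisor ℂ ↥(laurentBaseChange ℂ (modularFunctionFieldFull N))),
      H20.IsRep wI D' t E' := by
  have hB : H76.FFBase ℂ (FL ℂ N) := H74.ffBase_FL ℂ N
  have hwI : wI.deg = 1 := H74.deg_eq_one_FL' ℂ N wI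
  have hnn := H3.minEff_nonneg hB wI hwI D'
  have hpr := H3.minEff_sub_mem_principal hB wI hwI D'
  have hdeg := H3.degree_minEff hB wI hwI D'
  have h0 : 0 ≤ H3.minShift hB wI hwI D' := by
    have := H76.degree_nonneg_of_nonneg hnn
    rw [hdeg, hD', zero_add] at this
    exact this
  refine ⟨(H3.minShift hB wI hwI D').toNat, H3.minEff hB wI hwI D', fun w => ?_, ?_⟩
  · have := hnn w
    simpa using this
  · rw [Int.toNat_of_nonneg h0]
    have e : H3.minEff hB wI hwI D' - Finsupp.single wI (H3.minShift hB wI hwI D') - D'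
        = H3.minEff hB wI hwI D' - H3.shift wI D' (H3.minShift hB wI hwI D') := by
      simp only [H3.shift]; abel
    rw [e]
    exact hpr

/-- **(E5b)** a class of `Pic⁰(ℂ F_N)` with finite `Aut(ℂ/ℚ̄)`-orbit is a base change. -/
theorem exists_bcJ_eq_of_finite_orbit
    (c : Pic0 ℂ ↥(laurentBaseChange ℂ (modularFunctionFieldFull N)))
    (hfin : (Set.range fun g : ℂ ≃ₐ[AlgebraicClosure ℚ] ℂ => galActJ N g • c).Finite) :
    ∃ c₀ : JZero N, bcJ N c₀ = c := by
  obtain ⟨vI⟩ := nonempty_place_FN N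
  have : HasPrincipalDivisors ℂ ↥(laurentBaseChange ℂ (modularFunctionFieldFull N)) :=
    H74.hasPrincipalDivisors_FL' ℂ N
  have hnc : ∃ f : ↥(laurentBaseChange (AlgebraicClosure ℚ) (modularFunctionFieldFull N)),
      ∀ a : AlgebraicClosure ℚ, f ≠ algebraMap (AlgebraicClosure ℚ) _ a := by
    refine ⟨jL (AlgebraicClosure ℚ) N, fun a ha => ?_⟩
    have htr := transcendental_jL (AlgebraicClosure ℚ) N
    rw [ha] at htr
    exact htr (isAlgebraic_algebraMap a)
  exact H20.GaloisData.mem_range_baseChangePic0_of_finite_orbit (galoisDataJ N)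
    (degOne_constExtJ N) hnc vI (fun D' hD' => exists_isRep N _ D' hD') c hfin

omit [NeZero N] in
/-- Torsion classes have finite orbits as soon as the torsion subgroup is finite. -/
theorem finite_orbit_of_finite_torsion {n : ℕ}
    (hfinTors : Finite {c : Pic0 ℂ ↥(laurentBaseChange ℂ (modularFunctionFieldFull N)) //
      (n : ℤ) • c = 0})
    (c : Pic0 ℂ ↥(laurentBaseChange ℂ (modularFunctionFieldFull N))) (hc : (n : ℤ) • c = 0) :
    (Set.range fun g : ℂ ≃ₐ[AlgebraicClosure ℚ] ℂ => galActJ N g • c).Finite := by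
  have hS : {c : Pic0 ℂ ↥(laurentBaseChange ℂ (modularFunctionFieldFull N)) |
      (n : ℤ) • c = 0}.Finite := Set.finite_coe_iff.mp hfinTors
  refine hS.subset ?_
  rintro _ ⟨g, rfl⟩
  show (n : ℤ) • (galActJ N g • c) = 0
  rw [← SemilinearAut.smul_zsmul, hc]
  exact smul_zero (A := Pic0 ℂ ↥(laurentBaseChange ℂ (modularFunctionFieldFull N))) (galActJ N g)

/-- **(E5)** if `Pic⁰(ℂ F_N)[n]` is finite, every `n`-torsion class is a base change. -/
theorem exists_bcJ_eq_of_finite_torsion {n : ℕ}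
    (hfinTors : Finite {c : Pic0 ℂ ↥(laurentBaseChange ℂ (modularFunctionFieldFull N)) //
      (n : ℤ) • c = 0})
    (c : Pic0 ℂ ↥(laurentBaseChange ℂ (modularFunctionFieldFull N))) (hc : (n : ℤ) • c = 0) :
    ∃ c₀ : JZero N, bcJ N c₀ = c :=
  exists_bcJ_eq_of_finite_orbit N c (finite_orbit_of_finite_torsion N hfinTors c hc)

/-- **The `bc` package** in the shape of `H85.eigenformSupportAt_of_lamC_bc` (the Hecke clause is
(D3), about the same map `bcJ N`). -/
theorem exists_bc {n : ℕ}
    (hfinTors : Finite {c : Pic0 ℂ ↥(laurentBaseChange ℂ (modularFunctionFieldFull N)) //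
      (n : ℤ) • c = 0}) :
    ∃ bc : JZero N →+ Pic0 ℂ ↥(laurentBaseChange ℂ (modularFunctionFieldFull N)),
      Function.Injective bc ∧
        ∀ c : Pic0 ℂ ↥(laurentBaseChange ℂ (modularFunctionFieldFull N)), (n : ℤ) • c = 0 →
          ∃ c₀ : JZero N, bc c₀ = c :=
  ⟨bcJ N, bcJ_injective N, fun c hc => exists_bcJ_eq_of_finite_torsion N hfinTors c hc⟩

end Fermat.Agent.S29.H62
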