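/-
Stage 3 (project S29) : the BASECHANGE + DESCENT package, assembled.  Owner helper80.

Inputs on main: helper62's `H62.bcJ N` (base change `J₀(N)(ℚ̄) → Pic⁰(ℂ F_N)`, injective, onto
classes with finite `Aut(ℂ/ℚ̄)`-orbit; abstract core by helper20), helper58's FIN
(`H58.finite_torsion`: `Pic⁰(ℂ F_N)[n]` is finite).

Exports (general `n ≥ 1`):
* `finite_torsion_JZero` : `J₀(N)(ℚ̄)[n]` is finite (unconditional);
* `exists_bcJ_eq_of_torsion` : every `n`-torsion class over `ℂ` is a base change (unconditional);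
* `BcHecke N` : the statement of (D3) BASECHANGE-HECKE for the map `H62.bcJ N`;
* `baseChangeDescent_of_bcHecke` : the interface package `BaseChangeDescent N n` from (D3).
-/
import Mathlib
import Fermat.Agent.S29.H80_Combined
import Fermat.Agent.S29.H62_BcPackage
import Fermat.Agent.S29.H58_Fin

set_option autoImplicit false

noncomputable section

namespace Fermat.Agent.S29.H80

open ModularCurve AlgebraicCurve

variable (N : ℕ) [NeZero N]

/-- helper62's base change map, with the target written as `JL ℂ N`. -/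
def bcJ : JZero N →+ JL ℂ N := H62.bcJ N

theorem bcJ_eq : bcJ N = H62.bcJ N := rfl

theorem bcJ_injective : Function.Injective (bcJ N) := H62.bcJ_injective N

/-- FIN over `ℂ` in the `JL` vocabulary. -/
theorem finite_torsion_JLC {n : ℕ} (hn : 0 < n) :
    Finite {y : JL ℂ N // (n : ℤ) • y = 0} :=
  H58.finite_torsion N hn

/-- **(I3)** the `n`-torsion of `J₀(N)(ℚ̄)` is finite, for every `n ≥ 1`. -/
theorem finite_torsion_JZero {n : ℕ} (hn : 0 < n) :
    Finite {x : JZero N // (n : ℤ) • x = 0} :=
  finite_torsion_JZero_of N n (bcJ N) (bcJ_injective N) (finite_torsion_JLC N hn)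

/-- Every `n`-torsion class of `Pic⁰(ℂ F_N)` is defined over `ℚ̄` (`n ≥ 1`). -/
theorem exists_bcJ_eq_of_torsion {n : ℕ} (hn : 0 < n) (y : JL ℂ N) (hy : (n : ℤ) • y = 0) :
    ∃ x : JZero N, bcJ N x = y :=
  H62.exists_bcJ_eq_of_finite_torsion N (H58.finite_torsion N hn) y hy

/-- The statement of (D3) BASECHANGE-HECKE: `bcJ` commutes with the prelude Hecke operators at all
primes. -/
def BcHecke : Prop :=
  ∀ (ℓ : Nat.Primes) (x : JZero N),
    bcJ N (TL (AlgebraicClosure ℚ) N ℓ x) = TL ℂ N ℓ (bcJ N x)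

/-- The interface package BASECHANGE + DESCENT from (D3). -/
theorem baseChangeDescent_of_bcHecke {n : ℕ} (hn : 0 < n) (hT : BcHecke N) :
    BaseChangeDescent N n :=
  ⟨bcJ N, bcJ_injective N, hT, fun y hy => exists_bcJ_eq_of_torsion N hn y hy⟩

end Fermat.Agent.S29.H80
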