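import Mathlib
import Fermat.Prelude.Def_ModularCurve_HeckeModule
import Fermat.Agent.S29.H87_HeckeFuncComm
import Fermat.Agent.S24.H97_Degree
import Fermat.Agent.S24.H40_Transcendental

/-!
# `HeckeOperatorsCommuteBar N` (helper87, S29 / T1)

The Hecke operators `T_ℓ = (α_ℓ)_* (β_ℓ)^*` on `JZero N = Pic⁰(Qbar F_N)` commute, for all pairs of
primes (including those dividing `N`), given bounded representatives for degree-zero divisor
classes of `F_N` (a consequence of Riemann's inequality).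

Proof: the multiplicative lifts `f ↦ Nm_{α_ℓ}(β_ℓ f)` commute (`hecke_func_comm`, pure field
theory), so `T_ℓ T_ℓ' - T_ℓ' T_ℓ` kills principal divisors; it is a difference of positive
correspondences of bounded degree, hence vanishes on degree-zero divisors by rigidity
(`H82.eq_on_degZero_of_positive`).
-/

set_option autoImplicit false

noncomputable section

namespace Fermat.Agent.S29.H87

open ModularCurve IntermediateField AlgebraicCurve
open Fermat.Agent.S24 Fermat.Agent.S37

variable (N : ℕ) [NeZero N]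

/-- every place of `F_N` over `Qbar` has degree one. -/
theorem place_deg_eq_one' (v : Place Qbar (FN N)) : v.deg = 1 := by
  haveI := Fermat.Agent.S24.H40.finiteDimensional_FN N
  haveI : Fact (Transcendental Qbar (jBar N)) := ⟨Fermat.Agent.S24.H40.transcendental_jBar N⟩
  exact Fermat.Agent.S24.H97.deg_eq_one (jBar N) (Fermat.Agent.S24.H40.transcendental_jBar N) v

section Lift

variable {ℓ : ℕ} [NeZero ℓ]
variable (hα : HeckeAlphaBarIntegral Qbar N ℓ) (hβ : HeckeBetaBarIntegral Qbar N ℓ)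
variable [HasPrincipalDivisors Qbar (laurentBaseChange Qbar (modularFunctionFieldFull (N * ℓ)))]

/-- `f ↦ Nm_{α_ℓ}(β_ℓ f)` is a multiplicative lift of the divisor correspondence `T_ℓ`. -/
theorem isLift_heckeDivBar (hfin : FiniteAlong Qbar (heckeAlphaBar Qbar N ℓ))
    (hN : NormFormulaAlong Qbar (heckeAlphaBar Qbar N ℓ) hfin) :
    IsLift (heckeDivBar hα hβ)
      (fun f => normAlong (heckeAlphaBar Qbar N ℓ) (heckeBetaBar Qbar N ℓ f)) := by
  intro f hf
  refine ⟨normAlong_ne_zero _ hfin ((map_ne_zero _).mpr hf), fun D hD v => ?_⟩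
  exact correspondence_apply_of_ord (heckeBetaBar Qbar N ℓ) (heckeAlphaBar Qbar N ℓ) hβ hα hfin hN
    hf hD v

theorem isPositive_heckeDivBar
    (hFI : FundamentalIdentityAlong Qbar (heckeBetaBar Qbar N ℓ) hβ) :
    H82.IsPositiveOfDegLE (heckeDivBar hα hβ) (finrankAlong Qbar (heckeBetaBar Qbar N ℓ)) :=
  H82.isPositiveOfDegLE_correspondence _ _ hβ hα hFI (place_deg_eq_one' N)

end Lift

/-- **The Hecke operators on `JZero N` commute** (given bounded representatives). -/
theorem heckeOperatorsCommuteBar_of_boundedReps {C : ℕ}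
    (hC : H82.HasBoundedReps Qbar (FN N) C) : HeckeOperatorsCommuteBar N := by
  intro ℓ ℓ'
  by_cases hne : (ℓ : ℕ) = ℓ'
  · have : ℓ = ℓ' := Subtype.ext hne
    rw [this]
  haveI : NeZero (ℓ : ℕ) := ⟨ℓ.2.ne_zero⟩
  haveI : NeZero (ℓ' : ℕ) := ⟨ℓ'.2.ne_zero⟩
  by_cases h : HeckeInputsAlong Qbar N ℓ
  swap
  · have h0 : heckeOperatorBar N ℓ = 0 := by
      rw [heckeOperatorBar, heckeOperatorAlong_of_not h]
      rfl
    rw [h0, zero_mul, mul_zero]
  by_cases h' : HeckeInputsAlong Qbar N ℓ'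
  swap
  · have h0 : heckeOperatorBar N ℓ' = 0 := by
      rw [heckeOperatorBar, heckeOperatorAlong_of_not h']
      rfl
    rw [h0, zero_mul, mul_zero]
  obtain ⟨hα, hβ, hP, hfin, hFI, hN⟩ := h
  obtain ⟨hα', hβ', hP', hfin', hFI', hN'⟩ := h'
  haveI := hP
  haveI := hP'
  have e : heckeOperatorBar N ℓ = (heckePic0Bar hα hβ hFI hfin hN).toIntLinearMap := by
    rw [heckeOperatorBar, heckeOperatorAlong_eq hα hβ hFI hfin hN]
  have e' : heckeOperatorBar N ℓ' = (heckePic0Bar hα' hβ' hFI' hfin' hN').toIntLinearMap := by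
    rw [heckeOperatorBar, heckeOperatorAlong_eq hα' hβ' hFI' hfin' hN']
  rw [e, e']
  have key := comp_eq_comp_on_degZero (heckeDivBar hα hβ) (heckeDivBar hα' hβ')
    (isPositive_heckeDivBar N hα hβ hFI) (isPositive_heckeDivBar N hα' hβ' hFI')
    (Int.natCast_nonneg _) (Int.natCast_nonneg _) _ _
    (isLift_heckeDivBar N hα hβ hfin hN) (isLift_heckeDivBar N hα' hβ' hfin' hN')
    (fun f _ => hecke_func_comm N ℓ.2 ℓ'.2 hne f) hC
  ext x
  obtain ⟨D, rfl⟩ := Pic0.mk_surjective x
  show heckePic0Bar hα hβ hFI hfin hN (heckePic0Bar hα' hβ' hFI' hfin' hN' (Pic0.mk D))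
    = heckePic0Bar hα' hβ' hFI' hfin' hN' (heckePic0Bar hα hβ hFI hfin hN (Pic0.mk D))
  rw [heckePic0Bar, heckePic0Bar, Pic0.correspondence_mk, Pic0.correspondence_mk,
    Pic0.correspondence_mk, Pic0.correspondence_mk]
  congr 1
  apply Subtype.ext
  rw [Pic0.coe_degZeroCorrespondence, Pic0.coe_degZeroCorrespondence,
    Pic0.coe_degZeroCorrespondence, Pic0.coe_degZeroCorrespondence]
  exact key D D.2

end Fermat.Agent.S29.H87
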