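import Mathlib
import Fermat.Agent.S29.H87_HeckeComm
import Fermat.Agent.S37.H34_FFBaseChar0

/-!
# `HeckeOperatorsCommuteBar N`, unconditional (helper87, S29 / T1)

`heckeOperatorsCommuteBar_of_boundedReps` (field-theoretic norm base change + rigidity) fed with
helper34's `hasBoundedReps_FN'` (Riemann's inequality on `X₀(N)` over `ℚ̄`).
-/

set_option autoImplicit false

namespace Fermat.Agent.S29.H87

open ModularCurve Fermat.Agent.S37

/-- **(T1)** The Hecke operators on `J₀(N)(ℚ̄) = Pic⁰(ℚ̄ F_N)` commute: all `N`, all pairs of primes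
(including those dividing the level). -/
theorem heckeOperatorsCommuteBar (N : ℕ) [NeZero N] : HeckeOperatorsCommuteBar N := by
  obtain ⟨C, hC⟩ := H34.hasBoundedReps_FN' N
  exact heckeOperatorsCommuteBar_of_boundedReps N hC

end Fermat.Agent.S29.H87
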