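/-
Stage 3 (project S29) : final exports.  Owner helper80.

* `bcHecke` : (D3) for helper62's base change map (helper38's `H38_BaseChangeHecke`);
* `baseChangeDescent` : the package BASECHANGE + DESCENT, unconditional, every `n ≥ 1`;
* `heckeOperatorsCommuteBar` : (T1) (helper87);
* `eigenformSupportAt_of_kummerPoincare` : (T0) from the package KUMMER-POINCARE alone;
* `exists_lam_JZero_of_kummerPoincare` : the combined injection `Lat N / n → J₀(N)(ℚ̄)[n]`.
-/
import Mathlib
import Fermat.Agent.S29.H80_BaseChange
import Fermat.Agent.S29.H38_BaseChangeHecke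
import Fermat.Agent.S29.H87_HeckeCommFinal

set_option autoImplicit false

noncomputable section

namespace Fermat.Agent.S29.H80

open ModularCurve AlgebraicCurve

attribute [local instance] H62.algebraQbarComplex H62.isScalarTower_qbar_complex

variable (N : ℕ) [NeZero N]

/-- **(D3)** the base change map commutes with the Hecke operators at all primes. -/
theorem bcHecke : BcHecke N := fun ℓ y =>
  H38.baseChangePic0_heckeOperatorAlong_primes (k := AlgebraicClosure ℚ) (K := ℂ)
    (H62.degOne_constExtJ N) ℓ y

/-- **(I2)** BASECHANGE + DESCENT, for every `n ≥ 1`. -/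
theorem baseChangeDescent {n : ℕ} (hn : 0 < n) : BaseChangeDescent N n :=
  baseChangeDescent_of_bcHecke N hn (bcHecke N)

/-- **(T1)** (helper87). -/
theorem heckeOperatorsCommuteBar : HeckeOperatorsCommuteBar N :=
  H87.heckeOperatorsCommuteBar N

/-- **(T0)** from KUMMER-POINCARE. -/
theorem eigenformSupportAt_of_kummerPoincare (p : ℕ) [Fact p.Prime]
    (hK : KummerPoincare N p) :
    letI := heckeModuleBar N
    EigenformSupportAt N p (JZero N) :=
  eigenformSupportAt_of_exports N p (heckeOperatorsCommuteBar N) hK
    (baseChangeDescent N (Fact.out : p.Prime).pos)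

/-- The combined Hecke-equivariant injection `Lat N / n → J₀(N)(ℚ̄)[n]` from KUMMER-POINCARE. -/
theorem exists_lam_JZero_of_kummerPoincare {n : ℕ} (hn : 0 < n) (hK : KummerPoincare N n) :
    ∃ lam : Lat N →+ JZero N,
      (∀ x : Lat N, (n : ℤ) • lam x = 0) ∧
      (∀ x : Lat N, lam x = 0 → ∃ y : Lat N, x = (n : ℤ) • y) ∧
      ∀ (ℓ : Nat.Primes) (x : Lat N), lam (cohT N ℓ x) = heckeOperatorBar N ℓ (lam x) :=
  exists_lam_JZero_of N n hK (baseChangeDescent N hn)

end Fermat.Agent.S29.H80
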