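import Fermat.Agent.S29.H90_NormAnFinal
import Fermat.Agent.S29.H65_HeckeInst

/-!
S29 / NORM-AN glue (helper90): the two inputs `hDop`, `hnorm` of helper65's
`H65.lamW_cohHecke` for the coset datum of ANY system of representatives of
`Γ₀(N ℓ) \ Γ₀(N)` (in particular the canonical `H65.outRep`).
-/

set_option autoImplicit false
noncomputable section
namespace Fermat.Agent.S29.H90
open UpperHalfPlane ModularCurve AlgebraicCurve CongruenceSubgroup Matrix.SpecialLinearGroup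
  ModularForm
open Fermat.Agent.S24
open Fermat.Agent.S24.H81 (Hol Mer)
open Fermat.Agent.S29.H25
open Fermat.Agent.S41.H85 (gl CosetDatum)
open Fermat.Agent.S41.H65 (cstDatum)
open P2MW.S_ModularForm_heckeT_slash_eq_self_of_mem_Gamma0.ModularForm.HeckeSlashInvariance
open scoped MatrixGroups Manifold

variable {N ℓ : ℕ} {Q : Type*} {r : Q → Gamma0 N}

/-- The `Pic`-side coset datum `diag(ℓ,1) · r q` of a system of representatives, inside
`GL(2,ℝ)⁺`. -/
def repPos (hℓ : ℓ ≠ 0) (h : H65.IsRepSystem (gl (N * ℓ)) (gl N) r) :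
    CosetDatum (H65.glp N) (H65.glp N) (Unit × Q) :=
  H65.posDatum ((cstDatum N hℓ).comp (H65.repDatum h)) (fun i => by
    show heckeDiagMatrix ℓ * gl N (r i.2) ∈ GL(2, ℝ)⁺
    exact mul_mem (H65.heckeDiagMatrix_mem_glPos hℓ) (H65.gl_mem_glPos N _))

theorem repPos_α (hℓ : ℓ ≠ 0) (h : H65.IsRepSystem (gl (N * ℓ)) (gl N) r) (i : Unit × Q) :
    (repPos hℓ h).α i = H65.diagPos ℓ hℓ * H65.glp N (r i.2) :=
  Subtype.ext rfl

/-- `hDop` of `H65.lamW_cohHecke`. -/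
theorem repPos_op [Fintype Q] (hN : N ≠ 0) (hℓ : ℓ.Prime)
    (h : H65.IsRepSystem (gl (N * ℓ)) (gl N) r) (A : Type*) [AddCommGroup A] :
    ((repPos hℓ.ne_zero h).op : (Additive (Gamma0 N) →+ A) →+ _) = H65.picOp A hN ℓ hℓ :=
  H65.comp_repDatum_op (A := A) hN ℓ hℓ h

/-- `hnorm` of `H65.lamW_cohHecke`, for `Θ = thetaC N`. -/
theorem hnorm_repPos [NeZero N] [NeZero ℓ] [Fintype Q]
    (h : H65.IsRepSystem (gl (N * ℓ)) (gl N) r) (f : FC N) (Φ : Merˣ)
    (hΘ : thetaC N f = (Φ : Mer)) :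
    thetaC N (H65.normAlong (heckeAlphaBar ℂ N ℓ) (heckeBetaBar ℂ N ℓ f)) =
      ((H65.heckeMer (repPos (NeZero.ne ℓ) h) Φ : Merˣ) : Mer) := by
  rw [H65.heckeMer_val, ← hΘ]
  exact thetaC_heckeNorm_eq_prod_of_alpha h (Equiv.punitProd Q) _
    (fun i => repPos_α (NeZero.ne ℓ) h i) f

end Fermat.Agent.S29.H90
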