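/-
Stage 3 (project S29) : the package KUMMER-POINCARE, unconditional, and (T0).  Owner helper80.

Final assembly of
* helper85's concrete Kummer setup `H85.kummerSetupFinal` (ROOT, CHARACTER, POINCARE, DICT, (D5));
* helper65's `H65.lamW`, `lamW_zsmul`, `lamW_eq_zero`, `lamW_cohHecke` (HECKE-EQUIV);
* helper90's `H90.repPos`, `repPos_op`, `hnorm_repPos` (NORM-AN);
* helper72's `H72.heckeMer_comp_repDatum_mem_admUnits` ((hAdm));
* helper8's `heckeInputsAlong_L` (HECKE-INPUTS over `ℂ`).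

Exports, for every `N ≥ 1` and every `n ≥ 1`:
* `kummerPoincare N hn : KummerPoincare N n`;
* `exists_lam_JZero N hn` : the Hecke-equivariant injection `Lat N / n → J₀(N)(ℚ̄)[n]`;
* `eigenformSupportAt N p` : **(T0)** `EigenformSupportAt N p (JZero N)` for primes `p`.
-/
import Mathlib
import Fermat.Agent.S29.H80_T0
import Fermat.Agent.S29.H85_CuspDvd
import Fermat.Agent.S29.H90_NormGlue
import Fermat.Agent.S29.H72_CuspScaleBridge
import Fermat.Agent.S29.H74_FFBankC
import Fermat.Agent.S29.H65_Bridges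

set_option autoImplicit false

noncomputable section

namespace Fermat.Agent.S29.H80

open ModularCurve AlgebraicCurve CongruenceSubgroup
open scoped MatrixGroups

attribute [local instance] H85.merAlgebra

variable (N : ℕ) [NeZero N]

/-- **KUMMER-POINCARE**, unconditional, for every `n ≥ 1`. -/
theorem kummerPoincare {n : ℕ} (hn : 0 < n) : KummerPoincare N n := by
  have hS := H85.kummerSetupFinal N hn
  refine ⟨H65.lamW hS hn, H65.lamW_zsmul hS hn, fun x hx => H65.lamW_eq_zero hS hn hx, ?_⟩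
  intro ℓ x
  haveI : NeZero (ℓ : ℕ) := ⟨ℓ.2.ne_zero⟩
  have hrep := H90.isRepSystem_outRep_Gamma0 N (ℓ : ℕ)
  haveI : Finite (Gamma0 N ⧸ (Gamma0 (N * (ℓ : ℕ))).subgroupOf (Gamma0 N)) := by
    infer_instance
  letI : Fintype (Gamma0 N ⧸ (Gamma0 (N * (ℓ : ℕ))).subgroupOf (Gamma0 N)) := Fintype.ofFinite _
  rw [← H58.cohHecke_heckeGen_eq_cohT]
  exact H65.lamW_cohHecke hS hn (fun c => H85.algebraMap_mer c)
    (fun γ y => H65.actMer_eq (γ : SL(2, ℤ)) y) ℓ (H74.heckeInputsAlong_FC N ℓ)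
    (H90.repPos ℓ.2.ne_zero hrep) (H90.repPos_op (NeZero.ne N) ℓ.2 hrep ℤ)
    (fun Φ hΦ => H72.heckeMer_comp_repDatum_mem_admUnits ℓ.2.ne_zero hrep _ hΦ)
    (fun f Φ h => H90.hnorm_repPos hrep f Φ h) x

/-- The Hecke-equivariant injection `Lat N / n → J₀(N)(ℚ̄)[n]`, every `n ≥ 1`. -/
theorem exists_lam_JZero {n : ℕ} (hn : 0 < n) :
    ∃ lam : Lat N →+ JZero N,
      (∀ x : Lat N, (n : ℤ) • lam x = 0) ∧
      (∀ x : Lat N, lam x = 0 → ∃ y : Lat N, x = (n : ℤ) • y) ∧
      ∀ (ℓ : Nat.Primes) (x : Lat N), lam (cohT N ℓ x) = heckeOperatorBar N ℓ (lam x) :=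
  exists_lam_JZero_of_kummerPoincare N hn (kummerPoincare N hn)

/-- **(T0)** eigenform ideals containing `p` are in the support of `J₀(N)(ℚ̄)`. -/
theorem eigenformSupportAt (p : ℕ) [Fact p.Prime] :
    letI := heckeModuleBar N
    EigenformSupportAt N p (JZero N) :=
  eigenformSupportAt_of_kummerPoincare N p (kummerPoincare N (Fact.out : p.Prime).pos)

end Fermat.Agent.S29.H80
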