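/-
Stage 3 (project S29) : S29 and S42 from the frozen S37 statement ALONE.  Owner helper80.

All Stage-3 inputs ((T0) `EigenformSupportAt`, (T1) commutation, (T2) Galois/Hecke commutation,
(T3) open stabilisers) are theorems on main; helper66's chain `H66.s29_of_stages` /
`H66.s42_of_stages` then leaves the frozen S37 statement as the only hypothesis.

`Fermat/Agent/S29.lean` is `H80.s29_of_s37 (fun N p _ hc => Fermat.Agent.S37.result N p hc) hg hp φ`,
`Fermat/Agent/S42.lean` is `H80.s42_of_s37 (fun N p _ hc => Fermat.Agent.S37.result N p hc) P`.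
-/
import Mathlib
import Fermat.Agent.S29.H66_S29Chain
import Fermat.Agent.S29.H80_KummerPoincare

set_option autoImplicit false

namespace Fermat.Agent.S29.H80

open CuspForm CuspForm.IsNormalizedEigenform

/-- **Frozen S29** from the frozen S37 statement. -/
theorem s29_of_s37
    (h37 : ∀ (N p : ℕ) [NeZero N] (_ : ModularCurve.HeckeOperatorsCommuteBar N),
      letI := ModularCurve.heckeModuleBar N
      ∀ (_ : SMulCommClass (AlgebraicClosure ℚ ≃ₐ[ℚ] AlgebraicClosure ℚ) ModularCurve.HeckeAlg
        (ModularCurve.JZero N)),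
        ModularCurve.SpecializationExists (K := ℚ) (L := AlgebraicClosure ℚ) N p
          (ModularCurve.JZero N))
    {N : ℕ} {g : CuspForm (CongruenceSubgroup.Gamma0 N) 2} (hg : g.IsNormalizedEigenform)
    {p : ℕ} (hp : p.Prime) {k : Type} [Field k] [CharP k p]
    (φ : integralClosure ℤ ℂ →+* k) :
    ∃ ρ : ResidualGaloisRep k, ρ.IsAttachedTo g φ ∧
      ∀ ℓ : ℕ, ℓ.Prime → ¬ ℓ ∣ N * p → ρ.IsUnramifiedAt ℓ :=
  H66.s29_of_stages h37 (fun N _ => heckeOperatorsCommuteBar N)
    (fun N _ _ hp => kummerPoincare N hp.pos)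
    (fun N _ _ hp => baseChangeDescent N hp.pos) hg hp φ

/-- **Frozen S42** from the frozen S37 statement. -/
theorem s42_of_s37
    (h37 : ∀ (N p : ℕ) [NeZero N] (_ : ModularCurve.HeckeOperatorsCommuteBar N),
      letI := ModularCurve.heckeModuleBar N
      ∀ (_ : SMulCommClass (AlgebraicClosure ℚ ≃ₐ[ℚ] AlgebraicClosure ℚ) ModularCurve.HeckeAlg
        (ModularCurve.JZero N)),
        ModularCurve.SpecializationExists (K := ℚ) (L := AlgebraicClosure ℚ) N p
          (ModularCurve.JZero N))
    (P : FreyPackage) : ∀ M : ℕ, 0 < M → P.EigenformResidualAttachmentAt M :=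
  H66.s42_of_stages h37 (fun N _ => heckeOperatorsCommuteBar N)
    (fun N _ _ hp => kummerPoincare N hp.pos)
    (fun N _ _ hp => baseChangeDescent N hp.pos) P

end Fermat.Agent.S29.H80
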