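import Mathlib

set_option autoImplicit false

noncomputable section

namespace Fermat.Agent.S29.H14

open Complex Metric Filter Set Topology

/-! ### (R1') logarithms and roots of nonvanishing holomorphic functions on a ball -/

/-- A nonvanishing holomorphic function on an open ball is the exponential of a holomorphic
function. -/
theorem exists_log_on_ball {g : ℂ → ℂ} {c : ℂ} {r : ℝ}
    (hg : DifferentiableOn ℂ g (ball c r)) (hg0 : ∀ z ∈ ball c r, g z ≠ 0) :
    ∃ G : ℂ → ℂ, DifferentiableOn ℂ G (ball c r) ∧ ∀ z ∈ ball c r, g z = Complex.exp (G z) := by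
  rcases le_or_gt r 0 with hr | hr
  · refine ⟨fun _ => 0, differentiableOn_const _, fun z hz => ?_⟩
    rw [ball_eq_empty.mpr hr] at hz
    exact absurd hz (Set.notMem_empty z)
  have hopen : IsOpen (ball c r) := isOpen_ball
  have hdg : DifferentiableOn ℂ (deriv g) (ball c r) := hg.deriv hopen
  have hh : DifferentiableOn ℂ (fun z => deriv g z / g z) (ball c r) := hdg.div hg hg0
  obtain ⟨G0, hG0⟩ := hh.isExactOn_ball
  have hφ : ∀ z ∈ ball c r, HasDerivAt (fun z => g z * Complex.exp (-G0 z)) 0 z := by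
    intro z hz
    have h1 : HasDerivAt g (deriv g z) z :=
      (hg.differentiableAt (hopen.mem_nhds hz)).hasDerivAt
    have h2 : HasDerivAt (fun z => Complex.exp (-G0 z))
        (Complex.exp (-G0 z) * -(deriv g z / g z)) z := (hG0 z hz).neg.cexp
    have h3 := h1.mul h2
    have h4 : deriv g z * Complex.exp (-G0 z) + g z * (Complex.exp (-G0 z) * -(deriv g z / g z))
        = 0 := by
      have := hg0 z hz
      field_simp
      ring
    rw [h4] at h3
    exact h3
  have hφd : DifferentiableOn ℂ (fun z => g z * Complex.exp (-G0 z)) (ball c r) :=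
    fun z hz => (hφ z hz).differentiableAt.differentiableWithinAt
  have hconst : ∀ z ∈ ball c r,
      g z * Complex.exp (-G0 z) = g c * Complex.exp (-G0 c) := by
    intro z hz
    refine hopen.is_const_of_deriv_eq_zero (convex_ball c r).isPreconnected hφd ?_ hz
      (mem_ball_self hr)
    intro w hw
    exact (hφ w hw).deriv
  set a : ℂ := g c * Complex.exp (-G0 c) with ha
  have ha0 : a ≠ 0 := mul_ne_zero (hg0 c (mem_ball_self hr)) (Complex.exp_ne_zero _)
  refine ⟨fun z => G0 z + Complex.log a, ?_, ?_⟩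
  · intro z hz
    exact ((hG0 z hz).differentiableAt.differentiableWithinAt).add_const _
  · intro z hz
    rw [Complex.exp_add, Complex.exp_log ha0, ← hconst z hz, mul_comm, mul_assoc,
      ← Complex.exp_add, neg_add_cancel, Complex.exp_zero, mul_one]

/-- A nonvanishing holomorphic function on an open ball has a holomorphic `p`-th root. -/
theorem exists_root_on_ball (p : ℕ) (hp : p ≠ 0) {g : ℂ → ℂ} {c : ℂ} {r : ℝ}
    (hg : DifferentiableOn ℂ g (ball c r)) (hg0 : ∀ z ∈ ball c r, g z ≠ 0) :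
    ∃ w : ℂ → ℂ, DifferentiableOn ℂ w (ball c r) ∧ (∀ z ∈ ball c r, w z ≠ 0) ∧
      ∀ z ∈ ball c r, w z ^ p = g z := by
  obtain ⟨G, hG, hGe⟩ := exists_log_on_ball hg hg0
  refine ⟨fun z => Complex.exp (G z / p), ?_, fun z _ => Complex.exp_ne_zero _, ?_⟩
  · exact (hG.div_const _).cexp
  · intro z hz
    rw [← Complex.exp_nat_mul, hGe z hz]
    congr 1
    field_simp


/-! ### (R1) roots of meromorphic functions on a disc -/

/-- `p`-th power of a factorized rational function. -/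
theorem factorizedRational_pow (d : ℂ → ℤ) (hd : d.support.Finite) (p : ℕ) :
    (∏ᶠ u, ((· - u) ^ d u : ℂ → ℂ)) ^ p = ∏ᶠ u, ((· - u) ^ (d u * p) : ℂ → ℂ) := by
  rw [finprod_pow]
  · congr 1
    funext u
    funext z
    simp only [Pi.pow_apply]
    rw [← zpow_natCast, ← zpow_mul]
  · show (Function.mulSupport fun u => ((· - u) ^ d u : ℂ → ℂ)).Finite
    rw [Function.FactorizedRational.mulSupport]
    exact hd

/-- **(R1)** A meromorphic function on a closed disc all of whose orders are finite and divisible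
by `p` has a meromorphic `p`-th root on the open disc. -/
theorem exists_root_closedBall (p : ℕ) (hp : p ≠ 0) {f : ℂ → ℂ} {c : ℂ} {r : ℝ}
    (hf : MeromorphicOn f (closedBall c r))
    (hne : ∀ z ∈ closedBall c r, meromorphicOrderAt f z ≠ ⊤)
    (hdiv : ∀ z ∈ closedBall c r, (p : ℤ) ∣ (meromorphicOrderAt f z).untop₀) :
    ∃ Φ : ℂ → ℂ, MeromorphicOn Φ (ball c r) ∧ Φ ^ p =ᶠ[codiscreteWithin (ball c r)] f := by
  classical
  set K := closedBall c r with hK
  set D := MeromorphicOn.divisor f K with hD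
  have hfin : D.support.Finite := D.finiteSupport (isCompact_closedBall c r)
  obtain ⟨g, hga, hg0, hfg⟩ := hf.extract_zeros_poles (fun u => hne u u.2) hfin
  have hsub : ball c r ⊆ K := ball_subset_closedBall
  have hp' : (p : ℤ) ≠ 0 := by exact_mod_cast hp
  set d' : ℂ → ℤ := fun u => D u / p with hd'
  have key : ∀ u, d' u * p = D u := by
    intro u
    by_cases hu : u ∈ K
    · have h1 : D u = (meromorphicOrderAt f u).untop₀ := MeromorphicOn.divisor_apply hf hu
      have h2 : (p : ℤ) ∣ D u := h1 ▸ hdiv u hu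
      exact Int.ediv_mul_cancel h2
    · have h1 : D u = 0 := D.apply_eq_zero_of_notMem hu
      simp [hd', h1]
  have hd'fin : d'.support.Finite := by
    refine hfin.subset ?_
    intro u hu
    simp only [Function.mem_support] at hu ⊢
    intro h0
    apply hu
    simp [hd', h0]
  have hgd : DifferentiableOn ℂ g (ball c r) :=
    fun z hz => (hga z (hsub hz)).differentiableAt.differentiableWithinAt
  obtain ⟨w, hwd, hw0, hwp⟩ := exists_root_on_ball p hp hgd (fun z hz => hg0 ⟨z, hsub hz⟩)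
  refine ⟨(∏ᶠ u, ((· - u) ^ d' u : ℂ → ℂ)) * w, ?_, ?_⟩
  · refine ((Function.FactorizedRational.meromorphicNFOn d' (ball c r)).meromorphicOn).mul ?_
    exact (hwd.analyticOnNhd isOpen_ball).meromorphicOn
  · have h1 : f =ᶠ[codiscreteWithin (ball c r)] (∏ᶠ u, (· - u) ^ D u) • g :=
      hfg.filter_mono (Filter.codiscreteWithin_mono hsub)
    filter_upwards [h1, Filter.self_mem_codiscreteWithin (ball c r)] with z hz hzb
    rw [hz, mul_pow, factorizedRational_pow d' hd'fin p]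
    simp only [Pi.mul_apply, Pi.smul_apply', Pi.pow_apply, smul_eq_mul]
    rw [hwp z hzb]
    have h2 : (fun u => ((· - u) ^ (d' u * p) : ℂ → ℂ)) = fun u => ((· - u) ^ D u : ℂ → ℂ) := by
      funext u
      rw [key u]
    rw [h2]


/-! ### codiscrete equality on open sets -/

/-- On an open set, codiscrete equality is equality on punctured neighbourhoods of all points. -/
theorem eventuallyEq_codiscreteWithin_iff {U : Set ℂ} (hU : IsOpen U) {f g : ℂ → ℂ} :
    f =ᶠ[codiscreteWithin U] g ↔ ∀ x ∈ U, f =ᶠ[𝓝[≠] x] g := by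
  unfold Filter.EventuallyEq Filter.Eventually
  rw [mem_codiscreteWithin_iff_forall_mem_nhdsNE]
  refine forall₂_congr fun x hx => ?_
  have hUx : U ∈ 𝓝[≠] x := mem_nhdsWithin_of_mem_nhds (hU.mem_nhds hx)
  constructor
  · intro h
    filter_upwards [h, hUx] with z hz hzU
    rcases hz with hz | hz
    · exact hz
    · exact absurd hzU hz
  · intro h
    filter_upwards [h] with z hz
    exact Or.inl hz

/-- Identity theorem: a meromorphic function on a preconnected open set which vanishes on a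
punctured neighbourhood of one point vanishes codiscretely. -/
theorem eventuallyEq_zero_of_order_top {U : Set ℂ} (hU : IsOpen U) (hUc : IsPreconnected U)
    {f : ℂ → ℂ} (hf : MeromorphicOn f U) {x : ℂ} (hx : x ∈ U)
    (hx' : meromorphicOrderAt f x = ⊤) : f =ᶠ[codiscreteWithin U] 0 := by
  rw [eventuallyEq_codiscreteWithin_iff hU]
  intro y hy
  have hy' : meromorphicOrderAt f y = ⊤ := by
    by_contra hne
    exact hf.meromorphicOrderAt_ne_top_of_isPreconnected hUc hy hx hne hx'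
  exact meromorphicOrderAt_eq_top_iff.mp hy'

/-! ### (R2) uniqueness of roots up to roots of unity -/

/-- **(R2)** Two meromorphic functions on a preconnected open set with the same `p`-th power
differ by a `p`-th root of unity. -/
theorem root_unique {U : Set ℂ} (hU : IsOpen U) (hUc : IsPreconnected U) {Φ Ψ : ℂ → ℂ}
    (hΦ : MeromorphicOn Φ U) (hΨ : MeromorphicOn Ψ U)
    (hΨne : ∀ z ∈ U, meromorphicOrderAt Ψ z ≠ ⊤) {p : ℕ} (hp : p ≠ 0)
    (h : Φ ^ p =ᶠ[codiscreteWithin U] Ψ ^ p) :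
    ∃ ζ : ℂ, ζ ^ p = 1 ∧ Φ =ᶠ[codiscreteWithin U] ζ • Ψ := by
  classical
  rcases U.eq_empty_or_nonempty with hemp | ⟨x0, hx0⟩
  · refine ⟨1, one_pow p, ?_⟩
    rw [eventuallyEq_codiscreteWithin_iff hU]
    intro x hx
    rw [hemp] at hx
    exact absurd hx (Set.notMem_empty x)
  set q : ℂ → ℂ := Φ * Ψ⁻¹ with hq
  have hqm : MeromorphicOn q U := hΦ.mul hΨ.inv
  have hΨ0 : ∀ x ∈ U, ∀ᶠ z in 𝓝[≠] x, Ψ z ≠ 0 := fun x hx =>
    (meromorphicOrderAt_ne_top_iff_eventually_ne_zero (hΨ x hx)).mp (hΨne x hx)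
  have hpow : ∀ x ∈ U, ∀ᶠ z in 𝓝[≠] x, q z ^ p = 1 := by
    intro x hx
    filter_upwards [(eventuallyEq_codiscreteWithin_iff hU).mp h x hx, hΨ0 x hx] with z hz hz0
    have hz' : Φ z ^ p = Ψ z ^ p := hz
    simp only [hq, Pi.mul_apply, Pi.inv_apply, mul_pow, inv_pow, hz']
    exact mul_inv_cancel₀ (pow_ne_zero p hz0)
  -- find the root of unity at `x0`
  have hex : ∃ ζ ∈ Polynomial.nthRootsFinset p (1 : ℂ), ∃ᶠ z in 𝓝[≠] x0, q z = ζ := by
    by_contra hcon
    push Not at hcon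
    have h1 : ∀ᶠ z in 𝓝[≠] x0, ∀ ζ ∈ Polynomial.nthRootsFinset p (1 : ℂ), q z ≠ ζ := by
      rw [Filter.eventually_all_finset]
      intro ζ hζ
      exact hcon ζ hζ
    have h2 : ∀ᶠ z in 𝓝[≠] x0, False := by
      filter_upwards [h1, hpow x0 hx0] with z hz1 hz2
      exact hz1 (q z) ((Polynomial.mem_nthRootsFinset (Nat.pos_of_ne_zero hp) 1).mpr hz2) rfl
    exact (Filter.eventually_false_iff_eq_bot.mp h2 ▸ (inferInstance : (𝓝[≠] x0).NeBot)).ne rfl
  obtain ⟨ζ, hζ, hfreq⟩ := hex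
  have hζp : ζ ^ p = 1 := (Polynomial.mem_nthRootsFinset (Nat.pos_of_ne_zero hp) 1).mp hζ
  refine ⟨ζ, hζp, ?_⟩
  have hsub : MeromorphicOn (q - fun _ => ζ) U := hqm.sub (MeromorphicOn.const ζ)
  have hev : (q - fun _ => ζ) =ᶠ[𝓝[≠] x0] 0 := by
    rw [← (hsub x0 hx0).frequently_zero_iff_eventuallyEq_zero]
    refine hfreq.mono fun z hz => ?_
    simp [hz]
  have htop : meromorphicOrderAt (q - fun _ => ζ) x0 = ⊤ := meromorphicOrderAt_eq_top_iff.mpr hev
  have hall := eventuallyEq_zero_of_order_top hU hUc hsub hx0 htop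
  rw [eventuallyEq_codiscreteWithin_iff hU] at hall ⊢
  intro x hx
  filter_upwards [hall x hx, hΨ0 x hx] with z hz hz0
  have hz' : q z = ζ := by
    have : q z - ζ = 0 := hz
    exact sub_eq_zero.mp this
  simp only [Pi.smul_apply, smul_eq_mul, ← hz', hq, Pi.mul_apply, Pi.inv_apply]
  field_simp


/-! ### normal forms -/

/-- Two functions in normal form on an open set which agree codiscretely agree everywhere. -/
theorem eqOn_of_meromorphicNFOn {U : Set ℂ} (hU : IsOpen U) {f g : ℂ → ℂ}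
    (hf : MeromorphicNFOn f U) (hg : MeromorphicNFOn g U)
    (h : f =ᶠ[codiscreteWithin U] g) : EqOn f g U := by
  intro x hx
  have h1 := (eventuallyEq_codiscreteWithin_iff hU).mp h x hx
  exact ((hf hx).eventuallyEq_nhdsNE_iff_eventuallyEq_nhds (hg hx)).mp h1 |>.eq_of_nhds

/-- A root of a function of finite order has finite order. -/
theorem order_ne_top_of_pow_eventuallyEq {Φ f : ℂ → ℂ} {x : ℂ} {p : ℕ} (hp : p ≠ 0)
    (hΦ : MeromorphicAt Φ x) (hf : MeromorphicAt f x) (hfx : meromorphicOrderAt f x ≠ ⊤)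
    (h : Φ ^ p =ᶠ[𝓝[≠] x] f) : meromorphicOrderAt Φ x ≠ ⊤ := by
  rw [meromorphicOrderAt_ne_top_iff_eventually_ne_zero hΦ]
  filter_upwards [h, (meromorphicOrderAt_ne_top_iff_eventually_ne_zero hf).mp hfx] with z hz hz0
  intro h0
  apply hz0
  have : Φ z ^ p = f z := hz
  rw [← this, h0, zero_pow hp]

/-- The order of a root. -/
theorem order_root {Φ f : ℂ → ℂ} {x : ℂ} {p : ℕ}
    (hΦ : MeromorphicAt Φ x) (h : Φ ^ p =ᶠ[𝓝[≠] x] f) :
    (p : WithTop ℤ) * meromorphicOrderAt Φ x = meromorphicOrderAt f x := by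
  rw [← meromorphicOrderAt_congr h, meromorphicOrderAt_pow hΦ]

/-! ### (R3) gluing roots along an exhaustion by discs -/

section Exhaustion

variable {U : Set ℂ} {c : ℕ → ℂ} {r : ℕ → ℝ}

/-- Roots in normal form on the `n`-th disc of an exhaustion. -/
def IsRootOn (p : ℕ) (f : ℂ → ℂ) (V : Set ℂ) (Φ : ℂ → ℂ) : Prop :=
  MeromorphicNFOn Φ V ∧ Φ ^ p =ᶠ[codiscreteWithin V] f

theorem exists_isRootOn_ball (p : ℕ) (hp : p ≠ 0) {f : ℂ → ℂ} {c : ℂ} {r : ℝ}
    (hf : MeromorphicOn f (closedBall c r))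
    (hne : ∀ z ∈ closedBall c r, meromorphicOrderAt f z ≠ ⊤)
    (hdiv : ∀ z ∈ closedBall c r, (p : ℤ) ∣ (meromorphicOrderAt f z).untop₀) :
    ∃ Φ, IsRootOn p f (ball c r) Φ := by
  obtain ⟨Φ, hΦ, hΦp⟩ := exists_root_closedBall p hp hf hne hdiv
  refine ⟨toMeromorphicNFOn Φ (ball c r), meromorphicNFOn_toMeromorphicNFOn Φ (ball c r), ?_⟩
  filter_upwards [hΦp, toMeromorphicNFOn_eqOn_codiscrete hΦ] with z hz hz'
  simp only [Pi.pow_apply] at hz ⊢
  rw [← hz', hz]

theorem exists_isRootOn_succ (p : ℕ) (hp : p ≠ 0) {f : ℂ → ℂ} {c c' : ℂ} {r r' : ℝ}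
    (hf : MeromorphicOn f (closedBall c' r'))
    (hne : ∀ z ∈ closedBall c' r', meromorphicOrderAt f z ≠ ⊤)
    (hdiv : ∀ z ∈ closedBall c' r', (p : ℤ) ∣ (meromorphicOrderAt f z).untop₀)
    (hsub : ball c r ⊆ ball c' r') {Φ : ℂ → ℂ} (hΦ : IsRootOn p f (ball c r) Φ) :
    ∃ Φ', IsRootOn p f (ball c' r') Φ' ∧ EqOn Φ' Φ (ball c r) := by
  obtain ⟨Ψ, hΨnf, hΨp⟩ := exists_isRootOn_ball p hp hf hne hdiv
  have hB : IsOpen (ball c r) := isOpen_ball
  have hsub' : ball c r ⊆ closedBall c' r' := hsub.trans ball_subset_closedBall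
  have hΨm : MeromorphicOn Ψ (ball c r) := fun x hx => (hΨnf (hsub hx)).meromorphicAt
  have hΨp' : Ψ ^ p =ᶠ[codiscreteWithin (ball c r)] f :=
    hΨp.filter_mono (Filter.codiscreteWithin_mono hsub)
  have hΨne : ∀ z ∈ ball c r, meromorphicOrderAt Ψ z ≠ ⊤ := by
    intro z hz
    exact order_ne_top_of_pow_eventuallyEq hp (hΨm z hz) (hf z (hsub' hz)) (hne z (hsub' hz))
      ((eventuallyEq_codiscreteWithin_iff hB).mp hΨp' z hz)
  obtain ⟨ζ, hζ, hζeq⟩ := root_unique hB (convex_ball c r).isPreconnected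
    hΦ.1.meromorphicOn hΨm hΨne hp (hΦ.2.trans hΨp'.symm)
  have hζ0 : ζ ≠ 0 := by
    intro h0
    rw [h0, zero_pow hp] at hζ
    exact zero_ne_one hζ
  have hnf : MeromorphicNFOn ((fun _ => ζ) * Ψ) (ball c' r') := by
    rw [meromorphicNFOn_mul_iff_right_of_analyticOnNhd analyticOnNhd_const (fun _ _ => hζ0)]
    exact hΨnf
  refine ⟨(fun _ => ζ) * Ψ, ⟨hnf, ?_⟩, ?_⟩
  · filter_upwards [hΨp] with z hz
    simp only [Pi.pow_apply, Pi.mul_apply] at hz ⊢
    rw [mul_pow, hζ, one_mul, hz]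
  · refine eqOn_of_meromorphicNFOn hB (fun x hx => hnf (hsub hx)) hΦ.1 ?_
    filter_upwards [hζeq] with z hz
    simp only [Pi.mul_apply]
    rw [hz]
    rfl

/-- **(R3), abstract form.** If the open set `U` is exhausted by an increasing sequence of open
discs whose closures lie in `U`, then every meromorphic function on `U` with finite orders, all
divisible by `p`, has a meromorphic `p`-th root on `U`, in normal form. -/
theorem exists_root_of_exhaustion (hU : IsOpen U)
    (hK : ∀ n, closedBall (c n) (r n) ⊆ U)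
    (hmono : ∀ n, ball (c n) (r n) ⊆ ball (c (n + 1)) (r (n + 1)))
    (hcov : U ⊆ ⋃ n, ball (c n) (r n))
    (p : ℕ) (hp : p ≠ 0) {f : ℂ → ℂ} (hf : MeromorphicOn f U)
    (hne : ∀ z ∈ U, meromorphicOrderAt f z ≠ ⊤)
    (hdiv : ∀ z ∈ U, (p : ℤ) ∣ (meromorphicOrderAt f z).untop₀) :
    ∃ Φ : ℂ → ℂ, MeromorphicNFOn Φ U ∧ Φ ^ p =ᶠ[codiscreteWithin U] f := by
  classical
  have hfn : ∀ n, MeromorphicOn f (closedBall (c n) (r n)) := fun n => hf.mono_set (hK n)
  have hnen : ∀ n, ∀ z ∈ closedBall (c n) (r n), meromorphicOrderAt f z ≠ ⊤ :=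
    fun n z hz => hne z (hK n hz)
  have hdivn : ∀ n, ∀ z ∈ closedBall (c n) (r n), (p : ℤ) ∣ (meromorphicOrderAt f z).untop₀ :=
    fun n z hz => hdiv z (hK n hz)
  have h0 := exists_isRootOn_ball p hp (hfn 0) (hnen 0) (hdivn 0)
  have hstep : ∀ n (Φ : {Φ : ℂ → ℂ // IsRootOn p f (ball (c n) (r n)) Φ}),
      ∃ Φ' : {Φ : ℂ → ℂ // IsRootOn p f (ball (c (n + 1)) (r (n + 1))) Φ},
        EqOn Φ'.1 Φ.1 (ball (c n) (r n)) := by
    intro n Φ
    obtain ⟨Φ', h1, h2⟩ := exists_isRootOn_succ p hp (hfn (n + 1)) (hnen (n + 1)) (hdivn (n + 1))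
      (hmono n) Φ.2
    exact ⟨⟨Φ', h1⟩, h2⟩
  let seq : ∀ n, {Φ : ℂ → ℂ // IsRootOn p f (ball (c n) (r n)) Φ} := fun n =>
    Nat.rec (motive := fun n => {Φ : ℂ → ℂ // IsRootOn p f (ball (c n) (r n)) Φ})
      ⟨h0.choose, h0.choose_spec⟩ (fun n Φ => (hstep n Φ).choose) n
  have hseq : ∀ n, EqOn (seq (n + 1)).1 (seq n).1 (ball (c n) (r n)) := fun n =>
    (hstep n (seq n)).choose_spec
  have hmono' : ∀ m n, m ≤ n → ball (c m) (r m) ⊆ ball (c n) (r n) := by
    intro m n hmn
    induction n, hmn using Nat.le_induction with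
    | base => exact subset_rfl
    | succ n _ ih => exact ih.trans (hmono n)
  have hseq' : ∀ m n, m ≤ n → EqOn (seq n).1 (seq m).1 (ball (c m) (r m)) := by
    intro m n hmn
    induction n, hmn using Nat.le_induction with
    | base => exact fun _ _ => rfl
    | succ n hmn ih =>
      intro z hz
      rw [hseq n (hmono' m n hmn hz), ih hz]
  let Φ : ℂ → ℂ := fun z =>
    if h : ∃ n, z ∈ ball (c n) (r n) then (seq (Nat.find h)).1 z else 0
  have hΦ : ∀ n, EqOn Φ (seq n).1 (ball (c n) (r n)) := by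
    intro n z hz
    have h : ∃ n, z ∈ ball (c n) (r n) := ⟨n, hz⟩
    show (if h : ∃ n, z ∈ ball (c n) (r n) then (seq (Nat.find h)).1 z else 0) = _
    rw [dif_pos h]
    exact (hseq' (Nat.find h) n (Nat.find_min' h hz) (Nat.find_spec h)).symm
  have hΦn : ∀ x ∈ U, ∃ n, x ∈ ball (c n) (r n) ∧ Φ =ᶠ[𝓝 x] (seq n).1 := by
    intro x hx
    obtain ⟨n, hn⟩ := mem_iUnion.mp (hcov hx)
    exact ⟨n, hn, Filter.eventuallyEq_of_mem (isOpen_ball.mem_nhds hn) (hΦ n)⟩
  refine ⟨Φ, ?_, ?_⟩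
  · intro x hx
    obtain ⟨n, hn, heq⟩ := hΦn x hx
    rw [meromorphicNFAt_congr heq]
    exact (seq n).2.1 hn
  · rw [eventuallyEq_codiscreteWithin_iff hU]
    intro x hx
    obtain ⟨n, hn, heq⟩ := hΦn x hx
    have h1 := (eventuallyEq_codiscreteWithin_iff isOpen_ball).mp (seq n).2.2 x hn
    have h2 : Φ =ᶠ[𝓝[≠] x] (seq n).1 := heq.filter_mono nhdsWithin_le_nhds
    filter_upwards [h1, h2] with z hz1 hz2
    simp only [Pi.pow_apply] at hz1 ⊢
    rw [hz2, hz1]

end Exhaustion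


/-! ### (R3) the upper half plane -/

section UpperHalfPlane

open UpperHalfPlane

/-- centres of the exhausting discs of the upper half plane -/
def hCenter (n : ℕ) : ℂ := (((n : ℝ) + 2 : ℝ) : ℂ) * Complex.I

/-- radii of the exhausting discs of the upper half plane -/
def hRadius (n : ℕ) : ℝ := ((n : ℝ) + 2) - 1 / ((n : ℝ) + 2)

theorem hCenter_re (n : ℕ) : (hCenter n).re = 0 := by simp [hCenter]

theorem hCenter_im (n : ℕ) : (hCenter n).im = (n : ℝ) + 2 := by simp [hCenter]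

theorem closedBall_hCenter_subset (n : ℕ) :
    closedBall (hCenter n) (hRadius n) ⊆ upperHalfPlaneSet := by
  intro z hz
  rw [mem_closedBall, Complex.dist_eq] at hz
  have h1 : |(z - hCenter n).im| ≤ ‖z - hCenter n‖ := Complex.abs_im_le_norm _
  have h2 : (z - hCenter n).im = z.im - ((n : ℝ) + 2) := by
    rw [Complex.sub_im, hCenter_im]
  have h3 : (0 : ℝ) < 1 / ((n : ℝ) + 2) := by positivity
  have h4 := (abs_le.mp (h1.trans hz)).1
  rw [h2, hRadius] at h4
  show 0 < z.im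
  linarith

theorem ball_hCenter_mono (n : ℕ) :
    ball (hCenter n) (hRadius n) ⊆ ball (hCenter (n + 1)) (hRadius (n + 1)) := by
  apply ball_subset_ball'
  have hd : dist (hCenter n) (hCenter (n + 1)) = 1 := by
    rw [Complex.dist_eq, hCenter, hCenter, ← sub_mul, ← Complex.ofReal_sub, norm_mul,
      Complex.norm_I, mul_one, Complex.norm_real]
    push_cast
    norm_num
  rw [hd, hRadius, hRadius]
  push_cast
  have h1 : (0 : ℝ) < (n : ℝ) + 2 := by positivity
  have h2 : 1 / ((n : ℝ) + 1 + 2) ≤ 1 / ((n : ℝ) + 2) := by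
    apply one_div_le_one_div_of_le h1
    linarith
  linarith

theorem upperHalfPlaneSet_subset_iUnion :
    upperHalfPlaneSet ⊆ ⋃ n, ball (hCenter n) (hRadius n) := by
  intro z hz
  have hy : 0 < z.im := hz
  obtain ⟨n, hn⟩ := exists_nat_gt ((z.re ^ 2 + z.im ^ 2 + 2) / (2 * z.im))
  refine mem_iUnion.mpr ⟨n, ?_⟩
  rw [mem_ball, Complex.dist_eq]
  set N : ℝ := (n : ℝ) + 2 with hN
  have hN2 : (2 : ℝ) ≤ N := by
    have : (0 : ℝ) ≤ n := Nat.cast_nonneg n
    linarith
  have hNpos : 0 < N := by linarith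
  have hr : 0 < N - 1 / N := by
    have : 1 / N ≤ 1 / 2 := one_div_le_one_div_of_le (by norm_num) hN2
    linarith
  have hkey : z.re ^ 2 + z.im ^ 2 + 2 < 2 * z.im * N := by
    have h1 : (z.re ^ 2 + z.im ^ 2 + 2) / (2 * z.im) < N := by linarith
    rw [div_lt_iff₀ (by positivity)] at h1
    linarith
  have hsq : ‖z - hCenter n‖ ^ 2 < (N - 1 / N) ^ 2 := by
    rw [Complex.sq_norm, Complex.normSq_apply, Complex.sub_re, Complex.sub_im, hCenter_re,
      hCenter_im, ← hN]
    have h2 : (N - 1 / N) ^ 2 = N ^ 2 - 2 + 1 / N ^ 2 := by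
      field_simp
      ring
    rw [h2]
    have h3 : (0 : ℝ) < 1 / N ^ 2 := by positivity
    nlinarith
  show ‖z - hCenter n‖ < hRadius n
  rw [hRadius, ← hN]
  exact lt_of_pow_lt_pow_left₀ 2 hr.le hsq

/-- **(R3)** A meromorphic function on the upper half plane, nowhere locally zero, all of whose
orders are divisible by `p`, has a meromorphic `p`-th root on the upper half plane (in normal
form). -/
theorem exists_root_upperHalfPlane (p : ℕ) (hp : p ≠ 0) {f : ℂ → ℂ}
    (hf : MeromorphicOn f upperHalfPlaneSet)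
    (hne : ∀ z ∈ upperHalfPlaneSet, meromorphicOrderAt f z ≠ ⊤)
    (hdiv : ∀ z ∈ upperHalfPlaneSet, (p : ℤ) ∣ (meromorphicOrderAt f z).untop₀) :
    ∃ Φ : ℂ → ℂ, MeromorphicNFOn Φ upperHalfPlaneSet ∧
      Φ ^ p =ᶠ[codiscreteWithin upperHalfPlaneSet] f :=
  exists_root_of_exhaustion isOpen_upperHalfPlaneSet closedBall_hCenter_subset ball_hCenter_mono
    upperHalfPlaneSet_subset_iUnion p hp hf hne hdiv

end UpperHalfPlane

end Fermat.Agent.S29.H14
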