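import Mathlib
import Fermat.Agent.S29.H14_MeroRoot

set_option autoImplicit false

noncomputable section

namespace Fermat.Agent.S29.H14

open Complex Metric Filter Set Topology

/-! ### composition with locally injective analytic maps -/

/-- Codiscrete equalities on `V` pull back along an analytic map `μ : U → V` with nowhere
vanishing derivative. -/
theorem EventuallyEq.comp_codiscreteWithin {U V : Set ℂ} (hU : IsOpen U) (hV : IsOpen V)
    {μ : ℂ → ℂ} (hμ : AnalyticOnNhd ℂ μ U) (hμU : MapsTo μ U V)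
    (hμ' : ∀ z ∈ U, deriv μ z ≠ 0) {F F' : ℂ → ℂ} (h : F =ᶠ[codiscreteWithin V] F') :
    F ∘ μ =ᶠ[codiscreteWithin U] F' ∘ μ := by
  rw [eventuallyEq_codiscreteWithin_iff hU]
  intro x hx
  have h1 := (eventuallyEq_codiscreteWithin_iff hV).mp h (μ x) (hμU hx)
  have h2 : Tendsto μ (𝓝[≠] x) (𝓝[≠] (μ x)) :=
    (hμ x hx).differentiableAt.hasDerivAt.tendsto_nhdsNE (hμ' x hx)
  exact h2.eventually h1

/-- Composition of a meromorphic function with an analytic self-map. -/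
theorem MeromorphicOn.comp_mapsTo {U V : Set ℂ} {μ : ℂ → ℂ} (hμ : AnalyticOnNhd ℂ μ U)
    (hμU : MapsTo μ U V) {F : ℂ → ℂ} (hF : MeromorphicOn F V) : MeromorphicOn (F ∘ μ) U :=
  fun x hx => (hF (μ x) (hμU hx)).comp_analyticAt (hμ x hx)

/-- If `ζ • Φ = ζ' • Φ` codiscretely on a nonempty open set and `Φ` is not locally zero, then
`ζ = ζ'`. -/
theorem eq_of_smul_eventuallyEq {U : Set ℂ} (hU : IsOpen U) {x0 : ℂ} (hx0 : x0 ∈ U)
    {Φ : ℂ → ℂ} (hΦ : MeromorphicAt Φ x0) (hΦne : meromorphicOrderAt Φ x0 ≠ ⊤) {ζ ζ' : ℂ}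
    (h : ζ • Φ =ᶠ[codiscreteWithin U] ζ' • Φ) : ζ = ζ' := by
  have h1 := (eventuallyEq_codiscreteWithin_iff hU).mp h x0 hx0
  have h2 := (meromorphicOrderAt_ne_top_iff_eventually_ne_zero hΦ).mp hΦne
  obtain ⟨z, hz1, hz2⟩ := (h1.and h2).exists
  simp only [Pi.smul_apply, smul_eq_mul] at hz1
  exact mul_right_cancel₀ hz2 hz1

/-! ### (R4) the Kummer character -/

section Character

variable {U : Set ℂ} {G : Type*} [Group G] {m : G → ℂ → ℂ} {p : ℕ} {f Φ : ℂ → ℂ}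

/-- The data of an action of `G` on the open set `U` by locally injective analytic maps. -/
structure IsAnalyticAction (U : Set ℂ) {G : Type*} [Group G] (m : G → ℂ → ℂ) : Prop where
  analytic : ∀ g, AnalyticOnNhd ℂ (m g) U
  mapsTo : ∀ g, MapsTo (m g) U U
  deriv_ne_zero : ∀ g, ∀ z ∈ U, deriv (m g) z ≠ 0
  mul : ∀ g h, ∀ z ∈ U, m (g * h) z = m g (m h z)

theorem IsAnalyticAction.comp_eventuallyEq (hm : IsAnalyticAction U m) (hU : IsOpen U) (g : G)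
    {F F' : ℂ → ℂ} (h : F =ᶠ[codiscreteWithin U] F') :
    F ∘ m g =ᶠ[codiscreteWithin U] F' ∘ m g :=
  EventuallyEq.comp_codiscreteWithin hU hU (hm.analytic g) (hm.mapsTo g) (hm.deriv_ne_zero g) h

theorem IsAnalyticAction.comp_meromorphicOn (hm : IsAnalyticAction U m) (g : G)
    {F : ℂ → ℂ} (hF : MeromorphicOn F U) : MeromorphicOn (F ∘ m g) U :=
  MeromorphicOn.comp_mapsTo (hm.analytic g) (hm.mapsTo g) hF

/-- Existence of the multiplier: if `Φ ^ p = f` and `f` is `g`-invariant, then `Φ ∘ g = ζ • Φ`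
for a `p`-th root of unity `ζ`. -/
theorem exists_multiplier (hU : IsOpen U) (hUc : IsPreconnected U) (hm : IsAnalyticAction U m)
    (hp : p ≠ 0) (hΦ : MeromorphicOn Φ U) (hΦne : ∀ z ∈ U, meromorphicOrderAt Φ z ≠ ⊤)
    (hΦf : Φ ^ p =ᶠ[codiscreteWithin U] f) (g : G)
    (hinv : f ∘ m g =ᶠ[codiscreteWithin U] f) :
    ∃ ζ : ℂ, ζ ^ p = 1 ∧ Φ ∘ m g =ᶠ[codiscreteWithin U] ζ • Φ := by
  refine root_unique hU hUc (hm.comp_meromorphicOn g hΦ) hΦ hΦne hp ?_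
  have h1 : (Φ ^ p) ∘ m g =ᶠ[codiscreteWithin U] f ∘ m g := hm.comp_eventuallyEq hU g hΦf
  exact (h1.trans hinv).trans hΦf.symm

/-- **(R4)** The Kummer character attached to a `p`-th root `Φ` of a `G`-invariant meromorphic
function `f`: `Φ ∘ g = χ(g) Φ`. -/
theorem exists_kummerChar (hU : IsOpen U) (hUc : IsPreconnected U) (hne : U.Nonempty)
    (hm : IsAnalyticAction U m)
    (hp : p ≠ 0) (hΦ : MeromorphicOn Φ U) (hΦne : ∀ z ∈ U, meromorphicOrderAt Φ z ≠ ⊤)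
    (hΦf : Φ ^ p =ᶠ[codiscreteWithin U] f)
    (hinv : ∀ g, f ∘ m g =ᶠ[codiscreteWithin U] f) :
    ∃ χ : G →* ℂˣ, (∀ g, ((χ g : ℂˣ) : ℂ) ^ p = 1) ∧
      ∀ g, Φ ∘ m g =ᶠ[codiscreteWithin U] ((χ g : ℂˣ) : ℂ) • Φ := by
  classical
  obtain ⟨x0, hx0⟩ := hne
  have hex := fun g => exists_multiplier hU hUc hm hp hΦ hΦne hΦf g (hinv g)
  choose ζ hζp hζ using hex
  have hζ0 : ∀ g, ζ g ≠ 0 := by
    intro g h0
    have := hζp g
    rw [h0, zero_pow hp] at this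
    exact zero_ne_one this
  have huniq : ∀ g (ξ : ℂ), Φ ∘ m g =ᶠ[codiscreteWithin U] ξ • Φ → ξ = ζ g := by
    intro g ξ hξ
    exact eq_of_smul_eventuallyEq hU hx0 (hΦ x0 hx0) (hΦne x0 hx0) (hξ.symm.trans (hζ g))
  have hmul : ∀ g h, ζ (g * h) = ζ g * ζ h := by
    intro g h
    symm
    apply huniq
    have h1 : Φ ∘ m (g * h) =ᶠ[codiscreteWithin U] (Φ ∘ m g) ∘ m h := by
      filter_upwards [Filter.self_mem_codiscreteWithin U] with z hz
      simp only [Function.comp_apply]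
      rw [hm.mul g h z hz]
    have h2 : (Φ ∘ m g) ∘ m h =ᶠ[codiscreteWithin U] (ζ g • Φ) ∘ m h :=
      hm.comp_eventuallyEq hU h (hζ g)
    have h3 : (ζ g • Φ) ∘ m h =ᶠ[codiscreteWithin U] (ζ g * ζ h) • Φ := by
      filter_upwards [hζ h] with z hz
      simp only [Function.comp_apply, Pi.smul_apply, smul_eq_mul] at hz ⊢
      rw [hz]
      ring
    exact (h1.trans h2).trans h3
  have hone : ζ 1 = 1 := by
    have := hmul 1 1
    rw [one_mul] at this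
    exact (mul_left_cancel₀ (hζ0 1) (by rw [← this, mul_one])).symm
  refine ⟨{ toFun := fun g => Units.mk0 (ζ g) (hζ0 g)
            map_one' := Units.ext hone
            map_mul' := fun g h => Units.ext (hmul g h) }, ?_, ?_⟩
  · intro g
    exact hζp g
  · intro g
    exact hζ g

omit [Group G] in
/-- The Kummer character is determined by the relation `Φ ∘ g = χ(g) Φ`. -/
theorem kummerChar_unique (hU : IsOpen U) {x0 : ℂ} (hx0 : x0 ∈ U)
    (hΦ : MeromorphicAt Φ x0) (hΦne : meromorphicOrderAt Φ x0 ≠ ⊤) {g : G} {ζ ζ' : ℂ}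
    (h : Φ ∘ m g =ᶠ[codiscreteWithin U] ζ • Φ) (h' : Φ ∘ m g =ᶠ[codiscreteWithin U] ζ' • Φ) :
    ζ = ζ' :=
  eq_of_smul_eventuallyEq hU hx0 hΦ hΦne (h.symm.trans h')

end Character


/-! ### (R5) local computation of the multiplier -/

/-- **(R5, elliptic points)** If the analytic map `μ` fixes `z0` with derivative `ε ≠ 0` there,
and `Φ ∘ μ = ζ • Φ` near `z0` for a meromorphic `Φ` of finite order `n` at `z0`, then
`ζ = ε ^ n`. -/
theorem multiplier_eq_deriv_zpow {μ : ℂ → ℂ} {z0 : ℂ} (hμ : AnalyticAt ℂ μ z0)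
    (hfix : μ z0 = z0) (hε : deriv μ z0 ≠ 0) {Φ : ℂ → ℂ} (hΦ : MeromorphicAt Φ z0)
    (hΦne : meromorphicOrderAt Φ z0 ≠ ⊤) {ζ : ℂ} (h : Φ ∘ μ =ᶠ[𝓝[≠] z0] ζ • Φ) :
    ζ = deriv μ z0 ^ (meromorphicOrderAt Φ z0).untop₀ := by
  set n : ℤ := (meromorphicOrderAt Φ z0).untop₀ with hn
  obtain ⟨u, hu_an, hu0, hu⟩ := (meromorphicOrderAt_ne_top_iff hΦ).mp hΦne
  have hd : HasDerivAt μ (deriv μ z0) z0 := hμ.differentiableAt.hasDerivAt
  have htend : Tendsto μ (𝓝[≠] z0) (𝓝[≠] z0) := by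
    have := hd.tendsto_nhdsNE hε
    rwa [hfix] at this
  have hu' : ∀ᶠ z in 𝓝[≠] z0, Φ (μ z) = (μ z - z0) ^ n • u (μ z) := htend.eventually hu
  -- the key identity away from `z0`
  have hkey : ∀ᶠ z in 𝓝[≠] z0,
      (slope μ z0 z) ^ n * u (μ z) = ζ * u z := by
    filter_upwards [h, hu, hu', self_mem_nhdsWithin] with z hz1 hz2 hz3 hz4
    have hz0 : z - z0 ≠ 0 := sub_ne_zero.mpr hz4
    have h1 : (μ z - z0) ^ n * u (μ z) = ζ * ((z - z0) ^ n * u z) := by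
      have : Φ (μ z) = ζ * Φ z := hz1
      rw [hz3, hz2] at this
      simpa only [smul_eq_mul] using this
    have h2 : slope μ z0 z = (μ z - z0) / (z - z0) := by
      rw [slope_def_field, hfix]
    rw [h2, div_zpow, div_mul_eq_mul_div, h1]
    field_simp
  have hlim1 : Tendsto (fun z => (slope μ z0 z) ^ n * u (μ z)) (𝓝[≠] z0)
      (𝓝 (deriv μ z0 ^ n * u z0)) := by
    refine Tendsto.mul ?_ ?_
    · exact (hd.tendsto_slope).zpow₀ n (Or.inl hε)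
    · have hc : ContinuousAt (fun z => u (μ z)) z0 := by
        have h1 : ContinuousAt u (μ z0) := by rw [hfix]; exact hu_an.continuousAt
        exact ContinuousAt.comp (f := μ) (g := u) h1 hμ.continuousAt
      have := hc.tendsto
      simp only [hfix] at this
      exact this.mono_left nhdsWithin_le_nhds
  have hlim2 : Tendsto (fun z => ζ * u z) (𝓝[≠] z0) (𝓝 (ζ * u z0)) :=
    (hu_an.continuousAt.tendsto.mono_left nhdsWithin_le_nhds).const_mul ζ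
  have heq : deriv μ z0 ^ n * u z0 = ζ * u z0 :=
    tendsto_nhds_unique (hlim1.congr' hkey) hlim2
  exact (mul_right_cancel₀ hu0 heq).symm

/-- **(R5, elliptic points, consumer form)** If `ε ^ e = 1` and `e ∣ n`, the multiplier is
trivial. -/
theorem multiplier_eq_one_of_fixed {μ : ℂ → ℂ} {z0 : ℂ} (hμ : AnalyticAt ℂ μ z0)
    (hfix : μ z0 = z0) (hε : deriv μ z0 ≠ 0) {Φ : ℂ → ℂ} (hΦ : MeromorphicAt Φ z0)
    (hΦne : meromorphicOrderAt Φ z0 ≠ ⊤) {ζ : ℂ} (h : Φ ∘ μ =ᶠ[𝓝[≠] z0] ζ • Φ)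
    {e : ℕ} (he : deriv μ z0 ^ e = 1) (hdiv : (e : ℤ) ∣ (meromorphicOrderAt Φ z0).untop₀) :
    ζ = 1 := by
  rw [multiplier_eq_deriv_zpow hμ hfix hε hΦ hΦne h]
  obtain ⟨k, hk⟩ := hdiv
  rw [hk, zpow_mul, zpow_natCast, he, one_zpow]

/-- **(R5, cusps)** If on a nonempty preconnected open `V ⊆ U`, stable under `μ`, the function
`f` has a `μ`-invariant `p`-th root `Ψ`, then the multiplier of any root `Φ` on `U` is trivial. -/
theorem multiplier_eq_one_of_invariant_root {U V : Set ℂ} (hV : IsOpen V)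
    (hVc : IsPreconnected V) (hVU : V ⊆ U) {x0 : ℂ} (hx0 : x0 ∈ V)
    {μ : ℂ → ℂ} (hμ : AnalyticOnNhd ℂ μ V) (hμV : MapsTo μ V V)
    (hμ' : ∀ z ∈ V, deriv μ z ≠ 0) {p : ℕ} (hp : p ≠ 0) {f Φ Ψ : ℂ → ℂ}
    (hΦ : MeromorphicOn Φ U) (hΦne : ∀ z ∈ U, meromorphicOrderAt Φ z ≠ ⊤)
    (hΦf : Φ ^ p =ᶠ[codiscreteWithin U] f)
    (hΨ : MeromorphicOn Ψ V) (hΨf : Ψ ^ p =ᶠ[codiscreteWithin V] f)
    (hΨinv : Ψ ∘ μ =ᶠ[codiscreteWithin V] Ψ)
    {ζ : ℂ} (h : Φ ∘ μ =ᶠ[codiscreteWithin U] ζ • Φ) : ζ = 1 := by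
  have hΦV : MeromorphicOn Φ V := hΦ.mono_set hVU
  have hΦneV : ∀ z ∈ V, meromorphicOrderAt Φ z ≠ ⊤ := fun z hz => hΦne z (hVU hz)
  have hΦfV : Φ ^ p =ᶠ[codiscreteWithin V] f := hΦf.filter_mono (Filter.codiscreteWithin_mono hVU)
  obtain ⟨ξ, hξp, hξ⟩ := root_unique hV hVc hΨ hΦV hΦneV hp (hΨf.trans hΦfV.symm)
  have hξ0 : ξ ≠ 0 := by
    intro h0
    rw [h0, zero_pow hp] at hξp
    exact zero_ne_one hξp
  -- `Ψ = ξ Φ`, so `Φ ∘ μ = ξ⁻¹ Ψ ∘ μ = ξ⁻¹ Ψ = Φ` on `V`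
  have h1 : Ψ ∘ μ =ᶠ[codiscreteWithin V] (ξ • Φ) ∘ μ :=
    EventuallyEq.comp_codiscreteWithin hV hV hμ hμV hμ' hξ
  have h2 : (ξ • Φ) ∘ μ =ᶠ[codiscreteWithin V] ξ • Φ := (h1.symm.trans hΨinv).trans hξ
  have hV' : Φ ∘ μ =ᶠ[codiscreteWithin V] ζ • Φ :=
    h.filter_mono (Filter.codiscreteWithin_mono hVU)
  have h3 : (1 : ℂ) • Φ =ᶠ[codiscreteWithin V] ζ • Φ := by
    filter_upwards [h2, hV'] with z hz1 hz2
    simp only [Function.comp_apply, Pi.smul_apply, smul_eq_mul, one_mul] at hz1 hz2 ⊢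
    rw [← hz2]
    exact (mul_left_cancel₀ hξ0 hz1).symm
  exact (eq_of_smul_eventuallyEq hV hx0 (hΦV x0 hx0) (hΦneV x0 hx0) h3).symm

end Fermat.Agent.S29.H14
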