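import Mathlib
import Fermat.Agent.S29.H14_KummerChar

set_option autoImplicit false

noncomputable section

namespace Fermat.Agent.S29.H14

open Complex Metric Filter Set Topology UpperHalfPlane
open scoped MatrixGroups

/-! ### the Möbius action of `GL(2, ℝ)⁺` on the upper half plane, as maps `ℂ → ℂ` -/

/-- The fractional linear transformation of `ℂ` attached to `g`. -/
def moeb (g : GL (Fin 2) ℝ) (z : ℂ) : ℂ := num g z / denom g z

theorem moeb_coe {g : GL (Fin 2) ℝ} (hg : 0 < g.det.val) (τ : ℍ) :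
    moeb g (τ : ℂ) = ((g • τ : ℍ) : ℂ) :=
  (coe_smul_of_det_pos hg τ).symm

theorem moeb_mem {g : GL (Fin 2) ℝ} (hg : 0 < g.det.val) {z : ℂ} (hz : z ∈ upperHalfPlaneSet) :
    moeb g z ∈ upperHalfPlaneSet := by
  have := moeb_coe hg ⟨z, hz⟩
  show 0 < (moeb g z).im
  rw [show z = ((⟨z, hz⟩ : ℍ) : ℂ) from rfl, this]
  exact (g • (⟨z, hz⟩ : ℍ)).im_pos

theorem hasDerivAt_moeb (g : GL (Fin 2) ℝ) {z : ℂ} (hz : z.im ≠ 0) :
    HasDerivAt (moeb g) ((g.det.val : ℂ) / denom g z ^ 2) z := by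
  have hd : denom g z ≠ 0 := denom_ne_zero_of_im g hz
  have h1 : HasDerivAt (fun z : ℂ => num g z) (g 0 0 : ℂ) z := by
    have := ((hasDerivAt_id z).const_mul ((g 0 0 : ℝ) : ℂ)).add_const ((g 0 1 : ℝ) : ℂ)
    rw [mul_one] at this
    exact this
  have h2 : HasDerivAt (fun z : ℂ => denom g z) (g 1 0 : ℂ) z := by
    have := ((hasDerivAt_id z).const_mul ((g 1 0 : ℝ) : ℂ)).add_const ((g 1 1 : ℝ) : ℂ)
    rw [mul_one] at this
    exact this
  have h3 := h1.div h2 hd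
  have h4 : ((g 0 0 : ℝ) : ℂ) * denom g z - num g z * ((g 1 0 : ℝ) : ℂ) = (g.det.val : ℂ) := by
    rw [Matrix.GeneralLinearGroup.val_det_apply, g.1.det_fin_two]
    simp only [num, denom]
    push_cast
    ring
  rw [h4] at h3
  exact h3

theorem analyticOnNhd_moeb (g : GL (Fin 2) ℝ) : AnalyticOnNhd ℂ (moeb g) upperHalfPlaneSet := by
  apply DifferentiableOn.analyticOnNhd _ isOpen_upperHalfPlaneSet
  intro z hz
  have hz' : z.im ≠ 0 := ne_of_gt hz
  exact (hasDerivAt_moeb g hz').differentiableAt.differentiableWithinAt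

theorem deriv_moeb_ne_zero (g : GL (Fin 2) ℝ) {z : ℂ} (hz : z ∈ upperHalfPlaneSet) :
    deriv (moeb g) z ≠ 0 := by
  have hz' : z.im ≠ 0 := ne_of_gt hz
  rw [(hasDerivAt_moeb g hz').deriv]
  refine div_ne_zero ?_ (pow_ne_zero 2 (denom_ne_zero_of_im g hz'))
  exact_mod_cast g.det.ne_zero

theorem moeb_mul {g h : GL (Fin 2) ℝ} (hg : 0 < g.det.val) (hh : 0 < h.det.val) {z : ℂ}
    (hz : z ∈ upperHalfPlaneSet) : moeb (g * h) z = moeb g (moeb h z) := by
  have hgh : 0 < (g * h).det.val := by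
    rw [map_mul, Units.val_mul]
    exact mul_pos hg hh
  set τ : ℍ := ⟨z, hz⟩
  have h1 : moeb (g * h) (τ : ℂ) = (((g * h) • τ : ℍ) : ℂ) := moeb_coe hgh τ
  have h2 : moeb h (τ : ℂ) = ((h • τ : ℍ) : ℂ) := moeb_coe hh τ
  have h3 : moeb g ((h • τ : ℍ) : ℂ) = ((g • (h • τ) : ℍ) : ℂ) := moeb_coe hg (h • τ)
  show moeb (g * h) (τ : ℂ) = moeb g (moeb h (τ : ℂ))
  rw [h1, h2, h3, mul_smul]

/-- A group mapping to `GL(2, ℝ)` with positive determinants acts on the upper half plane by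
locally injective analytic maps. -/
theorem isAnalyticAction_moeb {G : Type*} [Group G] (φ : G →* GL (Fin 2) ℝ)
    (hφ : ∀ g, 0 < (φ g).det.val) :
    IsAnalyticAction upperHalfPlaneSet (fun g : G => moeb (φ g)) where
  analytic _ := analyticOnNhd_moeb _
  mapsTo g := fun _ hz => moeb_mem (hφ g) hz
  deriv_ne_zero _ := fun _ hz => deriv_moeb_ne_zero _ hz
  mul g h := fun _ hz => by
    show moeb (φ (g * h)) _ = _
    rw [map_mul]
    exact moeb_mul (hφ g) (hφ h) hz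

/-- The Möbius map of `ℂ` attached to an element of `SL(2, ℤ)`. -/
def moebSL (γ : SL(2, ℤ)) : ℂ → ℂ := moeb (Matrix.SpecialLinearGroup.mapGL ℝ γ)

theorem det_mapGL_pos (γ : SL(2, ℤ)) :
    0 < (Matrix.SpecialLinearGroup.mapGL ℝ γ : GL (Fin 2) ℝ).det.val := by
  rw [Matrix.SpecialLinearGroup.det_mapGL]
  simp

/-- Every subgroup of `SL(2, ℤ)` acts on the upper half plane by locally injective analytic
maps. -/
theorem isAnalyticAction_moebSL (Γ : Subgroup SL(2, ℤ)) :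
    IsAnalyticAction upperHalfPlaneSet (fun γ : Γ => moebSL (γ : SL(2, ℤ))) :=
  isAnalyticAction_moeb ((Matrix.SpecialLinearGroup.mapGL ℝ).comp Γ.subtype)
    (fun γ => det_mapGL_pos γ)

theorem moebSL_coe (γ : SL(2, ℤ)) (τ : ℍ) : moebSL γ (τ : ℂ) = ((γ • τ : ℍ) : ℂ) := by
  unfold moebSL
  rw [moeb_coe (det_mapGL_pos γ) τ]
  rfl

theorem moebSL_mem (γ : SL(2, ℤ)) {z : ℂ} (hz : z ∈ upperHalfPlaneSet) :
    moebSL γ z ∈ upperHalfPlaneSet :=
  moeb_mem (det_mapGL_pos γ) hz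

theorem ofComplex_moebSL (γ : SL(2, ℤ)) (τ : ℍ) : ofComplex (moebSL γ (τ : ℂ)) = γ • τ := by
  rw [moebSL_coe, ofComplex_apply]

end Fermat.Agent.S29.H14
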