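import Mathlib
import Fermat.Agent.S24.H81_Hol
import Fermat.Agent.S29.H14_Moebius

set_option autoImplicit false

noncomputable section

namespace Fermat.Agent.S29.H14

open Complex Metric Filter Set Topology UpperHalfPlane
open scoped MatrixGroups Manifold
open Fermat.Agent.S24.H81 (ordNat isPreconnected_upperHalfPlaneSet)

/-! ### holomorphic functions on `ℍ` as functions on `ℂ` -/

theorem analyticOnNhd_comp_ofComplex {g : ℍ → ℂ} (hg : MDiff g) :
    AnalyticOnNhd ℂ (g ∘ ofComplex) upperHalfPlaneSet :=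
  (UpperHalfPlane.mdifferentiable_iff.1 hg).analyticOnNhd isOpen_upperHalfPlaneSet

theorem comp_ofComplex_apply (g : ℍ → ℂ) {z : ℂ} (hz : z ∈ upperHalfPlaneSet) :
    (g ∘ ofComplex) z = g ⟨z, hz⟩ := by
  rw [Function.comp_apply, ofComplex_apply_of_im_pos hz]

theorem meromorphicOrderAt_comp_ofComplex {g : ℍ → ℂ} (hg : MDiff g) (g0 : g ≠ 0) (τ : ℍ) :
    meromorphicOrderAt (g ∘ ofComplex) (τ : ℂ) = ((ordNat τ g : ℕ) : ℤ) := by
  have han : AnalyticAt ℂ (g ∘ ofComplex) (τ : ℂ) :=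
    Fermat.Agent.S24.H81.analyticAt_comp_ofComplex hg τ
  rw [han.meromorphicOrderAt_eq, ← Fermat.Agent.S24.H81.natCast_ordNat hg g0 τ]
  rfl

/-- a function which is analytic on the upper half plane and vanishes identically there -/
theorem eq_zero_of_comp_ofComplex_eqOn {g : ℍ → ℂ}
    (h : EqOn (g ∘ ofComplex) 0 upperHalfPlaneSet) : g = 0 := by
  funext τ
  have := h τ.im_pos
  simpa [Function.comp_apply, ofComplex_apply] using this

/-- Two holomorphic functions on `ℍ` which agree codiscretely agree. -/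
theorem eq_of_codiscrete_eq {g h : ℍ → ℂ} (hg : MDiff g) (hh : MDiff h)
    (heq : (g ∘ ofComplex) =ᶠ[codiscreteWithin upperHalfPlaneSet] (h ∘ ofComplex)) : g = h := by
  have h1 := eqOn_of_meromorphicNFOn isOpen_upperHalfPlaneSet
    (analyticOnNhd_comp_ofComplex hg).meromorphicNFOn
    (analyticOnNhd_comp_ofComplex hh).meromorphicNFOn heq
  funext τ
  have := h1 τ.im_pos
  simpa [Function.comp_apply, ofComplex_apply] using this

/-! ### (P1) holomorphic roots -/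

/-- **(P1 of the Stage-3 blueprint)** A nonzero holomorphic function on the upper half plane all
of whose orders of vanishing are divisible by `p` is the `p`-th power of a holomorphic function. -/
theorem exists_holomorphic_root {p : ℕ} (hp : 0 < p) {g : ℍ → ℂ} (hg : MDiff g) (g0 : g ≠ 0)
    (h : ∀ τ : ℍ, p ∣ analyticOrderNatAt (g ∘ ofComplex) τ) :
    ∃ C : ℍ → ℂ, MDiff C ∧ ∀ τ, C τ ^ p = g τ := by
  set f : ℂ → ℂ := g ∘ ofComplex with hf
  have han : AnalyticOnNhd ℂ f upperHalfPlaneSet := analyticOnNhd_comp_ofComplex hg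
  have hfm : MeromorphicOn f upperHalfPlaneSet := han.meromorphicOn
  have hord : ∀ z (hz : z ∈ upperHalfPlaneSet),
      meromorphicOrderAt f z = ((ordNat ⟨z, hz⟩ g : ℕ) : ℤ) := fun z hz =>
    meromorphicOrderAt_comp_ofComplex hg g0 ⟨z, hz⟩
  have hne : ∀ z ∈ upperHalfPlaneSet, meromorphicOrderAt f z ≠ ⊤ := by
    intro z hz
    rw [hord z hz]
    exact WithTop.coe_ne_top
  have hdiv : ∀ z ∈ upperHalfPlaneSet, (p : ℤ) ∣ (meromorphicOrderAt f z).untop₀ := by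
    intro z hz
    rw [hord z hz, WithTop.untop₀_coe]
    exact Int.natCast_dvd_natCast.mpr (h ⟨z, hz⟩)
  obtain ⟨Φ, hΦnf, hΦp⟩ := exists_root_upperHalfPlane p hp.ne' hfm hne hdiv
  have hΦp' := (eventuallyEq_codiscreteWithin_iff isOpen_upperHalfPlaneSet).mp hΦp
  -- `Φ` is analytic on the upper half plane
  have hΦan : AnalyticOnNhd ℂ Φ upperHalfPlaneSet := by
    intro z hz
    rw [← (hΦnf hz).meromorphicOrderAt_nonneg_iff_analyticAt]
    have h1 := order_root (hΦnf hz).meromorphicAt (hΦp' z hz)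
    have h2 : meromorphicOrderAt Φ z ≠ ⊤ :=
      order_ne_top_of_pow_eventuallyEq hp.ne' (hΦnf hz).meromorphicAt (hfm z hz) (hne z hz)
        (hΦp' z hz)
    lift meromorphicOrderAt Φ z to ℤ using h2 with n hn
    rw [hord z hz] at h1
    have h3 : (p : ℤ) * n = (ordNat ⟨z, hz⟩ g : ℤ) := by exact_mod_cast h1
    have h4 : 0 ≤ n := by
      by_contra hneg
      push Not at hneg
      have : (p : ℤ) * n < 0 := mul_neg_of_pos_of_neg (by exact_mod_cast hp) hneg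
      have h5 : (0 : ℤ) ≤ (ordNat ⟨z, hz⟩ g : ℤ) := Int.natCast_nonneg _
      omega
    exact_mod_cast h4
  have hpow : EqOn (Φ ^ p) f upperHalfPlaneSet :=
    eqOn_of_meromorphicNFOn isOpen_upperHalfPlaneSet (hΦan.pow p).meromorphicNFOn
      han.meromorphicNFOn hΦp
  refine ⟨fun τ => Φ τ, ?_, ?_⟩
  · rw [UpperHalfPlane.mdifferentiable_iff]
    refine hΦan.differentiableOn.congr ?_
    intro z hz
    rw [comp_ofComplex_apply _ hz]
  · intro τ
    have := hpow τ.im_pos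
    simpa [hf, Function.comp_apply, ofComplex_apply] using this

/-- Uniqueness of holomorphic roots up to a root of unity. -/
theorem eq_const_smul_of_pow_eq {p : ℕ} (hp : 0 < p) {C₁ C₂ : ℍ → ℂ} (h₁ : MDiff C₁)
    (h₂ : MDiff C₂) (h0 : C₂ ≠ 0) (hpow : ∀ τ, C₁ τ ^ p = C₂ τ ^ p) :
    ∃ ζ : ℂ, ζ ^ p = 1 ∧ ∀ τ, C₁ τ = ζ * C₂ τ := by
  have ha₁ := analyticOnNhd_comp_ofComplex h₁
  have ha₂ := analyticOnNhd_comp_ofComplex h₂
  have hne : ∀ z ∈ upperHalfPlaneSet, meromorphicOrderAt (C₂ ∘ ofComplex) z ≠ ⊤ := by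
    intro z hz
    rw [meromorphicOrderAt_comp_ofComplex h₂ h0 ⟨z, hz⟩]
    exact WithTop.coe_ne_top
  obtain ⟨ζ, hζ, hζeq⟩ := root_unique isOpen_upperHalfPlaneSet isPreconnected_upperHalfPlaneSet
    ha₁.meromorphicOn ha₂.meromorphicOn hne hp.ne' (by
      refine Filter.Eventually.of_forall fun z => ?_
      simp only [Pi.pow_apply, Function.comp_apply]
      exact hpow _)
  refine ⟨ζ, hζ, ?_⟩
  have h3 : MDiff (fun τ => ζ * C₂ τ) := (mdifferentiable_const (c := ζ)).mul h₂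
  have h4 := eq_of_codiscrete_eq h₁ h3 (by
    filter_upwards [hζeq] with z hz
    simpa [Function.comp_apply] using hz)
  intro τ
  exact congrFun h4 τ


/-! ### roots of quotients of holomorphic functions -/

theorem ordNat_pow' {g : ℍ → ℂ} (hg : MDiff g) (n : ℕ) (τ : ℍ) :
    ordNat τ (g ^ n) = n * ordNat τ g := by
  have e : (g ^ n) ∘ ofComplex = (g ∘ ofComplex) ^ n := rfl
  unfold ordNat
  rw [e, analyticOrderNatAt_pow (Fermat.Agent.S24.H81.analyticAt_comp_ofComplex hg τ), smul_eq_mul]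

/-- **(P1, corollary)** If `A, B` are nonzero holomorphic functions on `ℍ` with
`ord_τ A ≡ ord_τ B mod p` for all `τ`, then `A * B ^ (p - 1)` has a holomorphic `p`-th root `C`;
thus `(C / B) ^ p = A / B` in the fraction field of the holomorphic functions. -/
theorem exists_holomorphic_root_of_quotient {p : ℕ} (hp : 0 < p) {A B : ℍ → ℂ} (hA : MDiff A)
    (hB : MDiff B) (A0 : A ≠ 0) (B0 : B ≠ 0)
    (h : ∀ τ : ℍ, (p : ℤ) ∣ (ordNat τ A : ℤ) - (ordNat τ B : ℤ)) :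
    ∃ C : ℍ → ℂ, MDiff C ∧ C ≠ 0 ∧ (∀ τ, C τ ^ p = A τ * B τ ^ (p - 1)) ∧
      ∀ τ, C τ ^ p * B τ = A τ * B τ ^ p := by
  have hBp : MDiff (B ^ (p - 1)) := hB.pow (p - 1)
  have hBp0 : B ^ (p - 1) ≠ 0 := pow_ne_zero _ B0
  have hg : MDiff (A * B ^ (p - 1)) := hA.mul hBp
  have g0 : A * B ^ (p - 1) ≠ 0 := by
    intro h0
    rcases (UpperHalfPlane.mul_eq_zero_iff hA hBp).mp h0 with h1 | h1
    · exact A0 h1
    · exact hBp0 h1
  have hdiv : ∀ τ : ℍ, p ∣ analyticOrderNatAt ((A * B ^ (p - 1)) ∘ ofComplex) τ := by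
    intro τ
    have h1 : ordNat τ (A * B ^ (p - 1)) = ordNat τ A + (p - 1) * ordNat τ B := by
      rw [Fermat.Agent.S24.H81.ordNat_mul hA hBp A0 hBp0, ordNat_pow' hB]
    show p ∣ ordNat τ (A * B ^ (p - 1))
    rw [h1, ← Int.natCast_dvd_natCast]
    obtain ⟨k, hk⟩ := h τ
    refine ⟨k + ordNat τ B, ?_⟩
    have hp1 : ((p - 1 : ℕ) : ℤ) = (p : ℤ) - 1 := by
      rw [Nat.cast_sub hp]; simp
    push_cast
    rw [hp1]
    linear_combination hk
  obtain ⟨C, hC, hCp⟩ := exists_holomorphic_root hp hg g0 hdiv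
  have hCp' : ∀ τ, C τ ^ p = A τ * B τ ^ (p - 1) := fun τ => by
    rw [hCp τ]; rfl
  refine ⟨C, hC, ?_, hCp', ?_⟩
  · intro h0
    apply g0
    funext τ
    have := hCp τ
    rw [h0] at this
    simp only [Pi.zero_apply, zero_pow hp.ne'] at this
    exact this.symm
  · intro τ
    rw [hCp' τ, mul_assoc, ← pow_succ, Nat.sub_add_cancel hp]

/-! ### (P4, holomorphic cross-multiplied form) the Kummer character -/

theorem eventually_ne_zero_comp_ofComplex {g : ℍ → ℂ} (hg : MDiff g) (g0 : g ≠ 0) :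
    ∀ᶠ z in codiscreteWithin upperHalfPlaneSet, (g ∘ ofComplex) z ≠ 0 := by
  apply (analyticOnNhd_comp_ofComplex hg).meromorphicOn.eventually_codiscreteWithin_apply_ne_zero
  intro z hz
  rw [meromorphicOrderAt_comp_ofComplex hg g0 ⟨z, hz⟩]
  exact WithTop.coe_ne_top

theorem mdifferentiable_comp_smul {g : ℍ → ℂ} (hg : MDiff g) (γ : SL(2, ℤ)) :
    MDiff (fun τ : ℍ => g (γ • τ)) := by
  have h1 : MDiff (fun τ : ℍ => (Matrix.SpecialLinearGroup.mapGL ℝ γ : GL (Fin 2) ℝ) • τ) :=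
    mdifferentiable_smul (det_mapGL_pos γ)
  exact hg.comp h1

theorem comp_smul_ne_zero {g : ℍ → ℂ} (g0 : g ≠ 0) (γ : SL(2, ℤ)) :
    (fun τ : ℍ => g (γ • τ)) ≠ 0 := by
  intro h0
  apply g0
  funext τ
  have := congrFun h0 (γ⁻¹ • τ)
  simpa using this

/-- **(P4, Hol form)** Let `A, B, C` be holomorphic on `ℍ` with `(C/B)^p = A/B` and `A/B`
invariant under the subgroup `Γ` of `SL(2, ℤ)`.  Then `C/B` transforms under `Γ` by a character
with values in the `p`-th roots of unity. -/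
theorem exists_char_of_holomorphic_root {p : ℕ} (hp : 0 < p) (Γ : Subgroup SL(2, ℤ))
    {A B C : ℍ → ℂ} (hA : MDiff A) (hB : MDiff B) (hC : MDiff C) (B0 : B ≠ 0) (C0 : C ≠ 0)
    (hroot : ∀ τ, C τ ^ p * B τ = A τ * B τ ^ p)
    (hinv : ∀ γ ∈ Γ, ∀ τ : ℍ, A (γ • τ) * B τ = A τ * B (γ • τ)) :
    ∃ χ : Γ →* ℂˣ, (∀ γ, ((χ γ : ℂˣ) : ℂ) ^ p = 1) ∧
      ∀ (γ : Γ) (τ : ℍ), C ((γ : SL(2, ℤ)) • τ) * B τ
        = ((χ γ : ℂˣ) : ℂ) * (C τ * B ((γ : SL(2, ℤ)) • τ)) := by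
  set a : ℂ → ℂ := A ∘ ofComplex
  set b : ℂ → ℂ := B ∘ ofComplex
  set c : ℂ → ℂ := C ∘ ofComplex
  have haa := analyticOnNhd_comp_ofComplex hA
  have hba := analyticOnNhd_comp_ofComplex hB
  have hca := analyticOnNhd_comp_ofComplex hC
  have hb0 := eventually_ne_zero_comp_ofComplex hB B0
  have hU := isOpen_upperHalfPlaneSet
  have hmem := Filter.self_mem_codiscreteWithin upperHalfPlaneSet
  set Φ : ℂ → ℂ := c * b⁻¹ with hΦdef
  set f : ℂ → ℂ := a * b⁻¹ with hfdef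
  have hΦm : MeromorphicOn Φ upperHalfPlaneSet := hca.meromorphicOn.mul hba.meromorphicOn.inv
  have hΦne : ∀ z ∈ upperHalfPlaneSet, meromorphicOrderAt Φ z ≠ ⊤ := by
    intro z hz
    rw [hΦdef, meromorphicOrderAt_mul (hca.meromorphicOn z hz) (hba.meromorphicOn.inv z hz),
      meromorphicOrderAt_inv, meromorphicOrderAt_comp_ofComplex hC C0 ⟨z, hz⟩,
      meromorphicOrderAt_comp_ofComplex hB B0 ⟨z, hz⟩]
    exact ne_of_beq_false rfl
  have hΦf : Φ ^ p =ᶠ[codiscreteWithin upperHalfPlaneSet] f := by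
    filter_upwards [hb0, hmem] with z hz hzU
    have h1 := hroot ⟨z, hzU⟩
    have e1 : c z = C ⟨z, hzU⟩ := comp_ofComplex_apply C hzU
    have e2 : b z = B ⟨z, hzU⟩ := comp_ofComplex_apply B hzU
    have e3 : a z = A ⟨z, hzU⟩ := comp_ofComplex_apply A hzU
    simp only [hΦdef, hfdef, Pi.pow_apply, Pi.mul_apply, Pi.inv_apply]
    rw [e1, e2, e3]
    replace hz : B ⟨z, hzU⟩ ≠ 0 := by rw [← comp_ofComplex_apply B hzU]; exact hz
    rw [mul_pow, inv_pow]
    field_simp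
    linear_combination h1
  have hact := isAnalyticAction_moebSL Γ
  have hinv' : ∀ γ : Γ, f ∘ moebSL (γ : SL(2, ℤ)) =ᶠ[codiscreteWithin upperHalfPlaneSet] f := by
    intro γ
    have hBγ := eventually_ne_zero_comp_ofComplex (mdifferentiable_comp_smul hB γ)
      (comp_smul_ne_zero B0 γ)
    filter_upwards [hb0, hBγ, hmem] with z hz hzγ hzU
    have e2 : b z = B ⟨z, hzU⟩ := comp_ofComplex_apply B hzU
    have e3 : a z = A ⟨z, hzU⟩ := comp_ofComplex_apply A hzU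
    have hγz : ofComplex (moebSL (γ : SL(2, ℤ)) z) = (γ : SL(2, ℤ)) • (⟨z, hzU⟩ : ℍ) :=
      ofComplex_moebSL (γ : SL(2, ℤ)) ⟨z, hzU⟩
    have e4 : b (moebSL (γ : SL(2, ℤ)) z) = B ((γ : SL(2, ℤ)) • (⟨z, hzU⟩ : ℍ)) := by
      show B (ofComplex _) = _
      rw [hγz]
    have e5 : a (moebSL (γ : SL(2, ℤ)) z) = A ((γ : SL(2, ℤ)) • (⟨z, hzU⟩ : ℍ)) := by
      show A (ofComplex _) = _
      rw [hγz]
    have hzγ' : B ((γ : SL(2, ℤ)) • (⟨z, hzU⟩ : ℍ)) ≠ 0 := by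
      have : (fun τ : ℍ => B ((γ : SL(2, ℤ)) • τ)) (ofComplex z) ≠ 0 := hzγ
      rwa [ofComplex_apply_of_im_pos hzU] at this
    simp only [hfdef, Function.comp_apply, Pi.mul_apply, Pi.inv_apply]
    rw [e2, e3, e4, e5]
    replace hz : B ⟨z, hzU⟩ ≠ 0 := by rw [← comp_ofComplex_apply B hzU]; exact hz
    have h1 := hinv γ γ.2 ⟨z, hzU⟩
    field_simp
    linear_combination h1
  obtain ⟨χ, hχp, hχ⟩ := exists_kummerChar hU isPreconnected_upperHalfPlaneSet
    ⟨Complex.I, by simp [upperHalfPlaneSet]⟩ hact hp.ne' hΦm hΦne hΦf hinv'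
  refine ⟨χ, hχp, ?_⟩
  intro γ
  have hL : MDiff (fun τ : ℍ => C ((γ : SL(2, ℤ)) • τ) * B τ) :=
    (mdifferentiable_comp_smul hC γ).mul hB
  have hR : MDiff (fun τ : ℍ => ((χ γ : ℂˣ) : ℂ) * (C τ * B ((γ : SL(2, ℤ)) • τ))) :=
    (mdifferentiable_const (c := ((χ γ : ℂˣ) : ℂ))).mul (hC.mul (mdifferentiable_comp_smul hB γ))
  have key := eq_of_codiscrete_eq hL hR (by
    have hBγ := eventually_ne_zero_comp_ofComplex (mdifferentiable_comp_smul hB γ)
      (comp_smul_ne_zero B0 γ)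
    filter_upwards [hb0, hBγ, hmem, hχ γ] with z hz hzγ hzU hzχ
    have e1 : c z = C ⟨z, hzU⟩ := comp_ofComplex_apply C hzU
    have e2 : b z = B ⟨z, hzU⟩ := comp_ofComplex_apply B hzU
    have hγz : ofComplex (moebSL (γ : SL(2, ℤ)) z) = (γ : SL(2, ℤ)) • (⟨z, hzU⟩ : ℍ) :=
      ofComplex_moebSL (γ : SL(2, ℤ)) ⟨z, hzU⟩
    have e4 : b (moebSL (γ : SL(2, ℤ)) z) = B ((γ : SL(2, ℤ)) • (⟨z, hzU⟩ : ℍ)) := by
      show B (ofComplex _) = _
      rw [hγz]
    have e5 : c (moebSL (γ : SL(2, ℤ)) z) = C ((γ : SL(2, ℤ)) • (⟨z, hzU⟩ : ℍ)) := by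
      show C (ofComplex _) = _
      rw [hγz]
    have hzγ' : B ((γ : SL(2, ℤ)) • (⟨z, hzU⟩ : ℍ)) ≠ 0 := by
      have : (fun τ : ℍ => B ((γ : SL(2, ℤ)) • τ)) (ofComplex z) ≠ 0 := hzγ
      rwa [ofComplex_apply_of_im_pos hzU] at this
    simp only [hΦdef, Function.comp_apply, Pi.mul_apply, Pi.inv_apply, Pi.smul_apply,
      smul_eq_mul] at hzχ
    rw [e1, e2, e4, e5] at hzχ
    replace hz : B ⟨z, hzU⟩ ≠ 0 := by rw [← comp_ofComplex_apply B hzU]; exact hz
    simp only [Function.comp_apply, ofComplex_apply_of_im_pos hzU]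
    field_simp at hzχ
    linear_combination hzχ)
  intro τ
  exact congrFun key τ

end Fermat.Agent.S29.H14
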