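import Mathlib
import Fermat.Agent.S28.H39_Laurent

/-!
# Multiplicative Hecke operators on `q`-series commute (helper47, S29 cluster, package (T1))

For a unit `ζ` with `ζ ^ ℓ = 1` put `W_ℓ y := ∏_{b < ℓ} y(ζ^b t)` (`twistProd`).  The `q`-expansion
of the Hecke norm `Nm_α (β y)` is, in the variable `t` with `t^ℓ = q`,

* `y(t^(ℓ²)) · W_ℓ y` for `ℓ ∤ N` (the `T`-shape), and
* `W_ℓ y` for `ℓ ∣ N` (the `U`-shape).

`heckeShape ζ ℓ T` packages both.  The main result `norms_commute` says that two maps `n`, `n'`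
on a set `S` of Laurent series whose `ℓ`- resp. `ℓ'`-expansions have these shapes commute, for
coprime `ℓ`, `ℓ'`.  No primitivity of `ζ` is needed.
-/

set_option autoImplicit false

noncomputable section

namespace Fermat.Agent.S29.H47

open ModularCurve HahnSeries Fermat.Agent.S28 Fermat.Agent.S28.H39

variable {R : Type*} [CommRing R]

/-! ### `twistProd` -/

/-- `W_ℓ y := ∏_{b < ℓ} y(ζ^b t)`. -/
def twistProd (ζ : Rˣ) (ℓ : ℕ) (y : LaurentSeries R) : LaurentSeries R :=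
  ∏ b ∈ Finset.range ℓ, twist (ζ ^ b) y

theorem twistProd_one (ζ : Rˣ) (ℓ : ℕ) : twistProd ζ ℓ (1 : LaurentSeries R) = 1 := by
  rw [twistProd]
  exact Finset.prod_eq_one fun b _ => map_one _

theorem twistProd_mul (ζ : Rˣ) (ℓ : ℕ) (x y : LaurentSeries R) :
    twistProd ζ ℓ (x * y) = twistProd ζ ℓ x * twistProd ζ ℓ y := by
  rw [twistProd, twistProd, twistProd, ← Finset.prod_mul_distrib]
  exact Finset.prod_congr rfl fun b _ => map_mul _ _ _

/-- `W_ℓ` as a monoid homomorphism. -/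
def twistProdHom (ζ : Rˣ) (ℓ : ℕ) : LaurentSeries R →* LaurentSeries R where
  toFun := twistProd ζ ℓ
  map_one' := twistProd_one ζ ℓ
  map_mul' := twistProd_mul ζ ℓ

@[simp]
theorem twistProdHom_apply (ζ : Rˣ) (ℓ : ℕ) (y : LaurentSeries R) :
    twistProdHom ζ ℓ y = twistProd ζ ℓ y := rfl

/-- `W_ℓ^ζ (y(t^e)) = (W_ℓ^{ζ^e} y)(t^e)`. -/
theorem twistProd_qExpand (ζ : Rˣ) (ℓ e : ℕ) [NeZero e] (y : LaurentSeries R) :
    twistProd ζ ℓ (qExpand R e y) = qExpand R e (twistProd (ζ ^ e) ℓ y) := by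
  rw [twistProd, twistProd, map_prod]
  refine Finset.prod_congr rfl fun b _ => ?_
  rw [twist_qExpand, ← pow_mul, ← pow_mul, mul_comm]

/-- Reindexing: `W_ℓ^{ζ^e} = W_ℓ^ζ` for `e` coprime to `ℓ` (only `ζ ^ ℓ = 1` is used). -/
theorem twistProd_pow_of_coprime {ζ : Rˣ} {ℓ : ℕ} (hζ : ζ ^ ℓ = 1) {e : ℕ} (he : e.Coprime ℓ)
    (y : LaurentSeries R) : twistProd (ζ ^ e) ℓ y = twistProd ζ ℓ y := by
  rcases Nat.eq_zero_or_pos ℓ with rfl | hℓ
  · simp [twistProd]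
  rw [twistProd, twistProd]
  have hmaps : ∀ b ∈ Finset.range ℓ, (e * b) % ℓ ∈ Finset.range ℓ := fun b _ =>
    Finset.mem_range.mpr (Nat.mod_lt _ hℓ)
  have hinj : Set.InjOn (fun b => (e * b) % ℓ) (Finset.range ℓ : Set ℕ) := by
    intro b hb b' hb' h
    have hb1 : b < ℓ := Finset.mem_range.mp hb
    have hb2 : b' < ℓ := Finset.mem_range.mp hb'
    have h1 : e * b ≡ e * b' [MOD ℓ] := h
    have h2 : b ≡ b' [MOD ℓ] := Nat.ModEq.cancel_left_of_coprime (by rwa [Nat.coprime_comm] at he) h1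
    exact Nat.ModEq.eq_of_lt_of_lt h2 hb1 hb2
  have hsurj : Set.SurjOn (fun b => (e * b) % ℓ) (Finset.range ℓ : Set ℕ)
      (Finset.range ℓ : Set ℕ) :=
    Finset.surjOn_of_injOn_of_card_le _ hmaps hinj le_rfl
  refine Finset.prod_nbij (fun b => (e * b) % ℓ) hmaps hinj hsurj fun b _ => ?_
  show twist ((ζ ^ e) ^ b) y = twist (ζ ^ ((e * b) % ℓ)) y
  rw [← pow_mul, pow_eq_pow_mod (e * b) hζ]

/-- `qExpand e` commutes with `W_ℓ` for `e` coprime to `ℓ`. -/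
theorem qExpand_twistProd {ζ : Rˣ} {ℓ : ℕ} (hζ : ζ ^ ℓ = 1) {e : ℕ} [NeZero e]
    (he : e.Coprime ℓ) (y : LaurentSeries R) :
    qExpand R e (twistProd ζ ℓ y) = twistProd ζ ℓ (qExpand R e y) := by
  rw [twistProd_qExpand, twistProd_pow_of_coprime hζ he]

/-- The operators `W_ℓ`, `W_ℓ'` commute. -/
theorem twistProd_comm (ζ ζ' : Rˣ) (ℓ ℓ' : ℕ) (y : LaurentSeries R) :
    twistProd ζ ℓ (twistProd ζ' ℓ' y) = twistProd ζ' ℓ' (twistProd ζ ℓ y) := by
  simp only [twistProd, map_prod]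
  rw [Finset.prod_comm]
  refine Finset.prod_congr rfl fun b' _ => Finset.prod_congr rfl fun b _ => ?_
  exact twist_comm _ _ _

/-! ### Commuting products of monoid endomorphisms -/

section Monoid

variable {M : Type*} [CommMonoid M]

theorem mul_comp_mul_comm (a b c d : M →* M)
    (hac : ∀ x, a (c x) = c (a x)) (had : ∀ x, a (d x) = d (a x))
    (hbc : ∀ x, b (c x) = c (b x)) (hbd : ∀ x, b (d x) = d (b x)) (x : M) :
    (a * b) ((c * d) x) = (c * d) ((a * b) x) := by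
  simp only [MonoidHom.mul_apply, map_mul, hac, had, hbc, hbd]
  exact mul_mul_mul_comm _ _ _ _

end Monoid

/-! ### The shapes of the Hecke norms -/

/-- `qExpand e` as a monoid endomorphism of Laurent series. -/
def qE (R : Type*) [CommRing R] (e : ℕ) [NeZero e] : LaurentSeries R →* LaurentSeries R :=
  (qExpand R e : LaurentSeries R →* LaurentSeries R)

@[simp]
theorem qE_apply (e : ℕ) [NeZero e] (y : LaurentSeries R) : qE R e y = qExpand R e y := rfl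

/-- The first factor: `y ↦ y(t^(ℓ²))` in the `T`-case, `1` in the `U`-case. -/
def shapeA (R : Type*) [CommRing R] (ℓ : ℕ) [NeZero ℓ] (T : Bool) :
    LaurentSeries R →* LaurentSeries R :=
  if T then qE R (ℓ * ℓ) else 1

/-- The `t`-expansion shape of a Hecke norm: `y(t^(ℓ²)) · ∏_{b<ℓ} y(ζ^b t)` (`T = true`) or
`∏_{b<ℓ} y(ζ^b t)` (`T = false`). -/
def heckeShape (ζ : Rˣ) (ℓ : ℕ) [NeZero ℓ] (T : Bool) : LaurentSeries R →* LaurentSeries R :=
  shapeA R ℓ T * twistProdHom ζ ℓ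

theorem heckeShape_true (ζ : Rˣ) (ℓ : ℕ) [NeZero ℓ] (y : LaurentSeries R) :
    heckeShape ζ ℓ true y = qExpand R (ℓ * ℓ) y * ∏ b ∈ Finset.range ℓ, twist (ζ ^ b) y := rfl

theorem heckeShape_false (ζ : Rˣ) (ℓ : ℕ) [NeZero ℓ] (y : LaurentSeries R) :
    heckeShape ζ ℓ false y = ∏ b ∈ Finset.range ℓ, twist (ζ ^ b) y := by
  show (1 : LaurentSeries R →* LaurentSeries R) y * twistProd ζ ℓ y = _
  rw [MonoidHom.one_apply, one_mul]
  rfl

theorem qExpand_comm (e f : ℕ) [NeZero e] [NeZero f] (y : LaurentSeries R) :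
    qExpand R e (qExpand R f y) = qExpand R f (qExpand R e y) := by
  rw [qExpand_qExpand, qExpand_qExpand]
  exact qExpand_congr (mul_comm e f) y

theorem qE_shapeA (e ℓ : ℕ) [NeZero e] [NeZero ℓ] (T : Bool) (y : LaurentSeries R) :
    qE R e (shapeA R ℓ T y) = shapeA R ℓ T (qE R e y) := by
  cases T
  · simp [shapeA]
  · simp only [shapeA, if_true, qE_apply]
    exact qExpand_comm _ _ _

theorem shapeA_comm (ℓ ℓ' : ℕ) [NeZero ℓ] [NeZero ℓ'] (T T' : Bool) (y : LaurentSeries R) :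
    shapeA R ℓ T (shapeA R ℓ' T' y) = shapeA R ℓ' T' (shapeA R ℓ T y) := by
  cases T
  · simp [shapeA]
  · simp only [shapeA, if_true]
    exact qE_shapeA _ _ _ _

theorem shapeA_twistProd {ζ' : Rˣ} {ℓ ℓ' : ℕ} [NeZero ℓ] (hζ' : ζ' ^ ℓ' = 1)
    (hcop : ℓ.Coprime ℓ') (T : Bool) (y : LaurentSeries R) :
    shapeA R ℓ T (twistProdHom ζ' ℓ' y) = twistProdHom ζ' ℓ' (shapeA R ℓ T y) := by
  cases T
  · simp [shapeA, twistProd_one]
  · simp only [shapeA, if_true, qE_apply, twistProdHom_apply]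
    exact qExpand_twistProd hζ' (Nat.Coprime.mul_left hcop hcop) y

/-- `qExpand e` commutes with the shape at `ℓ` for `e` coprime to `ℓ`. -/
theorem qExpand_heckeShape {ζ : Rˣ} {ℓ : ℕ} [NeZero ℓ] (hζ : ζ ^ ℓ = 1) {e : ℕ} [NeZero e]
    (he : e.Coprime ℓ) (T : Bool) (y : LaurentSeries R) :
    qExpand R e (heckeShape ζ ℓ T y) = heckeShape ζ ℓ T (qExpand R e y) := by
  show qExpand R e (shapeA R ℓ T y * twistProd ζ ℓ y)
    = shapeA R ℓ T (qExpand R e y) * twistProd ζ ℓ (qExpand R e y)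
  rw [map_mul, qExpand_twistProd hζ he]
  congr 1
  exact qE_shapeA e ℓ T y

/-- The two shapes commute for coprime `ℓ`, `ℓ'`. -/
theorem heckeShape_comm {ζ ζ' : Rˣ} {ℓ ℓ' : ℕ} [NeZero ℓ] [NeZero ℓ'] (hζ : ζ ^ ℓ = 1)
    (hζ' : ζ' ^ ℓ' = 1) (hcop : ℓ.Coprime ℓ') (T T' : Bool) (y : LaurentSeries R) :
    heckeShape ζ ℓ T (heckeShape ζ' ℓ' T' y) = heckeShape ζ' ℓ' T' (heckeShape ζ ℓ T y) := by
  refine mul_comp_mul_comm _ _ _ _ (shapeA_comm ℓ ℓ' T T') (shapeA_twistProd hζ' hcop T)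
    (fun x => (shapeA_twistProd hζ hcop.symm T' x).symm) (fun x => ?_) y
  exact twistProd_comm ζ ζ' ℓ ℓ' x

/-! ### The main commutation theorem -/

/-- **Multiplicative Hecke norms commute.**  Let `n`, `n'` be self-maps of a set `S` of Laurent
series such that the `ℓ`-expansion of `n y` has the Hecke shape at `ℓ` and the `ℓ'`-expansion of
`n' y` the Hecke shape at `ℓ'` (`ℓ`, `ℓ'` coprime).  Then `n (n' y) = n' (n y)` on `S`. -/
theorem norms_commute {ζ ζ' : Rˣ} {ℓ ℓ' : ℕ} [NeZero ℓ] [NeZero ℓ'] (hζ : ζ ^ ℓ = 1)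
    (hζ' : ζ' ^ ℓ' = 1) (hcop : ℓ.Coprime ℓ') (T T' : Bool)
    (S : Set (LaurentSeries R)) (n n' : LaurentSeries R → LaurentSeries R)
    (hn : ∀ y ∈ S, n y ∈ S ∧ qExpand R ℓ (n y) = heckeShape ζ ℓ T y)
    (hn' : ∀ y ∈ S, n' y ∈ S ∧ qExpand R ℓ' (n' y) = heckeShape ζ' ℓ' T' y) :
    ∀ y ∈ S, n (n' y) = n' (n y) := by
  intro y hy
  apply qExpand_injective (R := R) ℓ
  apply qExpand_injective (R := R) ℓ'
  have h1 : qExpand R ℓ' (qExpand R ℓ (n (n' y)))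
      = heckeShape ζ ℓ T (heckeShape ζ' ℓ' T' y) := by
    rw [(hn (n' y) (hn' y hy).1).2, qExpand_heckeShape hζ hcop.symm, (hn' y hy).2]
  have h2 : qExpand R ℓ' (qExpand R ℓ (n' (n y)))
      = heckeShape ζ' ℓ' T' (heckeShape ζ ℓ T y) := by
    rw [qExpand_comm, (hn' (n y) (hn y hy).1).2, qExpand_heckeShape hζ' hcop, (hn y hy).2]
  rw [h1, h2, heckeShape_comm hζ hζ' hcop]

end Fermat.Agent.S29.H47

end
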