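import Mathlib
import Fermat.Prelude.Def_ModularCurve_HeckeModule
import Fermat.Agent.S37.H82_CorrPositive
import Fermat.Agent.S29.H47_QSeriesHecke

/-!
# The Hecke operators on `JZero N` commute (helper47, S29 cluster, package (T1))

`heckeOperatorAlong_comm`: for coprime `ℓ`, `ℓ'`, if the `q`-expansions of the Hecke norms
`Nm_α (β y)` at `ℓ` and `ℓ'` have the classical shapes (`H47.heckeShape`, i.e. the output of the
norm-`q`-expansion packages), all places of `F_N` have degree one and `F_N` has bounded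
representatives (Riemann), then the prelude's `heckeOperatorAlong L N ℓ` and
`heckeOperatorAlong L N ℓ'` commute on `Pic⁰`.  No `HeckeInputsAlong` hypothesis is needed: if the
inputs fail at `ℓ` or `ℓ'` the operator is `0`.

`heckeOperatorsCommuteBar_of_shapes`: the prelude's `HeckeOperatorsCommuteBar N`.

Proof: rigidity (helper82's `eq_on_degZero_of_positive`) applied to the two composites of the
divisor correspondences, which agree on principal divisors by `H47.norms_commute`.
-/

set_option autoImplicit false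

noncomputable section

namespace Fermat.Agent.S29.H47

open AlgebraicCurve ModularCurve Fermat.Agent.S37.H82

/-! ### Composition of positive correspondences -/

section Positive

variable {K F : Type*} [Field K] [Field F] [Algebra K F] {ι : Type*}

/-- The total mass `∑ n_Q` of a finitely supported integer function, as an additive map. -/
def tot (ι : Type*) : (ι →₀ ℤ) →+ ℤ := Finsupp.liftAddHom fun _ => AddMonoidHom.id ℤ

theorem tot_apply (G : ι →₀ ℤ) : tot ι G = G.sum fun _ n => n := by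
  rw [tot, Finsupp.liftAddHom_apply]
  rfl

/-- A composite of positive correspondences of bounded degree is positive of bounded degree. -/
theorem IsPositiveOfDegLE.comp' {φ : Divisor K F →+ Divisor K F}
    {ψ : Divisor K F →+ (ι →₀ ℤ)} {d e : ℤ} (hφ : IsPositiveOfDegLE φ d)
    (hψ : IsPositiveOfDegLE ψ e) (he : 0 ≤ e) : IsPositiveOfDegLE (ψ.comp φ) (d * e) := by
  intro P
  obtain ⟨h0, hd⟩ := hφ P
  set E := φ (Finsupp.single P 1) with hE
  have hEQ : ∀ Q, 0 ≤ E Q := fun Q => Finsupp.le_def.mp h0 Q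
  rw [AddMonoidHom.comp_apply, ← hE, map_eq_sum ψ E]
  refine ⟨?_, ?_⟩
  · rw [Finsupp.sum]
    refine Finset.sum_nonneg fun Q _ => ?_
    exact smul_nonneg (hEQ Q) (hψ Q).1
  · rw [← tot_apply, Finsupp.sum, map_sum]
    have h1 : ∀ Q ∈ E.support, tot ι (E Q • ψ (Finsupp.single Q 1)) ≤ E Q * e := by
      intro Q _
      rw [map_zsmul, smul_eq_mul, tot_apply]
      exact mul_le_mul_of_nonneg_left (hψ Q).2 (hEQ Q)
    refine (Finset.sum_le_sum h1).trans ?_
    rw [← Finset.sum_mul]
    have h2 : (∑ Q ∈ E.support, E Q) = E.sum fun _ n => n := rfl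
    rw [h2]
    exact mul_le_mul_of_nonneg_right hd he

end Positive

/-! ### Correspondences on principal divisors -/

section Principal

variable {K F F' : Type*} [Field K] [Field F] [Field F'] [Algebra K F] [Algebra K F']
variable [HasPrincipalDivisors K F']
variable (φ ψ : F →ₐ[K] F') (hφ : φ.toRingHom.IsIntegral) (hψ : ψ.toRingHom.IsIntegral)

/-- The norm along `ψ`. -/
def normAlong (g : F') : F :=
  letI := algebraAlong ψ
  Algebra.norm F g

omit [HasPrincipalDivisors K F'] in
theorem normAlong_ne_zero (hfin : FiniteAlong K ψ) {g : F'} (hg : g ≠ 0) : normAlong ψ g ≠ 0 := by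
  letI := algebraAlong ψ
  haveI : Module.Finite F F' := hfin
  exact Algebra.norm_ne_zero_iff.mpr hg

/-- Pull-back of a principal divisor. -/
theorem pullbackAlong_principal {f : F} {D : Divisor K F} (hD : ∀ w, D w = w.ord f)
    (w : Place K F') : Divisor.pullbackAlong φ hφ D w = w.ord (φ f) := by
  rw [Divisor.pullbackAlong_apply, hD, Place.ord_restrictAlong φ hφ]

omit [HasPrincipalDivisors K F'] in
/-- Push-forward of a principal divisor, given the norm formula. -/
theorem pushforwardAlong_principal (hfin : FiniteAlong K ψ) (hN : NormFormulaAlong K ψ hfin)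
    {g : F'} (hg : g ≠ 0) {D : Divisor K F'} (hD : ∀ w, D w = w.ord g) (v : Place K F) :
    Divisor.pushforwardAlong ψ hψ D v = v.ord (normAlong ψ g) := by
  letI := algebraAlong ψ
  haveI := isScalarTower_along ψ
  haveI := isIntegral_along ψ hψ
  haveI : Module.Finite F F' := hfin
  exact hN g hg D hD v

/-- **A correspondence on a principal divisor**: `ψ_* φ^* div f = div (Nm_ψ (φ f))`. -/
theorem correspondence_principal (hfin : FiniteAlong K ψ) (hN : NormFormulaAlong K ψ hfin)
    {f : F} (hf : f ≠ 0) {D : Divisor K F} (hD : ∀ w, D w = w.ord f) (v : Place K F) :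
    Divisor.correspondence φ ψ hφ hψ D v = v.ord (normAlong ψ (φ f)) := by
  rw [Divisor.correspondence_apply]
  exact pushforwardAlong_principal ψ hψ hfin hN
    ((map_ne_zero_iff _ φ.toRingHom.injective).mpr hf)
    (fun w => pullbackAlong_principal φ hφ hD w) v

end Principal

/-! ### The modular instance -/

section Modular

variable (L : Type*) [Field L] [Algebra ℚ L] (N : ℕ) [NeZero N]

/-- The Hecke norm `y ↦ Nm_α (β y)` on `F_N` (over `L`). -/
def heckeNorm (ℓ : ℕ) [NeZero ℓ] (y : laurentBaseChange L (modularFunctionFieldFull N)) :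
    laurentBaseChange L (modularFunctionFieldFull N) :=
  normAlong (heckeAlphaBar L N ℓ) (heckeBetaBar L N ℓ y)

/-- The `q`-expansion shape of the Hecke norm at `ℓ`: there is `ζ` with `ζ ^ ℓ = 1` such that
`(Nm_α (β y))(t^ℓ) = [y(t^(ℓ²)) ·] ∏_{b<ℓ} y(ζ^b t)` (`T = true` with the bracket, the classical
formula for `ℓ ∤ N`; `T = false` without, for `ℓ ∣ N`). -/
def NormShapeAt (ℓ : ℕ) [NeZero ℓ] (T : Bool) : Prop :=
  ∃ ζ : Lˣ, ζ ^ ℓ = 1 ∧ ∀ y : laurentBaseChange L (modularFunctionFieldFull N),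
    qExpand L ℓ (heckeNorm L N ℓ y : LaurentSeries L) = heckeShape ζ ℓ T (y : LaurentSeries L)

variable {L N}

/-- The Hecke norms at coprime `ℓ`, `ℓ'` commute. -/
theorem heckeNorm_comm {ℓ ℓ' : ℕ} [NeZero ℓ] [NeZero ℓ'] (hcop : ℓ.Coprime ℓ') {T T' : Bool}
    (hK : NormShapeAt L N ℓ T) (hK' : NormShapeAt L N ℓ' T')
    (y : laurentBaseChange L (modularFunctionFieldFull N)) :
    heckeNorm L N ℓ (heckeNorm L N ℓ' y) = heckeNorm L N ℓ' (heckeNorm L N ℓ y) := by
  classical
  obtain ⟨ζ, hζ, hK⟩ := hK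
  obtain ⟨ζ', hζ', hK'⟩ := hK'
  set S : Set (LaurentSeries L) :=
    (laurentBaseChange L (modularFunctionFieldFull N) : Set (LaurentSeries L)) with hS
  set n : LaurentSeries L → LaurentSeries L := fun x =>
    if hx : x ∈ laurentBaseChange L (modularFunctionFieldFull N) then
      (heckeNorm L N ℓ ⟨x, hx⟩ : LaurentSeries L) else 0 with hn
  set n' : LaurentSeries L → LaurentSeries L := fun x =>
    if hx : x ∈ laurentBaseChange L (modularFunctionFieldFull N) then
      (heckeNorm L N ℓ' ⟨x, hx⟩ : LaurentSeries L) else 0 with hn'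
  have en : ∀ z : laurentBaseChange L (modularFunctionFieldFull N),
      n (z : LaurentSeries L) = (heckeNorm L N ℓ z : LaurentSeries L) := fun z => by
    simp only [hn, dif_pos z.2]
  have en' : ∀ z : laurentBaseChange L (modularFunctionFieldFull N),
      n' (z : LaurentSeries L) = (heckeNorm L N ℓ' z : LaurentSeries L) := fun z => by
    simp only [hn', dif_pos z.2]
  have key := norms_commute hζ hζ' hcop T T' S n n'
    (fun x hx => by
      have := en ⟨x, hx⟩
      simp only at this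
      rw [this]
      exact ⟨(heckeNorm L N ℓ ⟨x, hx⟩).2, hK ⟨x, hx⟩⟩)
    (fun x hx => by
      have := en' ⟨x, hx⟩
      simp only at this
      rw [this]
      exact ⟨(heckeNorm L N ℓ' ⟨x, hx⟩).2, hK' ⟨x, hx⟩⟩)
    (y : LaurentSeries L) y.2
  apply Subtype.ext
  rw [← en, ← en', ← en', ← en]
  exact key

/-- The divisor-level Hecke correspondence `α_* β^*` at `ℓ`. -/
def heckeCorr (ℓ : ℕ) [NeZero ℓ] (hα : HeckeAlphaBarIntegral L N ℓ)
    (hβ : HeckeBetaBarIntegral L N ℓ)
    [HasPrincipalDivisors L (laurentBaseChange L (modularFunctionFieldFull (N * ℓ)))] :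
    Divisor L (laurentBaseChange L (modularFunctionFieldFull N)) →+
      Divisor L (laurentBaseChange L (modularFunctionFieldFull N)) :=
  heckeDivBar hα hβ

theorem heckeCorr_principal {ℓ : ℕ} [NeZero ℓ] (hα : HeckeAlphaBarIntegral L N ℓ)
    (hβ : HeckeBetaBarIntegral L N ℓ)
    [HasPrincipalDivisors L (laurentBaseChange L (modularFunctionFieldFull (N * ℓ)))]
    (hfin : FiniteAlong L (heckeAlphaBar L N ℓ))
    (hN : NormFormulaAlong L (heckeAlphaBar L N ℓ) hfin)
    {f : laurentBaseChange L (modularFunctionFieldFull N)} (hf : f ≠ 0)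
    {D : Divisor L (laurentBaseChange L (modularFunctionFieldFull N))}
    (hD : ∀ w, D w = w.ord f) (v : Place L (laurentBaseChange L (modularFunctionFieldFull N))) :
    heckeCorr ℓ hα hβ D v = v.ord (heckeNorm L N ℓ f) :=
  correspondence_principal (heckeBetaBar L N ℓ) (heckeAlphaBar L N ℓ) hβ hα hfin hN hf hD v

theorem heckeNorm_ne_zero {ℓ : ℕ} [NeZero ℓ] (hfin : FiniteAlong L (heckeAlphaBar L N ℓ))
    {f : laurentBaseChange L (modularFunctionFieldFull N)} (hf : f ≠ 0) :
    heckeNorm L N ℓ f ≠ 0 :=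
  normAlong_ne_zero _ hfin
    ((map_ne_zero_iff _ (heckeBetaBar L N ℓ).toRingHom.injective).mpr hf)

/-- **Commutation of the divisor correspondences on degree-zero divisors.** -/
theorem heckeCorr_comm_on_degZero {ℓ ℓ' : ℕ} [NeZero ℓ] [NeZero ℓ'] (hcop : ℓ.Coprime ℓ')
    {T T' : Bool} (hK : NormShapeAt L N ℓ T) (hK' : NormShapeAt L N ℓ' T')
    (hα : HeckeAlphaBarIntegral L N ℓ) (hβ : HeckeBetaBarIntegral L N ℓ)
    [HasPrincipalDivisors L (laurentBaseChange L (modularFunctionFieldFull (N * ℓ)))]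
    (hfin : FiniteAlong L (heckeAlphaBar L N ℓ))
    (hFI : FundamentalIdentityAlong L (heckeBetaBar L N ℓ) hβ)
    (hN : NormFormulaAlong L (heckeAlphaBar L N ℓ) hfin)
    (hα' : HeckeAlphaBarIntegral L N ℓ') (hβ' : HeckeBetaBarIntegral L N ℓ')
    [HasPrincipalDivisors L (laurentBaseChange L (modularFunctionFieldFull (N * ℓ')))]
    (hfin' : FiniteAlong L (heckeAlphaBar L N ℓ'))
    (hFI' : FundamentalIdentityAlong L (heckeBetaBar L N ℓ') hβ')
    (hN' : NormFormulaAlong L (heckeAlphaBar L N ℓ') hfin')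
    (hdeg : ∀ P : Place L (laurentBaseChange L (modularFunctionFieldFull N)), P.deg = 1)
    {C : ℕ} (hC : HasBoundedReps L (laurentBaseChange L (modularFunctionFieldFull N)) C) :
    ∀ D ∈ Divisor.degZero (K := L) (F := laurentBaseChange L (modularFunctionFieldFull N)),
      heckeCorr ℓ hα hβ (heckeCorr ℓ' hα' hβ' D) = heckeCorr ℓ' hα' hβ' (heckeCorr ℓ hα hβ D) := by
  have hpos : IsPositiveOfDegLE (heckeCorr ℓ hα hβ) (finrankAlong L (heckeBetaBar L N ℓ)) :=
    isPositiveOfDegLE_correspondence _ _ hβ hα hFI hdeg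
  have hpos' : IsPositiveOfDegLE (heckeCorr ℓ' hα' hβ') (finrankAlong L (heckeBetaBar L N ℓ')) :=
    isPositiveOfDegLE_correspondence _ _ hβ' hα' hFI' hdeg
  have h1 := IsPositiveOfDegLE.comp' hpos' hpos (Nat.cast_nonneg _)
  have h2 := IsPositiveOfDegLE.comp' hpos hpos' (Nat.cast_nonneg _)
  refine eq_on_degZero_of_positive ((heckeCorr ℓ hα hβ).comp (heckeCorr ℓ' hα' hβ'))
    ((heckeCorr ℓ' hα' hβ').comp (heckeCorr ℓ hα hβ)) h1 h2 ?_ hC
  rintro D ⟨f, hf, hD⟩
  rw [AddMonoidHom.comp_apply, AddMonoidHom.comp_apply]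
  ext v
  have e1 : ∀ w, heckeCorr ℓ' hα' hβ' D w = w.ord (heckeNorm L N ℓ' f) := fun w =>
    heckeCorr_principal hα' hβ' hfin' hN' hf hD w
  have e2 : ∀ w, heckeCorr ℓ hα hβ D w = w.ord (heckeNorm L N ℓ f) := fun w =>
    heckeCorr_principal hα hβ hfin hN hf hD w
  rw [heckeCorr_principal hα hβ hfin hN (heckeNorm_ne_zero hfin' hf) e1 v,
    heckeCorr_principal hα' hβ' hfin' hN' (heckeNorm_ne_zero hfin hf) e2 v,
    heckeNorm_comm hcop hK hK']

/-- **The Hecke operators at coprime `ℓ`, `ℓ'` commute on `Pic⁰`.** -/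
theorem heckeOperatorAlong_comm {ℓ ℓ' : ℕ} [NeZero ℓ] [NeZero ℓ'] (hcop : ℓ.Coprime ℓ')
    {T T' : Bool} (hK : NormShapeAt L N ℓ T) (hK' : NormShapeAt L N ℓ' T')
    (hdeg : ∀ P : Place L (laurentBaseChange L (modularFunctionFieldFull N)), P.deg = 1)
    {C : ℕ} (hC : HasBoundedReps L (laurentBaseChange L (modularFunctionFieldFull N)) C)
    (x : Pic0 L (laurentBaseChange L (modularFunctionFieldFull N))) :
    heckeOperatorAlong L N ℓ (heckeOperatorAlong L N ℓ' x)
      = heckeOperatorAlong L N ℓ' (heckeOperatorAlong L N ℓ x) := by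
  by_cases h : HeckeInputsAlong L N ℓ
  swap
  · rw [heckeOperatorAlong_of_not h]
    simp
  by_cases h' : HeckeInputsAlong L N ℓ'
  swap
  · rw [heckeOperatorAlong_of_not h']
    simp
  obtain ⟨hα, hβ, hP, hfin, hFI, hN⟩ := h
  obtain ⟨hα', hβ', hP', hfin', hFI', hN'⟩ := h'
  haveI := hP
  haveI := hP'
  rw [heckeOperatorAlong_eq hα hβ hFI hfin hN, heckeOperatorAlong_eq hα' hβ' hFI' hfin' hN']
  obtain ⟨D, rfl⟩ := Pic0.mk_surjective x
  rw [heckePic0Bar, heckePic0Bar, Pic0.correspondence_mk, Pic0.correspondence_mk,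
    Pic0.correspondence_mk, Pic0.correspondence_mk]
  congr 1
  apply Subtype.ext
  simp only [Pic0.coe_degZeroCorrespondence]
  exact heckeCorr_comm_on_degZero hcop hK hK' hα hβ hfin hFI hN hα' hβ' hfin' hFI' hN' hdeg hC
    (D : Divisor L (laurentBaseChange L (modularFunctionFieldFull N))) D.2

end Modular

/-! ### The prelude's `HeckeOperatorsCommuteBar` -/

/-- **(T1)** `HeckeOperatorsCommuteBar N` from the norm `q`-expansion shapes at all primes,
degree-one places and bounded representatives (Riemann) on `F_N` over `ℚ̄`. -/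
theorem heckeOperatorsCommuteBar_of_shapes (N : ℕ) [NeZero N]
    (hshape : ∀ ℓ : Nat.Primes, ∃ T : Bool,
      haveI : NeZero (ℓ : ℕ) := ⟨ℓ.2.ne_zero⟩
      NormShapeAt (AlgebraicClosure ℚ) N ℓ T)
    (hdeg : ∀ P : Place (AlgebraicClosure ℚ) (modularFunctionFieldBar N), P.deg = 1)
    {C : ℕ} (hC : HasBoundedReps (AlgebraicClosure ℚ) (modularFunctionFieldBar N) C) :
    HeckeOperatorsCommuteBar N := by
  intro ℓ ℓ'
  haveI : NeZero (ℓ : ℕ) := ⟨ℓ.2.ne_zero⟩
  haveI : NeZero (ℓ' : ℕ) := ⟨ℓ'.2.ne_zero⟩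
  rcases eq_or_ne ℓ ℓ' with rfl | hne
  · rfl
  obtain ⟨T, hK⟩ := hshape ℓ
  obtain ⟨T', hK'⟩ := hshape ℓ'
  have hcop : (ℓ : ℕ).Coprime ℓ' :=
    (Nat.coprime_primes ℓ.2 ℓ'.2).mpr fun h => hne (Subtype.ext h)
  refine LinearMap.ext fun x => ?_
  rw [Module.End.mul_apply, Module.End.mul_apply, heckeOperatorBar_apply, heckeOperatorBar_apply,
    heckeOperatorBar_apply, heckeOperatorBar_apply]
  exact heckeOperatorAlong_comm hcop hK hK' hdeg hC x

end Fermat.Agent.S29.H47

end
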