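import Mathlib
import Fermat.Agent.S29.H47_HeckeComm
import Fermat.Agent.S37.H34_FFBaseChar0

/-!
# (T1) `HeckeOperatorsCommuteBar N` from the norm `q`-expansion shapes alone (helper47)

The degree-one and bounded-representatives inputs of `H47.heckeOperatorsCommuteBar_of_shapes` are
discharged by helper34's `H34.deg_eq_one_FN` and `H34.hasBoundedReps_FN'` (RR bank in
characteristic zero).  The only remaining input is the classical `q`-expansion of the Hecke norm
at every prime (`NormShapeAt`, `T = true` for `ℓ ∤ N`, `T = false` for `ℓ ∣ N`).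
-/

set_option autoImplicit false

noncomputable section

namespace Fermat.Agent.S29.H47

open AlgebraicCurve ModularCurve

/-- **(T1)** The Hecke operators on `JZero N` commute, given the `q`-expansion shapes of the Hecke
norms at all primes. -/
theorem heckeOperatorsCommuteBar_of_normShapes (N : ℕ) [NeZero N]
    (hshape : ∀ ℓ : Nat.Primes, ∃ T : Bool,
      haveI : NeZero (ℓ : ℕ) := ⟨ℓ.2.ne_zero⟩
      NormShapeAt (AlgebraicClosure ℚ) N ℓ T) :
    HeckeOperatorsCommuteBar N := by
  obtain ⟨C, hC⟩ := Fermat.Agent.S37.H34.hasBoundedReps_FN' N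
  exact heckeOperatorsCommuteBar_of_shapes N hshape (Fermat.Agent.S37.H34.deg_eq_one_FN N) hC

end Fermat.Agent.S29.H47

end
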