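import Mathlib
import Fermat.Agent.S29.H47_HeckeCommFinal
import Fermat.Agent.S37.H19_NormQExpFinal

/-!
S29 / (T1) adaptor (helper19): helper47's `NormShapeAt Qbar N ℓ true` from the landed (K1)
(`S37.H19.qExpand_norm_heckeBeta`), hence the commutation of the Hecke operators at primes not
dividing the level, unconditionally.
-/

set_option autoImplicit false

noncomputable section

namespace Fermat.Agent.S29.H19

open ModularCurve AlgebraicCurve HahnSeries Fermat.Agent.S28 Fermat.Agent.S24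

/-- The `T`-shape of the Hecke norm at a prime `ℓ ∤ N`. -/
theorem normShapeAt_true (N ℓ : ℕ) [NeZero N] [NeZero ℓ] (hℓ : ℓ.Prime) (hℓN : ¬ ℓ ∣ N) :
    H47.NormShapeAt (AlgebraicClosure ℚ) N ℓ true := by
  obtain ⟨ζ, hζ, h⟩ := S37.H19.exists_qExpand_norm_heckeBeta N ℓ hℓ hℓN
  refine ⟨ζ, hζ.pow_eq_one, fun y => ?_⟩
  rw [H47.heckeShape_true]
  exact h y

/-- The Hecke operators at two primes not dividing the level commute (unconditional). -/
theorem heckeOperatorAlong_comm_of_not_dvd (N : ℕ) [NeZero N] {ℓ ℓ' : ℕ} [NeZero ℓ] [NeZero ℓ']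
    (hℓ : ℓ.Prime) (hℓ' : ℓ'.Prime) (hℓN : ¬ ℓ ∣ N) (hℓ'N : ¬ ℓ' ∣ N)
    (x : Pic0 (AlgebraicClosure ℚ) (modularFunctionFieldBar N)) :
    heckeOperatorAlong (AlgebraicClosure ℚ) N ℓ (heckeOperatorAlong (AlgebraicClosure ℚ) N ℓ' x)
      = heckeOperatorAlong (AlgebraicClosure ℚ) N ℓ'
          (heckeOperatorAlong (AlgebraicClosure ℚ) N ℓ x) := by
  rcases eq_or_ne ℓ ℓ' with rfl | hne
  · rfl
  obtain ⟨C, hC⟩ := Fermat.Agent.S37.H34.hasBoundedReps_FN' N
  exact H47.heckeOperatorAlong_comm ((Nat.coprime_primes hℓ hℓ').mpr hne)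
    (normShapeAt_true N ℓ hℓ hℓN) (normShapeAt_true N ℓ' hℓ' hℓ'N)
    (Fermat.Agent.S37.H34.deg_eq_one_FN N) hC x

end Fermat.Agent.S29.H19
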