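import Fermat.Agent.S29.H20_ConstExtDiv
import Fermat.Prelude.Def_AlgebraicCurve_Correspondence

/-!
# Constant field extension commutes with correspondences (package S29/E5, part 6)

Two constant field extensions `E₁ : F₁ ⊆ F₁'`, `E₂ : F₂ ⊆ F₂'` and compatible pairs of field
embeddings `φ : F₁ → F₂`, `φ' : F₁' → F₂'`.  Then base change of divisors commutes with
pullback and pushforward, hence with correspondences on `Pic0`.
-/

set_option autoImplicit false
set_option linter.style.haveILetI false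

noncomputable section

namespace Fermat.Agent.S29.H20

open AlgebraicCurve Fermat.Agent.S24

section Generalities

variable {K F F' : Type*} [Field K] [Field F] [Field F'] [Algebra K F] [Algebra K F']

theorem ramificationIndexAlong_pos (φ : F →ₐ[K] F') (hφ : φ.toRingHom.IsIntegral)
    (w : Place K F') : 0 < w.ramificationIndexAlong φ := by
  letI := algebraAlong φ
  haveI := isScalarTower_along φ
  haveI := isIntegral_along φ hφ
  exact w.ramificationIndex_pos (F := F)

theorem inertiaDegAlong_eq_one (hdeg : ∀ v : Place K F, v.deg = 1)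
    (hdeg' : ∀ w : Place K F', w.deg = 1) (φ : F →ₐ[K] F') (hφ : φ.toRingHom.IsIntegral)
    (w : Place K F') : w.inertiaDegAlong φ hφ = 1 := by
  letI := algebraAlong φ
  haveI := isScalarTower_along φ
  haveI := isIntegral_along φ hφ
  have h := w.deg_restrict_mul_inertiaDeg (F := F)
  rw [hdeg, hdeg', one_mul] at h
  exact h

end Generalities

variable {k K F₁ F₁' F₂ F₂' : Type*} [Field k] [Field K] [Field F₁] [Field F₁'] [Field F₂]
  [Field F₂'] [Algebra k K] [Algebra k F₁] [Algebra K F₁'] [Algebra k F₂] [Algebra K F₂']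

namespace ConstExt

variable {E₁ : ConstExt k K F₁ F₁'} {E₂ : ConstExt k K F₂ F₂'}

/-- Compatibility of a pair of embeddings with the constant field extensions. -/
def Compat (E₁ : ConstExt k K F₁ F₁') (E₂ : ConstExt k K F₂ F₂') (φ : F₁ →ₐ[k] F₂)
    (φ' : F₁' →ₐ[K] F₂') : Prop :=
  ∀ f : F₁, E₂.ι (φ f) = φ' (E₁.ι f)

variable {φ : F₁ →ₐ[k] F₂} {φ' : F₁' →ₐ[K] F₂'}
  (hφ : φ.toRingHom.IsIntegral) (hφ' : φ'.toRingHom.IsIntegral)

/-- Restriction commutes with the place above; ramification indices agree. -/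
theorem restrictAlong_ext_and_ramificationIndex (hc : Compat E₁ E₂ φ φ') (h₁ : E₁.DegOne)
    (h₂ : E₂.DegOne) (V : Place k F₂) :
    (ext h₂ V).restrictAlong φ' hφ' = ext h₁ (V.restrictAlong φ hφ) ∧
      (ext h₂ V).ramificationIndexAlong φ' = V.ramificationIndexAlong φ := by
  set W := ext h₂ V with hW
  set w := W.restrictAlong φ' hφ' with hw
  set v := V.restrictAlong φ hφ with hv
  have heW := ramificationIndexAlong_pos φ' hφ' W
  have heV := ramificationIndexAlong_pos φ hφ V
  -- the fundamental relation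
  have key : ∀ f : F₁, (W.ramificationIndexAlong φ' : ℤ) * w.ord (E₁.ι f)
      = (V.ramificationIndexAlong φ : ℤ) * v.ord f := by
    intro f
    rw [← Place.ord_restrictAlong φ' hφ' W, ← Place.ord_restrictAlong φ hφ V, ← hc f, hW, ord_ext]
  -- `w` is rational
  obtain ⟨π, hπ0, hπ⟩ := H27.exists_ord_eq_one v
  have hwrat : E₁.IsRational w := by
    refine ⟨π, fun h0 => ?_⟩
    have := key π
    rw [h0, hπ, mul_zero, mul_one] at this
    omega
  obtain ⟨v', hv'⟩ := hwrat.exists_eq_ext h₁
  have key' : ∀ f : F₁, (W.ramificationIndexAlong φ' : ℤ) * v'.ord f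
      = (V.ramificationIndexAlong φ : ℤ) * v.ord f := by
    intro f
    rw [← key f, hv', ord_ext]
  have heW' : (0 : ℤ) < W.ramificationIndexAlong φ' := by exact_mod_cast heW
  have heV' : (0 : ℤ) < V.ramificationIndexAlong φ := by exact_mod_cast heV
  have hvv' : v' = v := by
    apply H27.eq_of_forall_ord_nonneg
    intro f _ hf
    have h1 := key' f
    by_contra hneg
    push Not at hneg
    have h2 : (V.ramificationIndexAlong φ : ℤ) * v.ord f < 0 :=
      mul_neg_of_pos_of_neg heV' hneg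
    have h3 : 0 ≤ (W.ramificationIndexAlong φ' : ℤ) * v'.ord f := mul_nonneg heW'.le hf
    omega
  refine ⟨by rw [hv', hvv'], ?_⟩
  have h1 := key' π
  rw [hvv', hπ, mul_one, mul_one] at h1
  exact_mod_cast h1

theorem restrictAlong_ext (hc : Compat E₁ E₂ φ φ') (h₁ : E₁.DegOne) (h₂ : E₂.DegOne)
    (V : Place k F₂) :
    (ext h₂ V).restrictAlong φ' hφ' = ext h₁ (V.restrictAlong φ hφ) :=
  (restrictAlong_ext_and_ramificationIndex hφ hφ' hc h₁ h₂ V).1

include hφ hφ' in
theorem ramificationIndexAlong_ext (hc : Compat E₁ E₂ φ φ') (h₁ : E₁.DegOne) (h₂ : E₂.DegOne)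
    (V : Place k F₂) :
    (ext h₂ V).ramificationIndexAlong φ' = V.ramificationIndexAlong φ :=
  (restrictAlong_ext_and_ramificationIndex hφ hφ' hc h₁ h₂ V).2

theorem not_isRational_restrictAlong (hc : Compat E₁ E₂ φ φ') {W : Place K F₂'}
    (hW : ¬ E₂.IsRational W) : ¬ E₁.IsRational (W.restrictAlong φ' hφ') := by
  rintro ⟨f, hf⟩
  apply hW
  refine ⟨φ f, ?_⟩
  rw [hc f, Place.ord_restrictAlong φ' hφ' W]
  have := ramificationIndexAlong_pos φ' hφ' W
  exact mul_ne_zero (by exact_mod_cast this.ne') hf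

/-- Base change commutes with pullback of divisors. -/
theorem baseChangeDiv_pullbackAlong [HasPrincipalDivisors k F₂] [HasPrincipalDivisors K F₂']
    (hc : Compat E₁ E₂ φ φ') (h₁ : E₁.DegOne) (h₂ : E₂.DegOne) (D : Divisor k F₁) :
    baseChangeDiv h₂ (Divisor.pullbackAlong φ hφ D)
      = Divisor.pullbackAlong φ' hφ' (baseChangeDiv h₁ D) := by
  ext W
  rw [Divisor.pullbackAlong_apply]
  by_cases hW : E₂.IsRational W
  · obtain ⟨V, rfl⟩ := hW.exists_eq_ext h₂
    rw [baseChangeDiv_ext, Divisor.pullbackAlong_apply, restrictAlong_ext hφ hφ' hc h₁ h₂,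
      ramificationIndexAlong_ext hφ hφ' hc h₁ h₂, baseChangeDiv_ext]
  · rw [baseChangeDiv_of_not_isRational h₂ _ hW,
      baseChangeDiv_of_not_isRational h₁ _ (not_isRational_restrictAlong hφ' hc hW), mul_zero]

/-- Base change commutes with pushforward of divisors. -/
theorem baseChangeDiv_pushforwardAlong (hc : Compat E₁ E₂ φ φ') (h₁ : E₁.DegOne)
    (h₂ : E₂.DegOne) (D : Divisor k F₂) :
    baseChangeDiv h₁ (Divisor.pushforwardAlong φ hφ D)
      = Divisor.pushforwardAlong φ' hφ' (baseChangeDiv h₂ D) := by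
  induction D using Finsupp.induction with
  | zero => simp
  | single_add V n D _ _ ih =>
      rw [map_add, map_add, map_add, map_add, ih, baseChangeDiv_single,
        Divisor.pushforwardAlong_single, Divisor.pushforwardAlong_single, baseChangeDiv_single,
        restrictAlong_ext hφ hφ' hc h₁ h₂,
        inertiaDegAlong_eq_one h₁.deg_eq_one h₂.deg_eq_one φ hφ,
        inertiaDegAlong_eq_one h₁.deg_eq_one' h₂.deg_eq_one' φ' hφ']

variable {ψ : F₁ →ₐ[k] F₂} {ψ' : F₁' →ₐ[K] F₂'}
  (hψ : ψ.toRingHom.IsIntegral) (hψ' : ψ'.toRingHom.IsIntegral)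

/-- Base change commutes with correspondences on divisors. -/
theorem baseChangeDiv_correspondence [HasPrincipalDivisors k F₂] [HasPrincipalDivisors K F₂']
    (hc : Compat E₁ E₂ φ φ') (hc' : Compat E₁ E₂ ψ ψ') (h₁ : E₁.DegOne) (h₂ : E₂.DegOne)
    (D : Divisor k F₁) :
    baseChangeDiv h₁ (Divisor.correspondence φ ψ hφ hψ D)
      = Divisor.correspondence φ' ψ' hφ' hψ' (baseChangeDiv h₁ D) := by
  rw [Divisor.correspondence_apply, Divisor.correspondence_apply,
    baseChangeDiv_pushforwardAlong hψ hψ' hc' h₁ h₂, baseChangeDiv_pullbackAlong hφ hφ' hc h₁ h₂]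

/-- **Base change commutes with correspondences on `Pic0`.** -/
theorem baseChangePic0_correspondence [HasPrincipalDivisors k F₂] [HasPrincipalDivisors K F₂']
    (hc : Compat E₁ E₂ φ φ') (hc' : Compat E₁ E₂ ψ ψ') (h₁ : E₁.DegOne) (h₂ : E₂.DegOne)
    (hFI : FundamentalIdentityAlong k φ hφ) (hfin : FiniteAlong k ψ)
    (hN : NormFormulaAlong k ψ hfin)
    (hFI' : FundamentalIdentityAlong K φ' hφ') (hfin' : FiniteAlong K ψ')
    (hN' : NormFormulaAlong K ψ' hfin') (x : Pic0 k F₁) :
    baseChangePic0 h₁ (Pic0.correspondence φ ψ hφ hψ hFI hfin hN x)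
      = Pic0.correspondence φ' ψ' hφ' hψ' hFI' hfin' hN' (baseChangePic0 h₁ x) := by
  obtain ⟨D, rfl⟩ := Pic0.mk_surjective x
  rw [Pic0.correspondence_mk, baseChangePic0_mk, baseChangePic0_mk, Pic0.correspondence_mk]
  congr 1
  apply Subtype.ext
  rw [coe_baseChangeDegZero, Pic0.coe_degZeroCorrespondence, Pic0.coe_degZeroCorrespondence,
    coe_baseChangeDegZero]
  exact baseChangeDiv_correspondence hφ hφ' hψ hψ' hc hc' h₁ h₂ D

end ConstExt

end Fermat.Agent.S29.H20
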