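import Fermat.Agent.S29.H62_BcPackage
import Fermat.Agent.S29.H20_ConstExtCorr
import Fermat.Agent.S29.H58_Fin
import Fermat.Agent.S29.H80_Interface
import Fermat.Agent.S37.H8_FinDimL
import Fermat.Prelude.Def_ModularCurve_HeckeOperatorTotal
import Fermat.Prelude.Thm_ModularCurve_coeffMap_qExpand

/-!
# S29 / (D3) BASECHANGE-HECKE for helper62's `bcJ`, and the package `BaseChangeDescent`

* `compatJ_heckeAlphaBar`, `compatJ_heckeBetaBar` : the constant field extensions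
  `H62.constExtJ N`, `H62.constExtJ (N * ℓ)` are compatible with the two degeneracy maps.
* `bcJ_heckeOperatorAlong` : `bcJ N (T_ℓ x) = T_ℓ (bcJ N x)` for the prelude's total Hecke
  operators `heckeOperatorAlong` over `ℚ̄` and over `ℂ` (all `ℓ ≥ 1`).
* `baseChangeDescent N p` : helper80's package `H80.BaseChangeDescent N p`, hypothesis-free
  (for every `p ≥ 1`).
-/

set_option autoImplicit false

noncomputable section

namespace Fermat.Agent.S29.H20

open ModularCurve AlgebraicCurve Fermat.Agent.S29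

attribute [local instance] H62.algebraQbarComplex H62.isScalarTower_qbar_complex

local notation "Qb" => AlgebraicClosure ℚ

theorem compatJ_heckeAlphaBar (N ℓ : ℕ) [NeZero N] [NeZero ℓ] :
    ConstExt.Compat (H62.constExtJ N) (H62.constExtJ (N * ℓ)) (heckeAlphaBar Qb N ℓ)
      (heckeAlphaBar ℂ N ℓ) := by
  intro f
  apply Subtype.ext
  show ((H62.bcField (modularFunctionFieldFull (N * ℓ)) (heckeAlphaBar Qb N ℓ f) :
      ↥(laurentBaseChange ℂ (modularFunctionFieldFull (N * ℓ)))) : LaurentSeries ℂ)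
    = ((heckeAlphaBar ℂ N ℓ (H62.bcField (modularFunctionFieldFull N) f) :
      ↥(laurentBaseChange ℂ (modularFunctionFieldFull (N * ℓ)))) : LaurentSeries ℂ)
  rw [H62.coe_bcField, coe_heckeAlphaBar, coe_heckeAlphaBar, H62.coe_bcField]

theorem compatJ_heckeBetaBar (N ℓ : ℕ) [NeZero N] [NeZero ℓ] :
    ConstExt.Compat (H62.constExtJ N) (H62.constExtJ (N * ℓ)) (heckeBetaBar Qb N ℓ)
      (heckeBetaBar ℂ N ℓ) := by
  intro f
  apply Subtype.ext
  show ((H62.bcField (modularFunctionFieldFull (N * ℓ)) (heckeBetaBar Qb N ℓ f) :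
      ↥(laurentBaseChange ℂ (modularFunctionFieldFull (N * ℓ)))) : LaurentSeries ℂ)
    = ((heckeBetaBar ℂ N ℓ (H62.bcField (modularFunctionFieldFull N) f) :
      ↥(laurentBaseChange ℂ (modularFunctionFieldFull (N * ℓ)))) : LaurentSeries ℂ)
  rw [H62.coe_bcField, coe_heckeBetaBar, coe_heckeBetaBar, H62.coe_bcField]
  exact ModularCurve.coeffMap_qExpand (algebraMap Qb ℂ) ℓ (f : LaurentSeries Qb)

/-- **(D3) base change commutes with the Hecke operators**, for helper62's `bcJ`. -/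
theorem bcJ_heckeOperatorAlong_of (N ℓ : ℕ) [NeZero N] [NeZero ℓ]
    (hIk : HeckeInputsAlong Qb N ℓ) (hIK : HeckeInputsAlong ℂ N ℓ) (x : JZero N) :
    H62.bcJ N (heckeOperatorAlong Qb N ℓ x) = heckeOperatorAlong ℂ N ℓ (H62.bcJ N x) := by
  obtain ⟨hα, hβ, hP, hfin, hFI, hN⟩ := hIk
  obtain ⟨hα', hβ', hP', hfin', hFI', hN'⟩ := hIK
  haveI := hP
  haveI := hP'
  rw [heckeOperatorAlong_eq hα hβ hFI hfin hN, heckeOperatorAlong_eq hα' hβ' hFI' hfin' hN']
  exact ConstExt.baseChangePic0_correspondence hβ hβ' hα hα' (compatJ_heckeBetaBar N ℓ)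
    (compatJ_heckeAlphaBar N ℓ) (H62.degOne_constExtJ N) (H62.degOne_constExtJ (N * ℓ))
    hFI hfin hN hFI' hfin' hN' x

/-- **(D3)**, hypothesis-free. -/
theorem bcJ_heckeOperatorAlong (N ℓ : ℕ) [NeZero N] [NeZero ℓ] (x : JZero N) :
    H62.bcJ N (heckeOperatorAlong Qb N ℓ x) = heckeOperatorAlong ℂ N ℓ (H62.bcJ N x) :=
  bcJ_heckeOperatorAlong_of N ℓ (S37.H8.heckeInputsAlong_L Qb N ℓ)
    (S37.H8.heckeInputsAlong_L ℂ N ℓ) x

/-- (D3) in the vocabulary of `H80_Interface`. -/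
theorem bcJ_TL (N : ℕ) [NeZero N] (ℓ : Nat.Primes) (x : JZero N) :
    H62.bcJ N (H80.TL Qb N ℓ x) = H80.TL ℂ N ℓ (H62.bcJ N x) := by
  haveI : NeZero (ℓ : ℕ) := ⟨ℓ.2.ne_zero⟩
  exact bcJ_heckeOperatorAlong N ℓ x

/-- (D3) for the prelude's `heckeOperatorBar`. -/
theorem bcJ_heckeOperatorBar (N : ℕ) [NeZero N] (ℓ : Nat.Primes) (x : JZero N) :
    H62.bcJ N (heckeOperatorBar N ℓ x) = H80.TL ℂ N ℓ (H62.bcJ N x) :=
  bcJ_TL N ℓ x

/-- Every `n`-torsion class of `Pic⁰(ℂ F_N)` is a base change (`n ≥ 1`). -/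
theorem exists_bcJ_eq_of_torsion (N : ℕ) [NeZero N] {n : ℕ} (hn : 0 < n)
    (y : H80.JL ℂ N) (hy : (n : ℤ) • y = 0) : ∃ x : JZero N, H62.bcJ N x = y :=
  H62.exists_bcJ_eq_of_finite_torsion N (H58.finite_torsion N hn) y hy

/-- **Package BASECHANGE + DESCENT** (`H80.BaseChangeDescent`), hypothesis-free. -/
theorem baseChangeDescent (N p : ℕ) [NeZero N] (hp : 0 < p) : H80.BaseChangeDescent N p :=
  ⟨H62.bcJ N, H62.bcJ_injective N, fun ℓ x => bcJ_TL N ℓ x,
    fun y hy => exists_bcJ_eq_of_torsion N hp y hy⟩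

/-- The `n`-torsion of `J₀(N)(ℚ̄)` is finite. -/
theorem finite_torsion_JZero (N : ℕ) [NeZero N] {n : ℕ} (hn : 0 < n) :
    Finite {c : JZero N // (n : ℤ) • c = 0} := by
  haveI := H58.finite_torsion N hn
  refine Finite.of_injective
    (fun c : {c : JZero N // (n : ℤ) • c = 0} =>
      (⟨H62.bcJ N c.1, by rw [← map_zsmul, c.2, map_zero]⟩ :
        {c : Pic0 ℂ (laurentBaseChange ℂ (modularFunctionFieldFull N)) // (n : ℤ) • c = 0})) ?_
  intro a b hab
  exact Subtype.ext (H62.bcJ_injective N (congrArg Subtype.val hab))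

end Fermat.Agent.S29.H20
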