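import Mathlib
import Fermat.Prelude.Def_AlgebraicCurve_DivisorClassGroup
import Fermat.Agent.S24.H27_PlaceOfValuation

/-!
# Constant field extension of function fields: places (package S29/E5, part 1)

Abstract setting: `k ⊆ K` fields, `F/k` and `F'/K` fields, `ι : F → F'` a ring homomorphism
compatible with the constants, such that `K` and `ι F` are linearly disjoint over `k` and
`F'` is the fraction field of the `K`-span of `ι F`.

Main results (for a place `v` of `F/k` with trivial residue field extension):
* `ConstExt.lies_unique` : there is at most one place of `F'/K` above `v`;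
* `ConstExt.exists_lies` : there is one;
* `ConstExt.exists_lies_of_nontrivial` : a place of `F'/K` which is nontrivial on `ι F`
  lies above a place of `F/k` (with ramification index one).
-/

set_option autoImplicit false

noncomputable section

namespace Fermat.Agent.S29.H20

open AlgebraicCurve Fermat.Agent.S24

/-- Constant field extension data. -/
structure ConstExt (k K F F' : Type*) [Field k] [Field K] [Field F] [Field F']
    [Algebra k K] [Algebra k F] [Algebra K F'] where
  /-- the embedding of the small function field -/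
  ι : F →+* F'
  map_algebraMap : ∀ a : k, ι (algebraMap k F a) = algebraMap K F' (algebraMap k K a)
  linDisj : ∀ (n : ℕ) (a : Fin n → K), LinearIndependent k a → ∀ g : Fin n → F,
    ∑ i, algebraMap K F' (a i) * ι (g i) = 0 → ∀ i, g i = 0
  gen : ∀ x : F', ∃ A ∈ Submodule.span K (Set.range ι), ∃ B ∈ Submodule.span K (Set.range ι),
    B ≠ 0 ∧ x * B = A

namespace ConstExt

variable {k K F F' : Type*} [Field k] [Field K] [Field F] [Field F']
  [Algebra k K] [Algebra k F] [Algebra K F'] (E : ConstExt k K F F')

theorem ι_injective : Function.Injective E.ι := E.ι.injective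

theorem ι_ne_zero {f : F} (hf : f ≠ 0) : E.ι f ≠ 0 := by
  simpa using hf

theorem ι_smul (c : k) (h : F) :
    E.ι (c • h) = algebraMap K F' (algebraMap k K c) * E.ι h := by
  rw [Algebra.smul_def, map_mul, E.map_algebraMap]

/-- Normal form: an element of the `K`-span of `ι M` (`M` a `k`-subspace of `F`) is a
combination with `k`-linearly independent coefficients. -/
theorem exists_normalForm (M : Submodule k F) {A : F'}
    (hA : A ∈ Submodule.span K (E.ι '' (M : Set F))) :
    ∃ (n : ℕ) (a : Fin n → K) (g : Fin n → F), LinearIndependent k a ∧ (∀ i, g i ∈ M) ∧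
      A = ∑ i, algebraMap K F' (a i) * E.ι (g i) := by
  classical
  obtain ⟨m, b, y, rfl⟩ := Submodule.mem_span_set'.mp hA
  choose h hhM hh using fun j => (y j).2
  set W : Submodule k K := Submodule.span k (Set.range b) with hW
  have : FiniteDimensional k W := FiniteDimensional.span_of_finite k (Set.finite_range b)
  let e := Module.finBasis k W
  have hbW : ∀ j, b j ∈ W := fun j => Submodule.subset_span (Set.mem_range_self j)
  let c : Fin m → Fin (Module.finrank k W) → k := fun j i => e.repr ⟨b j, hbW j⟩ i
  have hb : ∀ j, b j = ∑ i, algebraMap k K (c j i) * ((e i : W) : K) := by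
    intro j
    have h1 := e.sum_repr ⟨b j, hbW j⟩
    have h2 := congrArg (Subtype.val) h1
    simp only [AddSubmonoidClass.coe_finsetSum, Submodule.coe_smul] at h2
    rw [← h2]
    refine Finset.sum_congr rfl fun i _ => ?_
    rw [Algebra.smul_def]
  refine ⟨Module.finrank k W, fun i => ((e i : W) : K), fun i => ∑ j, c j i • h j, ?_, ?_, ?_⟩
  · exact e.linearIndependent.map' W.subtype (Submodule.ker_subtype W)
  · intro i
    exact M.sum_mem fun j _ => M.smul_mem _ (hhM j)
  · calc ∑ j, b j • ((y j : F'))
        = ∑ j, ∑ i, algebraMap K F' ((e i : W) : K) *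
            (algebraMap K F' (algebraMap k K (c j i)) * E.ι (h j)) := by
          refine Finset.sum_congr rfl fun j _ => ?_
          rw [Algebra.smul_def, ← hh j]
          conv_lhs => rw [hb j]
          rw [map_sum, Finset.sum_mul]
          refine Finset.sum_congr rfl fun i _ => ?_
          rw [map_mul]
          ring
      _ = ∑ i, algebraMap K F' ((e i : W) : K) * E.ι (∑ j, c j i • h j) := by
          rw [Finset.sum_comm]
          refine Finset.sum_congr rfl fun i _ => ?_
          rw [map_sum, Finset.mul_sum]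
          refine Finset.sum_congr rfl fun j _ => ?_
          rw [E.ι_smul]

/-- The residue field of the place is the constant field. -/
def ResTriv (v : Place k F) : Prop :=
  ∀ h : F, h ∈ v.toValuationSubring →
    ∃ c : k, h = algebraMap k F c ∨ 0 < v.ord (h - algebraMap k F c)

/-- "Visible units" above a place `v` with uniformizer `π`. -/
def Good (v : Place k F) (π : F) (U : F') : Prop :=
  ∃ c : K, c ≠ 0 ∧ ∃ Y ∈ Submodule.span K (E.ι '' (v.toValuationSubring : Set F)),
    U = algebraMap K F' c + E.ι π * Y

theorem ord_ne_zero_imp_ne_zero {v : Place k F} {π : F} (hπ : v.ord π = 1) : π ≠ 0 := by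
  rintro rfl
  rw [Place.ord_zero] at hπ
  exact zero_ne_one hπ

/-- **Key lemma.** Every nonzero element of the `K`-span of `ι F` is a power of `ι π` times a
visible unit. -/
theorem exists_zpow_mul_good {v : Place k F} (hv : ResTriv v) {π : F} (hπ : v.ord π = 1)
    {A : F'} (hA : A ∈ Submodule.span K (Set.range E.ι)) (hA0 : A ≠ 0) :
    ∃ (m : ℤ) (U : F'), E.Good v π U ∧ A = E.ι π ^ m * U := by
  classical
  have hπ0 : π ≠ 0 := ord_ne_zero_imp_ne_zero hπ
  have hA' : A ∈ Submodule.span K (E.ι '' ((⊤ : Submodule k F) : Set F)) := by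
    simpa using hA
  obtain ⟨n, a, g, ha, -, rfl⟩ := E.exists_normalForm ⊤ hA'
  have hex : ∃ i, g i ≠ 0 := by
    by_contra hcon
    push Not at hcon
    apply hA0
    exact Finset.sum_eq_zero fun i _ => by rw [hcon i, map_zero, mul_zero]
  let s : Finset (Fin n) := Finset.univ.filter fun i => g i ≠ 0
  have hs : s.Nonempty := by
    obtain ⟨i, hi⟩ := hex
    exact ⟨i, by simp [s, hi]⟩
  obtain ⟨i₀, hi₀, hmin⟩ := Finset.exists_min_image s (fun i => v.ord (g i)) hs
  have hgi₀ : g i₀ ≠ 0 := by simpa [s] using hi₀
  set m : ℤ := v.ord (g i₀) with hm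
  have hπm : π ^ (-m) ≠ 0 := zpow_ne_zero _ hπ0
  let h : Fin n → F := fun i => g i * π ^ (-m)
  have hord : ∀ i, g i ≠ 0 → v.ord (h i) = v.ord (g i) - m := by
    intro i hgi
    show v.ord (g i * π ^ (-m)) = _
    rw [v.ord_mul hgi hπm, v.ord_zpow, hπ]
    ring
  have hh_mem : ∀ i, h i ∈ v.toValuationSubring := by
    intro i
    by_cases hgi : g i = 0
    · have : h i = 0 := by simp [h, hgi]
      rw [this]
      exact zero_mem _
    · rw [H27.mem_toValuationSubring_of_ne_zero v (mul_ne_zero hgi hπm), hord i hgi]
      have := hmin i (by simp [s, hgi])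
      omega
  have hh₀ : h i₀ ≠ 0 := mul_ne_zero hgi₀ hπm
  have hh₀ord : v.ord (h i₀) = 0 := by rw [hord i₀ hgi₀]; omega
  choose c hc using fun i => hv (h i) (hh_mem i)
  have hc₀ : c i₀ ≠ 0 := by
    intro h0
    rcases hc i₀ with h1 | h1
    · rw [h0, map_zero] at h1
      exact hh₀ h1
    · rw [h0, map_zero, sub_zero, hh₀ord] at h1
      exact lt_irrefl _ h1
  let y : Fin n → F := fun i => (h i - algebraMap k F (c i)) / π
  have hy_mem : ∀ i, y i ∈ v.toValuationSubring := by
    intro i
    rcases hc i with h1 | h1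
    · have : y i = 0 := by simp [y, h1]
      rw [this]
      exact zero_mem _
    · have hne : h i - algebraMap k F (c i) ≠ 0 := by
        intro h0
        rw [h0, Place.ord_zero] at h1
        exact lt_irrefl _ h1
      rw [H27.mem_toValuationSubring_of_ne_zero v (div_ne_zero hne hπ0), div_eq_mul_inv,
        v.ord_mul hne (inv_ne_zero hπ0), v.ord_inv, hπ]
      omega
  have hy : ∀ i, h i = algebraMap k F (c i) + π * y i := by
    intro i
    show h i = algebraMap k F (c i) + π * ((h i - algebraMap k F (c i)) / π)
    field_simp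
    ring
  refine ⟨m, ∑ i, algebraMap K F' (a i) * E.ι (h i), ?_, ?_⟩
  · refine ⟨∑ i, a i * algebraMap k K (c i), ?_, ∑ i, algebraMap K F' (a i) * E.ι (y i), ?_, ?_⟩
    · intro h0
      have h1 : ∑ i, c i • a i = 0 := by
        rw [← h0]
        refine Finset.sum_congr rfl fun i _ => ?_
        rw [Algebra.smul_def, mul_comm]
      exact hc₀ (Fintype.linearIndependent_iff.mp ha c h1 i₀)
    · refine Submodule.sum_mem _ fun i _ => ?_
      rw [← Algebra.smul_def]
      exact Submodule.smul_mem _ _ (Submodule.subset_span ⟨y i, hy_mem i, rfl⟩)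
    · rw [map_sum, Finset.mul_sum, ← Finset.sum_add_distrib]
      refine Finset.sum_congr rfl fun i _ => ?_
      rw [hy i, map_add, map_mul, E.map_algebraMap, map_mul]
      ring
  · rw [Finset.mul_sum]
    refine Finset.sum_congr rfl fun i _ => ?_
    have : g i = h i * π ^ m := by
      show g i = g i * π ^ (-m) * π ^ m
      rw [mul_assoc, ← zpow_add₀ hπ0]
      simp
    conv_lhs => rw [this]
    rw [map_mul, map_zpow₀]
    ring

/-- Every nonzero element of `F'` is, up to visible units, a power of `ι π`. -/
theorem exists_decomp {v : Place k F} (hv : ResTriv v) {π : F} (hπ : v.ord π = 1)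
    {x : F'} (hx : x ≠ 0) :
    ∃ (n : ℤ) (U U' : F'), E.Good v π U ∧ E.Good v π U' ∧ x * U' = E.ι π ^ n * U := by
  have hπ0 : E.ι π ≠ 0 := E.ι_ne_zero (ord_ne_zero_imp_ne_zero hπ)
  obtain ⟨A, hA, B, hB, hB0, hAB⟩ := E.gen x
  have hA0 : A ≠ 0 := by rw [← hAB]; exact mul_ne_zero hx hB0
  obtain ⟨m, U, hU, rfl⟩ := E.exists_zpow_mul_good hv hπ hA hA0
  obtain ⟨m', U', hU', rfl⟩ := E.exists_zpow_mul_good hv hπ hB hB0
  refine ⟨m - m', U, U', hU, hU', ?_⟩
  have h1 : x * (E.ι π ^ m' * U') = E.ι π ^ m * U := hAB
  have h2 : E.ι π ^ m' ≠ 0 := zpow_ne_zero _ hπ0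
  rw [zpow_sub₀ hπ0]
  field_simp
  rw [← h1]
  ring

/-- A valuation subring of `F'` dominating the local ring of `v`. -/
structure Dominates (W : ValuationSubring F') (v : Place k F) : Prop where
  algebraMap_mem : ∀ c : K, algebraMap K F' c ∈ W
  map_mem : ∀ f : F, f ∈ v.toValuationSubring → E.ι f ∈ W
  map_nonunit : ∀ f : F, f ≠ 0 → 0 < v.ord f → E.ι f ∈ W.nonunits

variable {E}

theorem Dominates.span_le {W : ValuationSubring F'} {v : Place k F} (hD : E.Dominates W v)
    {Y : F'} (hY : Y ∈ Submodule.span K (E.ι '' (v.toValuationSubring : Set F))) : Y ∈ W := by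
  induction hY using Submodule.span_induction with
  | mem x hx =>
      obtain ⟨f, hf, rfl⟩ := hx
      exact hD.map_mem f hf
  | zero => exact zero_mem _
  | add x y _ _ hx hy => exact add_mem hx hy
  | smul c x _ hx =>
      rw [Algebra.smul_def]
      exact mul_mem (hD.algebraMap_mem c) hx

theorem Dominates.valuation_algebraMap {W : ValuationSubring F'} {v : Place k F}
    (hD : E.Dominates W v) {c : K} (hc : c ≠ 0) : W.valuation (algebraMap K F' c) = 1 := by
  have h1 : W.valuation (algebraMap K F' c) ≤ 1 :=
    (ValuationSubring.valuation_le_one_iff W _).mpr (hD.algebraMap_mem c)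
  have h2 : W.valuation (algebraMap K F' c⁻¹) ≤ 1 :=
    (ValuationSubring.valuation_le_one_iff W _).mpr (hD.algebraMap_mem c⁻¹)
  have h3 : W.valuation (algebraMap K F' c) * W.valuation (algebraMap K F' c⁻¹) = 1 := by
    rw [← map_mul, ← map_mul, mul_inv_cancel₀ hc, map_one, map_one]
  refine le_antisymm h1 ?_
  by_contra hlt
  push Not at hlt
  have : W.valuation (algebraMap K F' c) * W.valuation (algebraMap K F' c⁻¹) < 1 :=
    mul_lt_one_of_lt_of_le hlt h2
  rw [h3] at this
  exact lt_irrefl _ this

/-- Visible units are units in every dominating valuation ring. -/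
theorem Dominates.valuation_good {W : ValuationSubring F'} {v : Place k F}
    (hD : E.Dominates W v) {π : F} (hπ : v.ord π = 1) {U : F'} (hU : E.Good v π U) :
    W.valuation U = 1 := by
  obtain ⟨c, hc, Y, hY, rfl⟩ := hU
  have hπ0 : π ≠ 0 := ord_ne_zero_imp_ne_zero hπ
  have h1 : W.valuation (algebraMap K F' c) = 1 := hD.valuation_algebraMap hc
  have h2 : W.valuation (E.ι π) < 1 :=
    (ValuationSubring.mem_nonunits_iff (A := W)).mp (hD.map_nonunit π hπ0 (by omega))
  have h3 : W.valuation Y ≤ 1 := (ValuationSubring.valuation_le_one_iff W _).mpr (hD.span_le hY)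
  have h4 : W.valuation (E.ι π * Y) < W.valuation (algebraMap K F' c) := by
    rw [h1, map_mul]
    exact mul_lt_one_of_lt_of_le h2 h3
  rw [Valuation.map_add_eq_of_lt_left _ h4, h1]

theorem Dominates.good_ne_zero {W : ValuationSubring F'} {v : Place k F}
    (hD : E.Dominates W v) {π : F} (hπ : v.ord π = 1) {U : F'} (hU : E.Good v π U) : U ≠ 0 := by
  intro h0
  have := hD.valuation_good hπ hU
  rw [h0, map_zero] at this
  exact zero_ne_one this

/-- Valuation of an arbitrary element in a dominating valuation ring. -/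
theorem Dominates.valuation_eq {W : ValuationSubring F'} {v : Place k F}
    (hD : E.Dominates W v) {π : F} (hπ : v.ord π = 1) {x U U' : F'} {n : ℤ}
    (hU : E.Good v π U) (hU' : E.Good v π U') (hx : x * U' = E.ι π ^ n * U) :
    W.valuation x = W.valuation (E.ι π) ^ n := by
  have h := congrArg W.valuation hx
  rwa [map_mul, map_mul, hD.valuation_good hπ hU, hD.valuation_good hπ hU', mul_one, mul_one,
    map_zpow₀] at h

end ConstExt

end Fermat.Agent.S29.H20
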