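import Fermat.Agent.S29.H20_ConstExtPlaces

/-!
# Constant field extension: divisors and `Pic0` (package S29/E5, part 3)

Under the hypothesis that all places of `F/k` and of `F'/K` have degree one:
* `ConstExt.ext` : `Place k F → Place K F'`, the unique place above;
* `ConstExt.baseChangeDiv : Divisor k F →+ Divisor K F'`;
* `ConstExt.baseChangePic0 : Pic0 k F →+ Pic0 K F'`.
-/

set_option autoImplicit false

noncomputable section

namespace Fermat.Agent.S29.H20

open AlgebraicCurve Fermat.Agent.S24

namespace ConstExt

variable {k K F F' : Type*} [Field k] [Field K] [Field F] [Field F']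
  [Algebra k K] [Algebra k F] [Algebra K F'] (E : ConstExt k K F F')

/-- A place of degree one has trivial residue field extension. -/
theorem resTriv_of_deg_eq_one (v : Place k F) (hv : v.deg = 1) : ResTriv v := by
  intro h hh
  have h1 : Module.finrank k v.ResidueField = 1 := hv
  obtain ⟨c, hc⟩ := (finrank_eq_one_iff_of_nonzero' (1 : v.ResidueField) one_ne_zero).mp h1
    (IsLocalRing.residue v.toValuationSubring ⟨h, hh⟩)
  refine ⟨c, ?_⟩
  by_cases heq : h = algebraMap k F c
  · exact Or.inl heq
  refine Or.inr ?_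
  have hmem : h - algebraMap k F c ∈ v.toValuationSubring := sub_mem hh (v.algebraMap_mem' c)
  have hne : (⟨h - algebraMap k F c, hmem⟩ : v.toValuationSubring) ≠ 0 := fun h0 =>
    heq (sub_eq_zero.mp (congrArg Subtype.val h0))
  rw [H27.ord_pos_iff_mem_maximalIdeal v ⟨_, hmem⟩ hne, ← IsLocalRing.residue_eq_zero_iff]
  have h2 : (⟨h - algebraMap k F c, hmem⟩ : v.toValuationSubring)
      = ⟨h, hh⟩ - algebraMap k v.toValuationSubring c := Subtype.ext rfl
  rw [h2, map_sub, sub_eq_zero, ← hc, Algebra.smul_def, mul_one]
  rfl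

/-- The standing hypotheses: both function fields have only places of degree one. -/
structure DegOne (E : ConstExt k K F F') : Prop where
  deg_eq_one : ∀ v : Place k F, v.deg = 1
  deg_eq_one' : ∀ w : Place K F', w.deg = 1

variable {E}

theorem DegOne.resTriv (h : E.DegOne) (v : Place k F) : ResTriv v :=
  resTriv_of_deg_eq_one v (h.deg_eq_one v)

/-- The unique place of `F'/K` above a place of `F/k`. -/
def ext (h : E.DegOne) (v : Place k F) : Place K F' := (E.exists_lies v (h.resTriv v)).choose

theorem lies_ext (h : E.DegOne) (v : Place k F) : E.Lies (ext h v) v :=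
  (E.exists_lies v (h.resTriv v)).choose_spec

@[simp]
theorem ord_ext (h : E.DegOne) (v : Place k F) (f : F) : (ext h v).ord (E.ι f) = v.ord f :=
  lies_ext h v f

theorem Lies.eq_ext (h : E.DegOne) {w : Place K F'} {v : Place k F} (hw : E.Lies w v) :
    w = ext h v :=
  hw.unique (h.resTriv v) (lies_ext h v)

theorem ext_injective (h : E.DegOne) : Function.Injective (ext (E := E) h) := fun v v' hvv' =>
  (lies_ext h v).unique_left (hvv' ▸ lies_ext h v')

variable (E)

/-- A place of `F'/K` is rational (over `F`) if it is nontrivial on `ι F`. -/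
def IsRational (w : Place K F') : Prop := ∃ f : F, w.ord (E.ι f) ≠ 0

variable {E}

theorem isRational_ext (h : E.DegOne) (v : Place k F) : E.IsRational (ext h v) := by
  obtain ⟨π, -, hπ⟩ := H27.exists_ord_eq_one v
  exact ⟨π, by rw [ord_ext, hπ]; exact one_ne_zero⟩

theorem IsRational.exists_eq_ext (h : E.DegOne) {w : Place K F'} (hw : E.IsRational w) :
    ∃ v : Place k F, w = ext h v := by
  obtain ⟨v, hv⟩ := E.exists_lies_of_nontrivial h.resTriv w hw
  exact ⟨v, hv.eq_ext h⟩

theorem isRational_iff_mem_range (h : E.DegOne) {w : Place K F'} :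
    E.IsRational w ↔ w ∈ Set.range (ext (E := E) h) :=
  ⟨fun hw => by obtain ⟨v, rfl⟩ := hw.exists_eq_ext h; exact ⟨v, rfl⟩,
    fun ⟨v, hv⟩ => hv ▸ isRational_ext h v⟩

theorem ord_ι_eq_zero_of_not_isRational {w : Place K F'} (hw : ¬ E.IsRational w) (f : F) :
    w.ord (E.ι f) = 0 := by
  by_contra h
  exact hw ⟨f, h⟩

/-! ### divisors -/

/-- Base change of divisors. -/
def baseChangeDiv (h : E.DegOne) : Divisor k F →+ Divisor K F' :=
  Finsupp.mapDomain.addMonoidHom (ext h)

theorem baseChangeDiv_apply (h : E.DegOne) (D : Divisor k F) :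
    baseChangeDiv h D = Finsupp.mapDomain (ext h) D := rfl

@[simp]
theorem baseChangeDiv_single (h : E.DegOne) (v : Place k F) (n : ℤ) :
    baseChangeDiv h (Finsupp.single v n) = Finsupp.single (ext h v) n := by
  rw [baseChangeDiv_apply, Finsupp.mapDomain_single]

@[simp]
theorem baseChangeDiv_ext (h : E.DegOne) (D : Divisor k F) (v : Place k F) :
    baseChangeDiv h D (ext h v) = D v := by
  rw [baseChangeDiv_apply]
  exact Finsupp.mapDomain_apply (ext_injective h) D v

theorem baseChangeDiv_of_not_isRational (h : E.DegOne) (D : Divisor k F) {w : Place K F'}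
    (hw : ¬ E.IsRational w) : baseChangeDiv h D w = 0 := by
  rw [baseChangeDiv_apply]
  exact Finsupp.mapDomain_of_notMem_range D w (fun hr => hw ((isRational_iff_mem_range h).mpr hr))

theorem baseChangeDiv_injective (h : E.DegOne) : Function.Injective (baseChangeDiv (E := E) h) :=
  Finsupp.mapDomain_injective (ext_injective h)

/-- A divisor on `F'` supported on rational places is a base change. -/
theorem exists_baseChangeDiv_eq (h : E.DegOne) (D' : Divisor K F')
    (hD' : ∀ w ∈ D'.support, E.IsRational w) : ∃ D : Divisor k F, baseChangeDiv h D = D' := by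
  refine ⟨Finsupp.comapDomain (ext h) D' (ext_injective h).injOn, ?_⟩
  rw [baseChangeDiv_apply]
  apply Finsupp.mapDomain_comapDomain (ext h) (ext_injective h)
  intro w hw
  exact (isRational_iff_mem_range h).mp (hD' w hw)

/-- The base change of the divisor of `f` is the divisor of `ι f`. -/
theorem baseChangeDiv_eq_ord (h : E.DegOne) {D : Divisor k F} {f : F}
    (hD : ∀ v : Place k F, D v = v.ord f) (w : Place K F') :
    baseChangeDiv h D w = w.ord (E.ι f) := by
  by_cases hw : E.IsRational w
  · obtain ⟨v, rfl⟩ := hw.exists_eq_ext h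
    rw [baseChangeDiv_ext, ord_ext, hD]
  · rw [baseChangeDiv_of_not_isRational h D hw, ord_ι_eq_zero_of_not_isRational hw]

theorem baseChangeDiv_mem_principal (h : E.DegOne) {D : Divisor k F}
    (hD : D ∈ Divisor.principal (K := k) (F := F)) :
    baseChangeDiv h D ∈ Divisor.principal (K := K) (F := F') := by
  obtain ⟨f, hf, hDf⟩ := hD
  exact ⟨E.ι f, E.ι_ne_zero hf, fun w => baseChangeDiv_eq_ord h hDf w⟩

@[simp]
theorem degree_baseChangeDiv (h : E.DegOne) (D : Divisor k F) :
    Divisor.degree (baseChangeDiv h D) = Divisor.degree D := by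
  induction D using Finsupp.induction with
  | zero => simp
  | single_add v n D _ _ ih =>
      rw [map_add, map_add, map_add, ih, baseChangeDiv_single, Divisor.degree_single,
        Divisor.degree_single, h.deg_eq_one, h.deg_eq_one']

theorem baseChangeDiv_mem_degZero (h : E.DegOne) {D : Divisor k F}
    (hD : D ∈ Divisor.degZero (K := k) (F := F)) :
    baseChangeDiv h D ∈ Divisor.degZero (K := K) (F := F') := by
  rwa [Divisor.mem_degZero, degree_baseChangeDiv]

/-! ### `Pic0` -/

/-- Base change on degree zero divisors. -/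
def baseChangeDegZero (h : E.DegOne) :
    Divisor.degZero (K := k) (F := F) →+ Divisor.degZero (K := K) (F := F') :=
  ((baseChangeDiv h).domRestrict (Divisor.degZero (K := k) (F := F))).codRestrict _
    fun D => baseChangeDiv_mem_degZero h D.2

@[simp]
theorem coe_baseChangeDegZero (h : E.DegOne) (D : Divisor.degZero (K := k) (F := F)) :
    (baseChangeDegZero h D : Divisor K F') = baseChangeDiv h (D : Divisor k F) := rfl

/-- Base change of divisor classes of degree zero. -/
def baseChangePic0 (h : E.DegOne) : Pic0 k F →+ Pic0 K F' :=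
  QuotientAddGroup.map _ _ (baseChangeDegZero h) (by
    rintro ⟨D, hD0⟩ hD
    simp only [AddSubgroup.mem_addSubgroupOf] at hD ⊢
    exact baseChangeDiv_mem_principal h hD)

theorem baseChangePic0_mk (h : E.DegOne) (D : Divisor.degZero (K := k) (F := F)) :
    baseChangePic0 h (Pic0.mk D) = Pic0.mk (baseChangeDegZero h D) := rfl

/-- Criterion for vanishing in `Pic0`. -/
theorem pic0_mk_eq_zero_iff {K₀ F₀ : Type*} [Field K₀] [Field F₀] [Algebra K₀ F₀]
    (D : Divisor.degZero (K := K₀) (F := F₀)) :
    Pic0.mk D = 0 ↔ (D : Divisor K₀ F₀) ∈ Divisor.principal (K := K₀) (F := F₀) := by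
  rw [Pic0.mk, QuotientAddGroup.eq_zero_iff, AddSubgroup.mem_addSubgroupOf]

end ConstExt

end Fermat.Agent.S29.H20
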