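import Fermat.Agent.S29.H20_ConstExt

/-!
# Constant field extension preserves finiteness over `K(t)` (package S29/E5, part 9)

If `F` is finite over `k(t)` then `F'` is finite over `K(ι t)`.
-/

set_option autoImplicit false
set_option linter.unusedVariables false
set_option linter.style.haveILetI false

noncomputable section

namespace Fermat.Agent.S29.H20

open IntermediateField Polynomial

namespace ConstExt

variable {k K F F' : Type*} [Field k] [Field K] [Field F] [Field F']
  [Algebra k K] [Algebra k F] [Algebra K F'] (E : ConstExt k K F F')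

theorem ι_comp_algebraMap :
    E.ι.comp (algebraMap k F) = (algebraMap K F').comp (algebraMap k K) :=
  RingHom.ext fun a => E.map_algebraMap a

theorem ι_aeval (t : F) (r : k[X]) :
    E.ι (aeval t r) = aeval (E.ι t) (r.map (algebraMap k K)) := by
  rw [aeval_def, hom_eval₂, aeval_def, eval₂_map, E.ι_comp_algebraMap]

theorem aeval_mem_adjoin_simple (t' : F') (p : K[X]) : aeval t' p ∈ K⟮t'⟯ := by
  have h1 : aeval t' p ∈ Algebra.adjoin K {t'} := aeval_mem_adjoin_singleton K t'
  exact IntermediateField.algebra_adjoin_le_adjoin K _ h1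

/-- `ι` maps `k(t)` into `K(ι t)`. -/
theorem ι_mem_adjoin_simple (t : F) {c : F} (hc : c ∈ k⟮t⟯) : E.ι c ∈ K⟮E.ι t⟯ := by
  obtain ⟨r, s, rfl⟩ := (IntermediateField.mem_adjoin_simple_iff k c).mp hc
  rw [map_div₀, E.ι_aeval, E.ι_aeval]
  exact div_mem (aeval_mem_adjoin_simple _ _) (aeval_mem_adjoin_simple _ _)

/-- The restriction of `ι` to `k(t) → K(ι t)`. -/
def ιAdjoin (t : F) : k⟮t⟯ →+* K⟮E.ι t⟯ where
  toFun c := ⟨E.ι c, E.ι_mem_adjoin_simple t c.2⟩
  map_one' := Subtype.ext (map_one E.ι)
  map_mul' x y := Subtype.ext (map_mul E.ι _ _)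
  map_zero' := Subtype.ext (map_zero E.ι)
  map_add' x y := Subtype.ext (map_add E.ι _ _)

theorem isIntegral_ι (t : F) {f : F} (hf : IsIntegral k⟮t⟯ f) : IsIntegral K⟮E.ι t⟯ (E.ι f) :=
  hf.map_of_comp_eq (E.ιAdjoin t) E.ι (RingHom.ext fun _ => rfl)

/-- **Finiteness is preserved by constant field extension.** -/
theorem finiteDimensional_adjoin (t : F) [FiniteDimensional k⟮t⟯ F] :
    FiniteDimensional K⟮E.ι t⟯ F' := by
  classical
  let b := Module.finBasis k⟮t⟯ F
  let T : Set F' := Set.range fun i => E.ι (b i)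
  have hTfin : T.Finite := Set.finite_range _
  haveI : Finite T := hTfin
  have hTint : ∀ x ∈ T, IsIntegral K⟮E.ι t⟯ x := by
    rintro _ ⟨i, rfl⟩
    exact E.isIntegral_ι t (Algebra.IsIntegral.isIntegral (b i))
  let M : IntermediateField K⟮E.ι t⟯ F' := IntermediateField.adjoin K⟮E.ι t⟯ T
  haveI hMfin : FiniteDimensional K⟮E.ι t⟯ M := IntermediateField.finiteDimensional_adjoin hTint
  -- `M` contains the constants, `ι F`, hence everything
  have hconst : ∀ c : K, algebraMap K F' c ∈ M := fun c =>
    M.algebraMap_mem (algebraMap K K⟮E.ι t⟯ c)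
  have hbase : ∀ c : k⟮t⟯, E.ι c ∈ M := fun c => M.algebraMap_mem (E.ιAdjoin t c)
  have hι : ∀ f : F, E.ι f ∈ M := by
    intro f
    rw [← b.sum_repr f, map_sum]
    refine sum_mem fun i _ => ?_
    rw [Algebra.smul_def, map_mul]
    refine mul_mem ?_ (IntermediateField.subset_adjoin _ _ ⟨i, rfl⟩)
    exact hbase _
  have hspan : ∀ A ∈ Submodule.span K (Set.range E.ι), A ∈ M := by
    intro A hA
    induction hA using Submodule.span_induction with
    | mem x hx =>
        obtain ⟨f, rfl⟩ := hx
        exact hι f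
    | zero => exact zero_mem _
    | add x y _ _ hx hy => exact add_mem hx hy
    | smul c x _ hx =>
        rw [Algebra.smul_def]
        exact mul_mem (hconst c) hx
  have htop : M = ⊤ := by
    rw [eq_top_iff]
    intro x _
    obtain ⟨A, hA, B, hB, hB0, hAB⟩ := E.gen x
    have : x = A * B⁻¹ := by
      rw [← hAB, mul_assoc, mul_inv_cancel₀ hB0, mul_one]
    rw [this]
    exact mul_mem (hspan A hA) (inv_mem (hspan B hB))
  have e : M ≃ₗ[K⟮E.ι t⟯] F' :=
    (IntermediateField.equivOfEq htop).toLinearEquiv.trans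
      (IntermediateField.topEquiv (F := K⟮E.ι t⟯) (E := F')).toLinearEquiv
  exact e.finiteDimensional

end ConstExt

end Fermat.Agent.S29.H20
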