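import Fermat.Agent.S29.H20_ConstExt

/-!
# Constant field extension: the correspondence of places (package S29/E5, part 2)

* `ConstExt.Lies E w v` : the place `w` of `F'/K` lies above the place `v` of `F/k`
  (`ord_w (ι f) = ord_v f`, i.e. with ramification index one);
* `ConstExt.Lies.unique`, `ConstExt.exists_lies`, `ConstExt.exists_lies_of_nontrivial`.
-/

set_option autoImplicit false

noncomputable section

namespace Fermat.Agent.S29.H20

open AlgebraicCurve Fermat.Agent.S24

namespace ConstExt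

variable {k K F F' : Type*} [Field k] [Field K] [Field F] [Field F']
  [Algebra k K] [Algebra k F] [Algebra K F'] (E : ConstExt k K F F')

/-! ### generalities on places -/

theorem mem_nonunits_of_ord_pos (w : Place K F') {y : F'} (hy : 0 < w.ord y) :
    y ∈ w.toValuationSubring.nonunits := by
  have hy0 : y ≠ 0 := by
    rintro rfl
    rw [Place.ord_zero] at hy
    exact lt_irrefl _ hy
  have hmem : y ∈ w.toValuationSubring :=
    (H27.mem_toValuationSubring_of_ne_zero w hy0).mpr hy.le
  rw [ValuationSubring.mem_nonunits_iff_exists_mem_maximalIdeal]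
  refine ⟨hmem, ?_⟩
  have hne : (⟨y, hmem⟩ : w.toValuationSubring) ≠ 0 := fun h => hy0 (congrArg Subtype.val h)
  exact (H27.ord_pos_iff_mem_maximalIdeal w ⟨y, hmem⟩ hne).mp hy

theorem ord_eq_zero_of_valuation_eq_one (w : Place K F') {U : F'}
    (hU : w.toValuationSubring.valuation U = 1) : w.ord U = 0 := by
  have hU0 : U ≠ 0 := by
    rintro rfl
    rw [map_zero] at hU
    exact zero_ne_one hU
  have h1 : U ∈ w.toValuationSubring :=
    (ValuationSubring.valuation_le_one_iff _ _).mp hU.le
  have h2 : U⁻¹ ∈ w.toValuationSubring := by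
    rw [← ValuationSubring.valuation_le_one_iff, map_inv₀, hU, inv_one]
  have h3 := (H27.mem_toValuationSubring_of_ne_zero w hU0).mp h1
  have h4 := (H27.mem_toValuationSubring_of_ne_zero w (inv_ne_zero hU0)).mp h2
  rw [w.ord_inv] at h4
  omega

/-! ### lying above -/

/-- The place `w` of `F'/K` lies above the place `v` of `F/k` (ramification index one). -/
def Lies (w : Place K F') (v : Place k F) : Prop := ∀ f : F, w.ord (E.ι f) = v.ord f

variable {E}

theorem Lies.dominates {w : Place K F'} {v : Place k F} (h : E.Lies w v) :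
    E.Dominates w.toValuationSubring v where
  algebraMap_mem := w.algebraMap_mem'
  map_mem f hf := by
    rw [H27.mem_toValuationSubring_iff] at hf ⊢
    rcases hf with rfl | hf
    · exact Or.inl (map_zero _)
    · exact Or.inr (by rw [h f]; exact hf)
  map_nonunit f _ hf := mem_nonunits_of_ord_pos w (by rw [h f]; exact hf)

/-- Order of an arbitrary element at a place dominating `v`. -/
theorem Dominates.ord_eq {w : Place K F'} {v : Place k F}
    (hD : E.Dominates w.toValuationSubring v) {π : F} (hπ : v.ord π = 1) {x U U' : F'} {n : ℤ}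
    (hU : E.Good v π U) (hU' : E.Good v π U') (hx : x * U' = E.ι π ^ n * U) (hx0 : x ≠ 0) :
    w.ord x = n * w.ord (E.ι π) := by
  have hπ0 : E.ι π ≠ 0 := E.ι_ne_zero (ord_ne_zero_imp_ne_zero hπ)
  have h := congrArg w.ord hx
  rw [w.ord_mul hx0 (hD.good_ne_zero hπ hU'),
    w.ord_mul (zpow_ne_zero _ hπ0) (hD.good_ne_zero hπ hU), w.ord_zpow,
    ord_eq_zero_of_valuation_eq_one w (hD.valuation_good hπ hU),
    ord_eq_zero_of_valuation_eq_one w (hD.valuation_good hπ hU')] at h
  omega

/-- **Uniqueness** of the place above `v`. -/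
theorem Lies.unique {w w' : Place K F'} {v : Place k F} (hv : ResTriv v)
    (h : E.Lies w v) (h' : E.Lies w' v) : w = w' := by
  obtain ⟨π, -, hπ⟩ := H27.exists_ord_eq_one v
  apply H27.eq_of_ord_eq
  intro x hx
  obtain ⟨n, U, U', hU, hU', hxU⟩ := E.exists_decomp hv hπ hx
  rw [h.dominates.ord_eq hπ hU hU' hxU hx, h'.dominates.ord_eq hπ hU hU' hxU hx, h π, h' π]

theorem Lies.unique_left {w : Place K F'} {v v' : Place k F}
    (h : E.Lies w v) (h' : E.Lies w v') : v = v' :=
  H27.eq_of_ord_eq fun f _ => by rw [← h f, ← h' f]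

variable (E)

/-- **Restriction**: a place of `F'/K` that is nontrivial on `ι F` lies above a place of
`F/k`. -/
theorem exists_lies_of_nontrivial (hres : ∀ v : Place k F, ResTriv v) (w : Place K F')
    (hw : ∃ f : F, w.ord (E.ι f) ≠ 0) : ∃ v : Place k F, E.Lies w v := by
  have hω : H27.IsOrdFunction k (fun f : F => w.ord (E.ι f)) := by
    refine ⟨fun f g hf hg => ?_, fun f g _ _ hfg => ?_, fun a _ => ?_, ?_⟩
    · show w.ord (E.ι (f * g)) = _
      rw [map_mul, w.ord_mul (E.ι_ne_zero hf) (E.ι_ne_zero hg)]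
    · show min (w.ord (E.ι f)) (w.ord (E.ι g)) ≤ w.ord (E.ι (f + g))
      rw [map_add]
      exact H27.min_ord_le_ord_add w (by rw [← map_add]; exact E.ι_ne_zero hfg)
    · show w.ord (E.ι (algebraMap k F a)) = 0
      rw [E.map_algebraMap]
      exact H27.ord_algebraMap w _
    · obtain ⟨f, hf⟩ := hw
      refine ⟨f, ?_, hf⟩
      rintro rfl
      rw [map_zero, Place.ord_zero] at hf
      exact hf rfl
  set v : Place k F := hω.place with hvdef
  have hmul : ∀ f : F, f ≠ 0 → w.ord (E.ι f) = hω.mult * v.ord f := fun f hf =>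
    hω.eq_mult_mul_ord hf
  have hepos : 0 < hω.mult := hω.mult_pos
  obtain ⟨π, hπ0, hπ⟩ := H27.exists_ord_eq_one v
  have hD : E.Dominates w.toValuationSubring v := by
    refine ⟨w.algebraMap_mem', fun f hf => ?_, fun f hf0 hf => ?_⟩
    · rw [H27.mem_toValuationSubring_iff] at hf ⊢
      rcases hf with rfl | hf
      · exact Or.inl (map_zero _)
      · by_cases hf0 : f = 0
        · exact Or.inl (by rw [hf0, map_zero])
        · refine Or.inr ?_
          rw [hmul f hf0]
          positivity
    · apply mem_nonunits_of_ord_pos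
      rw [hmul f hf0]
      positivity
  obtain ⟨x₁, hx₁0, hx₁⟩ := H27.exists_ord_eq_one w
  obtain ⟨n, U, U', hU, hU', hxU⟩ := E.exists_decomp (hres v) hπ hx₁0
  have h1 := hD.ord_eq hπ hU hU' hxU hx₁0
  rw [hx₁, hmul π hπ0, hπ, mul_one] at h1
  have he : (hω.mult : ℤ) = 1 := by
    have hdvd : (hω.mult : ℤ) ∣ 1 := ⟨n, by rw [h1]; ring⟩
    exact Int.eq_one_of_dvd_one (by positivity) hdvd
  refine ⟨v, fun f => ?_⟩
  by_cases hf0 : f = 0
  · rw [hf0, map_zero, Place.ord_zero, Place.ord_zero]
  · rw [hmul f hf0, he, one_mul]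

/-! ### existence -/

/-- The subring `K[ι 𝒪_v]` of `F'`. -/
def localSubring (v : Place k F) : Subring F' :=
  (Algebra.adjoin K (E.ι '' (v.toValuationSubring : Set F))).toSubring

theorem mem_localSubring_iff (v : Place k F) {Y : F'} :
    Y ∈ E.localSubring v ↔ Y ∈ Submodule.span K (E.ι '' (v.toValuationSubring : Set F)) := by
  show Y ∈ Algebra.adjoin K (E.ι '' (v.toValuationSubring : Set F)) ↔ _
  rw [← Subalgebra.mem_toSubmodule, Algebra.adjoin_eq_span]
  have : (Submonoid.closure (E.ι '' (v.toValuationSubring : Set F)) : Set F')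
      = E.ι '' (v.toValuationSubring : Set F) := by
    have h : (E.ι '' (v.toValuationSubring : Set F))
        = ((v.toValuationSubring.toSubring.toSubmonoid.map (E.ι : F →* F') : Submonoid F') :
            Set F') := by
      ext y
      simp
    rw [h, Submonoid.closure_eq]
  rw [this]

/-- `ι π` is not invertible in `K[ι 𝒪_v]` (this uses linear disjointness). -/
theorem ι_mul_ne_one (v : Place k F) {π : F} (hπ : v.ord π = 1) {Y : F'}
    (hY : Y ∈ Submodule.span K (E.ι '' (v.toValuationSubring : Set F))) : E.ι π * Y ≠ 1 := by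
  classical
  intro h1
  have hπ0 : π ≠ 0 := ord_ne_zero_imp_ne_zero hπ
  -- the `k`-submodule `𝒪_v`
  let M : Submodule k F :=
    { carrier := v.toValuationSubring
      add_mem' := fun ha hb => add_mem ha hb
      zero_mem' := zero_mem _
      smul_mem' := fun c x hx => by
        rw [Algebra.smul_def]
        exact mul_mem (v.algebraMap_mem' c) hx }
  obtain ⟨n, a, g, ha, hg, rfl⟩ := E.exists_normalForm M hY
  have hgord : ∀ i, g i = 0 ∨ 0 ≤ v.ord (g i) := fun i =>
    (H27.mem_toValuationSubring_iff v).mp (hg i)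
  -- no nonzero constant is divisible by `π`
  have hconst : ∀ (c : k) (i : Fin n), π * g i = algebraMap k F c → c = 0 := by
    intro c i hc
    by_contra hc0
    have hcne : algebraMap k F c ≠ 0 := by simpa using hc0
    have hgi : g i ≠ 0 := by
      rintro h0
      rw [h0, mul_zero] at hc
      exact hcne hc.symm
    have h2 := congrArg v.ord hc
    rw [v.ord_mul hπ0 hgi, hπ, H27.ord_algebraMap] at h2
    rcases hgord i with h3 | h3
    · exact hgi h3
    · omega
  have hsum : ∑ i, algebraMap K F' (a i) * E.ι (π * g i) = 1 := by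
    rw [← h1, Finset.mul_sum]
    refine Finset.sum_congr rfl fun i _ => ?_
    rw [map_mul]
    ring
  by_cases hone : (1 : K) ∈ Submodule.span k (Set.range a)
  · obtain ⟨c, hc⟩ := (Submodule.mem_span_range_iff_exists_fun k).mp hone
    have h2 : ∑ i, algebraMap K F' (a i) * E.ι (π * g i - algebraMap k F (c i)) = 0 := by
      have h3 : ∑ i, algebraMap K F' (a i) * E.ι (algebraMap k F (c i)) = 1 := by
        have : (1 : F') = algebraMap K F' (∑ i, c i • a i) := by rw [hc, map_one]
        rw [this, map_sum]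
        refine Finset.sum_congr rfl fun i _ => ?_
        rw [E.map_algebraMap, Algebra.smul_def, map_mul]
        ring
      simp only [map_sub, mul_sub, Finset.sum_sub_distrib]
      rw [hsum, h3, sub_self]
    have h4 := E.linDisj n a ha _ h2
    have h5 : ∀ i, c i = 0 := fun i => hconst (c i) i (sub_eq_zero.mp (h4 i))
    simp only [h5, zero_smul, Finset.sum_const_zero] at hc
    exact zero_ne_one hc
  · have ha' : LinearIndependent k (Fin.cons (1 : K) a : Fin (n + 1) → K) :=
      (linearIndependent_finCons).mpr ⟨ha, hone⟩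
    have h2 : ∑ i, algebraMap K F' ((Fin.cons (1 : K) a : Fin (n + 1) → K) i) *
        E.ι ((Fin.cons (-1 : F) (fun i => π * g i) : Fin (n + 1) → F) i) = 0 := by
      rw [Fin.sum_univ_succ]
      simp only [Fin.cons_zero, Fin.cons_succ]
      rw [hsum]
      simp
    have h3 := E.linDisj (n + 1) _ ha' _ h2 0
    simp only [Fin.cons_zero] at h3
    exact one_ne_zero (neg_eq_zero.mp h3)

/-- **Existence** of a place above `v`. -/
theorem exists_lies (v : Place k F) (hv : ResTriv v) : ∃ w : Place K F', E.Lies w v := by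
  classical
  obtain ⟨π, hπ0, hπ⟩ := H27.exists_ord_eq_one v
  have hιπ0 : E.ι π ≠ 0 := E.ι_ne_zero hπ0
  have hπO : π ∈ v.toValuationSubring :=
    (H27.mem_toValuationSubring_of_ne_zero v hπ0).mpr (by omega)
  have hπmem : E.ι π ∈ E.localSubring v :=
    (E.mem_localSubring_iff v).mpr (Submodule.subset_span ⟨π, hπO, rfl⟩)
  let I : Ideal (E.localSubring v) := Ideal.span {⟨E.ι π, hπmem⟩}
  have hI : I ≠ ⊤ := by
    intro htop
    have h1 : (1 : E.localSubring v) ∈ I := by rw [htop]; trivial
    obtain ⟨Y, hY⟩ := Ideal.mem_span_singleton'.mp h1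
    have h2 := congrArg Subtype.val hY
    simp only [Subring.coe_mul, Subring.coe_one] at h2
    exact E.ι_mul_ne_one v hπ ((E.mem_localSubring_iff v).mp Y.2) (by rw [mul_comm]; exact h2)
  obtain ⟨W, hAW, hIW⟩ := Ideal.image_subset_nonunits_valuationSubring I hI
  have hπW : E.ι π ∈ W.nonunits :=
    hIW ⟨⟨E.ι π, hπmem⟩, Ideal.subset_span rfl, rfl⟩
  have hD : E.Dominates W v := by
    refine ⟨fun c => hAW ?_, fun f hf => hAW ?_, fun f hf0 hf => ?_⟩
    · exact Subalgebra.algebraMap_mem _ c
    · exact (E.mem_localSubring_iff v).mpr (Submodule.subset_span ⟨f, hf, rfl⟩)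
    · have hdiv : f / π ∈ v.toValuationSubring := by
        rw [H27.mem_toValuationSubring_of_ne_zero v (div_ne_zero hf0 hπ0), div_eq_mul_inv,
          v.ord_mul hf0 (inv_ne_zero hπ0), v.ord_inv, hπ]
        omega
      have hdivW : E.ι (f / π) ∈ W :=
        hAW ((E.mem_localSubring_iff v).mpr (Submodule.subset_span ⟨f / π, hdiv, rfl⟩))
      have hfeq : E.ι f = E.ι π * E.ι (f / π) := by
        rw [← map_mul, mul_div_cancel₀ f hπ0]
      rw [hfeq, ValuationSubring.mem_nonunits_iff, map_mul]
      exact mul_lt_one_of_lt_of_le ((ValuationSubring.mem_nonunits_iff (A := W)).mp hπW)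
        ((ValuationSubring.valuation_le_one_iff W _).mpr hdivW)
  set r := W.valuation (E.ι π) with hr
  have hr0 : 0 < r := by
    rw [hr, zero_lt_iff]
    exact (Valuation.ne_zero_iff _).mpr hιπ0
  have hr1 : r < 1 := (ValuationSubring.mem_nonunits_iff (A := W)).mp hπW
  have hinj : ∀ {n m : ℤ}, r ^ n = r ^ m → n = m := fun {n m} h =>
    (zpow_right_strictAnti₀ hr0 hr1).injective h
  have hex : ∀ x : F', x ≠ 0 → ∃ n : ℤ, W.valuation x = r ^ n := by
    intro x hx
    obtain ⟨n, U, U', hU, hU', hxU⟩ := E.exists_decomp hv hπ hx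
    exact ⟨n, hD.valuation_eq hπ hU hU' hxU⟩
  let ordW : F' → ℤ := fun x => if hx : x = 0 then 0 else (hex x hx).choose
  have hordW : ∀ x : F', x ≠ 0 → W.valuation x = r ^ ordW x := by
    intro x hx
    show W.valuation x = r ^ (if hx : x = 0 then 0 else (hex x hx).choose)
    rw [dif_neg hx]
    exact (hex x hx).choose_spec
  have hordW_eq : ∀ (x : F') (n : ℤ), x ≠ 0 → W.valuation x = r ^ n → ordW x = n :=
    fun x n hx h => hinj (by rw [← hordW x hx, h])
  have hordπ : ordW (E.ι π) = 1 := hordW_eq _ 1 hιπ0 (by rw [zpow_one])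
  have hω : H27.IsOrdFunction K ordW := by
    refine ⟨fun f g hf hg => ?_, fun f g hf hg hfg => ?_, fun a ha => ?_, ?_⟩
    · apply hordW_eq _ _ (mul_ne_zero hf hg)
      rw [map_mul, hordW f hf, hordW g hg, zpow_add₀ hr0.ne']
    · by_contra hlt
      push Not at hlt
      rw [lt_min_iff] at hlt
      have h1 := Valuation.map_add W.valuation f g
      rw [hordW f hf, hordW g hg, hordW _ hfg] at h1
      rcases le_max_iff.mp h1 with h2 | h2
      · rw [zpow_le_zpow_iff_right_of_lt_one₀ hr0 hr1] at h2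
        omega
      · rw [zpow_le_zpow_iff_right_of_lt_one₀ hr0 hr1] at h2
        omega
    · apply hordW_eq _ _ (by simpa using ha)
      rw [zpow_zero]
      exact hD.valuation_algebraMap ha
    · exact ⟨E.ι π, hιπ0, by rw [hordπ]; exact one_ne_zero⟩
  refine ⟨hω.place, fun f => ?_⟩
  by_cases hf0 : f = 0
  · rw [hf0, map_zero, Place.ord_zero, Place.ord_zero]
  rw [hω.ord_place_eq ⟨E.ι π, hιπ0, hordπ⟩ (E.ι_ne_zero hf0)]
  apply hordW_eq _ _ (E.ι_ne_zero hf0)
  -- `f = π ^ m * u` with `u` a unit at `v`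
  set m := v.ord f with hm
  have hπm : π ^ (-m) ≠ 0 := zpow_ne_zero _ hπ0
  set u := f * π ^ (-m) with hu
  have hu0 : u ≠ 0 := mul_ne_zero hf0 hπm
  have huord : v.ord u = 0 := by
    rw [hu, v.ord_mul hf0 hπm, v.ord_zpow, hπ]
    ring
  have hu1 : u ∈ v.toValuationSubring :=
    (H27.mem_toValuationSubring_of_ne_zero v hu0).mpr (by omega)
  have hu2 : u⁻¹ ∈ v.toValuationSubring :=
    (H27.mem_toValuationSubring_of_ne_zero v (inv_ne_zero hu0)).mpr (by rw [v.ord_inv]; omega)
  have hval : W.valuation (E.ι u) = 1 := by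
    have h1 : W.valuation (E.ι u) ≤ 1 :=
      (ValuationSubring.valuation_le_one_iff W _).mpr (hD.map_mem u hu1)
    have h2 : W.valuation (E.ι u⁻¹) ≤ 1 :=
      (ValuationSubring.valuation_le_one_iff W _).mpr (hD.map_mem _ hu2)
    rw [map_inv₀, map_inv₀] at h2
    have h3 : W.valuation (E.ι u) ≠ 0 := (Valuation.ne_zero_iff _).mpr (E.ι_ne_zero hu0)
    have h4 : 1 ≤ W.valuation (E.ι u) := by
      rwa [inv_le_one₀ (zero_lt_iff.mpr h3)] at h2
    exact le_antisymm h1 h4
  have hfeq : E.ι f = E.ι π ^ m * E.ι u := by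
    rw [← map_zpow₀, ← map_mul, hu, mul_comm f, ← mul_assoc, ← zpow_add₀ hπ0]
    simp
  rw [hfeq, map_mul, hval, mul_one, map_zpow₀]

end ConstExt

end Fermat.Agent.S29.H20
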