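import Fermat.Agent.S24.H25_Wire
import Fermat.Agent.S24.H42_FF2

/-!
# Function field facts used by the descent package (package S29/E5, part 10)

Consequences of the S24 function field library for a function field `F/K` with `K`
algebraically closed of characteristic zero and `F` finite over `K(t)`, `t` transcendental:
principal divisors, degree one places, existence of a place, constants.
-/

set_option autoImplicit false
set_option linter.unusedSectionVars false
set_option linter.style.haveILetI false

noncomputable section

namespace Fermat.Agent.S29.H20

open AlgebraicCurve Fermat.Agent.S24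
open scoped IntermediateField

variable {K F : Type*} [Field K] [Field F] [Algebra K F] (t : F) [FiniteDimensional K⟮t⟯ F]
  [CharZero K]

theorem ff_hasPrincipalDivisors (ht : Transcendental K t) : HasPrincipalDivisors K F :=
  ⟨H42.principal (K := K) t ht⟩

theorem ff_deg_eq_one [IsAlgClosed K] (ht : Transcendental K t) (v : Place K F) : v.deg = 1 :=
  H25.deg_eq_one (K := K) t ht v

theorem ff_exists_place (ht : Transcendental K t) : Nonempty (Place K F) := by
  obtain ⟨s, -, hsum⟩ := H42.exists_finset_poles (K := K) t ht
  have hpos : 0 < Module.finrank K⟮t⟯ F := Module.finrank_pos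
  rcases s.eq_empty_or_nonempty with rfl | ⟨v, -⟩
  · rw [Finset.sum_empty] at hsum
    omega
  · exact ⟨v⟩

theorem ff_mem_range_of_isIntegral [IsAlgClosed K] {a : F} (ha : IsIntegral K a) :
    a ∈ Set.range (algebraMap K F) := by
  have h : (minpoly K a).degree = 1 :=
    IsAlgClosed.degree_eq_one_of_irreducible K (minpoly.irreducible ha)
  exact minpoly.degree_eq_one_iff.mp h

/-- A function without zeros and poles is constant. -/
theorem ff_const_of_ord_eq_zero [IsAlgClosed K] (ht : Transcendental K t) (x : F) (_hx : x ≠ 0)
    (hord : ∀ w : Place K F, w.ord x = 0) : x ∈ Set.range (algebraMap K F) := by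
  by_cases halg : IsAlgebraic K x
  · exact ff_mem_range_of_isIntegral halg.isIntegral
  · exfalso
    have hxtr : Transcendental K x := halg
    haveI := H42.finiteDimensional_adjoin_of_transcendental (K := K) t ht hxtr
    obtain ⟨s, hs, hsum⟩ := H42.exists_finset_poles (K := K) x hxtr
    have hpos : 0 < Module.finrank K⟮x⟯ F := Module.finrank_pos
    have hs0 : s = ∅ := by
      rw [Finset.eq_empty_iff_forall_notMem]
      intro v hv
      have := (hs v).mp hv
      rw [hord v] at this
      exact lt_irrefl _ this
    rw [hs0, Finset.sum_empty] at hsum
    omega

theorem ff_nonconstant (ht : Transcendental K t) (c : K) : t ≠ algebraMap K F c := by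
  intro h
  apply ht
  rw [h]
  exact isAlgebraic_algebraMap c

end Fermat.Agent.S29.H20
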