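import Fermat.Agent.S29.H20_ConstExtDescent
import Fermat.Agent.S29.H20_ConstExtCorr
import Fermat.Agent.S29.H20_ConstExtFinite
import Fermat.Agent.S29.H20_LaurentGalois
import Fermat.Agent.S29.H20_FunctionFieldFacts
import Fermat.Agent.S24.H40_M123
import Fermat.Prelude.Def_ModularCurve_HeckeOperatorTotal
import Fermat.Prelude.Def_AlgebraicCurve_Repartitions
import Fermat.Prelude.Thm_ModularCurve_coeffMap_qExpand

/-!
# Descent of torsion classes of `X₀(N)` from `K` to `ℚ̄` (package S29/E5, final part)

`K` an algebraically closed field of characteristic zero containing `Qbar = AlgebraicClosure ℚ`.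

* `jzeroBaseChange K N : JZero N →+ Pic0 K (laurentBaseChange K (modularFunctionFieldFull N))`;
* `jzeroBaseChange_injective`;
* `jzeroBaseChange_heckeOperatorAlong` : compatibility with the Hecke correspondences;
* `exists_jzero_torsion_of_torsion` : every `n`-torsion class over `K` comes from an `n`-torsion
  class over `Qbar`, provided the `n`-torsion over `K` is finite and weak Riemann holds.
-/

set_option autoImplicit false
set_option linter.unusedSectionVars false
set_option linter.style.haveILetI false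

noncomputable section

namespace Fermat.Agent.S29.H20

open ModularCurve AlgebraicCurve Fermat.Agent.S24
open scoped IntermediateField

/-! ### the function fields and `j` -/

section Level

variable (L : Type*) [Field L] [Algebra ℚ L] (N : ℕ)

/-- The function field of `X₀(N)` over `L`. -/
abbrev FF : Type _ := ↥(laurentBaseChange L (modularFunctionFieldFull N))

/-- `j` as an element of the function field of level `N`. -/
def jL : FF L N :=
  ⟨coeffEmb L jq, coeffEmb_mem_laurentBaseChange L (by
    have h := jqd_mem_full N (one_dvd N)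
    rwa [qExpand_one_apply] at h)⟩

theorem transcendental_jL : Transcendental L (jL L N) := by
  intro h
  apply H40.transcendental_coeffEmb_jq L
  have := h.algHom (laurentBaseChange L (modularFunctionFieldFull N)).val
  exact this

end Level

/-! ### the general situation `k ⊆ K` -/

section General

variable {k K : Type*} [Field k] [Field K] [Algebra ℚ k] [Algebra ℚ K] [Algebra k K]
  [IsAlgClosed k] [IsAlgClosed K]

variable (k K) in
/-- The constant field extension of level `N`. -/
abbrev cE (N : ℕ) : ConstExt k K (FF k N) (FF K N) :=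
  laurentConstExt (k := k) (K := K) (modularFunctionFieldFull N)

theorem cE_ι_jL (N : ℕ) : (cE k K N).ι (jL k N) = jL K N :=
  Subtype.ext (coeffIncl_coeffEmb jq)

theorem finiteDimensional_FF (N : ℕ) [hk : FiniteDimensional k⟮jL k N⟯ (FF k N)] :
    FiniteDimensional K⟮jL K N⟯ (FF K N) := by
  have h := (cE k K N).finiteDimensional_adjoin (jL k N)
  rwa [cE_ι_jL] at h

theorem degOne (N : ℕ) [hk : FiniteDimensional k⟮jL k N⟯ (FF k N)] : (cE k K N).DegOne := by
  haveI : CharZero k := algebraRat.charZero k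
  haveI : CharZero K := algebraRat.charZero K
  haveI := finiteDimensional_FF (k := k) (K := K) N
  exact ⟨ff_deg_eq_one (jL k N) (transcendental_jL k N),
    ff_deg_eq_one (jL K N) (transcendental_jL K N)⟩

variable (k K) in
/-- Base change of divisor classes of degree zero from `k` to `K`. -/
def pic0BaseChange (N : ℕ) [hk : FiniteDimensional k⟮jL k N⟯ (FF k N)] :
    Pic0 k (FF k N) →+ Pic0 K (FF K N) :=
  ConstExt.baseChangePic0 (degOne (k := k) (K := K) N)

theorem pic0BaseChange_injective (N : ℕ) [hk : FiniteDimensional k⟮jL k N⟯ (FF k N)] :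
    Function.Injective (pic0BaseChange k K N) := by
  haveI : CharZero k := algebraRat.charZero k
  haveI : CharZero K := algebraRat.charZero K
  haveI := finiteDimensional_FF (k := k) (K := K) N
  obtain ⟨v₀⟩ := ff_exists_place (jL k N) (transcendental_jL k N)
  exact (laurentGaloisData (k := k) (K := K) (modularFunctionFieldFull N)).baseChangePic0_injective
    (degOne N) (ff_const_of_ord_eq_zero (jL K N) (transcendental_jL K N)) v₀

/-- Weak Riemann: every divisor of degree zero becomes effective (up to linear equivalence)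
after adding a multiple of any given place. -/
def WeakRiemann (K : Type*) [Field K] [Algebra ℚ K] (N : ℕ) : Prop :=
  ∀ (w : Place K (FF K N)) (D : Divisor K (FF K N)), Divisor.degree D = 0 →
    ∃ n : ℕ, riemannRochSpace (D + Finsupp.single w (n : ℤ)) ≠ ⊥

theorem isRep_of_weakRiemann {F : Type*} [Field F] [Algebra K F] [HasPrincipalDivisors K F]
    {w : Place K F} {D : Divisor K F} {n : ℕ}
    (h : riemannRochSpace (D + Finsupp.single w (n : ℤ)) ≠ ⊥) :
    ∃ E : Divisor K F, IsRep w D n E := by
  obtain ⟨f, hf, hf0⟩ := (Submodule.ne_bot_iff _).mp h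
  rw [mem_riemannRochSpace_iff] at hf
  obtain ⟨Df, hDf, -⟩ := HasPrincipalDivisors.exists_divisor (K := K) f hf0
  refine ⟨Df + D + Finsupp.single w (n : ℤ), fun v => ?_, ?_⟩
  · have := (hf v).resolve_left hf0
    rw [Finsupp.add_apply] at this
    rw [Finsupp.add_apply, Finsupp.add_apply, hDf v]
    omega
  · have : Df + D + Finsupp.single w (n : ℤ) - Finsupp.single w (n : ℤ) - D = Df := by abel
    rw [this]
    exact ⟨f, hf0, hDf⟩

/-- **Descent**: classes with finite Galois orbit are base changes. -/
theorem mem_range_pic0BaseChange_of_finite_orbit (N : ℕ)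
    [hk : FiniteDimensional k⟮jL k N⟯ (FF k N)] (hRR : WeakRiemann K N) (c : Pic0 K (FF K N))
    (hfin : (Set.range fun σ : K ≃ₐ[k] K =>
      laurentGalois k K (modularFunctionFieldFull N) σ • c).Finite) :
    c ∈ Set.range (pic0BaseChange k K N) := by
  haveI : CharZero k := algebraRat.charZero k
  haveI : CharZero K := algebraRat.charZero K
  haveI := finiteDimensional_FF (k := k) (K := K) N
  haveI := ff_hasPrincipalDivisors (jL K N) (transcendental_jL K N)
  obtain ⟨v₀⟩ := ff_exists_place (jL k N) (transcendental_jL k N)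
  refine (laurentGaloisData (k := k) (K := K)
    (modularFunctionFieldFull N)).mem_range_baseChangePic0_of_finite_orbit (degOne N)
    ⟨jL k N, ff_nonconstant (jL k N) (transcendental_jL k N)⟩ v₀ ?_ c hfin
  intro D' hD'
  obtain ⟨n, hn⟩ := hRR _ D' hD'
  obtain ⟨E', hE'⟩ := isRep_of_weakRiemann hn
  exact ⟨n, E', hE'⟩

/-- **Descent of torsion**: if the `n`-torsion over `K` is finite, every `n`-torsion class over
`K` is the base change of an `n`-torsion class over `k`. -/
theorem exists_torsion_of_torsion (N : ℕ) [hk : FiniteDimensional k⟮jL k N⟯ (FF k N)]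
    (hRR : WeakRiemann K N) (n : ℕ) [hfin : Finite ↥(Pic0.torsion K (FF K N) n)]
    (c : Pic0 K (FF K N)) (hc : c ∈ Pic0.torsion K (FF K N) n) :
    ∃ c₀ ∈ Pic0.torsion k (FF k N) n, pic0BaseChange k K N c₀ = c := by
  have horb : (Set.range fun σ : K ≃ₐ[k] K =>
      laurentGalois k K (modularFunctionFieldFull N) σ • c).Finite := by
    refine (Set.toFinite (↑(Pic0.torsion K (FF K N) n) : Set (Pic0 K (FF K N)))).subset ?_
    rintro _ ⟨σ, rfl⟩
    exact SemilinearAut.smul_mem_torsion _ hc
  obtain ⟨c₀, rfl⟩ := mem_range_pic0BaseChange_of_finite_orbit N hRR c horb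
  refine ⟨c₀, ?_, rfl⟩
  rw [Pic0.mem_torsion] at hc ⊢
  apply pic0BaseChange_injective (k := k) (K := K) N
  rw [map_zsmul, hc, map_zero]

/-! ### Hecke operators -/

theorem compat_heckeAlphaBar (N ℓ : ℕ) [NeZero N] [NeZero ℓ] :
    ConstExt.Compat (cE k K N) (cE k K (N * ℓ)) (heckeAlphaBar k N ℓ) (heckeAlphaBar K N ℓ) := by
  intro f
  apply Subtype.ext
  rw [laurentConstExt_ι, laurentConstExt_ι, coe_laurentι, coe_heckeAlphaBar, coe_heckeAlphaBar,
    coe_laurentι]

theorem compat_heckeBetaBar (N ℓ : ℕ) [NeZero N] [NeZero ℓ] :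
    ConstExt.Compat (cE k K N) (cE k K (N * ℓ)) (heckeBetaBar k N ℓ) (heckeBetaBar K N ℓ) := by
  intro f
  apply Subtype.ext
  rw [laurentConstExt_ι, laurentConstExt_ι, coe_laurentι, coe_heckeBetaBar, coe_heckeBetaBar,
    coe_laurentι]
  exact ModularCurve.coeffMap_qExpand (algebraMap k K) ℓ (f : LaurentSeries k)

/-- **Base change commutes with the Hecke operators.** -/
theorem pic0BaseChange_heckeOperatorAlong (N ℓ : ℕ) [NeZero N] [NeZero ℓ]
    [hk : FiniteDimensional k⟮jL k N⟯ (FF k N)]
    [hk' : FiniteDimensional k⟮jL k (N * ℓ)⟯ (FF k (N * ℓ))]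
    (hIk : HeckeInputsAlong k N ℓ) (hIK : HeckeInputsAlong K N ℓ) (x : Pic0 k (FF k N)) :
    pic0BaseChange k K N (heckeOperatorAlong k N ℓ x)
      = heckeOperatorAlong K N ℓ (pic0BaseChange k K N x) := by
  obtain ⟨hα, hβ, hP, hfin, hFI, hN⟩ := hIk
  obtain ⟨hα', hβ', hP', hfin', hFI', hN'⟩ := hIK
  haveI := hP
  haveI := hP'
  rw [heckeOperatorAlong_eq hα hβ hFI hfin hN, heckeOperatorAlong_eq hα' hβ' hFI' hfin' hN']
  exact ConstExt.baseChangePic0_correspondence hβ hβ' hα hα' (compat_heckeBetaBar N ℓ)
    (compat_heckeAlphaBar N ℓ) (degOne N) (degOne (N * ℓ)) hFI hfin hN hFI' hfin' hN' x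

end General

/-! ### the case `k = ℚ̄` -/

section Qbar

variable (K : Type*) [Field K] [Algebra ℚ K] [Algebra Qbar K] [IsAlgClosed K]

theorem finiteDimensional_FF_Qbar (N : ℕ) [NeZero N] :
    FiniteDimensional Qbar⟮jL Qbar N⟯ (FF Qbar N) :=
  H40.finiteDimensional_FN N

attribute [local instance] finiteDimensional_FF_Qbar

/-- Base change `J₀(N)(ℚ̄) → Pic⁰(X₀(N)_K)`. -/
def jzeroBaseChange (N : ℕ) [NeZero N] : JZero N →+ Pic0 K (FF K N) :=
  pic0BaseChange Qbar K N

theorem jzeroBaseChange_injective (N : ℕ) [NeZero N] :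
    Function.Injective (jzeroBaseChange K N) :=
  pic0BaseChange_injective N

theorem jzeroBaseChange_heckeOperatorAlong (N ℓ : ℕ) [NeZero N] [NeZero ℓ]
    (hIk : HeckeInputsAlong Qbar N ℓ) (hIK : HeckeInputsAlong K N ℓ) (x : JZero N) :
    jzeroBaseChange K N (heckeOperatorAlong Qbar N ℓ x)
      = heckeOperatorAlong K N ℓ (jzeroBaseChange K N x) := by
  haveI : NeZero (N * ℓ) := ⟨Nat.mul_ne_zero (NeZero.ne N) (NeZero.ne ℓ)⟩
  exact pic0BaseChange_heckeOperatorAlong N ℓ hIk hIK x

theorem exists_jzero_torsion_of_torsion (N : ℕ) [NeZero N] (hRR : WeakRiemann K N) (n : ℕ)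
    [hfin : Finite ↥(Pic0.torsion K (FF K N) n)]
    (c : Pic0 K (FF K N)) (hc : c ∈ Pic0.torsion K (FF K N) n) :
    ∃ c₀ ∈ Pic0.torsion Qbar (modularFunctionFieldBar N) n, jzeroBaseChange K N c₀ = c :=
  exists_torsion_of_torsion N hRR n c hc

end Qbar

end Fermat.Agent.S29.H20
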