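import Fermat.Agent.S29.H20_ConstExt
import Fermat.Prelude.Def_ModularCurve_LaurentCoeff

/-!
# The constant field extension `laurentBaseChange k F₀ ⊆ laurentBaseChange K F₀`
(package S29/E5, part 7)

For fields `k ⊆ K` of characteristic zero and `F₀ ⊆ ℚ((q))`, the coefficientwise map
`k((q)) → K((q))` restricts to `laurentBaseChange k F₀ → laurentBaseChange K F₀`, and this is a
constant field extension in the sense of `ConstExt`.
-/

set_option autoImplicit false
set_option linter.unusedSectionVars false
set_option linter.unusedVariables false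

noncomputable section

namespace Fermat.Agent.S29.H20

open ModularCurve HahnSeries

variable (k K : Type*) [Field k] [Field K] [Algebra ℚ k] [Algebra ℚ K] [Algebra k K]

/-- The coefficientwise inclusion `k((q)) → K((q))`. -/
def coeffIncl : LaurentSeries k →+* LaurentSeries K := coeffMap (algebraMap k K)

variable {k K}

@[simp]
theorem coeffIncl_coeff (x : LaurentSeries k) (n : ℤ) :
    (coeffIncl k K x).coeff n = algebraMap k K (x.coeff n) := rfl

theorem coeffIncl_injective : Function.Injective (coeffIncl k K) := (coeffIncl k K).injective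

theorem coeffIncl_algebraMap (c : k) :
    coeffIncl k K (algebraMap k (LaurentSeries k) c)
      = algebraMap K (LaurentSeries K) (algebraMap k K c) := by
  rw [algebraMap_laurentSeries_eq_single, algebraMap_laurentSeries_eq_single, coeffIncl,
    coeffMap_single]

theorem coeffIncl_coeffEmb (x : LaurentSeries ℚ) :
    coeffIncl k K (coeffEmb k x) = coeffEmb K x := by
  rw [coeffIncl, coeffEmb, coeffEmb, coeffMap_coeffMap]
  exact coeffMap_congr (Subsingleton.elim _ _) x

theorem coeff_algebraMap_mul (a : K) (y : LaurentSeries K) (n : ℤ) :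
    (algebraMap K (LaurentSeries K) a * y).coeff n = a * y.coeff n := by
  rw [algebraMap_laurentSeries_eq_single, HahnSeries.coeff_single_zero_mul]

variable (F₀ : IntermediateField ℚ (LaurentSeries ℚ))

theorem coeffIncl_mem_laurentBaseChange {x : LaurentSeries k}
    (hx : x ∈ laurentBaseChange k F₀) : coeffIncl k K x ∈ laurentBaseChange K F₀ := by
  rw [mem_laurentBaseChange_iff] at hx
  induction hx using Subfield.closure_induction with
  | mem y hy =>
      rcases hy with ⟨a, rfl⟩ | ⟨z, hz, rfl⟩
      · rw [coeffIncl_algebraMap]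
        exact (laurentBaseChange K F₀).algebraMap_mem _
      · rw [coeffIncl_coeffEmb]
        exact coeffEmb_mem_laurentBaseChange K hz
  | one => simp
  | add x y _ _ hx hy => simpa using add_mem hx hy
  | neg x _ hx => simpa using neg_mem hx
  | inv x _ hx => simpa using inv_mem hx
  | mul x y _ _ hx hy => simpa using mul_mem hx hy

/-- The embedding `laurentBaseChange k F₀ → laurentBaseChange K F₀`. -/
def laurentι : laurentBaseChange k F₀ →+* laurentBaseChange K F₀ where
  toFun x := ⟨coeffIncl k K (x : LaurentSeries k), coeffIncl_mem_laurentBaseChange F₀ x.2⟩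
  map_one' := Subtype.ext (map_one (coeffIncl k K))
  map_mul' x y := Subtype.ext (map_mul (coeffIncl k K) _ _)
  map_zero' := Subtype.ext (map_zero (coeffIncl k K))
  map_add' x y := Subtype.ext (map_add (coeffIncl k K) _ _)

@[simp]
theorem coe_laurentι (x : laurentBaseChange k F₀) :
    ((laurentι (K := K) F₀ x : laurentBaseChange K F₀) : LaurentSeries K)
      = coeffIncl k K (x : LaurentSeries k) := rfl

theorem mul_mem_span_of_mul_closed {R A : Type*} [CommSemiring R] [Semiring A] [Algebra R A]
    {S : Set A} (hS : ∀ x ∈ S, ∀ y ∈ S, x * y ∈ S) {a b : A}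
    (ha : a ∈ Submodule.span R S) (hb : b ∈ Submodule.span R S) : a * b ∈ Submodule.span R S := by
  have h := Submodule.mul_mem_mul ha hb
  rw [Submodule.span_mul_span] at h
  refine Submodule.span_mono ?_ h
  rintro _ ⟨x, hx, y, hy, rfl⟩
  exact hS x hx y hy

/-- Every element of `laurentBaseChange K F₀` is a quotient of elements of the `K`-span of the
image of `laurentBaseChange k F₀`. -/
theorem laurent_gen (x : laurentBaseChange K F₀) :
    ∃ A ∈ Submodule.span K (Set.range (laurentι (K := K) (k := k) F₀)),
      ∃ B ∈ Submodule.span K (Set.range (laurentι (K := K) (k := k) F₀)), B ≠ 0 ∧ x * B = A := by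
  set R := Submodule.span K (Set.range (laurentι (K := K) (k := k) F₀)) with hR
  have hmulcl : ∀ a ∈ Set.range (laurentι (K := K) (k := k) F₀),
      ∀ b ∈ Set.range (laurentι (K := K) (k := k) F₀),
      a * b ∈ Set.range (laurentι (K := K) (k := k) F₀) := by
    rintro _ ⟨a, rfl⟩ _ ⟨b, rfl⟩
    exact ⟨a * b, map_mul _ _ _⟩
  have hRmul : ∀ {a b : laurentBaseChange K F₀}, a ∈ R → b ∈ R → a * b ∈ R := fun ha hb =>
    mul_mem_span_of_mul_closed hmulcl ha hb
  have hRone : (1 : laurentBaseChange K F₀) ∈ R :=
    Submodule.subset_span ⟨1, map_one _⟩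
  have hRconst : ∀ c : K, algebraMap K (laurentBaseChange K F₀) c ∈ R := by
    intro c
    rw [Algebra.algebraMap_eq_smul_one]
    exact Submodule.smul_mem _ _ hRone
  suffices h : ∀ (y : LaurentSeries K) (hy : y ∈ laurentBaseChange K F₀),
      ∃ A ∈ R, ∃ B ∈ R, B ≠ 0 ∧ (⟨y, hy⟩ : laurentBaseChange K F₀) * B = A from h x.1 x.2
  intro y hy
  induction hy using IntermediateField.adjoin_induction with
  | mem y hy =>
      obtain ⟨z, hz, rfl⟩ := hy
      refine ⟨_, Submodule.subset_span ⟨⟨coeffEmb k z, coeffEmb_mem_laurentBaseChange k hz⟩, rfl⟩,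
        1, hRone, one_ne_zero, ?_⟩
      rw [mul_one]
      exact Subtype.ext (coeffIncl_coeffEmb z).symm
  | algebraMap c =>
      exact ⟨_, hRconst c, 1, hRone, one_ne_zero, by rw [mul_one]; rfl⟩
  | add y z hy hz ihy ihz =>
      obtain ⟨A, hA, B, hB, hB0, hAB⟩ := ihy
      obtain ⟨A', hA', B', hB', hB'0, hAB'⟩ := ihz
      refine ⟨A * B' + A' * B, add_mem (hRmul hA hB') (hRmul hA' hB), B * B', hRmul hB hB',
        mul_ne_zero hB0 hB'0, ?_⟩
      rw [← hAB, ← hAB']
      have : (⟨y + z, add_mem hy hz⟩ : laurentBaseChange K F₀) = ⟨y, hy⟩ + ⟨z, hz⟩ := rfl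
      rw [this]
      ring
  | inv y hy ihy =>
      obtain ⟨A, hA, B, hB, hB0, hAB⟩ := ihy
      by_cases hy0 : y = 0
      · subst hy0
        refine ⟨0, zero_mem _, 1, hRone, one_ne_zero, ?_⟩
        rw [mul_one]
        exact Subtype.ext inv_zero
      · have hy0' : (⟨y, hy⟩ : laurentBaseChange K F₀) ≠ 0 := fun h0 =>
          hy0 (congrArg Subtype.val h0)
        have hA0 : A ≠ 0 := by rw [← hAB]; exact mul_ne_zero hy0' hB0
        refine ⟨B, hB, A, hA, hA0, ?_⟩
        have : (⟨y⁻¹, inv_mem hy⟩ : laurentBaseChange K F₀) = (⟨y, hy⟩)⁻¹ := rfl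
        rw [this, ← hAB]
        field_simp
  | mul y z hy hz ihy ihz =>
      obtain ⟨A, hA, B, hB, hB0, hAB⟩ := ihy
      obtain ⟨A', hA', B', hB', hB'0, hAB'⟩ := ihz
      refine ⟨A * A', hRmul hA hA', B * B', hRmul hB hB', mul_ne_zero hB0 hB'0, ?_⟩
      rw [← hAB, ← hAB']
      have : (⟨y * z, mul_mem hy hz⟩ : laurentBaseChange K F₀) = ⟨y, hy⟩ * ⟨z, hz⟩ := rfl
      rw [this]
      ring

/-- **The constant field extension of Laurent base changes.** -/
def laurentConstExt : ConstExt k K (laurentBaseChange k F₀) (laurentBaseChange K F₀) where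
  ι := laurentι F₀
  map_algebraMap a := Subtype.ext (coeffIncl_algebraMap a)
  linDisj n a ha g hsum := by
    intro i
    apply Subtype.ext
    ext m
    have h1 := congrArg (fun y : laurentBaseChange K F₀ => (y : LaurentSeries K).coeff m) hsum
    simp only [AddSubmonoidClass.coe_finsetSum, MulMemClass.coe_mul, coe_laurentι,
      ZeroMemClass.coe_zero, HahnSeries.coeff_zero] at h1
    have h2 : ∑ j, ((g j : LaurentSeries k).coeff m) • a j = 0 := by
      rw [← h1, HahnSeries.coeff_sum]
      refine Finset.sum_congr rfl fun j _ => ?_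
      have : ((algebraMap K (laurentBaseChange K F₀) (a j) : laurentBaseChange K F₀) :
          LaurentSeries K) = algebraMap K (LaurentSeries K) (a j) := rfl
      rw [this, coeff_algebraMap_mul, coeffIncl_coeff, Algebra.smul_def, mul_comm]
    have h3 := Fintype.linearIndependent_iff.mp ha (fun j => (g j : LaurentSeries k).coeff m) h2 i
    simpa using h3
  gen := laurent_gen F₀

@[simp]
theorem laurentConstExt_ι :
    (laurentConstExt (k := k) (K := K) F₀).ι = laurentι F₀ := rfl

end Fermat.Agent.S29.H20
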