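/-
helper22: NORM BASE CHANGE in a commutative square of fields (piece (B) of the pure
field-theoretic route to `HeckeOperatorsCommuteBar`, helper87 #1795).  Mathlib only.

        E  --j-->  E'
        ^          ^
        |          |
        F  --i-->  F'

If an `F`-basis of `E` is mapped by `j` to an `F'`-basis of `E'` (equivalently:
`[E' : F'] = [E : F]` and `E'` is spanned over `F'` by `j(E)`), then
`Nm_{E'/F'} (j x) = i (Nm_{E/F} x)`, and similarly for traces and characteristic polynomials.
-/
import Mathlib

set_option autoImplicit false

namespace Fermat.Agent.S29.H22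

open Module

section Basis

variable {F E F' E' : Type*} [CommRing F] [Ring E] [CommRing F'] [Ring E']
  [Algebra F E] [Algebra F' E']
  (i : F →+* F') (j : E →+* E')
  (hij : ∀ a : F, j (algebraMap F E a) = algebraMap F' E' (i a))
  {ι : Type*} [Fintype ι] [DecidableEq ι]

include hij in
/-- The matrix of left multiplication by `j x` in the basis `j ∘ b` is the image under `i` of the
matrix of left multiplication by `x` in the basis `b`. -/
theorem leftMulMatrix_map (b : Basis ι F E) (b' : Basis ι F' E') (hb : ∀ k, b' k = j (b k))
    (x : E) :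
    Algebra.leftMulMatrix b' (j x) = (Algebra.leftMulMatrix b x).map i := by
  ext m k
  rw [Matrix.map_apply, Algebra.leftMulMatrix_eq_repr_mul, Algebra.leftMulMatrix_eq_repr_mul]
  -- expand `x * b k` in the basis `b` and push through `j`
  have h1 : x * b k = ∑ m, (b.repr (x * b k) m) • b m := (b.sum_repr (x * b k)).symm
  have h2 : j x * b' k = ∑ m, (i (b.repr (x * b k) m)) • b' m := by
    rw [hb k, ← map_mul, h1, map_sum]
    refine Finset.sum_congr rfl fun m _ => ?_
    rw [Algebra.smul_def, map_mul, hij, hb m, Algebra.smul_def]
    congr 2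
    rw [← h1]
  rw [h2, map_sum, Finset.sum_apply']
  simp only [map_smul, Basis.repr_self, Finsupp.smul_single, smul_eq_mul, mul_one]
  rw [Finset.sum_eq_single m]
  · simp
  · intro m' _ hm'
    simp [hm']
  · intro hm
    exact absurd (Finset.mem_univ m) hm

end Basis

section Norm

variable {F E F' E' : Type*} [CommRing F] [CommRing E] [CommRing F'] [CommRing E']
  [Algebra F E] [Algebra F' E']
  (i : F →+* F') (j : E →+* E')
  (hij : ∀ a : F, j (algebraMap F E a) = algebraMap F' E' (i a))
  {ι : Type*} [Fintype ι] [DecidableEq ι]

include hij in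
/-- **Norm base change**, basis form. -/
theorem norm_map_of_basis (b : Basis ι F E) (b' : Basis ι F' E') (hb : ∀ k, b' k = j (b k))
    (x : E) :
    Algebra.norm F' (j x) = i (Algebra.norm F x) := by
  rw [Algebra.norm_eq_matrix_det b', Algebra.norm_eq_matrix_det b,
    leftMulMatrix_map i j hij b b' hb, RingHom.map_det]
  rfl

include hij in
/-- **Trace base change**, basis form. -/
theorem trace_map_of_basis (b : Basis ι F E) (b' : Basis ι F' E') (hb : ∀ k, b' k = j (b k))
    (x : E) :
    Algebra.trace F' E' (j x) = i (Algebra.trace F E x) := by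
  rw [Algebra.trace_eq_matrix_trace b', Algebra.trace_eq_matrix_trace b,
    leftMulMatrix_map i j hij b b' hb]
  simp [Matrix.trace, map_sum]

end Norm

section Fields

variable {F E F' E' : Type*} [Field F] [Field E] [Field F'] [Field E']
  [Algebra F E] [Algebra F' E'] [FiniteDimensional F E]
  (i : F →+* F') (j : E →+* E')
  (hij : ∀ a : F, j (algebraMap F E a) = algebraMap F' E' (i a))

omit [FiniteDimensional F E] in
include hij in
/-- The `F'`-span of `j(E)` is spanned by the image of any `F`-basis of `E`. -/
theorem span_range_le_span_basis {ι : Type*} [Fintype ι] (b : Basis ι F E) :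
    Submodule.span F' (Set.range j) ≤ Submodule.span F' (Set.range fun k => j (b k)) := by
  classical
  rw [Submodule.span_le]
  rintro _ ⟨x, rfl⟩
  have h1 : x = ∑ m, (b.repr x m) • b m := (b.sum_repr x).symm
  have : j x = ∑ m, i (b.repr x m) • j (b m) := by
    conv_lhs => rw [h1]
    rw [map_sum]
    refine Finset.sum_congr rfl fun m _ => ?_
    rw [Algebra.smul_def, map_mul, hij, Algebra.smul_def]
  rw [SetLike.mem_coe, this]
  exact Submodule.sum_mem _ fun m _ =>
    Submodule.smul_mem _ _ (Submodule.subset_span ⟨m, rfl⟩)

include hij in
/-- **Norm base change**, degree form: if `E'` is spanned over `F'` by `j(E)` and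
`[E' : F'] = [E : F]`, then `Nm_{E'/F'} (j x) = i (Nm_{E/F} x)`. -/
theorem norm_map_of_span_of_finrank
    (hspan : Submodule.span F' (Set.range j) = ⊤)
    (hdeg : finrank F' E' = finrank F E) (x : E) :
    Algebra.norm F' (j x) = i (Algebra.norm F x) := by
  classical
  let b := Module.finBasis F E
  have htop : ⊤ ≤ Submodule.span F' (Set.range fun k => j (b k)) := by
    rw [← hspan]; exact span_range_le_span_basis i j hij b
  have hcard : Fintype.card (Fin (finrank F E)) = finrank F' E' := by
    rw [Fintype.card_fin, hdeg]
  let b' : Basis (Fin (finrank F E)) F' E' :=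
    basisOfTopLeSpanOfCardEqFinrank (fun k => j (b k)) htop hcard
  have hb : ∀ k, b' k = j (b k) := fun k => by
    simp [b', coe_basisOfTopLeSpanOfCardEqFinrank]
  exact norm_map_of_basis i j hij b b' hb x

include hij in
/-- **Trace base change**, degree form. -/
theorem trace_map_of_span_of_finrank
    (hspan : Submodule.span F' (Set.range j) = ⊤)
    (hdeg : finrank F' E' = finrank F E) (x : E) :
    Algebra.trace F' E' (j x) = i (Algebra.trace F E x) := by
  classical
  let b := Module.finBasis F E
  have htop : ⊤ ≤ Submodule.span F' (Set.range fun k => j (b k)) := by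
    rw [← hspan]; exact span_range_le_span_basis i j hij b
  have hcard : Fintype.card (Fin (finrank F E)) = finrank F' E' := by
    rw [Fintype.card_fin, hdeg]
  let b' : Basis (Fin (finrank F E)) F' E' :=
    basisOfTopLeSpanOfCardEqFinrank (fun k => j (b k)) htop hcard
  have hb : ∀ k, b' k = j (b k) := fun k => by
    simp [b', coe_basisOfTopLeSpanOfCardEqFinrank]
  exact trace_map_of_basis i j hij b b' hb x

include hij in
/-- If `E'` is generated as a FIELD over `F'` by `j(E)` (and `E/F` is finite), then `E'` is already
spanned over `F'` by `j(E)`. -/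
theorem span_range_eq_top_of_adjoin_eq_top
    (hgen : IntermediateField.adjoin F' (Set.range j) = ⊤) :
    Submodule.span F' (Set.range j) = ⊤ := by
  -- every element of `j(E)` is algebraic over `F'`
  have halg : ∀ y ∈ Set.range j, IsAlgebraic F' y := by
    rintro _ ⟨x, rfl⟩
    obtain ⟨p, hp0, hp⟩ := (Algebra.IsAlgebraic.isAlgebraic (R := F) x)
    refine ⟨p.map i, (Polynomial.map_ne_zero_iff i.injective).mpr hp0, ?_⟩
    have : Polynomial.aeval (j x) (p.map i) = j (Polynomial.aeval x p) := by
      rw [Polynomial.aeval_def, Polynomial.aeval_def, Polynomial.eval₂_map, Polynomial.hom_eval₂]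
      congr 1
      ext a
      simp [hij]
    rw [this, hp, map_zero]
  have h1 : (IntermediateField.adjoin F' (Set.range j)).toSubalgebra
      = Algebra.adjoin F' (Set.range j) :=
    IntermediateField.adjoin_toSubalgebra_of_isAlgebraic halg
  -- `range j` is a submonoid, so `Algebra.adjoin = span`
  have h2 : Subalgebra.toSubmodule (Algebra.adjoin F' (Set.range j))
      = Submodule.span F' (Set.range j) := by
    rw [Algebra.adjoin_eq_span]
    congr 1
    have : (Submonoid.closure (Set.range j) : Set E') = Set.range j := by
      have h3 : Set.range j = ((MonoidHom.mrange (j : E →* E') : Submonoid E') : Set E') := by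
        ext y; simp
      rw [h3, Submonoid.closure_eq]
    exact this
  rw [← h2, ← h1, hgen]
  rfl

include hij in
/-- **Norm base change**, field-generation form. -/
theorem norm_map_of_adjoin_of_finrank
    (hgen : IntermediateField.adjoin F' (Set.range j) = ⊤)
    (hdeg : finrank F' E' = finrank F E) (x : E) :
    Algebra.norm F' (j x) = i (Algebra.norm F x) :=
  norm_map_of_span_of_finrank i j hij (span_range_eq_top_of_adjoin_eq_top i j hij hgen) hdeg x

end Fields

end Fermat.Agent.S29.H22
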