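import Mathlib
import Fermat.Agent.S29.H22_NormBaseChange
import Fermat.Agent.S29.H47_HeckeComm
import Fermat.Agent.S37.H6_LevelDegree

/-!
# (T1), piece (C): the four-level square and the commutation of the Hecke norms (helper22)

For distinct primes `ℓ ≠ ℓ'` and any level `N` (no coprimality with `N` is assumed), the two
Hecke norms `y ↦ Nm_{α_ℓ}(β_ℓ y)` on `F_N = ℚ̄(X₀(N))` commute:

* `levelNorm h` : the norm `FN M' → FN M` along the level inclusion, `M ∣ M'`;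
* `levelNorm_levelNorm` : transitivity; `levelNorm_congr` : transport along `M' = M''`;
* `levelBeta ℓ h` : `FN M → FN M'`, `f(q) ↦ f(q^ℓ)`, for `M * ℓ ∣ M'`;
* `heckeBetaBar_levelNorm` : **norm base change in the four-level square**
  `β_ℓ (Nm_{F_{Nℓ'}/F_N} x) = Nm_{F_{Nℓℓ'}/F_{Nℓ}} (x(q^ℓ))`;
* `heckeNorm_heckeNorm` : `Nm_{α_ℓ} β_ℓ Nm_{α_ℓ'} β_ℓ' y = Nm_{F_{Nℓℓ'}/F_N} (y(q^{ℓℓ'}))`;
* `heckeNorm_comm` : the Hecke norms at `ℓ ≠ ℓ'` commute.

Pure field theory: degrees from the `ψ`-function (helper6's `H6_LevelDegree`), generation by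
`j(q^{Nℓℓ'})`, norm base change (`H22_NormBaseChange`) and transitivity of norms.
-/

set_option autoImplicit false
set_option linter.style.haveILetI false

noncomputable section

namespace Fermat.Agent.S29.H22

open ModularCurve AlgebraicCurve IntermediateField
open Fermat.Agent.S24 Fermat.Agent.S37.H6

/-! ### Norms along level inclusions -/

section LevelNorm

variable {M M' M'' : ℕ} [NeZero M] [NeZero M'] [NeZero M'']

/-- The norm `FN M' → FN M` along the level inclusion. -/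
def levelNorm (h : M ∣ M') : FN M' →* FN M :=
  letI := algebraAlong (levelIncl h)
  Algebra.norm (FN M)

theorem levelNorm_congr (e : M' = M'') (h : M ∣ M') (h' : M ∣ M'') (x : FN M') (x' : FN M'')
    (hx : (x : LaurentSeries Qbar) = (x' : LaurentSeries Qbar)) :
    levelNorm h x = levelNorm h' x' := by
  subst e
  have : x = x' := Subtype.ext hx
  subst this
  rfl

theorem levelIncl_levelIncl (h : M ∣ M') (h' : M' ∣ M'') (a : FN M) :
    levelIncl h' (levelIncl h a) = levelIncl (h.trans h') a :=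
  Subtype.ext (by rw [coe_levelIncl, coe_levelIncl, coe_levelIncl])

/-- Transitivity of the level norms. -/
theorem levelNorm_levelNorm (h : M ∣ M') (h' : M' ∣ M'') (x : FN M'') :
    levelNorm h (levelNorm h' x) = levelNorm (h.trans h') x := by
  letI a1 : Algebra (FN M) (FN M') := algebraAlong (levelIncl h)
  letI a2 : Algebra (FN M') (FN M'') := algebraAlong (levelIncl h')
  letI a3 : Algebra (FN M) (FN M'') := algebraAlong (levelIncl (h.trans h'))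
  haveI : IsScalarTower (FN M) (FN M') (FN M'') :=
    IsScalarTower.of_algebraMap_eq fun a => (levelIncl_levelIncl h h' a).symm
  haveI : Module.Free (FN M) (FN M') := Module.Free.of_divisionRing _ _
  haveI : Module.Free (FN M') (FN M'') := Module.Free.of_divisionRing _ _
  exact Algebra.norm_norm (R := FN M) (S := FN M') (A := FN M'') (a := x)

end LevelNorm

/-! ### `f(q) ↦ f(q^ℓ)` between arbitrary levels -/

section LevelBeta

variable {M M' : ℕ} [NeZero M] [NeZero M'] (ℓ : ℕ) [NeZero ℓ]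

/-- `f(q) ↦ f(q^ℓ)` as a map `FN M → FN M'`, for `M * ℓ ∣ M'`. -/
def levelBeta (h : M * ℓ ∣ M') : FN M →ₐ[Qbar] FN M' :=
  (levelIncl h).comp (heckeBetaBar Qbar M ℓ)

@[simp]
theorem coe_levelBeta (h : M * ℓ ∣ M') (x : FN M) :
    ((levelBeta ℓ h x : FN M') : LaurentSeries Qbar) = qExpand Qbar ℓ (x : LaurentSeries Qbar) :=
  rfl

end LevelBeta

/-! ### The four-level square -/

section Square

theorem dvd_four (N ℓ ℓ' : ℕ) : N * ℓ' * ℓ ∣ N * ℓ * ℓ' := by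
  rw [Nat.mul_right_comm]

variable (N ℓ ℓ' : ℕ) [NeZero N] [NeZero ℓ] [NeZero ℓ']

theorem prime_dvd_mul_iff {ℓ ℓ' : ℕ} (hℓ : ℓ.Prime) (hℓ' : ℓ'.Prime) (hne : ℓ ≠ ℓ') (N : ℕ) :
    ℓ' ∣ N * ℓ ↔ ℓ' ∣ N := by
  constructor
  · intro h
    rcases (Nat.Prime.dvd_mul hℓ').mp h with h | h
    · exact h
    · exact absurd ((Nat.prime_dvd_prime_iff_eq hℓ' hℓ).mp h).symm hne
  · intro h
    exact h.mul_right ℓ

/-- The degrees of the two vertical sides of the square agree. -/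
theorem finrankAlong_square {ℓ ℓ' : ℕ} [NeZero ℓ] [NeZero ℓ'] (hℓ : ℓ.Prime) (hℓ' : ℓ'.Prime)
    (hne : ℓ ≠ ℓ') :
    finrankAlong Qbar (heckeAlphaBar Qbar (N * ℓ) ℓ') = finrankAlong Qbar (heckeAlphaBar Qbar N ℓ') := by
  rw [finrankAlong_heckeAlphaBar (N * ℓ) ℓ' hℓ', finrankAlong_heckeAlphaBar N ℓ' hℓ']
  by_cases h : ℓ' ∣ N
  · rw [if_pos h, if_pos ((prime_dvd_mul_iff hℓ hℓ' hne N).mpr h)]
  · rw [if_neg h, if_neg (fun h' => h ((prime_dvd_mul_iff hℓ hℓ' hne N).mp h'))]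

/-- The top generator `j(q^{Nℓℓ'})` is the image of `j(q^{Nℓ'})` under `f(q) ↦ f(q^ℓ)`. -/
theorem levelBeta_jd_self :
    levelBeta ℓ (dvd_four N ℓ ℓ') (jd (N * ℓ') (N * ℓ') dvd_rfl)
      = jd (N * ℓ * ℓ') (N * ℓ * ℓ') dvd_rfl := by
  have h1 : levelBeta ℓ (dvd_four N ℓ ℓ') (jd (N * ℓ') (N * ℓ') dvd_rfl)
      = levelIncl (dvd_four N ℓ ℓ')
          (heckeBetaBar Qbar (N * ℓ') ℓ (jd (N * ℓ') (N * ℓ') dvd_rfl)) := rfl
  rw [h1, heckeBetaBar_jd_self, levelIncl_jd]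
  exact jd_congr _ (Nat.mul_right_comm N ℓ' ℓ) _ _

/-- **Norm base change in the four-level square**:
`β_ℓ (Nm_{F_{Nℓ'}/F_N} x) = Nm_{F_{Nℓℓ'}/F_{Nℓ}} (x(q^ℓ))`. -/
theorem heckeBetaBar_levelNorm {ℓ ℓ' : ℕ} [NeZero ℓ] [NeZero ℓ'] (hℓ : ℓ.Prime) (hℓ' : ℓ'.Prime)
    (hne : ℓ ≠ ℓ') (x : FN (N * ℓ')) :
    heckeBetaBar Qbar N ℓ (levelNorm (dvd_mul_right N ℓ') x)
      = levelNorm (dvd_mul_right (N * ℓ) ℓ') (levelBeta ℓ (dvd_four N ℓ ℓ') x) := by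
  letI a1 : Algebra (FN N) (FN (N * ℓ')) := algebraAlong (levelIncl (dvd_mul_right N ℓ'))
  letI a2 : Algebra (FN (N * ℓ)) (FN (N * ℓ * ℓ')) :=
    algebraAlong (levelIncl (dvd_mul_right (N * ℓ) ℓ'))
  haveI : FiniteDimensional (FN N) (FN (N * ℓ')) := finiteAlong_levelIncl (dvd_mul_right N ℓ')
  have hij : ∀ a : FN N,
      (levelBeta ℓ (dvd_four N ℓ ℓ') : FN (N * ℓ') →+* FN (N * ℓ * ℓ'))
        (algebraMap (FN N) (FN (N * ℓ')) a)
        = algebraMap (FN (N * ℓ)) (FN (N * ℓ * ℓ'))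
          ((heckeBetaBar Qbar N ℓ : FN N →+* FN (N * ℓ)) a) := fun a => by
    apply Subtype.ext
    show ((levelBeta ℓ (dvd_four N ℓ ℓ') (levelIncl (dvd_mul_right N ℓ') a) : FN (N * ℓ * ℓ')) :
        LaurentSeries Qbar)
      = ((levelIncl (dvd_mul_right (N * ℓ) ℓ') (heckeBetaBar Qbar N ℓ a) : FN (N * ℓ * ℓ')) :
        LaurentSeries Qbar)
    rw [coe_levelBeta, coe_levelIncl, coe_levelIncl, coe_heckeBetaBar]
  have hgen : IntermediateField.adjoin (FN (N * ℓ))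
      (Set.range (levelBeta ℓ (dvd_four N ℓ ℓ') : FN (N * ℓ') →+* FN (N * ℓ * ℓ'))) = ⊤ := by
    rw [eq_top_iff, ← adjoin_jd_eq_top (dvd_mul_right (N * ℓ) ℓ')]
    apply IntermediateField.adjoin.mono
    rintro _ rfl
    exact ⟨jd (N * ℓ') (N * ℓ') dvd_rfl, levelBeta_jd_self N ℓ ℓ'⟩
  have hdeg : Module.finrank (FN (N * ℓ)) (FN (N * ℓ * ℓ'))
      = Module.finrank (FN N) (FN (N * ℓ')) := finrankAlong_square N hℓ hℓ' hne
  exact (norm_map_of_adjoin_of_finrank (heckeBetaBar Qbar N ℓ : FN N →+* FN (N * ℓ))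
    (levelBeta ℓ (dvd_four N ℓ ℓ') : FN (N * ℓ') →+* FN (N * ℓ * ℓ')) hij hgen hdeg x).symm

end Square

/-! ### The Hecke norms commute -/

section Comm

variable (N : ℕ) [NeZero N]

theorem heckeNorm_eq_levelNorm (ℓ : ℕ) [NeZero ℓ] (y : FN N) :
    H47.heckeNorm Qbar N ℓ y = levelNorm (dvd_mul_right N ℓ) (heckeBetaBar Qbar N ℓ y) :=
  rfl

/-- `Nm_{α_ℓ} β_ℓ Nm_{α_ℓ'} β_ℓ' y = Nm_{F_{Nℓℓ'}/F_N} (y(q^{ℓℓ'}))`. -/
theorem heckeNorm_heckeNorm {ℓ ℓ' : ℕ} [NeZero ℓ] [NeZero ℓ'] (hℓ : ℓ.Prime) (hℓ' : ℓ'.Prime)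
    (hne : ℓ ≠ ℓ') (y : FN N) :
    H47.heckeNorm Qbar N ℓ (H47.heckeNorm Qbar N ℓ' y)
      = levelNorm ((dvd_mul_right N ℓ).trans (dvd_mul_right (N * ℓ) ℓ'))
          (levelBeta ℓ (dvd_four N ℓ ℓ') (heckeBetaBar Qbar N ℓ' y)) := by
  rw [heckeNorm_eq_levelNorm, heckeNorm_eq_levelNorm, heckeBetaBar_levelNorm N hℓ hℓ' hne,
    levelNorm_levelNorm]

/-- **The Hecke norms at distinct primes commute** (no condition on `N`). -/
theorem heckeNorm_comm {ℓ ℓ' : ℕ} [NeZero ℓ] [NeZero ℓ'] (hℓ : ℓ.Prime) (hℓ' : ℓ'.Prime)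
    (hne : ℓ ≠ ℓ') (y : FN N) :
    H47.heckeNorm Qbar N ℓ (H47.heckeNorm Qbar N ℓ' y)
      = H47.heckeNorm Qbar N ℓ' (H47.heckeNorm Qbar N ℓ y) := by
  rw [heckeNorm_heckeNorm N hℓ hℓ' hne, heckeNorm_heckeNorm N hℓ' hℓ hne.symm]
  refine levelNorm_congr (Nat.mul_right_comm N ℓ ℓ') _ _ _ _ ?_
  show qExpand Qbar ℓ (qExpand Qbar ℓ' (y : LaurentSeries Qbar))
    = qExpand Qbar ℓ' (qExpand Qbar ℓ (y : LaurentSeries Qbar))
  rw [qExpand_qExpand, qExpand_qExpand]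
  exact qExpand_congr (mul_comm ℓ ℓ') _

end Comm

end Fermat.Agent.S29.H22

end
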