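import Mathlib
import Fermat.Agent.S29.H22_FourLevels
import Fermat.Agent.S37.H34_FFBaseChar0

/-!
# (T1) `HeckeOperatorsCommuteBar N`, unconditionally, for every level `N` (helper22)

The rigidity glue is helper47's (`H47_HeckeComm`: a composite of positive correspondences is
positive, correspondences of principal divisors are divisors of Hecke norms, helper82's
`eq_on_degZero_of_positive`), restated with the commutation of the Hecke norms as a named
hypothesis `hcomm` instead of the `q`-expansion shapes; `hcomm` is `H22.heckeNorm_comm`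
(pure field theory: norm base change in the four-level square, valid for all pairs of distinct
primes, including those dividing the level).  Degree-one places and bounded representatives are
helper34's `H34.deg_eq_one_FN`, `H34.hasBoundedReps_FN'`.

* `heckeOperatorsCommuteBar N : ModularCurve.HeckeOperatorsCommuteBar N`.
-/

set_option autoImplicit false
set_option linter.style.haveILetI false

noncomputable section

namespace Fermat.Agent.S29.H22

open AlgebraicCurve ModularCurve Fermat.Agent.S37.H82 Fermat.Agent.S29.H47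

section Modular

variable {L : Type*} [Field L] [Algebra ℚ L] {N : ℕ} [NeZero N]

/-- Commutation of the divisor correspondences on degree-zero divisors, from the commutation of
the Hecke norms. -/
theorem heckeCorr_comm_on_degZero_of_comm {ℓ ℓ' : ℕ} [NeZero ℓ] [NeZero ℓ']
    (hcomm : ∀ y : laurentBaseChange L (modularFunctionFieldFull N),
      heckeNorm L N ℓ (heckeNorm L N ℓ' y) = heckeNorm L N ℓ' (heckeNorm L N ℓ y))
    (hα : HeckeAlphaBarIntegral L N ℓ) (hβ : HeckeBetaBarIntegral L N ℓ)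
    [HasPrincipalDivisors L (laurentBaseChange L (modularFunctionFieldFull (N * ℓ)))]
    (hfin : FiniteAlong L (heckeAlphaBar L N ℓ))
    (hFI : FundamentalIdentityAlong L (heckeBetaBar L N ℓ) hβ)
    (hN : NormFormulaAlong L (heckeAlphaBar L N ℓ) hfin)
    (hα' : HeckeAlphaBarIntegral L N ℓ') (hβ' : HeckeBetaBarIntegral L N ℓ')
    [HasPrincipalDivisors L (laurentBaseChange L (modularFunctionFieldFull (N * ℓ')))]
    (hfin' : FiniteAlong L (heckeAlphaBar L N ℓ'))
    (hFI' : FundamentalIdentityAlong L (heckeBetaBar L N ℓ') hβ')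
    (hN' : NormFormulaAlong L (heckeAlphaBar L N ℓ') hfin')
    (hdeg : ∀ P : Place L (laurentBaseChange L (modularFunctionFieldFull N)), P.deg = 1)
    {C : ℕ} (hC : HasBoundedReps L (laurentBaseChange L (modularFunctionFieldFull N)) C) :
    ∀ D ∈ Divisor.degZero (K := L) (F := laurentBaseChange L (modularFunctionFieldFull N)),
      heckeCorr ℓ hα hβ (heckeCorr ℓ' hα' hβ' D) = heckeCorr ℓ' hα' hβ' (heckeCorr ℓ hα hβ D) := by
  have hpos : IsPositiveOfDegLE (heckeCorr ℓ hα hβ) (finrankAlong L (heckeBetaBar L N ℓ)) :=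
    isPositiveOfDegLE_correspondence _ _ hβ hα hFI hdeg
  have hpos' : IsPositiveOfDegLE (heckeCorr ℓ' hα' hβ') (finrankAlong L (heckeBetaBar L N ℓ')) :=
    isPositiveOfDegLE_correspondence _ _ hβ' hα' hFI' hdeg
  have h1 := IsPositiveOfDegLE.comp' hpos' hpos (Nat.cast_nonneg _)
  have h2 := IsPositiveOfDegLE.comp' hpos hpos' (Nat.cast_nonneg _)
  refine eq_on_degZero_of_positive ((heckeCorr ℓ hα hβ).comp (heckeCorr ℓ' hα' hβ'))
    ((heckeCorr ℓ' hα' hβ').comp (heckeCorr ℓ hα hβ)) h1 h2 ?_ hC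
  rintro D ⟨f, hf, hD⟩
  rw [AddMonoidHom.comp_apply, AddMonoidHom.comp_apply]
  ext v
  have e1 : ∀ w, heckeCorr ℓ' hα' hβ' D w = w.ord (heckeNorm L N ℓ' f) := fun w =>
    heckeCorr_principal hα' hβ' hfin' hN' hf hD w
  have e2 : ∀ w, heckeCorr ℓ hα hβ D w = w.ord (heckeNorm L N ℓ f) := fun w =>
    heckeCorr_principal hα hβ hfin hN hf hD w
  rw [heckeCorr_principal hα hβ hfin hN (heckeNorm_ne_zero hfin' hf) e1 v,
    heckeCorr_principal hα' hβ' hfin' hN' (heckeNorm_ne_zero hfin hf) e2 v,
    hcomm]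

/-- The Hecke operators at `ℓ`, `ℓ'` commute on `Pic⁰`, from the commutation of the Hecke
norms. -/
theorem heckeOperatorAlong_comm_of_comm {ℓ ℓ' : ℕ} [NeZero ℓ] [NeZero ℓ']
    (hcomm : ∀ y : laurentBaseChange L (modularFunctionFieldFull N),
      heckeNorm L N ℓ (heckeNorm L N ℓ' y) = heckeNorm L N ℓ' (heckeNorm L N ℓ y))
    (hdeg : ∀ P : Place L (laurentBaseChange L (modularFunctionFieldFull N)), P.deg = 1)
    {C : ℕ} (hC : HasBoundedReps L (laurentBaseChange L (modularFunctionFieldFull N)) C)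
    (x : Pic0 L (laurentBaseChange L (modularFunctionFieldFull N))) :
    heckeOperatorAlong L N ℓ (heckeOperatorAlong L N ℓ' x)
      = heckeOperatorAlong L N ℓ' (heckeOperatorAlong L N ℓ x) := by
  by_cases h : HeckeInputsAlong L N ℓ
  swap
  · rw [heckeOperatorAlong_of_not h]
    simp
  by_cases h' : HeckeInputsAlong L N ℓ'
  swap
  · rw [heckeOperatorAlong_of_not h']
    simp
  obtain ⟨hα, hβ, hP, hfin, hFI, hN⟩ := h
  obtain ⟨hα', hβ', hP', hfin', hFI', hN'⟩ := h'
  haveI := hP
  haveI := hP'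
  rw [heckeOperatorAlong_eq hα hβ hFI hfin hN, heckeOperatorAlong_eq hα' hβ' hFI' hfin' hN']
  obtain ⟨D, rfl⟩ := Pic0.mk_surjective x
  rw [heckePic0Bar, heckePic0Bar, Pic0.correspondence_mk, Pic0.correspondence_mk,
    Pic0.correspondence_mk, Pic0.correspondence_mk]
  congr 1
  apply Subtype.ext
  simp only [Pic0.coe_degZeroCorrespondence]
  exact heckeCorr_comm_on_degZero_of_comm hcomm hα hβ hfin hFI hN hα' hβ' hfin' hFI' hN' hdeg hC
    (D : Divisor L (laurentBaseChange L (modularFunctionFieldFull N))) D.2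

end Modular

/-- **(T1)** The Hecke operators on `J₀(N)(ℚ̄)` commute, for every level `N ≥ 1` and every pair
of primes (also those dividing `N`). -/
theorem heckeOperatorsCommuteBar (N : ℕ) [NeZero N] : HeckeOperatorsCommuteBar N := by
  intro ℓ ℓ'
  haveI : NeZero (ℓ : ℕ) := ⟨ℓ.2.ne_zero⟩
  haveI : NeZero (ℓ' : ℕ) := ⟨ℓ'.2.ne_zero⟩
  rcases eq_or_ne ℓ ℓ' with rfl | hne
  · rfl
  have hne' : (ℓ : ℕ) ≠ ℓ' := fun h => hne (Subtype.ext h)
  obtain ⟨C, hC⟩ := Fermat.Agent.S37.H34.hasBoundedReps_FN' N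
  refine LinearMap.ext fun x => ?_
  rw [Module.End.mul_apply, Module.End.mul_apply, heckeOperatorBar_apply, heckeOperatorBar_apply,
    heckeOperatorBar_apply, heckeOperatorBar_apply]
  exact heckeOperatorAlong_comm_of_comm (fun y => heckeNorm_comm N ℓ.2 ℓ'.2 hne' y)
    (Fermat.Agent.S37.H34.deg_eq_one_FN N) hC x

end Fermat.Agent.S29.H22

end
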