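import Mathlib
import Fermat.Agent.S24.H32_EllipticOrder
import Fermat.Agent.S29.H14_KummerChar
import Fermat.Agent.S29.H32_MeroRoot

/-!
# The multiplier at an elliptic fixed point (helper32, S29 / (B4) LOCAL-ell)

`Hol` vocabulary (`c b : ℍ → ℂ` holomorphic, `Φ = c / b`).  If `γ ∈ SL(2, ℤ)` fixes `τ0` and
`Φ ∘ γ = ζ • Φ` (`IsMultiplier c b γ ζ`), then `ζ = ε ^ (ord_τ0 c - ord_τ0 b)` with
`ε = (c_γ τ0 + d_γ) ^ (-2)` the derivative of `γ` at `τ0`.  Consequently a quotient which is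
invariant under an element of trace `0` (resp. `±1`) fixing `τ0` has order divisible by `2`
(resp. `3`) at `τ0`; packaged as `ellOrder_dvd`.
-/

set_option autoImplicit false

noncomputable section

namespace Fermat.Agent.S29.H32

open Filter Topology UpperHalfPlane
open scoped MatrixGroups Manifold

/-- the order of a holomorphic function on `ℍ` at `τ`, as an integer -/
abbrev ordZ (g : ℍ → ℂ) (τ : ℍ) : ℤ := (analyticOrderNatAt (g ∘ ofComplex) (τ : ℂ) : ℤ)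

/-- The fractional linear map of `γ` on `ℂ`. -/
def moeb (γ : SL(2, ℤ)) (z : ℂ) : ℂ :=
  (((γ 0 0 : ℤ) : ℂ) * z + ((γ 0 1 : ℤ) : ℂ)) / (((γ 1 0 : ℤ) : ℂ) * z + ((γ 1 1 : ℤ) : ℂ))

/-- The multiplier `ε = (c τ0 + d) ^ (-2)` of `γ` at `τ0`. -/
def ellEps (γ : SL(2, ℤ)) (τ0 : ℍ) : ℂ :=
  ((((γ 1 0 : ℤ) : ℂ) * (τ0 : ℂ) + ((γ 1 1 : ℤ) : ℂ)) ^ 2)⁻¹

theorem hasDerivAt_moeb (γ : SL(2, ℤ)) (τ0 : ℍ) : HasDerivAt (moeb γ) (ellEps γ τ0) (τ0 : ℂ) := by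
  have h := S24.H32.hasDerivAt_moebius ((γ 0 0 : ℤ) : ℂ) ((γ 0 1 : ℤ) : ℂ) ((γ 1 0 : ℤ) : ℂ)
    ((γ 1 1 : ℤ) : ℂ) (τ0 : ℂ) (S24.H32.denom_cast_ne_zero γ τ0)
  rw [S24.H32.det_cast_eq_one γ, one_div] at h
  exact h

theorem ellEps_ne_zero (γ : SL(2, ℤ)) (τ0 : ℍ) : ellEps γ τ0 ≠ 0 :=
  inv_ne_zero (pow_ne_zero _ (S24.H32.denom_cast_ne_zero γ τ0))

theorem moeb_coe (γ : SL(2, ℤ)) (τ : ℍ) : moeb γ (τ : ℂ) = ((γ • τ : ℍ) : ℂ) :=
  (S24.H32.coe_smul_eq_moebius γ τ).symm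

theorem analyticAt_moeb (γ : SL(2, ℤ)) (τ0 : ℍ) : AnalyticAt ℂ (moeb γ) (τ0 : ℂ) := by
  unfold moeb
  have hden := S24.H32.denom_cast_ne_zero γ τ0
  have h1 : AnalyticAt ℂ (fun z : ℂ => ((γ 0 0 : ℤ) : ℂ) * z + ((γ 0 1 : ℤ) : ℂ)) (τ0 : ℂ) := by
    fun_prop
  have h2 : AnalyticAt ℂ (fun z : ℂ => ((γ 1 0 : ℤ) : ℂ) * z + ((γ 1 1 : ℤ) : ℂ)) (τ0 : ℂ) := by
    fun_prop
  exact h1.div h2 hden

/-- a nonzero holomorphic function on `ℍ` is nonzero on a punctured neighbourhood of any point -/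
theorem eventually_ne_zero_of_mdiff {b : ℍ → ℂ} (hb : MDiff b) (hb0 : b ≠ 0) (τ0 : ℍ) :
    ∀ᶠ z in 𝓝[≠] (τ0 : ℂ), (b ∘ ofComplex) z ≠ 0 := by
  have han : AnalyticAt ℂ (b ∘ ofComplex) (τ0 : ℂ) :=
    S24.H32.analyticAt_comp_ofComplex_of_mdifferentiable hb τ0
  rcases han.eventually_eq_zero_or_eventually_ne_zero with h | h
  · exact absurd (analyticOrderAt_eq_top.2 h) (analyticOrderAt_ne_top_of_ne_zero hb hb0 τ0)
  · exact h

/-- **(B4), multiplier formula.** -/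
theorem multiplier_eq_ellEps_zpow {γ : SL(2, ℤ)} {τ0 : ℍ} (hfix : γ • τ0 = τ0) {c b : ℍ → ℂ}
    (hc : MDiff c) (hb : MDiff b) (hc0 : c ≠ 0) (hb0 : b ≠ 0) {ζ : ℂ}
    (h : IsMultiplier c b γ ζ) : ζ = ellEps γ τ0 ^ (ordZ c τ0 - ordZ b τ0) := by
  set C : ℂ → ℂ := c ∘ ofComplex with hC
  set B : ℂ → ℂ := b ∘ ofComplex with hB
  have hCan : AnalyticAt ℂ C (τ0 : ℂ) :=
    S24.H32.analyticAt_comp_ofComplex_of_mdifferentiable hc τ0
  have hBan : AnalyticAt ℂ B (τ0 : ℂ) :=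
    S24.H32.analyticAt_comp_ofComplex_of_mdifferentiable hb τ0
  have hΦ : MeromorphicAt (C / B) (τ0 : ℂ) := hCan.meromorphicAt.div hBan.meromorphicAt
  have hord : meromorphicOrderAt (C / B) (τ0 : ℂ)
      = ((ordZ c τ0 - ordZ b τ0 : ℤ) : WithTop ℤ) := by
    rw [meromorphicOrderAt_div hCan.meromorphicAt hBan.meromorphicAt,
      hCan.meromorphicOrderAt_eq, hBan.meromorphicOrderAt_eq]
    have h1 := analyticOrderAt_ne_top_of_ne_zero hc hc0 τ0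
    have h2 := analyticOrderAt_ne_top_of_ne_zero hb hb0 τ0
    rw [← Nat.cast_analyticOrderNatAt h1, ← Nat.cast_analyticOrderNatAt h2]
    simp [ordZ]
  have hne : meromorphicOrderAt (C / B) (τ0 : ℂ) ≠ ⊤ := by
    rw [hord]; exact WithTop.coe_ne_top
  have hfixC : moeb γ (τ0 : ℂ) = (τ0 : ℂ) := by rw [moeb_coe, hfix]
  have hd := hasDerivAt_moeb γ τ0
  -- the functional equation on a punctured neighbourhood
  have hbγ : MDiff (fun τ : ℍ => b (γ • τ)) := hb.comp (mdiff_SL_smul γ)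
  have hbγ0 : (fun τ : ℍ => b (γ • τ)) ≠ 0 := comp_smul_ne_zero hb0 γ
  have hpos : ∀ᶠ z in 𝓝[≠] (τ0 : ℂ), 0 < z.im :=
    eventually_nhdsWithin_of_eventually_nhds (isOpen_upperHalfPlaneSet.mem_nhds τ0.im_pos)
  have hfe : (C / B) ∘ moeb γ =ᶠ[𝓝[≠] (τ0 : ℂ)] ζ • (C / B) := by
    filter_upwards [hpos, eventually_ne_zero_of_mdiff hb hb0 τ0,
      eventually_ne_zero_of_mdiff hbγ hbγ0 τ0] with z hz hbz hbγz
    have e1 : ofComplex z = ⟨z, hz⟩ := ofComplex_apply_of_im_pos hz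
    have e2 : moeb γ z = ((γ • (⟨z, hz⟩ : ℍ) : ℍ) : ℂ) := moeb_coe γ ⟨z, hz⟩
    simp only [Function.comp_apply, Pi.div_apply, Pi.smul_apply, smul_eq_mul, hC, hB] at hbz hbγz ⊢
    rw [e2, ofComplex_apply, e1]
    rw [e1] at hbz hbγz
    have := h ⟨z, hz⟩
    field_simp
    linear_combination this
  have := H14.multiplier_eq_deriv_zpow (analyticAt_moeb γ τ0) hfixC
    (by rw [hd.deriv]; exact ellEps_ne_zero γ τ0) hΦ hne hfe
  rw [this, hd.deriv, hord, WithTop.untop₀_coe]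

/-- The denominator `j = c τ0 + d` of an element fixing `τ0` satisfies `j² - tr(γ) j + 1 = 0`. -/
theorem denom_quadratic {γ : SL(2, ℤ)} {τ0 : ℍ} (hfix : γ • τ0 = τ0) :
    (((γ 1 0 : ℤ) : ℂ) * (τ0 : ℂ) + ((γ 1 1 : ℤ) : ℂ)) ^ 2
      - ((γ.1.trace : ℤ) : ℂ) * (((γ 1 0 : ℤ) : ℂ) * (τ0 : ℂ) + ((γ 1 1 : ℤ) : ℂ)) + 1 = 0 := by
  have hfix' := S24.H32.coe_smul_eq_moebius γ τ0
  rw [hfix] at hfix'
  have := S24.H32.denom_sq_sub_trace_mul_add_one (S24.H32.det_cast_eq_one γ)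
    (S24.H32.denom_cast_ne_zero γ τ0) hfix'.symm
  rw [Matrix.trace_fin_two]
  push_cast
  exact this

theorem isPrimitiveRoot_ellEps_two {γ : SL(2, ℤ)} {τ0 : ℍ} (hfix : γ • τ0 = τ0)
    (htr : γ.1.trace = 0) : IsPrimitiveRoot (ellEps γ τ0) 2 := by
  have h := denom_quadratic hfix
  rw [htr] at h
  exact S24.H32.isPrimitiveRoot_inv_sq_of_sq_eq_neg_one (by
    push_cast at h
    linear_combination h)

theorem isPrimitiveRoot_ellEps_three {γ : SL(2, ℤ)} {τ0 : ℍ} (hfix : γ • τ0 = τ0)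
    (htr : γ.1.trace = 1 ∨ γ.1.trace = -1) : IsPrimitiveRoot (ellEps γ τ0) 3 := by
  have h := denom_quadratic hfix
  rcases htr with htr | htr
  · rw [htr] at h
    exact S24.H32.isPrimitiveRoot_inv_sq_of_sq_sub_add_one (by
      push_cast at h
      linear_combination h)
  · rw [htr] at h
    exact S24.H32.isPrimitiveRoot_inv_sq_of_sq_add_add_one (by
      push_cast at h
      linear_combination h)

/-- **(B4)** invariance under an element of trace `0` fixing `τ0` forces even order. -/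
theorem two_dvd_ordZ_sub {γ : SL(2, ℤ)} {τ0 : ℍ} (hfix : γ • τ0 = τ0) (htr : γ.1.trace = 0)
    {c b : ℍ → ℂ} (hc : MDiff c) (hb : MDiff b) (hc0 : c ≠ 0) (hb0 : b ≠ 0)
    (h : IsMultiplier c b γ 1) : (2 : ℤ) ∣ ordZ c τ0 - ordZ b τ0 := by
  have h1 := multiplier_eq_ellEps_zpow hfix hc hb hc0 hb0 h
  exact_mod_cast ((isPrimitiveRoot_ellEps_two hfix htr).zpow_eq_one_iff_dvd _).1 h1.symm

/-- **(B4)** invariance under an element of trace `±1` fixing `τ0` forces order divisible by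
`3`. -/
theorem three_dvd_ordZ_sub {γ : SL(2, ℤ)} {τ0 : ℍ} (hfix : γ • τ0 = τ0)
    (htr : γ.1.trace = 1 ∨ γ.1.trace = -1)
    {c b : ℍ → ℂ} (hc : MDiff c) (hb : MDiff b) (hc0 : c ≠ 0) (hb0 : b ≠ 0)
    (h : IsMultiplier c b γ 1) : (3 : ℤ) ∣ ordZ c τ0 - ordZ b τ0 := by
  have h1 := multiplier_eq_ellEps_zpow hfix hc hb hc0 hb0 h
  exact_mod_cast ((isPrimitiveRoot_ellEps_three hfix htr).zpow_eq_one_iff_dvd _).1 h1.symm

open Classical in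
/-- The order of the stabiliser of `τ` in `Γ / ±1`, by cases: `2` if some element of `Γ` of trace
`0` fixes `τ`, else `3` if some element of trace `±1` does, else `1`. -/
def ellOrder (Γ : Subgroup SL(2, ℤ)) (τ : ℍ) : ℕ :=
  if ∃ γ ∈ Γ, γ • τ = τ ∧ γ.1.trace = 0 then 2
  else if ∃ γ ∈ Γ, γ • τ = τ ∧ (γ.1.trace = 1 ∨ γ.1.trace = -1) then 3 else 1

theorem ellOrder_pos (Γ : Subgroup SL(2, ℤ)) (τ : ℍ) : 0 < ellOrder Γ τ := by
  unfold ellOrder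
  split_ifs <;> norm_num

/-- **(B4), consumer form.** If `Φ = c / b` is invariant under the stabiliser of `τ0` in `Γ`, then
`ellOrder Γ τ0` divides the order of `Φ` at `τ0`. -/
theorem ellOrder_dvd (Γ : Subgroup SL(2, ℤ)) (τ0 : ℍ) {c b : ℍ → ℂ} (hc : MDiff c) (hb : MDiff b)
    (hc0 : c ≠ 0) (hb0 : b ≠ 0)
    (hinv : ∀ γ ∈ Γ, γ • τ0 = τ0 → ∀ τ : ℍ, c (γ • τ) * b τ = c τ * b (γ • τ)) :
    (ellOrder Γ τ0 : ℤ) ∣ ordZ c τ0 - ordZ b τ0 := by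
  unfold ellOrder
  split_ifs with h2 h3
  · obtain ⟨γ, hγ, hfix, htr⟩ := h2
    exact_mod_cast two_dvd_ordZ_sub hfix htr hc hb hc0 hb0
      (isMultiplier_one_iff.2 (hinv γ hγ hfix))
  · obtain ⟨γ, hγ, hfix, htr⟩ := h3
    exact_mod_cast three_dvd_ordZ_sub hfix htr hc hb hc0 hb0
      (isMultiplier_one_iff.2 (hinv γ hγ hfix))
  · simp

end Fermat.Agent.S29.H32
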