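import Fermat.Agent.S29.H25_Elliptic
import Fermat.Agent.S29.H72_DictDegree
import Fermat.Agent.S29.H72_DictMer
import Fermat.Agent.S29.H32_LocalEll

/-!
S29 / E0-DICT (helper25), **(A4) DICT-POINTS, final unconditional form.**

* `finiteDimensional_FC'`, `finrank_FC_eq_natCard'`: helper72's degree theorem transported to the
  `H25` names (`H72.jC N = H25.jC N` by `rfl`).
* `thetaC_eq_toMer : H25.thetaC N = H72.toMer N`.
* `ellOrder_dvd_merOrd`: `ellOrder (Gamma0 N) τ0 ∣ merOrd τ0 Φ` for `Φ : Mer` invariant under the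
  stabiliser of `τ0` in `Γ₀(N)` (helper32's (B4) in the `Mer` / `merComp` vocabulary).
* **`exists_point_of_place`**: every place `v` of `FC N / ℂ` with `0 ≤ v.ord j` is a point `τ1` of
  `ℍ`: `merOrd τ1 (thetaC N f) = ellOrder (Gamma0 N) τ1 * v.ord f` for all `f ≠ 0`, and
  `v = placeAt N τ1`.
* **`ramAt_eq_ellOrder`**-free consumer form `exists_point_kummer` (the `hfin` of
  `H83.exists_divisor_of_kummer`).
-/

set_option autoImplicit false
noncomputable section
namespace Fermat.Agent.S29.H25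
open UpperHalfPlane ModularCurve AlgebraicCurve IntermediateField
open Fermat.Agent.S24
open Fermat.Agent.S24.H81 (Hol Mer ordNat merOrd)
open scoped MatrixGroups Manifold

variable (N : ℕ) [NeZero N]

theorem jC_eq_H72 : jC N = H72.jC N := rfl

instance finiteDimensional_FC' : FiniteDimensional ℂ⟮jC N⟯ (FC N) :=
  H72.finiteDimensional_FC N

theorem finrank_FC_eq_natCard' :
    Module.finrank ℂ⟮jC N⟯ (FC N) = Nat.card (H24.XN N) :=
  H72.finrank_FC_eq_natCard N

/-- cross-multiplied form of `merComp γ Φ = Φ`. -/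
theorem holComp_mul_eq_of_merComp_eq {γ : SL(2, ℤ)} {c b : Hol} (hb : b ≠ 0)
    (h : merComp γ (algebraMap Hol Mer c / algebraMap Hol Mer b) =
      algebraMap Hol Mer c / algebraMap Hol Mer b) :
    holComp γ c * b = c * holComp γ b := by
  have hb' : algebraMap Hol Mer b ≠ 0 := by
    rwa [ne_eq, map_eq_zero_iff _ (IsFractionRing.injective Hol Mer)]
  have hγb : holComp γ b ≠ 0 := fun h0 => hb (holComp_injective γ (by rw [h0, map_zero]))
  have hγb' : algebraMap Hol Mer (holComp γ b) ≠ 0 := by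
    rwa [ne_eq, map_eq_zero_iff _ (IsFractionRing.injective Hol Mer)]
  rw [map_div₀, merComp_algebraMap, merComp_algebraMap, div_eq_div_iff hγb' hb'] at h
  apply IsFractionRing.injective Hol Mer
  rw [map_mul, map_mul, h]

/-- **(B4) in the `Mer` vocabulary.** -/
theorem ellOrder_dvd_merOrd (Γ : Subgroup SL(2, ℤ)) (τ0 : ℍ) {Φ : Mer} (hΦ : Φ ≠ 0)
    (hinv : ∀ γ ∈ Γ, γ • τ0 = τ0 → merComp γ Φ = Φ) :
    (H32.ellOrder Γ τ0 : ℤ) ∣ merOrd τ0 Φ := by
  obtain ⟨c, b, hb, rfl⟩ := exists_eq_div Φ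
  have hc : c ≠ 0 := by
    rintro rfl
    simp at hΦ
  rw [merOrd_div τ0 hc hb]
  refine H32.ellOrder_dvd Γ τ0 (H81.mem_Hol.mp c.2) (H81.mem_Hol.mp b.2)
    (fun h => hc (Subtype.ext h)) (fun h => hb (Subtype.ext h)) ?_
  intro γ hγ hfix τ
  have := holComp_mul_eq_of_merComp_eq hb (hinv γ hγ hfix)
  have := congrArg (fun g : Hol => (g : ℍ → ℂ) τ) this
  simpa using this

/-- `ellOrder (Gamma0 N) τ0` divides all orders of `thetaC N f` at `τ0`. -/
theorem ellOrder_dvd_merOrd_thetaC (τ0 : ℍ) {f : FC N} (hf : f ≠ 0) :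
    (H32.ellOrder (CongruenceSubgroup.Gamma0 N) τ0 : ℤ) ∣ merOrd τ0 (thetaC N f) :=
  ellOrder_dvd_merOrd _ τ0 (thetaC_ne_zero N hf) (fun _ hγ _ => merComp_thetaC N hγ f)

theorem ellOrder_dvd_ramAt (τ0 : ℍ) :
    H32.ellOrder (CongruenceSubgroup.Gamma0 N) τ0 ∣ ramAt N τ0 := by
  obtain ⟨t, ht0, ht⟩ := H27.exists_ord_eq_one (placeAt N τ0)
  have h := ellOrder_dvd_merOrd_thetaC N τ0 ht0
  rw [merOrd_thetaC_eq N τ0 ht0, ht, mul_one] at h
  exact_mod_cast h

omit [NeZero N] in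
/-- `IsEllipticType` pins down the multiplier as `ellOrder`. -/
theorem eq_ellOrder_of_isEllipticType {τ1 : ℍ} {m : ℕ}
    (hdvd : H32.ellOrder (CongruenceSubgroup.Gamma0 N) τ1 ∣ m)
    (h : IsEllipticType N τ1 m) : m = H32.ellOrder (CongruenceSubgroup.Gamma0 N) τ1 := by
  have hpos := H32.ellOrder_pos (CongruenceSubgroup.Gamma0 N) τ1
  rcases h with h1 | ⟨h2, γ1, hγ1, hfix, htr⟩ | ⟨h3, γ1, hγ1, hfix, htr⟩
  · subst h1
    exact (Nat.eq_one_of_dvd_one hdvd).symm
  · subst h2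
    unfold H32.ellOrder
    rw [if_pos ⟨γ1, hγ1, hfix, htr⟩]
  · subst h3
    have hne : H32.ellOrder (CongruenceSubgroup.Gamma0 N) τ1 ≠ 1 := by
      unfold H32.ellOrder
      split_ifs with ha hb
      · norm_num
      · norm_num
      · exact absurd ⟨γ1, hγ1, hfix, Or.inl htr⟩ hb
    rcases (Nat.dvd_prime Nat.prime_three).mp hdvd with h | h
    · exact absurd h hne
    · exact h.symm

/-- **(A4) DICT-POINTS.**  Every place `v` of `FC N / ℂ` at which `j` is finite is a point `τ1` of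
the upper half plane: for all `f ≠ 0`,
`merOrd τ1 (thetaC N f) = ellOrder (Gamma0 N) τ1 * v.ord f`, where `ellOrder` is the order of the
stabiliser of `τ1` in `Γ₀(N) / ±1`; moreover `v = placeAt N τ1`. -/
theorem exists_point_of_place (v : Place ℂ (FC N)) (hv : 0 ≤ v.ord (jC N)) :
    ∃ τ1 : ℍ, v = placeAt N τ1 ∧
      ∀ f : FC N, f ≠ 0 → merOrd τ1 (thetaC N f) =
        (H32.ellOrder (CongruenceSubgroup.Gamma0 N) τ1 : ℤ) * v.ord f := by
  obtain ⟨τ1, m, hm, hord, hell⟩ :=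
    exists_point_of_place_elliptic N (finrank_FC_eq_natCard' N) v hv
  obtain ⟨hv', hm'⟩ := eq_placeAt_of_forall N v τ1 m hm hord
  have hdvd : H32.ellOrder (CongruenceSubgroup.Gamma0 N) τ1 ∣ m := by
    rw [hm']
    exact ellOrder_dvd_ramAt N τ1
  have := eq_ellOrder_of_isEllipticType N hdvd hell
  refine ⟨τ1, hv', fun f hf => ?_⟩
  rw [hord f hf, this]

/-- **(A4) + (B4), the `hfin` hypothesis of `H83.exists_divisor_of_kummer`.**  If `Φ : Mer` is
invariant under every element of `Γ₀(N)` having a fixed point in `ℍ` (e.g. `Φ ∘ γ = χ(γ) Φ` with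
`χ` trivial on the elements of finite order), then at the point `τ0` of a finite place `v` the
multiplier `e` divides `merOrd τ0 Φ`. -/
theorem exists_point_kummer (v : Place ℂ (FC N)) (hv : 0 ≤ v.ord (jC N)) {Φ : Mer} (hΦ : Φ ≠ 0)
    (hinv : ∀ γ ∈ CongruenceSubgroup.Gamma0 N, ∀ τ : ℍ, γ • τ = τ → merComp γ Φ = Φ) :
    ∃ (τ0 : ℍ) (e : ℕ), 0 < e ∧
      (∀ f : FC N, f ≠ 0 → merOrd τ0 (thetaC N f) = (e : ℤ) * v.ord f) ∧
      (e : ℤ) ∣ merOrd τ0 Φ := by
  obtain ⟨τ1, -, h⟩ := exists_point_of_place N v hv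
  exact ⟨τ1, _, H32.ellOrder_pos _ τ1, h,
    ellOrder_dvd_merOrd _ τ1 hΦ (fun γ hγ hfix => hinv γ hγ τ1 hfix)⟩

/-- the multiplier at any point is `ellOrder`, provided the point is the chosen one of its place;
in general `ellOrder ∣ ramAt`. For every point, `placeAt` is a finite place. -/
theorem ord_placeAt_jC_nonneg (τ0 : ℍ) : 0 ≤ (placeAt N τ0).ord (jC N) := by
  have h1 := ord_placeAt_jC_sub_pos N τ0
  have h2 := H27.min_ord_le_ord_add (placeAt N τ0)
    (f := jC N - algebraMap ℂ (FC N) (H28.J τ0)) (g := algebraMap ℂ (FC N) (H28.J τ0))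
    (by
      rw [sub_add_cancel]
      intro h
      exact transcendental_jC N (h ▸ isAlgebraic_zero))
  rw [sub_add_cancel, H27.ord_algebraMap] at h2
  have := min_le_iff.mp h2
  omega

/-! ### Bridges to helper72's names (`H72.toMer`, left action `γ • x` on `Mer`) -/

theorem AC_eq_H72 : AC N = H72.AC N := rfl

theorem ThetaC_eq_H72 (f : FC N) : ThetaC N f = H72.ThetaC N f := rfl

/-- the two realisations coincide (definitionally). -/
theorem thetaC_eq_toMer : thetaC N = H72.toMer N := rfl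

omit [NeZero N] in
theorem holComp_eq_smul (γ : SL(2, ℤ)) (g : Hol) : holComp γ g = γ⁻¹ • g := by
  apply Subtype.ext
  funext τ
  rw [H72.hol_smul_apply, inv_inv]
  rfl

omit [NeZero N] in
/-- `merComp γ` (right action, precomposition with `γ`) is helper72's left action of `γ⁻¹`. -/
theorem merComp_eq_smul (γ : SL(2, ℤ)) (x : Mer) : merComp γ x = γ⁻¹ • x := by
  obtain ⟨a, b, -, rfl⟩ := exists_eq_div x
  rw [map_div₀, merComp_algebraMap, merComp_algebraMap, H72.mer_smul_div, holComp_eq_smul,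
    holComp_eq_smul]

/-- `exists_point_kummer` in helper72's vocabulary. -/
theorem exists_point_kummer_smul (v : Place ℂ (FC N)) (hv : 0 ≤ v.ord (jC N)) {Φ : Mer}
    (hΦ : Φ ≠ 0)
    (hinv : ∀ γ ∈ CongruenceSubgroup.Gamma0 N, ∀ τ : ℍ, γ • τ = τ → γ • Φ = Φ) :
    ∃ (τ0 : ℍ) (e : ℕ), 0 < e ∧
      (∀ f : FC N, f ≠ 0 → merOrd τ0 (H72.toMer N f) = (e : ℤ) * v.ord f) ∧
      (e : ℤ) ∣ merOrd τ0 Φ := by
  refine exists_point_kummer N v hv hΦ (fun γ hγ τ hfix => ?_)
  rw [merComp_eq_smul]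
  refine hinv γ⁻¹ (inv_mem hγ) τ ?_
  rw [inv_smul_eq_iff, hfix]

end Fermat.Agent.S29.H25
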