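import Mathlib
import Fermat.Agent.S24.H76_Closed
import Fermat.Agent.S29.H25_PointsFinal
import Fermat.Agent.S29.H74_FFBankC

set_option autoImplicit false
set_option linter.unusedSectionVars false

/-!
# S29 / (A5) DICT-CUSPS over `ℂ`, place ⟹ cusp with the exact multiplier (helper25)

* `place_cusp_C`: every pole `v` of `jC N` is a cusp: `∃ γ, m > 0` with
  `ord_{q_N} (thetaConjC N γ f) = m * v.ord f` on `AC N`.
* `exists_cusp_of_pole`: the exact multiplier `m = N / h`, `h` = width of the cusp.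
-/

open UpperHalfPlane CongruenceSubgroup ModularGroup AlgebraicCurve IntermediateField
open scoped MatrixGroups Manifold
open Fermat.Agent.S24

noncomputable section

namespace Fermat.Agent.S29.H25

variable (N : ℕ) [NeZero N]

/-- the `q_N`-order at `i∞` of an `N`-periodic function. -/
def ordInfC (g : ℍ → ℂ) : ℤ := (H4.qhExpansion (N : ℝ) g).order

theorem isMeroPeriodic_thetaConjC {f : FC N} (hf : f ∈ AC N) (γ : SL(2, ℤ)) :
    H4.IsMeroPeriodic (N : ℝ) (thetaConjC N γ f) :=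
  H72.isMeroPeriodic_thetaConjC N γ ⟨f, hf⟩

/-- **(A5), first form**: every pole of `jC N` is a cusp (port of `S24.H76.place_cusp`). -/
theorem place_cusp_C (v : Place ℂ (FC N)) (hv : v.ord (jC N) < 0) :
    ∃ γ : SL(2, ℤ), ∃ m : ℤ, 0 < m ∧
      ∀ f ∈ (AC N : Set (FC N)), f ≠ 0 →
        ordInfC N (thetaConjC N γ f) = m * v.ord f := by
  classical
  have : Algebra.IsSeparable ℂ⟮jC N⟯ (FC N) :=
    H46.isSeparable_adjoin_of_charZero (K := ℂ) (jC N)
  have hN0 : N ≠ 0 := NeZero.ne N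
  have hN : (0 : ℝ) < (N : ℝ) := by exact_mod_cast Nat.pos_of_ne_zero hN0
  have hcard' : Fintype.card (H24.XN N) = Module.finrank ℂ⟮jC N⟯ (FC N) := by
    rw [finrank_FC_eq_natCard' N, Nat.card_eq_fintype_card]
  obtain ⟨x, m, hm, hx⟩ := H95.exists_cusp_of_place (K := ℂ) (F := FC N) (AC N)
    (exists_div_AC N) (jC N) (jC_mem_AC N) hcard' (RingHom.id ℂ) hN (thetaXCHom N)
    (fun x f => isMeroPeriodic_thetaConjC N f.2 (Quotient.out x))
    (thetaXCHom_injective N)
    (fun x c => thetaConjC_algebraMap N (Quotient.out x) c)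
    (by
      intro x y c hc
      have hc' : (c : FC N) ∈ Algebra.adjoin ℂ {jC N} := by
        have h1 : (AC N).val c ∈
            (Algebra.adjoin ℂ {(⟨jC N, jC_mem_AC N⟩ : AC N)}).map (AC N).val :=
          ⟨c, hc, rfl⟩
        rw [AlgHom.map_adjoin, Set.image_singleton] at h1
        exact h1
      change thetaConjC N (Quotient.out x) c = thetaConjC N (Quotient.out y) c
      rw [thetaConjC_of_mem_adjoin_jC N hc', thetaConjC_of_mem_adjoin_jC N hc'])
    (by
      intro x y hxy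
      refine ⟨⟨jdC N N dvd_rfl, jdC_mem_AC N N dvd_rfl⟩, fun h => hxy ?_⟩
      exact thetaXC_jdC_injective N h)
    (by
      intro x
      change (H4.qhExpansion (N : ℝ) (thetaConjC N (Quotient.out x) (jC N))).order < 0
      rw [thetaConjC_jC, (H76.qhExpansion_nat_J hN0).2]
      have : (0 : ℤ) < (N : ℤ) := by exact_mod_cast Nat.pos_of_ne_zero hN0
      omega)
    v hv
  refine ⟨Quotient.out x, (m : ℤ), by exact_mod_cast hm, ?_⟩
  intro f hf hf0
  exact hx ⟨f, hf⟩ (fun h => hf0 (congrArg Subtype.val h))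

/-- coset form of `place_cusp_C`. -/
theorem place_cusp_X (v : Place ℂ (FC N)) (hv : v.ord (jC N) < 0) :
    ∃ x : H24.XN N, ∃ m : ℤ, 0 < m ∧
      ∀ f ∈ (AC N : Set (FC N)), f ≠ 0 →
        ordInfC N (thetaXC N x f) = m * v.ord f := by
  obtain ⟨γ, m, hm, h⟩ := place_cusp_C N v hv
  refine ⟨QuotientGroup.mk γ, m, hm, fun f hf hf0 => ?_⟩
  rw [thetaXC_mk N hf]
  exact h f hf hf0

theorem jC_ne_zero : jC N ≠ 0 := fun h =>
  (transcendental_jC N) (h ▸ isAlgebraic_zero)

theorem ordInfC_one : ordInfC N 1 = 0 := by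
  rw [ordInfC, H4.qhExpansion_one (H95.natCast_pos_of_neZero N)]
  exact HahnSeries.order_one

theorem ordInfC_thetaXC_one (x : H24.XN N) : ordInfC N (thetaXC N x 1) = 0 := by
  have : thetaXC N x 1 = 1 := map_one (thetaXCHom N x)
  rw [this, ordInfC_one]

theorem ordInfC_thetaXC_jC (x : H24.XN N) : ordInfC N (thetaXC N x (jC N)) = -(N : ℤ) := by
  unfold thetaXC
  rw [thetaConjC_jC, ordInfC, (H76.qhExpansion_nat_J (NeZero.ne N)).2]

/-- `T`-translation does not change the order at the cusp. -/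
theorem ordInfC_thetaXC_T {f : FC N} (hf : f ∈ AC N) (x : H24.XN N) :
    ordInfC N (thetaXC N ((T : SL(2, ℤ)) • x) f) = ordInfC N (thetaXC N x f) := by
  have h1 : thetaXC N ((T : SL(2, ℤ)) • x) f =
      fun τ : ℍ => thetaXC N x f ((-1 : ℝ) +ᵥ τ) := by
    funext τ
    rw [← thetaXC_smul N hf, H95.neg_one_vadd_eq_T_inv_smul]
  rw [h1, ordInfC, ordInfC]
  exact H76.order_qhExpansion_vadd (H95.natCast_pos_of_neZero N)
    (isMeroPeriodic_thetaConjC N hf (Quotient.out x)) (-1)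

/-- periodicity of the conjugate at a cusp of width `k`. -/
theorem thetaConjC_periodic {f : FC N} (hf : f ∈ AC N) (γ : SL(2, ℤ)) (k : ℕ)
    (hmem : γ⁻¹ * T ^ k * γ ∈ Gamma0 N) (τ : ℍ) :
    thetaConjC N γ f ((k : ℝ) +ᵥ τ) = thetaConjC N γ f τ := by
  rw [thetaConjC_apply, thetaConjC_apply]
  have h1 : ((k : ℝ) +ᵥ τ) = (T ^ k : SL(2, ℤ)) • τ := by
    have := modular_T_zpow_smul τ (k : ℤ)
    rw [zpow_natCast] at this
    rw [this]
    simp
  rw [h1]
  have h2 : γ⁻¹ • ((T ^ k : SL(2, ℤ)) • τ) = (γ⁻¹ * T ^ k * γ) • (γ⁻¹ • τ) := by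
    simp only [← mul_smul]
    congr 1
    rw [mul_assoc, mul_assoc, mul_inv_cancel, mul_one]
  rw [h2]
  exact ThetaC_smul N hf hmem _

theorem jC_eq_jL : jC N = S37.H8.jL ℂ N := rfl

/-- the set of poles of `jC N`, as a finset. -/
def poleSet : Finset (Place ℂ (FC N)) :=
  ((H74.ffInputs_FL ℂ N).divPole (S37.H8.jL ℂ N)).support

theorem mem_poleSet {v : Place ℂ (FC N)} : v ∈ poleSet N ↔ v.ord (jC N) < 0 := by
  rw [poleSet, Finsupp.mem_support_iff, Fermat.Agent.RR.H43.FFInputs.divPole_apply, jC_eq_jL]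
  constructor
  · intro h
    by_contra h2
    apply h
    rw [not_lt] at h2
    exact max_eq_right (by omega)
  · intro h h2
    have := le_max_left (-v.ord (S37.H8.jL ℂ N)) 0
    omega

theorem sum_poleSet :
    ∑ v ∈ poleSet N, v.ord (jC N)⁻¹ = (Fintype.card (H24.XN N) : ℤ) := by
  have h1 := H74.degree_divPole_j ℂ N
  rw [H74.degree_eq_sum_FC N, Finsupp.sum] at h1
  have h2 : (Module.finrank ℂ⟮S37.H8.jL ℂ N⟯ (S37.H8.FL ℂ N) : ℤ) =
      (Fintype.card (H24.XN N) : ℤ) := by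
    have := finrank_FC_eq_natCard' N
    rw [Nat.card_eq_fintype_card] at this
    exact_mod_cast this
  rw [← h2, ← h1]
  refine Finset.sum_congr rfl fun v hv => ?_
  have hv' := (mem_poleSet N).mp hv
  rw [Fermat.Agent.RR.H43.FFInputs.divPole_apply, Place.ord_inv, ← jC_eq_jL]
  exact (max_eq_left (by omega)).symm

theorem frac_AC (f : FC N) (hf : f ≠ 0) :
    ∃ p q : FC N, p ∈ (AC N : Set (FC N)) ∧ q ∈ (AC N : Set (FC N)) ∧ p ≠ 0 ∧ q ≠ 0 ∧
      f * q = p := by
  obtain ⟨a, ha, b, hb, hb0, rfl⟩ := exists_div_AC N f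
  refine ⟨a, b, ha, hb, ?_, hb0, div_mul_cancel₀ a hb0⟩
  rintro rfl
  exact hf (zero_div b)

/-- **(A5), exact multiplier, coset form.**  Every pole `v` of `jC N` is the cusp attached to a
coset `x`, and with `h` = the length of the `T`-orbit of `x` (= width of the cusp) one has
`v.ord j = -h` and `ord_{q_N} = (N / h) * v.ord` on `AC N`. -/
theorem exists_cusp_of_pole_X (v : Place ℂ (FC N)) (hv : v.ord (jC N) < 0) :
    ∃ x : H24.XN N, v.ord (jC N) = -(Function.minimalPeriod (H76.permXN N T) x : ℤ) ∧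
      Function.minimalPeriod (H76.permXN N T) x ∣ N ∧
      ∀ f ∈ (AC N : Set (FC N)), f ≠ 0 → ordInfC N (thetaXC N x f) =
        ((N / Function.minimalPeriod (H76.permXN N T) x : ℕ) : ℤ) * v.ord f := by
  classical
  have hN0 : N ≠ 0 := NeZero.ne N
  have hNpos : 0 < N := Nat.pos_of_ne_zero hN0
  have hper : ∀ x : H24.XN N, Function.minimalPeriod (H76.permXN N T) x ∣ N := by
    intro x
    apply Function.IsPeriodicPt.minimalPeriod_dvd
    show (H76.permXN N T : H24.XN N → H24.XN N)^[N] x = x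
    rw [← Equiv.Perm.coe_pow, H76.permXN_T_pow_N]; rfl
  have key := H76.squeeze_on (K := ℂ) (F := FC N) (AC N : Set (FC N)) (frac_AC N)
    (jC N)⁻¹ (H76.permXN N T) N hNpos H76.permXN_T_pow_N
    (fun x f => ordInfC N (thetaXC N x f)) (poleSet N)
    (by
      intro v hv
      rw [Place.ord_inv]
      have := (mem_poleSet N).mp hv
      omega)
    (sum_poleSet N)
    (fun v hv => place_cusp_X N v ((mem_poleSet N).mp hv))
    (fun x f hf _ => ordInfC_thetaXC_T N hf x)
    ⟨1, jC N, (AC N).one_mem, jC_mem_AC N, one_ne_zero, jC_ne_zero N,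
      inv_mul_cancel₀ (jC_ne_zero N), fun x => by
        show ordInfC N (thetaXC N x 1) - ordInfC N (thetaXC N x (jC N)) = (N : ℤ)
        rw [ordInfC_thetaXC_one, ordInfC_thetaXC_jC]; ring⟩
    (by
      intro x f hf _
      have hmem := H76.conj_pow_minimalPeriod_mem (N := N) T (Quotient.out x)
      have hx : (QuotientGroup.mk (Quotient.out x) : H24.XN N) = x := Quotient.out_eq' x
      rw [hx] at hmem
      exact H76.dvd_order_qhExpansion_of_periodic hN0 (hper x)
        (isMeroPeriodic_thetaConjC N hf (Quotient.out x))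
        (thetaConjC_periodic N hf (Quotient.out x) _ hmem))
  obtain ⟨x, ⟨m, hm, hval⟩, hord⟩ := key.2.2 v ((mem_poleSet N).mpr hv)
  rw [Place.ord_inv] at hord
  refine ⟨x, by omega, hper x, fun f hf hf0 => ?_⟩
  have hj := hval (jC N) (jC_mem_AC N) (jC_ne_zero N)
  rw [ordInfC_thetaXC_jC] at hj
  set h := Function.minimalPeriod (H76.permXN N T) x with hh
  have hmh : m * (h : ℤ) = (N : ℤ) := by
    have : v.ord (jC N) = -(h : ℤ) := by omega
    rw [this] at hj
    linarith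
  have hhpos : 0 < h := H76.minimalPeriod_pos _ x
  have hm' : m = ((N / h : ℕ) : ℤ) := by
    obtain ⟨d, hd⟩ := hper x
    rw [← hh] at hd
    have hdiv : N / h = d := by rw [hd]; exact Nat.mul_div_cancel_left d hhpos
    rw [hdiv]
    have h2 : m * (h : ℤ) = (d : ℤ) * (h : ℤ) := by
      rw [hmh, hd]; push_cast; ring
    exact mul_right_cancel₀ (by exact_mod_cast hhpos.ne') h2
  rw [← hm']
  exact hval f hf hf0

/-- **(A5) DICT-CUSPS, place ⟹ cusp, matrix form with the exact multiplier.**  For every pole `v`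
of `jC N` there are `γ : SL(2, ℤ)` and a width `h ∣ N` with `v.ord j = -h`,
`γ⁻¹ T^h γ ∈ Γ₀(N)` (so all conjugates `thetaConjC N γ f`, `f ∈ AC N`, are `h`-periodic) and
`ord_{q_N} (thetaConjC N γ f) = (N / h) * v.ord f` on `AC N`, i.e. the `q_h`-order of the
conjugate is `v.ord f`. -/
theorem exists_cusp_of_pole (v : Place ℂ (FC N)) (hv : v.ord (jC N) < 0) :
    ∃ (γ : SL(2, ℤ)) (h : ℕ), 0 < h ∧ h ∣ N ∧ v.ord (jC N) = -(h : ℤ) ∧
      γ⁻¹ * T ^ h * γ ∈ Gamma0 N ∧
      (∀ f ∈ AC N, ∀ τ : ℍ, thetaConjC N γ f ((h : ℝ) +ᵥ τ) = thetaConjC N γ f τ) ∧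
      (∀ f ∈ AC N, f ≠ 0 →
        ordInfC N (thetaConjC N γ f) = ((N / h : ℕ) : ℤ) * v.ord f) := by
  obtain ⟨x, hord, hdvd, hval⟩ := exists_cusp_of_pole_X N v hv
  have hmem := H76.conj_pow_minimalPeriod_mem (N := N) T (Quotient.out x)
  have hx : (QuotientGroup.mk (Quotient.out x) : H24.XN N) = x := Quotient.out_eq' x
  rw [hx] at hmem
  refine ⟨Quotient.out x, Function.minimalPeriod (H76.permXN N T) x,
    H76.minimalPeriod_pos _ x, hdvd, hord, hmem,
    fun f hf τ => thetaConjC_periodic N hf _ _ hmem τ, fun f hf hf0 => hval f hf hf0⟩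

/-- quotient form: for `F = a / b` with `a b ∈ AC N` the difference of the `q_N`-orders of the
conjugates is `(N / h) * v.ord F` (the shape of `hk` in helper32's
`H32.dvd_of_root_of_order_sub_eq`). -/
theorem exists_cusp_of_pole_div (v : Place ℂ (FC N)) (hv : v.ord (jC N) < 0) :
    ∃ (γ : SL(2, ℤ)) (h : ℕ), 0 < h ∧ h ∣ N ∧ v.ord (jC N) = -(h : ℤ) ∧
      γ⁻¹ * T ^ h * γ ∈ Gamma0 N ∧
      (∀ f ∈ AC N, ∀ τ : ℍ, thetaConjC N γ f ((h : ℝ) +ᵥ τ) = thetaConjC N γ f τ) ∧
      (∀ a ∈ AC N, ∀ b ∈ AC N, a ≠ 0 → b ≠ 0 →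
        (H4.qhExpansion (N : ℝ) (thetaConjC N γ a)).order -
          (H4.qhExpansion (N : ℝ) (thetaConjC N γ b)).order =
            ((N / h : ℕ) : ℤ) * v.ord (a / b)) := by
  obtain ⟨γ, h, hh, hdvd, hord, hmem, hper, hval⟩ := exists_cusp_of_pole N v hv
  refine ⟨γ, h, hh, hdvd, hord, hmem, hper, fun a ha b hb ha0 hb0 => ?_⟩
  have h1 := hval a ha ha0
  have h2 := hval b hb hb0
  rw [ordInfC] at h1 h2
  rw [h1, h2, div_eq_mul_inv, v.ord_mul ha0 (inv_ne_zero hb0), v.ord_inv]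
  ring

end Fermat.Agent.S29.H25
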