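import Fermat.Agent.S29.H25_PlaceAt
import Fermat.Agent.S24.H8_J3Orbit
import Fermat.Agent.S24.H32_EllipticOrder

/-!
S29 / E0-DICT (helper25), part (A4)(ii): the multiplier `m` in
`merOrd τ1 (thetaC N f) = m * v.ord f` is the order of the stabiliser of `τ1` in `Γ₀(N) / ±1`:
`m = 1`, or `m = 2` and `τ1` is fixed by an element of `Γ₀(N)` of trace `0`, or `m = 3` and `τ1` is
fixed by an element of `Γ₀(N)` of trace `1`.

Key step (`mem_Gamma0_of_fixed`): if `v` is unramified over `j = a`, every `γ₁ ∈ SL(2, ℤ)` fixing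
`τ1` lies in `Γ₀(N)` (Taylor approximation of `f ∈ AC N` at `v` by polynomials in `j - a`, which
are `SL(2, ℤ)`-invariant, shows that `ThetaC N f ∘ γ₁ - ThetaC N f` vanishes to infinite order at
`τ1`).
-/

set_option autoImplicit false
noncomputable section
namespace Fermat.Agent.S29.H25
open UpperHalfPlane ModularCurve AlgebraicCurve IntermediateField Polynomial
open Fermat.Agent.S24
open Fermat.Agent.S24.H81 (Hol Mer ordNat merOrd)
open scoped MatrixGroups Manifold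

section Taylor

variable {K F : Type*} [Field K] [Field F] [Algebra K F]

/-- Taylor approximation at a place with residue field `K` and uniformiser `t`. -/
theorem exists_poly_approx (v : Place K F)
    (hres : ∀ u : F, u ≠ 0 → v.ord u = 0 →
      ∃ c : K, u - algebraMap K F c = 0 ∨ 0 < v.ord (u - algebraMap K F c))
    (t : F) (ht : v.ord t = 1) (h : F) (hh : h = 0 ∨ 0 ≤ v.ord h) (n : ℕ) :
    ∃ P : K[X], h - aeval t P = 0 ∨ (n : ℤ) ≤ v.ord (h - aeval t P) := by
  induction n with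
  | zero =>
    refine ⟨0, ?_⟩
    simpa using hh
  | succ n ih =>
    obtain ⟨P, hP⟩ := ih
    by_cases h0 : h - aeval t P = 0
    · exact ⟨P, Or.inl h0⟩
    have hP' : (n : ℤ) ≤ v.ord (h - aeval t P) := hP.resolve_left h0
    by_cases hlt : ((n + 1 : ℕ) : ℤ) ≤ v.ord (h - aeval t P)
    · exact ⟨P, Or.inr hlt⟩
    have hn : v.ord (h - aeval t P) = n := by
      push_cast at hlt
      omega
    have ht0 : t ≠ 0 := by
      rintro rfl
      simp at ht
    have htn : t ^ n ≠ 0 := pow_ne_zero _ ht0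
    have htn_ord : v.ord (t ^ n) = n := by
      rw [← zpow_natCast, v.ord_zpow, ht, mul_one]
    have hu0 : (h - aeval t P) / t ^ n ≠ 0 := div_ne_zero h0 htn
    have hu : v.ord ((h - aeval t P) / t ^ n) = 0 := by
      rw [div_eq_mul_inv, v.ord_mul h0 (inv_ne_zero htn), v.ord_inv, htn_ord, hn]
      ring
    obtain ⟨c, hc⟩ := hres _ hu0 hu
    refine ⟨P + C c * X ^ n, ?_⟩
    have e : h - aeval t (P + C c * X ^ n) =
        ((h - aeval t P) / t ^ n - algebraMap K F c) * t ^ n := by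
      simp only [map_add, map_mul, aeval_C, map_pow, aeval_X]
      rw [sub_mul, div_mul_cancel₀ _ htn]
      ring
    rw [e]
    rcases hc with hc | hc
    · left
      rw [hc, zero_mul]
    · right
      have hne : (h - aeval t P) / t ^ n - algebraMap K F c ≠ 0 := by
        intro h'
        rw [h', Place.ord_zero] at hc
        omega
      rw [v.ord_mul hne htn, htn_ord]
      push_cast
      omega

end Taylor

variable (N : ℕ) [NeZero N]

/-- the residue field of every place of `FC N / ℂ` is `ℂ`. -/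
theorem exists_const_sub [FiniteDimensional ℂ⟮jC N⟯ (FC N)] (v : Place ℂ (FC N)) (u : FC N)
    (hu0 : u ≠ 0) (hu : v.ord u = 0) :
    ∃ c : ℂ, u - algebraMap ℂ (FC N) c = 0 ∨ 0 < v.ord (u - algebraMap ℂ (FC N) c) := by
  have : Fact (Transcendental ℂ (jC N)) := ⟨transcendental_jC N⟩
  have hmem : u ∈ v.toValuationSubring :=
    (H27.mem_toValuationSubring_of_ne_zero v hu0).mpr (by omega)
  obtain ⟨c, hc⟩ := H97.algebraMap_residueField_surjective (jC N) (transcendental_jC N) v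
    (IsLocalRing.residue v.toValuationSubring ⟨u, hmem⟩)
  refine ⟨c, ?_⟩
  by_cases h0 : u - algebraMap ℂ (FC N) c = 0
  · exact Or.inl h0
  right
  have h1 : (⟨u, hmem⟩ - algebraMap ℂ v.toValuationSubring c : v.toValuationSubring) ∈
      IsLocalRing.maximalIdeal v.toValuationSubring := by
    rw [← IsLocalRing.residue_eq_zero_iff, map_sub, sub_eq_zero, ← hc]
    rfl
  have h2 : (⟨u, hmem⟩ - algebraMap ℂ v.toValuationSubring c : v.toValuationSubring) ≠ 0 := by
    intro h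
    apply h0
    have := congrArg (Subtype.val) h
    simpa using this
  have := (H27.ord_pos_iff_mem_maximalIdeal v _ h2).mpr h1
  simpa using this

theorem aeval_jC_sub_mem_adjoin (a : ℂ) (P : ℂ[X]) :
    aeval (jC N - algebraMap ℂ (FC N) a) P ∈ Algebra.adjoin ℂ {jC N} := by
  have hmem : jC N - algebraMap ℂ (FC N) a ∈ Algebra.adjoin ℂ {jC N} :=
    sub_mem (Algebra.subset_adjoin rfl) (Subalgebra.algebraMap_mem _ a)
  exact Algebra.adjoin_le (Set.singleton_subset_iff.mpr hmem)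
    (Polynomial.aeval_mem_adjoin_singleton ℂ _)

theorem ThetaC_neg {h : FC N} (hh : h ∈ AC N) : ThetaC N (-h) = -ThetaC N h := by
  have := ThetaC_add N (neg_mem hh) hh
  rw [neg_add_cancel, ThetaC_zero] at this
  exact eq_neg_of_add_eq_zero_left this.symm

theorem ord_nonneg_of_mem_AC (v : Place ℂ (FC N)) (τ1 : ℍ) (m : ℕ) (hm : 0 < m)
    (hord : ∀ f : FC N, f ≠ 0 → merOrd τ1 (thetaC N f) = (m : ℤ) * v.ord f)
    {h : FC N} (hh : h ∈ AC N) (h0 : h ≠ 0) : 0 ≤ v.ord h := by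
  have h1 := hord h h0
  rw [merOrd_thetaC_of_mem N hh h0] at h1
  by_contra hneg
  push Not at hneg
  have : (m : ℤ) * v.ord h < 0 := mul_neg_of_pos_of_neg (by exact_mod_cast hm) hneg
  omega

/-- **Key step.** If `v` is unramified over `j = a`, then for every `γ₁ ∈ SL(2, ℤ)` fixing the
point `τ1` of `v`, all `ThetaC N h`, `h ∈ AC N`, are `γ₁`-invariant. -/
theorem ThetaC_smul_of_fixed [FiniteDimensional ℂ⟮jC N⟯ (FC N)]
    (v : Place ℂ (FC N)) (a : ℂ) (hv1 : v.ord (jC N - algebraMap ℂ (FC N) a) = 1)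
    (τ1 : ℍ) (m : ℕ) (hm : 0 < m)
    (hord : ∀ f : FC N, f ≠ 0 → merOrd τ1 (thetaC N f) = (m : ℤ) * v.ord f)
    (γ1 : SL(2, ℤ)) (hfix : γ1 • τ1 = τ1) {h : FC N} (hh : h ∈ AC N) (τ : ℍ) :
    ThetaC N h (γ1 • τ) = ThetaC N h τ := by
  set D : ℍ → ℂ := fun τ => ThetaC N h (γ1 • τ) - ThetaC N h τ with hD
  suffices hD0 : D = 0 by
    have := congrFun hD0 τ
    simp only [hD, Pi.zero_apply, sub_eq_zero] at this
    exact this
  by_contra hDne
  set t : FC N := jC N - algebraMap ℂ (FC N) a with ht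
  have hh0 : h = 0 ∨ 0 ≤ v.ord h := by
    by_cases h0 : h = 0
    · exact Or.inl h0
    · exact Or.inr (ord_nonneg_of_mem_AC N v τ1 m hm hord hh h0)
  obtain ⟨P, hP⟩ := exists_poly_approx v (exists_const_sub N v) t hv1 h hh0 (ordNat τ1 D + 1)
  have hc : aeval t P ∈ Algebra.adjoin ℂ {jC N} := aeval_jC_sub_mem_adjoin N a P
  have hcA : aeval t P ∈ AC N := adjoin_jBar_le N hc
  set h' : FC N := h - aeval t P with hh'
  have hh'A : h' ∈ AC N := sub_mem hh hcA
  have hsum : ThetaC N h = ThetaC N h' + ThetaC N (aeval t P) := by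
    rw [← ThetaC_add N hh'A hcA, hh', sub_add_cancel]
  have hinvc : ∀ τ, ThetaC N (aeval t P) (γ1 • τ) = ThetaC N (aeval t P) τ := by
    intro τ
    have := congrFun (thetaConjC_of_mem_adjoin_jC N hc γ1⁻¹) τ
    rwa [thetaConjC_apply, inv_inv] at this
  have hDeq : D = (fun τ => ThetaC N h' (γ1 • τ)) + ThetaC N (-h') := by
    funext τ
    simp only [hD, Pi.add_apply]
    rw [ThetaC_neg N hh'A, hsum]
    simp only [Pi.add_apply, Pi.neg_apply]
    rw [hinvc τ]
    ring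
  rcases hP with hP | hP
  · apply hDne
    rw [hDeq]
    have e : h' = 0 := hP
    rw [e, neg_zero, ThetaC_zero]
    funext τ
    simp
  · have h'0 : h' ≠ 0 := by
      intro e
      rw [e, Place.ord_zero] at hP
      push_cast at hP
      omega
    have hmd : MDiff (ThetaC N h') := ThetaC_mdiff N hh'A
    have hA : MDiff (fun τ => ThetaC N h' (γ1 • τ)) := hmd.comp (H17.mdiff_SL_smul γ1)
    have hB : MDiff (ThetaC N (-h')) := ThetaC_mdiff N (neg_mem hh'A)
    have hA0 : (fun τ => ThetaC N h' (γ1 • τ)) ≠ 0 := by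
      intro e
      apply h'0
      apply ThetaC_eq_zero N hh'A
      funext τ
      have := congrFun e (γ1⁻¹ • τ)
      simpa using this
    have hB0 : ThetaC N (-h') ≠ 0 := fun e =>
      neg_ne_zero.mpr h'0 (ThetaC_eq_zero N (neg_mem hh'A) e)
    have hAB0 : (fun τ => ThetaC N h' (γ1 • τ)) + ThetaC N (-h') ≠ 0 := by
      rw [← hDeq]
      exact hDne
    have hmin := H81.min_ordNat_le_ordNat_add (H81.mem_Hol.mpr hA) (H81.mem_Hol.mpr hB)
      hA0 hB0 hAB0 τ1
    rw [← hDeq] at hmin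
    have hordA : (ordNat τ1 (fun τ => ThetaC N h' (γ1 • τ)) : ℤ) = (m : ℤ) * v.ord h' := by
      rw [H81.ordNat_comp_smul hmd, hfix, ← merOrd_thetaC_of_mem N hh'A h'0]
      exact hord h' h'0
    have hordB : (ordNat τ1 (ThetaC N (-h')) : ℤ) = (m : ℤ) * v.ord h' := by
      rw [← merOrd_thetaC_of_mem N (neg_mem hh'A) (neg_ne_zero.mpr h'0),
        hord _ (neg_ne_zero.mpr h'0), H27.ord_neg]
    have hbig : ((ordNat τ1 D + 1 : ℕ) : ℤ) ≤ (m : ℤ) * v.ord h' := by
      have h1 : (1 : ℤ) ≤ m := by exact_mod_cast hm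
      have h2 : ((ordNat τ1 D + 1 : ℕ) : ℤ) ≤ v.ord h' := hP
      have h3 : (0 : ℤ) ≤ v.ord h' := le_trans (by positivity) h2
      nlinarith
    have hmin' : min (ordNat τ1 (fun τ => ThetaC N h' (γ1 • τ)) : ℤ)
        (ordNat τ1 (ThetaC N (-h')) : ℤ) ≤ (ordNat τ1 D : ℤ) := by
      exact_mod_cast hmin
    rw [hordA, hordB, min_self] at hmin'
    push_cast at hbig
    omega

/-- If `v` is unramified over `j = a`, the stabiliser in `SL(2, ℤ)` of the point of `v` is
contained in `Γ₀(N)`. -/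
theorem mem_Gamma0_of_fixed [FiniteDimensional ℂ⟮jC N⟯ (FC N)]
    (v : Place ℂ (FC N)) (a : ℂ) (hv1 : v.ord (jC N - algebraMap ℂ (FC N) a) = 1)
    (τ1 : ℍ) (m : ℕ) (hm : 0 < m)
    (hord : ∀ f : FC N, f ≠ 0 → merOrd τ1 (thetaC N f) = (m : ℤ) * v.ord f)
    (γ1 : SL(2, ℤ)) (hfix : γ1 • τ1 = τ1) : γ1 ∈ CongruenceSubgroup.Gamma0 N := by
  have h := ThetaC_smul_of_fixed N v a hv1 τ1 m hm hord γ1 hfix (jdC_mem_AC N N dvd_rfl)
  have key := (thetaConjC_jdC_eq_iff N γ1⁻¹ 1).mp (by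
    funext τ
    rw [thetaConjC_apply, thetaConjC_apply, inv_inv, inv_one, one_smul]
    exact h τ)
  simpa using key

/-- `m` is the order of the stabiliser of `τ1` in `Γ₀(N) / ±1`, in the elementary form: either
`m = 1`, or `m = 2` and `τ1` is fixed by an element of `Γ₀(N)` of trace `0`, or `m = 3` and `τ1` is
fixed by an element of `Γ₀(N)` of trace `1`. -/
def IsEllipticType (τ1 : ℍ) (m : ℕ) : Prop :=
  m = 1 ∨
    (m = 2 ∧ ∃ γ1 ∈ CongruenceSubgroup.Gamma0 N, γ1 • τ1 = τ1 ∧ γ1.1.trace = 0) ∨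
    (m = 3 ∧ ∃ γ1 ∈ CongruenceSubgroup.Gamma0 N, γ1 • τ1 = τ1 ∧ γ1.1.trace = 1)

theorem ordNat_ThetaC_jC_sub (a : ℂ) (τ1 : ℍ) :
    ordNat τ1 (ThetaC N (jC N - algebraMap ℂ (FC N) a)) =
      analyticOrderNatAt (fun z : ℂ => H28.J (ofComplex z) - a) (τ1 : ℂ) := by
  rw [ThetaC_jC_sub_const]
  rfl

theorem eq_one_or_eq_of_mul_eq_prime {p : ℕ} (hp : p.Prime) {m : ℕ} {k : ℤ} (hm : 0 < m)
    (hk : 0 < k) (h : (m : ℤ) * k = p) : (m = 1 ∧ k = p) ∨ (m = p ∧ k = 1) := by
  lift k to ℕ using hk.le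
  have h' : m * k = p := by exact_mod_cast h
  have hdvd : m ∣ p := ⟨k, h'.symm⟩
  rcases (Nat.dvd_prime hp).mp hdvd with h1 | h1
  · left
    subst h1
    refine ⟨rfl, ?_⟩
    rw [one_mul] at h'
    exact_mod_cast h'
  · right
    subst h1
    refine ⟨rfl, ?_⟩
    have : k = 1 := by
      have hm0 : 0 < m := hm
      exact Nat.eq_of_mul_eq_mul_left hm0 (by rw [h', mul_one])
    exact_mod_cast this

/-- **(A4)(i)+(ii): finite places are points, with the elliptic multiplier.** -/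
theorem exists_point_of_place_elliptic [FiniteDimensional ℂ⟮jC N⟯ (FC N)]
    (hcard : Module.finrank ℂ⟮jC N⟯ (FC N) = Nat.card (H24.XN N))
    (v : Place ℂ (FC N)) (hv : 0 ≤ v.ord (jC N)) :
    ∃ τ1 : ℍ, ∃ m : ℕ, 0 < m ∧
      (∀ f : FC N, f ≠ 0 → merOrd τ1 (thetaC N f) = (m : ℤ) * v.ord f) ∧
      IsEllipticType N τ1 m := by
  have : Fact (Transcendental ℂ (jC N)) := ⟨transcendental_jC N⟩
  rcases H97.pole_or_zero (jC N) (transcendental_jC N) v with hpole | ⟨a, ha⟩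
  · omega
  have ht0 := jC_sub_const_ne_zero N a
  have htA := jC_sub_const_mem_AC N a
  by_cases ha0 : a = 0
  · -- the fibre over `0`: the orbit of `ρ`
    obtain ⟨γ, m, hm, hord⟩ := exists_point_of_place_of_finrank_at N hcard v a
      UpperHalfPlane.ρ (by rw [H8.J_ρ, ha0]) ha
    refine ⟨γ⁻¹ • UpperHalfPlane.ρ, m, hm, hord, ?_⟩
    have h1 := hord _ ht0
    rw [merOrd_thetaC_of_mem N htA ht0, ordNat_ThetaC_jC_sub] at h1
    have h3 : analyticOrderNatAt (fun z : ℂ => H28.J (ofComplex z) - a)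
        ((γ⁻¹ • UpperHalfPlane.ρ : ℍ) : ℂ) = 3 := by
      rw [ha0]
      simpa using H8.analyticOrderNatAt_J_smul_ρ γ⁻¹
    rw [h3] at h1
    rcases eq_one_or_eq_of_mul_eq_prime Nat.prime_three hm ha (by exact_mod_cast h1.symm) with
      ⟨hm1, -⟩ | ⟨hm3, hk1⟩
    · exact Or.inl hm1
    · refine Or.inr (Or.inr ⟨hm3, γ⁻¹ * (ModularGroup.S * ModularGroup.T) * γ, ?_,
        H32.conj_smul_eq' H8.ST_smul_ρ, ?_⟩)
      · exact mem_Gamma0_of_fixed N v a hk1 _ m hm hord _ (H32.conj_smul_eq' H8.ST_smul_ρ)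
      · rw [H32.trace_conj', H32.trace_S_mul_T]
  by_cases ha1 : a = 1728
  · -- the fibre over `1728`: the orbit of `i`
    obtain ⟨γ, m, hm, hord⟩ := exists_point_of_place_of_finrank_at N hcard v a
      UpperHalfPlane.I (by rw [H8.J_I, ha1]) ha
    refine ⟨γ⁻¹ • UpperHalfPlane.I, m, hm, hord, ?_⟩
    have h1 := hord _ ht0
    rw [merOrd_thetaC_of_mem N htA ht0, ordNat_ThetaC_jC_sub] at h1
    have h3 : analyticOrderNatAt (fun z : ℂ => H28.J (ofComplex z) - a)
        ((γ⁻¹ • UpperHalfPlane.I : ℍ) : ℂ) = 2 := by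
      rw [ha1]
      exact H8.analyticOrderNatAt_J_sub_1728_smul_I γ⁻¹
    rw [h3] at h1
    rcases eq_one_or_eq_of_mul_eq_prime Nat.prime_two hm ha (by exact_mod_cast h1.symm) with
      ⟨hm1, -⟩ | ⟨hm2, hk1⟩
    · exact Or.inl hm1
    · refine Or.inr (Or.inl ⟨hm2, γ⁻¹ * ModularGroup.S * γ, ?_,
        H32.conj_smul_eq' H8.S_smul_I, ?_⟩)
      · exact mem_Gamma0_of_fixed N v a hk1 _ m hm hord _ (H32.conj_smul_eq' H8.S_smul_I)
      · rw [H32.trace_conj', H32.trace_S]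
  · -- generic fibre
    obtain ⟨τ0, hτ0⟩ := H28.J_surjective a
    obtain ⟨γ, m, hm, hord⟩ := exists_point_of_place_of_finrank_at N hcard v a τ0 hτ0 ha
    refine ⟨γ⁻¹ • τ0, m, hm, hord, Or.inl ?_⟩
    have h1 := hord _ ht0
    rw [merOrd_thetaC_of_mem N htA ht0, ordNat_ThetaC_jC_sub,
      H8.analyticOrderNatAt_J_sub_smul_of_ne hτ0 ha0 ha1 γ⁻¹] at h1
    have hdvd : (m : ℤ) ∣ 1 := ⟨_, by exact_mod_cast h1⟩
    have := Int.eq_one_of_dvd_one (by positivity) hdvd
    exact_mod_cast this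

end Fermat.Agent.S29.H25
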