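import Fermat.Agent.S29.H25_Points
import Fermat.Agent.S24.H27_PlaceOfValuation

/-!
S29 / E0-DICT (helper25), part (A4)(ii)/(iii): every point `τ0 ∈ ℍ` gives a place
`placeAt N τ0` of `FC N / ℂ` with
`merOrd τ0 (thetaC N f) = ramAt N τ0 * (placeAt N τ0).ord f` (unconditionally), and the place
produced by `exists_point_of_place_of_finrank` is `placeAt N τ1`.
-/

set_option autoImplicit false
noncomputable section
namespace Fermat.Agent.S29.H25
open UpperHalfPlane ModularCurve AlgebraicCurve IntermediateField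
open Fermat.Agent.S24
open Fermat.Agent.S24.H81 (Hol Mer ordNat merOrd)
open scoped MatrixGroups Manifold

variable (N : ℕ) [NeZero N]

theorem jC_sub_const_ne_zero (a : ℂ) : jC N - algebraMap ℂ (FC N) a ≠ 0 := by
  intro h
  apply transcendental_jC N
  rw [sub_eq_zero] at h
  rw [h]
  exact isAlgebraic_algebraMap a

theorem jC_sub_const_mem_AC (a : ℂ) : jC N - algebraMap ℂ (FC N) a ∈ AC N :=
  sub_mem (jC_mem_AC N) (Subalgebra.algebraMap_mem _ a)

theorem ThetaC_jC_sub_const (a : ℂ) :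
    ThetaC N (jC N - algebraMap ℂ (FC N) a) = fun τ => H28.J τ - a := by
  have h := ThetaC_add N (jC_sub_const_mem_AC N a) (Subalgebra.algebraMap_mem (AC N) a)
  rw [sub_add_cancel, ThetaC_jC, ThetaC_algebraMap] at h
  funext τ
  have := congrFun h τ
  simp only [Pi.add_apply] at this
  rw [this]
  ring

/-- `merOrd τ0 ∘ thetaC N` is an order function on `FC N`, trivial on `ℂ`. -/
theorem isOrdFunction_merOrd_thetaC (τ0 : ℍ) :
    H27.IsOrdFunction ℂ (fun f : FC N => merOrd τ0 (thetaC N f)) where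
  map_mul f g hf hg := by
    show merOrd τ0 (thetaC N (f * g)) = _
    rw [RingHom.map_mul]
    exact H81.merOrd_mul τ0 (thetaC_ne_zero N hf) (thetaC_ne_zero N hg)
  map_add f g hf hg hfg := by
    show _ ≤ merOrd τ0 (thetaC N (f + g))
    rw [RingHom.map_add]
    refine H81.min_merOrd_le_merOrd_add τ0 (thetaC_ne_zero N hf) (thetaC_ne_zero N hg) ?_
    rw [← RingHom.map_add]
    exact thetaC_ne_zero N hfg
  map_algebraMap a ha := by
    show merOrd τ0 (thetaC N (algebraMap ℂ (FC N) a)) = 0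
    rw [thetaC_algebraMap]
    have hne : (⟨fun _ => a, H81.const_mem_Hol a⟩ : Hol) ≠ 0 := by
      intro h
      have := congrArg (fun g : Hol => (g : ℍ → ℂ) τ0) h
      exact ha this
    rw [H81.merOrd_algebraMap τ0 hne]
    exact_mod_cast H81.ordNat_const ha τ0
  nontrivial := by
    refine ⟨jC N - algebraMap ℂ (FC N) (H28.J τ0), jC_sub_const_ne_zero N _, ?_⟩
    show merOrd τ0 (thetaC N (jC N - algebraMap ℂ (FC N) (H28.J τ0))) ≠ 0
    rw [merOrd_thetaC_of_mem N (jC_sub_const_mem_AC N _) (jC_sub_const_ne_zero N _)]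
    have hmd := ThetaC_mdiff N (jC_sub_const_mem_AC N (H28.J τ0))
    have hne : ThetaC N (jC N - algebraMap ℂ (FC N) (H28.J τ0)) ≠ 0 := fun h =>
      jC_sub_const_ne_zero N _ (ThetaC_eq_zero N (jC_sub_const_mem_AC N _) h)
    have hpos := (H81.ordNat_pos_iff (H81.mem_Hol.mpr hmd) hne τ0).mpr (by
      rw [ThetaC_jC_sub_const]
      simp)
    omega

/-- **(A4)(iii)** the place of `FC N / ℂ` attached to a point of the upper half plane. -/
def placeAt (τ0 : ℍ) : Place ℂ (FC N) := (isOrdFunction_merOrd_thetaC N τ0).place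

/-- the ramification index of `ℍ → X₀(N)` at `τ0`. -/
def ramAt (τ0 : ℍ) : ℕ := (isOrdFunction_merOrd_thetaC N τ0).mult

theorem ramAt_pos (τ0 : ℍ) : 0 < ramAt N τ0 := (isOrdFunction_merOrd_thetaC N τ0).mult_pos

/-- **(A4)(iii), the order formula at every point.** -/
theorem merOrd_thetaC_eq (τ0 : ℍ) {f : FC N} (hf : f ≠ 0) :
    merOrd τ0 (thetaC N f) = (ramAt N τ0 : ℤ) * (placeAt N τ0).ord f :=
  (isOrdFunction_merOrd_thetaC N τ0).eq_mult_mul_ord hf

theorem ord_placeAt_nonneg_iff (τ0 : ℍ) {f : FC N} (hf : f ≠ 0) :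
    0 ≤ (placeAt N τ0).ord f ↔ 0 ≤ merOrd τ0 (thetaC N f) := by
  rw [merOrd_thetaC_eq N τ0 hf]
  have := ramAt_pos N τ0
  constructor
  · intro h; positivity
  · intro h
    by_contra hneg
    push Not at hneg
    have : (ramAt N τ0 : ℤ) * (placeAt N τ0).ord f < 0 :=
      mul_neg_of_pos_of_neg (by exact_mod_cast this) hneg
    omega

theorem ord_placeAt_pos_iff (τ0 : ℍ) {f : FC N} (hf : f ≠ 0) :
    0 < (placeAt N τ0).ord f ↔ 0 < merOrd τ0 (thetaC N f) := by
  rw [merOrd_thetaC_eq N τ0 hf]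
  have := ramAt_pos N τ0
  constructor
  · intro h; positivity
  · intro h
    by_contra hneg
    push Not at hneg
    have : (ramAt N τ0 : ℤ) * (placeAt N τ0).ord f ≤ 0 :=
      mul_nonpos_of_nonneg_of_nonpos (by positivity) hneg
    omega

/-- `j - J τ0` vanishes at `placeAt N τ0`; in particular `j` is finite there. -/
theorem ord_placeAt_jC_sub_pos (τ0 : ℍ) :
    0 < (placeAt N τ0).ord (jC N - algebraMap ℂ (FC N) (H28.J τ0)) := by
  rw [ord_placeAt_pos_iff N τ0 (jC_sub_const_ne_zero N _),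
    merOrd_thetaC_of_mem N (jC_sub_const_mem_AC N _) (jC_sub_const_ne_zero N _)]
  have hmd := ThetaC_mdiff N (jC_sub_const_mem_AC N (H28.J τ0))
  have hne : ThetaC N (jC N - algebraMap ℂ (FC N) (H28.J τ0)) ≠ 0 := fun h =>
    jC_sub_const_ne_zero N _ (ThetaC_eq_zero N (jC_sub_const_mem_AC N _) h)
  have hpos := (H81.ordNat_pos_iff (H81.mem_Hol.mpr hmd) hne τ0).mpr (by
    rw [ThetaC_jC_sub_const]
    simp)
  exact_mod_cast hpos

/-- a place satisfying the order formula at `τ1` is `placeAt N τ1`, with multiplier `ramAt`. -/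
theorem eq_placeAt_of_forall (v : Place ℂ (FC N)) (τ1 : ℍ) (m : ℕ) (hm : 0 < m)
    (h : ∀ f : FC N, f ≠ 0 → merOrd τ1 (thetaC N f) = (m : ℤ) * v.ord f) :
    v = placeAt N τ1 ∧ m = ramAt N τ1 := by
  have hv : v = placeAt N τ1 := by
    apply H27.eq_of_forall_ord_nonneg
    intro f hf h0
    rw [ord_placeAt_nonneg_iff N τ1 hf, h f hf]
    positivity
  refine ⟨hv, ?_⟩
  obtain ⟨t, ht0, ht⟩ := H27.exists_ord_eq_one v
  have h1 := h t ht0
  have h2 := merOrd_thetaC_eq N τ1 ht0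
  rw [← hv, ht] at h2
  rw [ht] at h1
  have : (m : ℤ) = ramAt N τ1 := by linarith
  exact_mod_cast this

/-- `placeAt` and `ramAt` only depend on the `Γ₀(N)`-orbit. -/
theorem placeAt_smul {γ : SL(2, ℤ)} (hγ : γ ∈ CongruenceSubgroup.Gamma0 N) (τ0 : ℍ) :
    placeAt N (γ • τ0) = placeAt N τ0 ∧ ramAt N (γ • τ0) = ramAt N τ0 := by
  have h := eq_placeAt_of_forall N (placeAt N (γ • τ0)) τ0 (ramAt N (γ • τ0)) (ramAt_pos N _)
    (fun f hf => by rw [← merOrd_thetaC_smul N hγ f τ0, merOrd_thetaC_eq N (γ • τ0) hf])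
  exact h

/-- **(A4)(i) + (iii)**: every place at which `j` is finite is `placeAt N τ1` for some `τ1`. -/
theorem exists_eq_placeAt_of_finrank [FiniteDimensional ℂ⟮jC N⟯ (FC N)]
    (hcard : Module.finrank ℂ⟮jC N⟯ (FC N) = Nat.card (H24.XN N))
    (v : Place ℂ (FC N)) (hv : 0 ≤ v.ord (jC N)) : ∃ τ1 : ℍ, v = placeAt N τ1 := by
  obtain ⟨τ1, m, hm, h⟩ := exists_point_of_place_of_finrank' N hcard v hv
  exact ⟨τ1, (eq_placeAt_of_forall N v τ1 m hm h).1⟩

end Fermat.Agent.S29.H25
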