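import Fermat.Agent.S29.H25_MerAction
import Fermat.Agent.S24.H97_Degree
import Fermat.Agent.S24.H28_J1
import Fermat.Agent.S24.H46_Separable

/-!
S29 / E0-DICT (helper25), part (A4)(i): places of `FC N / ℂ` at which `j` is finite are points of
the upper half plane: `merOrd τ0 (thetaC N f) = m * v.ord f` for all `f ≠ 0` (some `m > 0`).
Port of `S24.H81.place_fin_of_finrank` to `(K, ι) = (ℂ, id)`, extended from `AC N` to all of
`FC N` through `merOrd`.  The degree `[FC N : ℂ(j)] = #X_N` is taken as a hypothesis.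
-/

set_option autoImplicit false
noncomputable section
namespace Fermat.Agent.S29.H25
open UpperHalfPlane ModularCurve AlgebraicCurve IntermediateField
open Fermat.Agent.S24
open Fermat.Agent.S24.H81 (Hol Mer ordNat merOrd)
open scoped MatrixGroups Manifold

variable (N : ℕ) [NeZero N]

/-- `merOrd` of `thetaC` on `AC N` is the order of vanishing of the holomorphic function. -/
theorem merOrd_thetaC_of_mem {f : FC N} (hf : f ∈ AC N) (hf0 : f ≠ 0) (τ0 : ℍ) :
    merOrd τ0 (thetaC N f) = ordNat τ0 (ThetaC N f) := by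
  rw [thetaC_of_mem N hf]
  have hne : (⟨ThetaC N f, ThetaC_mdiff N hf⟩ : Hol) ≠ 0 := by
    intro h
    apply hf0
    exact ThetaC_eq_zero N hf (congrArg Subtype.val h)
  rw [H81.merOrd_algebraMap τ0 hne]

theorem thetaC_ne_zero {f : FC N} (hf : f ≠ 0) : thetaC N f ≠ 0 :=
  (map_ne_zero (thetaC N)).mpr hf

/-- if the order formula holds on `AC N`, it holds on `FC N`. -/
theorem merOrd_thetaC_eq_of_forall_mem (v : Place ℂ (FC N)) (τ1 : ℍ) (m : ℤ)
    (h : ∀ f ∈ AC N, f ≠ 0 → (ordNat τ1 (ThetaC N f) : ℤ) = m * v.ord f)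
    (f : FC N) (hf : f ≠ 0) : merOrd τ1 (thetaC N f) = m * v.ord f := by
  obtain ⟨a, ha, b, hb, hb0, rfl⟩ := exists_div_AC N f
  have ha0 : a ≠ 0 := by
    rintro rfl
    simp at hf
  have h1 := H81.merOrd_mul τ1 (thetaC_ne_zero N hf) (thetaC_ne_zero N hb0)
  rw [← map_mul, div_mul_cancel₀ _ hb0, merOrd_thetaC_of_mem N ha ha0,
    merOrd_thetaC_of_mem N hb hb0, h a ha ha0, h b hb hb0] at h1
  have h2 : v.ord (a / b) = v.ord a - v.ord b := by
    rw [div_eq_mul_inv, v.ord_mul ha0 (inv_ne_zero hb0), v.ord_inv]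
    ring
  rw [h2]
  linear_combination -h1

/-- **(A4)(i), finite places, with a prescribed base point of the fibre.**  Every place `v` of
`FC N / ℂ` with `0 < ord_v (j - a)` is, up to a positive multiple `m`, the order of vanishing at a
point `γ⁻¹ • τ0` of the `SL(2, ℤ)`-orbit of any chosen `τ0` with `J τ0 = a`. -/
theorem exists_point_of_place_of_finrank_at [FiniteDimensional ℂ⟮jC N⟯ (FC N)]
    (hcard : Module.finrank ℂ⟮jC N⟯ (FC N) = Nat.card (H24.XN N))
    (v : Place ℂ (FC N)) (a : ℂ) (τ0 : ℍ) (hτ0 : H28.J τ0 = a)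
    (hv : 0 < v.ord (jC N - algebraMap ℂ (FC N) a)) :
    ∃ γ : SL(2, ℤ), ∃ m : ℕ, 0 < m ∧
      ∀ f : FC N, f ≠ 0 → merOrd (γ⁻¹ • τ0) (thetaC N f) = (m : ℤ) * v.ord f := by
  classical
  have : Algebra.IsSeparable ℂ⟮jC N⟯ (FC N) :=
    H46.isSeparable_adjoin_of_charZero (K := ℂ) (jC N)
  have hcard' : Fintype.card (H24.XN N) = Module.finrank ℂ⟮jC N⟯ (FC N) := by
    rw [hcard, Nat.card_eq_fintype_card]
  obtain ⟨x, m, hm, hx⟩ := H81.exists_point_of_place (K := ℂ) (F := FC N) (AC N)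
    (exists_div_AC N) (jC N) (jC_mem_AC N) hcard' (RingHom.id ℂ) (thetaXCHom N)
    (fun x f => thetaConjC_mdiff N f.2 (Quotient.out x))
    (thetaXCHom_injective N)
    (fun x c => thetaConjC_algebraMap N (Quotient.out x) c)
    (by
      intro x y c hc
      have hc' : (c : FC N) ∈ Algebra.adjoin ℂ {jC N} := by
        have h1 : (AC N).val c ∈
            (Algebra.adjoin ℂ {(⟨jC N, jC_mem_AC N⟩ : AC N)}).map (AC N).val :=
          ⟨c, hc, rfl⟩
        rw [AlgHom.map_adjoin, Set.image_singleton] at h1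
        exact h1
      change thetaConjC N (Quotient.out x) c = thetaConjC N (Quotient.out y) c
      rw [thetaConjC_of_mem_adjoin_jC N hc', thetaConjC_of_mem_adjoin_jC N hc'])
    (by
      intro x y hxy
      refine ⟨⟨jdC N N dvd_rfl, jdC_mem_AC N N dvd_rfl⟩, fun h => hxy ?_⟩
      exact thetaXC_jdC_injective N h)
    a τ0
    (by
      intro x
      change thetaConjC N (Quotient.out x) (jC N) τ0 = a
      rw [thetaConjC_jC, hτ0])
    v hv
  refine ⟨Quotient.out x, m, hm, ?_⟩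
  apply merOrd_thetaC_eq_of_forall_mem N v
  intro f hf hf0
  have h1 := hx ⟨f, hf⟩ (fun h => hf0 (congrArg Subtype.val h))
  have h2 : thetaXCHom N x ⟨f, hf⟩ =
      fun τ => ThetaC N f ((Quotient.out x)⁻¹ • τ) := rfl
  rw [h2, H81.ordNat_comp_smul (ThetaC_mdiff N hf)] at h1
  exact h1

/-- **(A4)(i), finite places.**  Every place `v` of `FC N / ℂ` with `0 < ord_v (j - a)` is, up to a
positive multiple `m`, the order of vanishing at a point `τ1` of the fibre `J⁻¹(a)`. -/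
theorem exists_point_of_place_of_finrank [FiniteDimensional ℂ⟮jC N⟯ (FC N)]
    (hcard : Module.finrank ℂ⟮jC N⟯ (FC N) = Nat.card (H24.XN N))
    (v : Place ℂ (FC N)) (a : ℂ) (hv : 0 < v.ord (jC N - algebraMap ℂ (FC N) a)) :
    ∃ τ1 : ℍ, H28.J τ1 = a ∧ ∃ m : ℕ, 0 < m ∧
      ∀ f : FC N, f ≠ 0 → merOrd τ1 (thetaC N f) = (m : ℤ) * v.ord f := by
  obtain ⟨τ0, hτ0⟩ := H28.J_surjective a
  obtain ⟨γ, m, hm, h⟩ := exists_point_of_place_of_finrank_at N hcard v a τ0 hτ0 hv
  exact ⟨γ⁻¹ • τ0, by rw [H28.J_smul, hτ0], m, hm, h⟩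

/-- **(A4)(i)** in the `0 ≤ ord_v j` form. -/
theorem exists_point_of_place_of_finrank' [FiniteDimensional ℂ⟮jC N⟯ (FC N)]
    (hcard : Module.finrank ℂ⟮jC N⟯ (FC N) = Nat.card (H24.XN N))
    (v : Place ℂ (FC N)) (hv : 0 ≤ v.ord (jC N)) :
    ∃ τ1 : ℍ, ∃ m : ℕ, 0 < m ∧
      ∀ f : FC N, f ≠ 0 → merOrd τ1 (thetaC N f) = (m : ℤ) * v.ord f := by
  have : Fact (Transcendental ℂ (jC N)) := ⟨transcendental_jC N⟩
  rcases H97.pole_or_zero (jC N) (transcendental_jC N) v with h | ⟨a, ha⟩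
  · omega
  · obtain ⟨τ1, -, m, hm, h⟩ := exists_point_of_place_of_finrank N hcard v a ha
    exact ⟨τ1, m, hm, h⟩

end Fermat.Agent.S29.H25
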