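import Fermat.Agent.S24.H17_Theta
import Fermat.Agent.S24.H81_Hol

/-!
S29 / E0-DICT (helper25): the S24 dictionary at the base field `ℂ`, part (D0a).
Port of `S24/H17_Theta.lean` with `(K, ι) := (ℂ, id)`:
the ring hom `ThetaC` from `AC N = ℂ[j_d : d ∣ N] ⊆ FC N` to holomorphic functions on `ℍ`,
where `FC N = laurentBaseChange ℂ (modularFunctionFieldFull N)`.
-/

set_option autoImplicit false
noncomputable section
namespace Fermat.Agent.S29.H25
open UpperHalfPlane ModularCurve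
open Fermat.Agent.S24
open Fermat.Agent.S24.H17 (IsQSum isQSum_J mulD qParam_mulD mdiff_comp_mulD Gamma0_le_of_dvd
  J_mulD_smul mdiff_SL_smul conj_T_pow_mem_Gamma0 tendsto_qParam_mul_J mulD_one)
open scoped MatrixGroups Manifold
local notation "𝕢" => Function.Periodic.qParam

/-- The function field of `X₀(N)` over `ℂ`, as a type. -/
abbrev FC (N : ℕ) [NeZero N] : Type := ↥(laurentBaseChange ℂ (modularFunctionFieldFull N))

/-- `j(q^d)` with coefficients in `ℂ`, as an element of `FC N` (for `d ∣ N`). -/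
def jdC (N : ℕ) [NeZero N] (d : ℕ) [NeZero d] (hd : d ∣ N) : FC N :=
  ⟨coeffEmb ℂ (qExpand ℚ d jq),
    coeffEmb_mem_laurentBaseChange ℂ (jqd_mem_full N hd)⟩

/-- `j(q)` as an element of `FC N`. -/
def jC (N : ℕ) [NeZero N] : FC N :=
  ⟨coeffEmb ℂ jq, coeffEmb_mem_laurentBaseChange ℂ (by
    have h := jqd_mem_full N (one_dvd N)
    rwa [qExpand_one_apply] at h)⟩

variable (N : ℕ) [NeZero N]

/-- The generators `j(q^d)`, `d ∣ N`. -/
def gensC : Set (FC N) := {x | ∃ (d : ℕ) (_ : NeZero d) (hd : d ∣ N), x = jdC N d hd}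

/-- `A = ℂ[j_d : d ∣ N]`. -/
def AC : Subalgebra ℂ (FC N) := Algebra.adjoin ℂ (gensC N)

/-- Evaluation of a Laurent series with `ℂ`-coefficients at `q = exp (2πiτ)`. -/
def evalC (x : LaurentSeries ℂ) (τ : ℍ) : ℂ :=
  ∑' n : ℤ, x.coeff n * 𝕢 1 (τ : ℂ) ^ n

/-- The function on `ℍ` attached to an element of `FC N` (meaningful on `AC N`). -/
def ThetaC (f : FC N) : ℍ → ℂ := evalC (f : LaurentSeries ℂ)

/-- the property carried through the induction. -/
def GoodC (x : LaurentSeries ℂ) : Prop :=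
  ∃ g : ℍ → ℂ, MDiff g ∧ IsQSum x g

theorem coe_jdC (d : ℕ) [NeZero d] (hd : d ∣ N) :
    (jdC N d hd : LaurentSeries ℂ) = qExpand ℂ d (coeffMap (algebraMap ℚ ℂ) jq) := by
  show coeffEmb ℂ (qExpand ℚ d jq) = _
  rw [coeffEmb, ModularCurve.coeffMap_qExpand]

theorem isQSum_jdC (d : ℕ) [NeZero d] (hd : d ∣ N) :
    IsQSum (jdC N d hd : LaurentSeries ℂ) (fun τ => H28.J (mulD d τ)) := by
  rw [coe_jdC]
  exact isQSum_J.scale d

theorem coe_algebraMap_FC (c : ℂ) :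
    ((algebraMap ℂ (FC N) c : FC N) : LaurentSeries ℂ) = HahnSeries.single 0 c := by
  rw [← algebraMap_laurentSeries_eq_single]
  rfl

theorem goodC_of_mem_AC {f : FC N} (hf : f ∈ AC N) : GoodC (f : LaurentSeries ℂ) := by
  induction hf using Algebra.adjoin_induction with
  | mem x hx =>
    obtain ⟨d, hd0, hd, rfl⟩ := hx
    exact ⟨_, mdiff_comp_mulD H28.J_mdiff d, isQSum_jdC N d hd⟩
  | algebraMap c =>
    refine ⟨fun _ => c, mdifferentiable_const, ?_⟩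
    rw [coe_algebraMap_FC]
    exact IsQSum.single_zero _
  | add x y _ _ hx hy =>
    obtain ⟨g, hg, hg'⟩ := hx
    obtain ⟨k, hk, hk'⟩ := hy
    refine ⟨g + k, hg.add hk, ?_⟩
    have : ((x + y : FC N) : LaurentSeries ℂ) = (x : LaurentSeries ℂ) + y := rfl
    rw [this]
    exact hg'.add hk'
  | mul x y _ _ hx hy =>
    obtain ⟨g, hg, hg'⟩ := hx
    obtain ⟨k, hk, hk'⟩ := hy
    refine ⟨g * k, hg.mul hk, ?_⟩
    have : ((x * y : FC N) : LaurentSeries ℂ) = (x : LaurentSeries ℂ) * y := rfl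
    rw [this]
    exact hg'.mul hk'

theorem isQSum_ThetaC_of_goodC {f : FC N} (h : GoodC (f : LaurentSeries ℂ)) :
    MDiff (ThetaC N f) ∧ IsQSum (f : LaurentSeries ℂ) (ThetaC N f) := by
  obtain ⟨g, hg, hg'⟩ := h
  have : ThetaC N f = g := by
    funext τ
    exact (hg'.eq_tsum τ).symm
  rw [this]
  exact ⟨hg, hg'⟩

theorem isQSum_ThetaC {f : FC N} (hf : f ∈ AC N) :
    IsQSum (f : LaurentSeries ℂ) (ThetaC N f) :=
  (isQSum_ThetaC_of_goodC N (goodC_of_mem_AC N hf)).2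

theorem jdC_mem_AC (d : ℕ) [NeZero d] (hd : d ∣ N) : jdC N d hd ∈ AC N :=
  Algebra.subset_adjoin ⟨d, ‹_›, hd, rfl⟩

theorem jC_eq_jdC : jC N = jdC N 1 (one_dvd N) := by
  apply Subtype.ext
  simp only [jC, jdC]
  rw [qExpand_one_apply]

theorem jC_mem_AC : jC N ∈ AC N := by
  rw [jC_eq_jdC]; exact jdC_mem_AC N 1 _

/-- `Θ f` is given by the convergent `q`-series of `f`. -/
theorem ThetaC_hasSum {f : FC N} (hf : f ∈ AC N) (τ : ℍ) :
    HasSum (fun n : ℤ => (f : LaurentSeries ℂ).coeff n * 𝕢 1 (τ : ℂ) ^ n)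
      (ThetaC N f τ) := isQSum_ThetaC N hf τ

theorem ThetaC_mdiff {f : FC N} (hf : f ∈ AC N) : MDiff (ThetaC N f) :=
  (isQSum_ThetaC_of_goodC N (goodC_of_mem_AC N hf)).1

theorem ThetaC_algebraMap (c : ℂ) : ThetaC N (algebraMap ℂ (FC N) c) = fun _ => c := by
  have h1 := isQSum_ThetaC N (Subalgebra.algebraMap_mem (AC N) c)
  rw [coe_algebraMap_FC] at h1
  exact h1.unique (IsQSum.single_zero _)

theorem ThetaC_zero : ThetaC N 0 = 0 := by
  have := ThetaC_algebraMap N 0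
  rw [map_zero] at this
  exact this

theorem ThetaC_one : ThetaC N 1 = 1 := by
  have := ThetaC_algebraMap N 1
  rw [map_one] at this
  exact this

theorem ThetaC_add {f g : FC N} (hf : f ∈ AC N) (hg : g ∈ AC N) :
    ThetaC N (f + g) = ThetaC N f + ThetaC N g := by
  have h1 := isQSum_ThetaC N (add_mem hf hg)
  have h2 := (isQSum_ThetaC N hf).add (isQSum_ThetaC N hg)
  have : ((f + g : FC N) : LaurentSeries ℂ) = (f : LaurentSeries ℂ) + g := rfl
  rw [this] at h1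
  exact h1.unique h2

theorem ThetaC_mul {f g : FC N} (hf : f ∈ AC N) (hg : g ∈ AC N) :
    ThetaC N (f * g) = ThetaC N f * ThetaC N g := by
  have h1 := isQSum_ThetaC N (mul_mem hf hg)
  have h2 := (isQSum_ThetaC N hf).mul (isQSum_ThetaC N hg)
  have : ((f * g : FC N) : LaurentSeries ℂ) = (f : LaurentSeries ℂ) * g := rfl
  rw [this] at h1
  exact h1.unique h2

/-- `Θ` as a ring hom on `A`. -/
def ThetaCHom : AC N →+* (ℍ → ℂ) where
  toFun f := ThetaC N f.1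
  map_one' := ThetaC_one N
  map_mul' f g := ThetaC_mul N f.2 g.2
  map_zero' := ThetaC_zero N
  map_add' f g := ThetaC_add N f.2 g.2

theorem ThetaCHom_apply (f : AC N) : ThetaCHom N f = ThetaC N f.1 := rfl

theorem ThetaC_jdC (d : ℕ) [NeZero d] (hd : d ∣ N) (τ : ℍ) :
    ThetaC N (jdC N d hd) τ = H28.J (H15.aff d 0 1 (Nat.pos_of_ne_zero (NeZero.ne d)) one_pos τ) :=
  congrFun ((isQSum_ThetaC N (jdC_mem_AC N d hd)).unique (isQSum_jdC N d hd)) τ

theorem ThetaC_jC : ThetaC N (jC N) = H28.J := by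
  funext τ
  rw [jC_eq_jdC, ThetaC_jdC]
  exact congrArg H28.J (mulD_one τ)

/-- injectivity (uniqueness of `q`-coefficients). -/
theorem ThetaC_eq_zero {f : FC N} (hf : f ∈ AC N) (h : ThetaC N f = 0) : f = 0 := by
  have h1 := isQSum_ThetaC N hf
  rw [h] at h1
  have h2 := IsQSum.eq_zero h1
  have h3 : (f : LaurentSeries ℂ) = 0 := h2
  exact Subtype.ext h3

theorem ThetaCHom_injective : Function.Injective (ThetaCHom N) := by
  rw [injective_iff_map_eq_zero]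
  intro f hf
  exact Subtype.ext (ThetaC_eq_zero N f.2 hf)

/-- `Γ₀(N)`-invariance. -/
theorem ThetaC_smul {f : FC N} (hf : f ∈ AC N) {g : SL(2, ℤ)}
    (hg : g ∈ CongruenceSubgroup.Gamma0 N) (τ : ℍ) : ThetaC N f (g • τ) = ThetaC N f τ := by
  induction hf using Algebra.adjoin_induction with
  | mem x hx =>
    obtain ⟨d, hd0, hd, rfl⟩ := hx
    rw [ThetaC_jdC, ThetaC_jdC]
    exact J_mulD_smul d (Gamma0_le_of_dvd N hd hg) τ
  | algebraMap c => rw [ThetaC_algebraMap]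
  | add x y hx hy hx' hy' =>
    rw [ThetaC_add N hx hy, Pi.add_apply, Pi.add_apply, hx', hy']
  | mul x y hx hy hx' hy' =>
    rw [ThetaC_mul N hx hy, Pi.mul_apply, Pi.mul_apply, hx', hy']

/-- The conjugate by `γ`: `τ ↦ Θ f (γ⁻¹ • τ)` (C2). -/
def thetaConjC (γ : SL(2, ℤ)) (f : FC N) : ℍ → ℂ := fun τ => ThetaC N f (γ⁻¹ • τ)

/-- The conjugate attached to a coset `x = γ Γ₀(N)` (C2). -/
def thetaXC (x : H24.XN N) (f : FC N) : ℍ → ℂ := thetaConjC N (Quotient.out x) f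

/-! ### conjugates (proofs by helper28, from the T3-section statements above) -/

theorem thetaConjC_apply (γ : SL(2, ℤ)) (f : FC N) (τ : ℍ) :
    thetaConjC N γ f τ = ThetaC N f (γ⁻¹ • τ) := rfl

theorem thetaConjC_one (f : FC N) : thetaConjC N 1 f = ThetaC N f := by
  funext τ; simp [thetaConjC]

theorem thetaConjC_mul_right {f : FC N} (hf : f ∈ AC N) (γ : SL(2, ℤ)) {g : SL(2, ℤ)}
    (hg : g ∈ CongruenceSubgroup.Gamma0 N) : thetaConjC N (γ * g) f = thetaConjC N γ f := by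
  funext τ
  simp only [thetaConjC_apply]
  rw [mul_inv_rev, mul_smul]
  exact ThetaC_smul N hf (inv_mem hg) _

theorem thetaXC_mk {f : FC N} (hf : f ∈ AC N) (γ : SL(2, ℤ)) :
    thetaXC N (QuotientGroup.mk γ : H24.XN N) f = thetaConjC N γ f := by
  obtain ⟨h, hh⟩ := QuotientGroup.mk_out_eq_mul (CongruenceSubgroup.Gamma0 N) γ
  unfold thetaXC
  rw [hh]
  exact thetaConjC_mul_right N hf γ h.2

theorem thetaXC_smul {f : FC N} (hf : f ∈ AC N) (g : SL(2, ℤ)) (x : H24.XN N) (τ : ℍ) :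
    thetaXC N x f (g⁻¹ • τ) = thetaXC N (g • x) f τ := by
  obtain ⟨γ₀, rfl⟩ := QuotientGroup.mk_surjective x
  have h2 : g • (QuotientGroup.mk γ₀ : H24.XN N) = (QuotientGroup.mk (g * γ₀) : H24.XN N) := rfl
  rw [h2, thetaXC_mk N hf, thetaXC_mk N hf]
  simp only [thetaConjC_apply]
  rw [mul_inv_rev, mul_smul]

/-- the conjugates as ring homs on `A`. -/
def thetaXCHom (x : H24.XN N) : AC N →+* (ℍ → ℂ) where
  toFun f := thetaXC N x f.1
  map_one' := by funext τ; simp [thetaXC, thetaConjC, ThetaC_one]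
  map_mul' f g := by funext τ; simp [thetaXC, thetaConjC, ThetaC_mul N f.2 g.2]
  map_zero' := by funext τ; simp [thetaXC, thetaConjC, ThetaC_zero]
  map_add' f g := by funext τ; simp [thetaXC, thetaConjC, ThetaC_add N f.2 g.2]

theorem thetaXCHom_apply (x : H24.XN N) (f : AC N) : thetaXCHom N x f = thetaXC N x f.1 := rfl

theorem thetaXCHom_injective (x : H24.XN N) : Function.Injective (thetaXCHom N x) := by
  rw [injective_iff_map_eq_zero]
  intro f hf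
  have h1 : ThetaC N f.1 = 0 := by
    funext τ
    have := congr_fun hf ((Quotient.out x) • τ)
    simp only [thetaXCHom_apply, thetaXC, thetaConjC_apply, inv_smul_smul] at this
    simpa using this
  exact Subtype.ext (ThetaC_eq_zero N f.2 h1)

theorem thetaConjC_mdiff {f : FC N} (hf : f ∈ AC N) (γ : SL(2, ℤ)) : MDiff (thetaConjC N γ f) :=
  (ThetaC_mdiff N hf).comp (mdiff_SL_smul γ⁻¹)

theorem thetaConjC_algebraMap (γ : SL(2, ℤ)) (c : ℂ) :
    thetaConjC N γ (algebraMap ℂ (FC N) c) = fun _ => c := by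
  funext τ
  rw [thetaConjC_apply, ThetaC_algebraMap]

theorem thetaConjC_jC (γ : SL(2, ℤ)) : thetaConjC N γ (jC N) = H28.J := by
  funext τ
  rw [thetaConjC_apply, ThetaC_jC, H28.J_smul]

theorem adjoin_jBar_le : Algebra.adjoin ℂ {jC N} ≤ AC N :=
  Algebra.adjoin_le (by
    intro x hx
    rw [Set.mem_singleton_iff] at hx
    rw [hx]
    exact jC_mem_AC N)

theorem thetaConjC_of_mem_adjoin_jC {c : FC N} (hc : c ∈ Algebra.adjoin ℂ {jC N})
    (γ : SL(2, ℤ)) : thetaConjC N γ c = ThetaC N c := by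
  induction hc using Algebra.adjoin_induction with
  | mem x hx =>
    rw [Set.mem_singleton_iff] at hx
    rw [hx, thetaConjC_jC, ThetaC_jC]
  | algebraMap r => rw [thetaConjC_algebraMap, ThetaC_algebraMap]
  | add x y hx hy ihx ihy =>
    have hxA := adjoin_jBar_le N hx
    have hyA := adjoin_jBar_le N hy
    funext τ
    have e1 := congr_fun ihx τ
    have e2 := congr_fun ihy τ
    rw [thetaConjC_apply] at e1 e2 ⊢
    rw [ThetaC_add N hxA hyA, Pi.add_apply, Pi.add_apply, e1, e2]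
  | mul x y hx hy ihx ihy =>
    have hxA := adjoin_jBar_le N hx
    have hyA := adjoin_jBar_le N hy
    funext τ
    have e1 := congr_fun ihx τ
    have e2 := congr_fun ihy τ
    rw [thetaConjC_apply] at e1 e2 ⊢
    rw [ThetaC_mul N hxA hyA, Pi.mul_apply, Pi.mul_apply, e1, e2]

theorem thetaConjC_vadd {f : FC N} (hf : f ∈ AC N) (γ : SL(2, ℤ)) (τ : ℍ) :
    thetaConjC N γ f ((N : ℝ) +ᵥ τ) = thetaConjC N γ f τ := by
  rw [thetaConjC_apply, thetaConjC_apply]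
  have h1 : ((N : ℝ) +ᵥ τ) = ModularGroup.T ^ (N : ℤ) • τ := by
    rw [UpperHalfPlane.modular_T_zpow_smul]; simp
  rw [h1]
  have h2 : γ⁻¹ • (ModularGroup.T ^ (N : ℤ) • τ) =
      (γ⁻¹ * ModularGroup.T ^ (N : ℤ) * γ) • (γ⁻¹ • τ) := by
    simp only [mul_smul, smul_inv_smul]
  rw [h2]
  exact ThetaC_smul N hf (conj_T_pow_mem_Gamma0 N γ) _

theorem thetaConjC_jdC (γ : SL(2, ℤ)) (d : ℕ) [NeZero d] (hd : d ∣ N) (τ : ℍ) :
    thetaConjC N γ (jdC N d hd) τ =
      H28.J (H15.aff d 0 1 (Nat.pos_of_ne_zero (NeZero.ne d)) one_pos (γ⁻¹ • τ)) := by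
  rw [thetaConjC_apply, ThetaC_jdC]

theorem thetaConjC_growth_jdC (γ : SL(2, ℤ)) (d : ℕ) [NeZero d] (hd : d ∣ N) :
    ∃ (C : ℝ) (M : ℕ), 0 ≤ C ∧ ∀ τ : ℍ, 1 ≤ τ.im →
      ‖thetaConjC N γ (jdC N d hd) τ‖ ≤ C * Real.exp (2 * Real.pi * M * τ.im) := by
  have hd0 : 0 < d := Nat.pos_of_ne_zero (NeZero.ne d)
  have hd0' : (0 : ℝ) < d := by exact_mod_cast hd0
  obtain ⟨C, hC, hbd⟩ := H28.exists_norm_J_le (c := 1 / (d : ℝ)) (by positivity)
  refine ⟨C, d, hC, fun τ hτ => ?_⟩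
  rw [thetaConjC_jdC]
  have hN : 0 < N := Nat.pos_of_ne_zero (NeZero.ne N)
  refine H15.norm_conj_smul_le H28.J H28.J_smul N d hN hd γ⁻¹ (1 / (d : ℝ)) C (by positivity) hC
    hbd τ ?_
  rw [one_div, inv_mul_cancel₀ hd0'.ne']
  exact hτ

theorem thetaConjC_growth_aux {f : FC N} (hf : f ∈ AC N) (γ : SL(2, ℤ)) :
    ∃ (C : ℝ) (M : ℕ), 0 ≤ C ∧ ∀ τ : ℍ, 1 ≤ τ.im →
      ‖thetaConjC N γ f τ‖ ≤ C * Real.exp (2 * Real.pi * M * τ.im) := by
  unfold AC at hf
  induction hf using Algebra.adjoin_induction with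
  | mem x hx =>
    obtain ⟨d, hd0, hd, rfl⟩ := hx
    exact thetaConjC_growth_jdC N γ d hd
  | algebraMap r =>
    refine ⟨‖r‖, 0, norm_nonneg _, fun τ _ => ?_⟩
    rw [thetaConjC_algebraMap]
    simp
  | add x y hx hy ihx ihy =>
    obtain ⟨C₁, M₁, hC₁, h₁⟩ := ihx
    obtain ⟨C₂, M₂, hC₂, h₂⟩ := ihy
    refine ⟨C₁ + C₂, max M₁ M₂, add_nonneg hC₁ hC₂, fun τ hτ => ?_⟩
    have e : thetaConjC N γ (x + y) τ = thetaConjC N γ x τ + thetaConjC N γ y τ := by
      simp only [thetaConjC_apply]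
      rw [ThetaC_add N hx hy, Pi.add_apply]
    rw [e]
    have hπ : 0 ≤ 2 * Real.pi * τ.im := by
      have := Real.pi_pos
      have := τ.im_pos
      positivity
    have m1 : Real.exp (2 * Real.pi * M₁ * τ.im) ≤
        Real.exp (2 * Real.pi * (max M₁ M₂ : ℕ) * τ.im) := by
      apply Real.exp_le_exp.mpr
      have : (M₁ : ℝ) ≤ (max M₁ M₂ : ℕ) := by exact_mod_cast le_max_left _ _
      nlinarith
    have m2 : Real.exp (2 * Real.pi * M₂ * τ.im) ≤
        Real.exp (2 * Real.pi * (max M₁ M₂ : ℕ) * τ.im) := by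
      apply Real.exp_le_exp.mpr
      have : (M₂ : ℝ) ≤ (max M₁ M₂ : ℕ) := by exact_mod_cast le_max_right _ _
      nlinarith
    calc ‖thetaConjC N γ x τ + thetaConjC N γ y τ‖
        ≤ ‖thetaConjC N γ x τ‖ + ‖thetaConjC N γ y τ‖ := norm_add_le _ _
      _ ≤ C₁ * Real.exp (2 * Real.pi * M₁ * τ.im) + C₂ * Real.exp (2 * Real.pi * M₂ * τ.im) :=
          add_le_add (h₁ τ hτ) (h₂ τ hτ)
      _ ≤ C₁ * Real.exp (2 * Real.pi * (max M₁ M₂ : ℕ) * τ.im) +
          C₂ * Real.exp (2 * Real.pi * (max M₁ M₂ : ℕ) * τ.im) :=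
          add_le_add (mul_le_mul_of_nonneg_left m1 hC₁) (mul_le_mul_of_nonneg_left m2 hC₂)
      _ = (C₁ + C₂) * Real.exp (2 * Real.pi * (max M₁ M₂ : ℕ) * τ.im) := by ring
  | mul x y hx hy ihx ihy =>
    obtain ⟨C₁, M₁, hC₁, h₁⟩ := ihx
    obtain ⟨C₂, M₂, hC₂, h₂⟩ := ihy
    refine ⟨C₁ * C₂, M₁ + M₂, mul_nonneg hC₁ hC₂, fun τ hτ => ?_⟩
    have e : thetaConjC N γ (x * y) τ = thetaConjC N γ x τ * thetaConjC N γ y τ := by
      simp only [thetaConjC_apply]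
      rw [ThetaC_mul N hx hy, Pi.mul_apply]
    rw [e, norm_mul]
    have hexp : Real.exp (2 * Real.pi * ((M₁ + M₂ : ℕ) : ℝ) * τ.im) =
        Real.exp (2 * Real.pi * M₁ * τ.im) * Real.exp (2 * Real.pi * M₂ * τ.im) := by
      rw [← Real.exp_add]
      congr 1
      push_cast
      ring
    rw [hexp]
    calc ‖thetaConjC N γ x τ‖ * ‖thetaConjC N γ y τ‖
        ≤ (C₁ * Real.exp (2 * Real.pi * M₁ * τ.im)) * (C₂ * Real.exp (2 * Real.pi * M₂ * τ.im)) :=
          mul_le_mul (h₁ τ hτ) (h₂ τ hτ) (norm_nonneg _)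
            (mul_nonneg hC₁ (Real.exp_pos _).le)
      _ = _ := by ring

theorem thetaConjC_growth {f : FC N} (hf : f ∈ AC N) (γ : SL(2, ℤ)) :
    ∃ (C : ℝ) (M : ℕ), ∀ τ : ℍ, 1 ≤ τ.im →
      ‖thetaConjC N γ f τ‖ ≤ C * Real.exp (2 * Real.pi * M * τ.im) := by
  obtain ⟨C, M, -, h⟩ := thetaConjC_growth_aux N hf γ
  exact ⟨C, M, h⟩

theorem thetaConjC_jdC_eq_iff (γ₁ γ₂ : SL(2, ℤ)) :
    thetaConjC N γ₁ (jdC N N dvd_rfl) = thetaConjC N γ₂ (jdC N N dvd_rfl) ↔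
      γ₁⁻¹ * γ₂ ∈ CongruenceSubgroup.Gamma0 N := by
  have hN : 0 < N := Nat.pos_of_ne_zero (NeZero.ne N)
  have key := H15.conj_eq_iff_mem_Gamma0 H28.J H28.J_smul tendsto_qParam_mul_J N hN γ₁⁻¹ γ₂⁻¹
  rw [inv_inv] at key
  rw [← key]
  constructor
  · intro h τ
    have := congr_fun h τ
    rwa [thetaConjC_jdC, thetaConjC_jdC] at this
  · intro h
    funext τ
    rw [thetaConjC_jdC, thetaConjC_jdC]
    exact h τ

theorem thetaXC_jdC_injective :
    Function.Injective (fun x : H24.XN N => thetaXC N x (jdC N N dvd_rfl)) := by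
  intro x y hxy
  obtain ⟨γ₁, rfl⟩ := QuotientGroup.mk_surjective x
  obtain ⟨γ₂, rfl⟩ := QuotientGroup.mk_surjective y
  simp only at hxy
  rw [thetaXC_mk N (jdC_mem_AC N N dvd_rfl), thetaXC_mk N (jdC_mem_AC N N dvd_rfl),
    thetaConjC_jdC_eq_iff] at hxy
  exact QuotientGroup.eq.mpr hxy

end Fermat.Agent.S29.H25
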