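import Fermat.Agent.S29.H25_Theta
import Fermat.Agent.S24.H40_Generation
import Fermat.Agent.S24.H40_Transcendental
import Fermat.Agent.S24.H81_Emb

/-!
S29 / E0-DICT (helper25), part (D0b): `FC N` is the fraction field of `AC N = ℂ[j_d : d ∣ N]`,
and the embedding `thetaC N : FC N →+* Mer` into the field of meromorphic functions on `ℍ`
(`Mer = FractionRing Hol`, from `S24.H81`).
-/

set_option autoImplicit false
noncomputable section
namespace Fermat.Agent.S29.H25
open UpperHalfPlane ModularCurve IntermediateField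
open Fermat.Agent.S24
open Fermat.Agent.S24.H81 (Hol Mer)
open scoped MatrixGroups Manifold

variable (N : ℕ) [NeZero N]

theorem val_image_gensC :
    (Subtype.val '' gensC N : Set (LaurentSeries ℂ))
      = ⇑(coeffEmb ℂ) '' divisorExpansions N := by
  ext x
  constructor
  · rintro ⟨y, ⟨d, hne, hd, rfl⟩, rfl⟩
    exact ⟨qExpand ℚ d jq, ⟨d, hne, hd, rfl⟩, rfl⟩
  · rintro ⟨y, ⟨d, hne, hd, rfl⟩, rfl⟩
    exact ⟨@jdC N _ d hne hd, ⟨d, hne, hd, rfl⟩, rfl⟩

/-- (GEN) `FC N` is generated over `ℂ` by the `j(q^d)`, `d ∣ N`. -/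
theorem adjoin_gensC_eq_top : IntermediateField.adjoin ℂ (gensC N) = ⊤ := by
  apply IntermediateField.lift_injective (laurentBaseChange ℂ (modularFunctionFieldFull N))
  rw [lift_adjoin, lift_top, val_image_gensC]
  rw [modularFunctionFieldFull, H40.laurentBaseChange_adjoin]

/-- Every element of `FC N` is a quotient of two elements of `AC N`. -/
theorem exists_div_AC (f : FC N) : ∃ a ∈ AC N, ∃ b ∈ AC N, b ≠ 0 ∧ f = a / b := by
  have hf : f ∈ IntermediateField.adjoin ℂ (gensC N) := by
    rw [adjoin_gensC_eq_top]; exact IntermediateField.mem_top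
  obtain ⟨r, hr, s, hs, rfl⟩ := mem_adjoin_iff_div.mp hf
  by_cases h0 : s = 0
  · refine ⟨0, zero_mem _, 1, one_mem _, one_ne_zero, ?_⟩
    rw [h0, div_zero, zero_div]
  · exact ⟨r, hr, s, hs, h0, rfl⟩

/-- The generating set is finite. -/
theorem finite_gensC : (gensC N).Finite := by
  have : gensC N ⊆ Set.range (fun d : N.divisors =>
      @jdC N _ d.1 ⟨(Nat.pos_of_mem_divisors d.2).ne'⟩ (Nat.dvd_of_mem_divisors d.2)) := by
    rintro _ ⟨d, hne, hd, rfl⟩
    exact ⟨⟨d, Nat.mem_divisors.mpr ⟨hd, NeZero.ne N⟩⟩, rfl⟩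
  exact (Set.finite_range _).subset this

instance isFractionRing_AC : IsFractionRing (AC N) (FC N) :=
  H81.isFractionRing_of_forall_div (AC N) (exists_div_AC N)

/-- `jC N` is transcendental over `ℂ`. -/
theorem transcendental_jC : Transcendental ℂ (jC N) := by
  intro h
  apply H40.transcendental_coeffEmb_jq ℂ
  have := h.algHom (laurentBaseChange ℂ (modularFunctionFieldFull N)).val
  exact this

/-- `ThetaC` on `AC N`, with values in the ring `Hol` of holomorphic functions. -/
def thetaHolC : AC N →+* Hol :=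
  (ThetaCHom N).codRestrict Hol (fun f => ThetaC_mdiff N f.2)

@[simp]
theorem coe_thetaHolC (f : AC N) : ((thetaHolC N f : Hol) : ℍ → ℂ) = ThetaC N f.1 := rfl

theorem thetaHolC_injective : Function.Injective (thetaHolC N) := by
  intro f g h
  exact ThetaCHom_injective N (congrArg Subtype.val h)

/-- `ThetaC` on `AC N`, with values in `Mer`. -/
def thetaMerC : AC N →+* Mer := (algebraMap Hol Mer).comp (thetaHolC N)

theorem thetaMerC_injective : Function.Injective (thetaMerC N) :=
  (IsFractionRing.injective Hol Mer).comp (thetaHolC_injective N)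

/-- **(D0)** the embedding of the function field of `X₀(N)` over `ℂ` into the field of
meromorphic functions on the upper half plane. -/
def thetaC : FC N →+* Mer := IsFractionRing.lift (thetaMerC_injective N)

theorem thetaC_coe (f : AC N) : thetaC N (f : FC N) = algebraMap Hol Mer (thetaHolC N f) :=
  IsFractionRing.lift_algebraMap (thetaMerC_injective N) f

theorem thetaC_injective : Function.Injective (thetaC N) := (thetaC N).injective

theorem thetaC_of_mem {f : FC N} (hf : f ∈ AC N) :
    thetaC N f = algebraMap Hol Mer ⟨ThetaC N f, ThetaC_mdiff N hf⟩ :=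
  thetaC_coe N ⟨f, hf⟩

theorem thetaC_div {a b : FC N} (ha : a ∈ AC N) (hb : b ∈ AC N) :
    thetaC N (a / b) = algebraMap Hol Mer ⟨ThetaC N a, ThetaC_mdiff N ha⟩ /
      algebraMap Hol Mer ⟨ThetaC N b, ThetaC_mdiff N hb⟩ := by
  rw [map_div₀, thetaC_of_mem N ha, thetaC_of_mem N hb]

/-- constants go to constant functions. -/
theorem thetaC_algebraMap (c : ℂ) :
    thetaC N (algebraMap ℂ (FC N) c) = algebraMap Hol Mer ⟨fun _ => c, H81.const_mem_Hol c⟩ := by
  rw [thetaC_of_mem N (Subalgebra.algebraMap_mem (AC N) c)]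
  congr 1
  exact Subtype.ext (ThetaC_algebraMap N c)

/-- `j(q^d) ↦ (τ ↦ J (d τ))`. -/
theorem thetaC_jdC (d : ℕ) [NeZero d] (hd : d ∣ N) :
    thetaC N (jdC N d hd) = algebraMap Hol Mer
      ⟨fun τ => H28.J (H17.mulD d τ), H17.mdiff_comp_mulD H28.J_mdiff d⟩ := by
  rw [thetaC_of_mem N (jdC_mem_AC N d hd)]
  congr 1
  exact Subtype.ext (funext fun τ => ThetaC_jdC N d hd τ)

/-- `j ↦ J`. -/
theorem thetaC_jC : thetaC N (jC N) = algebraMap Hol Mer ⟨H28.J, H28.J_mdiff⟩ := by
  rw [thetaC_of_mem N (jC_mem_AC N)]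
  congr 1
  exact Subtype.ext (ThetaC_jC N)

end Fermat.Agent.S29.H25
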