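import Mathlib
import Fermat.Prelude.Def_ModularCurve_LaurentCoeff

/-!
# S29 / base change of coefficient fields for `laurentBaseChange` (helper28)

For fields `K ⊆ K'` of characteristic zero and `F₀ ⊆ ℚ((q))`:

* `coeffMap (algebraMap K K')` maps `laurentBaseChange K F₀` into `laurentBaseChange K' F₀`
  (`baseChangeHom`, injective);
* **descent**: a Laurent series with coefficients in `K` whose image lies in
  `laurentBaseChange K' F₀` already lies in `laurentBaseChange K F₀`
  (`mem_laurentBaseChange_of_coeffMap_mem`).

The descent is proved with the `K((q))`-linear "coordinate" maps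
`K'((q)) → K((q))` induced by `K`-linear functionals `K' → K`.
-/

set_option autoImplicit false

noncomputable section

open HahnSeries

namespace Fermat.Agent.S29.H28

open ModularCurve

section Functional

variable {K K' : Type*} [Field K] [Field K'] [Algebra K K']

/-- Coefficientwise application of a `K`-linear functional. -/
def coeffFun (lam : K' →ₗ[K] K) : LaurentSeries K' →+ LaurentSeries K where
  toFun x := x.map lam
  map_zero' := by
    ext k
    simp
  map_add' x y := by
    ext k
    simp

@[simp]
theorem coeffFun_coeff (lam : K' →ₗ[K] K) (x : LaurentSeries K') (k : ℤ) :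
    (coeffFun lam x).coeff k = lam (x.coeff k) :=
  rfl

theorem support_coeffFun_subset (lam : K' →ₗ[K] K) (x : LaurentSeries K') :
    (coeffFun lam x).support ⊆ x.support := by
  intro k hk
  rw [HahnSeries.mem_support] at hk ⊢
  intro h
  apply hk
  rw [coeffFun_coeff, h, map_zero]

theorem support_coeffMap_subset (y : LaurentSeries K) :
    (coeffMap (algebraMap K K') y).support ⊆ y.support := by
  intro k hk
  rw [HahnSeries.mem_support] at hk ⊢
  intro h
  apply hk
  rw [coeffMap_coeff, h, map_zero]

/-- `coeffFun lam` is `K((q))`-linear. -/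
theorem coeffFun_coeffMap_mul (lam : K' →ₗ[K] K) (y : LaurentSeries K) (x : LaurentSeries K') :
    coeffFun lam (coeffMap (algebraMap K K') y * x) = y * coeffFun lam x := by
  ext a
  rw [coeffFun_coeff,
    HahnSeries.coeff_mul_left' (x := coeffMap (algebraMap K K') y) (y := x) y.isPWO_support
      (support_coeffMap_subset y),
    HahnSeries.coeff_mul_right' (x := y) (y := coeffFun lam x) x.isPWO_support
      (support_coeffFun_subset lam x), map_sum]
  refine Finset.sum_congr rfl fun ij _ => ?_
  rw [coeffMap_coeff, coeffFun_coeff, ← Algebra.smul_def, map_smul, smul_eq_mul]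

theorem exists_coeffFun_ne_zero {x : LaurentSeries K'} (hx : x ≠ 0) :
    ∃ lam : K' →ₗ[K] K, coeffFun lam x ≠ 0 := by
  obtain ⟨k, hk⟩ : ∃ k, x.coeff k ≠ 0 := by
    by_contra h
    push Not at h
    exact hx (HahnSeries.ext (funext h))
  obtain ⟨lam, hlam⟩ : ∃ lam : Module.Dual K K', lam (x.coeff k) ≠ 0 := by
    by_contra h
    push Not at h
    exact hk ((Module.forall_dual_apply_eq_zero_iff K (x.coeff k)).mp h)
  refine ⟨lam, fun h0 => hlam ?_⟩
  have := congrArg (fun z : LaurentSeries K => z.coeff k) h0
  simpa using this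

end Functional

section BaseChange

variable (K K' : Type*) [Field K] [Field K'] [Algebra ℚ K] [Algebra ℚ K'] [Algebra K K']
  [IsScalarTower ℚ K K']
variable (F₀ : IntermediateField ℚ (LaurentSeries ℚ))

theorem coeffMap_coeffEmb_algebraMap (z : LaurentSeries ℚ) :
    coeffMap (algebraMap K K') (coeffEmb K z) = coeffEmb K' z := by
  rw [coeffEmb, coeffEmb, coeffMap_coeffMap]
  exact coeffMap_congr (RingHom.ext fun c => (IsScalarTower.algebraMap_apply ℚ K K' c).symm) z

theorem coeffMap_algebraMap_const (c : K) :
    coeffMap (algebraMap K K') (algebraMap K (LaurentSeries K) c)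
      = algebraMap K' (LaurentSeries K') (algebraMap K K' c) := by
  rw [algebraMap_laurentSeries_eq_single, algebraMap_laurentSeries_eq_single, coeffMap_single]

variable {K F₀} in
/-- Base change of coefficients preserves `laurentBaseChange`. -/
theorem coeffMap_mem_laurentBaseChange_of_algebraMap {x : LaurentSeries K}
    (hx : x ∈ laurentBaseChange K F₀) :
    coeffMap (algebraMap K K') x ∈ laurentBaseChange K' F₀ := by
  rw [mem_laurentBaseChange_iff] at hx
  induction hx using Subfield.closure_induction with
  | mem y hy =>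
      rcases hy with ⟨a, rfl⟩ | ⟨z, hz, rfl⟩
      · rw [coeffMap_algebraMap_const]
        exact (laurentBaseChange K' F₀).algebraMap_mem _
      · rw [coeffMap_coeffEmb_algebraMap]
        exact coeffEmb_mem_laurentBaseChange K' hz
  | one => simp
  | add x y _ _ hx hy => simpa using add_mem hx hy
  | neg x _ hx => simpa using neg_mem hx
  | inv x _ hx => simpa using inv_mem hx
  | mul x y _ _ hx hy => simpa using mul_mem hx hy

theorem coeffMap_algebraMap_injective :
    Function.Injective (coeffMap (algebraMap K K') : LaurentSeries K → LaurentSeries K') := by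
  intro x y hxy
  ext k
  have := congrArg (fun z : LaurentSeries K' => z.coeff k) hxy
  simp only [coeffMap_coeff] at this
  exact (algebraMap K K').injective this

/-- The base change ring homomorphism `K · F₀ → K' · F₀`. -/
def baseChangeHom : laurentBaseChange K F₀ →+* laurentBaseChange K' F₀ where
  toFun x := ⟨coeffMap (algebraMap K K') (x : LaurentSeries K),
    coeffMap_mem_laurentBaseChange_of_algebraMap K' x.2⟩
  map_one' := Subtype.ext (map_one (coeffMap (algebraMap K K')))
  map_mul' _ _ := Subtype.ext (map_mul (coeffMap (algebraMap K K')) _ _)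
  map_zero' := Subtype.ext (map_zero (coeffMap (algebraMap K K')))
  map_add' _ _ := Subtype.ext (map_add (coeffMap (algebraMap K K')) _ _)

@[simp]
theorem coe_baseChangeHom (x : laurentBaseChange K F₀) :
    (baseChangeHom K K' F₀ x : LaurentSeries K') = coeffMap (algebraMap K K') (x : LaurentSeries K) :=
  rfl

theorem baseChangeHom_injective : Function.Injective (baseChangeHom K K' F₀) := by
  intro x y hxy
  exact Subtype.ext (coeffMap_algebraMap_injective K K' (congrArg Subtype.val hxy))

theorem baseChangeHom_algebraMap (c : K) :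
    baseChangeHom K K' F₀ (algebraMap K (laurentBaseChange K F₀) c)
      = algebraMap K' (laurentBaseChange K' F₀) (algebraMap K K' c) :=
  Subtype.ext (coeffMap_algebraMap_const K K' c)

/-! ### Descent -/

variable {K K' F₀}

/-- The additive subgroup generated by the products `c * coeffEmb z`, `c ∈ K'`, `z ∈ F₀`. -/
def spanGroup (K' : Type*) [Field K'] [Algebra ℚ K'] (F₀ : IntermediateField ℚ (LaurentSeries ℚ)) :
    AddSubgroup (LaurentSeries K') :=
  AddSubgroup.closure {x | ∃ (c : K') (z : LaurentSeries ℚ), z ∈ F₀ ∧
    x = algebraMap K' (LaurentSeries K') c * coeffEmb K' z}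

theorem mul_mem_spanGroup {u v : LaurentSeries K'} (hu : u ∈ spanGroup K' F₀)
    (hv : v ∈ spanGroup K' F₀) : u * v ∈ spanGroup K' F₀ := by
  induction hu, hv using AddSubgroup.closure_induction₂ with
  | mem x y hx hy =>
    obtain ⟨c, z, hz, rfl⟩ := hx
    obtain ⟨c', z', hz', rfl⟩ := hy
    refine AddSubgroup.subset_closure ⟨c * c', z * z', mul_mem hz hz', ?_⟩
    rw [map_mul, map_mul]
    ring
  | zero_left x _ => rw [zero_mul]; exact zero_mem _
  | zero_right x _ => rw [mul_zero]; exact zero_mem _
  | add_left x y z _ _ _ hx hy => rw [add_mul]; exact add_mem hx hy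
  | add_right x y z _ _ _ hx hy => rw [mul_add]; exact add_mem hx hy
  | neg_left x y _ _ h => rw [neg_mul]; exact neg_mem h
  | neg_right x y _ _ h => rw [mul_neg]; exact neg_mem h

theorem adjoin_le_spanGroup {u : LaurentSeries K'}
    (hu : u ∈ Algebra.adjoin K' (⇑(coeffEmb K') '' (F₀ : Set (LaurentSeries ℚ)))) :
    u ∈ spanGroup K' F₀ := by
  induction hu using Algebra.adjoin_induction with
  | mem x hx =>
    obtain ⟨z, hz, rfl⟩ := hx
    exact AddSubgroup.subset_closure ⟨1, z, hz, by rw [map_one, one_mul]⟩
  | algebraMap c =>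
    exact AddSubgroup.subset_closure ⟨c, 1, one_mem F₀, by rw [map_one, mul_one]⟩
  | add x y _ _ hx hy => exact add_mem hx hy
  | mul x y _ _ hx hy => exact mul_mem_spanGroup hx hy

theorem coeffFun_algebraMap (lam : K' →ₗ[K] K) (c : K') :
    coeffFun lam (algebraMap K' (LaurentSeries K') c)
      = algebraMap K (LaurentSeries K) (lam c) := by
  rw [algebraMap_laurentSeries_eq_single, algebraMap_laurentSeries_eq_single]
  ext k
  rw [coeffFun_coeff]
  rcases eq_or_ne k 0 with rfl | hk
  · rw [HahnSeries.coeff_single_same, HahnSeries.coeff_single_same]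
  · rw [HahnSeries.coeff_single_of_ne hk, HahnSeries.coeff_single_of_ne hk, map_zero]

theorem coeffFun_mem_of_mem_spanGroup (lam : K' →ₗ[K] K) {u : LaurentSeries K'}
    (hu : u ∈ spanGroup K' F₀) :
    coeffFun lam u ∈ laurentBaseChange K F₀ := by
  induction hu using AddSubgroup.closure_induction with
  | mem x hx =>
    obtain ⟨c, z, hz, rfl⟩ := hx
    rw [mul_comm, ← coeffMap_coeffEmb_algebraMap K K', coeffFun_coeffMap_mul, coeffFun_algebraMap]
    exact mul_mem (coeffEmb_mem_laurentBaseChange K hz)
      ((laurentBaseChange K F₀).algebraMap_mem _)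
  | zero => rw [map_zero]; exact zero_mem _
  | add x y _ _ hx hy => rw [map_add]; exact add_mem hx hy
  | neg x _ hx => rw [map_neg]; exact neg_mem hx

/-- **Descent of coefficients.** -/
theorem mem_laurentBaseChange_of_coeffMap_mem {g : LaurentSeries K}
    (hg : coeffMap (algebraMap K K') g ∈ laurentBaseChange K' F₀) :
    g ∈ laurentBaseChange K F₀ := by
  rw [laurentBaseChange, IntermediateField.mem_adjoin_iff_div] at hg
  obtain ⟨r, hr, t, ht, hgrt⟩ := hg
  rcases eq_or_ne t 0 with rfl | ht0
  · rw [div_zero] at hgrt
    have : g = 0 := coeffMap_algebraMap_injective K K' (by rw [hgrt, map_zero])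
    rw [this]
    exact zero_mem _
  have hrt : coeffMap (algebraMap K K') g * t = r := by
    rw [hgrt, div_mul_cancel₀ _ ht0]
  have hr' : r ∈ spanGroup K' F₀ := adjoin_le_spanGroup hr
  have ht' : t ∈ spanGroup K' F₀ := adjoin_le_spanGroup ht
  obtain ⟨lam, hlam⟩ := exists_coeffFun_ne_zero (K := K) ht0
  have h1 : g * coeffFun lam t = coeffFun lam r := by
    rw [← coeffFun_coeffMap_mul, hrt]
  have h2 : g = coeffFun lam r / coeffFun lam t := by
    rw [← h1, mul_div_cancel_right₀ _ hlam]
  rw [h2]
  exact div_mem (coeffFun_mem_of_mem_spanGroup lam hr') (coeffFun_mem_of_mem_spanGroup lam ht')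

/-- Descent, `iff` form. -/
theorem coeffMap_mem_laurentBaseChange_iff {g : LaurentSeries K} :
    coeffMap (algebraMap K K') g ∈ laurentBaseChange K' F₀ ↔ g ∈ laurentBaseChange K F₀ :=
  ⟨mem_laurentBaseChange_of_coeffMap_mem, coeffMap_mem_laurentBaseChange_of_algebraMap K'⟩

/-- An element of `K' · F₀` all of whose coefficients lie in `K` comes from `K · F₀`. -/
theorem exists_baseChangeHom_eq_of_coeff_mem (x : laurentBaseChange K' F₀)
    (hx : ∀ k : ℤ, (x : LaurentSeries K').coeff k ∈ Set.range (algebraMap K K')) :
    ∃ y : laurentBaseChange K F₀, baseChangeHom K K' F₀ y = x := by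
  classical
  choose c hc using hx
  have hsupp : (Function.support c).IsPWO := by
    apply (x : LaurentSeries K').isPWO_support.mono
    intro k hk
    rw [Function.mem_support] at hk
    rw [HahnSeries.mem_support, ← hc k]
    intro h
    exact hk ((algebraMap K K').injective (by rw [h, map_zero]))
  let g : LaurentSeries K := ⟨c, hsupp⟩
  have hg : coeffMap (algebraMap K K') g = (x : LaurentSeries K') := by
    ext k
    rw [coeffMap_coeff]
    exact hc k
  exact ⟨⟨g, mem_laurentBaseChange_of_coeffMap_mem (by rw [hg]; exact x.2)⟩, Subtype.ext hg⟩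

end BaseChange

end Fermat.Agent.S29.H28
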