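import Mathlib
import Fermat.Agent.S29.H28_CoeffDescent
import Fermat.Agent.S29.H62_FixedField

/-!
# S29 / Galois descent of elements of `K' · F₀` to `K · F₀` (helper28)

`K ⊆ K'` algebraically closed fields of characteristic zero.

* an element of `laurentBaseChange K' F₀` fixed by the coefficientwise action of every
  `σ : K' ≃ₐ[K] K'` comes from `laurentBaseChange K F₀`;
* an element which every `σ` multiplies by a constant is a constant multiple of an element
  coming from `laurentBaseChange K F₀` (normalise the leading coefficient).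
-/

set_option autoImplicit false

noncomputable section

open HahnSeries

namespace Fermat.Agent.S29.H28

open ModularCurve

variable {K K' : Type*} [Field K] [Field K'] [Algebra ℚ K] [Algebra ℚ K'] [Algebra K K']
  [IsScalarTower ℚ K K'] [IsAlgClosed K] [IsAlgClosed K']
variable {F₀ : IntermediateField ℚ (LaurentSeries ℚ)}

/-- Elements fixed by all coefficientwise `K`-automorphisms of `K'` descend. -/
theorem exists_baseChangeHom_eq_of_forall_fixed (x : laurentBaseChange K' F₀)
    (h : ∀ σ : K' ≃ₐ[K] K', coeffMap (σ : K' →+* K') (x : LaurentSeries K') = x) :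
    ∃ y : laurentBaseChange K F₀, baseChangeHom K K' F₀ y = x := by
  apply exists_baseChangeHom_eq_of_coeff_mem
  intro k
  apply Fermat.Agent.S29.H62.mem_range_algebraMap_of_forall_fixed
  intro σ
  have := congrArg (fun z : LaurentSeries K' => z.coeff k) (h σ)
  simpa using this

/-- Elements that every coefficientwise automorphism multiplies by a constant are constant
multiples of elements defined over `K`. -/
theorem exists_const_mul_baseChangeHom_of_semiinvariant (x : laurentBaseChange K' F₀)
    (hx : x ≠ 0)
    (h : ∀ σ : K' ≃ₐ[K] K', ∃ c : K',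
      coeffMap (σ : K' →+* K') (x : LaurentSeries K')
        = algebraMap K' (LaurentSeries K') c * (x : LaurentSeries K')) :
    ∃ (c : K') (y : laurentBaseChange K F₀), c ≠ 0 ∧ y ≠ 0 ∧
      x = algebraMap K' (laurentBaseChange K' F₀) c * baseChangeHom K K' F₀ y := by
  have hx' : (x : LaurentSeries K') ≠ 0 := fun h0 => hx (Subtype.ext h0)
  set m := (x : LaurentSeries K').order with hm
  set a := (x : LaurentSeries K').coeff m with ha
  have ha0 : a ≠ 0 := fun h0 => hx' (HahnSeries.coeff_order_eq_zero.mp h0)
  -- the normalised element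
  set g : laurentBaseChange K' F₀ := algebraMap K' (laurentBaseChange K' F₀) a⁻¹ * x with hg
  have hgcoe : (g : LaurentSeries K') = algebraMap K' (LaurentSeries K') a⁻¹ * x := rfl
  have hcoeff : ∀ (c : K') (z : LaurentSeries K') (k : ℤ),
      (algebraMap K' (LaurentSeries K') c * z).coeff k = c * z.coeff k := by
    intro c z k
    rw [algebraMap_laurentSeries_eq_single, HahnSeries.coeff_single_zero_mul]
  have hgm : (g : LaurentSeries K').coeff m = 1 := by
    rw [hgcoe, hcoeff, ← ha, inv_mul_cancel₀ ha0]
  have hfix : ∀ σ : K' ≃ₐ[K] K', coeffMap (σ : K' →+* K') (g : LaurentSeries K') = g := by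
    intro σ
    obtain ⟨c, hc⟩ := h σ
    have h1 : coeffMap (σ : K' →+* K') (g : LaurentSeries K')
        = algebraMap K' (LaurentSeries K') ((σ a)⁻¹ * c * a) * (g : LaurentSeries K') := by
      have hσa : σ a ≠ 0 := (map_ne_zero σ).mpr ha0
      rw [hgcoe, map_mul, hc, coeffMap_algebraMap, ← mul_assoc, ← mul_assoc, ← map_mul,
        ← map_mul]
      congr 2
      rw [RingHom.coe_coe, map_inv₀]
      field_simp
    have h2 : (σ a)⁻¹ * c * a = 1 := by
      have := congrArg (fun z : LaurentSeries K' => z.coeff m) h1
      simp only [coeffMap_coeff, hcoeff, hgm, mul_one, RingHom.coe_coe, map_one] at this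
      exact this.symm
    rw [h1, h2, map_one, one_mul]
  obtain ⟨y, hy⟩ := exists_baseChangeHom_eq_of_forall_fixed g hfix
  have hg0 : g ≠ 0 := by
    intro h0
    have := congrArg (fun z : laurentBaseChange K' F₀ => (z : LaurentSeries K').coeff m) h0
    simp only [hgm] at this
    exact one_ne_zero (this.trans (by simp))
  refine ⟨a, y, ha0, ?_, ?_⟩
  · rintro rfl
    apply hg0
    rw [← hy, map_zero]
  · rw [hy, hg, ← mul_assoc, ← map_mul, mul_inv_cancel₀ ha0, map_one, one_mul]

end Fermat.Agent.S29.H28
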