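import Mathlib
import Fermat.Prelude.Def_HeckeGalois_EichlerShimura

/-!
# `SpecializationExists` implies the two local clauses of `EichlerShimuraDataReduced`

`ModularCurve.SpecializationExists N p J` (the conclusion of the frozen statement S37 for
`J = JZero N`) implies `ModularCurve.UnramifiedOutside N p J` and
`ModularCurve.FrobeniusQuadratic N p J`; hence together with `EigenformSupport` it gives
`EichlerShimuraDataReduced`.  Pure logic: apply `sp` and use injectivity on `p`-power torsion.
-/

set_option autoImplicit false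

namespace Fermat.Agent.S29.H29

open ModularCurve

variable {K L : Type*} [Field K] [Field L] [Algebra K L]
variable {N p : ℕ} {J : Type*} [AddCommGroup J] [Module HeckeAlg J]
  [DistribMulAction (L ≃ₐ[K] L) J] [SMulCommClass (L ≃ₐ[K] L) HeckeAlg J]

omit [SMulCommClass (L ≃ₐ[K] L) HeckeAlg J] in
theorem unramifiedOutside_of_specializationExists
    (h : SpecializationExists (K := K) (L := L) N p J) :
    UnramifiedOutside (K := K) (L := L) N p J := by
  intro ℓ hℓ hℓNp A hA σ hσ x hx
  obtain ⟨J', _, _, sp, F, hsp, -⟩ := h ℓ hℓ hℓNp A hA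
  obtain ⟨n, hn⟩ := hx
  have h0 : σ • x - x = 0 := by
    apply hsp.injective_torsion (σ • x - x) ⟨n, ?_⟩
    · rw [map_sub, hsp.inertia_comm σ hσ x, sub_self]
    · rw [smul_sub, smul_comm (p ^ n) σ x, hn, smul_zero, sub_zero]
  exact sub_eq_zero.mp h0

omit [SMulCommClass (L ≃ₐ[K] L) HeckeAlg J] in
theorem frobeniusQuadratic_of_specializationExists
    (h : SpecializationExists (K := K) (L := L) N p J) :
    FrobeniusQuadratic (K := K) (L := L) N p J := by
  intro ℓ hℓ hℓNp A hA σ hσ x hx
  obtain ⟨J', _, _, sp, F, hsp, hrel⟩ := h ℓ hℓ hℓNp A hA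
  obtain ⟨n, hn⟩ := hx
  apply hsp.injective_torsion _ ⟨n, ?_⟩
  · rw [map_add, map_sub, hsp.hecke_comm, hsp.frobenius_comm σ hσ, hsp.frobenius_comm σ hσ,
      map_nsmul]
    exact hrel (sp x)
  · have e1 : p ^ n • (σ • x) = 0 := by rw [smul_comm, hn, smul_zero]
    have e2 : p ^ n • (σ • σ • x) = 0 := by rw [smul_comm, e1, smul_zero]
    rw [smul_add, smul_sub, e2, smul_comm (p ^ n) (heckeGen ⟨ℓ, hℓ⟩) (σ • x), e1,
      smul_comm (p ^ n) ℓ x, hn]
    simp

omit [SMulCommClass (L ≃ₐ[K] L) HeckeAlg J] in
theorem eichlerShimuraDataReduced_of_specializationExists {IsEig : Ideal HeckeAlg → Prop}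
    (h : SpecializationExists (K := K) (L := L) N p J) (hsup : EigenformSupport p J IsEig) :
    EichlerShimuraDataReduced (K := K) (L := L) N p J IsEig :=
  ⟨unramifiedOutside_of_specializationExists h, frobeniusQuadratic_of_specializationExists h,
    hsup⟩

end Fermat.Agent.S29.H29
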