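import Mathlib
import Fermat.Prelude.Def_GaloisRep_Residual
import Fermat.Prelude.Def_HeckeGalois_EichlerShimura
import Fermat.Agent.S29.H29_Wrapper

/-!
# Residual representations from a Hecke–Galois module (prelude vocabulary)

Let `J` be a module over `ModularCurve.HeckeAlg` with a commuting action of `G_ℚ` (e.g.
`J = J₀(N)(ℚ̄)`), satisfying the prelude's `UnramifiedOutside N p J` and `FrobeniusQuadratic N p J`
(both are consequences of `ModularCurve.SpecializationExists`, i.e. of the Eichler–Shimura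
congruence relation), and let `𝔪` be a maximal ideal of `HeckeAlg` with finite residue field of
characteristic `p` such that `J[𝔪] ≠ 0` and such that the points of `J[𝔪]` have open stabilisers.

Then there is a `ResidualGaloisRep (HeckeAlg ⧸ 𝔪)`, unramified outside `N p`, with Frobenius
characteristic polynomials `X² - T_ℓ X + ℓ`.  NO multiplicity-one statement is needed.
-/

set_option autoImplicit false

namespace Fermat.Agent.S29.H29

local notation "Qb" => AlgebraicClosure ℚ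
local notation "GQ" => (AlgebraicClosure ℚ ≃ₐ[ℚ] AlgebraicClosure ℚ)

open Polynomial ModularCurve

section OrbitSpan

variable {k : Type*} [Field k] {V : Type*} [AddCommGroup V] [Module k V] {G : Type*} [Group G]
  (ρ : G →* Module.End k V) (x₀ : V)

/-- The span of the orbit of `x₀`. -/
def orbitSpan : Submodule k V := Submodule.span k (Set.range fun g : G => ρ g x₀)

lemma mem_orbitSpan_self : x₀ ∈ orbitSpan ρ x₀ :=
  Submodule.subset_span ⟨1, by simp⟩

lemma map_mem_orbitSpan (g : G) {w : V} (hw : w ∈ orbitSpan ρ x₀) : ρ g w ∈ orbitSpan ρ x₀ := by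
  induction hw using Submodule.span_induction with
  | mem x hx =>
    obtain ⟨h, rfl⟩ := hx
    refine Submodule.subset_span ⟨g * h, ?_⟩
    simp only [map_mul, Module.End.mul_apply]
  | zero => rw [map_zero]; exact Submodule.zero_mem _
  | add x y _ _ hx hy => rw [map_add]; exact Submodule.add_mem _ hx hy
  | smul c x _ hx => rw [map_smul]; exact Submodule.smul_mem _ c hx

/-- The representation on the span of the orbit of `x₀`. -/
def orbitSpanRep : G →* Module.End k (orbitSpan ρ x₀) where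
  toFun g := (ρ g).restrict fun _ hw => map_mem_orbitSpan ρ x₀ g hw
  map_one' := by
    ext w
    simp
  map_mul' g h := by
    ext w
    simp

@[simp] lemma coe_orbitSpanRep_apply (g : G) (w : orbitSpan ρ x₀) :
    ((orbitSpanRep ρ x₀ g w : orbitSpan ρ x₀) : V) = ρ g (w : V) := rfl

lemma nontrivial_orbitSpan (hx₀ : x₀ ≠ 0) : Nontrivial (orbitSpan ρ x₀) :=
  ⟨⟨⟨x₀, mem_orbitSpan_self ρ x₀⟩, 0, fun h => hx₀ (congrArg Subtype.val h)⟩⟩

lemma finite_orbitSpan (hfin : (Set.range fun g : G => ρ g x₀).Finite) :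
    Module.Finite k (orbitSpan ρ x₀) :=
  Module.Finite.span_of_finite k hfin

/-- If `s` fixes every point of the orbit of `x₀` then it acts trivially on the span. -/
lemma orbitSpanRep_eq_one {s : G} (hs : ∀ g : G, ρ s (ρ g x₀) = ρ g x₀) :
    orbitSpanRep ρ x₀ s = 1 := by
  ext w
  rw [coe_orbitSpanRep_apply, Module.End.one_apply]
  obtain ⟨w, hw⟩ := w
  show ρ s w = w
  induction hw using Submodule.span_induction with
  | mem x hx => obtain ⟨h, rfl⟩ := hx; exact hs h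
  | zero => rw [map_zero]
  | add x y _ _ hx hy => rw [map_add, hx, hy]
  | smul c x _ hx => rw [map_smul, hx]

end OrbitSpan

section Smooth

local instance isAlgebraicQb29 : Algebra.IsAlgebraic ℚ (AlgebraicClosure ℚ) :=
  AlgebraicClosure.isAlgebraic ℚ
local instance isAlgClosureQb29 : IsAlgClosure ℚ (AlgebraicClosure ℚ) :=
  ⟨inferInstance, inferInstance⟩
local instance isGaloisQb29 : IsGalois ℚ (AlgebraicClosure ℚ) := IsSepClosure.isGalois

/-- The orbit of a point with open stabiliser is finite. -/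
lemma finite_range_of_fixingSubgroup {X : Type*} (f : GQ → X) (L : IntermediateField ℚ Qb)
    [FiniteDimensional ℚ L] (hf : ∀ g s : GQ, (∀ y ∈ L, s y = y) → f (g * s) = f g) :
    (Set.range f).Finite := by
  have hfin : Finite (GQ ⧸ L.fixingSubgroup) :=
    Subgroup.quotient_finite_of_isOpen _ L.fixingSubgroup_isOpen
  let f' : GQ ⧸ L.fixingSubgroup → X := Quotient.lift f (by
    intro g g' hgg'
    have h1 : g⁻¹ * g' ∈ L.fixingSubgroup := QuotientGroup.leftRel_apply.mp hgg'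
    rw [IntermediateField.mem_fixingSubgroup_iff] at h1
    have h2 := hf g (g⁻¹ * g') h1
    rw [mul_inv_cancel_left] at h2
    exact h2.symm)
  refine (Set.finite_range f').subset ?_
  rintro _ ⟨g, rfl⟩
  exact ⟨QuotientGroup.mk g, rfl⟩

variable {k₀ : Type} [Field k₀] [Finite k₀] {p : ℕ} [Fact p.Prime] [CharP k₀ p]

/-- **Residual representation from a smooth Galois module of arbitrary size** on which Frobenius
elements satisfy the Eichler–Shimura relations. -/
theorem exists_residualGaloisRep_of_smooth (N : ℕ)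
    {V : Type*} [AddCommGroup V] [Module k₀ V] (ρ : GQ →* Module.End k₀ V)
    (hV : ∃ x : V, x ≠ 0)
    (hsmooth : ∀ x : V, ∃ L : IntermediateField ℚ Qb, FiniteDimensional ℚ L ∧
      ∀ s : GQ, (∀ y ∈ L, s y = y) → ρ s x = x)
    (hunr : ∀ ℓ : ℕ, ℓ.Prime → ¬ ℓ ∣ N * p → ∀ A : ValuationSubring Qb, A.LiesOverPrime ℓ →
      ∀ s ∈ A.inertiaSubgroupIn ℚ, ∀ x : V, ρ s x = x)
    (a : ℕ → k₀)
    (hfrob : ∀ ℓ : ℕ, ℓ.Prime → ¬ ℓ ∣ N * p → ∀ A : ValuationSubring Qb, A.LiesOverPrime ℓ →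
      ∀ s : GQ, A.IsFrobeniusAt s ℓ → ∀ x : V, ρ s (ρ s x) = a ℓ • ρ s x - (ℓ : k₀) • x) :
    ∃ r : ResidualGaloisRep k₀,
      (∀ ℓ : ℕ, ℓ.Prime → ¬ ℓ ∣ N * p → r.IsUnramifiedAt ℓ) ∧
      (∀ ℓ : ℕ, ℓ.Prime → ¬ ℓ ∣ N * p → ∀ A : ValuationSubring Qb, A.LiesOverPrime ℓ →
        ∀ s : GQ, A.IsFrobeniusAt s ℓ →
          LinearMap.charpoly (r.ρ s) = X ^ 2 - C (a ℓ) * X + C (ℓ : k₀)) ∧
      (∃ L : IntermediateField ℚ Qb, FiniteDimensional ℚ L ∧
        ∀ s : GQ, (∀ x ∈ L, s x = x) → r.ρ s = 1) := by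
  classical
  obtain ⟨x₀, hx₀⟩ := hV
  -- the orbit of `x₀` is finite
  obtain ⟨L₀, hL₀fin, hL₀⟩ := hsmooth x₀
  have horb : (Set.range fun g : GQ => ρ g x₀).Finite := by
    refine finite_range_of_fixingSubgroup (fun g : GQ => ρ g x₀) L₀ ?_
    intro g s hs
    show ρ (g * s) x₀ = ρ g x₀
    rw [map_mul, Module.End.mul_apply, hL₀ s hs]
  -- a finite level for the whole orbit
  choose Lx hLxfin hLx using hsmooth
  have : Finite (Set.range fun g : GQ => ρ g x₀) := horb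
  let L : IntermediateField ℚ Qb := ⨆ y : (Set.range fun g : GQ => ρ g x₀), Lx y.1
  have hLfin : FiniteDimensional ℚ L := IntermediateField.finiteDimensional_iSup_of_finite
  have hLtriv : ∀ s : GQ, (∀ y ∈ L, s y = y) → orbitSpanRep ρ x₀ s = 1 := by
    intro s hs
    apply orbitSpanRep_eq_one
    intro g
    refine hLx (ρ g x₀) s fun y hy => hs y ?_
    exact (le_iSup (fun y : (Set.range fun g : GQ => ρ g x₀) => Lx y.1) ⟨ρ g x₀, g, rfl⟩) hy
  have : Nontrivial (orbitSpan ρ x₀) := nontrivial_orbitSpan ρ x₀ hx₀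
  have : Module.Finite k₀ (orbitSpan ρ x₀) := finite_orbitSpan ρ x₀ horb
  obtain ⟨r, hr1, hr2, hr3⟩ := exists_residualGaloisRep_of_frobeniusQuadratic (p := p) N
    (orbitSpanRep ρ x₀) L hLtriv
    (fun ℓ hℓ hℓNp A hA s hs => by
      ext w
      rw [coe_orbitSpanRep_apply, Module.End.one_apply]
      exact hunr ℓ hℓ hℓNp A hA s hs _)
    a
    (fun ℓ hℓ hℓNp A hA s hs => by
      ext w
      simp only [Module.End.mul_apply, coe_orbitSpanRep_apply, LinearMap.sub_apply,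
        LinearMap.smul_apply, Module.End.one_apply, Submodule.coe_sub, Submodule.coe_smul]
      exact hfrob ℓ hℓ hℓNp A hA s hs _)
  exact ⟨r, hr1, hr2, L ⊔ Fermat.Agent.S14.H67.cycloField p,
    IntermediateField.finiteDimensional_sup L _, hr3⟩

end Smooth

section BaseChange

variable {k k' : Type} [Field k] [Field k'] (φ : k →+* k') (r : ResidualGaloisRep k)

lemma baseChangeAlong_ρ_eq_one {s : GQ} (h : r.ρ s = 1) : (r.baseChangeAlong φ).ρ s = 1 := by
  let _ : Algebra k k' := φ.toAlgebra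
  show (r.ρ s).baseChange k' = 1
  rw [h, LinearMap.baseChange_one]

lemma isUnramifiedAt_baseChangeAlong {q : ℕ} (h : r.IsUnramifiedAt q) :
    (r.baseChangeAlong φ).IsUnramifiedAt q :=
  fun A hA s hs => baseChangeAlong_ρ_eq_one φ r (h A hA s hs)

lemma charpoly_baseChangeAlong (s : GQ) :
    LinearMap.charpoly ((r.baseChangeAlong φ).ρ s) = (LinearMap.charpoly (r.ρ s)).map φ := by
  let _ : Algebra k k' := φ.toAlgebra
  exact LinearMap.charpoly_baseChange (r.ρ s) k'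

end BaseChange

section Hecke

variable {J : Type*} [AddCommGroup J] [Module HeckeAlg J] [DistribMulAction GQ J]
  [SMulCommClass GQ HeckeAlg J]

/-- **Residual representation attached to a system of Hecke eigenvalues occurring in `J`.**
`e : Nat.Primes → k` is a system of eigenvalues with values in a field `k` of characteristic `p`
generating a finite subring, such that `J[𝔪] ≠ 0` for `𝔪 = eigenIdeal e = ker (T_ℓ ↦ e ℓ)`. -/
theorem exists_residualGaloisRep_of_eigensystem (N : ℕ) {p : ℕ} [Fact p.Prime]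
    {k : Type} [Field k] [CharP k p] (e : Nat.Primes → k)
    (hfin : (Set.range (MvPolynomial.aeval (R := ℤ) e : HeckeAlg → k)).Finite)
    (hunr : UnramifiedOutside (K := ℚ) (L := Qb) N p J)
    (hfq : FrobeniusQuadratic (K := ℚ) (L := Qb) N p J)
    (hsmooth : ∀ x : J, x ∈ heckeTorsion J (eigenIdeal e) →
      ∃ L : IntermediateField ℚ Qb, FiniteDimensional ℚ L ∧
        ∀ s : GQ, (∀ y ∈ L, s y = y) → s • x = x)
    (hne : MTorsionNeBot HeckeAlg J (eigenIdeal e)) :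
    ∃ r : ResidualGaloisRep k,
      (∀ ℓ : ℕ, ℓ.Prime → ¬ ℓ ∣ N * p → r.IsUnramifiedAt ℓ) ∧
      (∀ ℓ : ℕ, (hℓ : ℓ.Prime) → ¬ ℓ ∣ N * p → ∀ A : ValuationSubring Qb, A.LiesOverPrime ℓ →
        ∀ s : GQ, A.IsFrobeniusAt s ℓ →
          LinearMap.charpoly (r.ρ s) = X ^ 2 - C (e ⟨ℓ, hℓ⟩) * X + C (ℓ : k)) ∧
      (∃ L : IntermediateField ℚ Qb, FiniteDimensional ℚ L ∧
        ∀ s : GQ, (∀ x ∈ L, s x = x) → r.ρ s = 1) := by
  classical
  set 𝔪 : Ideal HeckeAlg := eigenIdeal e with h𝔪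
  let ψ : HeckeAlg →+* k := (MvPolynomial.aeval (R := ℤ) e : HeckeAlg →ₐ[ℤ] k).toRingHom
  have hψ : ∀ t : HeckeAlg, ψ t = MvPolynomial.aeval (R := ℤ) e t := fun _ => rfl
  have hmem : ∀ t : HeckeAlg, t ∈ 𝔪 ↔ ψ t = 0 := fun t => mem_eigenIdeal_iff e t
  let ι : HeckeAlg ⧸ 𝔪 →+* k := Ideal.Quotient.lift 𝔪 ψ fun t ht => (hmem t).mp ht
  have hι : Function.Injective ι :=
    RingHom.lift_injective_of_ker_le_ideal 𝔪 _ fun t ht => (hmem t).mpr (RingHom.mem_ker.mp ht)
  have hιmk : ∀ t : HeckeAlg, ι (Ideal.Quotient.mk 𝔪 t) = ψ t := fun t =>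
    Ideal.Quotient.lift_mk 𝔪 ψ _
  have hfinQ : Finite (HeckeAlg ⧸ 𝔪) := by
    have : Finite (Set.range (MvPolynomial.aeval (R := ℤ) e : HeckeAlg → k)) := hfin
    refine Finite.of_injective
      (fun x : HeckeAlg ⧸ 𝔪 =>
        (⟨ι x, by
          obtain ⟨t, rfl⟩ := Ideal.Quotient.mk_surjective x
          exact ⟨t, (hιmk t).symm⟩⟩ : Set.range (MvPolynomial.aeval (R := ℤ) e : HeckeAlg → k)))
      fun x y hxy => hι (congrArg Subtype.val hxy)
  have hprime : 𝔪.IsPrime := by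
    have : 𝔪 = RingHom.ker ψ := by
      ext t
      rw [hmem, RingHom.mem_ker]
    rw [this]
    exact RingHom.ker_isPrime ψ
  have hmax : 𝔪.IsMaximal :=
    Ideal.Quotient.maximal_of_isField 𝔪 (Finite.isDomain_to_isField (HeckeAlg ⧸ 𝔪))
  let _ : Field (HeckeAlg ⧸ 𝔪) := Ideal.Quotient.field 𝔪
  have hchar : CharP (HeckeAlg ⧸ 𝔪) p := ι.charP hι p
  have hp𝔪 : (p : HeckeAlg) ∈ 𝔪 := by
    rw [hmem, map_natCast, CharP.cast_eq_zero]
  have hptors : ∀ x : heckeTorsion J 𝔪, ∃ n : ℕ, p ^ n • (x : J) = 0 := by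
    intro x
    refine ⟨1, ?_⟩
    have := (mem_heckeTorsion_iff J 𝔪 (x : J)).mp x.2 (p : HeckeAlg) hp𝔪
    rwa [pow_one, ← Nat.cast_smul_eq_nsmul HeckeAlg]
  -- a nonzero element
  obtain ⟨b, hb, hb0⟩ := Submodule.exists_mem_ne_zero_of_ne_bot hne
  obtain ⟨r₀, h1, h2, L, hLfin, h3⟩ := exists_residualGaloisRep_of_smooth
    (k₀ := HeckeAlg ⧸ 𝔪) (p := p) N (mTorsionGaloisRep J 𝔪)
    ⟨⟨b, hb⟩, fun h => hb0 (congrArg Subtype.val h)⟩
    (fun x => by
      obtain ⟨L, hL, hLx⟩ := hsmooth x.1 x.2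
      exact ⟨L, hL, fun s hs => Subtype.ext (hLx s hs)⟩)
    (fun ℓ hℓ hℓNp A hA s hs x => Subtype.ext (hunr ℓ hℓ hℓNp A hA s hs x (hptors x)))
    (fun ℓ => if h : ℓ.Prime then Ideal.Quotient.mk 𝔪 (heckeGen ⟨ℓ, h⟩) else 0)
    (fun ℓ hℓ hℓNp A hA s hs x => by
      have key := hfq ℓ hℓ hℓNp A hA s hs x (hptors x)
      rw [dif_pos hℓ]
      apply Subtype.ext
      have hnat : ((ℓ : ℕ) : HeckeAlg ⧸ 𝔪) = Ideal.Quotient.mk 𝔪 ((ℓ : ℕ) : HeckeAlg) :=
        (map_natCast (Ideal.Quotient.mk 𝔪) ℓ).symm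
      rw [hnat, Submodule.torsionBySet.mk_smul, Submodule.torsionBySet.mk_smul,
        Submodule.coe_sub, Submodule.coe_smul, Submodule.coe_smul,
        coe_mTorsionGaloisRep_apply, coe_mTorsionGaloisRep_apply, Nat.cast_smul_eq_nsmul]
      rw [← sub_eq_zero]
      rw [← key]
      abel)
  refine ⟨r₀.baseChangeAlong ι, fun ℓ hℓ hℓNp => isUnramifiedAt_baseChangeAlong ι r₀
    (h1 ℓ hℓ hℓNp), fun ℓ hℓ hℓNp A hA s hs => ?_, L, hLfin, fun s hs =>
    baseChangeAlong_ρ_eq_one ι r₀ (h3 s hs)⟩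
  rw [charpoly_baseChangeAlong, h2 ℓ hℓ hℓNp A hA s hs, dif_pos hℓ]
  simp only [Polynomial.map_add, Polynomial.map_sub, Polynomial.map_mul, Polynomial.map_pow,
    Polynomial.map_X, Polynomial.map_C, hιmk, hψ, aeval_heckeGen, map_natCast,
    Polynomial.map_natCast]

end Hecke

end Fermat.Agent.S29.H29
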