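/-
helper30 — Stage 3 / P2 consumer side, Mathlib only.

A nonzero holomorphic function on `ℍ` which is periodic and bounded at `i∞` is bounded BELOW by
`C * exp (-2π m Im τ / h)` on a half plane `{c ≤ Im τ}` (leading term of its `q`-expansion).
-/
import Mathlib

set_option autoImplicit false

noncomputable section

open UpperHalfPlane Filter Complex Function
open scoped Topology Manifold Real

namespace Fermat.Agent.S29.H30

local notation "𝕢" => Periodic.qParam

theorem isPreconnected_uhpSet : IsPreconnected {z : ℂ | 0 < z.im} :=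
  (convex_halfSpace_im_gt 0).isPreconnected

/-- A holomorphic function on `ℍ` vanishing on a half plane `{c ≤ Im τ}` vanishes identically. -/
theorem eq_zero_of_eventually_atImInfty {g : ℍ → ℂ} (hhol : MDiff g)
    (h0 : ∀ᶠ τ in atImInfty, g τ = 0) : g = 0 := by
  obtain ⟨A, hA⟩ := (atImInfty_mem _).mp h0
  have hdiff : DifferentiableOn ℂ (g ∘ ofComplex) {z : ℂ | 0 < z.im} :=
    UpperHalfPlane.mdifferentiable_iff.mp hhol
  have han : AnalyticOnNhd ℂ (g ∘ ofComplex) {z : ℂ | 0 < z.im} :=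
    hdiff.analyticOnNhd isOpen_upperHalfPlaneSet
  -- a base point high up
  set y : ℝ := max A 0 + 1 with hy
  have hypos : 0 < y := by positivity
  have hyA : A < y := lt_of_le_of_lt (le_max_left A 0) (lt_add_one _)
  set z₀ : ℂ := y * Complex.I with hz₀
  have hz₀im : z₀.im = y := by simp [hz₀]
  have hz₀mem : z₀ ∈ {z : ℂ | 0 < z.im} := by
    simp only [Set.mem_ofPred_eq, hz₀im]; exact hypos
  have hev : (g ∘ ofComplex) =ᶠ[𝓝 z₀] 0 := by
    have hopen : IsOpen {z : ℂ | A < z.im ∧ 0 < z.im} :=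
      (isOpen_lt continuous_const Complex.continuous_im).inter
        (isOpen_lt continuous_const Complex.continuous_im)
    have hmem : z₀ ∈ {z : ℂ | A < z.im ∧ 0 < z.im} := by
      simp only [Set.mem_ofPred_eq, hz₀im]; exact ⟨hyA, hypos⟩
    filter_upwards [hopen.mem_nhds hmem] with z hz
    simp only [Function.comp_apply, Pi.zero_apply]
    rw [ofComplex_apply_of_im_pos hz.2]
    exact hA ⟨z, hz.2⟩ hz.1.le
  have hEq := han.eqOn_zero_of_preconnected_of_eventuallyEq_zero isPreconnected_uhpSet hz₀mem hev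
  funext τ
  have := hEq τ.2
  simpa [Function.comp_apply, ofComplex_apply] using this

/-- **Lower bound at the cusp.** -/
theorem exists_lower_bound_atImInfty {g : ℍ → ℂ} {h : ℝ} (hh : 0 < h)
    (hper : Periodic (g ∘ ofComplex) h) (hhol : MDiff g) (hbdd : IsBoundedAtImInfty g)
    (hne : g ≠ 0) :
    ∃ (m : ℕ) (C c : ℝ), 0 < C ∧
      ∀ τ : ℍ, c ≤ τ.im → C * Real.exp (-2 * π * m * τ.im / h) ≤ ‖g τ‖ := by
  set F : ℂ → ℂ := cuspFunction h g with hF
  have hFan : AnalyticAt ℂ F 0 := analyticAt_cuspFunction_zero hh hper hhol hbdd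
  have hFq : ∀ τ : ℍ, F (𝕢 h τ) = g τ := fun τ => eq_cuspFunction τ hh.ne' hper
  have hq0 : Tendsto (fun τ : ℍ => 𝕢 h τ) atImInfty (𝓝 0) := qParam_tendsto_atImInfty hh
  -- `F` is not locally zero at `0`
  have hFne : ¬ ∀ᶠ q in 𝓝 (0 : ℂ), F q = 0 := by
    intro hzero
    apply hne
    apply eq_zero_of_eventually_atImInfty hhol
    have := hq0.eventually hzero
    filter_upwards [this] with τ hτ
    rw [← hFq τ]; exact hτ
  obtain ⟨m, G, hGan, hG0, hFG⟩ := (hFan.exists_eventuallyEq_pow_smul_nonzero_iff).mpr hFne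
  -- near `0`, `‖G q‖ ≥ ‖G 0‖ / 2`
  have hGpos : 0 < ‖G 0‖ / 2 := by positivity
  have hGev : ∀ᶠ q in 𝓝 (0 : ℂ), ‖G 0‖ / 2 ≤ ‖G q‖ := by
    have hcont : ContinuousAt (fun q => ‖G q‖) 0 := hGan.continuousAt.norm
    have : ∀ᶠ q in 𝓝 (0 : ℂ), ‖G 0‖ / 2 < ‖G q‖ :=
      hcont.eventually (lt_mem_nhds (by linarith [norm_pos_iff.mpr hG0]))
    exact this.mono fun q hq => hq.le
  have hboth : ∀ᶠ q in 𝓝 (0 : ℂ), ‖q‖ ^ m * (‖G 0‖ / 2) ≤ ‖F q‖ := by
    filter_upwards [hFG, hGev] with q hq1 hq2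
    rw [hq1, sub_zero, norm_smul, norm_pow]
    exact mul_le_mul_of_nonneg_left hq2 (pow_nonneg (norm_nonneg _) _)
  obtain ⟨c, hc⟩ := (atImInfty_mem _).mp (hq0.eventually hboth)
  refine ⟨m, ‖G 0‖ / 2, c, hGpos, fun τ hτ => ?_⟩
  have h1 := hc τ hτ
  simp only [Set.mem_ofPred_eq] at h1
  rw [hFq τ, Periodic.norm_qParam, ← Real.exp_nat_mul] at h1
  have hexp : (m : ℝ) * (-2 * π * (τ : ℂ).im / h) = -2 * π * m * τ.im / h := by
    rw [UpperHalfPlane.coe_im]; ring
  rw [hexp] at h1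
  linarith [mul_comm (Real.exp (-2 * π * m * τ.im / h)) (‖G 0‖ / 2)]

end Fermat.Agent.S29.H30
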