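/-
helper30 — Stage 3 / (A5)-(A7) analytic core, Mathlib only.

`HasCuspOrder h a b n` : the quotient `a / b` of two functions on `ℍ` is of exact size `|q_h|^n`
near `i∞` ("`a / b` has `q_h`-order `n` at the cusp `∞`"), phrased without division so that it is
independent of the chosen representation of a meromorphic function as a quotient.

Main theorem `exists_hasCuspOrder`: if `a, b` are holomorphic and nonzero, `a / b` is `h`-periodic
(in cross-multiplied form; `a` and `b` need NOT be periodic) and `‖a‖ ≤ C exp (2π m Im τ) ‖b‖`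
above some height, then `a / b` has an integer cusp order.  Plus the calculus: uniqueness,
products, powers, inverses, change of representation, change of period.
-/
import Mathlib
import Fermat.Agent.S29.H30_CuspLower

set_option autoImplicit false

noncomputable section

open Filter Complex Function
open UpperHalfPlane hiding I
open scoped Topology Manifold Real

namespace Fermat.Agent.S29.H30

local notation "𝕢" => Periodic.qParam
local notation "I∞" => comap Complex.im atTop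

/-! ### Generalities -/

theorem eventually_Iinf_iff {P : ℂ → Prop} :
    (∀ᶠ z in I∞, P z) ↔ ∃ Y : ℝ, ∀ z : ℂ, Y ≤ z.im → P z := by
  rw [Filter.eventually_comap, Filter.eventually_atTop]
  constructor
  · rintro ⟨Y, hY⟩
    exact ⟨Y, fun z hz => hY z.im hz z rfl⟩
  · rintro ⟨Y, hY⟩
    exact ⟨Y, fun y hy z hz => hY z (hz ▸ hy)⟩

theorem qParam_add_period {h : ℝ} (hh : h ≠ 0) (z : ℂ) : 𝕢 h (z + h) = 𝕢 h z := by
  have hc : (h : ℂ) ≠ 0 := by exact_mod_cast hh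
  unfold Periodic.qParam
  have : 2 * ↑π * I * (z + ↑h) / ↑h = 2 * ↑π * I * z / ↑h + 2 * ↑π * I := by
    field_simp
  rw [this, Complex.exp_periodic]

theorem real_exp_int_mul (x : ℝ) (n : ℤ) : Real.exp (n * x) = Real.exp x ^ n := by
  rw [mul_comm, Real.exp_mul, Real.rpow_intCast]

theorem exp_eq_norm_qParam_zpow (h : ℝ) (n : ℤ) (z : ℂ) :
    Real.exp (-2 * π * n * z.im / h) = ‖𝕢 h z‖ ^ n := by
  rw [Periodic.norm_qParam, ← real_exp_int_mul]
  congr 1
  ring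

theorem tendsto_add_const_nhdsNE (z c : ℂ) :
    Tendsto (fun w : ℂ => w + c) (𝓝[≠] z) (𝓝[≠] (z + c)) := by
  refine tendsto_nhdsWithin_iff.2 ⟨?_, ?_⟩
  · exact ((continuous_id.add continuous_const).tendsto z).mono_left nhdsWithin_le_nhds
  · filter_upwards [self_mem_nhdsWithin] with w hw
    simpa using hw

/-! ### Two-sided asymptotics of a periodic function of moderate growth -/

/-- A periodic function on `ℂ`, holomorphic and of moderate growth near `I∞` and not eventually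
zero there, is of exact size `|q_h|^n` near `I∞` for a unique integer `n`. -/
theorem exists_zpow_asymp {G : ℂ → ℂ} {h : ℝ} (hh : 0 < h) (hper : Periodic G h)
    (hhol : ∀ᶠ z in I∞, DifferentiableAt ℂ G z)
    (hgrow : ∃ (C : ℝ) (m : ℕ), ∀ᶠ z in I∞, ‖G z‖ ≤ C * Real.exp (2 * π * m * z.im))
    (hne : ∃ᶠ z in I∞, G z ≠ 0) :
    ∃ (n : ℤ) (C₁ C₂ : ℝ), 0 < C₁ ∧ ∀ᶠ z in I∞,
      C₁ * ‖𝕢 h z‖ ^ n ≤ ‖G z‖ ∧ ‖G z‖ ≤ C₂ * ‖𝕢 h z‖ ^ n := by
  obtain ⟨C, m, hC⟩ := hgrow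
  set M : ℕ := ⌈(m : ℝ) * h⌉₊ with hM
  have hMh : (m : ℝ) * h ≤ M := Nat.le_ceil _
  set G1 : ℂ → ℂ := fun z => G z * 𝕢 h z ^ M with hG1
  have hper1 : Periodic G1 h := by
    intro z
    simp only [hG1, hper z, qParam_add_period hh.ne' z]
  have hhol1 : ∀ᶠ z in I∞, DifferentiableAt ℂ G1 z := by
    filter_upwards [hhol] with z hz
    exact hz.mul ((Periodic.differentiable_qParam (h := h) z).pow M)
  have hbd1 : BoundedAtFilter I∞ G1 := by
    apply Asymptotics.IsBigO.of_bound (max C 0)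
    have h0 : ∀ᶠ z in I∞, (0 : ℝ) ≤ z.im := eventually_Iinf_iff.2 ⟨0, fun z hz => hz⟩
    filter_upwards [hC, h0] with z hz hz0
    simp only [hG1, norm_mul, norm_pow, Pi.one_apply, norm_one, mul_one]
    rw [Periodic.norm_qParam, ← Real.exp_nat_mul]
    have hexp : 2 * π * m * z.im + M * (-2 * π * z.im / h) = (2 * π * z.im / h) * (m * h - M) := by
      field_simp
      ring
    have hle : 2 * π * m * z.im + M * (-2 * π * z.im / h) ≤ 0 := by
      rw [hexp]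
      apply mul_nonpos_of_nonneg_of_nonpos
      · positivity
      · linarith
    calc ‖G z‖ * Real.exp (M * (-2 * π * z.im / h))
        ≤ (C * Real.exp (2 * π * m * z.im)) * Real.exp (M * (-2 * π * z.im / h)) := by gcongr
      _ = C * Real.exp (2 * π * m * z.im + M * (-2 * π * z.im / h)) := by
          rw [mul_assoc, ← Real.exp_add]
      _ ≤ max C 0 * 1 :=
          mul_le_mul (le_max_left _ _) (Real.exp_le_one_iff.2 hle) (Real.exp_nonneg _)
            (le_max_right _ _)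
      _ = max C 0 := mul_one _
  set F : ℂ → ℂ := Periodic.cuspFunction h G1 with hF
  have hFd0 : DifferentiableAt ℂ F 0 := hper1.differentiableAt_cuspFunction_zero hh hhol1 hbd1
  have hFdne : ∀ᶠ q in 𝓝[≠] 0, DifferentiableAt ℂ F q :=
    hper1.eventually_differentiableAt_cuspFunction_nhds_ne_zero hh hhol1
  have hFan : AnalyticAt ℂ F 0 := by
    rw [analyticAt_iff_eventually_differentiableAt]
    filter_upwards [eventually_nhdsWithin_iff.mp hFdne] with q hq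
    by_cases hq0 : q = 0
    · rw [hq0]; exact hFd0
    · exact hq hq0
  have hFq : ∀ z : ℂ, F (𝕢 h z) = G1 z := fun z => Periodic.eq_cuspFunction hh.ne' hper1 z
  have hq0 : Tendsto (𝕢 h) I∞ (𝓝 0) :=
    (Periodic.qParam_tendsto hh).mono_right nhdsWithin_le_nhds
  have hFne : ¬ ∀ᶠ q in 𝓝 (0 : ℂ), F q = 0 := by
    intro hzero
    apply hne
    filter_upwards [hq0.eventually hzero] with z hz
    rw [hFq z] at hz
    exact not_not.mpr ((mul_eq_zero.mp hz).resolve_right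
      (pow_ne_zero _ (Periodic.qParam_ne_zero z)))
  obtain ⟨m1, G2, hG2an, hG20, hFG⟩ := (hFan.exists_eventuallyEq_pow_smul_nonzero_iff).mpr hFne
  have hG2pos : 0 < ‖G2 0‖ := norm_pos_iff.mpr hG20
  have hcont : ContinuousAt (fun q => ‖G2 q‖) 0 := hG2an.continuousAt.norm
  have hlow : ∀ᶠ q in 𝓝 (0 : ℂ), ‖G2 0‖ / 2 < ‖G2 q‖ :=
    hcont.eventually (lt_mem_nhds (by linarith))
  have hupp : ∀ᶠ q in 𝓝 (0 : ℂ), ‖G2 q‖ < ‖G2 0‖ + 1 :=
    hcont.eventually (gt_mem_nhds (by linarith))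
  have hboth : ∀ᶠ q in 𝓝 (0 : ℂ),
      ‖q‖ ^ m1 * (‖G2 0‖ / 2) ≤ ‖F q‖ ∧ ‖F q‖ ≤ ‖q‖ ^ m1 * (‖G2 0‖ + 1) := by
    filter_upwards [hFG, hlow, hupp] with q hq1 hq2 hq3
    rw [hq1, sub_zero, norm_smul, norm_pow]
    exact ⟨mul_le_mul_of_nonneg_left hq2.le (pow_nonneg (norm_nonneg _) _),
      mul_le_mul_of_nonneg_left hq3.le (pow_nonneg (norm_nonneg _) _)⟩
  refine ⟨(m1 : ℤ) - M, ‖G2 0‖ / 2, ‖G2 0‖ + 1, by positivity, ?_⟩
  filter_upwards [hq0.eventually hboth] with z hz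
  rw [hFq z] at hz
  have hqpos : 0 < ‖𝕢 h z‖ := norm_pos_iff.mpr (Periodic.qParam_ne_zero z)
  simp only [hG1, norm_mul, norm_pow] at hz
  rw [zpow_sub₀ hqpos.ne', zpow_natCast, zpow_natCast]
  have hMpos : 0 < ‖𝕢 h z‖ ^ M := pow_pos hqpos M
  constructor
  · rw [mul_div_assoc', div_le_iff₀ hMpos]
    linarith [hz.1]
  · rw [mul_div_assoc', le_div_iff₀ hMpos]
    linarith [hz.2]

/-! ### Holomorphic extension of a locally bounded quotient -/

/-- If `‖A‖ ≤ K ‖B‖` on an open set with `K` continuous and `B` not locally zero, then `A / B`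
extends to an analytic function `g` with `g * B = A` and `‖g‖ ≤ K`. -/
theorem exists_analyticOnNhd_quotient {U : Set ℂ} (hU : IsOpen U) {A B : ℂ → ℂ}
    (hA : AnalyticOnNhd ℂ A U) (hB : AnalyticOnNhd ℂ B U)
    (hBne : ∀ z ∈ U, ∀ᶠ w in 𝓝[≠] z, B w ≠ 0)
    {K : ℂ → ℝ} (hK : ContinuousOn K U) (hbound : ∀ z ∈ U, ‖A z‖ ≤ K z * ‖B z‖) :
    ∃ g : ℂ → ℂ, AnalyticOnNhd ℂ g U ∧ (∀ z ∈ U, g z * B z = A z) ∧ ∀ z ∈ U, ‖g z‖ ≤ K z := by
  set f : ℂ → ℂ := fun z => A z / B z with hf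
  have hfm : MeromorphicOn f U := fun z hz =>
    (hA z hz).meromorphicAt.div (hB z hz).meromorphicAt
  set g := toMeromorphicNFOn f U with hg
  have hgf : ∀ z ∈ U, g =ᶠ[𝓝[≠] z] f := fun z hz => hfm.toMeromorphicNFOn_eq_self_on_nhdsNE hz
  have hUev : ∀ z ∈ U, ∀ᶠ w in 𝓝[≠] z, w ∈ U := fun z hz =>
    nhdsWithin_le_nhds (hU.mem_nhds hz)
  have hfK : ∀ z ∈ U, ∀ᶠ w in 𝓝[≠] z, ‖f w‖ ≤ K w := by
    intro z hz
    filter_upwards [hUev z hz, hBne z hz] with w hw hBw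
    simp only [hf, norm_div]
    rw [div_le_iff₀ (norm_pos_iff.mpr hBw)]
    exact hbound w hw
  have hKt : ∀ z ∈ U, Tendsto K (𝓝[≠] z) (𝓝 (K z)) := fun z hz =>
    ((hK.continuousAt (hU.mem_nhds hz)).tendsto).mono_left nhdsWithin_le_nhds
  have hord : ∀ z ∈ U, 0 ≤ meromorphicOrderAt f z := by
    intro z hz
    by_contra hneg
    rw [not_le] at hneg
    have hT := tendsto_cobounded_of_meromorphicOrderAt_neg hneg
    rw [← tendsto_norm_atTop_iff_cobounded] at hT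
    have h1 : ∀ᶠ w in 𝓝[≠] z, K z + 2 ≤ ‖f w‖ := (tendsto_atTop.1 hT) (K z + 2)
    have h2 : ∀ᶠ w in 𝓝[≠] z, K w < K z + 1 :=
      (hKt z hz).eventually (gt_mem_nhds (lt_add_one _))
    obtain ⟨w, hw1, hw2, hw3⟩ := (h1.and (h2.and (hfK z hz))).exists
    linarith
  have hgan : AnalyticOnNhd ℂ g U := by
    intro z hz
    have hnf : MeromorphicNFAt g z := meromorphicNFOn_toMeromorphicNFOn f U hz
    rw [← hnf.meromorphicOrderAt_nonneg_iff_analyticAt, hg,
      meromorphicOrderAt_toMeromorphicNFOn hfm hz]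
    exact hord z hz
  refine ⟨g, hgan, ?_, ?_⟩
  · intro z hz
    have hcont : ContinuousAt (fun w => g w * B w - A w) z :=
      ((hgan z hz).continuousAt.mul (hB z hz).continuousAt).sub (hA z hz).continuousAt
    have ht1 : Tendsto (fun w => g w * B w - A w) (𝓝[≠] z) (𝓝 (g z * B z - A z)) :=
      hcont.tendsto.mono_left nhdsWithin_le_nhds
    have ht2 : Tendsto (fun w => g w * B w - A w) (𝓝[≠] z) (𝓝 0) := by
      apply tendsto_const_nhds.congr'
      filter_upwards [hgf z hz, hBne z hz] with w hw hBw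
      rw [hw]
      simp only [hf]
      field_simp
      ring
    exact sub_eq_zero.mp (tendsto_nhds_unique ht1 ht2)
  · intro z hz
    have ht1 : Tendsto (fun w => ‖g w‖) (𝓝[≠] z) (𝓝 ‖g z‖) :=
      ((hgan z hz).continuousAt.norm.tendsto).mono_left nhdsWithin_le_nhds
    refine le_of_tendsto_of_tendsto ht1 (hKt z hz) ?_
    filter_upwards [hgf z hz, hfK z hz] with w hw hw2
    rw [hw]
    exact hw2

/-- A nonzero holomorphic function on `ℍ` has isolated zeros. -/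
theorem eventually_nhdsNE_ne_zero {b : ℍ → ℂ} (hb : MDiff b) (hb0 : b ≠ 0) {z : ℂ}
    (hz : 0 < z.im) : ∀ᶠ w in 𝓝[≠] z, (b ∘ ofComplex) w ≠ 0 := by
  have hdiff : DifferentiableOn ℂ (b ∘ ofComplex) {z : ℂ | 0 < z.im} :=
    UpperHalfPlane.mdifferentiable_iff.mp hb
  have han : AnalyticOnNhd ℂ (b ∘ ofComplex) {z : ℂ | 0 < z.im} :=
    hdiff.analyticOnNhd isOpen_upperHalfPlaneSet
  rcases (han z hz).eventually_eq_zero_or_eventually_ne_zero with h0 | h1
  · exfalso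
    apply hb0
    have hEq := han.eqOn_zero_of_preconnected_of_eventuallyEq_zero isPreconnected_uhpSet hz h0
    funext τ
    have := hEq τ.2
    simpa [Function.comp_apply, ofComplex_apply] using this
  · exact h1

/-- A nonzero holomorphic function on `ℍ` is nonzero at points arbitrarily close to any point. -/
theorem frequently_nhds_ne_zero {b : ℍ → ℂ} (hb : MDiff b) (hb0 : b ≠ 0) (τ₀ : ℍ) :
    ∃ᶠ τ in 𝓝 τ₀, b τ ≠ 0 := by
  have h1 : ∀ᶠ w in 𝓝[≠] (τ₀ : ℂ), (b ∘ ofComplex) w ≠ 0 :=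
    eventually_nhdsNE_ne_zero hb hb0 τ₀.im_pos
  have h2 : ∃ᶠ w in 𝓝 (τ₀ : ℂ), (b ∘ ofComplex) w ≠ 0 :=
    (h1.frequently).filter_mono nhdsWithin_le_nhds
  -- transport along the open embedding `ℍ → ℂ`
  have hmap : Filter.map UpperHalfPlane.coe (𝓝 τ₀) = 𝓝 (τ₀ : ℂ) :=
    isOpenEmbedding_coe.map_nhds_eq τ₀
  rw [← hmap, Filter.frequently_map] at h2
  refine h2.mono fun τ hτ => ?_
  simpa [Function.comp_apply, ofComplex_apply] using hτ

/-! ### The cusp order of a quotient -/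

/-- `a / b` is of exact size `|q_h|^n` near `i∞`: "the `q_h`-order of `a / b` at `∞` is `n`". -/
def HasCuspOrder (h : ℝ) (a b : ℍ → ℂ) (n : ℤ) : Prop :=
  ∃ c C₁ C₂ : ℝ, 0 < C₁ ∧ ∀ τ : ℍ, c ≤ τ.im →
    C₁ * Real.exp (-2 * π * n * τ.im / h) * ‖b τ‖ ≤ ‖a τ‖ ∧
    ‖a τ‖ ≤ C₂ * Real.exp (-2 * π * n * τ.im / h) * ‖b τ‖

/-- **Existence of the cusp order.**  `a / b` periodic (cross-multiplied) and of moderate growth
above some height has an integer `q_h`-order at `∞`. -/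
theorem exists_hasCuspOrder {a b : ℍ → ℂ} {h : ℝ} (hh : 0 < h) (ha : MDiff a) (hb : MDiff b)
    (ha0 : a ≠ 0) (hb0 : b ≠ 0)
    (hper : ∀ τ : ℍ, a ((h : ℝ) +ᵥ τ) * b τ = a τ * b ((h : ℝ) +ᵥ τ))
    (hgrow : ∃ (c C : ℝ) (m : ℕ), ∀ τ : ℍ, c ≤ τ.im →
      ‖a τ‖ ≤ C * Real.exp (2 * π * m * τ.im) * ‖b τ‖) :
    ∃ n : ℤ, HasCuspOrder h a b n := by
  obtain ⟨c, C, m, hC⟩ := hgrow
  set c0 : ℝ := max c 0 with hc0
  have hc0c : c ≤ c0 := le_max_left _ _
  have hc00 : 0 ≤ c0 := le_max_right _ _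
  set U : Set ℂ := {z : ℂ | c0 < z.im} with hU
  have hUopen : IsOpen U := isOpen_lt continuous_const Complex.continuous_im
  have hUsub : U ⊆ {z : ℂ | 0 < z.im} := fun z hz => lt_of_le_of_lt hc00 hz
  set A : ℂ → ℂ := a ∘ ofComplex with hAdef
  set B : ℂ → ℂ := b ∘ ofComplex with hBdef
  have hAan : AnalyticOnNhd ℂ A U :=
    ((UpperHalfPlane.mdifferentiable_iff.mp ha).analyticOnNhd isOpen_upperHalfPlaneSet).mono hUsub
  have hBan : AnalyticOnNhd ℂ B U :=
    ((UpperHalfPlane.mdifferentiable_iff.mp hb).analyticOnNhd isOpen_upperHalfPlaneSet).mono hUsub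
  have hBne : ∀ z ∈ U, ∀ᶠ w in 𝓝[≠] z, B w ≠ 0 := fun z hz =>
    eventually_nhdsNE_ne_zero hb hb0 (hUsub hz)
  set K : ℂ → ℝ := fun z => max C 0 * Real.exp (2 * π * m * z.im) with hK
  have hKc : ContinuousOn K U := by
    have : Continuous K := by
      simp only [hK]
      fun_prop
    exact this.continuousOn
  have hbound : ∀ z ∈ U, ‖A z‖ ≤ K z * ‖B z‖ := by
    intro z hz
    have hz0 : 0 < z.im := hUsub hz
    have h1 := hC ⟨z, hz0⟩ (hc0c.trans (le_of_lt hz))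
    simp only [hAdef, hBdef, Function.comp_apply, ofComplex_apply_of_im_pos hz0, hK]
    refine h1.trans ?_
    have : (⟨z, hz0⟩ : ℍ).im = z.im := rfl
    rw [this]
    gcongr
    exact le_max_left _ _
  obtain ⟨g, hgan, hgB, hgK⟩ :=
    exists_analyticOnNhd_quotient hUopen hAan hBan hBne hKc hbound
  have hUev : ∀ z ∈ U, ∀ᶠ w in 𝓝[≠] z, w ∈ U := fun z hz =>
    nhdsWithin_le_nhds (hUopen.mem_nhds hz)
  have hUadd : ∀ z ∈ U, z + (h : ℂ) ∈ U := by
    intro z hz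
    simpa [hU] using hz
  have cross : ∀ w : ℂ, 0 < w.im → A (w + h) * B w = A w * B (w + h) := by
    intro w hw
    have hw' : 0 < (w + (h : ℂ)).im := by simpa using hw
    have e : ofComplex (w + (h : ℂ)) = (h : ℝ) +ᵥ (⟨w, hw⟩ : ℍ) := by
      rw [ofComplex_apply_of_im_pos hw']
      ext
      simp [add_comm]
    simp only [hAdef, hBdef, Function.comp_apply, e, ofComplex_apply_of_im_pos hw]
    exact hper ⟨w, hw⟩
  have hgper : ∀ z ∈ U, g (z + h) = g z := by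
    intro z hz
    have hzh : z + (h : ℂ) ∈ U := hUadd z hz
    have hcont : ContinuousAt (fun w : ℂ => g (w + h) - g w) z := by
      have h1 : ContinuousAt (fun w : ℂ => g (w + h)) z :=
        ContinuousAt.comp (g := g) (f := fun w : ℂ => w + (h : ℂ)) (hgan _ hzh).continuousAt
          (continuous_id.add continuous_const).continuousAt
      exact h1.sub (hgan z hz).continuousAt
    have ht1 : Tendsto (fun w : ℂ => g (w + h) - g w) (𝓝[≠] z) (𝓝 (g (z + h) - g z)) :=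
      hcont.tendsto.mono_left nhdsWithin_le_nhds
    have ht2 : Tendsto (fun w : ℂ => g (w + h) - g w) (𝓝[≠] z) (𝓝 0) := by
      apply tendsto_const_nhds.congr'
      have hshift := tendsto_add_const_nhdsNE z (h : ℂ)
      filter_upwards [hUev z hz, hBne z hz, hshift.eventually (hBne _ hzh)] with w hwU hBw hBwh
      have e1 := hgB w hwU
      have e2 := hgB (w + h) (hUadd w hwU)
      have e3 := cross w (hUsub hwU)
      have hprod : (g (w + h) - g w) * (B w * B (w + h)) = 0 := by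
        calc (g (w + h) - g w) * (B w * B (w + h))
            = (g (w + h) * B (w + h)) * B w - (g w * B w) * B (w + h) := by ring
          _ = A (w + h) * B w - A w * B (w + h) := by rw [e1, e2]
          _ = 0 := by rw [e3]; ring
      exact ((mul_eq_zero.mp hprod).resolve_right (mul_ne_zero hBw hBwh)).symm
    exact sub_eq_zero.mp (tendsto_nhds_unique ht1 ht2)
  -- the globally periodic function
  set G : ℂ → ℂ := fun z => if c0 < z.im then g z else 0 with hG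
  have hGU : ∀ z ∈ U, G z = g z := fun z hz => by
    have hz' : c0 < z.im := hz
    simp only [hG]
    exact if_pos hz'
  have hGper : Periodic G h := by
    intro z
    have him : (z + (h : ℂ)).im = z.im := by simp
    simp only [hG, him]
    split_ifs with hz
    · exact hgper z hz
    · rfl
  have hGhol : ∀ᶠ z in I∞, DifferentiableAt ℂ G z := by
    refine eventually_Iinf_iff.2 ⟨c0 + 1, fun z hz => ?_⟩
    have hzU : z ∈ U := by
      show c0 < z.im
      linarith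
    refine (hgan z hzU).differentiableAt.congr_of_eventuallyEq ?_
    filter_upwards [hUopen.mem_nhds hzU] with w hw
    exact hGU w hw
  have hGgrow : ∃ (C' : ℝ) (m' : ℕ), ∀ᶠ z in I∞, ‖G z‖ ≤ C' * Real.exp (2 * π * m' * z.im) := by
    refine ⟨max C 0, m, eventually_Iinf_iff.2 ⟨c0 + 1, fun z hz => ?_⟩⟩
    have hzU : z ∈ U := by
      show c0 < z.im
      linarith
    rw [hGU z hzU]
    exact hgK z hzU
  have hGne : ∃ᶠ z in I∞, G z ≠ 0 := by
    intro hcon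
    obtain ⟨Y, hY⟩ := eventually_Iinf_iff.1 hcon
    apply ha0
    apply eq_zero_of_eventually_atImInfty ha
    rw [Filter.Eventually, atImInfty_mem]
    refine ⟨max Y (c0 + 1), fun τ hτ => ?_⟩
    have hτY : Y ≤ (τ : ℂ).im := (le_max_left _ _).trans hτ
    have hτU : (τ : ℂ) ∈ U := by
      show c0 < (τ : ℂ).im
      have : c0 + 1 ≤ (τ : ℂ).im := (le_max_right _ _).trans hτ
      linarith
    have h0 : G τ = 0 := not_not.mp (hY τ hτY)
    have h1 := hgB τ hτU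
    rw [← hGU _ hτU, h0, zero_mul] at h1
    simpa [hAdef, Function.comp_apply, ofComplex_apply] using h1.symm
  obtain ⟨n, C₁, C₂, hC₁, hev⟩ := exists_zpow_asymp hh hGper hGhol hGgrow hGne
  obtain ⟨Y, hY⟩ := eventually_Iinf_iff.1 hev
  refine ⟨n, max Y (c0 + 1), C₁, C₂, hC₁, fun τ hτ => ?_⟩
  have hτY : Y ≤ (τ : ℂ).im := (le_max_left _ _).trans hτ
  have hτU : (τ : ℂ) ∈ U := by
    show c0 < (τ : ℂ).im
    have : c0 + 1 ≤ (τ : ℂ).im := (le_max_right _ _).trans hτ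
    linarith
  obtain ⟨h1, h2⟩ := hY τ hτY
  rw [hGU _ hτU] at h1 h2
  have hab : a τ = g τ * b τ := by
    have := hgB τ hτU
    simpa [hAdef, hBdef, Function.comp_apply, ofComplex_apply] using this.symm
  have hexp : Real.exp (-2 * π * n * τ.im / h) = ‖𝕢 h τ‖ ^ n := by
    rw [← exp_eq_norm_qParam_zpow, UpperHalfPlane.coe_im]
  rw [hexp, hab, norm_mul]
  exact ⟨mul_le_mul_of_nonneg_right h1 (norm_nonneg _),
    mul_le_mul_of_nonneg_right h2 (norm_nonneg _)⟩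

/-! ### Calculus of cusp orders -/

namespace HasCuspOrder

variable {h : ℝ} {a b a' b' : ℍ → ℂ} {n n' : ℤ}

theorem one (h : ℝ) : HasCuspOrder h 1 1 0 :=
  ⟨0, 1, 1, one_pos, fun τ _ => by simp⟩

theorem mul (H : HasCuspOrder h a b n) (H' : HasCuspOrder h a' b' n') :
    HasCuspOrder h (a * a') (b * b') (n + n') := by
  obtain ⟨c, C₁, C₂, hC₁, hH⟩ := H
  obtain ⟨c', C₁', C₂', hC₁', hH'⟩ := H'
  refine ⟨max c c', C₁ * C₁', C₂ * C₂', mul_pos hC₁ hC₁', fun τ hτ => ?_⟩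
  obtain ⟨h1, h2⟩ := hH τ ((le_max_left _ _).trans hτ)
  obtain ⟨h1', h2'⟩ := hH' τ ((le_max_right _ _).trans hτ)
  have hE : Real.exp (-2 * π * ((n + n' : ℤ) : ℝ) * τ.im / h) =
      Real.exp (-2 * π * n * τ.im / h) * Real.exp (-2 * π * n' * τ.im / h) := by
    rw [← Real.exp_add]
    congr 1
    push_cast
    ring
  simp only [Pi.mul_apply, norm_mul]
  rw [hE]
  set E := Real.exp (-2 * π * n * τ.im / h)
  set E' := Real.exp (-2 * π * n' * τ.im / h)
  have hEpos : 0 < E := Real.exp_pos _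
  have hE'pos : 0 < E' := Real.exp_pos _
  constructor
  · calc C₁ * C₁' * (E * E') * (‖b τ‖ * ‖b' τ‖)
        = (C₁ * E * ‖b τ‖) * (C₁' * E' * ‖b' τ‖) := by ring
      _ ≤ ‖a τ‖ * ‖a' τ‖ := mul_le_mul h1 h1' (by positivity) (norm_nonneg _)
  · calc ‖a τ‖ * ‖a' τ‖
        ≤ (C₂ * E * ‖b τ‖) * (C₂' * E' * ‖b' τ‖) :=
          mul_le_mul h2 h2' (norm_nonneg _) ((norm_nonneg _).trans h2)
      _ = C₂ * C₂' * (E * E') * (‖b τ‖ * ‖b' τ‖) := by ring

theorem pow (H : HasCuspOrder h a b n) (k : ℕ) : HasCuspOrder h (a ^ k) (b ^ k) (k * n) := by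
  induction k with
  | zero => simpa using one h
  | succ k ih =>
    have e : ((k + 1 : ℕ) : ℤ) * n = k * n + n := by push_cast; ring
    rw [pow_succ, pow_succ, e]
    exact ih.mul H

theorem symm (H : HasCuspOrder h a b n) : HasCuspOrder h b a (-n) := by
  obtain ⟨c, C₁, C₂, hC₁, hH⟩ := H
  have hC₂' : 0 < max C₂ 1 := lt_of_lt_of_le one_pos (le_max_right _ _)
  refine ⟨c, (max C₂ 1)⁻¹, C₁⁻¹, inv_pos.2 hC₂', fun τ hτ => ?_⟩
  obtain ⟨h1, h2⟩ := hH τ hτ
  have hE : Real.exp (-2 * π * ((-n : ℤ) : ℝ) * τ.im / h) =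
      (Real.exp (-2 * π * n * τ.im / h))⁻¹ := by
    rw [← Real.exp_neg]
    congr 1
    push_cast
    ring
  rw [hE]
  set E := Real.exp (-2 * π * n * τ.im / h)
  have hEpos : 0 < E := Real.exp_pos _
  constructor
  · have h2' : ‖a τ‖ ≤ max C₂ 1 * E * ‖b τ‖ := by
      refine h2.trans ?_
      gcongr
      exact le_max_left _ _
    calc (max C₂ 1)⁻¹ * E⁻¹ * ‖a τ‖
        ≤ (max C₂ 1)⁻¹ * E⁻¹ * (max C₂ 1 * E * ‖b τ‖) := by gcongr
      _ = ‖b τ‖ := by field_simp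
  · calc ‖b τ‖ = C₁⁻¹ * E⁻¹ * (C₁ * E * ‖b τ‖) := by field_simp
      _ ≤ C₁⁻¹ * E⁻¹ * ‖a τ‖ := by gcongr

/-- Change of representation: if `a / b = a' / b'` (cross-multiplied) then the cusp orders agree. -/
theorem congr (H : HasCuspOrder h a b n) (hb : MDiff b) (hb0 : b ≠ 0) (ha' : Continuous a')
    (hb' : Continuous b') (hcross : ∀ τ, a τ * b' τ = a' τ * b τ) : HasCuspOrder h a' b' n := by
  obtain ⟨c, C₁, C₂, hC₁, hH⟩ := H
  refine ⟨c + 1, C₁, C₂, hC₁, fun τ₀ hτ₀ => ?_⟩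
  have hEc : Continuous fun τ : ℍ => Real.exp (-2 * π * n * τ.im / h) := by
    have := UpperHalfPlane.continuous_im
    fun_prop
  set S : Set ℍ := {τ : ℍ | C₁ * Real.exp (-2 * π * n * τ.im / h) * ‖b' τ‖ ≤ ‖a' τ‖ ∧
      ‖a' τ‖ ≤ C₂ * Real.exp (-2 * π * n * τ.im / h) * ‖b' τ‖} with hS
  have hclosed : IsClosed S := by
    apply IsClosed.inter
    · exact isClosed_le ((continuous_const.mul hEc).mul hb'.norm) ha'.norm
    · exact isClosed_le ha'.norm ((continuous_const.mul hEc).mul hb'.norm)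
  have hfreq : ∃ᶠ τ in 𝓝 τ₀, b τ ≠ 0 := frequently_nhds_ne_zero hb hb0 τ₀
  have hev : ∀ᶠ τ in 𝓝 τ₀, c < τ.im :=
    (UpperHalfPlane.continuous_im.tendsto τ₀).eventually (lt_mem_nhds (by linarith))
  have key : τ₀ ∈ S := by
    refine hclosed.mem_of_frequently_of_tendsto (f := fun τ : ℍ => τ) ?_ tendsto_id
    refine (hfreq.and_eventually hev).mono fun τ hτ => ?_
    obtain ⟨hbτ, hcτ⟩ := hτ
    obtain ⟨h1, h2⟩ := hH τ hcτ.le
    have hbpos : 0 < ‖b τ‖ := norm_pos_iff.mpr hbτ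
    have hn : ‖a τ‖ * ‖b' τ‖ = ‖a' τ‖ * ‖b τ‖ := by
      rw [← norm_mul, ← norm_mul, hcross τ]
    show C₁ * Real.exp (-2 * π * n * τ.im / h) * ‖b' τ‖ ≤ ‖a' τ‖ ∧
      ‖a' τ‖ ≤ C₂ * Real.exp (-2 * π * n * τ.im / h) * ‖b' τ‖
    set E := Real.exp (-2 * π * n * τ.im / h)
    constructor
    · refine le_of_mul_le_mul_right ?_ hbpos
      calc C₁ * E * ‖b' τ‖ * ‖b τ‖ = (C₁ * E * ‖b τ‖) * ‖b' τ‖ := by ring
        _ ≤ ‖a τ‖ * ‖b' τ‖ := mul_le_mul_of_nonneg_right h1 (norm_nonneg _)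
        _ = ‖a' τ‖ * ‖b τ‖ := hn
    · refine le_of_mul_le_mul_right ?_ hbpos
      calc ‖a' τ‖ * ‖b τ‖ = ‖a τ‖ * ‖b' τ‖ := hn.symm
        _ ≤ (C₂ * E * ‖b τ‖) * ‖b' τ‖ := mul_le_mul_of_nonneg_right h2 (norm_nonneg _)
        _ = C₂ * E * ‖b' τ‖ * ‖b τ‖ := by ring
  exact key

theorem not_lt_aux (hh : 0 < h) (H : HasCuspOrder h a b n) (H' : HasCuspOrder h a b n')
    (hb : MDiff b) (hb0 : b ≠ 0) : ¬ n < n' := by
  intro hlt
  obtain ⟨c, C₁, C₂, hC₁, hH⟩ := H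
  obtain ⟨c', C₁', C₂', hC₁', hH'⟩ := H'
  have hq0 : Tendsto (fun τ : ℍ => ‖𝕢 h τ‖) atImInfty (𝓝 0) :=
    tendsto_zero_iff_norm_tendsto_zero.mp (qParam_tendsto_atImInfty hh)
  have hq1 : Tendsto (fun τ : ℍ => max C₂' 0 * ‖𝕢 h τ‖) atImInfty (𝓝 0) := by
    simpa using hq0.const_mul (max C₂' 0)
  have hev1 : ∀ᶠ τ : ℍ in atImInfty, max C₂' 0 * ‖𝕢 h τ‖ < C₁ := hq1.eventually (gt_mem_nhds hC₁)
  have hev2 : ∀ᶠ τ : ℍ in atImInfty, max c c' ≤ τ.im :=
    (atImInfty_mem _).mpr ⟨max c c', fun τ hτ => hτ⟩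
  have hfreq : ∃ᶠ τ in atImInfty, b τ ≠ 0 := by
    intro hcon
    apply hb0
    apply eq_zero_of_eventually_atImInfty hb
    exact hcon.mono fun τ hτ => not_not.mp hτ
  obtain ⟨τ, hbτ, hτ1, hτ2⟩ := (hfreq.and_eventually (hev1.and hev2)).exists
  obtain ⟨h1, -⟩ := hH τ ((le_max_left _ _).trans hτ2)
  obtain ⟨-, h2'⟩ := hH' τ ((le_max_right _ _).trans hτ2)
  have hbpos : 0 < ‖b τ‖ := norm_pos_iff.mpr hbτ
  have hr : ∀ k : ℤ, Real.exp (-2 * π * k * τ.im / h) = ‖𝕢 h τ‖ ^ k := fun k => by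
    rw [← exp_eq_norm_qParam_zpow, UpperHalfPlane.coe_im]
  rw [hr] at h1 h2'
  set r := ‖𝕢 h τ‖ with hrdef
  have hrpos : 0 < r := norm_pos_iff.mpr (Periodic.qParam_ne_zero _)
  have hrlt : r < 1 := Periodic.norm_qParam_lt_one hh τ.im_pos
  have h3 : C₁ * r ^ n ≤ C₂' * r ^ n' := by
    refine le_of_mul_le_mul_right ?_ hbpos
    exact h1.trans h2'
  have h4 : r ^ n' ≤ r ^ n * r := by
    have : r ^ n' ≤ r ^ (n + 1) := zpow_le_zpow_right_of_le_one₀ hrpos hrlt.le (by omega)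
    rwa [zpow_add_one₀ hrpos.ne'] at this
  have hrn : 0 < r ^ n := zpow_pos hrpos n
  have h5 : C₁ * r ^ n ≤ (max C₂' 0 * r) * r ^ n := by
    calc C₁ * r ^ n ≤ C₂' * r ^ n' := h3
      _ ≤ max C₂' 0 * r ^ n' := by gcongr; exact le_max_left _ _
      _ ≤ max C₂' 0 * (r ^ n * r) := by gcongr
      _ = (max C₂' 0 * r) * r ^ n := by ring
  have h6 : C₁ ≤ max C₂' 0 * r := le_of_mul_le_mul_right h5 hrn
  linarith

/-- **Uniqueness of the cusp order.** -/
theorem unique (hh : 0 < h) (H : HasCuspOrder h a b n) (H' : HasCuspOrder h a b n')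
    (hb : MDiff b) (hb0 : b ≠ 0) : n = n' :=
  le_antisymm (not_lt.mp (not_lt_aux hh H' H hb hb0)) (not_lt.mp (not_lt_aux hh H H' hb hb0))

/-- Change of period (`q_N` versus `q_h`, `N = h * d`). -/
theorem mul_period_iff {d : ℕ} (hd : d ≠ 0) (hh : h ≠ 0) :
    HasCuspOrder (h * d) a b (n * d) ↔ HasCuspOrder h a b n := by
  have hdr : (d : ℝ) ≠ 0 := Nat.cast_ne_zero.mpr hd
  have key : ∀ y : ℝ, -2 * π * ((n * d : ℤ) : ℝ) * y / (h * d) = -2 * π * n * y / h := by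
    intro y
    push_cast
    field_simp
  simp only [HasCuspOrder, key]

/-- A quotient with a cusp order is of moderate growth (the admissibility predicate). -/
theorem growth (hh : 0 < h) (H : HasCuspOrder h a b n) :
    ∃ (c C : ℝ) (m : ℕ), ∀ τ : ℍ, c ≤ τ.im →
      ‖a τ‖ ≤ C * Real.exp (2 * π * m * τ.im) * ‖b τ‖ := by
  obtain ⟨c, C₁, C₂, hC₁, hH⟩ := H
  set m : ℕ := ⌈|(n : ℝ)| / h⌉₊ with hm
  have hmle : |(n : ℝ)| / h ≤ m := Nat.le_ceil _
  refine ⟨c, max C₂ 0, m, fun τ hτ => ?_⟩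
  obtain ⟨-, h2⟩ := hH τ hτ
  refine h2.trans ?_
  have hle : -2 * π * n * τ.im / h ≤ 2 * π * m * τ.im := by
    have h1 : -(n : ℝ) / h ≤ m := by
      refine le_trans ?_ hmle
      gcongr
      exact neg_le_abs _
    have h2 : -2 * π * n * τ.im / h = (2 * π * τ.im) * (-(n : ℝ) / h) := by ring
    have h3 : 2 * π * m * τ.im = (2 * π * τ.im) * m := by ring
    rw [h2, h3]
    have : 0 ≤ 2 * π * τ.im := by have := τ.im_pos; positivity
    gcongr
  calc C₂ * Real.exp (-2 * π * n * τ.im / h) * ‖b τ‖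
      ≤ max C₂ 0 * Real.exp (-2 * π * n * τ.im / h) * ‖b τ‖ := by
        gcongr
        exact le_max_left _ _
    _ ≤ max C₂ 0 * Real.exp (2 * π * m * τ.im) * ‖b τ‖ := by
        gcongr

end HasCuspOrder

end Fermat.Agent.S29.H30
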