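/-
helper30 — Stage 3 / P2 consumer corollary: the Poincaré quotient `Φ = A_χ / B` on `Γ₀(N)`:
automorphy, periodicity of all slash translates, and the growth predicate
`‖A (σ τ)‖ ≤ C exp (2π m Im τ) ‖B (σ τ)‖` at every cusp.
-/
import Fermat.Agent.S29.H30_TwistedEis
import Fermat.Agent.S29.H30_CuspLower

set_option autoImplicit false

noncomputable section

open UpperHalfPlane EisensteinSeries Matrix ModularForm Filter Complex Manifold Function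
open CongruenceSubgroup
open scoped MatrixGroups Topology Real

namespace Fermat.Agent.S29.H30

/-! ### Periodicity of slash translates -/

section Periodic

variable {Γ : Subgroup SL(2, ℤ)} {χ : Γ →* ℂˣ}

/-- If `γ ∈ Γ` with `χ γ = 1`, the weight function is invariant under right multiplication by
`γ`. -/
theorem chiRow_vecMul_of_chi_eq_one (hT : TrivialOnTriangular Γ χ) (γ : Γ) (hγ : χ γ = 1)
    (v : Fin 2 → ℤ) :
    chiRow Γ χ (v ᵥ* (↑(γ : SL(2, ℤ)) : Matrix (Fin 2) (Fin 2) ℤ)) = chiRow Γ χ v := by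
  have h := chiRow_vecMul_inv hT (γ⁻¹) v
  rw [Subgroup.coe_inv, inv_inv, map_inv, hγ, inv_one, Units.val_one, one_mul] at h
  exact h

/-- Periodicity of the slash translate `twEis ∣[k] σ` under `Tⁿ` when `σ Tⁿ σ⁻¹ ∈ Γ` is killed
by `χ`. -/
theorem twEis_slash_T_zpow_smul (hT : TrivialOnTriangular Γ χ) (k : ℤ) (σ : SL(2, ℤ)) (n : ℤ)
    (hmem : σ * ModularGroup.T ^ n * σ⁻¹ ∈ Γ) (hχ : χ ⟨_, hmem⟩ = 1) (τ : ℍ) :
    ((twEis Γ χ k) ∣[k] σ) (ModularGroup.T ^ n • τ) = ((twEis Γ χ k) ∣[k] σ) τ := by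
  have hdef : twEis Γ χ k = twSum (chiRow Γ χ) k := rfl
  rw [hdef, twSum_slash]
  symm
  rw [twSum_T_zpow_smul _ k n τ]
  congr 1
  funext v
  -- `v T^n σ⁻¹ = (v σ⁻¹) (σ T^n σ⁻¹)`
  have hmat : (v ᵥ* (↑(ModularGroup.T ^ n) : Matrix (Fin 2) (Fin 2) ℤ)) ᵥ*
      (↑(σ⁻¹) : Matrix (Fin 2) (Fin 2) ℤ) =
      (v ᵥ* (↑(σ⁻¹) : Matrix (Fin 2) (Fin 2) ℤ)) ᵥ*
        (↑(σ * ModularGroup.T ^ n * σ⁻¹) : Matrix (Fin 2) (Fin 2) ℤ) := by
    rw [Matrix.vecMul_vecMul, Matrix.vecMul_vecMul, Matrix.SpecialLinearGroup.coe_mul,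
      Matrix.SpecialLinearGroup.coe_mul, ← Matrix.mul_assoc, ← Matrix.mul_assoc,
      coe_inv_mul_coe, Matrix.one_mul]
  rw [hmat]
  exact chiRow_vecMul_of_chi_eq_one hT ⟨_, hmem⟩ hχ _

theorem periodic_comp_ofComplex_of_T_zpow {g : ℍ → ℂ} (n : ℤ)
    (h : ∀ τ : ℍ, g (ModularGroup.T ^ n • τ) = g τ) :
    Periodic (g ∘ ofComplex) (n : ℝ) := by
  intro w
  by_cases hw : 0 < im w
  · have hw' : 0 < im (w + ((n : ℝ) : ℂ)) := by simpa using hw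
    rw [Function.comp_apply, Function.comp_apply, ofComplex_apply_of_im_pos hw',
      ofComplex_apply_of_im_pos hw]
    rw [← h ⟨w, hw⟩]
    congr 1
    ext
    rw [ModularGroup.coe_T_zpow_smul_eq]
    simp
  · have hw0 : im w ≤ 0 := not_lt.mp hw
    have hw' : im (w + ((n : ℝ) : ℂ)) ≤ 0 := by simpa using hw0
    rw [Function.comp_apply, Function.comp_apply, ofComplex_apply_of_im_nonpos hw',
      ofComplex_apply_of_im_nonpos hw0]

end Periodic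

/-! ### The case `Γ = Γ₀(N)` -/

section Gamma0

variable (N : ℕ) [NeZero N]

omit [NeZero N] in
theorem conj_T_pow_mem_Gamma0 (σ : SL(2, ℤ)) :
    σ * ModularGroup.T ^ (N : ℤ) * σ⁻¹ ∈ Gamma0 N := by
  have h1 : ModularGroup.T ^ (N : ℤ) ∈ CongruenceSubgroup.Gamma N := by
    simpa using ModularGroup_T_pow_mem_Gamma (N : ℤ) (N : ℤ) dvd_rfl
  have h2 : σ * ModularGroup.T ^ (N : ℤ) * σ⁻¹ ∈ CongruenceSubgroup.Gamma N := (Gamma_normal N).conj_mem _ h1 σ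
  rw [Gamma_mem] at h2
  rw [Gamma0_mem]
  exact h2.2.2.1

theorem trace_conj_T_zpow (σ : SL(2, ℤ)) (n : ℤ) :
    (σ * ModularGroup.T ^ n * σ⁻¹) 0 0 + (σ * ModularGroup.T ^ n * σ⁻¹) 1 1 = 2 := by
  have h1 : Matrix.trace (↑(σ * ModularGroup.T ^ n * σ⁻¹) : Matrix (Fin 2) (Fin 2) ℤ) =
      Matrix.trace (↑(ModularGroup.T ^ n) : Matrix (Fin 2) (Fin 2) ℤ) := by
    rw [Matrix.SpecialLinearGroup.coe_mul, Matrix.SpecialLinearGroup.coe_mul,
      Matrix.trace_mul_cycle, coe_inv_mul_coe, Matrix.one_mul]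
  rw [Matrix.trace_fin_two, Matrix.trace_fin_two, ModularGroup.coe_T_zpow] at h1
  simpa using h1

/-- Hypothesis on the character: trivial on the elements of trace `±2`. -/
def KillsTraceTwo (χ : Gamma0 N →* ℂˣ) : Prop :=
  ∀ γ : Gamma0 N, ((γ : SL(2, ℤ)) 0 0 + (γ : SL(2, ℤ)) 1 1 = 2 ∨
      (γ : SL(2, ℤ)) 0 0 + (γ : SL(2, ℤ)) 1 1 = -2) → χ γ = 1

variable {N}

theorem periodic_twEis_slash {χ : Gamma0 N →* ℂˣ} (hχ : KillsTraceTwo N χ) (k : ℤ)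
    (σ : SL(2, ℤ)) :
    Periodic (((twEis (Gamma0 N) χ k) ∣[k] σ) ∘ ofComplex) (N : ℝ) := by
  have hT : TrivialOnTriangular (Gamma0 N) χ := trivialOnTriangular_of_trace hχ
  have hmem := conj_T_pow_mem_Gamma0 N σ
  have hχ1 : χ ⟨_, hmem⟩ = 1 := hχ ⟨_, hmem⟩ (Or.inl (trace_conj_T_zpow σ N))
  have := periodic_comp_ofComplex_of_T_zpow (g := (twEis (Gamma0 N) χ k) ∣[k] σ) (N : ℤ)
    (twEis_slash_T_zpow_smul hT k σ (N : ℤ) hmem hχ1)
  simpa using this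

theorem slash_ne_zero {g : ℍ → ℂ} (hg : g ≠ 0) (k : ℤ) (σ : SL(2, ℤ)) : g ∣[k] σ ≠ 0 := by
  intro h
  apply hg
  have h2 : (g ∣[k] σ) ∣[k] σ⁻¹ = 0 := by rw [h]; exact SlashAction.zero_slash _ _
  rw [← SlashAction.slash_mul, mul_inv_cancel, SlashAction.slash_one] at h2
  exact h2

theorem slash_mdifferentiable {g : ℍ → ℂ} (hg : MDiff g) (k : ℤ) (σ : SL(2, ℤ)) :
    MDiff (g ∣[k] σ) := by
  have := MDifferentiable.slash (k := k) hg (Matrix.SpecialLinearGroup.mapGL ℝ σ)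
  exact this

/-- Growth comparison at a cusp: numerator bounded, denominator bounded below. -/
theorem growth_of_slash {A B : ℍ → ℂ} {k : ℤ} (σ : SL(2, ℤ))
    (hA : IsBoundedAtImInfty (A ∣[k] σ))
    (hB : ∃ (m : ℕ) (C c : ℝ), 0 < C ∧
      ∀ τ : ℍ, c ≤ τ.im → C * Real.exp (-2 * π * m * τ.im / N) ≤ ‖(B ∣[k] σ) τ‖) :
    ∃ (c C : ℝ) (m : ℕ), ∀ τ : ℍ, c ≤ τ.im →
      ‖A (σ • τ)‖ ≤ C * Real.exp (2 * π * m * τ.im) * ‖B (σ • τ)‖ := by
  obtain ⟨M, c1, hM⟩ := UpperHalfPlane.isBoundedAtImInfty_iff.mp hA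
  obtain ⟨m, C, c2, hC, hlow⟩ := hB
  refine ⟨max c1 c2, max M 0 / C, m, fun τ hτ => ?_⟩
  have h1 := hM τ (le_trans (le_max_left _ _) hτ)
  have h2 := hlow τ (le_trans (le_max_right _ _) hτ)
  rw [SL_slash_apply] at h1 h2
  set d : ℂ := denom σ τ ^ (-k) with hd
  have hd0 : d ≠ 0 := zpow_ne_zero _ (denom_ne_zero σ τ)
  have hdpos : 0 < ‖d‖ := norm_pos_iff.mpr hd0
  rw [norm_mul] at h1 h2
  -- exp(-2π m y / N) ≥ exp(-2π m y)
  have hN1 : (1 : ℝ) ≤ N := by exact_mod_cast Nat.one_le_iff_ne_zero.mpr (NeZero.ne N)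
  have hexp : Real.exp (-(2 * π * m * τ.im)) ≤ Real.exp (-2 * π * m * τ.im / N) := by
    apply Real.exp_le_exp.mpr
    have hy : 0 ≤ 2 * π * m * τ.im := by have := τ.im_pos; positivity
    have : 2 * π * m * τ.im / N ≤ 2 * π * m * τ.im := div_le_self hy hN1
    have h3 : -2 * π * m * τ.im / N = -(2 * π * m * τ.im / N) := by ring
    rw [h3]
    linarith
  have hM0 : ‖A (σ • τ)‖ * ‖d‖ ≤ max M 0 := h1.trans (le_max_left _ _)
  have hkey : C * Real.exp (-(2 * π * m * τ.im)) ≤ ‖B (σ • τ)‖ * ‖d‖ :=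
    (mul_le_mul_of_nonneg_left hexp hC.le).trans h2
  have hE : 0 < Real.exp (2 * π * m * τ.im) := Real.exp_pos _
  have hEE : Real.exp (2 * π * m * τ.im) * Real.exp (-(2 * π * m * τ.im)) = 1 := by
    rw [← Real.exp_add, add_neg_cancel, Real.exp_zero]
  -- ‖A‖ ‖d‖ ≤ M' = (M'/C) e^{..} (C e^{-..}) ≤ (M'/C) e^{..} ‖B‖ ‖d‖
  have hfin : ‖A (σ • τ)‖ * ‖d‖ ≤
      (max M 0 / C * Real.exp (2 * π * m * τ.im) * ‖B (σ • τ)‖) * ‖d‖ := by
    calc ‖A (σ • τ)‖ * ‖d‖ ≤ max M 0 := hM0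
      _ = max M 0 / C * Real.exp (2 * π * m * τ.im) *
            (C * Real.exp (-(2 * π * m * τ.im))) := by
          field_simp
          rw [mul_assoc, hEE, mul_one]
      _ ≤ max M 0 / C * Real.exp (2 * π * m * τ.im) * (‖B (σ • τ)‖ * ‖d‖) := by
          apply mul_le_mul_of_nonneg_left hkey
          have : 0 ≤ max M 0 / C := div_nonneg (le_max_right _ _) hC.le
          positivity
      _ = (max M 0 / C * Real.exp (2 * π * m * τ.im) * ‖B (σ • τ)‖) * ‖d‖ := by ring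
  exact le_of_mul_le_mul_right hfin hdpos

/-- **The Poincaré quotient on `Γ₀(N)` (consumer form).** One even weight `k ≥ 4` for all
characters: for every unitary `χ : Γ₀(N) →* ℂˣ` killing the elements of trace `±2` there are
holomorphic `A, B : ℍ → ℂ`, both nonzero, with
`A (γ τ) = χ γ (cτ+d)^k A τ`, `B (γ τ) = (cτ+d)^k B τ` on `Γ₀(N)`, and at every cusp `σ`
`‖A (σ τ)‖ ≤ C exp (2π m Im τ) ‖B (σ τ)‖` for `Im τ ≥ c`. -/
theorem exists_poincare_quotient (N : ℕ) [NeZero N] :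
    ∃ k : ℤ, 4 ≤ k ∧ Even k ∧
      ∀ χ : Gamma0 N →* ℂˣ, KillsTraceTwo N χ → IsUnitary (Gamma0 N) χ →
        ∃ A B : ℍ → ℂ, MDiff A ∧ MDiff B ∧ A ≠ 0 ∧ B ≠ 0 ∧
          (∀ (γ : Gamma0 N) (τ : ℍ), A ((γ : SL(2, ℤ)) • τ) =
            ((χ γ : ℂˣ) : ℂ) * denom (γ : SL(2, ℤ)) τ ^ k * A τ) ∧
          (∀ (γ : Gamma0 N) (τ : ℍ), B ((γ : SL(2, ℤ)) • τ) =
            denom (γ : SL(2, ℤ)) τ ^ k * B τ) ∧
          (∀ σ : SL(2, ℤ), ∃ (c C : ℝ) (m : ℕ), ∀ τ : ℍ, c ≤ τ.im →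
            ‖A (σ • τ)‖ ≤ C * Real.exp (2 * π * m * τ.im) * ‖B (σ • τ)‖) ∧
          (∀ σ : SL(2, ℤ), ∃ (c C : ℝ) (m : ℕ), ∀ τ : ℍ, c ≤ τ.im →
            ‖B (σ • τ)‖ ≤ C * Real.exp (2 * π * m * τ.im) * ‖A (σ • τ)‖) := by
  obtain ⟨k0, hk0, h⟩ := exists_weight_twEis_ne_zero
  obtain ⟨k, hk, hkev⟩ : ∃ k : ℤ, max k0 4 ≤ k ∧ Even k := by
    refine ⟨2 * max k0 4, ?_, even_two_mul _⟩
    have : 0 ≤ max k0 4 := le_trans (by norm_num) (le_max_right k0 4)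
    linarith
  have hk4 : 4 ≤ k := le_trans (le_max_right _ _) hk
  have hkk0 : k0 ≤ k := le_trans (le_max_left _ _) hk
  have hk3 : 3 ≤ k := by omega
  refine ⟨k, hk4, hkev, fun χ hχ hU => ?_⟩
  -- the trivial character
  have h1kill : KillsTraceTwo N (1 : Gamma0 N →* ℂˣ) := fun _ _ => rfl
  have h1U : IsUnitary (Gamma0 N) (1 : Gamma0 N →* ℂˣ) := fun _ => by simp
  have hT : TrivialOnTriangular (Gamma0 N) χ := trivialOnTriangular_of_trace hχ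
  have hT1 : TrivialOnTriangular (Gamma0 N) (1 : Gamma0 N →* ℂˣ) :=
    trivialOnTriangular_of_trace h1kill
  set A := twEis (Gamma0 N) χ k with hAdef
  set B := twEis (Gamma0 N) (1 : Gamma0 N →* ℂˣ) k with hBdef
  have hAhol : MDiff A := twEis_mdifferentiable hU hk3
  have hBhol : MDiff B := twEis_mdifferentiable h1U hk3
  have hA0 : A ≠ 0 := fun h0 => h k hkk0 hkev _ χ hT hU (by rw [← hAdef, h0]; rfl)
  have hB0 : B ≠ 0 := fun h0 => h k hkk0 hkev _ 1 hT1 h1U (by rw [← hBdef, h0]; rfl)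
  have hN : (0 : ℝ) < N := by exact_mod_cast Nat.pos_of_ne_zero (NeZero.ne N)
  have low : ∀ (χ' : Gamma0 N →* ℂˣ), KillsTraceTwo N χ' → IsUnitary (Gamma0 N) χ' →
      twEis (Gamma0 N) χ' k ≠ 0 → ∀ σ : SL(2, ℤ), ∃ (m : ℕ) (C c : ℝ), 0 < C ∧
      ∀ τ : ℍ, c ≤ τ.im → C * Real.exp (-2 * π * m * τ.im / N) ≤
        ‖((twEis (Gamma0 N) χ' k) ∣[k] σ) τ‖ := by
    intro χ' hχ' hU' hne σ
    exact exists_lower_bound_atImInfty hN (periodic_twEis_slash hχ' k σ)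
      (slash_mdifferentiable (twEis_mdifferentiable hU' hk3) k σ)
      (isBoundedAtImInfty_twEis_slash hU' hk3 σ) (slash_ne_zero hne k σ)
  refine ⟨A, B, hAhol, hBhol, hA0, hB0, fun γ τ => twEis_smul hT k γ τ, fun γ τ => ?_,
    fun σ => ?_, fun σ => ?_⟩
  · have := twEis_smul hT1 k γ τ
    simpa using this
  · exact growth_of_slash σ (isBoundedAtImInfty_twEis_slash hU hk3 σ) (low 1 h1kill h1U hB0 σ)
  · exact growth_of_slash σ (isBoundedAtImInfty_twEis_slash h1U hk3 σ) (low χ hχ hU hA0 σ)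

end Gamma0

end Fermat.Agent.S29.H30
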