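/-
helper30 — Stage 3 / (A5)-(A7): cusp orders of `χ`-automorphic quotients on `Γ₀(N)`.

For `Φ = a / b` (holomorphic `a, b`, no periodicity assumed on them) with
`Φ ∘ γ = χ(γ) Φ` on `Γ₀(N)` in cross-multiplied form, `χ` killing the parabolic elements, and `Φ`
of moderate growth at the cusp `σ ∞`, the translate `Φ ∘ σ` has an INTEGER `q_h`-order at `∞` for
every `h` with `σ T^h σ⁻¹ ∈ Γ₀(N)` (e.g. the cusp width, or `h = N`); and if `Φ ^ n = f₁ / f₂` then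
`n` divides the `q_h`-order of `(f₁ / f₂) ∘ σ`.
-/
import Fermat.Agent.S29.H30_CuspOrder
import Fermat.Agent.S29.H30_PoincareQuot

set_option autoImplicit false

noncomputable section

open Filter Complex Function CongruenceSubgroup
open UpperHalfPlane hiding I
open scoped Topology Manifold Real MatrixGroups

namespace Fermat.Agent.S29.H30

theorem mdiff_comp_smul {g : ℍ → ℂ} (hg : MDiff g) (γ : SL(2, ℤ)) :
    MDiff (fun τ : ℍ => g (γ • τ)) := by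
  have hdet : 0 < (Matrix.SpecialLinearGroup.mapGL ℝ γ : GL (Fin 2) ℝ).det.val := by
    rw [Matrix.SpecialLinearGroup.det_mapGL]
    simp
  have h1 : MDiff (fun τ : ℍ => (Matrix.SpecialLinearGroup.mapGL ℝ γ : GL (Fin 2) ℝ) • τ) :=
    mdifferentiable_smul hdet
  exact hg.comp h1

theorem comp_smul_ne_zero {g : ℍ → ℂ} (g0 : g ≠ 0) (γ : SL(2, ℤ)) :
    (fun τ : ℍ => g (γ • τ)) ≠ 0 := by
  intro h0
  apply g0
  funext τ
  have := congrFun h0 (γ⁻¹ • τ)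
  simpa using this

theorem mdiff_pow {g : ℍ → ℂ} (hg : MDiff g) (n : ℕ) : MDiff (g ^ n) := by
  induction n with
  | zero => rw [pow_zero]; exact (mdifferentiable_const : MDiff (fun _ : ℍ => (1 : ℂ)))
  | succ m ih => rw [pow_succ]; exact ih.mul hg

section Aut

variable {N : ℕ} {χ : Gamma0 N →* ℂˣ} {a b : ℍ → ℂ}

/-- `χ`-automorphy of the quotient `a / b` in cross-multiplied form (helper14's shape). -/
def IsAutQuot (N : ℕ) (χ : Gamma0 N →* ℂˣ) (a b : ℍ → ℂ) : Prop :=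
  ∀ (γ : Gamma0 N) (τ : ℍ), a ((γ : SL(2, ℤ)) • τ) * b τ
    = ((χ γ : ℂˣ) : ℂ) * (a τ * b ((γ : SL(2, ℤ)) • τ))

/-- Periodicity of the `σ`-translate of an automorphic quotient, cross-multiplied. -/
theorem cross_periodic (hχ : KillsTraceTwo N χ) (haut : IsAutQuot N χ a b) (σ : SL(2, ℤ)) (h : ℕ)
    (hmem : σ * ModularGroup.T ^ (h : ℤ) * σ⁻¹ ∈ Gamma0 N) (τ : ℍ) :
    a (σ • (((h : ℕ) : ℝ) +ᵥ τ)) * b (σ • τ) = a (σ • τ) * b (σ • (((h : ℕ) : ℝ) +ᵥ τ)) := by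
  have hχ1 : χ ⟨_, hmem⟩ = 1 := hχ ⟨_, hmem⟩ (Or.inl (trace_conj_T_zpow σ h))
  have key : σ • (((h : ℕ) : ℝ) +ᵥ τ) = (σ * ModularGroup.T ^ (h : ℤ) * σ⁻¹) • (σ • τ) := by
    rw [← mul_smul, mul_assoc, mul_assoc, inv_mul_cancel, mul_one, mul_smul,
      UpperHalfPlane.modular_T_zpow_smul]
    simp
  rw [key]
  have := haut ⟨_, hmem⟩ (σ • τ)
  rw [hχ1] at this
  simpa using this

/-- **Integer cusp order of an automorphic quotient** at the cusp `σ ∞`, for any period `h` with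
`σ T^h σ⁻¹ ∈ Γ₀(N)`. -/
theorem exists_hasCuspOrder_of_aut (hχ : KillsTraceTwo N χ) (ha : MDiff a) (hb : MDiff b)
    (ha0 : a ≠ 0) (hb0 : b ≠ 0) (haut : IsAutQuot N χ a b) (σ : SL(2, ℤ)) {h : ℕ} (hh : 0 < h)
    (hmem : σ * ModularGroup.T ^ (h : ℤ) * σ⁻¹ ∈ Gamma0 N)
    (hgrow : ∃ (c C : ℝ) (m : ℕ), ∀ τ : ℍ, c ≤ τ.im →
      ‖a (σ • τ)‖ ≤ C * Real.exp (2 * π * m * τ.im) * ‖b (σ • τ)‖) :
    ∃ n : ℤ, HasCuspOrder (h : ℝ) (fun τ => a (σ • τ)) (fun τ => b (σ • τ)) n :=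
  exists_hasCuspOrder (by exact_mod_cast hh) (mdiff_comp_smul ha σ) (mdiff_comp_smul hb σ)
    (comp_smul_ne_zero ha0 σ) (comp_smul_ne_zero hb0 σ) (cross_periodic hχ haut σ h hmem) hgrow

/-- The same with `h = N`. -/
theorem exists_hasCuspOrder_of_aut_level [NeZero N] (hχ : KillsTraceTwo N χ) (ha : MDiff a)
    (hb : MDiff b) (ha0 : a ≠ 0) (hb0 : b ≠ 0) (haut : IsAutQuot N χ a b) (σ : SL(2, ℤ))
    (hgrow : ∃ (c C : ℝ) (m : ℕ), ∀ τ : ℍ, c ≤ τ.im →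
      ‖a (σ • τ)‖ ≤ C * Real.exp (2 * π * m * τ.im) * ‖b (σ • τ)‖) :
    ∃ n : ℤ, HasCuspOrder (N : ℝ) (fun τ => a (σ • τ)) (fun τ => b (σ • τ)) n :=
  exists_hasCuspOrder_of_aut hχ ha hb ha0 hb0 haut σ (Nat.pos_of_ne_zero (NeZero.ne N))
    (conj_T_pow_mem_Gamma0 N σ) hgrow

/-- **Divisibility at the cusps.**  If `(a / b) ^ n = f₁ / f₂` and `(f₁ / f₂) ∘ σ` has `q_h`-order
`k`, then `k = n * j` where `j` is the `q_h`-order of `(a / b) ∘ σ`. -/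
theorem exists_cuspOrder_eq_mul (hχ : KillsTraceTwo N χ) (ha : MDiff a) (hb : MDiff b)
    (ha0 : a ≠ 0) (hb0 : b ≠ 0) (haut : IsAutQuot N χ a b) (σ : SL(2, ℤ)) {h : ℕ} (hh : 0 < h)
    (hmem : σ * ModularGroup.T ^ (h : ℤ) * σ⁻¹ ∈ Gamma0 N)
    (hgrow : ∃ (c C : ℝ) (m : ℕ), ∀ τ : ℍ, c ≤ τ.im →
      ‖a (σ • τ)‖ ≤ C * Real.exp (2 * π * m * τ.im) * ‖b (σ • τ)‖)
    {f₁ f₂ : ℍ → ℂ} (hf₁ : MDiff f₁) (hf₂ : MDiff f₂) (hf₂0 : f₂ ≠ 0) (n : ℕ)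
    (hpow : ∀ τ, a τ ^ n * f₂ τ = f₁ τ * b τ ^ n) {k : ℤ}
    (hk : HasCuspOrder (h : ℝ) (fun τ => f₁ (σ • τ)) (fun τ => f₂ (σ • τ)) k) :
    ∃ j : ℤ, k = n * j ∧ HasCuspOrder (h : ℝ) (fun τ => a (σ • τ)) (fun τ => b (σ • τ)) j := by
  obtain ⟨j, hj⟩ := exists_hasCuspOrder_of_aut hχ ha hb ha0 hb0 haut σ hh hmem hgrow
  refine ⟨j, ?_, hj⟩
  have hhr : (0 : ℝ) < (h : ℝ) := by exact_mod_cast hh
  have hbσ : MDiff (fun τ : ℍ => b (σ • τ)) := mdiff_comp_smul hb σ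
  have hbσn : MDiff ((fun τ : ℍ => b (σ • τ)) ^ n) := mdiff_pow hbσ n
  have hbσn0 : (fun τ : ℍ => b (σ • τ)) ^ n ≠ 0 := pow_ne_zero n (comp_smul_ne_zero hb0 σ)
  have h1 := (hj.pow n).congr hbσn hbσn0 (mdiff_comp_smul hf₁ σ).continuous
    (mdiff_comp_smul hf₂ σ).continuous (fun τ => by
      simpa [Pi.pow_apply] using hpow (σ • τ))
  exact HasCuspOrder.unique hhr hk h1 (mdiff_comp_smul hf₂ σ) (comp_smul_ne_zero hf₂0 σ)

end Aut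

end Fermat.Agent.S29.H30
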