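import Mathlib
import Fermat.Agent.S29.H32_LocalEll
import Fermat.Agent.S29.H85_MerAct

/-!
# LOCAL-ell in the `Mer` vocabulary (helper32, S29 / (B4) bridge)

`Φ : Mer` (fractions of holomorphic functions on `ℍ`, `S24.H81`), action `H85.actMer γ Φ = Φ ∘ γ`.

* `cross_of_actMer_eq` : `actMer γ (a / b) = ζ • (a / b)` in function form;
* `ellOrder_dvd_merOrd` : if `Φ ≠ 0` is invariant under the stabiliser of `τ0` in `Γ` then
  `ellOrder Γ τ0 ∣ merOrd τ0 Φ`;
* stabilisers: an element of `SL(2, ℤ)` fixing a point of `ℍ` is `± 1` or has trace `0, ± 1`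
  (`eq_or_trace_of_smul_eq`), hence has finite order (`pow_twelve_eq_one_of_smul_eq`,
  `isOfFinOrder_of_smul_eq`);
* `ellOrder_dvd_merOrd_of_char` : the same for `Φ` automorphic with a character killing the
  elements of finite order.
-/

set_option autoImplicit false

noncomputable section

namespace Fermat.Agent.S29.H32

open Filter Topology UpperHalfPlane
open Fermat.Agent.S24.H81
open scoped MatrixGroups Manifold

/-! ## From `Mer` to functions -/

theorem algebraMap_Hol_ne_zero {a : Hol} (ha : a ≠ 0) : algebraMap Hol Mer a ≠ 0 :=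
  (map_ne_zero_iff _ (IsFractionRing.injective Hol Mer)).mpr ha

/-- `Φ ∘ γ = ζ • Φ` for `Φ = a / b`, in cross-multiplied function form. -/
theorem cross_of_actMer_eq {γ : SL(2, ℤ)} {a b : Hol} (hb : b ≠ 0) {ζ : ℂ}
    (h : H85.actMer γ (algebraMap Hol Mer a / algebraMap Hol Mer b)
      = H85.constMer ζ * (algebraMap Hol Mer a / algebraMap Hol Mer b)) :
    ∀ τ : ℍ, (a : ℍ → ℂ) (γ • τ) * (b : ℍ → ℂ) τ = ζ * ((a : ℍ → ℂ) τ * (b : ℍ → ℂ) (γ • τ)) := by
  have hb' : algebraMap Hol Mer b ≠ 0 := algebraMap_Hol_ne_zero hb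
  have hγb : H85.compHol γ b ≠ 0 :=
    (map_ne_zero_iff _ (H85.compHolGL_injective _ (H85.det_SL_pos γ))).mpr hb
  have hγb' : algebraMap Hol Mer (H85.compHol γ b) ≠ 0 := algebraMap_Hol_ne_zero hγb
  rw [H85.actMer_div, H85.constMer_apply, ← mul_div_assoc, div_eq_div_iff hγb' hb',
    ← map_mul, ← map_mul, ← map_mul] at h
  have h' := IsFractionRing.injective Hol Mer h
  intro τ
  have := congrArg (fun g : Hol => (g : ℍ → ℂ) τ) h'
  simp only [Subring.coe_mul, Pi.mul_apply, H85.compHol_apply, H85.constHol_apply] at this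
  rw [this]; ring

/-- **(B4), `Mer` form.** If `Φ ≠ 0` is invariant under the stabiliser of `τ0` in `Γ`, then
`ellOrder Γ τ0` divides the order of `Φ` at `τ0`. -/
theorem ellOrder_dvd_merOrd (Γ : Subgroup SL(2, ℤ)) (τ0 : ℍ) {Φ : Mer} (hΦ : Φ ≠ 0)
    (hinv : ∀ γ ∈ Γ, γ • τ0 = τ0 → H85.actMer γ Φ = Φ) :
    (ellOrder Γ τ0 : ℤ) ∣ merOrd τ0 Φ := by
  obtain ⟨a, b, hb, rfl⟩ := H85.exists_eq_div Φ
  have ha : a ≠ 0 := by
    rintro rfl
    simp at hΦ
  rw [H85.merOrd_div τ0 ha hb]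
  have ha' : (a : ℍ → ℂ) ≠ 0 := fun h => ha (Subtype.ext h)
  have hb' : (b : ℍ → ℂ) ≠ 0 := fun h => hb (Subtype.ext h)
  refine ellOrder_dvd Γ τ0 a.2 b.2 ha' hb' (fun γ hγ hfix τ => ?_)
  have h1 : H85.actMer γ (algebraMap Hol Mer a / algebraMap Hol Mer b)
      = H85.constMer 1 * (algebraMap Hol Mer a / algebraMap Hol Mer b) := by
    rw [hinv γ hγ hfix, map_one, one_mul]
  have := cross_of_actMer_eq hb h1 τ
  rw [one_mul] at this
  exact this

/-! ## Stabilisers of points of `ℍ` in `SL(2, ℤ)` -/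

/-- the square of a matrix of determinant one -/
theorem sq_eq_trace_smul_sub_one (γ : SL(2, ℤ)) :
    γ.1 * γ.1 = γ.1.trace • γ.1 - 1 := by
  have hdet := γ.2
  rw [Matrix.det_fin_two] at hdet
  ext i j
  fin_cases i <;> fin_cases j
  · simp only [Fin.zero_eta, Fin.isValue, Matrix.mul_apply, Fin.sum_univ_two,
      Matrix.trace_fin_two, Matrix.sub_apply, Matrix.smul_apply, smul_eq_mul, Matrix.one_apply_eq]
    linear_combination (-1 : ℤ) * hdet
  · simp only [Fin.zero_eta, Fin.mk_one, Fin.isValue, Matrix.mul_apply, Fin.sum_univ_two,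
      Matrix.trace_fin_two, Matrix.sub_apply, Matrix.smul_apply, smul_eq_mul, ne_eq,
      zero_ne_one, not_false_eq_true, Matrix.one_apply_ne, sub_zero]
    ring
  · simp only [Fin.zero_eta, Fin.mk_one, Fin.isValue, Matrix.mul_apply, Fin.sum_univ_two,
      Matrix.trace_fin_two, Matrix.sub_apply, Matrix.smul_apply, smul_eq_mul, ne_eq,
      one_ne_zero, not_false_eq_true, Matrix.one_apply_ne, sub_zero]
    ring
  · simp only [Fin.mk_one, Fin.isValue, Matrix.mul_apply, Fin.sum_univ_two,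
      Matrix.trace_fin_two, Matrix.sub_apply, Matrix.smul_apply, smul_eq_mul, Matrix.one_apply_eq]
    linear_combination (-1 : ℤ) * hdet

theorem normSq_denom_eq_one {γ : SL(2, ℤ)} {τ0 : ℍ} (hfix : γ • τ0 = τ0) :
    Complex.normSq (((γ 1 0 : ℤ) : ℂ) * (τ0 : ℂ) + ((γ 1 1 : ℤ) : ℂ)) = 1 := by
  have h1 := ModularGroup.im_smul_eq_div_normSq γ τ0
  rw [hfix] at h1
  have h2 : Complex.normSq (denom γ τ0) ≠ 0 := by
    rw [Ne, Complex.normSq_eq_zero]
    exact denom_ne_zero γ τ0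
  rw [eq_div_iff h2] at h1
  have h4 : Complex.normSq (denom γ τ0) = 1 :=
    (mul_right_eq_self₀.mp h1).resolve_right τ0.im_pos.ne'
  have e : denom γ τ0 = ((γ 1 0 : ℤ) : ℂ) * (τ0 : ℂ) + ((γ 1 1 : ℤ) : ℂ) := by
    simp [denom]
  rw [← e]; exact h4

/-- the fixed point equation, cleared of denominators -/
theorem fix_eq {γ : SL(2, ℤ)} {τ0 : ℍ} (hfix : γ • τ0 = τ0) :
    (τ0 : ℂ) * (((γ 1 0 : ℤ) : ℂ) * (τ0 : ℂ) + ((γ 1 1 : ℤ) : ℂ))
      = ((γ 0 0 : ℤ) : ℂ) * (τ0 : ℂ) + ((γ 0 1 : ℤ) : ℂ) := by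
  have h := S24.H32.coe_smul_eq_moebius γ τ0
  rw [hfix, eq_div_iff (S24.H32.denom_cast_ne_zero γ τ0)] at h
  exact h

theorem upper_right_eq_zero {γ : SL(2, ℤ)} {τ0 : ℍ} (hfix : γ • τ0 = τ0) (hc : γ 1 0 = 0)
    (ha : γ 0 0 = γ 1 1) : γ 0 1 = 0 := by
  have h := fix_eq hfix
  rw [hc, ha] at h
  have h2 : ((γ 0 1 : ℤ) : ℂ) = 0 := by
    have : ((γ 0 1 : ℤ) : ℂ) = (τ0 : ℂ) * (((0 : ℤ) : ℂ) * (τ0 : ℂ) + ((γ 1 1 : ℤ) : ℂ))
        - ((γ 1 1 : ℤ) : ℂ) * (τ0 : ℂ) := by rw [h]; ring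
    rw [this]; push_cast; ring
  exact_mod_cast h2

/-- An element of `SL(2, ℤ)` fixing a point of `ℍ` is `± 1` or has trace `0` or `± 1`. -/
theorem eq_or_trace_of_smul_eq {γ : SL(2, ℤ)} {τ0 : ℍ} (hfix : γ • τ0 = τ0) :
    γ = 1 ∨ γ = -1 ∨ γ.1.trace = 0 ∨ γ.1.trace = 1 ∨ γ.1.trace = -1 := by
  set j : ℂ := ((γ 1 0 : ℤ) : ℂ) * (τ0 : ℂ) + ((γ 1 1 : ℤ) : ℂ) with hj
  have hq := denom_quadratic hfix
  have hn := normSq_denom_eq_one hfix
  rw [← hj] at hq hn
  set t : ℤ := γ.1.trace with ht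
  -- real and imaginary parts of `j`
  have hre : j.re = (γ 1 0 : ℤ) * (τ0 : ℂ).re + (γ 1 1 : ℤ) := by simp [hj]
  have him : j.im = (γ 1 0 : ℤ) * τ0.im := by simp [hj]
  have hn' : j.re * j.re + j.im * j.im = 1 := by
    rw [Complex.normSq_apply] at hn; exact hn
  -- `2 Re j = t`
  have hq_re := congrArg Complex.re hq
  have hq_im := congrArg Complex.im hq
  simp only [pow_two, Complex.sub_re, Complex.add_re, Complex.mul_re, Complex.one_re,
    Complex.zero_re, Complex.intCast_re, Complex.intCast_im, zero_mul, sub_zero] at hq_re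
  simp only [pow_two, Complex.sub_im, Complex.add_im, Complex.mul_im, Complex.one_im,
    Complex.zero_im, Complex.intCast_re, Complex.intCast_im, zero_mul, add_zero] at hq_im
  have h2re : 2 * j.re = (t : ℝ) := by
    by_cases him0 : j.im = 0
    · have h1 : j.re * j.re = 1 := by rw [him0] at hn'; linarith
      rw [him0] at hq_re
      have h3 : (t : ℝ) * j.re = 2 := by nlinarith
      have h4 : j.re = 1 ∨ j.re = -1 := by
        have : (j.re - 1) * (j.re + 1) = 0 := by ring_nf; nlinarith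
        rcases mul_eq_zero.mp this with h | h
        · left; linarith
        · right; linarith
      rcases h4 with h4 | h4 <;> rw [h4] at h3 ⊢ <;> linarith
    · have : j.im * (2 * j.re - t) = 0 := by nlinarith
      rcases mul_eq_zero.mp this with h | h
      · exact absurd h him0
      · linarith
  -- `|t| ≤ 2`
  have hre_le : j.re * j.re ≤ 1 := by nlinarith [mul_self_nonneg j.im]
  have ht_le : (t : ℝ) * t ≤ 4 := by rw [← h2re]; nlinarith
  have ht_le' : t * t ≤ 4 := by exact_mod_cast ht_le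
  have ht_cases : t = 0 ∨ t = 1 ∨ t = -1 ∨ t = 2 ∨ t = -2 := by
    have h1 : t ≤ 2 := by nlinarith
    have h2 : -2 ≤ t := by nlinarith
    omega
  -- the two scalar cases
  have key : ∀ ε : ℤ, (ε = 1 ∨ ε = -1) → t = 2 * ε →
      γ 0 0 = ε ∧ γ 0 1 = 0 ∧ γ 1 0 = 0 ∧ γ 1 1 = ε := by
    intro ε hε htε
    have hre1 : j.re = (ε : ℝ) := by
      rw [htε] at h2re; push_cast at h2re; linarith
    have hε2 : (ε : ℝ) * ε = 1 := by
      rcases hε with h | h <;> rw [h] <;> norm_num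
    have him0 : j.im = 0 := by
      have : j.im * j.im = 0 := by rw [hre1] at hn'; linarith
      exact mul_self_eq_zero.mp this
    have hc : γ 1 0 = 0 := by
      rw [him] at him0
      rcases mul_eq_zero.mp him0 with h1 | h1
      · exact_mod_cast h1
      · exact absurd h1 τ0.im_pos.ne'
    have hd : γ 1 1 = ε := by
      rw [hre, hc] at hre1
      simp only [Int.cast_zero, zero_mul, zero_add] at hre1
      exact_mod_cast hre1
    have ha : γ 0 0 = ε := by
      have h1 : γ.1.trace = 2 * ε := htε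
      rw [Matrix.trace_fin_two] at h1
      have hd' : γ.1 1 1 = ε := hd
      have : γ.1 0 0 = ε := by omega
      exact this
    exact ⟨ha, upper_right_eq_zero hfix hc (ha.trans hd.symm), hc, hd⟩
  rcases ht_cases with h | h | h | h | h
  · exact Or.inr (Or.inr (Or.inl h))
  · exact Or.inr (Or.inr (Or.inr (Or.inl h)))
  · exact Or.inr (Or.inr (Or.inr (Or.inr h)))
  · left
    obtain ⟨ha, hb, hc, hd⟩ := key 1 (Or.inl rfl) (by rw [h]; norm_num)
    ext i k
    fin_cases i <;> fin_cases k <;> simp [ha, hb, hc, hd]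
  · right; left
    obtain ⟨ha, hb, hc, hd⟩ := key (-1) (Or.inr rfl) (by rw [h]; norm_num)
    ext i k
    fin_cases i <;> fin_cases k <;> simp [ha, hb, hc, hd]

/-- An element of `SL(2, ℤ)` fixing a point of `ℍ` has order dividing `12`. -/
theorem pow_twelve_eq_one_of_smul_eq {γ : SL(2, ℤ)} {τ0 : ℍ} (hfix : γ • τ0 = τ0) :
    γ ^ 12 = 1 := by
  have hsq := sq_eq_trace_smul_sub_one γ
  apply Subtype.ext
  rw [Matrix.SpecialLinearGroup.coe_pow, Matrix.SpecialLinearGroup.coe_one]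
  rcases eq_or_trace_of_smul_eq hfix with h | h | h | h | h
  · rw [h, Matrix.SpecialLinearGroup.coe_one, one_pow]
  · rw [h, Matrix.SpecialLinearGroup.coe_neg, Matrix.SpecialLinearGroup.coe_one]
    exact Even.neg_one_pow (by decide)
  · rw [h, zero_smul, zero_sub] at hsq
    rw [show (12 : ℕ) = 2 * 6 from rfl, pow_mul, pow_two, hsq]
    exact Even.neg_one_pow (by decide)
  · rw [h, one_smul] at hsq
    have h3 : γ.1 ^ 3 = -1 := by
      rw [pow_succ, pow_two, hsq, sub_mul, one_mul, hsq]; abel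
    rw [show (12 : ℕ) = 3 * 4 from rfl, pow_mul, h3]
    exact Even.neg_one_pow (by decide)
  · rw [h, neg_one_smul] at hsq
    have h3 : γ.1 ^ 3 = 1 := by
      rw [pow_succ, pow_two, hsq, sub_mul, one_mul, neg_mul, hsq]; abel
    rw [show (12 : ℕ) = 3 * 4 from rfl, pow_mul, h3, one_pow]

theorem isOfFinOrder_of_smul_eq {γ : SL(2, ℤ)} {τ0 : ℍ} (hfix : γ • τ0 = τ0) :
    IsOfFinOrder γ :=
  isOfFinOrder_iff_pow_eq_one.mpr ⟨12, by norm_num, pow_twelve_eq_one_of_smul_eq hfix⟩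

theorem isOfFinOrder_subgroup_of_smul_eq {Γ : Subgroup SL(2, ℤ)} (γ : Γ) {τ0 : ℍ}
    (hfix : (γ : SL(2, ℤ)) • τ0 = τ0) : IsOfFinOrder γ :=
  (Submonoid.isOfFinOrder_coe (H := Γ.toSubmonoid) (x := γ)).mp (isOfFinOrder_of_smul_eq hfix)

/-- **(B4), `Mer` form with a character.** `Φ ≠ 0` automorphic for `Γ` with a character which is
trivial on the elements of finite order: `ellOrder Γ τ0` divides the order of `Φ` at `τ0`. -/
theorem ellOrder_dvd_merOrd_of_char (Γ : Subgroup SL(2, ℤ)) (τ0 : ℍ) {Φ : Mer} (hΦ : Φ ≠ 0)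
    (χ : Γ →* ℂˣ) (hχ : ∀ γ : Γ, IsOfFinOrder γ → χ γ = 1)
    (haut : ∀ γ : Γ, H85.actMer (γ : SL(2, ℤ)) Φ = H85.constMer ((χ γ : ℂˣ) : ℂ) * Φ) :
    (ellOrder Γ τ0 : ℤ) ∣ merOrd τ0 Φ := by
  refine ellOrder_dvd_merOrd Γ τ0 hΦ (fun γ hγ hfix => ?_)
  have h1 := haut ⟨γ, hγ⟩
  rw [hχ ⟨γ, hγ⟩ (isOfFinOrder_subgroup_of_smul_eq ⟨γ, hγ⟩ hfix)] at h1
  simpa using h1

/-- `ellOrder Γ τ0 = 1` iff the stabiliser of `τ0` in `Γ` is contained in `± 1`. -/
theorem ellOrder_eq_one_iff (Γ : Subgroup SL(2, ℤ)) (τ0 : ℍ) :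
    ellOrder Γ τ0 = 1 ↔ ∀ γ ∈ Γ, γ • τ0 = τ0 → γ = 1 ∨ γ = -1 := by
  unfold ellOrder
  constructor
  · intro h γ hγ hfix
    split_ifs at h with h2 h3
    · exact absurd h (by norm_num)
    · exact absurd h (by norm_num)
    · rcases eq_or_trace_of_smul_eq hfix with h4 | h4 | h4 | h4 | h4
      · exact Or.inl h4
      · exact Or.inr h4
      · exact absurd ⟨γ, hγ, hfix, h4⟩ h2
      · exact absurd ⟨γ, hγ, hfix, Or.inl h4⟩ h3
      · exact absurd ⟨γ, hγ, hfix, Or.inr h4⟩ h3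
  · intro h
    have htr1 : (1 : SL(2, ℤ)).1.trace = 2 := by
      simp
    have htrn : (-1 : SL(2, ℤ)).1.trace = -2 := by
      simp
    have key : ∀ γ ∈ Γ, γ • τ0 = τ0 → γ.1.trace = 2 ∨ γ.1.trace = -2 := by
      intro γ hγ hfix
      rcases h γ hγ hfix with h1 | h1
      · left; rw [h1]; exact htr1
      · right; rw [h1]; exact htrn
    rw [if_neg, if_neg]
    · rintro ⟨γ, hγ, hfix, h4⟩
      rcases key γ hγ hfix with h5 | h5 <;> rcases h4 with h4 | h4 <;> omega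
    · rintro ⟨γ, hγ, hfix, h4⟩
      rcases key γ hγ hfix with h5 | h5 <;> omega

end Fermat.Agent.S29.H32
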