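import Mathlib

/-!
# Finite `Aut(L/K)`-orbits in an algebraically closed field are algebraic

Mathlib-only package (sub-lemma FIXED-FIELD of Stage 3 / E5 descent `ℂ → ℚ̄`).

For `L` algebraically closed, `K` an infinite subfield and `x : L` transcendental over `K`,
the orbit of `x` under `L ≃ₐ[K] L` is infinite (it contains `x + c` for every `c : K`).
Consequently an element with finite orbit is algebraic over `K`, and lies in `K`
if `K` is algebraically closed.
-/

namespace Fermat.Agent.S29.H36

open MvPolynomial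

section Shift

variable {K : Type*} [CommRing K] {ι : Type*} [DecidableEq ι]

/-- The `K`-algebra endomorphism of `MvPolynomial ι K` given by `X i₀ ↦ X i₀ + C c`. -/
noncomputable def shiftHom (i₀ : ι) (c : K) : MvPolynomial ι K →ₐ[K] MvPolynomial ι K :=
  aeval (fun i => if i = i₀ then X i₀ + C c else X i)

@[simp] lemma shiftHom_X_self (i₀ : ι) (c : K) :
    shiftHom i₀ c (X i₀) = X i₀ + C c := by
  simp [shiftHom]

lemma shiftHom_X_of_ne (i₀ : ι) (c : K) {i : ι} (h : i ≠ i₀) :
    shiftHom i₀ c (X i) = X i := by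
  simp [shiftHom, h]

lemma shiftHom_comp (i₀ : ι) (c d : K) :
    (shiftHom i₀ c).comp (shiftHom i₀ d) = shiftHom i₀ (d + c) := by
  apply MvPolynomial.algHom_ext
  intro i
  by_cases h : i = i₀
  · subst h
    simp [add_assoc, add_comm (C c) (C d)]
  · simp [shiftHom_X_of_ne _ _ h]

lemma shiftHom_zero (i₀ : ι) : shiftHom i₀ (0 : K) = AlgHom.id K (MvPolynomial ι K) := by
  apply MvPolynomial.algHom_ext
  intro i
  by_cases h : i = i₀
  · subst h
    simp
  · simp [shiftHom_X_of_ne _ _ h]

/-- The translation automorphism `X i₀ ↦ X i₀ + C c` of `MvPolynomial ι K`. -/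
noncomputable def shiftEquiv (i₀ : ι) (c : K) : MvPolynomial ι K ≃ₐ[K] MvPolynomial ι K :=
  AlgEquiv.ofAlgHom (shiftHom i₀ c) (shiftHom i₀ (-c))
    (by rw [shiftHom_comp]; simp [shiftHom_zero])
    (by rw [shiftHom_comp]; simp [shiftHom_zero])

@[simp] lemma shiftEquiv_X_self (i₀ : ι) (c : K) :
    shiftEquiv i₀ c (X i₀) = X i₀ + C c := by
  simp [shiftEquiv]

end Shift

section Orbit

variable {K L : Type*} [Field K] [Field L] [Algebra K L] [IsAlgClosed L]

/-- Key construction: for `x` transcendental over `K` and any `c : K` there is a `K`-automorphism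
of the algebraically closed field `L` sending `x` to `x + c`. -/
theorem exists_algEquiv_apply_eq_add {x : L} (hx : Transcendental K x) (c : K) :
    ∃ σ : L ≃ₐ[K] L, σ x = x + algebraMap K L c := by
  classical
  -- a transcendence basis containing `x`
  have hind : AlgebraicIndepOn K id ({x} : Set L) :=
    algebraicIndependent_unique_type_iff.mpr hx
  obtain ⟨t, hxt, ht⟩ := exists_isTranscendenceBasis_superset hind
  set v : t → L := Subtype.val with hv
  let i₀ : t := ⟨x, hxt rfl⟩
  let _ := IsAlgClosed.isAlgClosure_of_transcendence_basis v ht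
  -- the automorphism of the polynomial subalgebra
  let e : Algebra.adjoin K (Set.range v) ≃ₐ[K] Algebra.adjoin K (Set.range v) :=
    ht.1.aevalEquiv.symm.trans ((shiftEquiv i₀ c).trans ht.1.aevalEquiv)
  let σ₀ : L ≃+* L := IsAlgClosure.equivOfEquiv L L e.toRingEquiv
  have hσ₀ : ∀ a : Algebra.adjoin K (Set.range v),
      σ₀ (algebraMap _ L a) = algebraMap _ L (e a) := fun a =>
    IsAlgClosure.equivOfEquiv_algebraMap L L e.toRingEquiv a
  have hcomm : ∀ k : K, σ₀ (algebraMap K L k) = algebraMap K L k := by
    intro k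
    have h1 : algebraMap K L k
        = algebraMap (Algebra.adjoin K (Set.range v)) L (algebraMap K _ k) := rfl
    rw [h1, hσ₀, e.commutes]
  refine ⟨AlgEquiv.ofRingEquiv (f := σ₀) hcomm, ?_⟩
  have hx1 : x = algebraMap (Algebra.adjoin K (Set.range v)) L (ht.1.aevalEquiv (X i₀)) := by
    rw [ht.1.algebraMap_aevalEquiv, aeval_X]
  have he : e (ht.1.aevalEquiv (X i₀)) = ht.1.aevalEquiv (X i₀ + C c) := by
    simp [e]
  change σ₀ x = _
  conv_lhs => rw [hx1]
  rw [hσ₀, he, ht.1.algebraMap_aevalEquiv]
  simp [v, i₀]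

/-- A transcendental element has infinite orbit under `Aut(L/K)`. -/
theorem infinite_orbit_of_transcendental [Infinite K] {x : L} (hx : Transcendental K x) :
    (Set.range fun σ : L ≃ₐ[K] L => σ x).Infinite := by
  have hinj : Function.Injective (fun c : K => x + algebraMap K L c) := by
    intro c d h
    exact (algebraMap K L).injective (add_left_cancel h)
  have hsub : Set.range (fun c : K => x + algebraMap K L c)
      ⊆ Set.range fun σ : L ≃ₐ[K] L => σ x := by
    rintro _ ⟨c, rfl⟩
    obtain ⟨σ, hσ⟩ := exists_algEquiv_apply_eq_add hx c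
    exact ⟨σ, hσ⟩
  exact (Set.infinite_range_of_injective hinj).mono hsub

/-- An element of an algebraically closed field with finite `Aut(L/K)`-orbit is algebraic. -/
theorem isAlgebraic_of_finite_orbit [Infinite K] {x : L}
    (h : (Set.range fun σ : L ≃ₐ[K] L => σ x).Finite) : IsAlgebraic K x := by
  by_contra hx
  exact infinite_orbit_of_transcendental (K := K) hx h

/-- `MulAction.orbit` form. -/
theorem isAlgebraic_of_finite_mulAction_orbit [Infinite K] {x : L}
    (h : (MulAction.orbit (L ≃ₐ[K] L) x).Finite) : IsAlgebraic K x :=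
  isAlgebraic_of_finite_orbit (by simpa [MulAction.orbit] using h)

/-- Over an algebraically closed base field, finite orbit means the element is in the base. -/
theorem mem_range_algebraMap_of_finite_orbit [IsAlgClosed K] {x : L}
    (h : (Set.range fun σ : L ≃ₐ[K] L => σ x).Finite) : x ∈ (algebraMap K L).range := by
  have : Infinite K := IsAlgClosed.instInfinite
  have hx := isAlgebraic_of_finite_orbit h
  exact minpoly.mem_range_of_degree_eq_one K x
    (IsAlgClosed.degree_eq_one_of_irreducible K (minpoly.irreducible hx.isIntegral))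

/-- The fixed field of `Aut(L/K)` is `K` when both are algebraically closed: an element outside
`K` is moved by some automorphism. -/
theorem exists_algEquiv_apply_ne [IsAlgClosed K] {x : L}
    (hx : x ∉ (algebraMap K L).range) : ∃ σ : L ≃ₐ[K] L, σ x ≠ x := by
  by_contra hcon
  push Not at hcon
  apply hx
  apply mem_range_algebraMap_of_finite_orbit
  have : (Set.range fun σ : L ≃ₐ[K] L => σ x) ⊆ {x} := by
    rintro _ ⟨σ, rfl⟩
    exact hcon σ
  exact (Set.finite_singleton x).subset this

/-- Finite-index-subgroup version: if the orbit of `x` under a subgroup `H` of finite index of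
`Aut(L/K)` is finite then `x` is algebraic over `K`. -/
theorem isAlgebraic_of_finite_orbit_subgroup [Infinite K] (H : Subgroup (L ≃ₐ[K] L))
    [H.FiniteIndex] {x : L} (h : (Set.range fun σ : H => (σ : L ≃ₐ[K] L) x).Finite) :
    IsAlgebraic K x := by
  classical
  apply isAlgebraic_of_finite_orbit
  -- the full orbit is the union over the finitely many left cosets `g H` of `g • (H-orbit)`
  have hfin : Finite ((L ≃ₐ[K] L) ⧸ H) := H.finite_quotient_of_finiteIndex
  have hcov : (Set.range fun σ : L ≃ₐ[K] L => σ x)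
      ⊆ ⋃ q : (L ≃ₐ[K] L) ⧸ H, (fun y => (Quotient.out q : L ≃ₐ[K] L) y) ''
          (Set.range fun σ : H => (σ : L ≃ₐ[K] L) x) := by
    rintro _ ⟨σ, rfl⟩
    refine Set.mem_iUnion.2 ⟨(QuotientGroup.mk σ : (L ≃ₐ[K] L) ⧸ H), ?_⟩
    have hmem : (Quotient.out (QuotientGroup.mk σ : (L ≃ₐ[K] L) ⧸ H))⁻¹ * σ ∈ H := by
      rw [← QuotientGroup.eq]
      exact Quotient.out_eq _
    refine ⟨_, ⟨⟨_, hmem⟩, rfl⟩, ?_⟩
    simp [AlgEquiv.mul_apply]
  exact (Set.finite_iUnion fun q => h.image _).subset hcov

end Orbit

end Fermat.Agent.S29.H36
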