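import Mathlib
import Fermat.Prelude.Def_AlgebraicCurve_Correspondence
import Fermat.Agent.S29.H20_ConstExtDiv

/-!
# S29 / (D3) BASECHANGE-HECKE, generic core (helper38)

Two constant field extensions `E₁ : ConstExt k K F₁ F₁'`, `E₂ : ConstExt k K F₂ F₂'` (helper20's
vocabulary) with all places of degree one, and a commuting square of integral field embeddings

```
      φ'
 F₁' ----> F₂'
  ^         ^
  | ι₁      | ι₂
  |    φ    |
 F₁  ----> F₂
```

Then the base change of divisors `baseChangeDiv` commutes with `Divisor.pullbackAlong` and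
`Divisor.pushforwardAlong`, hence with `Divisor.correspondence`, and `baseChangePic0` commutes
with `Pic0.correspondence`.
-/

set_option autoImplicit false
set_option linter.style.haveILetI false

noncomputable section

namespace Fermat.Agent.S29.H38

open AlgebraicCurve Fermat.Agent.S24 Fermat.Agent.S29.H20 Fermat.Agent.S29.H20.ConstExt

section Along

variable {K F F' : Type*} [Field K] [Field F] [Field F'] [Algebra K F] [Algebra K F']

theorem ramificationIndexAlong_pos (φ : F →ₐ[K] F') (hφ : φ.toRingHom.IsIntegral)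
    (w : Place K F') : 0 < w.ramificationIndexAlong φ := by
  letI := algebraAlong φ
  haveI := isScalarTower_along φ
  haveI := isIntegral_along φ hφ
  exact w.ramificationIndex_pos (F := F)

theorem deg_restrictAlong_mul_inertiaDegAlong (φ : F →ₐ[K] F') (hφ : φ.toRingHom.IsIntegral)
    (w : Place K F') : (w.restrictAlong φ hφ).deg * w.inertiaDegAlong φ hφ = w.deg := by
  letI := algebraAlong φ
  haveI := isScalarTower_along φ
  haveI := isIntegral_along φ hφ
  exact w.deg_restrict_mul_inertiaDeg (F := F)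

/-- If all places downstairs and the place upstairs have degree one, the inertia degree is one. -/
theorem inertiaDegAlong_eq_one (φ : F →ₐ[K] F') (hφ : φ.toRingHom.IsIntegral)
    (w : Place K F') (hw : w.deg = 1) : w.inertiaDegAlong φ hφ = 1 := by
  have h := deg_restrictAlong_mul_inertiaDegAlong φ hφ w
  rw [hw] at h
  exact Nat.eq_one_of_mul_eq_one_left h

end Along

section Core

variable {k K F₁ F₂ F₁' F₂' : Type*} [Field k] [Field K] [Field F₁] [Field F₂] [Field F₁']
  [Field F₂'] [Algebra k K] [Algebra k F₁] [Algebra k F₂] [Algebra K F₁'] [Algebra K F₂']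

/-- The square of field embeddings commutes. -/
def Square (E₁ : ConstExt k K F₁ F₁') (E₂ : ConstExt k K F₂ F₂') (φ : F₁ →ₐ[k] F₂)
    (φ' : F₁' →ₐ[K] F₂') : Prop :=
  ∀ f : F₁, E₂.ι (φ f) = φ' (E₁.ι f)

variable {E₁ : ConstExt k K F₁ F₁'} {E₂ : ConstExt k K F₂ F₂'}
  {φ : F₁ →ₐ[k] F₂} {φ' : F₁' →ₐ[K] F₂'}

/-- **(a) + (b)**: the restriction of `ext w` is `ext` of the restriction, with the same
ramification index. -/
theorem restrictAlong_ext_and (h₁ : E₁.DegOne) (h₂ : E₂.DegOne)
    (hφ : φ.toRingHom.IsIntegral) (hφ' : φ'.toRingHom.IsIntegral) (hsq : Square E₁ E₂ φ φ')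
    (w : Place k F₂) :
    (ext h₂ w).restrictAlong φ' hφ' = ext h₁ (w.restrictAlong φ hφ) ∧
      (ext h₂ w).ramificationIndexAlong φ' = w.ramificationIndexAlong φ := by
  set W := ext h₂ w with hW
  set V := W.restrictAlong φ' hφ' with hV
  set v := w.restrictAlong φ hφ with hv
  have he' : 0 < W.ramificationIndexAlong φ' := ramificationIndexAlong_pos φ' hφ' W
  have he : 0 < w.ramificationIndexAlong φ := ramificationIndexAlong_pos φ hφ w
  have key : ∀ f : F₁, (W.ramificationIndexAlong φ' : ℤ) * V.ord (E₁.ι f)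
      = (w.ramificationIndexAlong φ : ℤ) * v.ord f := by
    intro f
    rw [← Place.ord_restrictAlong φ' hφ' W, ← hsq f, hW, ord_ext, Place.ord_restrictAlong φ hφ w]
  obtain ⟨π, hπ0, hπ⟩ := H27.exists_ord_eq_one v
  have hVnt : ∃ f : F₁, V.ord (E₁.ι f) ≠ 0 := by
    refine ⟨π, fun h0 => ?_⟩
    have h := key π
    rw [h0, hπ, mul_zero, mul_one] at h
    omega
  obtain ⟨v', hv'⟩ := E₁.exists_lies_of_nontrivial h₁.resTriv V hVnt
  have key' : ∀ f : F₁, (W.ramificationIndexAlong φ' : ℤ) * v'.ord f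
      = (w.ramificationIndexAlong φ : ℤ) * v.ord f := fun f => by
    rw [← hv' f]
    exact key f
  have hvv' : v = v' := by
    refine H27.eq_of_forall_ord_pos fun f _ hpos => ?_
    have h := key' f
    have h1 : 0 < (w.ramificationIndexAlong φ : ℤ) * v.ord f :=
      mul_pos (by exact_mod_cast he) hpos
    rw [← h] at h1
    exact (mul_pos_iff_of_pos_left (by exact_mod_cast he')).mp h1
  have hVeq : V = ext h₁ v := by
    rw [hvv']
    exact hv'.eq_ext h₁
  refine ⟨hVeq, ?_⟩
  have h := key' π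
  rw [← hvv', hπ, mul_one, mul_one] at h
  exact_mod_cast h

theorem restrictAlong_ext (h₁ : E₁.DegOne) (h₂ : E₂.DegOne)
    (hφ : φ.toRingHom.IsIntegral) (hφ' : φ'.toRingHom.IsIntegral) (hsq : Square E₁ E₂ φ φ')
    (w : Place k F₂) :
    (ext h₂ w).restrictAlong φ' hφ' = ext h₁ (w.restrictAlong φ hφ) :=
  (restrictAlong_ext_and h₁ h₂ hφ hφ' hsq w).1

theorem ramificationIndexAlong_ext (h₁ : E₁.DegOne) (h₂ : E₂.DegOne)
    (hφ : φ.toRingHom.IsIntegral) (hφ' : φ'.toRingHom.IsIntegral) (hsq : Square E₁ E₂ φ φ')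
    (w : Place k F₂) :
    (ext h₂ w).ramificationIndexAlong φ' = w.ramificationIndexAlong φ :=
  (restrictAlong_ext_and h₁ h₂ hφ hφ' hsq w).2

/-- **(c)**: a non-rational place restricts to a non-rational place. -/
theorem not_isRational_restrictAlong (hφ' : φ'.toRingHom.IsIntegral) (hsq : Square E₁ E₂ φ φ')
    {W : Place K F₂'} (hW : ¬ E₂.IsRational W) : ¬ E₁.IsRational (W.restrictAlong φ' hφ') := by
  rintro ⟨f, hf⟩
  apply hW
  refine ⟨φ f, ?_⟩
  rw [hsq f, Place.ord_restrictAlong φ' hφ' W]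
  have he' : 0 < W.ramificationIndexAlong φ' := ramificationIndexAlong_pos φ' hφ' W
  exact mul_ne_zero (by exact_mod_cast he'.ne') hf

/-- **(d), pullback**. -/
theorem baseChangeDiv_pullbackAlong [HasPrincipalDivisors k F₂] [HasPrincipalDivisors K F₂']
    (h₁ : E₁.DegOne) (h₂ : E₂.DegOne)
    (hφ : φ.toRingHom.IsIntegral) (hφ' : φ'.toRingHom.IsIntegral) (hsq : Square E₁ E₂ φ φ')
    (D : Divisor k F₁) :
    baseChangeDiv h₂ (Divisor.pullbackAlong φ hφ D)
      = Divisor.pullbackAlong φ' hφ' (baseChangeDiv h₁ D) := by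
  ext W
  rw [Divisor.pullbackAlong_apply]
  by_cases hW : E₂.IsRational W
  · obtain ⟨w, rfl⟩ := hW.exists_eq_ext h₂
    rw [baseChangeDiv_ext, Divisor.pullbackAlong_apply, restrictAlong_ext h₁ h₂ hφ hφ' hsq,
      ramificationIndexAlong_ext h₁ h₂ hφ hφ' hsq, baseChangeDiv_ext]
  · rw [baseChangeDiv_of_not_isRational h₂ _ hW,
      baseChangeDiv_of_not_isRational h₁ _ (not_isRational_restrictAlong hφ' hsq hW), mul_zero]

/-- **(d), pushforward**. -/
theorem baseChangeDiv_pushforwardAlong (h₁ : E₁.DegOne) (h₂ : E₂.DegOne)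
    (hφ : φ.toRingHom.IsIntegral) (hφ' : φ'.toRingHom.IsIntegral) (hsq : Square E₁ E₂ φ φ')
    (D : Divisor k F₂) :
    baseChangeDiv h₁ (Divisor.pushforwardAlong φ hφ D)
      = Divisor.pushforwardAlong φ' hφ' (baseChangeDiv h₂ D) := by
  induction D using Finsupp.induction with
  | zero => simp
  | single_add w n D _ _ ih =>
    rw [map_add, map_add, map_add, map_add, ih, Divisor.pushforwardAlong_single,
      baseChangeDiv_single, baseChangeDiv_single, Divisor.pushforwardAlong_single,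
      restrictAlong_ext h₁ h₂ hφ hφ' hsq,
      inertiaDegAlong_eq_one φ hφ w (h₂.deg_eq_one w),
      inertiaDegAlong_eq_one φ' hφ' _ (h₂.deg_eq_one' _)]

/-- **(d), correspondences**: `ψ_* φ^*` commutes with base change. -/
theorem baseChangeDiv_correspondence [HasPrincipalDivisors k F₂] [HasPrincipalDivisors K F₂']
    {ψ : F₁ →ₐ[k] F₂} {ψ' : F₁' →ₐ[K] F₂'} (h₁ : E₁.DegOne) (h₂ : E₂.DegOne)
    (hφ : φ.toRingHom.IsIntegral) (hφ' : φ'.toRingHom.IsIntegral)
    (hψ : ψ.toRingHom.IsIntegral) (hψ' : ψ'.toRingHom.IsIntegral)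
    (hsqφ : Square E₁ E₂ φ φ') (hsqψ : Square E₁ E₂ ψ ψ') (D : Divisor k F₁) :
    baseChangeDiv h₁ (Divisor.correspondence φ ψ hφ hψ D)
      = Divisor.correspondence φ' ψ' hφ' hψ' (baseChangeDiv h₁ D) := by
  rw [Divisor.correspondence_apply, Divisor.correspondence_apply,
    baseChangeDiv_pushforwardAlong h₁ h₂ hψ hψ' hsqψ,
    baseChangeDiv_pullbackAlong h₁ h₂ hφ hφ' hsqφ]

/-- **(D3), generic form**: base change on `Pic0` commutes with correspondences. -/
theorem baseChangePic0_correspondence [HasPrincipalDivisors k F₂] [HasPrincipalDivisors K F₂']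
    {ψ : F₁ →ₐ[k] F₂} {ψ' : F₁' →ₐ[K] F₂'} (h₁ : E₁.DegOne) (h₂ : E₂.DegOne)
    (hφ : φ.toRingHom.IsIntegral) (hφ' : φ'.toRingHom.IsIntegral)
    (hψ : ψ.toRingHom.IsIntegral) (hψ' : ψ'.toRingHom.IsIntegral)
    (hsqφ : Square E₁ E₂ φ φ') (hsqψ : Square E₁ E₂ ψ ψ')
    (hFI : FundamentalIdentityAlong k φ hφ) (hfin : FiniteAlong k ψ)
    (hN : NormFormulaAlong k ψ hfin)
    (hFI' : FundamentalIdentityAlong K φ' hφ') (hfin' : FiniteAlong K ψ')
    (hN' : NormFormulaAlong K ψ' hfin') (x : Pic0 k F₁) :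
    baseChangePic0 h₁ (Pic0.correspondence φ ψ hφ hψ hFI hfin hN x)
      = Pic0.correspondence φ' ψ' hφ' hψ' hFI' hfin' hN' (baseChangePic0 h₁ x) := by
  obtain ⟨D, rfl⟩ := Pic0.mk_surjective x
  rw [Pic0.correspondence_mk, baseChangePic0_mk, baseChangePic0_mk, Pic0.correspondence_mk]
  refine congrArg Pic0.mk (Subtype.ext ?_)
  rw [coe_baseChangeDegZero, Pic0.coe_degZeroCorrespondence, Pic0.coe_degZeroCorrespondence,
    coe_baseChangeDegZero]
  exact baseChangeDiv_correspondence h₁ h₂ hφ hφ' hψ hψ' hsqφ hsqψ _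

end Core

end Fermat.Agent.S29.H38
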