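import Mathlib
import Fermat.Prelude.Def_ModularCurve_HeckeModule
import Fermat.Prelude.Thm_ModularCurve_coeffMap_qExpand
import Fermat.Agent.S29.H38_BaseChangeCore
import Fermat.Agent.S29.H62_ConstExtInst
import Fermat.Agent.S29.H74_FFBankC

/-!
# S29 / (D3) BASECHANGE-HECKE, instantiation (helper38)

For fields `k ⊆ K ⊇ ℚ`, base change `Pic0 k (F_N(k)) → Pic0 K (F_N(K))` (helper20's
`baseChangePic0` for helper62's `constExtLaurent k K (modularFunctionFieldFull N)`) commutes with
the Hecke correspondences `heckeOperatorAlong · N ℓ`.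

* `baseChangePic0_heckeOperatorAlong` : conditional form (any `k ⊆ K`, Hecke inputs and
  degree-one hypotheses as arguments);
* `baseChangePic0_heckeOperatorAlong_algClosed` : unconditional for algebraically closed `k ⊆ K`;
* `bcQbarC`, `bcQbarC_heckeOperatorAlong` : the case `ℚ̄ ⊆ ℂ`, in the exact shape of the
  hypothesis `hbc_T` of `H85.eigenformSupportAt_of_lamC_bc`.
-/

set_option autoImplicit false
set_option linter.style.haveILetI false

noncomputable section

namespace Fermat.Agent.S29.H38

open AlgebraicCurve ModularCurve Fermat.Agent.S29.H20 Fermat.Agent.S29.H20.ConstExt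
  Fermat.Agent.S29.H62

section Squares

variable (k K : Type*) [Field k] [Field K] [Algebra ℚ k] [Algebra ℚ K] [Algebra k K]
  [IsScalarTower ℚ k K] (N ℓ : ℕ) [NeZero N] [NeZero ℓ]

/-- `α` (the inclusion `F_N → F_{Nℓ}`) commutes with extension of constants. -/
theorem square_heckeAlphaBar :
    Square (constExtLaurent k K (modularFunctionFieldFull N))
      (constExtLaurent k K (modularFunctionFieldFull (N * ℓ)))
      (heckeAlphaBar k N ℓ) (heckeAlphaBar K N ℓ) := by
  intro f
  apply Subtype.ext
  rw [constExtLaurent_ι, constExtLaurent_ι, coe_bcField, coe_heckeAlphaBar, coe_heckeAlphaBar,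
    coe_bcField]

omit [NeZero N] in
/-- `β` (`q ↦ q^ℓ`) commutes with extension of constants. -/
theorem square_heckeBetaBar :
    Square (constExtLaurent k K (modularFunctionFieldFull N))
      (constExtLaurent k K (modularFunctionFieldFull (N * ℓ)))
      (heckeBetaBar k N ℓ) (heckeBetaBar K N ℓ) := by
  intro f
  apply Subtype.ext
  rw [constExtLaurent_ι, constExtLaurent_ι, coe_bcField, coe_heckeBetaBar, coe_heckeBetaBar,
    coe_bcField, ModularCurve.coeffMap_qExpand]

end Squares

section Hecke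

variable {k K : Type*} [Field k] [Field K] [Algebra ℚ k] [Algebra ℚ K] [Algebra k K]
  [IsScalarTower ℚ k K] {N ℓ : ℕ} [NeZero N] [NeZero ℓ]

/-- **(D3), conditional form.** -/
theorem baseChangePic0_heckeOperatorAlong (hk : HeckeInputsAlong k N ℓ)
    (hK : HeckeInputsAlong K N ℓ)
    (h₁ : (constExtLaurent k K (modularFunctionFieldFull N)).DegOne)
    (h₂ : (constExtLaurent k K (modularFunctionFieldFull (N * ℓ))).DegOne)
    (y : Pic0 k (laurentBaseChange k (modularFunctionFieldFull N))) :
    baseChangePic0 h₁ (heckeOperatorAlong k N ℓ y)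
      = heckeOperatorAlong K N ℓ (baseChangePic0 h₁ y) := by
  obtain ⟨hα, hβ, hP, hfin, hFI, hN⟩ := hk
  obtain ⟨hα', hβ', hP', hfin', hFI', hN'⟩ := hK
  haveI := hP
  haveI := hP'
  rw [heckeOperatorAlong_eq hα hβ hFI hfin hN, heckeOperatorAlong_eq hα' hβ' hFI' hfin' hN']
  exact baseChangePic0_correspondence h₁ h₂ hβ hβ' hα hα' (square_heckeBetaBar k K N ℓ)
    (square_heckeAlphaBar k K N ℓ) hFI hfin hN hFI' hfin' hN' y

end Hecke

section AlgClosed

variable (k K : Type*) [Field k] [Field K] [Algebra ℚ k] [Algebra ℚ K] [Algebra k K]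
  [IsScalarTower ℚ k K] [IsAlgClosed k] [IsAlgClosed K]

/-- For algebraically closed `k ⊆ K`, all places of `F_M(k)` and `F_M(K)` have degree one. -/
theorem degOne_constExtLaurent (M : ℕ) [NeZero M] :
    (constExtLaurent k K (modularFunctionFieldFull M)).DegOne :=
  ⟨fun v => H74.deg_eq_one_FL_uncond k M v, fun w => H74.deg_eq_one_FL_uncond K M w⟩

variable {k K} {N : ℕ} [NeZero N]

/-- **(D3), unconditional form for algebraically closed `k ⊆ K`** (any proof `h₁` of `DegOne`;
all `ℓ ≠ 0`, in particular all primes, `ℓ ∣ N` included). -/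
theorem baseChangePic0_heckeOperatorAlong_algClosed
    (h₁ : (constExtLaurent k K (modularFunctionFieldFull N)).DegOne) (ℓ : ℕ) [NeZero ℓ]
    (y : Pic0 k (laurentBaseChange k (modularFunctionFieldFull N))) :
    baseChangePic0 h₁ (heckeOperatorAlong k N ℓ y)
      = heckeOperatorAlong K N ℓ (baseChangePic0 h₁ y) :=
  baseChangePic0_heckeOperatorAlong (Fermat.Agent.S37.H8.heckeInputsAlong_L k N ℓ)
    (Fermat.Agent.S37.H8.heckeInputsAlong_L K N ℓ) h₁ (degOne_constExtLaurent k K (N * ℓ)) y

/-- The same, in the shape of the hypothesis `hbc_T` of `H85.eigenformSupportAt_of_lamC_bc` /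
the Hecke clause of `H80.BaseChangeDescent` (`ℓ : Nat.Primes`). -/
theorem baseChangePic0_heckeOperatorAlong_primes
    (h₁ : (constExtLaurent k K (modularFunctionFieldFull N)).DegOne) (ℓ : Nat.Primes)
    (y : Pic0 k (laurentBaseChange k (modularFunctionFieldFull N))) :
    haveI : NeZero (ℓ : ℕ) := ⟨ℓ.2.ne_zero⟩
    baseChangePic0 h₁ (heckeOperatorAlong k N ℓ y)
      = heckeOperatorAlong K N ℓ (baseChangePic0 h₁ y) :=
  haveI : NeZero (ℓ : ℕ) := ⟨ℓ.2.ne_zero⟩
  baseChangePic0_heckeOperatorAlong_algClosed h₁ (ℓ : ℕ) y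

variable (k K N)

/-- The base change map `Pic0 k (F_N(k)) →+ Pic0 K (F_N(K))` for algebraically closed `k ⊆ K`. -/
def bcPic0 : Pic0 k (laurentBaseChange k (modularFunctionFieldFull N)) →+
    Pic0 K (laurentBaseChange K (modularFunctionFieldFull N)) :=
  baseChangePic0 (degOne_constExtLaurent k K N)

theorem bcPic0_eq (h₁ : (constExtLaurent k K (modularFunctionFieldFull N)).DegOne) :
    bcPic0 k K N = baseChangePic0 h₁ := rfl

variable {k K N}

theorem bcPic0_heckeOperatorAlong (ℓ : ℕ) [NeZero ℓ]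
    (y : Pic0 k (laurentBaseChange k (modularFunctionFieldFull N))) :
    bcPic0 k K N (heckeOperatorAlong k N ℓ y) = heckeOperatorAlong K N ℓ (bcPic0 k K N y) :=
  baseChangePic0_heckeOperatorAlong_algClosed _ ℓ y

end AlgClosed

end Fermat.Agent.S29.H38
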