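import Mathlib
import Fermat.Agent.S29.H38_BaseChangeHecke
import Fermat.Agent.S29.H80_BaseChange

/-!
# S29 / (D3) BASECHANGE-HECKE for helper62's map `H62.bcJ N` (helper38)

* `bcJ_heckeOperatorAlong` : `bcJ N (T_ℓ y) = T_ℓ (bcJ N y)` for every `ℓ ≠ 0`;
* `bcHecke N : H80.BcHecke N` : helper80's statement of (D3);
* `baseChangeDescent N hn : H80.BaseChangeDescent N n` : the interface package (I2), unconditional.
-/

set_option autoImplicit false

noncomputable section

namespace Fermat.Agent.S29.H38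

open AlgebraicCurve ModularCurve

attribute [local instance] H62.algebraQbarComplex H62.isScalarTower_qbar_complex

variable (N : ℕ) [NeZero N]

/-- **(D3)** for helper62's base change map, every `ℓ ≠ 0`. -/
theorem bcJ_heckeOperatorAlong (ℓ : ℕ) [NeZero ℓ] (y : JZero N) :
    H62.bcJ N (heckeOperatorAlong (AlgebraicClosure ℚ) N ℓ y)
      = heckeOperatorAlong ℂ N ℓ (H62.bcJ N y) :=
  baseChangePic0_heckeOperatorAlong_algClosed (H62.degOne_constExtJ N) ℓ y

/-- **(D3)** in the shape of `hbc_T` of `H85.eigenformSupportAt_of_lamC_bc`. -/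
theorem bcJ_heckeOperatorAlong_primes (ℓ : Nat.Primes) (y : JZero N) :
    haveI : NeZero (ℓ : ℕ) := ⟨ℓ.2.ne_zero⟩
    H62.bcJ N (heckeOperatorAlong (AlgebraicClosure ℚ) N ℓ y)
      = heckeOperatorAlong ℂ N ℓ (H62.bcJ N y) :=
  baseChangePic0_heckeOperatorAlong_primes (H62.degOne_constExtJ N) ℓ y

/-- helper80's statement of (D3). -/
theorem bcHecke : H80.BcHecke N := fun ℓ x =>
  baseChangePic0_heckeOperatorAlong_primes (H62.degOne_constExtJ N) ℓ x

/-- **(I2)** the interface package BASECHANGE + DESCENT, unconditional, every `n ≥ 1`. -/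
theorem baseChangeDescent {n : ℕ} (hn : 0 < n) : H80.BaseChangeDescent N n :=
  H80.baseChangeDescent_of_bcHecke N hn (bcHecke N)

end Fermat.Agent.S29.H38
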