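import Fermat.Agent.S29.H47_NormAnBeta
import Fermat.Agent.S29.H72_DictBridge
import Fermat.Agent.S29.H65_Gamma0Pos
import Fermat.Agent.S29.H85_KummerInst

/-!
# NORM-AN, part (hAdm) + bridges (helper47)

* `growthAt_comp_aff` : helper72's `GrowthAt a b` is stable under precomposition with an affine
  map `τ ↦ (a τ + b) / d`;
* `scaleMer_mem_cuspRing` : `x ∈ H72.cuspRing → scaleMer ℓ x ∈ H72.cuspRing` (the Hermite coset
  trick `diag(ℓ,1) γ⁻¹ = σ · (a b; 0 d)`), `merComp_mem_cuspRing`;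
* bridges to helper65's `GL(2,ℝ)⁺` vocabulary: `actGL (diagPos ℓ) = scaleMer ℓ`,
  `actGL (diagPos ℓ * slp γ) x = merComp γ (scaleMer ℓ x)`, and the same for any `g : GL(2,ℝ)⁺`
  whose matrix is `heckeDiagMatrix ℓ * mapGL ℝ γ`;
* **(hAdm)** `heckeMer_mem_admUnits` : for a coset datum all of whose representatives are of the
  form `diag(ℓ,1) γ_i`, `γ_i ∈ SL(2,ℤ)`, `heckeMer D` preserves helper85's `admUnits`;
  instances `picTPos_mem_admUnits`, `picUPos_mem_admUnits`.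
-/

set_option autoImplicit false
noncomputable section
namespace Fermat.Agent.S29.H47
open UpperHalfPlane ModularCurve ModularForm
open Fermat.Agent.S24 Fermat.Agent.S29.H25
open Fermat.Agent.S24.H81 (Hol Mer)
open Fermat.Agent.S24.H17 (mulD)
open scoped MatrixGroups Manifold Real

/-! ### growth along affine maps -/

/-- helper72's growth predicate is stable under `τ ↦ (a τ + b) / d`. -/
theorem growthAt_comp_aff {A B : ℍ → ℂ} (h : H72.GrowthAt A B) (a b d : ℕ) (ha : 0 < a)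
    (hd : 0 < d) :
    H72.GrowthAt (fun τ => A (H15.aff a b d ha hd τ)) (fun τ => B (H15.aff a b d ha hd τ)) := by
  obtain ⟨c, C, m, hc, hC, h⟩ := h.normalize
  have haR : (0 : ℝ) < a := by exact_mod_cast ha
  have hdR : (0 : ℝ) < d := by exact_mod_cast hd
  have hd1 : (1 : ℝ) ≤ d := by exact_mod_cast hd
  refine ⟨c * d / a, C, m * a, fun τ hτ => ?_⟩
  have him := H15.im_aff a b d ha hd τ
  have h1 : c ≤ (H15.aff a b d ha hd τ).im := by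
    rw [him]
    rw [div_le_iff₀ haR] at hτ
    rw [div_mul_eq_mul_div, le_div_iff₀ hdR]
    linarith
  refine (h _ h1).trans ?_
  have hτ0 : 0 < τ.im := τ.im_pos
  have hle : 2 * π * m * (H15.aff a b d ha hd τ).im ≤ 2 * π * ((m * a : ℕ) : ℝ) * τ.im := by
    rw [him]
    push_cast
    have h2 : (a : ℝ) / d ≤ a := div_le_self haR.le hd1
    have h3 : (a : ℝ) / d * τ.im ≤ a * τ.im := mul_le_mul_of_nonneg_right h2 hτ0.le
    have h4 : (0 : ℝ) ≤ 2 * π * m := by positivity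
    calc 2 * π * m * ((a : ℝ) / d * τ.im) ≤ 2 * π * m * (a * τ.im) :=
          mul_le_mul_of_nonneg_left h3 h4
      _ = 2 * π * (m * a) * τ.im := by ring
  have := Real.exp_le_exp.mpr hle
  gcongr

/-! ### `scaleMer` preserves the cusp ring -/

/-- **(hAdm), core**: meromorphy at all cusps is preserved by `Φ ↦ Φ(ℓ τ)`. -/
theorem scaleMer_mem_cuspRing (ℓ : ℕ) [NeZero ℓ] {x : Mer} (hx : x ∈ H72.cuspRing) :
    scaleMer ℓ x ∈ H72.cuspRing := by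
  intro γ
  have hℓ : 0 < ℓ := Nat.pos_of_ne_zero (NeZero.ne ℓ)
  obtain ⟨σ, a, b, d, had, hbd, hmat⟩ := H15.exists_hermite ℓ hℓ γ⁻¹
  have ha : 0 < a := by
    rcases Nat.eq_zero_or_pos a with h0 | h0
    · rw [h0, zero_mul] at had; omega
    · exact h0
  have hd : 0 < d := by omega
  obtain ⟨A, B, hB, hAB, hg⟩ := hx σ⁻¹
  have hxe : x = algebraMap Hol Mer (σ • A) / algebraMap Hol Mer (σ • B) := by
    rw [← H72.mer_smul_div, ← hAB, smul_inv_smul]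
  have key : ∀ (E : Hol) (τ : ℍ), ((γ • scaleHol ℓ (σ • E) : Hol) : ℍ → ℂ) τ
      = (E : ℍ → ℂ) (H15.aff a b d ha hd τ) := by
    intro E τ
    rw [H72.hol_smul_apply, scaleHol_apply, H72.hol_smul_apply]
    have e := H15.aff_smul_eq ℓ hℓ γ⁻¹ σ a b d ha hd hmat τ
    rw [show mulD ℓ (γ⁻¹ • τ) = σ • H15.aff a b d ha hd τ from e, inv_smul_smul]
  refine ⟨γ • scaleHol ℓ (σ • A), γ • scaleHol ℓ (σ • B), ?_, ?_, ?_⟩
  · refine H72.hol_smul_ne_zero γ fun h0 => H72.hol_smul_ne_zero σ hB ?_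
    exact scaleHol_injective ℓ (h0.trans (map_zero _).symm)
  · rw [hxe, scaleMer_div, H72.mer_smul_div]
  · have e1 : ((γ • scaleHol ℓ (σ • A) : Hol) : ℍ → ℂ)
        = fun τ => (A : ℍ → ℂ) (H15.aff a b d ha hd τ) := funext (key A)
    have e2 : ((γ • scaleHol ℓ (σ • B) : Hol) : ℍ → ℂ)
        = fun τ => (B : ℍ → ℂ) (H15.aff a b d ha hd τ) := funext (key B)
    rw [e1, e2]
    exact growthAt_comp_aff hg a b d ha hd

theorem merComp_mem_cuspRing (γ : SL(2, ℤ)) {x : Mer} (hx : x ∈ H72.cuspRing) :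
    merComp γ x ∈ H72.cuspRing := by
  rw [H72.merComp_eq_smul]
  exact H72.smul_mem_cuspRing hx _

/-! ### bridges to the `GL(2,ℝ)⁺` vocabulary -/

/-- `diag(ℓ,1) • τ = ℓ τ`. -/
theorem diagPos_smul (ℓ : ℕ) [NeZero ℓ] (τ : ℍ) :
    ((H65.diagPos ℓ (NeZero.ne ℓ) : GL(2, ℝ)⁺) : GL (Fin 2) ℝ) • τ = mulD ℓ τ := by
  apply UpperHalfPlane.ext
  rw [H65.coe_diagPos_smul]
  simp [H15.coe_aff]

theorem heckeDiagMatrix_smul (ℓ : ℕ) [NeZero ℓ] (τ : ℍ) : heckeDiagMatrix ℓ • τ = mulD ℓ τ :=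
  diagPos_smul ℓ τ

theorem compHol_diagPos (ℓ : ℕ) [NeZero ℓ] (a : Hol) :
    H65.compHol (H65.diagPos ℓ (NeZero.ne ℓ)) a = scaleHol ℓ a := by
  apply Subtype.ext
  funext τ
  rw [H65.compHol_apply, scaleHol_apply, diagPos_smul]

/-- helper65's `actGL (diag(ℓ,1))` is `scaleMer ℓ`. -/
theorem actGL_diagPos (ℓ : ℕ) [NeZero ℓ] (x : Mer) :
    H65.actGL (H65.diagPos ℓ (NeZero.ne ℓ)) x = scaleMer ℓ x := by
  have h : H65.actGL (H65.diagPos ℓ (NeZero.ne ℓ)) = scaleMer ℓ :=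
    IsFractionRing.ringHom_ext (A := Hol) fun a => by
      rw [H65.actGL_algebraMap, scaleMer_algebraMap, compHol_diagPos]
  rw [h]

/-- `Φ ∘ (diag(ℓ,1) γ) = (Φ(ℓ ·)) ∘ γ`. -/
theorem actGL_diagPos_mul_slp (ℓ : ℕ) [NeZero ℓ] (γ : SL(2, ℤ)) (x : Mer) :
    H65.actGL (H65.diagPos ℓ (NeZero.ne ℓ) * H65.slp γ) x = merComp γ (scaleMer ℓ x) := by
  rw [H65.actGL_mul, actGL_diagPos, H65.actGL_slp]

/-- The same for any `g : GL(2,ℝ)⁺` with matrix `diag(ℓ,1) γ`. -/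
theorem actGL_eq_merComp_scaleMer (ℓ : ℕ) [NeZero ℓ] (γ : SL(2, ℤ)) (g : GL(2, ℝ)⁺)
    (hg : (g : GL (Fin 2) ℝ) = heckeDiagMatrix ℓ * Matrix.SpecialLinearGroup.mapGL ℝ γ)
    (x : Mer) : H65.actGL g x = merComp γ (scaleMer ℓ x) := by
  have e : g = H65.diagPos ℓ (NeZero.ne ℓ) * H65.slp γ := Subtype.ext hg
  rw [e, actGL_diagPos_mul_slp]

theorem actGL_mem_cuspRing (ℓ : ℕ) [NeZero ℓ] (γ : SL(2, ℤ)) (g : GL(2, ℝ)⁺)
    (hg : (g : GL (Fin 2) ℝ) = heckeDiagMatrix ℓ * Matrix.SpecialLinearGroup.mapGL ℝ γ)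
    {x : Mer} (hx : x ∈ H72.cuspRing) : H65.actGL g x ∈ H72.cuspRing := by
  rw [actGL_eq_merComp_scaleMer ℓ γ g hg]
  exact merComp_mem_cuspRing γ (scaleMer_mem_cuspRing ℓ hx)

/-! ### (hAdm) -/

section adm

open Fermat.Agent.S41.H85 Fermat.Agent.S41.H65 Fermat.Agent.S41.H72

variable {Γ₁ Γ₂ : Type*} [Group Γ₁] [Group Γ₂] {ι₁ : Γ₁ →* GL(2, ℝ)⁺} {ι₂ : Γ₂ →* GL(2, ℝ)⁺}
  {I : Type*} [Fintype I]

theorem heckeMer_val_mem_cuspRing (ℓ : ℕ) [NeZero ℓ] (D : CosetDatum ι₁ ι₂ I)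
    (hD : ∀ i, ∃ γ : SL(2, ℤ), ((D.α i : GL(2, ℝ)⁺) : GL (Fin 2) ℝ)
      = heckeDiagMatrix ℓ * Matrix.SpecialLinearGroup.mapGL ℝ γ)
    {Φ : Merˣ} (hΦ : (Φ : Mer) ∈ H72.cuspRing) :
    ((H65.heckeMer D Φ : Merˣ) : Mer) ∈ H72.cuspRing := by
  rw [H65.heckeMer_val]
  refine Subring.prod_mem _ fun i _ => ?_
  obtain ⟨γ, hγ⟩ := hD i
  exact actGL_mem_cuspRing ℓ γ (D.α i) hγ hΦ

/-- **(hAdm)**: the Hecke operator of a coset datum with representatives `diag(ℓ,1) γ_i`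
preserves helper85's admissible units. -/
theorem heckeMer_mem_admUnits (ℓ : ℕ) [NeZero ℓ] (D : CosetDatum ι₁ ι₂ I)
    (hD : ∀ i, ∃ γ : SL(2, ℤ), ((D.α i : GL(2, ℝ)⁺) : GL (Fin 2) ℝ)
      = heckeDiagMatrix ℓ * Matrix.SpecialLinearGroup.mapGL ℝ γ)
    {Φ : Merˣ} (hΦ : Φ ∈ H85.admUnits) : H65.heckeMer D Φ ∈ H85.admUnits := by
  refine ⟨heckeMer_val_mem_cuspRing ℓ D hD hΦ.1, ?_⟩
  rw [← map_inv]
  exact heckeMer_val_mem_cuspRing ℓ D hD hΦ.2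

variable {N : ℕ}

theorem picTPos_α_eq {ℓ : ℕ} (D : ALData N ℓ) (hℓ : ℓ.Prime) (hℓN : ¬ ℓ ∣ N) (hN : N ≠ 0)
    (i : Unit × OnePoint (ZMod ℓ)) :
    ∃ γ : SL(2, ℤ), (((H65.picTPos D hℓ hℓN hN).α i : GL(2, ℝ)⁺) : GL (Fin 2) ℝ)
      = heckeDiagMatrix ℓ * Matrix.SpecialLinearGroup.mapGL ℝ γ :=
  ⟨((corRep D i.2 : CongruenceSubgroup.Gamma0 N) : SL(2, ℤ)), rfl⟩

theorem picUPos_α_eq {ℓ : ℕ} (hN : N ≠ 0) (hℓN : ℓ ∣ N) [NeZero ℓ] (i : Unit × ZMod ℓ) :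
    ∃ γ : SL(2, ℤ), (((H65.picUPos hN hℓN).α i : GL(2, ℝ)⁺) : GL (Fin 2) ℝ)
      = heckeDiagMatrix ℓ * Matrix.SpecialLinearGroup.mapGL ℝ γ :=
  ⟨((H65.lowGamma0 N (i.2.val : ℤ) : CongruenceSubgroup.Gamma0 N) : SL(2, ℤ)), rfl⟩

/-- **(hAdm)** for `T_ℓ`, `ℓ ∤ N`. -/
theorem picTPos_mem_admUnits {ℓ : ℕ} [NeZero ℓ] (D : ALData N ℓ) (hℓ : ℓ.Prime) (hℓN : ¬ ℓ ∣ N)
    (hN : N ≠ 0) {Φ : Merˣ} (hΦ : Φ ∈ H85.admUnits) :
    H65.heckeMer (H65.picTPos D hℓ hℓN hN) Φ ∈ H85.admUnits :=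
  heckeMer_mem_admUnits ℓ _ (picTPos_α_eq D hℓ hℓN hN) hΦ

/-- **(hAdm)** for `U_ℓ`, `ℓ ∣ N`. -/
theorem picUPos_mem_admUnits {ℓ : ℕ} (hN : N ≠ 0) (hℓN : ℓ ∣ N) [NeZero ℓ]
    {Φ : Merˣ} (hΦ : Φ ∈ H85.admUnits) :
    H65.heckeMer (H65.picUPos hN hℓN) Φ ∈ H85.admUnits :=
  heckeMer_mem_admUnits ℓ _ (picUPos_α_eq hN hℓN) hΦ

end adm

end Fermat.Agent.S29.H47
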