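import Mathlib
import Fermat.Agent.S29.H72_DictMer
import Fermat.Agent.S29.H72_DictDegree
import Fermat.Agent.S29.H48_FieldSqueeze
import Fermat.Agent.S29.H48_LevelOneMero

set_option autoImplicit false

/-!
# S29 / P5 MODFUN : the IMAGE theorem (helper48)

Every `Γ₀(N)`-invariant element of `Mer = Frac Hol` which is meromorphic at all cusps lies in the
image of `toMer N : FC N →+* Mer`.
-/

open UpperHalfPlane Polynomial IntermediateField
open scoped Manifold MatrixGroups Real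

noncomputable section

namespace Fermat.Agent.S29.H48

open Fermat.Agent.S24 Fermat.Agent.S24.H81 Fermat.Agent.S29.H72

/-! ### Polynomials in `J` inside `H81.Hol` -/

/-- constants as a ring hom `ℂ →+* Hol`. -/
def constHol : ℂ →+* Hol where
  toFun c := ⟨fun _ => c, const_mem_Hol c⟩
  map_one' := rfl
  map_mul' _ _ := rfl
  map_zero' := rfl
  map_add' _ _ := rfl

/-- `J` as an element of `H81.Hol`. -/
def JHol : Hol := ⟨H28.J, H28.J_mdiff⟩

/-- `P(J)` as an element of `H81.Hol`. -/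
def polyJHol (P : ℂ[X]) : Hol := P.eval₂ constHol JHol

/-- evaluation at a point, as a ring hom on `H81.Hol`. -/
def evHol (τ : ℍ) : Hol →+* ℂ := (Pi.evalRingHom (fun _ : ℍ => ℂ) τ).comp Hol.subtype

@[simp] theorem evHol_apply (τ : ℍ) (g : Hol) : evHol τ g = (g : ℍ → ℂ) τ := rfl

theorem polyJHol_apply (P : ℂ[X]) (τ : ℍ) : (polyJHol P : ℍ → ℂ) τ = P.eval (H28.J τ) := by
  have h := Polynomial.hom_eval₂ P constHol (evHol τ) JHol
  rw [evHol_apply, evHol_apply] at h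
  rw [polyJHol, h]
  have h2 : (evHol τ).comp constHol = RingHom.id ℂ := by
    ext c
    rfl
  rw [h2, Polynomial.eval₂_id]
  rfl

theorem polyJHol_ne_zero {Q : ℂ[X]} (hQ : Q ≠ 0) : polyJHol Q ≠ 0 := by
  intro h
  apply hQ
  apply Polynomial.funext
  intro w
  obtain ⟨τ, rfl⟩ := H28.J_surjective w
  rw [← polyJHol_apply, h, Polynomial.eval_zero]
  rfl

variable (N : ℕ) [NeZero N]

theorem toMer_comp_algebraMap :
    (toMer N).comp (algebraMap ℂ (FC N)) = (algebraMap Hol Mer).comp constHol := by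
  ext c
  exact toMer_algebraMap N c

theorem toMer_aeval_jC (P : ℂ[X]) :
    toMer N (aeval (jC N) P) = algebraMap Hol Mer (polyJHol P) := by
  rw [aeval_def, Polynomial.hom_eval₂, toMer_comp_algebraMap, toMer_jC, JMer, polyJHol,
    Polynomial.hom_eval₂]
  rfl

/-! ### Level one: invariant elements of the cusp ring are rational functions of `J` -/

/-- The element `P(j) / Q(j)` of `ℂ⟮jC N⟯`. -/
def ratJ (P Q : ℂ[X]) : ℂ⟮jC N⟯ :=
  aeval (AdjoinSimple.gen ℂ (jC N)) P / aeval (AdjoinSimple.gen ℂ (jC N)) Q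

theorem toMer_ratJ (P Q : ℂ[X]) :
    toMer N (algebraMap ℂ⟮jC N⟯ (FC N) (ratJ N P Q)) =
      algebraMap Hol Mer (polyJHol P) / algebraMap Hol Mer (polyJHol Q) := by
  rw [ratJ, map_div₀, map_div₀, ← aeval_algebraMap_apply, ← aeval_algebraMap_apply,
    AdjoinSimple.algebraMap_gen, toMer_aeval_jC, toMer_aeval_jC]

/-- **Level one**: an `SL(2, ℤ)`-invariant element of the cusp ring is a rational function of
`J`. -/
theorem exists_ratJ_of_invariant {y : Mer} (hy : y ∈ cuspRing)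
    (hinv : ∀ g : SL(2, ℤ), g • y = y) :
    ∃ k : ℂ⟮jC N⟯, toMer N (algebraMap ℂ⟮jC N⟯ (FC N) k) = y := by
  obtain ⟨a, b, hb, rfl⟩ := exists_div_hol y
  have hG : GrowthAt (a : ℍ → ℂ) (b : ℍ → ℂ) := by
    have h1 := hy 1
    rw [one_smul] at h1
    exact h1.growthAt hb rfl
  have hcross : ∀ (γ : SL(2, ℤ)) (τ : ℍ),
      (a : ℍ → ℂ) (γ • τ) * (b : ℍ → ℂ) τ = (a : ℍ → ℂ) τ * (b : ℍ → ℂ) (γ • τ) := by
    intro γ τ
    have h1 := hinv γ⁻¹
    rw [mer_smul_div, div_eq_div_iff_hol (hol_smul_ne_zero γ⁻¹ hb) hb] at h1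
    have h2 := congrArg (fun f : Hol => (f : ℍ → ℂ) τ) h1
    simp only [Subring.coe_mul, Pi.mul_apply, hol_smul_apply, inv_inv] at h2
    exact h2
  obtain ⟨P, Q, hQ, hPQ⟩ := exists_polynomial_of_invariant_ratio (a : ℍ → ℂ) (b : ℍ → ℂ)
    a.2 b.2 (coe_ne_zero hb) hcross hG
  refine ⟨ratJ N P Q, ?_⟩
  rw [toMer_ratJ, div_eq_div_iff_hol (polyJHol_ne_zero hQ) hb]
  apply Subtype.ext
  funext τ
  show (polyJHol P : ℍ → ℂ) τ * (b : ℍ → ℂ) τ = (a : ℍ → ℂ) τ * (polyJHol Q : ℍ → ℂ) τ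
  rw [polyJHol_apply, polyJHol_apply, ← hPQ τ]
  ring

/-! ### `toMer` of `ℂ(j)` is `SL(2, ℤ)`-invariant -/

theorem smul_JMer (g : SL(2, ℤ)) : g • (JMer : Mer) = JMer := by
  rw [JMer, mer_smul_algebraMap]
  congr 1
  apply Subtype.ext
  funext τ
  rw [hol_smul_apply]
  exact H28.J_smul g⁻¹ τ

theorem smul_constMer (g : SL(2, ℤ)) (c : ℂ) : g • (constMer c : Mer) = constMer c := by
  rw [constMer, mer_smul_algebraMap]
  rfl

/-- The elements of `FC N` whose realisation is `SL(2, ℤ)`-invariant. -/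
def invField : IntermediateField ℂ (FC N) where
  carrier := {f | ∀ g : SL(2, ℤ), g • toMer N f = toMer N f}
  mul_mem' := fun {a b} ha hb g => by rw [map_mul, smul_mul', ha g, hb g]
  one_mem' := fun g => by rw [map_one, smul_one]
  add_mem' := fun {a b} ha hb g => by rw [map_add, smul_add, ha g, hb g]
  zero_mem' := fun g => by rw [map_zero, smul_zero]
  algebraMap_mem' := fun c g => by rw [toMer_algebraMap, smul_constMer]
  inv_mem' := fun a ha g => by rw [map_inv₀, smul_inv'', ha g]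

theorem smul_toMer_algebraMap (k : ℂ⟮jC N⟯) (g : SL(2, ℤ)) :
    g • toMer N (algebraMap ℂ⟮jC N⟯ (FC N) k) = toMer N (algebraMap ℂ⟮jC N⟯ (FC N) k) := by
  have hle : ℂ⟮jC N⟯ ≤ invField N := by
    rw [adjoin_simple_le_iff]
    intro g
    rw [toMer_jC, smul_JMer]
  exact hle k.2 g

/-! ### The IMAGE theorem -/

/-- **IMAGE.** A `Γ₀(N)`-invariant element of `Mer` which is meromorphic at all cusps lies in the
image of `toMer N`. -/
theorem image_toMer {x : Mer} (hx : x ∈ cuspRing)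
    (hinv : ∀ γ ∈ CongruenceSubgroup.Gamma0 N, γ • x = x) : ∃ f : FC N, toMer N f = x := by
  refine exists_eq_of_fixed_of_index_le (K0 := ℂ⟮jC N⟯) (E := FC N) (M := Mer) (G := SL(2, ℤ))
    (toMer N) cuspRing (fun g y hy => smul_mem_cuspRing hy g)
    (fun y hy hfix => exists_ratJ_of_invariant N hy hfix)
    (CongruenceSubgroup.Gamma0 N) (toMer_mem_cuspRing N)
    (fun f γ hγ => smul_toMer N hγ f) (smul_toMer_algebraMap N) ?_ x hx hinv
  rw [finrank_FC_eq_natCard, Subgroup.index_eq_card]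

/-- IMAGE in function form: `a, b` holomorphic, `b ≠ 0`, `a / b` invariant under `Γ₀(N)` in
cross-multiplied form and of moderate growth at every cusp. -/
theorem image_toMer_of_growth {a b : Hol} (hb : b ≠ 0)
    (hinv : ∀ γ ∈ CongruenceSubgroup.Gamma0 N, ∀ τ : ℍ,
      (a : ℍ → ℂ) (γ • τ) * (b : ℍ → ℂ) τ = (a : ℍ → ℂ) τ * (b : ℍ → ℂ) (γ • τ))
    (hcusp : ∀ σ : SL(2, ℤ),
      GrowthAt (fun τ => (a : ℍ → ℂ) (σ • τ)) (fun τ => (b : ℍ → ℂ) (σ • τ))) :
    ∃ f : FC N, toMer N f = algebraMap Hol Mer a / algebraMap Hol Mer b := by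
  refine image_toMer N (div_mem_cuspRing hb fun γ => hcusp γ⁻¹) ?_
  intro γ hγ
  rw [mer_smul_div, div_eq_div_iff_hol (hol_smul_ne_zero γ hb) hb]
  apply Subtype.ext
  funext τ
  have h := hinv γ⁻¹ (inv_mem hγ) τ
  show (a : ℍ → ℂ) (γ⁻¹ • τ) * (b : ℍ → ℂ) τ = (a : ℍ → ℂ) τ * (b : ℍ → ℂ) (γ⁻¹ • τ)
  exact h

end Fermat.Agent.S29.H48
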