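import Mathlib
import Fermat.Agent.S24.H4_QhExpansion
import Fermat.Agent.S24.H81_Hol
import Fermat.Agent.S29.H30_CuspLower

/-!
# S29 / Stage 3 / FIN : the cusp growth predicate of a quotient of holomorphic functions

`Growth a b` (helper48's shape): `‖a τ‖ ≤ C * exp (2π m Im τ) * ‖b τ‖` for `Im τ ≥ c`, i.e.
"`a / b` is meromorphic at `i∞`".

* `Growth.congr`  (G1) : the predicate only depends on the quotient `a / b`.
* `Growth.of_pow` (G2) : `Growth (a ^ n) (b ^ n) → Growth a b`.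
* `exists_lower_bound_of_growth` : a nonzero periodic holomorphic function of at most exponential
  growth is bounded below by `C * exp (-2π m Im τ)` near `i∞`.
* `growth_of_upper_of_periodic` (G3, abstract) : `a` of exponential growth, `b ≠ 0` periodic of
  exponential growth `⇒ Growth a b`.
-/

set_option autoImplicit false

open UpperHalfPlane Filter Function
open scoped Topology Manifold Real

noncomputable section

namespace Fermat.Agent.S29.H58

open Fermat.Agent.S24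

/-- helper48's growth predicate for the quotient `a / b` at `i∞`. -/
def Growth (a b : ℍ → ℂ) : Prop :=
  ∃ c C : ℝ, ∃ m : ℕ, ∀ τ : ℍ, c ≤ τ.im →
    ‖a τ‖ ≤ C * Real.exp (2 * π * m * τ.im) * ‖b τ‖

/-- **(G2)** `n`-th roots: `Growth (a ^ n) (b ^ n) → Growth a b`. -/
theorem Growth.of_pow {a b : ℍ → ℂ} {n : ℕ} (hn : 0 < n) (h : Growth (a ^ n) (b ^ n)) :
    Growth a b := by
  obtain ⟨c, C, m, hC⟩ := h
  refine ⟨c, max C 1, m, fun τ hτ => ?_⟩
  have h1 := hC τ hτ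
  simp only [Pi.pow_apply, norm_pow] at h1
  set E := Real.exp (2 * π * m * τ.im) with hE
  have hE1 : 1 ≤ E := Real.one_le_exp (by have := τ.im_pos; positivity)
  have hE0 : 0 < E := Real.exp_pos _
  have hK1 : 1 ≤ max C 1 * E := one_le_mul_of_one_le_of_one_le (le_max_right _ _) hE1
  by_contra hcon
  push Not at hcon
  have h2 : (max C 1 * E * ‖b τ‖) ^ n < ‖a τ‖ ^ n :=
    pow_lt_pow_left₀ hcon (by positivity) hn.ne'
  have h3 : C * E * ‖b τ‖ ^ n ≤ (max C 1 * E * ‖b τ‖) ^ n := by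
    rw [mul_pow]
    have h4 : C * E ≤ max C 1 * E := mul_le_mul_of_nonneg_right (le_max_left _ _) hE0.le
    have h5 : max C 1 * E ≤ (max C 1 * E) ^ n := le_self_pow₀ hK1 hn.ne'
    exact mul_le_mul_of_nonneg_right (h4.trans h5) (by positivity)
  linarith

/-- **(G1)** the growth predicate only depends on the quotient `a / b`. -/
theorem Growth.congr {a b a' b' : ℍ → ℂ} (hb : MDiff b) (ha' : MDiff a') (hb' : MDiff b')
    (hb0 : b ≠ 0) (hab : ∀ τ, a τ * b' τ = a' τ * b τ) (h : Growth a b) : Growth a' b' := by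
  obtain ⟨c, C, m, hC⟩ := h
  refine ⟨c, C, m, ?_⟩
  -- the generic points
  have hgen : ∀ τ : ℍ, c ≤ τ.im → b τ ≠ 0 →
      ‖a' τ‖ ≤ C * Real.exp (2 * π * m * τ.im) * ‖b' τ‖ := by
    intro τ hτ hbτ
    have h1 := hC τ hτ
    have h2 : ‖a' τ‖ * ‖b τ‖ = ‖a τ‖ * ‖b' τ‖ := by
      rw [← norm_mul, ← norm_mul, hab τ]
    have hpos : 0 < ‖b τ‖ := norm_pos_iff.mpr hbτ
    have h3 : ‖a' τ‖ * ‖b τ‖ ≤ C * Real.exp (2 * π * m * τ.im) * ‖b' τ‖ * ‖b τ‖ := by
      rw [h2]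
      calc ‖a τ‖ * ‖b' τ‖ ≤ C * Real.exp (2 * π * m * τ.im) * ‖b τ‖ * ‖b' τ‖ :=
            mul_le_mul_of_nonneg_right h1 (norm_nonneg _)
        _ = C * Real.exp (2 * π * m * τ.im) * ‖b' τ‖ * ‖b τ‖ := by ring
    exact le_of_mul_le_mul_right h3 hpos
  intro τ hτ
  by_cases hbτ : b τ ≠ 0
  · exact hgen τ hτ hbτ
  -- a zero of `b`: approach it from above
  have hbA : AnalyticAt ℂ (b ∘ ofComplex) (τ : ℂ) := H81.analyticAt_comp_ofComplex hb τ
  have hne : ∀ᶠ z in 𝓝[≠] (τ : ℂ), (b ∘ ofComplex) z ≠ 0 := by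
    rcases hbA.eventually_eq_zero_or_eventually_ne_zero with h0 | h0
    · exact absurd (analyticOrderAt_eq_top.mpr h0) (H81.analyticOrderAt_ne_top hb hb0 τ)
    · exact h0
  -- the path `t ↦ τ + i t`
  let γ : ℝ → ℂ := fun t => (τ : ℂ) + (t : ℂ) * Complex.I
  have hγcont : Continuous γ := by fun_prop
  have hγ0 : γ 0 = (τ : ℂ) := by simp [γ]
  have hγt : Tendsto γ (𝓝[>] 0) (𝓝 (τ : ℂ)) := by
    have := (hγcont.tendsto 0).mono_left (nhdsWithin_le_nhds (s := Set.Ioi (0 : ℝ)))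
    rwa [hγ0] at this
  have hγne : Tendsto γ (𝓝[>] 0) (𝓝[≠] (τ : ℂ)) := by
    refine tendsto_nhdsWithin_iff.mpr ⟨hγt, ?_⟩
    filter_upwards [self_mem_nhdsWithin] with t ht
    simp only [Set.mem_compl_iff, Set.mem_singleton_iff, γ]
    intro h0
    have h1 : (t : ℂ) * Complex.I = 0 := by
      have := congrArg (fun z => z - (τ : ℂ)) h0
      simpa using this
    have h2 : (t : ℂ) = 0 := by simpa using h1
    have h3 : t = 0 := by exact_mod_cast h2
    exact (ne_of_gt ht) h3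
  -- the continuous function `G`
  let G : ℂ → ℝ := fun z =>
    C * Real.exp (2 * π * m * z.im) * ‖b' (ofComplex z)‖ - ‖a' (ofComplex z)‖
  have hcontA : ContinuousAt (a' ∘ ofComplex) (τ : ℂ) :=
    (H81.analyticAt_comp_ofComplex ha' τ).continuousAt
  have hcontB : ContinuousAt (b' ∘ ofComplex) (τ : ℂ) :=
    (H81.analyticAt_comp_ofComplex hb' τ).continuousAt
  have hGcont : ContinuousAt G (τ : ℂ) := by
    have h1 : ContinuousAt (fun z : ℂ => C * Real.exp (2 * π * m * z.im)) (τ : ℂ) := by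
      fun_prop
    exact (h1.mul hcontB.norm).sub hcontA.norm
  have hGt : Tendsto (G ∘ γ) (𝓝[>] 0) (𝓝 (G (τ : ℂ))) := hGcont.tendsto.comp hγt
  have hGnonneg : ∀ᶠ t in 𝓝[>] (0 : ℝ), 0 ≤ (G ∘ γ) t := by
    filter_upwards [hγne.eventually hne, self_mem_nhdsWithin] with t ht1 ht2
    have ht2' : (0 : ℝ) < t := ht2
    have him : (γ t).im = τ.im + t := by simp [γ]
    have hpos : 0 < (γ t).im := by rw [him]; linarith [τ.im_pos]
    have hofc : ofComplex (γ t) = ⟨γ t, hpos⟩ := ofComplex_apply_of_im_pos hpos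
    have him' : (⟨γ t, hpos⟩ : ℍ).im = τ.im + t := him
    have h1 := hgen ⟨γ t, hpos⟩ (by rw [him']; linarith) (by
      have := ht1
      rwa [Function.comp_apply, hofc] at this)
    simp only [Function.comp_apply, G, hofc]
    rw [him'] at h1
    rw [him]
    linarith
  have hfin : 0 ≤ G (τ : ℂ) := ge_of_tendsto hGt hGnonneg
  simp only [G, ofComplex_apply] at hfin
  have : ((τ : ℂ)).im = τ.im := rfl
  rw [this] at hfin
  linarith

/-- `q = exp (2πiτ)` is invariant under integer translations. -/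
theorem qFun_one_natCast_vadd (h : ℕ) (τ : ℍ) : H4.qFun 1 ((h : ℝ) +ᵥ τ) = H4.qFun 1 τ := by
  simp only [H4.qFun, UpperHalfPlane.coe_vadd, Function.Periodic.qParam]
  have : 2 * (π : ℂ) * Complex.I * (((h : ℝ) : ℂ) + (τ : ℂ)) / ((1 : ℝ) : ℂ)
      = 2 * π * Complex.I * (τ : ℂ) / ((1 : ℝ) : ℂ) + (h : ℕ) * (2 * π * Complex.I) := by
    push_cast
    ring
  rw [this, Complex.exp_add, Complex.exp_nat_mul_two_pi_mul_I, mul_one]

/-- a nonzero holomorphic function on `ℍ`, periodic and of at most exponential growth, is bounded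
below by `C * exp (-2π m Im τ)` near `i∞`. -/
theorem exists_lower_bound_of_growth {g : ℍ → ℂ} {h : ℕ} (hh : 0 < h)
    (hper : ∀ τ : ℍ, g ((h : ℝ) +ᵥ τ) = g τ) (hhol : MDiff g) (hne : g ≠ 0)
    (hup : ∃ (C : ℝ) (M : ℕ), ∀ τ : ℍ, 1 ≤ τ.im → ‖g τ‖ ≤ C * Real.exp (2 * π * M * τ.im)) :
    ∃ (m : ℕ) (C c : ℝ), 0 < C ∧ 0 ≤ c ∧
      ∀ τ : ℍ, c ≤ τ.im → C * Real.exp (-(2 * π * m * τ.im)) ≤ ‖g τ‖ := by
  obtain ⟨C₁, M, hC₁⟩ := hup
  have hh' : (0 : ℝ) < (h : ℝ) := by exact_mod_cast hh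
  -- the damped function
  set g₁ : ℍ → ℂ := H4.qFun 1 ^ M * g with hg₁
  have hg₁hol : MDiff g₁ := ((H4.mdiff_qFun 1).pow M).mul hhol
  have hg₁per : Periodic (g₁ ∘ ofComplex) (h : ℝ) := by
    rw [H4.periodic_comp_ofComplex_iff]
    intro τ
    simp only [hg₁, Pi.mul_apply, Pi.pow_apply, qFun_one_natCast_vadd, hper]
  have hnormq : ∀ τ : ℍ, ‖H4.qFun 1 τ ^ M‖ = Real.exp (-(2 * π * M * τ.im)) := by
    intro τ
    rw [norm_pow, H4.norm_qFun, ← Real.exp_nat_mul]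
    congr 1
    ring
  have hg₁bdd : IsBoundedAtImInfty g₁ := by
    rw [isBoundedAtImInfty_iff]
    refine ⟨C₁, 1, fun τ hτ => ?_⟩
    simp only [hg₁, Pi.mul_apply, Pi.pow_apply, norm_mul, hnormq]
    have h1 := hC₁ τ hτ
    have h2 : Real.exp (-(2 * π * M * τ.im)) * (C₁ * Real.exp (2 * π * M * τ.im)) = C₁ := by
      rw [mul_comm, mul_assoc, ← Real.exp_add]
      simp
    calc Real.exp (-(2 * π * M * τ.im)) * ‖g τ‖
        ≤ Real.exp (-(2 * π * M * τ.im)) * (C₁ * Real.exp (2 * π * M * τ.im)) :=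
          mul_le_mul_of_nonneg_left h1 (Real.exp_pos _).le
      _ = C₁ := h2
  have hg₁ne : g₁ ≠ 0 := by
    intro h0
    apply hne
    funext τ
    have h1 := congrFun h0 τ
    simp only [hg₁, Pi.mul_apply, Pi.pow_apply, Pi.zero_apply, mul_eq_zero] at h1
    rcases h1 with h1 | h1
    · exact absurd h1 (pow_ne_zero _ (H4.qFun_ne_zero 1 τ))
    · exact h1
  obtain ⟨m, C, c, hCpos, hlow⟩ :=
    H30.exists_lower_bound_atImInfty hh' hg₁per hg₁hol hg₁bdd hg₁ne
  refine ⟨m, C, max c 0, hCpos, le_max_right _ _, fun τ hτ => ?_⟩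
  have h1 := hlow τ ((le_max_left _ _).trans hτ)
  simp only [hg₁, Pi.mul_apply, Pi.pow_apply, norm_mul, hnormq] at h1
  have hy : 0 < τ.im := τ.im_pos
  -- `exp (-2π m y) ≤ exp (-2π m y / h)` and `exp (-2π M y) ≤ 1`
  have h2 : Real.exp (-(2 * π * m * τ.im)) ≤ Real.exp (-2 * π * m * τ.im / h) := by
    apply Real.exp_le_exp.mpr
    have h3 : 2 * π * m * τ.im / h ≤ 2 * π * m * τ.im := by
      apply div_le_self (by positivity)
      exact_mod_cast hh
    have h4 : -2 * π * m * τ.im / h = -(2 * π * m * τ.im / h) := by ring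
    rw [h4]
    linarith
  have h5 : Real.exp (-(2 * π * M * τ.im)) ≤ 1 := by
    apply Real.exp_le_one_iff.mpr
    have : 0 ≤ 2 * π * M * τ.im := by positivity
    linarith
  calc C * Real.exp (-(2 * π * m * τ.im)) ≤ C * Real.exp (-2 * π * m * τ.im / h) :=
        mul_le_mul_of_nonneg_left h2 hCpos.le
    _ ≤ Real.exp (-(2 * π * M * τ.im)) * ‖g τ‖ := h1
    _ ≤ 1 * ‖g τ‖ := mul_le_mul_of_nonneg_right h5 (norm_nonneg _)
    _ = ‖g τ‖ := one_mul _

/-- **(G3, abstract form)** `a` of at most exponential growth, `b ≠ 0` holomorphic, periodic and of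
at most exponential growth: then `a / b` is meromorphic at `i∞`. -/
theorem growth_of_upper_of_periodic {a b : ℍ → ℂ} {h : ℕ} (hh : 0 < h)
    (hupa : ∃ (C : ℝ) (M : ℕ), ∀ τ : ℍ, 1 ≤ τ.im → ‖a τ‖ ≤ C * Real.exp (2 * π * M * τ.im))
    (hper : ∀ τ : ℍ, b ((h : ℝ) +ᵥ τ) = b τ) (hhol : MDiff b) (hne : b ≠ 0)
    (hupb : ∃ (C : ℝ) (M : ℕ), ∀ τ : ℍ, 1 ≤ τ.im → ‖b τ‖ ≤ C * Real.exp (2 * π * M * τ.im)) :
    Growth a b := by
  obtain ⟨C₁, M₁, hC₁⟩ := hupa
  obtain ⟨m, C, c, hCpos, -, hlow⟩ := exists_lower_bound_of_growth hh hper hhol hne hupb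
  refine ⟨max c 1, max C₁ 0 / C, M₁ + m, fun τ hτ => ?_⟩
  have h1 := hC₁ τ ((le_max_right _ _).trans hτ)
  have h2 := hlow τ ((le_max_left _ _).trans hτ)
  have hE : Real.exp (2 * π * (M₁ + m : ℕ) * τ.im)
      = Real.exp (2 * π * M₁ * τ.im) * Real.exp (2 * π * m * τ.im) := by
    rw [← Real.exp_add]
    congr 1
    push_cast
    ring
  have h3 : Real.exp (2 * π * m * τ.im) * Real.exp (-(2 * π * m * τ.im)) = 1 := by
    rw [← Real.exp_add]
    simp
  have hC₁' : C₁ * Real.exp (2 * π * M₁ * τ.im) ≤ max C₁ 0 * Real.exp (2 * π * M₁ * τ.im) :=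
    mul_le_mul_of_nonneg_right (le_max_left _ _) (Real.exp_pos _).le
  calc ‖a τ‖ ≤ max C₁ 0 * Real.exp (2 * π * M₁ * τ.im) := h1.trans hC₁'
    _ = max C₁ 0 / C * (Real.exp (2 * π * M₁ * τ.im) * Real.exp (2 * π * m * τ.im))
          * (C * Real.exp (-(2 * π * m * τ.im))) := by
        have hC0 : C ≠ 0 := hCpos.ne'
        have h4 : max C₁ 0 / C * (Real.exp (2 * π * M₁ * τ.im) * Real.exp (2 * π * m * τ.im))
            * (C * Real.exp (-(2 * π * m * τ.im)))
            = max C₁ 0 * Real.exp (2 * π * M₁ * τ.im)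
              * (Real.exp (2 * π * m * τ.im) * Real.exp (-(2 * π * m * τ.im))) * (C / C) := by
          ring
        rw [h4, h3, div_self hC0, mul_one, mul_one]
    _ ≤ max C₁ 0 / C * (Real.exp (2 * π * M₁ * τ.im) * Real.exp (2 * π * m * τ.im))
          * ‖b τ‖ := by
        apply mul_le_mul_of_nonneg_left h2
        have : 0 ≤ max C₁ 0 / C := div_nonneg (le_max_right _ _) hCpos.le
        positivity
    _ = max C₁ 0 / C * Real.exp (2 * π * (M₁ + m : ℕ) * τ.im) * ‖b τ‖ := by rw [hE]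

end Fermat.Agent.S29.H58
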