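import Mathlib
import Fermat.Agent.S29.H25_MerAction
import Fermat.Agent.S29.H72_DictMer

/-!
# S29 / Stage 3 : bridge between the two `ℂ`-dictionaries (helper25's `H25` and helper72's `H72`)

The two ports of `S24/H17_Theta` to the base field `ℂ` are the same text in two namespaces.
* `AC_eq`, `ThetaC_eq` : `H72.AC N = H25.AC N`, `H72.ThetaC N = H25.ThetaC N`;
* `toMer_eq_thetaC` : `H72.toMer N = H25.thetaC N`;
* `smul_eq_merComp` : the left action `γ • x` of `H72` is `H25.merComp γ⁻¹ x`;
  `merComp_eq_smul` : `H25.merComp γ x = γ⁻¹ • x`.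
-/

set_option autoImplicit false

open UpperHalfPlane ModularCurve
open scoped MatrixGroups Manifold

noncomputable section

namespace Fermat.Agent.S29.H58

open Fermat.Agent.S24.H81 (Hol Mer)
open Fermat.Agent.S29

variable (N : ℕ) [NeZero N]

theorem jdC_eq (d : ℕ) [NeZero d] (hd : d ∣ N) : H72.jdC N d hd = H25.jdC N d hd := rfl

theorem jC_eq : H72.jC N = H25.jC N := rfl

theorem jdSetC_eq : H72.jdSetC N = H25.gensC N := rfl

theorem AC_eq : H72.AC N = H25.AC N := rfl

theorem ThetaC_eq (f : H25.FC N) : H72.ThetaC N f = H25.ThetaC N f := rfl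

theorem thetaConjC_eq (γ : SL(2, ℤ)) (f : H25.FC N) :
    H72.thetaConjC N γ f = H25.thetaConjC N γ f := rfl

/-- the two realisations `FC N →+* Mer` coincide. -/
theorem toMer_eq_thetaC : H72.toMer N = H25.thetaC N := by
  apply IsLocalization.ringHom_ext (nonZeroDivisors (H72.AC N))
  ext a
  simp only [RingHom.comp_apply]
  have e : algebraMap (H72.AC N) (H72.FC N) a = (a : H72.FC N) := rfl
  rw [e, H72.toMer_coe]
  exact (H25.thetaC_of_mem N a.2).symm

theorem toMer_apply (f : H25.FC N) : H72.toMer N f = H25.thetaC N f :=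
  congrArg (fun φ : H25.FC N →+* Mer => φ f) (toMer_eq_thetaC N)

/-- the left action of `H72` on `Mer` is precomposition with the inverse. -/
theorem smul_eq_merComp (γ : SL(2, ℤ)) (x : Mer) : γ • x = H25.merComp γ⁻¹ x := by
  obtain ⟨a, b, -, rfl⟩ := H72.exists_div_hol x
  rw [H72.mer_smul_div, map_div₀, H25.merComp_algebraMap, H25.merComp_algebraMap]
  rfl

theorem merComp_eq_smul (γ : SL(2, ℤ)) (x : Mer) : H25.merComp γ x = γ⁻¹ • x := by
  rw [smul_eq_merComp, inv_inv]

/-- invariance under a subgroup, in the two vocabularies. -/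
theorem forall_smul_eq_iff_forall_merComp_eq (Γ : Subgroup SL(2, ℤ)) (x : Mer) :
    (∀ γ ∈ Γ, γ • x = x) ↔ ∀ γ ∈ Γ, H25.merComp γ x = x := by
  constructor
  · intro h γ hγ
    rw [merComp_eq_smul]
    exact h γ⁻¹ (inv_mem hγ)
  · intro h γ hγ
    rw [smul_eq_merComp]
    exact h γ⁻¹ (inv_mem hγ)

end Fermat.Agent.S29.H58
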