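import Mathlib
import Fermat.Agent.S29.H58_DictBridge
import Fermat.Agent.S29.H58_FiniteTorsionInst

/-!
# S29 / Stage 3 / FIN : assembly from (A4)(ii) `hord` and IMAGE in helper72's `cuspRing` form

* `himage_of_cuspRing_image` : IMAGE (`x ∈ cuspRing`, `Γ₀(N)`-invariant `⇒ x ∈ toMer (FC N)`)
  gives the hypothesis `himage` of `finite_torsion_FC` (`cuspRing` is closed under `n`-th roots:
  `H72.mem_cuspRing_of_pow_mem`).
* `finite_torsion_FC_of_cuspRing_image` : FIN from `hord` and IMAGE.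
-/

set_option autoImplicit false

open AlgebraicCurve UpperHalfPlane ModularCurve CongruenceSubgroup
open scoped MatrixGroups Manifold

noncomputable section

namespace Fermat.Agent.S29.H58

open Fermat.Agent.S24.H81 (Hol Mer ordNat merOrd)
open Fermat.Agent.S29

variable (N : ℕ) [NeZero N]

/-- IMAGE in helper72's `cuspRing` form gives `himage`. -/
theorem himage_of_cuspRing_image
    (himg : ∀ x : Mer, x ∈ H72.cuspRing → (∀ g ∈ Gamma0 N, g • x = x) →
      ∃ f : H72.FC N, H72.toMer N f = x)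
    {n : ℕ} (hn : 0 < n) (Ψ : Mer) (hΨ : ∀ γ ∈ Gamma0 N, H25.merComp γ Ψ = Ψ)
    (hpow : ∃ h : H25.FC N, H25.thetaC N h = Ψ ^ n) : ∃ h : H25.FC N, H25.thetaC N h = Ψ := by
  obtain ⟨h, hh⟩ := hpow
  have h1 : Ψ ^ n ∈ H72.cuspRing := by
    rw [← hh, ← toMer_apply]
    exact H72.toMer_mem_cuspRing N h
  have h2 : Ψ ∈ H72.cuspRing := H72.mem_cuspRing_of_pow_mem hn h1
  obtain ⟨f, hf⟩ := himg Ψ h2 ((forall_smul_eq_iff_forall_merComp_eq (Gamma0 N) Ψ).mpr hΨ)
  exact ⟨f, by rw [← toMer_apply, hf]⟩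

/-- **FIN** for `X₀(N)` over `ℂ`, from `hord` ((A4)(ii), orders at the points of `ℍ`) and IMAGE in
helper72's `cuspRing` form. -/
theorem finite_torsion_FC_of_cuspRing_image {n : ℕ} (hn : 0 < n)
    (hord : ∀ τ : ℍ, ∃ (v : Place ℂ (H25.FC N)) (e : ℤ), ∀ f : H25.FC N, f ≠ 0 →
      merOrd τ (H25.thetaC N f) = e * v.ord f)
    (himg : ∀ x : Mer, x ∈ H72.cuspRing → (∀ g ∈ Gamma0 N, g • x = x) →
      ∃ f : H72.FC N, H72.toMer N f = x) :
    Finite {c : Pic0 ℂ (H25.FC N) // (n : ℤ) • c = 0} :=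
  finite_torsion_FC N hn hord
    (fun Ψ hΨ hpow => himage_of_cuspRing_image N himg hn Ψ hΨ hpow)

end Fermat.Agent.S29.H58
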