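import Mathlib
import Fermat.Agent.S29.H58_CuspGrowth
import Fermat.Agent.S29.H58_FiniteTorsionInst

/-!
# S29 / Stage 3 / FIN : from IMAGE (pair form, growth at every cusp) to `himage`

* `growth_thetaConjC` (G3) : for `α β ∈ AC N`, `β ≠ 0`, `σ ∈ SL(2, ℤ)`:
  `Growth (Θ α ∘ σ) (Θ β ∘ σ)`.
* `ImageHyp N` : the IMAGE theorem in pair form (helper72 / helper48): a `Γ₀(N)`-invariant quotient
  `a / b` of holomorphic functions which is meromorphic at every cusp lies in `thetaC (FC N)`.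
* `himage_of_imageHyp` : `ImageHyp N` implies the hypothesis `himage` of `finite_torsion_FC`
  (an invariant `n`-th root of an element of `thetaC (FC N)` lies in `thetaC (FC N)`).
* `finite_torsion_FC_of_imageHyp` : FIN from `hord` and `ImageHyp N`.
-/

set_option autoImplicit false

open AlgebraicCurve UpperHalfPlane ModularCurve CongruenceSubgroup
open scoped MatrixGroups Manifold Real

noncomputable section

namespace Fermat.Agent.S29.H58

open Fermat.Agent.S24.H81 (Hol Mer ordNat merOrd)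
open Fermat.Agent.S24
open Fermat.Agent.S29

variable (N : ℕ) [NeZero N]

/-- **(G3)** quotients of elements of `AC N = ℂ[j_d]` are meromorphic at every cusp. -/
theorem growth_thetaConjC {α β : H25.FC N} (hα : α ∈ H25.AC N) (hβ : β ∈ H25.AC N) (hβ0 : β ≠ 0)
    (σ : SL(2, ℤ)) :
    Growth (fun τ => H25.ThetaC N α (σ • τ)) (fun τ => H25.ThetaC N β (σ • τ)) := by
  have hN : 0 < N := Nat.pos_of_ne_zero (NeZero.ne N)
  have e : ∀ f : H25.FC N, (fun τ => H25.ThetaC N f (σ • τ)) = H25.thetaConjC N σ⁻¹ f := by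
    intro f
    funext τ
    rw [H25.thetaConjC_apply, inv_inv]
  rw [e α, e β]
  refine growth_of_upper_of_periodic hN (H25.thetaConjC_growth N hα σ⁻¹)
    (fun τ => H25.thetaConjC_vadd N hβ σ⁻¹ τ) (H25.thetaConjC_mdiff N hβ σ⁻¹) ?_
    (H25.thetaConjC_growth N hβ σ⁻¹)
  intro h0
  apply hβ0
  apply H25.ThetaC_eq_zero N hβ
  funext τ
  have h1 := congrFun h0 (σ⁻¹ • τ)
  rw [H25.thetaConjC_apply, inv_inv, smul_inv_smul] at h1
  exact h1

/-- The IMAGE theorem in pair form: a `Γ₀(N)`-invariant quotient of holomorphic functions which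
is meromorphic at every cusp lies in the image of `thetaC`. -/
def ImageHyp : Prop :=
  ∀ a b : Hol, b ≠ 0 →
    (∀ γ ∈ Gamma0 N, ∀ τ : ℍ,
      (a : ℍ → ℂ) (γ • τ) * (b : ℍ → ℂ) τ = (a : ℍ → ℂ) τ * (b : ℍ → ℂ) (γ • τ)) →
    (∀ σ : SL(2, ℤ),
      Growth (fun τ => (a : ℍ → ℂ) (σ • τ)) (fun τ => (b : ℍ → ℂ) (σ • τ))) →
    ∃ f : H25.FC N, H25.thetaC N f = algebraMap Hol Mer a / algebraMap Hol Mer b

variable {N}

/-- `ImageHyp N` gives the hypothesis `himage` of `finite_torsion_FC`. -/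
theorem himage_of_imageHyp (hI : ImageHyp N) {n : ℕ} (hn : 0 < n) (Ψ : Mer)
    (hΨ : ∀ γ ∈ Gamma0 N, H25.merComp γ Ψ = Ψ)
    (hpow : ∃ h : H25.FC N, H25.thetaC N h = Ψ ^ n) : ∃ h : H25.FC N, H25.thetaC N h = Ψ := by
  obtain ⟨a, b, hb, rfl⟩ := H25.exists_eq_div Ψ
  have hinjM : Function.Injective (algebraMap Hol Mer) := IsFractionRing.injective Hol Mer
  have hbM : algebraMap Hol Mer b ≠ 0 := by
    rwa [ne_eq, map_eq_zero_iff _ hinjM]
  by_cases ha : a = 0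
  · subst ha
    exact ⟨0, by simp⟩
  have hb' : (b : ℍ → ℂ) ≠ 0 := H81.coe_ne_zero hb
  obtain ⟨h, hh⟩ := hpow
  -- invariance, cross-multiplied
  have hinv : ∀ γ ∈ Gamma0 N, ∀ τ : ℍ,
      (a : ℍ → ℂ) (γ • τ) * (b : ℍ → ℂ) τ = (a : ℍ → ℂ) τ * (b : ℍ → ℂ) (γ • τ) := by
    intro γ hγ τ
    have h1 := hΨ γ hγ
    rw [map_div₀, H25.merComp_algebraMap, H25.merComp_algebraMap] at h1
    have hbγ : algebraMap Hol Mer (H25.holComp γ b) ≠ 0 := by
      rw [ne_eq, map_eq_zero_iff _ hinjM]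
      intro h0
      exact hb (H25.holComp_injective γ (by rw [h0, map_zero]))
    rw [div_eq_div_iff hbγ hbM, ← map_mul, ← map_mul] at h1
    have h2 := hinjM h1
    have h3 := congrArg (fun g : Hol => (g : ℍ → ℂ) τ) h2
    simpa using h3
  refine hI a b hb hinv (fun σ => ?_)
  -- write `h = α / β`
  obtain ⟨α, hα, β, hβ, hβ0, rfl⟩ := H25.exists_div_AC N h
  rw [H25.thetaC_div N hα hβ, div_pow] at hh
  set A : Hol := ⟨H25.ThetaC N α, H25.ThetaC_mdiff N hα⟩ with hA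
  set B : Hol := ⟨H25.ThetaC N β, H25.ThetaC_mdiff N hβ⟩ with hB
  have hBne : B ≠ 0 := by
    intro h0
    apply hβ0
    apply H25.ThetaC_eq_zero N hβ
    exact congrArg Subtype.val h0
  have hBM : algebraMap Hol Mer B ≠ 0 := by
    rwa [ne_eq, map_eq_zero_iff _ hinjM]
  rw [div_eq_div_iff hBM (pow_ne_zero _ hbM), ← map_pow, ← map_pow, ← map_mul, ← map_mul] at hh
  have hrel := hinjM hh
  -- pointwise: `A τ * b τ ^ n = a τ ^ n * B τ`
  have hpt : ∀ τ : ℍ, H25.ThetaC N α τ * (b : ℍ → ℂ) τ ^ n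
      = (a : ℍ → ℂ) τ ^ n * H25.ThetaC N β τ := by
    intro τ
    have h3 := congrArg (fun g : Hol => (g : ℍ → ℂ) τ) hrel
    simpa [hA, hB] using h3
  -- growth of `(A ∘ σ) / (B ∘ σ)`, transported to `(a ∘ σ)^n / (b ∘ σ)^n`, then `n`-th root
  have hG := growth_thetaConjC N hα hβ hβ0 σ
  have hBσ : MDiff (fun τ => H25.ThetaC N β (σ • τ)) :=
    (H25.ThetaC_mdiff N hβ).comp (H17.mdiff_SL_smul σ)
  have haσ : MDiff ((fun τ => (a : ℍ → ℂ) (σ • τ)) ^ n) :=
    ((H81.mem_Hol.mp a.2).comp (H17.mdiff_SL_smul σ)).pow n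
  have hbσ : MDiff ((fun τ => (b : ℍ → ℂ) (σ • τ)) ^ n) :=
    ((H81.mem_Hol.mp b.2).comp (H17.mdiff_SL_smul σ)).pow n
  have hBσ0 : (fun τ => H25.ThetaC N β (σ • τ)) ≠ 0 := by
    intro h0
    apply hβ0
    apply H25.ThetaC_eq_zero N hβ
    funext τ
    have h1 := congrFun h0 (σ⁻¹ • τ)
    simp only [smul_inv_smul, Pi.zero_apply] at h1
    exact h1
  have hG' : Growth ((fun τ => (a : ℍ → ℂ) (σ • τ)) ^ n) ((fun τ => (b : ℍ → ℂ) (σ • τ)) ^ n) :=
    Growth.congr hBσ haσ hbσ hBσ0 (fun τ => by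
      simp only [Pi.pow_apply]
      exact hpt (σ • τ)) hG
  exact Growth.of_pow hn hG'

variable (N)

/-- **FIN** for `X₀(N)` over `ℂ`, from `hord` (DICT, orders at the points of `ℍ`) and the IMAGE
theorem in pair form. -/
theorem finite_torsion_FC_of_imageHyp {n : ℕ} (hn : 0 < n)
    (hord : ∀ τ : ℍ, ∃ (v : Place ℂ (H25.FC N)) (e : ℤ), ∀ f : H25.FC N, f ≠ 0 →
      merOrd τ (H25.thetaC N f) = e * v.ord f)
    (hI : ImageHyp N) :
    Finite {c : Pic0 ℂ (H25.FC N) // (n : ℤ) • c = 0} :=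
  finite_torsion_FC N hn hord (fun Ψ hΨ hpow => himage_of_imageHyp hI hn Ψ hΨ hpow)

end Fermat.Agent.S29.H58
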