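import Mathlib
import Fermat.Agent.S29.H62_BcPackage
import Fermat.Agent.S29.H58_Fin

/-!
# S29 / E5: the base change package, hypothesis-free

`H62.bcJ N : JZero N →+ Pic⁰(ℂ F_N)` is injective and every torsion class of `Pic⁰(ℂ F_N)` is a
base change (FIN = helper58's `H58.finite_torsion`).
-/

set_option autoImplicit false

namespace Fermat.Agent.S29.H62

open ModularCurve AlgebraicCurve

variable (N : ℕ) [NeZero N]

/-- **(E5)** every `n`-torsion class of `Pic⁰(ℂ F_N)` (`n ≥ 1`) comes from `J₀(N)(ℚ̄)`. -/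
theorem exists_bcJ_eq_of_torsion {n : ℕ} (hn : 0 < n)
    (c : Pic0 ℂ ↥(laurentBaseChange ℂ (modularFunctionFieldFull N))) (hc : (n : ℤ) • c = 0) :
    ∃ c₀ : JZero N, bcJ N c₀ = c :=
  exists_bcJ_eq_of_finite_torsion N (H58.finite_torsion N hn) c hc

/-- The preimage is torsion as well. -/
theorem exists_torsion_bcJ_eq {n : ℕ} (hn : 0 < n)
    (c : Pic0 ℂ ↥(laurentBaseChange ℂ (modularFunctionFieldFull N))) (hc : (n : ℤ) • c = 0) :
    ∃ c₀ : JZero N, (n : ℤ) • c₀ = 0 ∧ bcJ N c₀ = c := by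
  obtain ⟨c₀, hc₀⟩ := exists_bcJ_eq_of_torsion N hn c hc
  refine ⟨c₀, bcJ_injective N ?_, hc₀⟩
  rw [map_zsmul, hc₀, hc, map_zero]

/-- **The `bc` package**, hypothesis-free, in the shape of `H85.eigenformSupportAt_of_lamC_bc`
(`hbc_inj`, `hbc_surj`); the Hecke clause `hbc_T` for the same map `bcJ N` is (D3). -/
theorem exists_bc_final {n : ℕ} (hn : 0 < n) :
    ∃ bc : JZero N →+ Pic0 ℂ ↥(laurentBaseChange ℂ (modularFunctionFieldFull N)),
      Function.Injective bc ∧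
        ∀ c : Pic0 ℂ ↥(laurentBaseChange ℂ (modularFunctionFieldFull N)), (n : ℤ) • c = 0 →
          ∃ c₀ : JZero N, bc c₀ = c :=
  exists_bc N (H58.finite_torsion N hn)

/-- `J₀(N)(ℚ̄)[n]` is finite. -/
theorem finite_torsion_JZero {n : ℕ} (hn : 0 < n) :
    Finite {c : JZero N // (n : ℤ) • c = 0} := by
  have := H58.finite_torsion N hn
  refine Finite.of_injective
    (fun c : {c : JZero N // (n : ℤ) • c = 0} =>
      (⟨bcJ N c.1, by rw [← map_zsmul, c.2, map_zero]⟩ :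
        {c : Pic0 ℂ ↥(laurentBaseChange ℂ (modularFunctionFieldFull N)) // (n : ℤ) • c = 0}))
    (fun a b hab => Subtype.ext (bcJ_injective N (congrArg Subtype.val hab)))

/-- `bcJ N` restricts to a bijection on `n`-torsion. -/
theorem bcJ_bijOn_torsion {n : ℕ} (hn : 0 < n) :
    Set.BijOn (bcJ N) {c : JZero N | (n : ℤ) • c = 0}
      {c : Pic0 ℂ ↥(laurentBaseChange ℂ (modularFunctionFieldFull N)) | (n : ℤ) • c = 0} := by
  refine ⟨fun c hc => ?_, (bcJ_injective N).injOn, fun c hc => ?_⟩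
  · show (n : ℤ) • bcJ N c = 0
    rw [← map_zsmul, show (n : ℤ) • c = 0 from hc, map_zero]
  · obtain ⟨c₀, h0, h1⟩ := exists_torsion_bcJ_eq N hn c hc
    exact ⟨c₀, h0, h1⟩

end Fermat.Agent.S29.H62
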