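import Mathlib
import Fermat.Prelude.Def_ModularCurve_HeckeOperator
import Fermat.Prelude.Thm_ModularCurve_coeffMap_qExpand
import Fermat.Agent.S29.H62_BcPackage

/-!
# S29 / (D3): naturality of the degeneracy maps under constant field extension

For a tower `ℚ → k → K`, the coefficientwise embedding
`bcField : k F_M → K F_M` commutes with `heckeAlphaBar` (inclusion `F_N ⊆ F_{Nℓ}`) and with
`heckeBetaBar` (`q ↦ q^ℓ`).  Specialised to `(ℚ̄, ℂ)` and the `ι` of `constExtJ`.
-/

set_option autoImplicit false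

noncomputable section

namespace Fermat.Agent.S29.H62

open ModularCurve AlgebraicCurve

section Generic

variable {k K : Type*} [Field k] [Field K] [Algebra ℚ k] [Algebra ℚ K] [Algebra k K]
  [IsScalarTower ℚ k K]
variable (N ℓ : ℕ) [NeZero N] [NeZero ℓ]

/-- `ι ∘ α_k = α_K ∘ ι`. -/
theorem bcField_heckeAlphaBar (x : ↥(laurentBaseChange k (modularFunctionFieldFull N))) :
    bcField (L := K) (modularFunctionFieldFull (N * ℓ)) (heckeAlphaBar k N ℓ x) =
      heckeAlphaBar K N ℓ (bcField (L := K) (modularFunctionFieldFull N) x) :=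
  Subtype.ext (by
    rw [coe_bcField, coe_heckeAlphaBar, coe_heckeAlphaBar, coe_bcField])

omit [NeZero N] in
/-- `ι ∘ β_k = β_K ∘ ι`. -/
theorem bcField_heckeBetaBar (x : ↥(laurentBaseChange k (modularFunctionFieldFull N))) :
    bcField (L := K) (modularFunctionFieldFull (N * ℓ)) (heckeBetaBar k N ℓ x) =
      heckeBetaBar K N ℓ (bcField (L := K) (modularFunctionFieldFull N) x) :=
  Subtype.ext (by
    rw [coe_bcField, coe_heckeBetaBar, coe_heckeBetaBar, coe_bcField, coeffMap_qExpand])

theorem bcField_comp_heckeAlphaBar :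
    (bcField (k := k) (L := K) (modularFunctionFieldFull (N * ℓ))).comp
        (heckeAlphaBar k N ℓ).toRingHom =
      (heckeAlphaBar K N ℓ).toRingHom.comp (bcField (k := k) (L := K) (modularFunctionFieldFull N)) :=
  RingHom.ext fun x => bcField_heckeAlphaBar N ℓ x

omit [NeZero N] in
theorem bcField_comp_heckeBetaBar :
    (bcField (k := k) (L := K) (modularFunctionFieldFull (N * ℓ))).comp
        (heckeBetaBar k N ℓ).toRingHom =
      (heckeBetaBar K N ℓ).toRingHom.comp (bcField (k := k) (L := K) (modularFunctionFieldFull N)) :=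
  RingHom.ext fun x => bcField_heckeBetaBar N ℓ x

end Generic

section QbarComplex

attribute [local instance] algebraQbarComplex isScalarTower_qbar_complex

variable (N ℓ : ℕ) [NeZero N] [NeZero ℓ]

/-- `ι_{Nℓ} ∘ α_ℚ̄ = α_ℂ ∘ ι_N` for the `ι` of `constExtJ`. -/
theorem constExtJ_ι_heckeAlphaBar
    (x : ↥(laurentBaseChange (AlgebraicClosure ℚ) (modularFunctionFieldFull N))) :
    (constExtJ (N * ℓ)).ι (heckeAlphaBar (AlgebraicClosure ℚ) N ℓ x) =
      heckeAlphaBar ℂ N ℓ ((constExtJ N).ι x) :=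
  bcField_heckeAlphaBar N ℓ x

omit [NeZero N] in
/-- `ι_{Nℓ} ∘ β_ℚ̄ = β_ℂ ∘ ι_N` for the `ι` of `constExtJ`. -/
theorem constExtJ_ι_heckeBetaBar
    (x : ↥(laurentBaseChange (AlgebraicClosure ℚ) (modularFunctionFieldFull N))) :
    (constExtJ (N * ℓ)).ι (heckeBetaBar (AlgebraicClosure ℚ) N ℓ x) =
      heckeBetaBar ℂ N ℓ ((constExtJ N).ι x) :=
  bcField_heckeBetaBar N ℓ x

end QbarComplex

end Fermat.Agent.S29.H62
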