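import Fermat.Agent.S29.H90_NormAn
import Fermat.Agent.S29.H72_DictDegree
import Fermat.Agent.S20.H78_Index
import Fermat.Agent.S28.H64_Triples

/-!
S29 / NORM-AN, `hcard` (helper90): `[FC (N ℓ) : α (FC N)] = [Γ₀(N) : Γ₀(N ℓ)]`, and the
cardinality-free form of the NORM-AN core: for ANY system `δ` of representatives of
`Γ₀(N ℓ) \ Γ₀(N)`,

`thetaC N (Nm_α x) = ∏ i, merComp (δ i) (thetaC (N ℓ) x)`.
-/

set_option autoImplicit false
set_option linter.style.haveILetI false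
noncomputable section
namespace Fermat.Agent.S29.H90
open UpperHalfPlane ModularCurve AlgebraicCurve IntermediateField
open Fermat.Agent.S24
open Fermat.Agent.S24.H81 (Hol Mer)
open Fermat.Agent.S29.H25
open Fermat.Agent.S37
open scoped MatrixGroups Manifold

/-! ### Counting a system of representatives -/

section Count

variable {G : Type*} [Group G]

/-- A system of representatives of the right cosets `K \ H` has `K.relIndex H` elements. -/
theorem card_eq_relIndex_of_reps (K H : Subgroup G) {ι : Type*} [Fintype ι] (δ : ι → G)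
    (hδ : ∀ i, δ i ∈ H) (hinj : ∀ i i', δ i * (δ i')⁻¹ ∈ K → i = i')
    (hcover : ∀ γ ∈ H, ∃ i, γ * (δ i)⁻¹ ∈ K) : Fintype.card ι = K.relIndex H := by
  classical
  let f : ι → H ⧸ K.subgroupOf H := fun i => QuotientGroup.mk ⟨(δ i)⁻¹, H.inv_mem (hδ i)⟩
  have hf : Function.Bijective f := by
    constructor
    · intro i i' h
      have h1 := QuotientGroup.eq.mp h
      rw [Subgroup.mem_subgroupOf] at h1
      apply hinj i i'
      simpa using h1
    · intro q
      obtain ⟨h, rfl⟩ := QuotientGroup.mk_surjective q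
      obtain ⟨i, hi⟩ := hcover (h : G)⁻¹ (H.inv_mem h.2)
      refine ⟨i, ?_⟩
      apply QuotientGroup.eq.mpr
      rw [Subgroup.mem_subgroupOf]
      have h2 := K.inv_mem hi
      simpa using h2
  rw [Subgroup.relIndex, Subgroup.index, ← Nat.card_eq_fintype_card]
  exact Nat.card_eq_of_bijective f hf

end Count

/-! ### The degree along `ψ`, generically -/

section GenericDegree

variable {K F F' : Type*} [Field K] [Field F] [Field F'] [Algebra K F] [Algebra K F']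

/-- `K(j) ⊆ F` is identified with `K(ψ j) ⊆ F'`. -/
def adjoinEquivAlong (ψ : F →ₐ[K] F') (j : F) : K⟮j⟯ ≃ₐ[K] K⟮ψ j⟯ :=
  (IntermediateField.equivMap _ ψ).trans
    (IntermediateField.equivOfEq (by rw [IntermediateField.adjoin_map, Set.image_singleton]))

/-- Tower law along `ψ` over the base `K(j)`:
`[F : K(j)] * [F' : ψ F] = [F' : K(ψ j)]`. -/
theorem finrank_adjoin_mul_finrankAlong (ψ : F →ₐ[K] F') (j : F) (j' : F') (hj : ψ j = j') :
    Module.finrank K⟮j⟯ F * finrankAlong K ψ = Module.finrank K⟮j'⟯ F' := by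
  subst hj
  letI algFE : Algebra F F' := algebraAlong ψ
  haveI f1 : Module.Free K⟮j⟯ F := Module.Free.of_divisionRing _ _
  haveI f2 : Module.Free F F' := Module.Free.of_divisionRing _ _
  have h1 : Module.finrank K⟮j⟯ F * Module.finrank F F' = Module.finrank K⟮j⟯ F' :=
    Module.finrank_mul_finrank _ _ _
  have h2 : Module.finrank K⟮j⟯ F' = Module.finrank K⟮ψ j⟯ F' := by
    refine Algebra.finrank_eq_of_equiv_equiv (adjoinEquivAlong ψ j).toRingEquiv
      (RingEquiv.refl _) ?_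
    ext x
    rfl
  rw [← h2, ← h1]
  rfl

theorem finiteAlong_of_finrankAlong_pos (ψ : F →ₐ[K] F') (h : 0 < finrankAlong K ψ) :
    FiniteAlong K ψ := by
  letI algFE : Algebra F F' := algebraAlong ψ
  show Module.Finite F F'
  exact Module.finite_of_finrank_pos h

end GenericDegree

/-! ### The degree of `α` -/

variable (N ℓ : ℕ) [NeZero N] [NeZero ℓ]

theorem alpha_jC72 : heckeAlphaBar ℂ N ℓ (H72.jC N) = H72.jC (N * ℓ) := by
  apply Subtype.ext
  rw [coe_heckeAlphaBar]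
  rfl

/-- `[FC (N ℓ) : α (FC N)] * [SL₂(ℤ) : Γ₀(N)] = [SL₂(ℤ) : Γ₀(N ℓ)]`. -/
theorem finrankAlong_alpha_mul_card :
    finrankAlong ℂ (heckeAlphaBar ℂ N ℓ) * Nat.card (H24.XN N) = Nat.card (H24.XN (N * ℓ)) := by
  have h1 := finrank_adjoin_mul_finrankAlong (heckeAlphaBar ℂ N ℓ) (H72.jC N) (H72.jC (N * ℓ))
    (alpha_jC72 N ℓ)
  rw [H72.finrank_FC_eq_natCard N, H72.finrank_FC_eq_natCard (N * ℓ)] at h1
  rw [mul_comm]
  exact h1

omit [NeZero N] [NeZero ℓ] in
theorem Gamma0_mul_le : CongruenceSubgroup.Gamma0 (N * ℓ) ≤ CongruenceSubgroup.Gamma0 N := by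
  intro A hA
  rw [CongruenceSubgroup.Gamma0_mem, ZMod.intCast_zmod_eq_zero_iff_dvd] at hA ⊢
  exact (Int.natCast_dvd_natCast.mpr (dvd_mul_right N ℓ)).trans hA

/-- **`hcard`**: `[FC (N ℓ) : α (FC N)] = [Γ₀(N) : Γ₀(N ℓ)]`. -/
theorem finrankAlong_alpha_eq_relIndex :
    finrankAlong ℂ (heckeAlphaBar ℂ N ℓ) =
      (CongruenceSubgroup.Gamma0 (N * ℓ)).relIndex (CongruenceSubgroup.Gamma0 N) := by
  have h1 := finrankAlong_alpha_mul_card N ℓ
  have h2 := Subgroup.relIndex_mul_index (Gamma0_mul_le N ℓ)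
  have h3 : Nat.card (H24.XN N) = (CongruenceSubgroup.Gamma0 N).index := rfl
  have h4 : Nat.card (H24.XN (N * ℓ)) = (CongruenceSubgroup.Gamma0 (N * ℓ)).index := rfl
  rw [h3, h4, ← h2] at h1
  have hpos : 0 < (CongruenceSubgroup.Gamma0 N).index := by
    rw [← h3]
    exact Nat.card_pos
  exact Nat.eq_of_mul_eq_mul_right hpos h1

/-- `α` is finite. -/
theorem finiteAlong_alpha : FiniteAlong ℂ (heckeAlphaBar ℂ N ℓ) := by
  have h1 := finrankAlong_alpha_mul_card N ℓ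
  have hpos : 0 < Nat.card (H24.XN (N * ℓ)) := Nat.card_pos
  rw [← h1] at hpos
  exact finiteAlong_of_finrankAlong_pos _ (Nat.pos_of_mul_pos_right hpos)

/-- `[FC (N ℓ) : α (FC N)] * ψ(N) = ψ(N ℓ)`. -/
theorem finrankAlong_alpha_mul_dedekindPsi :
    finrankAlong ℂ (heckeAlphaBar ℂ N ℓ) * dedekindPsi N = dedekindPsi (N * ℓ) := by
  have h1 := finrankAlong_alpha_mul_card N ℓ
  rwa [S20.H78.card_quotient_Gamma0 N, S20.H78.card_quotient_Gamma0 (N * ℓ)] at h1

/-- For a prime `ℓ`: `[FC (N ℓ) : α (FC N)] = ℓ` if `ℓ ∣ N`, and `ℓ + 1` otherwise. -/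
theorem finrankAlong_alpha_prime (hℓ : ℓ.Prime) :
    finrankAlong ℂ (heckeAlphaBar ℂ N ℓ) = if ℓ ∣ N then ℓ else ℓ + 1 := by
  have h1 := finrankAlong_alpha_mul_dedekindPsi N ℓ
  have h2 := S28.H64.dedekindPsi_prime_mul hℓ (Nat.pos_of_ne_zero (NeZero.ne N))
  rw [mul_comm ℓ N] at h2
  rw [h2, mul_comm] at h1
  have hpos : 0 < dedekindPsi N := by
    rw [← S20.H78.card_quotient_Gamma0 N]
    exact Nat.card_pos
  exact Nat.eq_of_mul_eq_mul_left hpos h1

theorem finrankAlong_alpha_of_dvd (hℓ : ℓ.Prime) (hN : ℓ ∣ N) :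
    finrankAlong ℂ (heckeAlphaBar ℂ N ℓ) = ℓ := by
  rw [finrankAlong_alpha_prime N ℓ hℓ, if_pos hN]

theorem finrankAlong_alpha_of_not_dvd (hℓ : ℓ.Prime) (hN : ¬ ℓ ∣ N) :
    finrankAlong ℂ (heckeAlphaBar ℂ N ℓ) = ℓ + 1 := by
  rw [finrankAlong_alpha_prime N ℓ hℓ, if_neg hN]

variable {N ℓ}

/-- **NORM-AN core, cardinality-free form.** For any system `δ` of representatives of
`Γ₀(N ℓ) \ Γ₀(N)`, the norm along `α` is the product of the `δ`-conjugates. -/
theorem thetaC_normAlong_eq_prod_of_reps {ι : Type*} [Fintype ι] (δ : ι → SL(2, ℤ))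
    (hδ : ∀ i, δ i ∈ CongruenceSubgroup.Gamma0 N)
    (hinj : ∀ i i', δ i * (δ i')⁻¹ ∈ CongruenceSubgroup.Gamma0 (N * ℓ) → i = i')
    (hcover : ∀ γ ∈ CongruenceSubgroup.Gamma0 N,
      ∃ i, γ * (δ i)⁻¹ ∈ CongruenceSubgroup.Gamma0 (N * ℓ))
    (x : FC (N * ℓ)) :
    thetaC N (normAlong (heckeAlphaBar ℂ N ℓ) x) =
      ∏ i, merComp (δ i) (thetaC (N * ℓ) x) :=
  thetaC_normAlong_eq_prod δ hδ hinj
    ((card_eq_relIndex_of_reps _ _ δ hδ hinj hcover).trans
      (finrankAlong_alpha_eq_relIndex N ℓ).symm) x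

end Fermat.Agent.S29.H90
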