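/-
S29 / P10 (HECKE-EQUIV): the glue between NORM-AN (helper90's `thetaC_normAlong_eq_prod_of_reps`,
helper47's `thetaC_heckeBetaBar`) and the consumer theorem `lamW_cohHecke` of `H65_HeckeInst`,
and the final statement for helper85's concrete `kummerSetup`.

* `scaleMer_eq_actGL` : helper47's `scaleMer ℓ` is `actGL (diagPos ℓ)`.
* `thetaC_normAlong_eq_heckeMer` (NORM-AN in the consumer shape): for ANY system of
  representatives `r` of `Γ₀(Nℓ) \ Γ₀(N)` and any coset datum `D` of `GL(2,ℝ)⁺` with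
  `D.α ((), i) = diag(ℓ,1) * r i`:
  `thetaC N (Nm_α (β f)) = heckeMer D Φ` whenever `thetaC N f = Φ`.
* `picPos N ℓ hℓ`, a coset datum with `picPos.op = picOp` and the above shape, uniformly in `ℓ`.
* `heckeMer_mem_admUnits` : stability of helper85's `admUnits` from the stability of
  helper72's `cuspRing` under `x ↦ x ∘ (diag(ℓ,1) γ)` (named hypothesis `CuspScaleHyp`).
* **`lamW_cohHecke_kummerSetup`** : clause 3 of `H80.KummerPoincare` for
  `lamW (H85.kummerSetup N hn hI hD) hn`.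
-/
import Mathlib
import Fermat.Agent.S29.H65_HeckeInst
import Fermat.Agent.S29.H65_Bridges
import Fermat.Agent.S29.H90_NormAnCard
import Fermat.Agent.S29.H47_NormAnBeta
import Fermat.Agent.S29.H72_DictBridge
import Fermat.Agent.S29.H85_KummerInst
import Fermat.Agent.S37.H8_FinDimL

set_option autoImplicit false

open UpperHalfPlane CongruenceSubgroup Matrix.SpecialLinearGroup ModularForm ModularCurve
  ModularCurve.Period AlgebraicCurve
open scoped Manifold MatrixGroups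
open P2MW.S_ModularForm_heckeT_slash_eq_self_of_mem_Gamma0.ModularForm.HeckeSlashInvariance

namespace Fermat.Agent.S29.H65

open Fermat.Agent.S24 Fermat.Agent.S24.H81 Fermat.Agent.S41.H85 Fermat.Agent.S41.H72
  Fermat.Agent.S41.H65 Fermat.Agent.S29.H85 CosetDatumMul

noncomputable section

/-! ### `scaleMer ℓ = actGL (diag(ℓ,1))` -/

theorem mulD_eq_smul (ℓ : ℕ) [NeZero ℓ] (τ : ℍ) :
    H17.mulD ℓ τ = ((diagPos ℓ (NeZero.ne ℓ) : GL(2, ℝ)⁺) : GL (Fin 2) ℝ) • τ := by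
  apply UpperHalfPlane.ext
  rw [coe_diagPos_smul, H15.coe_aff]
  push_cast
  ring

theorem scaleHol_eq_compHol (ℓ : ℕ) [NeZero ℓ] (a : Hol) :
    H47.scaleHol ℓ a = compHol (diagPos ℓ (NeZero.ne ℓ)) a := by
  apply Subtype.ext
  funext τ
  rw [H47.scaleHol_apply, compHol_apply, mulD_eq_smul]

theorem scaleMer_eq_actGL (ℓ : ℕ) [NeZero ℓ] (x : Mer) :
    H47.scaleMer ℓ x = actGL (diagPos ℓ (NeZero.ne ℓ)) x := by
  have h : H47.scaleMer ℓ = actGL (diagPos ℓ (NeZero.ne ℓ)) :=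
    IsFractionRing.ringHom_ext (A := Hol) fun a => by
      rw [H47.scaleMer_algebraMap, actGL_algebraMap, scaleHol_eq_compHol]
  rw [h]

/-! ### NORM-AN in the consumer shape -/

section norm

variable {N ℓ : ℕ} [NeZero N] [NeZero ℓ]

omit [NeZero N] [NeZero ℓ] in
/-- The three hypotheses of helper90's `thetaC_normAlong_eq_prod_of_reps` from `IsRepSystem`. -/
theorem reps_of_isRepSystem {I : Type*} {r : I → Gamma0 N}
    (h : IsRepSystem (gl (N * ℓ)) (gl N) r) :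
    (∀ i, ((r i : Gamma0 N) : SL(2, ℤ)) ∈ Gamma0 N) ∧
    (∀ i i', ((r i : Gamma0 N) : SL(2, ℤ)) * ((r i' : Gamma0 N) : SL(2, ℤ))⁻¹ ∈ Gamma0 (N * ℓ)
      → i = i') ∧
    (∀ γ ∈ Gamma0 N, ∃ i, γ * ((r i : Gamma0 N) : SL(2, ℤ))⁻¹ ∈ Gamma0 (N * ℓ)) := by
  refine ⟨fun i => (r i).2, fun i i' hii' => ?_, fun γ hγ => ?_⟩
  · refine (h.distinct i' i ⟨_, hii'⟩ ?_).symm
    rw [gl_apply, gl_apply, gl_apply, ← map_mul]
    congr 1
    show ((r i : Gamma0 N) : SL(2, ℤ)) * ((r i' : Gamma0 N) : SL(2, ℤ))⁻¹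
      * ((r i' : Gamma0 N) : SL(2, ℤ)) = _
    rw [inv_mul_cancel_right]
  · obtain ⟨q, g, hg⟩ := h.cover ⟨γ, hγ⟩
    refine ⟨q, ?_⟩
    rw [gl_apply, gl_apply, gl_apply, ← map_mul] at hg
    have h1 : γ = (g : SL(2, ℤ)) * ((r q : Gamma0 N) : SL(2, ℤ)) := mapGL_injective hg
    rw [h1, mul_inv_cancel_right]
    exact g.2

omit [NeZero N] in
/-- The value of `heckeMer D` for a datum with representatives `diag(ℓ,1) * r i`. -/
theorem heckeMer_val_of_alpha {I : Type*} [Fintype I]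
    (D : CosetDatum (glp N) (glp N) (Unit × I)) (r : I → Gamma0 N)
    (hD : ∀ i, D.α ((), i) = diagPos ℓ (NeZero.ne ℓ) * glp N (r i)) (Φ : Merˣ) :
    ((heckeMer D Φ : Merˣ) : Mer)
      = ∏ i, H25.merComp ((r i : Gamma0 N) : SL(2, ℤ)) (H47.scaleMer ℓ (Φ : Mer)) := by
  rw [heckeMer_val, ← Fintype.prod_equiv (Equiv.punitProd I).symm
    (fun i => actGL (D.α ((), i)) (Φ : Mer)) (fun x => actGL (D.α x) (Φ : Mer)) (fun i => rfl)]
  refine Finset.prod_congr rfl fun i _ => ?_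
  rw [hD i, actGL_mul, scaleMer_eq_actGL, glp_eq_slp, actGL_slp]

/-- **NORM-AN, consumer shape.** -/
theorem thetaC_normAlong_eq_heckeMer {I : Type*} [Fintype I] {r : I → Gamma0 N}
    (h : IsRepSystem (gl (N * ℓ)) (gl N) r)
    (D : CosetDatum (glp N) (glp N) (Unit × I))
    (hD : ∀ i, D.α ((), i) = diagPos ℓ (NeZero.ne ℓ) * glp N (r i))
    (f : H25.FC N) (Φ : Merˣ) (hf : H25.thetaC N f = (Φ : Mer)) :
    H25.thetaC N (normAlong (heckeAlphaBar ℂ N ℓ) (heckeBetaBar ℂ N ℓ f))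
      = ((heckeMer D Φ : Merˣ) : Mer) := by
  obtain ⟨h1, h2, h3⟩ := reps_of_isRepSystem h
  have key := H90.thetaC_normAlong_eq_prod_of_reps
    (fun i => ((r i : Gamma0 N) : SL(2, ℤ))) h1 h2 h3 (heckeBetaBar ℂ N ℓ f)
  rw [heckeMer_val_of_alpha D r hD, ← hf]
  refine Eq.trans ?_ (key.trans ?_)
  · rfl
  · refine Finset.prod_congr rfl fun i _ => ?_
    rw [H47.thetaC_heckeBetaBar]

end norm

/-! ### A uniform `Pic`-side datum -/

section picPos

variable (N : ℕ) [NeZero N] (ℓ : ℕ) [NeZero ℓ] (hℓ : ℓ.Prime)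

/-- The representatives `(Quotient.out q)⁻¹` of `Γ₀(Nℓ) \ Γ₀(N)`. -/
def picRep : Gamma0 N ⧸ (Gamma0 (N * ℓ)).subgroupOf (Gamma0 N) → Gamma0 N :=
  outRep (Gamma0 (N * ℓ)) (Gamma0 N)

omit [NeZero N] [NeZero ℓ] in
theorem isRepSystem_picRep : IsRepSystem (gl (N * ℓ)) (gl N) (picRep N ℓ) :=
  isRepSystem_outRep (mapGL ℝ) (Gamma0 (N * ℓ)) (Gamma0 N) mapGL_injective

instance finite_picIdx : Finite (Gamma0 N ⧸ (Gamma0 (N * ℓ)).subgroupOf (Gamma0 N)) := by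
  have h : ((Gamma0 (N * ℓ)).subgroupOf (Gamma0 N)).FiniteIndex := by
    have h2 : (Gamma0 (N * ℓ)).FiniteIndex := inferInstance
    exact Subgroup.instFiniteIndex_subgroupOf _ _
  exact Subgroup.finite_quotient_of_finiteIndex

instance fintype_picIdx : Fintype (Gamma0 N ⧸ (Gamma0 (N * ℓ)).subgroupOf (Gamma0 N)) :=
  Fintype.ofFinite _

omit [NeZero N] in
theorem picRaw_α_mem (x : Unit × (Gamma0 N ⧸ (Gamma0 (N * ℓ)).subgroupOf (Gamma0 N))) :
    ((cstDatum N (NeZero.ne ℓ)).comp (repDatum (isRepSystem_picRep N ℓ))).α x ∈ GL(2, ℝ)⁺ := by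
  show heckeDiagMatrix ℓ * (repDatum (isRepSystem_picRep N ℓ)).α x.2 ∈ GL(2, ℝ)⁺
  rw [repDatum_α]
  exact mul_mem (heckeDiagMatrix_mem_glPos (NeZero.ne ℓ)) (gl_mem_glPos N _)

/-- The `Pic`-side coset datum at `ℓ`, inside `GL(2,ℝ)⁺`, with the `Quotient.out`
representatives. -/
def picPos : CosetDatum (glp N) (glp N)
    (Unit × (Gamma0 N ⧸ (Gamma0 (N * ℓ)).subgroupOf (Gamma0 N))) :=
  posDatum ((cstDatum N (NeZero.ne ℓ)).comp (repDatum (isRepSystem_picRep N ℓ)))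
    (picRaw_α_mem N ℓ)

omit [NeZero N] in
theorem picPos_α (q : Gamma0 N ⧸ (Gamma0 (N * ℓ)).subgroupOf (Gamma0 N)) :
    (picPos N ℓ).α ((), q) = diagPos ℓ (NeZero.ne ℓ) * glp N (picRep N ℓ q) := rfl

theorem picPos_op {A : Type*} [AddCommGroup A] :
    ((picPos N ℓ).op : (Additive (Gamma0 N) →+ A) →+ _) = picOp A (NeZero.ne N) ℓ hℓ := by
  rw [picPos, posDatum_op]
  exact comp_repDatum_op (NeZero.ne N) ℓ hℓ (isRepSystem_picRep N ℓ)

end picPos

/-! ### The final statement for helper85's `kummerSetup` -/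

section final

attribute [local instance] H85.merAlgebra

variable (N : ℕ) [NeZero N]

/-- Stability of helper72's `cuspRing` under `x ↦ x ∘ (diag(ℓ,1) γ)` (helper72's CUSP-SCALE). -/
def CuspScaleHyp : Prop :=
  ∀ (ℓ : ℕ) [NeZero ℓ] (γ : SL(2, ℤ)) (x : Mer), x ∈ H72.cuspRing →
    actGL (diagPos ℓ (NeZero.ne ℓ) * slp γ) x ∈ H72.cuspRing

omit [NeZero N] in
theorem heckeMer_mem_cuspRing (hC : CuspScaleHyp) {ℓ : ℕ} [NeZero ℓ] {I : Type*} [Fintype I]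
    (D : CosetDatum (glp N) (glp N) (Unit × I)) (r : I → Gamma0 N)
    (hD : ∀ i, D.α ((), i) = diagPos ℓ (NeZero.ne ℓ) * glp N (r i)) {Φ : Merˣ}
    (hΦ : (Φ : Mer) ∈ H72.cuspRing) : ((heckeMer D Φ : Merˣ) : Mer) ∈ H72.cuspRing := by
  rw [heckeMer_val, ← Fintype.prod_equiv (Equiv.punitProd I).symm
    (fun i => actGL (D.α ((), i)) (Φ : Mer)) (fun x => actGL (D.α x) (Φ : Mer)) (fun i => rfl)]
  refine Subring.prod_mem _ fun i _ => ?_
  rw [hD i, glp_eq_slp]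
  exact hC ℓ _ _ hΦ

omit [NeZero N] in
theorem heckeMer_mem_admUnits (hC : CuspScaleHyp) {ℓ : ℕ} [NeZero ℓ] {I : Type*} [Fintype I]
    (D : CosetDatum (glp N) (glp N) (Unit × I)) (r : I → Gamma0 N)
    (hD : ∀ i, D.α ((), i) = diagPos ℓ (NeZero.ne ℓ) * glp N (r i)) {Φ : Merˣ}
    (hΦ : Φ ∈ H85.admUnits) : heckeMer D Φ ∈ H85.admUnits := by
  refine ⟨heckeMer_mem_cuspRing N hC D r hD hΦ.1, ?_⟩
  rw [← map_inv]
  exact heckeMer_mem_cuspRing N hC D r hD hΦ.2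

theorem actAlg_eq_actGL (γ : Gamma0 N) (x : Mer) : H85.actAlg N γ x = actGL (glp N γ) x := by
  rw [H85.actAlg_apply, actMer_eq, glp_eq_slp]

/-- **HECKE-EQUIV for the concrete Kummer setup**: clause 3 of `H80.KummerPoincare` for
`lamW S hn`, where `S` is ANY proof of helper85's concrete `KummerSetup` (e.g.
`H85.kummerSetup N hn hI hD` or `H85.kummerSetup' N hn hC`). -/
theorem lamW_cohHecke_kummer {n : ℕ} (hn : 0 < n)
    (S : H88.KummerSetup n (H85.thetaAlg N) (H85.actAlg N) H85.admUnits (charX (Gamma0 N) n))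
    (hC : CuspScaleHyp) (ℓ : Nat.Primes) [NeZero (ℓ : ℕ)]
    (x : parabolicHoms ℤ (Gamma0 N) ℤ) :
    lamW S hn (H58.cohHecke N (heckeGen ℓ) x) = heckeOperatorAlong ℂ N ℓ (lamW S hn x) := by
  refine lamW_cohHecke S hn (fun c => rfl) (actAlg_eq_actGL N) ℓ
    (S37.H8.heckeInputsAlong_L ℂ N ℓ) (picPos N ℓ) (picPos_op N ℓ ℓ.2)
    (fun Φ hΦ => heckeMer_mem_admUnits N hC (picPos N ℓ) (picRep N ℓ) (picPos_α N ℓ) hΦ)
    (fun f Φ hf => ?_) x
  have h1 : ∀ g : H25.FC N, H85.thetaAlg N g = H25.thetaC N g := fun g => by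
    rw [H85.thetaAlg_apply, H72.toMer_eq_thetaC]
  rw [h1] at hf ⊢
  exact thetaC_normAlong_eq_heckeMer (isRepSystem_picRep N ℓ) (picPos N ℓ) (picPos_α N ℓ) f Φ hf

theorem lamW_cohHecke_kummerSetup {n : ℕ} (hn : 0 < n) (hI : H85.ImageHyp N)
    (hD : H85.DvdHyp N n) (hC : CuspScaleHyp) (ℓ : Nat.Primes) [NeZero (ℓ : ℕ)]
    (x : parabolicHoms ℤ (Gamma0 N) ℤ) :
    lamW (H85.kummerSetup N hn hI hD) hn (H58.cohHecke N (heckeGen ℓ) x)
      = heckeOperatorAlong ℂ N ℓ (lamW (H85.kummerSetup N hn hI hD) hn x) :=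
  lamW_cohHecke_kummer N hn _ hC ℓ x

end final

end

end Fermat.Agent.S29.H65
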