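/-
S29 / P10 (HECKE-EQUIV), final: `CuspScaleHyp` discharged from helper72's `H72_CuspScale`, and
the unconditional Hecke equivariance of the Kummer pairing `lamW (H85.kummerSetup ...)`.

* `h72_scaleMer_eq_actGL` : helper72's `H72.scaleMer l hl` is `actGL (diag(l,1))`.
* `cuspScaleHyp : CuspScaleHyp`.
* **`lamW_cohHecke_kummer'`** : clause 3 of `H80.KummerPoincare` for `lamW S hn`, for any
  proof `S` of helper85's concrete `KummerSetup`; no further hypothesis.
* **`kummerPoincare_of_kummerSetup`** : `H80.KummerPoincare N n` from such an `S`.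
-/
import Mathlib
import Fermat.Agent.S29.H65_NormGlue
import Fermat.Agent.S29.H72_CuspScale
import Fermat.Agent.S29.H80_Interface

set_option autoImplicit false

open UpperHalfPlane CongruenceSubgroup Matrix.SpecialLinearGroup ModularForm ModularCurve
  ModularCurve.Period AlgebraicCurve
open scoped Manifold MatrixGroups
open P2MW.S_ModularForm_heckeT_slash_eq_self_of_mem_Gamma0.ModularForm.HeckeSlashInvariance

namespace Fermat.Agent.S29.H65

open Fermat.Agent.S24 Fermat.Agent.S24.H81 Fermat.Agent.S41.H85 Fermat.Agent.S41.H72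
  Fermat.Agent.S41.H65 Fermat.Agent.S29.H85 CosetDatumMul

noncomputable section

theorem h72_scaleHol_eq_compHol (l : ℕ) (hl : 0 < l) (a : Hol) :
    H72.scaleHol l hl a = compHol (diagPos l hl.ne') a := by
  apply Subtype.ext
  funext τ
  have h : H15.aff l 0 1 hl one_pos τ
      = ((diagPos l hl.ne' : GL(2, ℝ)⁺) : GL (Fin 2) ℝ) • τ := by
    apply UpperHalfPlane.ext
    rw [coe_diagPos_smul, H15.coe_aff]
    push_cast
    ring
  rw [H72.scaleHol_apply, compHol_apply, h]

theorem h72_scaleMer_eq_actGL (l : ℕ) (hl : 0 < l) (x : Mer) :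
    H72.scaleMer l hl x = actGL (diagPos l hl.ne') x := by
  have h : H72.scaleMer l hl = actGL (diagPos l hl.ne') :=
    IsFractionRing.ringHom_ext (A := Hol) fun a => by
      rw [H72.scaleMer_algebraMap, actGL_algebraMap, h72_scaleHol_eq_compHol]
  rw [h]

/-- helper72's CUSP-SCALE in the shape consumed by `lamW_cohHecke_kummerSetup`. -/
theorem cuspScaleHyp : CuspScaleHyp := by
  intro ℓ _ γ x hx
  have hl : 0 < ℓ := Nat.pos_of_ne_zero (NeZero.ne ℓ)
  rw [actGL_mul, ← h72_scaleMer_eq_actGL ℓ hl, actGL_slp, H72.merComp_eq_smul]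
  exact H72.smul_scaleMer_mem_cuspRing ℓ hl γ⁻¹ hx

section final

attribute [local instance] H85.merAlgebra

variable (N : ℕ) [NeZero N]

/-- **HECKE-EQUIV for the concrete Kummer setup, unconditional**: clause 3 of
`H80.KummerPoincare` for `lamW S hn`, `S` any proof of helper85's concrete `KummerSetup`
(`H85.kummerSetup N hn hI hD`, `H85.kummerSetup' N hn hC`, ...). -/
theorem lamW_cohHecke_kummer' {n : ℕ} (hn : 0 < n)
    (S : H88.KummerSetup n (H85.thetaAlg N) (H85.actAlg N) H85.admUnits (charX (Gamma0 N) n))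
    (ℓ : Nat.Primes) [NeZero (ℓ : ℕ)] (x : parabolicHoms ℤ (Gamma0 N) ℤ) :
    lamW S hn (H58.cohHecke N (heckeGen ℓ) x) = heckeOperatorAlong ℂ N ℓ (lamW S hn x) :=
  lamW_cohHecke_kummer N hn S cuspScaleHyp ℓ x

/-- helper58's `cohHecke N (X_ℓ)` is helper80's `cohT N ℓ`. -/
theorem cohHecke_heckeGen_eq_cohT (ℓ : Nat.Primes) :
    H58.cohHecke N (heckeGen ℓ) = H80.cohT N ℓ := by
  unfold H80.cohT
  split_ifs with h
  · exact H58.cohHecke_heckeGen_of_dvd h
  · exact H58.cohHecke_heckeGen_of_not_dvd h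

/-- **KUMMER-POINCARE + HECKE-EQUIV package** (`H80.KummerPoincare N n`) from ANY proof of
helper85's concrete `KummerSetup` (`H85.kummerSetup N hn hI hD`, `H85.kummerSetup' N hn hC`). -/
theorem kummerPoincare_of_kummerSetup {n : ℕ} (hn : 0 < n)
    (S : H88.KummerSetup n (H85.thetaAlg N) (H85.actAlg N) H85.admUnits (charX (Gamma0 N) n)) :
    H80.KummerPoincare N n := by
  refine ⟨lamW S hn, lamW_zsmul S hn, fun x hx => lamW_eq_zero S hn hx, fun ℓ x => ?_⟩
  have : NeZero (ℓ : ℕ) := ⟨ℓ.2.ne_zero⟩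
  rw [← cohHecke_heckeGen_eq_cohT]
  exact lamW_cohHecke_kummer' N hn S ℓ x

end final

end

end Fermat.Agent.S29.H65
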