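/-
S29 / Stage 3, closing file (helper65): the package KUMMER-POINCARE + HECKE-EQUIV and (T0),
unconditionally, for every level `N ≥ 1`.

* `kummerPoincare N hn : H80.KummerPoincare N n` for every `n ≥ 1`
  (helper85's `kummerSetupFinal` + `H65.kummerPoincare_of_kummerSetup`);
* `eigenformSupportAt N p` : (T0) `EigenformSupportAt N p (JZero N)` for every prime `p`
  (helper80's `eigenformSupportAt_of_kummerPoincare`);
* `exists_lam_JZero N hn` : the Hecke-equivariant injection `Lat N / n → J₀(N)(ℚ̄)[n]`, every
  `n ≥ 1` (the form consumed by S30/S31 at `n = p ^ k`).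
-/
import Mathlib
import Fermat.Agent.S29.H65_HeckeFinal
import Fermat.Agent.S29.H85_CuspDvd
import Fermat.Agent.S29.H80_T0

set_option autoImplicit false

open ModularCurve AlgebraicCurve ModularCurve.Period CongruenceSubgroup

namespace Fermat.Agent.S29.H65

noncomputable section

attribute [local instance] H85.merAlgebra

variable (N : ℕ) [NeZero N]

/-- **KUMMER-POINCARE + HECKE-EQUIV, unconditional**, every `n ≥ 1`. -/
theorem kummerPoincare {n : ℕ} (hn : 0 < n) : H80.KummerPoincare N n :=
  kummerPoincare_of_kummerSetup N hn (H85.kummerSetupFinal N hn)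

/-- **(T0), unconditional**: eigenform ideals containing `p` are in the support of `J₀(N)(ℚ̄)`. -/
theorem eigenformSupportAt (p : ℕ) [Fact p.Prime] :
    letI := heckeModuleBar N
    EigenformSupportAt N p (JZero N) :=
  H80.eigenformSupportAt_of_kummerPoincare N p (kummerPoincare N (Fact.out : p.Prime).pos)

/-- The Hecke-equivariant injection `Lat N / n → J₀(N)(ℚ̄)[n]`, every `n ≥ 1`. -/
theorem exists_lam_JZero {n : ℕ} (hn : 0 < n) :
    ∃ lam : H80.Lat N →+ JZero N,
      (∀ x : H80.Lat N, (n : ℤ) • lam x = 0) ∧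
      (∀ x : H80.Lat N, lam x = 0 → ∃ y : H80.Lat N, x = (n : ℤ) • y) ∧
      ∀ (ℓ : Nat.Primes) (x : H80.Lat N),
        lam (H80.cohT N ℓ x) = heckeOperatorBar N ℓ (lam x) :=
  H80.exists_lam_JZero_of_kummerPoincare N hn (kummerPoincare N hn)

end

end Fermat.Agent.S29.H65
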