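/-
S29 / Stage 3 / P15 (endgame), part 0: the Eichler–Shimura datum from the specialization datum.

`ModularCurve.SpecializationExists N p J` (the frozen S37 conclusion) implies the two local clauses
`UnramifiedOutside N p J` and `FrobeniusQuadratic N p J`; together with `EigenformSupportAt N p J`
(Stage 3) this is `EichlerShimuraDataAt N p J`.
-/
import Mathlib
import Fermat.Prelude.Def_ModularCurve_EigenformIdeal

set_option autoImplicit false

open ModularCurve

namespace Fermat.Agent.S29.H66

section

variable {K L : Type*} [Field K] [Field L] [Algebra K L]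
variable {N p : ℕ} {J : Type*} [AddCommGroup J] [Module HeckeAlg J]
  [DistribMulAction (L ≃ₐ[K] L) J] [SMulCommClass (L ≃ₐ[K] L) HeckeAlg J]

omit [SMulCommClass (L ≃ₐ[K] L) HeckeAlg J] in
theorem unramifiedOutside_of_specializationExists
    (h : SpecializationExists (K := K) (L := L) N p J) :
    UnramifiedOutside (K := K) (L := L) N p J := by
  intro ℓ hℓ hℓNp A hA σ hσ x hx
  obtain ⟨J', _, _, sp, F, hsp, -⟩ := h ℓ hℓ hℓNp A hA
  have h1 : sp (σ • x - x) = 0 := by rw [map_sub, hsp.inertia_comm σ hσ x, sub_self]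
  have h2 : ∃ n : ℕ, p ^ n • (σ • x - x) = 0 := by
    obtain ⟨n, hn⟩ := hx
    exact ⟨n, by rw [smul_sub, smul_comm (p ^ n) σ x, hn, smul_zero, sub_self]⟩
  exact sub_eq_zero.mp (hsp.injective_torsion _ h2 h1)

omit [SMulCommClass (L ≃ₐ[K] L) HeckeAlg J] in
theorem frobeniusQuadratic_of_specializationExists
    (h : SpecializationExists (K := K) (L := L) N p J) :
    FrobeniusQuadratic (K := K) (L := L) N p J := by
  intro ℓ hℓ hℓNp A hA σ hσ x hx
  obtain ⟨J', _, _, sp, F, hsp, hF⟩ := h ℓ hℓ hℓNp A hA
  apply hsp.injective_torsion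
  · obtain ⟨n, hn⟩ := hx
    refine ⟨n, ?_⟩
    rw [smul_add, smul_sub, smul_comm (p ^ n) σ (σ • x), smul_comm (p ^ n) σ x,
      smul_comm (p ^ n) (heckeGen ⟨ℓ, hℓ⟩) (σ • x), smul_comm (p ^ n) σ x,
      smul_comm (p ^ n) ℓ x, hn]
    simp
  · rw [map_add, map_sub, hsp.frobenius_comm σ hσ, hsp.frobenius_comm σ hσ, hsp.hecke_comm,
      hsp.frobenius_comm σ hσ, map_nsmul]
    exact hF (sp x)

omit [SMulCommClass (L ≃ₐ[K] L) HeckeAlg J] in
/-- **Eichler–Shimura datum** from the specialization datum (S37) and the support statement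
(Stage 3). -/
theorem eichlerShimuraDataAt_of_specializationExists
    (h : SpecializationExists (K := K) (L := L) N p J) (hsupp : EigenformSupportAt N p J) :
    EichlerShimuraDataAt (K := K) (L := L) N p J :=
  ⟨unramifiedOutside_of_specializationExists h, frobeniusQuadratic_of_specializationExists h,
    hsupp⟩

end

end Fermat.Agent.S29.H66
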