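/-
S29 / Stage 3 / P15 (endgame), part 1: the eigen-ideal of a normalised eigenform modulo `p`.

For a normalised eigenform `g` of level `N ≠ 0`, a prime `p`, a field `k` of characteristic `p` and
a ring homomorphism `φ : ℤ̄ → k` we produce

* an ideal `𝔪` of the abstract Hecke algebra `ℤ[X_ℓ]` with `IsEigenformIdeal N 𝔪`, `p ∈ 𝔪`;
* a ring homomorphism `ι : ℤ[X_ℓ] ⧸ 𝔪 → k` with `ι (X_ℓ) = φ (a_ℓ(g))`.

Inputs: integrality of the Hecke eigenvalues (`S41/H85_EigenDict`) and finiteness of the Hecke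
algebra over `ℤ` (`S22`).
-/
import Mathlib
import Fermat.Prelude.Def_GaloisRep_Residual
import Fermat.Prelude.Def_ModularCurve_EigenformIdeal
import Fermat.Agent.S41.H85_EigenDict
import Fermat.Agent.S22.Final

set_option autoImplicit false

open CongruenceSubgroup ModularFormClass ModularCurve

namespace Fermat.Agent.S29.H66

open Fermat.Agent.S41

section FiniteSubring

/-- A finite subring of a field is a subfield. -/
def subfieldOfFinite {k : Type*} [Field k] (S : Subring k) [Finite S] : Subfield k :=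
  { S with
    inv_mem' := fun x hx => by
      by_cases h0 : x = 0
      · rw [h0, inv_zero]; exact S.zero_mem
      · have hF : IsField S := Finite.isField_of_domain S
        obtain ⟨y, hy⟩ := hF.mul_inv_cancel (a := ⟨x, hx⟩)
          (fun h => h0 (congrArg Subtype.val h))
        have h1 : x * (y : k) = 1 := congrArg Subtype.val hy
        rw [inv_eq_of_mul_eq_one_right h1]
        exact y.2 }

theorem mem_subfieldOfFinite {k : Type*} [Field k] (S : Subring k) [Finite S] (x : k) :
    x ∈ subfieldOfFinite S ↔ x ∈ S := Iff.rfl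

instance finite_subfieldOfFinite {k : Type*} [Field k] (S : Subring k) [Finite S] :
    Finite (subfieldOfFinite S) :=
  inferInstanceAs (Finite S)

/-- The image of a ring which is a finitely generated abelian group in a ring of positive
characteristic is finite. -/
theorem finite_ringHom_range {A k : Type*} [Ring A] [Module.Finite ℤ A] [Ring k] {p : ℕ}
    (hp : 0 < p) [CharP k p] (f : A →+* k) : Finite f.range := by
  let M' : AddSubgroup k := f.toAddMonoidHom.range
  have hfg : AddGroup.FG M' := by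
    have h1 : AddGroup.FG A := Module.Finite.iff_addGroup_fg.mp inferInstance
    exact AddGroup.fg_of_surjective (f := f.toAddMonoidHom.rangeRestrict)
      f.toAddMonoidHom.rangeRestrict_surjective
  have htors : IsAddTorsion M' := by
    intro x
    rw [isOfFinAddOrder_iff_nsmul_eq_zero]
    refine ⟨p, hp, ?_⟩
    ext
    simp [nsmul_eq_mul, CharP.cast_eq_zero]
  have : Finite M' := AddCommGroup.finite_of_fg_isAddTorsion M' htors
  have hsurj : Function.Surjective
      (fun x : M' => (⟨x.1, by obtain ⟨y, hy⟩ := x.2; exact ⟨y, hy⟩⟩ : f.range)) := by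
    rintro ⟨_, y, rfl⟩
    exact ⟨⟨f y, y, rfl⟩, rfl⟩
  exact Finite.of_surjective _ hsurj

end FiniteSubring

section CoeffRing

variable {N : ℕ} [NeZero N] {g : CuspForm (Gamma0 N) 2}

/-- The ring generated by the Hecke eigenvalues of `g`: the range of its eigencharacter. -/
noncomputable def coeffRing (hg : g.IsNormalizedEigenform) : Subring ℂ :=
  (H85.eigenChar hg ∅).range

theorem qCoeff_mem_coeffRing (hg : g.IsNormalizedEigenform) (ℓ : Nat.Primes) :
    qCoeff g ℓ ∈ coeffRing hg := by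
  by_cases h : (ℓ : ℕ) ∣ N
  · exact ⟨CuspForm.heckeAlgebra.U ℓ.2 h (Set.notMem_empty _), H85.eigenChar_U hg ℓ.2 h _⟩
  · exact ⟨CuspForm.heckeAlgebra.T ℓ.2 h (Set.notMem_empty _), H85.eigenChar_T hg ℓ.2 h _⟩

theorem isIntegral_of_mem_coeffRing (hg : g.IsNormalizedEigenform) {x : ℂ}
    (hx : x ∈ coeffRing hg) : IsIntegral ℤ x := by
  obtain ⟨t, rfl⟩ := hx
  exact H85.isIntegral_eigenChar hg ∅ t

/-- The Hecke eigenvalues of a normalised eigenform of level `N ≠ 0` are algebraic integers. -/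
theorem isIntegral_qCoeff_prime (hg : g.IsNormalizedEigenform) (ℓ : Nat.Primes) :
    IsIntegral ℤ (qCoeff g ℓ) :=
  isIntegral_of_mem_coeffRing hg (qCoeff_mem_coeffRing hg ℓ)

/-- The inclusion of the coefficient ring in the ring of all algebraic integers. -/
noncomputable def coeffRingToZbar (hg : g.IsNormalizedEigenform) :
    coeffRing hg →+* integralClosure ℤ ℂ where
  toFun x := ⟨x.1, isIntegral_of_mem_coeffRing hg x.2⟩
  map_one' := rfl
  map_mul' _ _ := rfl
  map_zero' := rfl
  map_add' _ _ := rfl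

@[simp] theorem coe_coeffRingToZbar (hg : g.IsNormalizedEigenform) (x : coeffRing hg) :
    ((coeffRingToZbar hg x : integralClosure ℤ ℂ) : ℂ) = (x : ℂ) := rfl

end CoeffRing

section EigenIdeal

variable {N : ℕ} [NeZero N] {g : CuspForm (Gamma0 N) 2}

/-- **The eigen-ideal of `g` modulo `p`.** -/
theorem exists_eigenformIdeal (hg : g.IsNormalizedEigenform) {p : ℕ} (hp : p.Prime)
    {k : Type} [Field k] [CharP k p] (φ : integralClosure ℤ ℂ →+* k) :
    ∃ (𝔪 : Ideal HeckeAlg) (ι : HeckeAlg ⧸ 𝔪 →+* k), IsEigenformIdeal N 𝔪 ∧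
      (p : HeckeAlg) ∈ 𝔪 ∧ 𝔪.IsMaximal ∧ Finite (HeckeAlg ⧸ 𝔪) ∧
      ∀ ℓ : Nat.Primes, ∃ a : integralClosure ℤ ℂ, (a : ℂ) = qCoeff g ℓ ∧
        ι (Ideal.Quotient.mk 𝔪 (heckeGen ℓ)) = φ a := by
  classical
  have : Module.Finite ℤ (CuspForm.heckeAlgebra N 2 ∅) :=
    Fermat.Agent.S22.finite_heckeAlgebra N 2 ∅
  set ψ : coeffRing hg →+* k := φ.comp (coeffRingToZbar hg) with hψ
  set Ψ : CuspForm.heckeAlgebra N 2 ∅ →+* k :=
    ψ.comp (H85.eigenChar hg ∅).rangeRestrict with hΨ
  have : Finite Ψ.range := finite_ringHom_range hp.pos Ψ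
  set K' : Subfield k := subfieldOfFinite Ψ.range with hK'
  have hmem : ∀ x : coeffRing hg, ψ x ∈ K' := by
    rintro ⟨_, t, rfl⟩
    exact ⟨t, rfl⟩
  set φ' : coeffRing hg →+* K' := ψ.codRestrict K' hmem with hφ'
  set a' : Nat.Primes → K' := fun ℓ => φ' ⟨qCoeff g ℓ, qCoeff_mem_coeffRing hg ℓ⟩ with ha'
  set χ : HeckeAlg →+* K' := (MvPolynomial.aeval (R := ℤ) a').toRingHom with hχ
  have hker : ∀ t : HeckeAlg, t ∈ eigenIdeal a' ↔ χ t = 0 := fun t => mem_eigenIdeal_iff a' t
  have hlift : ∀ t ∈ eigenIdeal a', χ t = 0 := fun t ht => (hker t).mp ht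
  have hinj : Function.Injective (Ideal.Quotient.lift (eigenIdeal a') χ hlift) := by
    rw [injective_iff_map_eq_zero]
    intro x hx
    obtain ⟨t, rfl⟩ := Ideal.Quotient.mk_surjective x
    rw [Ideal.Quotient.lift_mk] at hx
    rw [Ideal.Quotient.eq_zero_iff_mem]
    exact (hker t).mpr hx
  have hfin : Finite (HeckeAlg ⧸ eigenIdeal a') := Finite.of_injective _ hinj
  have hprime : (eigenIdeal a').IsPrime := by
    show (RingHom.ker (MvPolynomial.aeval (R := ℤ) a')).IsPrime
    exact RingHom.ker_isPrime _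
  have hmax : (eigenIdeal a').IsMaximal :=
    Ideal.Quotient.maximal_of_isField _ (Finite.isField_of_domain _)
  refine ⟨eigenIdeal a',
    K'.subtype.comp (Ideal.Quotient.lift (eigenIdeal a') χ hlift),
    ⟨g, hg, K', inferInstance, inferInstance, coeffRing hg, qCoeff_mem_coeffRing hg, φ', rfl⟩,
    ?_, hmax, hfin, fun ℓ => ⟨⟨qCoeff g ℓ, isIntegral_qCoeff_prime hg ℓ⟩, rfl, ?_⟩⟩
  · rw [hker, map_natCast]
    apply Subtype.ext
    simp [CharP.cast_eq_zero]
  · rw [RingHom.comp_apply, Ideal.Quotient.lift_mk, hχ]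
    simp only [AlgHom.toRingHom_eq_coe, RingHom.coe_coe, aeval_heckeGen]
    rfl

end EigenIdeal

end Fermat.Agent.S29.H66
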