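/-
S29 / Stage 3 / P15 (endgame), part 2: from a Galois module over `ℤ[X_ℓ] ⧸ 𝔪` with the
Eichler–Shimura local clauses to the frozen S29 conclusion.

* `baseChangeAlong_ρ_eq_one`, `charpoly_baseChangeAlong` : the prelude base change
  `ResidualGaloisRep.baseChangeAlong`.
* `exists_residualGaloisRep_of_module` : `(V, ρ₀)` finite-dimensional nonzero over a finite field
  `k₀ ↪ k`, finite level, unramified outside `N p`, Frobenius-quadratic with coefficients `T_ℓ`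
  mapping to `φ (a_ℓ(g))`  ⟹  `∃ ρ : ResidualGaloisRep k, ρ.IsAttachedTo g φ ∧ unramified`.
  (helper29's `H29.exists_residualGaloisRep_of_frobeniusQuadratic` + base change.)
* `s29_of_galoisModule` : the frozen S29 conclusion for `N ≠ 0` from the existence of such a
  Galois module for every eigenform ideal (helper93's package (W4)).
* `s29_of_level_zero` : the (vacuous) case `N = 0`.
-/
import Mathlib
import Fermat.Prelude.Def_GaloisRep_Residual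
import Fermat.Prelude.Def_ModularCurve_EigenformIdeal
import Fermat.Agent.S29.H29_Wrapper
import Fermat.Agent.S29.H66_EigenIdeal

set_option autoImplicit false

open CongruenceSubgroup ModularFormClass ModularCurve Polynomial

namespace Fermat.Agent.S29.H66

local notation "Qb" => AlgebraicClosure ℚ
local notation "GQ" => (AlgebraicClosure ℚ ≃ₐ[ℚ] AlgebraicClosure ℚ)

section BaseChange

variable {k₀ k : Type} [Field k₀] [Field k]

theorem baseChangeAlong_ρ_eq_one (ι : k₀ →+* k) (ρ : ResidualGaloisRep k₀) {σ : GQ}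
    (h : ρ.ρ σ = 1) : (ρ.baseChangeAlong ι).ρ σ = 1 := by
  let _ : Algebra k₀ k := ι.toAlgebra
  show (ρ.ρ σ).baseChange k = 1
  rw [h, LinearMap.baseChange_one]

theorem charpoly_baseChangeAlong (ι : k₀ →+* k) (ρ : ResidualGaloisRep k₀) (σ : GQ) :
    LinearMap.charpoly ((ρ.baseChangeAlong ι).ρ σ) = (LinearMap.charpoly (ρ.ρ σ)).map ι := by
  let _ : Algebra k₀ k := ι.toAlgebra
  show LinearMap.charpoly ((ρ.ρ σ).baseChange k) = _
  rw [LinearMap.charpoly_baseChange]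
  rfl

end BaseChange

section Core

variable {N : ℕ} {g : CuspForm (Gamma0 N) 2} {p : ℕ}

/-- **Core of the endgame**: a nonzero finite-dimensional Galois module over a finite field
`k₀ ↪ k` with the Eichler–Shimura local clauses gives a residual representation attached to
`g`. -/
theorem exists_residualGaloisRep_of_module (hp : p.Prime)
    {k : Type} [Field k] [CharP k p] (φ : integralClosure ℤ ℂ →+* k)
    {k₀ : Type} [Field k₀] [Finite k₀] (ι : k₀ →+* k) (T : Nat.Primes → k₀)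
    (hT : ∀ ℓ : Nat.Primes, ∃ a : integralClosure ℤ ℂ, (a : ℂ) = qCoeff g ℓ ∧ ι (T ℓ) = φ a)
    {V : Type} [AddCommGroup V] [Module k₀ V] [Module.Finite k₀ V] [Nontrivial V]
    (ρ₀ : GQ →* Module.End k₀ V) (hlev : GaloisFactorsThroughFiniteLevel ρ₀)
    (hunr : ∀ ℓ : ℕ, ℓ.Prime → ¬ ℓ ∣ N * p → ∀ A : ValuationSubring Qb, A.LiesOverPrime ℓ →
      ∀ s ∈ A.inertiaSubgroupIn ℚ, ρ₀ s = 1)
    (hfrob : ∀ ℓ : ℕ, (hℓ : ℓ.Prime) → ¬ ℓ ∣ N * p → ∀ A : ValuationSubring Qb,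
      A.LiesOverPrime ℓ → ∀ s : GQ, A.IsFrobeniusAt s ℓ →
        ρ₀ s * ρ₀ s = T ⟨ℓ, hℓ⟩ • ρ₀ s - (ℓ : k₀) • 1) :
    ∃ ρ : ResidualGaloisRep k, ρ.IsAttachedTo g φ ∧
      ∀ ℓ : ℕ, ℓ.Prime → ¬ ℓ ∣ N * p → ρ.IsUnramifiedAt ℓ := by
  classical
  have : Fact p.Prime := ⟨hp⟩
  have : CharP k₀ p := RingHom.charP ι ι.injective p
  obtain ⟨L, hLfin, hL⟩ := hlev
  have := hLfin
  set a : ℕ → k₀ := fun ℓ => if h : ℓ.Prime then T ⟨ℓ, h⟩ else 0 with ha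
  have hfrob' : ∀ ℓ : ℕ, ℓ.Prime → ¬ ℓ ∣ N * p → ∀ A : ValuationSubring Qb,
      A.LiesOverPrime ℓ → ∀ s : GQ, A.IsFrobeniusAt s ℓ →
        ρ₀ s * ρ₀ s = a ℓ • ρ₀ s - (ℓ : k₀) • 1 := by
    intro ℓ hℓ hℓNp A hA s hs
    rw [ha]
    simp only [dif_pos hℓ]
    exact hfrob ℓ hℓ hℓNp A hA s hs
  obtain ⟨ρ', h1, h2, -⟩ :=
    H29.exists_residualGaloisRep_of_frobeniusQuadratic N ρ₀ L hL hunr a hfrob'
  refine ⟨ρ'.baseChangeAlong ι, ?_, ?_⟩
  · intro ℓ hℓ hℓN hℓk A hA σ hσ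
    have hℓp : ℓ ≠ p := by
      rintro rfl
      exact hℓk (CharP.cast_eq_zero k ℓ)
    have hℓNp : ¬ ℓ ∣ N * p := by
      intro hdvd
      rcases (Nat.Prime.dvd_mul hℓ).mp hdvd with h | h
      · exact hℓN h
      · exact hℓp ((Nat.prime_dvd_prime_iff_eq hℓ hp).mp h)
    obtain ⟨b, hb, hιb⟩ := hT ⟨ℓ, hℓ⟩
    refine ⟨b, hb, ?_⟩
    rw [charpoly_baseChangeAlong, h2 ℓ hℓ hℓNp A hA σ hσ]
    have haℓ : a ℓ = T ⟨ℓ, hℓ⟩ := by rw [ha]; simp only [dif_pos hℓ]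
    rw [haℓ]
    simp only [Polynomial.map_add, Polynomial.map_sub, Polynomial.map_mul, Polynomial.map_pow,
      Polynomial.map_X, Polynomial.map_C, hιb, map_natCast, Polynomial.map_natCast]
  · intro ℓ hℓ hℓNp A hA σ hσ
    exact baseChangeAlong_ρ_eq_one ι ρ' (h1 ℓ hℓ hℓNp A hA σ hσ)

end Core

section Assembly

variable {N : ℕ}

/-- The shape of helper93's package (W4): for the eigenform ideal `𝔪 ∋ p` a nonzero
finite-dimensional Galois module over `ℤ[X_ℓ] ⧸ 𝔪` with finite level, unramified outside `N p` and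
Frobenius-quadratic. -/
def HasGaloisModuleAt (N p : ℕ) (𝔪 : Ideal HeckeAlg) : Prop :=
  ∃ (V : Type) (_ : AddCommGroup V) (_ : Module (HeckeAlg ⧸ 𝔪) V)
    (ρ₀ : GQ →* Module.End (HeckeAlg ⧸ 𝔪) V),
    Nontrivial V ∧ Module.Finite (HeckeAlg ⧸ 𝔪) V ∧ GaloisFactorsThroughFiniteLevel ρ₀ ∧
    (∀ ℓ : ℕ, ℓ.Prime → ¬ ℓ ∣ N * p → ∀ A : ValuationSubring Qb, A.LiesOverPrime ℓ →
      ∀ s ∈ A.inertiaSubgroupIn ℚ, ρ₀ s = 1) ∧
    (∀ ℓ : ℕ, (hℓ : ℓ.Prime) → ¬ ℓ ∣ N * p → ∀ A : ValuationSubring Qb,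
      A.LiesOverPrime ℓ → ∀ s : GQ, A.IsFrobeniusAt s ℓ →
        ρ₀ s * ρ₀ s = (Ideal.Quotient.mk 𝔪 (heckeGen ⟨ℓ, hℓ⟩)) • ρ₀ s
          - ((ℓ : HeckeAlg ⧸ 𝔪)) • 1)

/-- **S29 for `N ≠ 0`** from the Galois modules of the eigenform ideals. -/
theorem s29_of_galoisModule [NeZero N] {g : CuspForm (Gamma0 N) 2}
    (hg : g.IsNormalizedEigenform) {p : ℕ} (hp : p.Prime)
    (hW : ∀ 𝔪 : Ideal HeckeAlg, IsEigenformIdeal N 𝔪 → (p : HeckeAlg) ∈ 𝔪 →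
      HasGaloisModuleAt N p 𝔪)
    {k : Type} [Field k] [CharP k p] (φ : integralClosure ℤ ℂ →+* k) :
    ∃ ρ : ResidualGaloisRep k, ρ.IsAttachedTo g φ ∧
      ∀ ℓ : ℕ, ℓ.Prime → ¬ ℓ ∣ N * p → ρ.IsUnramifiedAt ℓ := by
  obtain ⟨𝔪, ι, h𝔪, hp𝔪, hmax, hfin, hι⟩ := exists_eigenformIdeal hg hp φ
  obtain ⟨V, iV1, iV2, ρ₀, hV1, hV2, hlev, hunr, hfrob⟩ := hW 𝔪 h𝔪 hp𝔪
  have := hmax
  let _ : Field (HeckeAlg ⧸ 𝔪) := Ideal.Quotient.field 𝔪
  have := hfin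
  exact exists_residualGaloisRep_of_module hp φ ι
    (fun ℓ => Ideal.Quotient.mk 𝔪 (heckeGen ℓ)) hι ρ₀ hlev hunr hfrob

/-- **S29 for `N = 0`**: every clause about primes is vacuous. -/
theorem s29_of_level_zero {g : CuspForm (Gamma0 0) 2} {p : ℕ}
    {k : Type} [Field k] (φ : integralClosure ℤ ℂ →+* k) :
    ∃ ρ : ResidualGaloisRep k, ρ.IsAttachedTo g φ ∧
      ∀ ℓ : ℕ, ℓ.Prime → ¬ ℓ ∣ 0 * p → ρ.IsUnramifiedAt ℓ := by
  refine ⟨{ V := Fin 2 → k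
            finrank_eq := Module.finrank_fin_fun k
            ρ := 1
            factorsThroughFiniteLevel := ⟨⊥, inferInstance, fun _ _ => rfl⟩ }, ?_, ?_⟩
  · intro ℓ _ hℓN
    exact absurd (dvd_zero ℓ) hℓN
  · intro ℓ _ hℓ
    exact absurd (by simp) hℓ

end Assembly

end Fermat.Agent.S29.H66
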