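/-
Stage 3 (project S29), package (d) of (T3): the Galois wrapper on `J[𝔪]`.

For a Hecke–Galois module `J` (abstract), an ideal `𝔪` of the Hecke algebra and one element
`x ∈ J[𝔪]`, the `k₀ = HeckeAlg ⧸ 𝔪`-span `W` of the Galois orbit of `x` is a Galois-stable
subspace of `J[𝔪]`.  If `x` is fixed by `Gal(ℚ̄/L)` for a finite `L/ℚ` (open stabiliser), then `W`
is finite-dimensional and the Galois action on `W` factors through a finite level.  The local
clauses of the prelude's Eichler–Shimura data (`UnramifiedOutside`, `FrobeniusQuadratic`) are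
inherited by `W` in the shape consumed by the quadratic-relation algebra.

Mathlib + Prelude only.
-/
import Mathlib
import Fermat.Prelude.Def_ModularCurve_EigenformIdeal
import Fermat.Prelude.Def_GaloisRep_Residual

set_option autoImplicit false

noncomputable section

namespace Fermat.Agent.S29.H93

open ModularCurve

/-! ### Eigenform ideals are maximal with finite residue field -/

section EigenIdeal

variable {k : Type*} [Field k]

/-- The quotient by an eigen-ideal with values in a finite field embeds in that field. -/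
theorem eigenIdeal_kerLift_injective (a : Nat.Primes → k) :
    Function.Injective (RingHom.kerLift (MvPolynomial.aeval (R := ℤ) a : HeckeAlg →+* k)) :=
  RingHom.kerLift_injective _

variable [Finite k]

theorem finite_quotient_eigenIdeal (a : Nat.Primes → k) : Finite (HeckeAlg ⧸ eigenIdeal a) :=
  Finite.of_injective _ (eigenIdeal_kerLift_injective a)

theorem isMaximal_eigenIdeal (a : Nat.Primes → k) : (eigenIdeal a).IsMaximal := by
  have : Finite (HeckeAlg ⧸ eigenIdeal a) := finite_quotient_eigenIdeal a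
  have : IsDomain (HeckeAlg ⧸ eigenIdeal a) :=
    (eigenIdeal_kerLift_injective a).isDomain _
  have : (eigenIdeal a).IsPrime := (Ideal.Quotient.isDomain_iff_prime _).mp inferInstance
  exact Ideal.Quotient.maximal_of_isField _ (Finite.isField_of_domain _)

end EigenIdeal

theorem isMaximal_of_isEigenformIdeal {N : ℕ} {𝔪 : Ideal HeckeAlg} (h : IsEigenformIdeal N 𝔪) :
    𝔪.IsMaximal := by
  obtain ⟨f, _, k, hk, hfin, 𝒪, h𝒪, φ, rfl⟩ := h
  exact isMaximal_eigenIdeal _

theorem finite_quotient_of_isEigenformIdeal {N : ℕ} {𝔪 : Ideal HeckeAlg}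
    (h : IsEigenformIdeal N 𝔪) : Finite (HeckeAlg ⧸ 𝔪) := by
  obtain ⟨f, _, k, hk, hfin, 𝒪, h𝒪, φ, rfl⟩ := h
  exact finite_quotient_eigenIdeal _

/-! ### The orbit span -/

section Abstract

variable {G : Type*} [Group G] (J : Type*) [AddCommGroup J] [Module HeckeAlg J]
  [DistribMulAction G J] [SMulCommClass G HeckeAlg J] (𝔪 : Ideal HeckeAlg)

/-- Elements of `J[𝔪]` are killed by `p` as soon as `p ∈ 𝔪`. -/
theorem natCast_smul_eq_zero {p : ℕ} (hp : (p : HeckeAlg) ∈ 𝔪) (y : heckeTorsion J 𝔪) :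
    p • (y : J) = 0 := by
  have h := (mem_heckeTorsion_iff J 𝔪 (y : J)).mp y.2 _ hp
  rwa [Nat.cast_smul_eq_nsmul] at h

theorem exists_pow_smul_eq_zero {p : ℕ} (hp : (p : HeckeAlg) ∈ 𝔪) (y : heckeTorsion J 𝔪) :
    ∃ n : ℕ, p ^ n • (y : J) = 0 :=
  ⟨1, by rw [pow_one]; exact natCast_smul_eq_zero J 𝔪 hp y⟩

/-- The `HeckeAlg ⧸ 𝔪`-span of the `G`-orbit of `x` inside `J[𝔪]`. -/
def orbitSpan (x : heckeTorsion J 𝔪) : Submodule (HeckeAlg ⧸ 𝔪) (heckeTorsion J 𝔪) :=
  Submodule.span (HeckeAlg ⧸ 𝔪) (Set.range fun g : G => mTorsionGaloisRep J 𝔪 g x)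

variable {J 𝔪}

theorem map_mem_orbitSpan_self (x : heckeTorsion J 𝔪) (g : G) :
    mTorsionGaloisRep J 𝔪 g x ∈ orbitSpan (G := G) J 𝔪 x :=
  Submodule.subset_span ⟨g, rfl⟩

theorem self_mem_orbitSpan (x : heckeTorsion J 𝔪) : x ∈ orbitSpan (G := G) J 𝔪 x := by
  have h := map_mem_orbitSpan_self (G := G) x 1
  rwa [map_one] at h

/-- The orbit span is stable under the group. -/
theorem map_mem_orbitSpan (x : heckeTorsion J 𝔪) (g : G) {y : heckeTorsion J 𝔪}
    (hy : y ∈ orbitSpan (G := G) J 𝔪 x) :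
    mTorsionGaloisRep J 𝔪 g y ∈ orbitSpan (G := G) J 𝔪 x := by
  have hle : orbitSpan (G := G) J 𝔪 x ≤
      (orbitSpan (G := G) J 𝔪 x).comap (mTorsionGaloisRep J 𝔪 g) := by
    refine Submodule.span_le.mpr ?_
    rintro _ ⟨h, rfl⟩
    rw [SetLike.mem_coe, Submodule.mem_comap]
    have : mTorsionGaloisRep J 𝔪 g (mTorsionGaloisRep J 𝔪 h x)
        = mTorsionGaloisRep J 𝔪 (g * h) x := by
      rw [map_mul]; rfl
    rw [this]
    exact map_mem_orbitSpan_self x (g * h)
  exact hle hy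

variable (J 𝔪)

/-- The representation of `G` on the orbit span of `x`. -/
def orbitRep (x : heckeTorsion J 𝔪) :
    G →* Module.End (HeckeAlg ⧸ 𝔪) (orbitSpan (G := G) J 𝔪 x) where
  toFun g := (mTorsionGaloisRep J 𝔪 g).restrict (fun _ hy => map_mem_orbitSpan x g hy)
  map_one' := by
    ext y
    simp
  map_mul' g h := by
    ext y
    simp [map_mul]

variable {J 𝔪}

@[simp] theorem coe_orbitRep_apply (x : heckeTorsion J 𝔪) (g : G)
    (y : orbitSpan (G := G) J 𝔪 x) :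
    (((orbitRep J 𝔪 x g y : orbitSpan (G := G) J 𝔪 x) : heckeTorsion J 𝔪) : J)
      = g • ((y : heckeTorsion J 𝔪) : J) := rfl

theorem nontrivial_orbitSpan {x : heckeTorsion J 𝔪} (hx : x ≠ 0) :
    Nontrivial (orbitSpan (G := G) J 𝔪 x) :=
  ⟨⟨⟨x, self_mem_orbitSpan x⟩, 0, fun h => hx (congrArg Subtype.val h)⟩⟩

/-- If every element of the orbit of `x` is fixed by `τ`, then `τ` acts trivially on the orbit
span. -/
theorem orbitRep_eq_one_of_forall (x : heckeTorsion J 𝔪) (τ : G)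
    (h : ∀ g : G, τ • (g • (x : J)) = g • (x : J)) : orbitRep J 𝔪 x τ = 1 := by
  have hle : orbitSpan (G := G) J 𝔪 x ≤
      LinearMap.eqLocus (mTorsionGaloisRep J 𝔪 τ) LinearMap.id := by
    refine Submodule.span_le.mpr ?_
    rintro _ ⟨g, rfl⟩
    show mTorsionGaloisRep J 𝔪 τ (mTorsionGaloisRep J 𝔪 g x) = mTorsionGaloisRep J 𝔪 g x
    apply Subtype.ext
    exact h g
  ext y
  have := hle y.2
  exact congrArg Subtype.val this

/-- If the orbit of `x` is finite, the orbit span is finite-dimensional. -/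
theorem finite_orbitSpan_of_finite (x : heckeTorsion J 𝔪)
    (h : (Set.range fun g : G => g • (x : J)).Finite) :
    Module.Finite (HeckeAlg ⧸ 𝔪) (orbitSpan (G := G) J 𝔪 x) := by
  have hfin : (Set.range fun g : G => mTorsionGaloisRep J 𝔪 g x).Finite := by
    have hinj : Set.InjOn (Subtype.val : heckeTorsion J 𝔪 → J)
        (Set.range fun g : G => mTorsionGaloisRep J 𝔪 g x) :=
      Subtype.val_injective.injOn
    refine Set.Finite.of_finite_image (h.subset ?_) hinj
    rintro _ ⟨_, ⟨g, rfl⟩, rfl⟩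
    exact ⟨g, rfl⟩
  exact Module.Finite.span_of_finite _ hfin

/-- A property of elements of `J` which is stable under sums and the Hecke action, and holds on
the orbit of `x`, holds on the whole orbit span. -/
theorem orbitSpan_induction (x : heckeTorsion J 𝔪) (P : J → Prop) (h0 : P 0)
    (hadd : ∀ a b, P a → P b → P (a + b)) (hsmul : ∀ (t : HeckeAlg) a, P a → P (t • a))
    (horb : ∀ g : G, P (g • (x : J))) (y : orbitSpan (G := G) J 𝔪 x) :
    P ((y : heckeTorsion J 𝔪) : J) := by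
  obtain ⟨y, hy⟩ := y
  show P (y : J)
  induction hy using Submodule.span_induction with
  | mem z hz =>
    obtain ⟨g, rfl⟩ := hz
    exact horb g
  | zero => exact h0
  | add a b _ _ ha hb => exact hadd _ _ ha hb
  | smul r a _ ha =>
    obtain ⟨t, rfl⟩ := Ideal.Quotient.mk_surjective r
    exact hsmul t _ ha

end Abstract

/-! ### Galois modules: open stabilisers give finite level -/

section Galois

/-- `ℚ̄`. -/
local notation "Qb" => AlgebraicClosure ℚ

/-- `Gal(ℚ̄/ℚ)`. -/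
local notation "GQ" => (AlgebraicClosure ℚ) ≃ₐ[ℚ] (AlgebraicClosure ℚ)

/-- "`x` has an open stabiliser": it is fixed by `Gal(ℚ̄/L)` for a finite `L/ℚ`. -/
def HasFiniteLevel {J : Type*} [SMul GQ J] (x : J) : Prop :=
  ∃ L : IntermediateField ℚ Qb, FiniteDimensional ℚ L ∧
    ∀ σ : GQ, (∀ a ∈ L, σ a = a) → σ • x = x

section Orbit

variable {J : Type*} [MulAction GQ J]

/-- If `σ` and `τ` agree on `L` and `Gal(ℚ̄/L)` fixes `x`, then `σ • x = τ • x`. -/
theorem smul_eq_smul_of_agree {x : J} (L : IntermediateField ℚ Qb)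
    (hL : ∀ σ : GQ, (∀ a ∈ L, σ a = a) → σ • x = x) {σ τ : GQ}
    (h : ∀ a ∈ L, σ a = τ a) : σ • x = τ • x := by
  have h1 : (τ⁻¹ * σ) • x = x := by
    apply hL
    intro a ha
    rw [AlgEquiv.mul_apply, h a ha]
    exact τ.symm_apply_apply a
  calc σ • x = τ • (τ⁻¹ * σ) • x := by rw [smul_smul, mul_inv_cancel_left]
    _ = τ • x := by rw [h1]

/-- An element with an open stabiliser has a finite orbit. -/
theorem finite_orbit_of_hasFiniteLevel {x : J} (h : HasFiniteLevel x) :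
    (Set.range fun g : GQ => g • x).Finite := by
  obtain ⟨L, hfd, hL⟩ := h
  -- the orbit map factors through the finite set of embeddings of `L`
  let r : GQ → (L →ₐ[ℚ] Qb) := fun g => (g : Qb →ₐ[ℚ] Qb).comp L.val
  have hr : ∀ g g' : GQ, r g = r g' → g • x = g' • x := by
    intro g g' hgg
    apply smul_eq_smul_of_agree L hL
    intro a ha
    exact DFunLike.congr_fun hgg ⟨a, ha⟩
  have hsub : (Set.range fun g : GQ => g • x) ⊆
      Set.range fun f : L →ₐ[ℚ] Qb => Function.extend r (fun g : GQ => g • x) (fun _ => x) f := by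
    rintro _ ⟨g, rfl⟩
    refine ⟨r g, ?_⟩
    have hfac : ∀ g g' : GQ, r g = r g' → (fun g : GQ => g • x) g = (fun g : GQ => g • x) g' := hr
    exact (Function.FactorsThrough.extend_apply hfac (fun _ => x) g)
  exact (Set.finite_range _).subset hsub

/-- If `Gal(ℚ̄/L)` fixes `x`, then `Gal(ℚ̄/L')`, `L'` the normal closure of `L`, fixes the whole
orbit of `x`. -/
theorem smul_smul_eq_of_normalClosure {x : J} (L : IntermediateField ℚ Qb)
    (hL : ∀ σ : GQ, (∀ a ∈ L, σ a = a) → σ • x = x) {τ : GQ}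
    (hτ : ∀ a ∈ IntermediateField.normalClosure ℚ L Qb, τ a = a) (g : GQ) :
    τ • g • x = g • x := by
  have h1 : (g⁻¹ * τ * g) • x = x := by
    apply hL
    intro a ha
    have hga : g a ∈ IntermediateField.normalClosure ℚ L Qb := by
      apply AlgHom.fieldRange_le_normalClosure ((g : Qb →ₐ[ℚ] Qb).comp L.val)
      exact ⟨⟨a, ha⟩, rfl⟩
    rw [AlgEquiv.mul_apply, AlgEquiv.mul_apply, hτ _ hga]
    exact g.symm_apply_apply a
  calc τ • g • x = g • (g⁻¹ * τ * g) • x := by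
        rw [smul_smul, smul_smul, mul_assoc, mul_inv_cancel_left]
    _ = g • x := by rw [h1]

end Orbit

variable {J : Type*} [AddCommGroup J] [Module HeckeAlg J]
  [DistribMulAction GQ J] [SMulCommClass GQ HeckeAlg J] {𝔪 : Ideal HeckeAlg}

/-- Open stabiliser of `x` ⟹ the orbit span of `x` is finite-dimensional. -/
theorem finite_orbitSpan {x : heckeTorsion J 𝔪} (h : HasFiniteLevel (x : J)) :
    Module.Finite (HeckeAlg ⧸ 𝔪) (orbitSpan (G := GQ) J 𝔪 x) :=
  finite_orbitSpan_of_finite x (finite_orbit_of_hasFiniteLevel h)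

/-- Open stabiliser of `x` ⟹ the Galois action on the orbit span of `x` factors through a
finite level (the normal closure of a level of `x`); universe-polymorphic unfolded form. -/
theorem exists_level_orbitRep {x : heckeTorsion J 𝔪} (h : HasFiniteLevel (x : J)) :
    ∃ L : IntermediateField ℚ Qb, FiniteDimensional ℚ L ∧
      ∀ σ : GQ, (∀ a ∈ L, σ a = a) → orbitRep J 𝔪 x σ = 1 := by
  obtain ⟨L, hfd, hL⟩ := h
  refine ⟨IntermediateField.normalClosure ℚ L Qb,
    normalClosure.is_finiteDimensional ℚ L Qb, fun τ hτ => ?_⟩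
  exact orbitRep_eq_one_of_forall x τ (fun g => smul_smul_eq_of_normalClosure L hL hτ g)

/-- The same in the prelude's vocabulary (which lives in `Type`). -/
theorem galoisFactorsThroughFiniteLevel_orbitRep {J : Type} [AddCommGroup J] [Module HeckeAlg J]
    [DistribMulAction GQ J] [SMulCommClass GQ HeckeAlg J] {𝔪 : Ideal HeckeAlg}
    {x : heckeTorsion J 𝔪} (h : HasFiniteLevel (x : J)) :
    GaloisFactorsThroughFiniteLevel (orbitRep J 𝔪 x) :=
  exists_level_orbitRep h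

/-! ### Inherited local clauses -/

variable {N p : ℕ}

/-- Inertia at `ℓ ∤ N p` acts trivially on the orbit span. -/
theorem orbitRep_eq_one_of_mem_inertia (hp : (p : HeckeAlg) ∈ 𝔪)
    (hur : UnramifiedOutside (K := ℚ) (L := Qb) N p J) (x : heckeTorsion J 𝔪)
    {ℓ : ℕ} (hℓ : ℓ.Prime) (hℓNp : ¬ ℓ ∣ N * p) {A : ValuationSubring Qb}
    (hA : A.LiesOverPrime ℓ) {σ : GQ} (hσ : σ ∈ A.inertiaSubgroupIn ℚ) :
    orbitRep J 𝔪 x σ = 1 := by
  ext y
  exact hur ℓ hℓ hℓNp A hA σ hσ _ (exists_pow_smul_eq_zero J 𝔪 hp (y : heckeTorsion J 𝔪))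

/-- A Frobenius lift at `ℓ ∤ N p` satisfies `σ² = T_ℓ σ - ℓ` on the orbit span: the shape of the
quadratic relation consumed by the algebra. -/
theorem orbitRep_frobenius_quadratic (hp : (p : HeckeAlg) ∈ 𝔪)
    (hfq : FrobeniusQuadratic (K := ℚ) (L := Qb) N p J) (x : heckeTorsion J 𝔪)
    {ℓ : ℕ} (hℓ : ℓ.Prime) (hℓNp : ¬ ℓ ∣ N * p) {A : ValuationSubring Qb}
    (hA : A.LiesOverPrime ℓ) {σ : GQ} (hσ : A.IsFrobeniusAt σ ℓ) :
    orbitRep J 𝔪 x σ * orbitRep J 𝔪 x σ
      = (Ideal.Quotient.mk 𝔪 (heckeGen ⟨ℓ, hℓ⟩)) • orbitRep J 𝔪 x σ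
        - ((ℓ : ℕ) : HeckeAlg ⧸ 𝔪) • (1 : Module.End (HeckeAlg ⧸ 𝔪) (orbitSpan (G := GQ) J 𝔪 x)) := by
  ext y
  have h := hfq ℓ hℓ hℓNp A hA σ hσ _
    (exists_pow_smul_eq_zero J 𝔪 hp (y : heckeTorsion J 𝔪))
  have hcast : ((ℓ : ℕ) : HeckeAlg ⧸ 𝔪) = Ideal.Quotient.mk 𝔪 ((ℓ : ℕ) : HeckeAlg) := by
    rw [map_natCast]
  rw [Module.End.mul_apply, LinearMap.sub_apply, LinearMap.smul_apply, LinearMap.smul_apply,
    Module.End.one_apply, hcast]
  simp only [coe_orbitRep_apply, Submodule.coe_sub, Submodule.coe_smul,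
    Submodule.torsionBySet.mk_smul, Nat.cast_smul_eq_nsmul, Submodule.coe_smul_of_tower]
  rw [eq_sub_iff_add_eq, ← sub_eq_zero]
  rw [← h]
  abel

/-! ### The package -/

/-- **Galois wrapper.**  From the prelude's Eichler–Shimura data on `J`, open stabilisers on `J`
and an eigenform ideal `𝔪 ∋ p`: a nonzero finite-dimensional Galois-stable `HeckeAlg ⧸ 𝔪`-subspace
`V` of `J[𝔪]` on which the Galois action factors through a finite level, is unramified outside
`N p`, and on which every Frobenius lift at `ℓ ∤ N p` satisfies `σ² = T_ℓ σ - ℓ`. -/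
theorem exists_galoisModule {J : Type} [AddCommGroup J] [Module HeckeAlg J]
    [DistribMulAction GQ J] [SMulCommClass GQ HeckeAlg J] {N p : ℕ}
    (hES : EichlerShimuraDataAt (K := ℚ) (L := Qb) N p J)
    (hfix : ∀ x : J, HasFiniteLevel x)
    {𝔪 : Ideal HeckeAlg} (h𝔪 : IsEigenformIdeal N 𝔪) (hp : (p : HeckeAlg) ∈ 𝔪) :
    ∃ (V : Submodule (HeckeAlg ⧸ 𝔪) (heckeTorsion J 𝔪))
      (ρ : GQ →* Module.End (HeckeAlg ⧸ 𝔪) V),
      Nontrivial V ∧ Module.Finite (HeckeAlg ⧸ 𝔪) V ∧ GaloisFactorsThroughFiniteLevel ρ ∧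
      (∀ (g : GQ) (y : V), (((ρ g y : V) : heckeTorsion J 𝔪) : J)
        = g • ((y : heckeTorsion J 𝔪) : J)) ∧
      (∀ ℓ : ℕ, ℓ.Prime → ¬ ℓ ∣ N * p → ∀ A : ValuationSubring Qb, A.LiesOverPrime ℓ →
        ∀ σ ∈ A.inertiaSubgroupIn ℚ, ρ σ = 1) ∧
      (∀ (ℓ : ℕ) (hℓ : ℓ.Prime), ¬ ℓ ∣ N * p → ∀ A : ValuationSubring Qb, A.LiesOverPrime ℓ →
        ∀ σ : GQ, A.IsFrobeniusAt σ ℓ →
          ρ σ * ρ σ = (Ideal.Quotient.mk 𝔪 (heckeGen ⟨ℓ, hℓ⟩)) • ρ σ
            - ((ℓ : ℕ) : HeckeAlg ⧸ 𝔪) • (1 : Module.End (HeckeAlg ⧸ 𝔪) V)) := by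
  have hne : heckeTorsion J 𝔪 ≠ ⊥ := hES.eigenformSupport 𝔪 h𝔪 hp
  obtain ⟨x0, hx0, hx0ne⟩ := Submodule.exists_mem_ne_zero_of_ne_bot hne
  set x : heckeTorsion J 𝔪 := ⟨x0, hx0⟩ with hx
  have hxne : x ≠ 0 := fun h => hx0ne (congrArg Subtype.val h)
  have hlev : HasFiniteLevel (x : J) := hfix x0
  refine ⟨orbitSpan (G := GQ) J 𝔪 x, orbitRep J 𝔪 x, nontrivial_orbitSpan hxne,
    finite_orbitSpan hlev, galoisFactorsThroughFiniteLevel_orbitRep hlev,
    fun g y => rfl, ?_, ?_⟩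
  · intro ℓ hℓ hℓNp A hA σ hσ
    exact orbitRep_eq_one_of_mem_inertia hp hES.unramifiedOutside x hℓ hℓNp hA hσ
  · intro ℓ hℓ hℓNp A hA σ hσ
    exact orbitRep_frobenius_quadratic hp hES.frobeniusQuadratic x hℓ hℓNp hA hσ

end Galois

end Fermat.Agent.S29.H93
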