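/-
Stage 3 (project S29): the Galois wrapper of `H93_GaloisWrapper` instantiated at `J = JZero N`
with the prelude's Hecke module structure, helper28's Galois–Hecke commutation and helper46's
open stabilisers.
-/
import Mathlib
import Fermat.Agent.S29.H93_GaloisWrapper
import Fermat.Agent.S29.H28_GalHecke
import Fermat.Agent.S29.H46_OpenStab

set_option autoImplicit false

noncomputable section

namespace Fermat.Agent.S29.H93

open ModularCurve

/-- Every point of `JZero N` has an open stabiliser (helper46's `(T3)`). -/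
theorem hasFiniteLevel_JZero (N : ℕ) [NeZero N] (x : JZero N) : HasFiniteLevel x :=
  Fermat.Agent.S29.H46.exists_finite_fixing N x

/-- **Galois wrapper on `J₀(N)[𝔪]`.**  From the prelude's Eichler–Shimura data on `JZero N` (for
the prelude's Hecke module structure) and an eigenform ideal `𝔪 ∋ p`: a nonzero
finite-dimensional Galois-stable subspace `V ⊆ J₀(N)[𝔪]` on which Galois acts through a finite
level, unramified outside `N p`, every Frobenius lift at `ℓ ∤ N p` satisfying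
`σ² = T_ℓ σ - ℓ`. -/
theorem exists_galoisModule_JZero (N p : ℕ) [NeZero N]
    (hES : letI := heckeModuleBar N
      haveI := Fermat.Agent.S29.H28.smulCommClass_heckeModuleBar N
      EichlerShimuraDataAt (K := ℚ) (L := AlgebraicClosure ℚ) N p (JZero N))
    {𝔪 : Ideal HeckeAlg} (h𝔪 : IsEigenformIdeal N 𝔪) (hp : (p : HeckeAlg) ∈ 𝔪) :
    letI := heckeModuleBar N
    haveI := Fermat.Agent.S29.H28.smulCommClass_heckeModuleBar N
    ∃ (V : Submodule (HeckeAlg ⧸ 𝔪) (heckeTorsion (JZero N) 𝔪))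
      (ρ : (AlgebraicClosure ℚ ≃ₐ[ℚ] AlgebraicClosure ℚ) →* Module.End (HeckeAlg ⧸ 𝔪) V),
      Nontrivial V ∧ Module.Finite (HeckeAlg ⧸ 𝔪) V ∧ GaloisFactorsThroughFiniteLevel ρ ∧
      (∀ (g : AlgebraicClosure ℚ ≃ₐ[ℚ] AlgebraicClosure ℚ) (y : V),
        (((ρ g y : V) : heckeTorsion (JZero N) 𝔪) : JZero N)
          = g • ((y : heckeTorsion (JZero N) 𝔪) : JZero N)) ∧
      (∀ ℓ : ℕ, ℓ.Prime → ¬ ℓ ∣ N * p →
        ∀ A : ValuationSubring (AlgebraicClosure ℚ), A.LiesOverPrime ℓ →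
        ∀ σ ∈ A.inertiaSubgroupIn ℚ, ρ σ = 1) ∧
      (∀ (ℓ : ℕ) (hℓ : ℓ.Prime), ¬ ℓ ∣ N * p →
        ∀ A : ValuationSubring (AlgebraicClosure ℚ), A.LiesOverPrime ℓ →
        ∀ σ : AlgebraicClosure ℚ ≃ₐ[ℚ] AlgebraicClosure ℚ, A.IsFrobeniusAt σ ℓ →
          ρ σ * ρ σ = (Ideal.Quotient.mk 𝔪 (heckeGen ⟨ℓ, hℓ⟩)) • ρ σ
            - ((ℓ : ℕ) : HeckeAlg ⧸ 𝔪) • (1 : Module.End (HeckeAlg ⧸ 𝔪) V)) := by
  letI := heckeModuleBar N
  haveI := Fermat.Agent.S29.H28.smulCommClass_heckeModuleBar N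
  exact exists_galoisModule hES (hasFiniteLevel_JZero N) h𝔪 hp

end Fermat.Agent.S29.H93
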