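/-
S29 / Stage 3 / P15 (endgame), part 3: the frozen S29 statement from the three named inputs

* (Stage 2 = S37) `SpecializationExists N p (JZero N)`,
* (Stage 3)        `EigenformSupportAt N p (JZero N)`,

for the prelude Hecke module structure `heckeModuleBar N` on `JZero N`.  Everything else is landed:
helper28 (Galois–Hecke commutation), helper46 (open stabilisers), helper93 (Galois wrapper on
`J[𝔪]`), helper29 (quadratic algebra + Frobenius density wrapper), `H66_EigenIdeal`,
`H66_Endgame`, `H66_ESData`.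
-/
import Mathlib
import Fermat.Agent.S29.H66_Endgame
import Fermat.Agent.S29.H66_ESData
import Fermat.Agent.S29.H93_GaloisWrapperJZero

set_option autoImplicit false

open CongruenceSubgroup ModularFormClass ModularCurve

namespace Fermat.Agent.S29.H66

local notation "Qb" => AlgebraicClosure ℚ
local notation "GQ" => (AlgebraicClosure ℚ ≃ₐ[ℚ] AlgebraicClosure ℚ)

/-- helper93's package (W4) in the shape consumed by `s29_of_galoisModule`. -/
theorem hasGaloisModuleAt_of_eichlerShimura {J : Type} [AddCommGroup J] [Module HeckeAlg J]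
    [DistribMulAction GQ J] [SMulCommClass GQ HeckeAlg J] {N p : ℕ}
    (hES : EichlerShimuraDataAt (K := ℚ) (L := Qb) N p J)
    (hfix : ∀ x : J, ∃ L : IntermediateField ℚ Qb, FiniteDimensional ℚ L ∧
      ∀ σ : GQ, (∀ a ∈ L, σ a = a) → σ • x = x)
    {𝔪 : Ideal HeckeAlg} (h𝔪 : IsEigenformIdeal N 𝔪) (hp : (p : HeckeAlg) ∈ 𝔪) :
    HasGaloisModuleAt N p 𝔪 := by
  obtain ⟨V, ρ, h1, h2, h3, -, h5, h6⟩ := H93.exists_galoisModule hES hfix h𝔪 hp
  exact ⟨V, inferInstance, inferInstance, ρ, h1, h2, h3, h5, h6⟩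

/-- **S29 for `N ≠ 0`, abstract form**: any Hecke–Galois module `J` with the prelude's
Eichler–Shimura data and open stabilisers. -/
theorem s29_of_eichlerShimura {J : Type} [AddCommGroup J] [Module HeckeAlg J]
    [DistribMulAction GQ J] [SMulCommClass GQ HeckeAlg J] {N p : ℕ} [NeZero N]
    (hES : EichlerShimuraDataAt (K := ℚ) (L := Qb) N p J)
    (hfix : ∀ x : J, ∃ L : IntermediateField ℚ Qb, FiniteDimensional ℚ L ∧
      ∀ σ : GQ, (∀ a ∈ L, σ a = a) → σ • x = x)
    {g : CuspForm (Gamma0 N) 2} (hg : g.IsNormalizedEigenform) (hp : p.Prime)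
    {k : Type} [Field k] [CharP k p] (φ : integralClosure ℤ ℂ →+* k) :
    ∃ ρ : ResidualGaloisRep k, ρ.IsAttachedTo g φ ∧
      ∀ ℓ : ℕ, ℓ.Prime → ¬ ℓ ∣ N * p → ρ.IsUnramifiedAt ℓ :=
  s29_of_galoisModule hg hp
    (fun _ h𝔪 hp𝔪 => hasGaloisModuleAt_of_eichlerShimura hES hfix h𝔪 hp𝔪) φ

/-- **S29 for `N ≠ 0`** from `SpecializationExists` (S37) and `EigenformSupportAt` (Stage 3) on
`JZero N`. -/
theorem s29_of_specialization_support {N p : ℕ} [NeZero N]
    (hspec : letI := heckeModuleBar N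
      SpecializationExists (K := ℚ) (L := Qb) N p (JZero N))
    (hsupp : letI := heckeModuleBar N
      EigenformSupportAt N p (JZero N))
    {g : CuspForm (Gamma0 N) 2} (hg : g.IsNormalizedEigenform) (hp : p.Prime)
    {k : Type} [Field k] [CharP k p] (φ : integralClosure ℤ ℂ →+* k) :
    ∃ ρ : ResidualGaloisRep k, ρ.IsAttachedTo g φ ∧
      ∀ ℓ : ℕ, ℓ.Prime → ¬ ℓ ∣ N * p → ρ.IsUnramifiedAt ℓ := by
  let _ := heckeModuleBar N
  have := Fermat.Agent.S29.H28.smulCommClass_heckeModuleBar N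
  exact s29_of_eichlerShimura (J := JZero N)
    (eichlerShimuraDataAt_of_specializationExists hspec hsupp)
    (Fermat.Agent.S29.H46.exists_finite_fixing N) hg hp φ

/-- **The frozen S29 statement** from the two named inputs (for all levels `N ≠ 0` and primes
`p`). -/
theorem s29_of_inputs
    (hspec : ∀ (N p : ℕ) [NeZero N], p.Prime →
      (letI := heckeModuleBar N; SpecializationExists (K := ℚ) (L := Qb) N p (JZero N)))
    (hsupp : ∀ (N p : ℕ) [NeZero N], p.Prime →
      (letI := heckeModuleBar N; EigenformSupportAt N p (JZero N)))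
    {N : ℕ} {g : CuspForm (Gamma0 N) 2} (hg : g.IsNormalizedEigenform)
    {p : ℕ} (hp : p.Prime) {k : Type} [Field k] [CharP k p]
    (φ : integralClosure ℤ ℂ →+* k) :
    ∃ ρ : ResidualGaloisRep k, ρ.IsAttachedTo g φ ∧
      ∀ ℓ : ℕ, ℓ.Prime → ¬ ℓ ∣ N * p → ρ.IsUnramifiedAt ℓ := by
  rcases Nat.eq_zero_or_pos N with rfl | hN
  · exact s29_of_level_zero φ
  · have : NeZero N := ⟨hN.ne'⟩
    exact s29_of_specialization_support (hspec N p hp) (hsupp N p hp) hg hp φ

end Fermat.Agent.S29.H66
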