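import Mathlib
import Fermat.Prelude.Def_AlgebraicCurve_DivisorClassGroup
import Fermat.Agent.RR.H52_WeakApprox

/-!
# S29 / P8 (MOVING): moving a divisor class away from a finite set of places

Prelude vocabulary (`AlgebraicCurve.Place`, `Divisor`, `Pic0`).  From weak approximation
(`RR.H52.weak_approximation`):

* `exists_ord_eq T n` : a nonzero function with prescribed orders on a finite set of places;
* `exists_principal_eq_on D T` : a principal divisor agreeing with `D` on `T`;
* `exists_rep_avoiding x T` : every class of `Pic0` has a representative vanishing on `T`.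
-/

set_option autoImplicit false

namespace Fermat.Agent.S29.H74

open AlgebraicCurve WithZero Fermat.Agent.RR

variable {K F : Type*} [Field K] [Field F] [Algebra K F]

/-- A nonzero function with prescribed orders at finitely many places. -/
theorem exists_ord_eq (T : Finset (Place K F)) (n : Place K F → ℤ) :
    ∃ z : F, z ≠ 0 ∧ ∀ v ∈ T, v.ord z = n v := by
  classical
  by_cases hT : T = ∅
  · subst hT
    exact ⟨1, one_ne_zero, fun v hv => absurd hv (Finset.notMem_empty v)⟩
  -- target elements with the right valuation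
  have hx : ∀ v : Place K F, ∃ x : F, v.adicValuation x = exp (-(n v)) :=
    fun v => H52.exists_val_eq_exp v (-(n v))
  choose x hx using hx
  -- a uniform precision
  obtain ⟨M, hM⟩ := Finset.exists_le (T.image n)
  obtain ⟨z, hz⟩ := H52.weak_approximation T x (M + 1)
  have hval : ∀ v ∈ T, v.adicValuation z = exp (-(n v)) := by
    intro v hv
    have hnM : n v ≤ M := hM _ (Finset.mem_image_of_mem n hv)
    have hlt : v.adicValuation (z - x v) < v.adicValuation (x v) := by
      rw [hx v]
      refine lt_of_le_of_lt (hz v hv) (exp_lt_exp.mpr ?_)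
      omega
    have h1 : z = x v + (z - x v) := by ring
    rw [h1, Valuation.map_add_eq_of_lt_left _ hlt, hx v]
  obtain ⟨v₀, hv₀⟩ := Finset.nonempty_iff_ne_empty.mpr hT
  have hz0 : z ≠ 0 := by
    intro h0
    have := hval v₀ hv₀
    rw [h0, map_zero] at this
    exact exp_ne_zero this.symm
  refine ⟨z, hz0, fun v hv => ?_⟩
  have h2 := hval v hv
  rw [H52.val_eq_exp_neg_ord v hz0, exp_inj] at h2
  omega

/-- A principal divisor agreeing with `D` on the finite set `T`. -/
theorem exists_principal_eq_on [HasPrincipalDivisors K F] (D : Divisor K F)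
    (T : Finset (Place K F)) :
    ∃ E ∈ Divisor.principal (K := K) (F := F), ∀ v ∈ T, E v = D v := by
  obtain ⟨z, hz0, hz⟩ := exists_ord_eq T (fun v => D v)
  obtain ⟨E, hE, -⟩ := HasPrincipalDivisors.exists_divisor (K := K) z hz0
  exact ⟨E, ⟨z, hz0, hE⟩, fun v hv => by rw [hE v, hz v hv]⟩

/-- A principal divisor agreeing with `D` on `T`, of degree zero. -/
theorem exists_principal_degZero_eq_on [HasPrincipalDivisors K F] (D : Divisor K F)
    (T : Finset (Place K F)) :
    ∃ E ∈ Divisor.principal (K := K) (F := F), Divisor.degree E = 0 ∧ ∀ v ∈ T, E v = D v := by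
  obtain ⟨z, hz0, hz⟩ := exists_ord_eq T (fun v => D v)
  obtain ⟨E, hE, hdeg⟩ := HasPrincipalDivisors.exists_divisor (K := K) z hz0
  exact ⟨E, ⟨z, hz0, hE⟩, hdeg, fun v hv => by rw [hE v, hz v hv]⟩

/-- **MOVING, divisor form**: `D` is linearly equivalent to a divisor vanishing on `T`. -/
theorem exists_sub_principal_avoiding [HasPrincipalDivisors K F] (D : Divisor K F)
    (T : Finset (Place K F)) :
    ∃ D' : Divisor K F, D - D' ∈ Divisor.principal (K := K) (F := F) ∧
      Divisor.degree D' = Divisor.degree D ∧ ∀ v ∈ T, D' v = 0 := by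
  obtain ⟨E, hE, hdeg, hT⟩ := exists_principal_degZero_eq_on D T
  refine ⟨D - E, by rw [sub_sub_cancel]; exact hE, by rw [map_sub, hdeg, sub_zero],
    fun v hv => ?_⟩
  rw [Finsupp.sub_apply, hT v hv, sub_self]

/-- **MOVING**: every class of `Pic0` has a representative whose support avoids `T`. -/
theorem exists_rep_avoiding [HasPrincipalDivisors K F] (x : Pic0 K F)
    (T : Finset (Place K F)) :
    ∃ D : Divisor.degZero (K := K) (F := F), Pic0.mk D = x ∧ ∀ v ∈ T, D.1 v = 0 := by
  obtain ⟨D₀, rfl⟩ := Pic0.mk_surjective x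
  obtain ⟨D', hprin, hdeg, hT⟩ := exists_sub_principal_avoiding D₀.1 T
  have hD' : D' ∈ Divisor.degZero (K := K) (F := F) := by
    rw [Divisor.mem_degZero, hdeg]
    exact D₀.2
  refine ⟨⟨D', hD'⟩, ?_, hT⟩
  symm
  refine (QuotientAddGroup.eq (s := (Divisor.principal (K := K) (F := F)).addSubgroupOf
    (Divisor.degZero (K := K) (F := F)))).mpr ?_
  rw [AddSubgroup.mem_addSubgroupOf]
  have : ((-D₀ + ⟨D', hD'⟩ : Divisor.degZero (K := K) (F := F)) : Divisor K F) = -(D₀.1 - D') := by
    rw [AddSubgroup.coe_add, AddSubgroup.coe_neg]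
    abel
  rw [this]
  exact (Divisor.principal (K := K) (F := F)).neg_mem hprin

/-- **MOVING**, for a finite set of places given as a `Set`. -/
theorem exists_rep_avoiding_set [HasPrincipalDivisors K F] (x : Pic0 K F)
    {T : Set (Place K F)} (hT : T.Finite) :
    ∃ D : Divisor.degZero (K := K) (F := F), Pic0.mk D = x ∧ ∀ v ∈ T, D.1 v = 0 := by
  obtain ⟨D, hD, h⟩ := exists_rep_avoiding x hT.toFinset
  exact ⟨D, hD, fun v hv => h v (hT.mem_toFinset.mpr hv)⟩

/-- The support of the representative is disjoint from `T`. -/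
theorem exists_rep_disjoint_support [HasPrincipalDivisors K F] (x : Pic0 K F)
    (T : Finset (Place K F)) :
    ∃ D : Divisor.degZero (K := K) (F := F), Pic0.mk D = x ∧ Disjoint D.1.support T := by
  obtain ⟨D, hD, h⟩ := exists_rep_avoiding x T
  refine ⟨D, hD, Finset.disjoint_left.mpr fun v hv hvT => ?_⟩
  exact (Finsupp.mem_support_iff.mp hv) (h v hvT)

end Fermat.Agent.S29.H74
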