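import Mathlib
import Fermat.Agent.S29.H7_CuspExact
import Fermat.Agent.S29.H72_DictDegree

/-!
# S29 / (A5) DICT-CUSPS over `ℂ`, part 3: Kummer divisibility at the cusps (helper7)

If `Ψ` is holomorphic on `ℍ`, `Ψ ^ n = ThetaC a * ThetaC b ^ (n - 1)` (so that `Φ = Ψ / ThetaC b`
is an `n`-th root of `ThetaC (a / b)`) and `Ψ` is invariant under the parabolic elements
`γ⁻¹ T^h γ ∈ Γ₀(N)`, then `n ∣ v.ord (a / b)` at every pole `v` of `j` (= every cusp).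
-/

set_option autoImplicit false
set_option linter.unusedSectionVars false
set_option linter.style.haveILetI false

open UpperHalfPlane AlgebraicCurve IntermediateField ModularGroup
open scoped Manifold MatrixGroups

noncomputable section

namespace Fermat.Agent.S29.H7

open Fermat.Agent.S24 Fermat.Agent.S24.H4 Fermat.Agent.S29.H72

variable (N : ℕ) [NeZero N]

theorem vadd_mul_of_vadd {P : ℍ → ℂ} {k : ℕ} (hP : ∀ τ : ℍ, P ((k : ℝ) +ᵥ τ) = P τ) (d : ℕ)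
    (τ : ℍ) : P (((k * d : ℕ) : ℝ) +ᵥ τ) = P τ := by
  induction d with
  | zero => simp
  | succ d ih =>
    have : (((k * (d + 1) : ℕ) : ℝ) +ᵥ τ) = (k : ℝ) +ᵥ (((k * d : ℕ) : ℝ) +ᵥ τ) := by
      rw [vadd_vadd]
      congr 1
      push_cast
      ring
    rw [this, hP, ih]

theorem le_one_add_pow {x : ℝ} (hx : 0 ≤ x) {n : ℕ} (hn : 0 < n) : x ≤ 1 + x ^ n := by
  rcases le_or_gt x 1 with h | h
  · have := pow_nonneg hx n
    linarith
  · have : x ≤ x ^ n := le_self_pow₀ h.le hn.ne'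
    linarith

theorem thetaConjC_ne_zero {f : FC N} (hf : f ∈ AC N) (hf0 : f ≠ 0) (γ : SL(2, ℤ)) :
    thetaConjC N γ f ≠ 0 := by
  intro h
  apply hf0
  apply ThetaC_eq_zero N hf
  funext τ
  have := congr_fun h (γ • τ)
  rw [thetaConjC_apply, inv_smul_smul] at this
  exact this

/-- growth of an `n`-th root. -/
theorem root_growth {f : FC N} (hf : f ∈ AC N) {g : FC N} (hg : g ∈ AC N) (γ : SL(2, ℤ))
    {n : ℕ} (hn : 0 < n) {P : ℍ → ℂ}
    (hpow : ∀ τ, P τ ^ n = thetaConjC N γ f τ * thetaConjC N γ g τ ^ (n - 1)) :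
    ∃ C B : ℝ, ∀ τ : ℍ, 1 ≤ τ.im → ‖P τ‖ ≤ C * Real.exp (B * τ.im) := by
  obtain ⟨Ca, Ma, hCa, ha⟩ := thetaConjC_growth_aux N hf γ
  obtain ⟨Cb, Mb, hCb, hb⟩ := thetaConjC_growth_aux N hg γ
  refine ⟨1 + Ca * Cb ^ (n - 1), 2 * Real.pi * Ma + (n - 1 : ℕ) * (2 * Real.pi * Mb),
    fun τ hτ => ?_⟩
  have hy : 0 ≤ τ.im := τ.im_pos.le
  have hπ := Real.pi_pos
  have hB : 0 ≤ (2 * Real.pi * Ma + (n - 1 : ℕ) * (2 * Real.pi * Mb)) * τ.im := by positivity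
  have h1 : ‖P τ‖ ^ n ≤ Ca * Cb ^ (n - 1) *
      Real.exp ((2 * Real.pi * Ma + (n - 1 : ℕ) * (2 * Real.pi * Mb)) * τ.im) := by
    rw [← norm_pow, hpow τ, norm_mul, norm_pow]
    have e : Real.exp ((2 * Real.pi * Ma + (n - 1 : ℕ) * (2 * Real.pi * Mb)) * τ.im) =
        Real.exp (2 * Real.pi * Ma * τ.im) * Real.exp (2 * Real.pi * Mb * τ.im) ^ (n - 1) := by
      rw [← Real.exp_nat_mul, ← Real.exp_add]
      congr 1
      ring
    rw [e]
    calc ‖thetaConjC N γ f τ‖ * ‖thetaConjC N γ g τ‖ ^ (n - 1)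
        ≤ (Ca * Real.exp (2 * Real.pi * Ma * τ.im)) *
            (Cb * Real.exp (2 * Real.pi * Mb * τ.im)) ^ (n - 1) := by
          apply mul_le_mul (ha τ hτ) _ (by positivity) (by positivity)
          exact pow_le_pow_left₀ (norm_nonneg _) (hb τ hτ) _
      _ = _ := by rw [mul_pow]; ring
  have h2 := le_one_add_pow (norm_nonneg (P τ)) hn
  have h3 : (1 : ℝ) ≤ Real.exp ((2 * Real.pi * Ma + (n - 1 : ℕ) * (2 * Real.pi * Mb)) * τ.im) :=
    Real.one_le_exp hB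
  generalize Real.exp ((2 * Real.pi * Ma + (n - 1 : ℕ) * (2 * Real.pi * Mb)) * τ.im) = E
    at h1 h3 ⊢
  have hK : 0 ≤ Ca * Cb ^ (n - 1) := by positivity
  nlinarith

/-- **Kummer divisibility at the cusps.**  `Ψ` holomorphic on `ℍ` with
`Ψ ^ n = ThetaC a * ThetaC b ^ (n - 1)` (so `Φ := Ψ / ThetaC b` satisfies
`Φ ^ n = ThetaC a / ThetaC b`), invariant under the parabolic elements `γ⁻¹ T^h γ` of `Γ₀(N)`
(`h` the width of the cusp `γ⁻¹∞`).  Then `n ∣ v.ord (a / b)` at every pole `v` of `j`. -/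
theorem dvd_ord_at_cusp (hdeg : Module.finrank ℂ⟮jC N⟯ (FC N) = Nat.card (H24.XN N))
    {a b : FC N} (ha : a ∈ AC N) (hb : b ∈ AC N) (ha0 : a ≠ 0) (hb0 : b ≠ 0)
    {n : ℕ} (hn : 0 < n) {Ψ : ℍ → ℂ} (hΨ : MDiff Ψ)
    (hpow : ∀ τ, Ψ τ ^ n = ThetaC N a τ * ThetaC N b τ ^ (n - 1))
    (hpar : ∀ γ : SL(2, ℤ), ∀ τ : ℍ, Ψ ((γ⁻¹ * T ^ cuspWidth N γ * γ) • τ) = Ψ τ)
    (v : Place ℂ (FC N)) (hv : v.ord (jC N) < 0) : (n : ℤ) ∣ v.ord (a / b) := by
  obtain ⟨γ, -, hord⟩ := exists_cusp_exact N hdeg v hv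
  have hN : 0 < N := Nat.pos_of_ne_zero (NeZero.ne N)
  have hNR : (0 : ℝ) < N := H95.natCast_pos_of_neZero N
  set P : ℍ → ℂ := fun τ => Ψ (γ⁻¹ • τ) with hP
  have hPmd : MDiff P := hΨ.comp (H17.mdiff_SL_smul γ⁻¹)
  have hPh : ∀ τ : ℍ, P ((cuspWidth N γ : ℝ) +ᵥ τ) = P τ :=
    fun τ => conj_vadd_of_invariant γ (cuspWidth N γ) (hpar γ) τ
  obtain ⟨d, hd⟩ := cuspWidth_dvd N γ
  have hPN : ∀ τ : ℍ, P ((N : ℝ) +ᵥ τ) = P τ := by
    intro τ
    have := vadd_mul_of_vadd hPh d τ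
    rwa [← hd] at this
  have hPpow : ∀ τ, P τ ^ n = thetaConjC N γ a τ * thetaConjC N γ b τ ^ (n - 1) :=
    fun τ => hpow (γ⁻¹ • τ)
  obtain ⟨C, B, hgrow⟩ := root_growth N ha hb γ hn hPpow
  have hPmero : IsMeroPeriodic (N : ℝ) P :=
    H95.isMeroPeriodic_of_growth hNR hPmd hPN (c := 1) hgrow
  have hA := isMeroPeriodic_thetaConjC N ha γ
  have hB := isMeroPeriodic_thetaConjC N hb γ
  have hfun : P ^ n = thetaConjC N γ a * thetaConjC N γ b ^ (n - 1) := by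
    funext τ
    simp only [Pi.pow_apply, Pi.mul_apply]
    exact hPpow τ
  have hexp : qhExpansion (N : ℝ) P ^ n = qhExpansion (N : ℝ) (thetaConjC N γ a) *
      qhExpansion (N : ℝ) (thetaConjC N γ b) ^ (n - 1) := by
    rw [← qhExpansion_pow hNR hPmero, hfun, qhExpansion_mul hNR hA (hB.pow _),
      qhExpansion_pow hNR hB]
  have hA0 : qhExpansion (N : ℝ) (thetaConjC N γ a) ≠ 0 := by
    rw [Ne, qhExpansion_eq_zero_iff hNR hA]
    exact thetaConjC_ne_zero N ha ha0 γ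
  have hB0 : qhExpansion (N : ℝ) (thetaConjC N γ b) ≠ 0 := by
    rw [Ne, qhExpansion_eq_zero_iff hNR hB]
    exact thetaConjC_ne_zero N hb hb0 γ
  have hordeq : (n : ℤ) * ordInfC N P = ordInfC N (thetaConjC N γ a) +
      ((n - 1 : ℕ) : ℤ) * ordInfC N (thetaConjC N γ b) := by
    have := congrArg HahnSeries.order hexp
    rw [HahnSeries.order_pow, HahnSeries.order_mul hA0 (pow_ne_zero _ hB0),
      HahnSeries.order_pow] at this
    simpa [ordInfC, nsmul_eq_mul] using this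
  have hdiv : ((N / cuspWidth N γ : ℕ) : ℤ) ∣ ordInfC N P :=
    H95.natCast_div_dvd_order_of_periodic (cuspWidth_pos N γ) (cuspWidth_dvd N γ) hN hPmero hPh
  obtain ⟨k, hk⟩ := hdiv
  rw [hord a ha ha0, hord b hb hb0, hk] at hordeq
  have hm : (0 : ℤ) < ((N / cuspWidth N γ : ℕ) : ℤ) := by
    exact_mod_cast Nat.div_pos (Nat.le_of_dvd hN (cuspWidth_dvd N γ)) (cuspWidth_pos N γ)
  have h5 : (n : ℤ) * k = v.ord a + ((n - 1 : ℕ) : ℤ) * v.ord b := by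
    apply mul_left_cancel₀ hm.ne'
    linear_combination hordeq
  have hn1 : ((n - 1 : ℕ) : ℤ) = (n : ℤ) - 1 := by
    rw [Nat.cast_sub hn]
    simp
  rw [hn1] at h5
  have hab : v.ord (a / b) = v.ord a - v.ord b := by
    rw [div_eq_mul_inv, v.ord_mul ha0 (inv_ne_zero hb0), v.ord_inv]
    ring
  rw [hab]
  exact ⟨k - v.ord b, by linear_combination (-1 : ℤ) * h5⟩

/-! ### unconditional forms (degree formula = helper72's `H72.finrank_FC_eq_natCard`) -/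

/-- the conjugates `γ⁻¹ T^k γ` have trace `2`. -/
theorem trace_conj_T_pow (γ : SL(2, ℤ)) (k : ℕ) :
    (γ⁻¹ * T ^ k * γ) 0 0 + (γ⁻¹ * T ^ k * γ) 1 1 = 2 := by
  have h1 := H76.trace_conj_eq γ (T ^ k)
  rw [Matrix.trace_fin_two, Matrix.trace_fin_two] at h1
  have h2 : ((T ^ k : SL(2, ℤ)).1) = !![1, (k : ℤ); 0, 1] := by
    rw [← zpow_natCast]
    exact ModularGroup.coe_T_zpow k
  rw [h2] at h1
  simpa using h1

/-- (C3), unconditional. -/
theorem exists_cusp_exact' (v : Place ℂ (FC N)) (hv : v.ord (jC N) < 0) :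
    ∃ γ : SL(2, ℤ), -v.ord (jC N) = cuspWidth N γ ∧
      ∀ f ∈ AC N, f ≠ 0 →
        ordInfC N (thetaConjC N γ f) = ((N / cuspWidth N γ : ℕ) : ℤ) * v.ord f :=
  exists_cusp_exact N (H72.finrank_FC_eq_natCard N) v hv

/-- (C3'), unconditional. -/
theorem exists_place_of_cusp' (γ : SL(2, ℤ)) :
    ∃ v : Place ℂ (FC N), v.ord (jC N) < 0 ∧ -v.ord (jC N) = cuspWidth N γ ∧
      ∀ f ∈ AC N, f ≠ 0 →
        ordInfC N (thetaConjC N γ f) = ((N / cuspWidth N γ : ℕ) : ℤ) * v.ord f :=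
  exists_place_of_cusp N (H72.finrank_FC_eq_natCard N) γ

/-- **Kummer divisibility at the cusps**, unconditional, with the invariance hypothesis on all
trace-`2` elements of `Γ₀(N)` (helper85's shape). -/
theorem dvd_ord_at_cusp_of_trace {a b : FC N} (ha : a ∈ AC N) (hb : b ∈ AC N) (ha0 : a ≠ 0)
    (hb0 : b ≠ 0) {n : ℕ} (hn : 0 < n) {ψ : ℍ → ℂ} (hψ : MDiff ψ)
    (hpow : ∀ τ, ψ τ ^ n = ThetaC N a τ * ThetaC N b τ ^ (n - 1))
    (hinv : ∀ γ ∈ CongruenceSubgroup.Gamma0 N, (γ 0 0 + γ 1 1 = 2) → ∀ τ : ℍ, ψ (γ • τ) = ψ τ)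
    (v : Place ℂ (FC N)) (hv : v.ord (jC N) < 0) : (n : ℤ) ∣ v.ord (a / b) :=
  dvd_ord_at_cusp N (H72.finrank_FC_eq_natCard N) ha hb ha0 hb0 hn hψ hpow
    (fun γ τ => hinv _ (conj_T_pow_cuspWidth_mem N γ) (trace_conj_T_pow γ _) τ) v hv

end Fermat.Agent.S29.H7
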