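import Mathlib

/-!
# Twisted Eisenstein series (S29 / E2a, helper7)

For a bounded coefficient function `c : (Fin 2 → ℤ) → ℂ` we study
`twSum c k z = ∑' v, c v * (v 0 * z + v 1) ^ (-k)`; holomorphy, slash behaviour, boundedness at the
cusps, nonvanishing for large even `k`.  Applied to `c = twistCoeff χ` for a unitary character `χ` of
`Γ₀(N)` that is trivial on `T` and on `-1`, this gives a nonzero holomorphic `G` on `ℍ` with
`G ∣[k] γ = χ γ • G` for all `γ ∈ Γ₀(N)`, bounded at every cusp.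
-/

set_option autoImplicit false

namespace Fermat.Agent.S29.H7

open ModularForm UpperHalfPlane Complex Matrix CongruenceSubgroup Set EisensteinSeries Filter
open scoped MatrixGroups Manifold Topology

noncomputable section

/-! ### The explicit right action of `SL(2,ℤ)` on row vectors -/

/-- explicit right action of `SL(2,ℤ)` on row vectors (`= v ᵥ* γ`). -/
def act (v : Fin 2 → ℤ) (γ : SL(2, ℤ)) : Fin 2 → ℤ :=
  ![v 0 * γ 0 0 + v 1 * γ 1 0, v 0 * γ 0 1 + v 1 * γ 1 1]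

lemma vecMul_eq_act (v : Fin 2 → ℤ) (γ : SL(2, ℤ)) : v ᵥ* γ = act v γ := by
  ext i
  fin_cases i <;> simp [act, vecMul, vec2_dotProduct]

@[simp] lemma act_one (v : Fin 2 → ℤ) : act v 1 = v := by
  ext i
  fin_cases i <;> simp [act]

lemma act_mul (v : Fin 2 → ℤ) (γ δ : SL(2, ℤ)) : act (act v γ) δ = act v (γ * δ) := by
  ext i
  fin_cases i <;> simp [act, Matrix.mul_apply, Fin.sum_univ_two] <;> ring

@[simp] lemma act_act_inv (v : Fin 2 → ℤ) (γ : SL(2, ℤ)) : act (act v γ) γ⁻¹ = v := by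
  rw [act_mul, mul_inv_cancel, act_one]

@[simp] lemma act_inv_act (v : Fin 2 → ℤ) (γ : SL(2, ℤ)) : act (act v γ⁻¹) γ = v := by
  rw [act_mul, inv_mul_cancel, act_one]

/-- right multiplication by `γ ∈ SL(2,ℤ)` as a permutation of `Fin 2 → ℤ`. -/
def actEquiv (γ : SL(2, ℤ)) : (Fin 2 → ℤ) ≃ (Fin 2 → ℤ) where
  toFun v := act v γ
  invFun v := act v γ⁻¹
  left_inv v := act_act_inv v γ
  right_inv v := act_inv_act v γ

@[simp] lemma actEquiv_apply (γ : SL(2, ℤ)) (v : Fin 2 → ℤ) : actEquiv γ v = act v γ := rfl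

/-! ### Twisted sums -/

/-- The twisted Eisenstein sum with coefficient function `c`. -/
def twSum (c : (Fin 2 → ℤ) → ℂ) (k : ℤ) (z : ℍ) : ℂ :=
  ∑' v : Fin 2 → ℤ, c v * eisSummand k v z

/-- A coefficient function is bounded by one. -/
def IsBddCoeff (c : (Fin 2 → ℤ) → ℂ) : Prop := ∀ v, ‖c v‖ ≤ 1

lemma IsBddCoeff.comp_act {c : (Fin 2 → ℤ) → ℂ} (hc : IsBddCoeff c) (γ : SL(2, ℤ)) :
    IsBddCoeff fun v => c (act v γ) := fun _ => hc _

lemma norm_term_le {c : (Fin 2 → ℤ) → ℂ} (hc : IsBddCoeff c) (k : ℤ) (v : Fin 2 → ℤ) (z : ℍ) :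
    ‖c v * eisSummand k v z‖ ≤ ‖eisSummand k v z‖ := by
  rw [norm_mul]
  exact mul_le_of_le_one_left (norm_nonneg _) (hc v)

lemma summable_term {c : (Fin 2 → ℤ) → ℂ} (hc : IsBddCoeff c) {k : ℤ} (hk : 3 ≤ k) (z : ℍ) :
    Summable fun v : Fin 2 → ℤ => c v * eisSummand k v z :=
  Summable.of_norm_bounded (summable_norm_eisSummand hk z) (fun v => norm_term_le hc k v z)

lemma norm_twSum_le {c : (Fin 2 → ℤ) → ℂ} (hc : IsBddCoeff c) {k : ℤ} (hk : 3 ≤ k) (z : ℍ) :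
    ‖twSum c k z‖ ≤ ∑' v : Fin 2 → ℤ, ‖eisSummand k v z‖ := by
  have h1 : Summable fun v : Fin 2 → ℤ => ‖c v * eisSummand k v z‖ :=
    (summable_norm_eisSummand hk z).of_nonneg_of_le (fun _ => norm_nonneg _)
      (fun v => norm_term_le hc k v z)
  exact (norm_tsum_le_tsum_norm h1).trans
    (h1.tsum_le_tsum (fun v => norm_term_le hc k v z) (summable_norm_eisSummand hk z))

/-- General slash formula: slashing by `γ` transports the coefficient function. -/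
lemma twSum_slash (c : (Fin 2 → ℤ) → ℂ) (k : ℤ) (γ : SL(2, ℤ)) :
    twSum c k ∣[k] γ = twSum (fun v => c (act v γ⁻¹)) k := by
  ext1 z
  simp_rw [SL_slash_apply, _root_.zpow_neg,
    mul_inv_eq_iff_eq_mul₀ (zpow_ne_zero _ <| denom_ne_zero _ z), twSum, eisSummand_SL2_apply,
    vecMul_eq_act]
  rw [← tsum_mul_right,
    ← (actEquiv γ).tsum_eq (fun v => c (act v γ⁻¹) * eisSummand k v z * denom γ z ^ k)]
  refine tsum_congr fun v => ?_
  simp only [actEquiv_apply, act_act_inv]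
  ring

/-- Equivariant coefficients give a form transforming by the scalar `a`. -/
lemma twSum_slash_of_equivariant {c : (Fin 2 → ℤ) → ℂ} (k : ℤ) (γ : SL(2, ℤ)) (a : ℂ)
    (h : ∀ v, c (act v γ⁻¹) = a * c v) :
    twSum c k ∣[k] γ = a • twSum c k := by
  rw [twSum_slash]
  ext1 z
  simp only [twSum, Pi.smul_apply, smul_eq_mul, h]
  rw [← tsum_mul_left]
  exact tsum_congr fun v => by ring

/-! ### Holomorphy -/

theorem twSum_tendstoLocallyUniformly {c : (Fin 2 → ℤ) → ℂ} (hc : IsBddCoeff c) {k : ℤ}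
    (hk : 3 ≤ k) :
    TendstoLocallyUniformly (fun (s : Finset (Fin 2 → ℤ)) ↦ (∑ x ∈ s, c x * eisSummand k x ·))
      (twSum c k ·) Filter.atTop := by
  have hk' : (2 : ℝ) < k := by norm_cast
  have p_sum : Summable fun x : Fin 2 → ℤ ↦ ‖x‖ ^ (-k) :=
    mod_cast (summable_one_div_norm_rpow hk')
  simp only [tendstoLocallyUniformly_iff_forall_isCompact, twSum]
  intro K hK
  obtain ⟨A, B, hB, HABK⟩ := subset_verticalStrip_of_isCompact hK
  refine (tendstoUniformlyOn_tsum (hu := p_sum.mul_left <| r ⟨⟨A, B⟩, hB⟩ ^ (-k : ℝ))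
    (fun p z hz ↦ ?_)).mono HABK
  refine (norm_term_le hc k p z).trans ?_
  simpa only [eisSummand, one_div, ← _root_.zpow_neg, norm_zpow, ← Real.rpow_intCast,
    Int.cast_neg] using summand_bound_of_mem_verticalStrip (by positivity) p hB hz

lemma twSum_tendstoLocallyUniformlyOn {c : (Fin 2 → ℤ) → ℂ} (hc : IsBddCoeff c) {k : ℤ}
    (hk : 3 ≤ k) :
    TendstoLocallyUniformlyOn (fun (s : Finset (Fin 2 → ℤ)) ↦
      ↑ₕ(fun (z : ℍ) ↦ ∑ x ∈ s, c x * eisSummand k x z)) (↑ₕ(twSum c k))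
          Filter.atTop {z : ℂ | 0 < z.im} := by
  rw [← upperHalfPlaneSet, ← range_coe, ← image_univ]
  apply TendstoLocallyUniformlyOn.comp (s := ⊤) _ _ _ (OpenPartialHomeomorph.continuousOn_symm _)
  · simp only [Set.top_eq_univ, tendstoLocallyUniformlyOn_univ]
    apply twSum_tendstoLocallyUniformly hc hk
  · simp only [Set.top_eq_univ, mapsTo_univ]

/-- The twisted sums are holomorphic on `ℍ`. -/
theorem twSum_mdifferentiable {c : (Fin 2 → ℤ) → ℂ} (hc : IsBddCoeff c) {k : ℤ} (hk : 3 ≤ k) :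
    MDiff (twSum c k) := by
  intro τ
  suffices DifferentiableAt ℂ (↑ₕ(twSum c k)) τ.1 by
    convert!
      MDifferentiableAt.comp τ (DifferentiableAt.mdifferentiableAt this) τ.mdifferentiable_coe
    exact funext fun z ↦ (comp_ofComplex (twSum c k) z).symm
  refine DifferentiableOn.differentiableAt ?_ (isOpen_upperHalfPlaneSet.mem_nhds τ.2)
  refine (twSum_tendstoLocallyUniformlyOn hc hk).differentiableOn
    (Eventually.of_forall fun s ↦ ?_) isOpen_upperHalfPlaneSet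
  have : (↑ₕ(fun (z : ℍ) ↦ ∑ x ∈ s, c x * eisSummand k x z)) =
      fun w : ℂ => ∑ x ∈ s, c x * (↑ₕ(eisSummand k x)) w := by
    ext w
    simp
  rw [this]
  exact DifferentiableOn.fun_sum fun x _ =>
    (differentiableOn_const _).mul (eisSummand_extension_differentiableOn k x)

/-! ### Boundedness at the cusps -/

lemma act_T_zpow (n : ℤ) (v : Fin 2 → ℤ) : act v (ModularGroup.T ^ n) = ![v 0, v 0 * n + v 1] := by
  simp [act, ModularGroup.coe_T_zpow]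

lemma eisSummand_T_zpow (k n : ℤ) (v : Fin 2 → ℤ) (z : ℍ) :
    eisSummand k v (ModularGroup.T ^ n • z) = eisSummand k (act v (ModularGroup.T ^ n)) z := by
  rw [act_T_zpow]
  simp only [eisSummand, ModularGroup.coe_T_zpow_smul_eq]
  congr 1
  simp
  ring

/-- the sum of the norms of the Eisenstein summands is `1`-periodic. -/
lemma tsum_norm_eisSummand_T_zpow (k n : ℤ) (z : ℍ) :
    ∑' v : Fin 2 → ℤ, ‖eisSummand k v (ModularGroup.T ^ n • z)‖ =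
      ∑' v : Fin 2 → ℤ, ‖eisSummand k v z‖ := by
  simp_rw [eisSummand_T_zpow]
  exact (actEquiv (ModularGroup.T ^ n)).tsum_eq (fun v => ‖eisSummand k v z‖)

/-- twisted sums with bounded coefficients are bounded at `i∞`. -/
theorem isBoundedAtImInfty_twSum {c : (Fin 2 → ℤ) → ℂ} (hc : IsBddCoeff c) {k : ℤ} (hk : 3 ≤ k) :
    IsBoundedAtImInfty (twSum c k) := by
  rw [UpperHalfPlane.isBoundedAtImInfty_iff]
  refine ⟨∑' (x : Fin 2 → ℤ), r ⟨⟨1, 2⟩, Nat.ofNat_pos⟩ ^ (-k) * ‖x‖ ^ (-k), 2, ?_⟩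
  intro z hz
  obtain ⟨n, hn⟩ := ModularGroup_T_zpow_mem_verticalStrip z (N := 1) one_pos
  refine (norm_twSum_le hc hk z).trans ?_
  rw [← tsum_norm_eisSummand_T_zpow k ((1 : ℕ) * n) z]
  have hk' : (2 : ℝ) < k := by norm_cast
  apply (summable_norm_eisSummand hk _).tsum_le_tsum _
  · exact_mod_cast (summable_one_div_norm_rpow hk').mul_left <| r ⟨⟨1, 2⟩, Nat.ofNat_pos⟩ ^ (-k)
  · intro x
    simp_rw [eisSummand, norm_zpow]
    exact_mod_cast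
      summand_bound_of_mem_verticalStrip (lt_trans two_pos hk').le x two_pos
      (verticalStrip_anti_right ((1 : ℕ) : ℝ) hz hn)

/-- twisted sums with bounded coefficients are bounded at every cusp. -/
theorem isBoundedAtImInfty_twSum_slash {c : (Fin 2 → ℤ) → ℂ} (hc : IsBddCoeff c) {k : ℤ}
    (hk : 3 ≤ k) (g : SL(2, ℤ)) : IsBoundedAtImInfty (twSum c k ∣[k] g) := by
  rw [twSum_slash]
  exact isBoundedAtImInfty_twSum (hc.comp_act g⁻¹) hk

/-! ### Nonvanishing for large even weight -/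

/-- the base point `2i`. -/
def z₀ : ℍ := ⟨2 * Complex.I, by simp⟩

lemma two_le_norm_linear {v : Fin 2 → ℤ} (hv : v 0 ≠ 0) : 2 ≤ ‖(v 0 : ℂ) * (z₀ : ℂ) + v 1‖ := by
  have h1 : ((v 0 : ℂ) * (z₀ : ℂ) + v 1) = ⟨(v 1 : ℝ), 2 * (v 0 : ℝ)⟩ := by
    apply Complex.ext
    · simp [z₀]
    · simp [z₀]
      ring
  rw [h1, Complex.norm_def, Complex.normSq_mk]
  have h2 : (1 : ℝ) ≤ (v 0 : ℝ) ^ 2 := by
    have : (1 : ℤ) ≤ (v 0) ^ 2 := by
      have := sq_pos_of_ne_zero hv -- 0 < v0^2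
      omega
    exact_mod_cast this
  have h4 : (2 : ℝ) = Real.sqrt 4 := by
    rw [show (4 : ℝ) = 2 ^ 2 by norm_num]; exact (Real.sqrt_sq (by norm_num)).symm
  calc (2 : ℝ) = Real.sqrt 4 := h4
    _ ≤ _ := Real.sqrt_le_sqrt (by nlinarith [sq_nonneg (v 1 : ℝ)])

lemma norm_eisSummand_le {v : Fin 2 → ℤ} (hv : v 0 ≠ 0) (n : ℕ) :
    ‖eisSummand ((n + 3 : ℕ) : ℤ) v z₀‖ ≤ ((2 : ℝ) ^ n)⁻¹ * ‖eisSummand 3 v z₀‖ := by
  have hw := two_le_norm_linear hv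
  set w : ℝ := ‖(v 0 : ℂ) * (z₀ : ℂ) + v 1‖ with hwdef
  have e1 : ‖eisSummand ((n + 3 : ℕ) : ℤ) v z₀‖ = (w ^ (n + 3))⁻¹ := by
    rw [eisSummand, _root_.zpow_neg, zpow_natCast, norm_inv, norm_pow]
  have e2 : ‖eisSummand 3 v z₀‖ = (w ^ 3)⁻¹ := by
    rw [eisSummand, show (-3 : ℤ) = -((3 : ℕ) : ℤ) by norm_num, _root_.zpow_neg, zpow_natCast,
      norm_inv, norm_pow]
  rw [e1, e2, ← mul_inv, pow_add]
  have hw0 : 0 < w := by linarith
  apply inv_anti₀ (by positivity)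
  exact mul_le_mul_of_nonneg_right (pow_le_pow_left₀ (by norm_num) hw n) (by positivity)

lemma vec01_ne : (![0, 1] : Fin 2 → ℤ) ≠ ![0, -1] := by
  intro h
  have := congrFun h 1
  simp at this

/-- Nonvanishing of the twisted sums for large even weight (at the point `2i`). -/
theorem exists_twSum_ne_zero {c : (Fin 2 → ℤ) → ℂ} (hc : IsBddCoeff c)
    (h1 : c ![0, 1] = 1) (h2 : c ![0, -1] = 1)
    (h0 : ∀ v, v 0 = 0 → v ≠ ![0, 1] → v ≠ ![0, -1] → c v = 0) :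
    ∃ n₀ : ℕ, ∀ n : ℕ, n₀ ≤ n → Even n → twSum c (n : ℤ) z₀ ≠ 0 := by
  set S₃ : ℝ := ∑' v : Fin 2 → ℤ, ‖eisSummand 3 v z₀‖ with hS₃
  have hsum3 : Summable fun v : Fin 2 → ℤ => ‖eisSummand 3 v z₀‖ :=
    summable_norm_eisSummand le_rfl z₀
  obtain ⟨m₀, hm₀⟩ := pow_unbounded_of_one_lt (S₃ / 2) (one_lt_two : (1 : ℝ) < 2)
  refine ⟨m₀ + 3, fun n hn hev => ?_⟩
  obtain ⟨m, rfl⟩ : ∃ m, n = m + 3 := ⟨n - 3, by omega⟩
  have hm : m₀ ≤ m := by omega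
  have hk : (3 : ℤ) ≤ ((m + 3 : ℕ) : ℤ) := by push_cast; omega
  set f : (Fin 2 → ℤ) → ℂ := fun v => c v * eisSummand ((m + 3 : ℕ) : ℤ) v z₀ with hf
  have hfs : Summable f := summable_term hc hk z₀
  set s : Finset (Fin 2 → ℤ) := {![0, 1], ![0, -1]} with hs
  have hsplit := hfs.sum_add_tsum_compl (s := s)
  have hsum_s : ∑ x ∈ s, f x = 2 := by
    rw [hs, Finset.sum_pair vec01_ne]
    have e1 : f ![0, 1] = 1 := by simp [hf, h1, eisSummand]
    have e2 : f ![0, -1] = 1 := by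
      simp only [hf, h2, eisSummand, one_mul]
      simp only [Matrix.cons_val_zero, Matrix.cons_val_one, Int.cast_zero, zero_mul, zero_add,
        Int.cast_neg, Int.cast_one]
      rw [_root_.zpow_neg, zpow_natCast, hev.neg_one_pow, inv_one]
    rw [e1, e2]; norm_num
  have hbound : ∀ x : ↥((↑s : Set (Fin 2 → ℤ))ᶜ), ‖f x‖ ≤ ((2 : ℝ) ^ m)⁻¹ * ‖eisSummand 3 x z₀‖ := by
    rintro ⟨x, hx⟩
    have hx1 : x ≠ ![0, 1] := fun h => hx (by simp [hs, h])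
    have hx2 : x ≠ ![0, -1] := fun h => hx (by simp [hs, h])
    by_cases hx0 : x 0 = 0
    · simp only [hf, h0 x hx0 hx1 hx2, zero_mul, norm_zero]
      positivity
    · exact (norm_term_le hc _ x z₀).trans (norm_eisSummand_le hx0 m)
  have hsub3 : Summable fun x : ↥((↑s : Set (Fin 2 → ℤ))ᶜ) => ((2 : ℝ) ^ m)⁻¹ * ‖eisSummand 3 x z₀‖ :=
    (hsum3.subtype _).mul_left _
  have hR : ‖∑' x : ↥((↑s : Set (Fin 2 → ℤ))ᶜ), f x‖ ≤ ((2 : ℝ) ^ m)⁻¹ * S₃ := by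
    have hn : Summable fun x : ↥((↑s : Set (Fin 2 → ℤ))ᶜ) => ‖f x‖ :=
      hsub3.of_nonneg_of_le (fun _ => norm_nonneg _) hbound
    calc ‖∑' x : ↥((↑s : Set (Fin 2 → ℤ))ᶜ), f x‖ ≤ ∑' x : ↥((↑s : Set (Fin 2 → ℤ))ᶜ), ‖f x‖ :=
          norm_tsum_le_tsum_norm hn
      _ ≤ ∑' x : ↥((↑s : Set (Fin 2 → ℤ))ᶜ), ((2 : ℝ) ^ m)⁻¹ * ‖eisSummand 3 x z₀‖ :=
          hn.tsum_le_tsum hbound hsub3
      _ = ((2 : ℝ) ^ m)⁻¹ * ∑' x : ↥((↑s : Set (Fin 2 → ℤ))ᶜ), ‖eisSummand 3 x z₀‖ := tsum_mul_left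
      _ ≤ ((2 : ℝ) ^ m)⁻¹ * S₃ := by
          apply mul_le_mul_of_nonneg_left _ (by positivity)
          exact Summable.tsum_subtype_le _ _ (fun _ => norm_nonneg _) hsum3
  have hlt : ((2 : ℝ) ^ m)⁻¹ * S₃ < 2 := by
    have h2m : (2 : ℝ) ^ m₀ ≤ 2 ^ m := pow_le_pow_right₀ (by norm_num) hm
    have hpos : (0 : ℝ) < 2 ^ m := by positivity
    rw [inv_mul_lt_iff₀ hpos]
    linarith
  intro hzero
  have htw : twSum c ((m + 3 : ℕ) : ℤ) z₀ = ∑' v, f v := rfl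
  rw [htw, ← hsplit, hsum_s] at hzero
  have : ‖∑' x : ↥((↑s : Set (Fin 2 → ℤ))ᶜ), f x‖ = 2 := by
    rw [show (∑' x : ↥((↑s : Set (Fin 2 → ℤ))ᶜ), f x) = -2 by linear_combination hzero]
    simp
  linarith

/-! ### Characters of `Γ₀(N)` -/

lemma det_eq_one' (γ : SL(2, ℤ)) : γ 0 0 * γ 1 1 - γ 0 1 * γ 1 0 = 1 := by
  have := γ.det_coe
  rwa [Matrix.det_fin_two] at this

/-- two elements of `SL(2,ℤ)` with the same bottom row differ by a power of `T` on the left. -/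
lemma eq_T_zpow_mul_of_bottomRow_eq (γ γ' : SL(2, ℤ)) (h0 : γ' 1 0 = γ 1 0)
    (h1 : γ' 1 1 = γ 1 1) :
    γ' = ModularGroup.T ^ (γ' 0 1 * γ 0 0 - γ' 0 0 * γ 0 1) * γ := by
  have hd := det_eq_one' γ
  have hd' := det_eq_one' γ'
  rw [h0, h1] at hd'
  ext i j
  rw [Matrix.SpecialLinearGroup.coe_mul, ModularGroup.coe_T_zpow, Matrix.mul_apply,
    Fin.sum_univ_two]
  fin_cases i <;> fin_cases j <;> simp
  · linear_combination (γ 0 0) * hd' - (γ' 0 0) * hd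
  · linear_combination (γ 0 1) * hd' - (γ' 0 1) * hd
  · exact h0
  · exact h1

variable {N : ℕ}

lemma T_mem_Gamma0 (N : ℕ) : ModularGroup.T ∈ Gamma0 N := by
  rw [Gamma0_mem]
  simp [ModularGroup.T]

lemma neg_one_mem_Gamma0 (N : ℕ) : (-1 : SL(2, ℤ)) ∈ Gamma0 N := by
  rw [Gamma0_mem]
  simp

/-- `T` as an element of `Γ₀(N)`. -/
def TG (N : ℕ) : Gamma0 N := ⟨ModularGroup.T, T_mem_Gamma0 N⟩

/-- `-1` as an element of `Γ₀(N)`. -/
def negOneG (N : ℕ) : Gamma0 N := ⟨-1, neg_one_mem_Gamma0 N⟩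

/-- Admissible characters of `Γ₀(N)`: unitary, trivial on `T` and on `-1`. -/
structure IsAdmissible (χ : Gamma0 N →* ℂˣ) : Prop where
  norm_one : ∀ γ, ‖((χ γ : ℂˣ) : ℂ)‖ = 1
  T_eq : χ (TG N) = 1
  neg_eq : χ (negOneG N) = 1

/-- `v` is the bottom row of `γ`. -/
def IsBottomRow (v : Fin 2 → ℤ) (γ : Gamma0 N) : Prop :=
  (γ : SL(2, ℤ)) 1 0 = v 0 ∧ (γ : SL(2, ℤ)) 1 1 = v 1

lemma IsAdmissible.eq_of_bottomRow {χ : Gamma0 N →* ℂˣ} (hχ : IsAdmissible χ) {v : Fin 2 → ℤ}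
    {γ γ' : Gamma0 N} (h : IsBottomRow v γ) (h' : IsBottomRow v γ') : χ γ' = χ γ := by
  have h0 : (γ' : SL(2, ℤ)) 1 0 = (γ : SL(2, ℤ)) 1 0 := h'.1.trans h.1.symm
  have h1 : (γ' : SL(2, ℤ)) 1 1 = (γ : SL(2, ℤ)) 1 1 := h'.2.trans h.2.symm
  have key := eq_T_zpow_mul_of_bottomRow_eq (γ : SL(2, ℤ)) (γ' : SL(2, ℤ)) h0 h1
  set n : ℤ := (γ' : SL(2, ℤ)) 0 1 * (γ : SL(2, ℤ)) 0 0 - (γ' : SL(2, ℤ)) 0 0 * (γ : SL(2, ℤ)) 0 1
  have : γ' = (TG N) ^ n * γ := by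
    apply Subtype.ext
    rw [Subgroup.coe_mul, Subgroup.coe_zpow]
    exact key
  rw [this, map_mul, map_zpow, hχ.T_eq, _root_.one_zpow, one_mul]

open Classical in
/-- The coefficient function attached to a character of `Γ₀(N)`: `χ(γ)⁻¹` on the bottom row of
`γ ∈ Γ₀(N)`, zero on vectors which are not bottom rows. -/
def twistCoeff (χ : Gamma0 N →* ℂˣ) (v : Fin 2 → ℤ) : ℂ :=
  if h : ∃ γ : Gamma0 N, IsBottomRow v γ then (((χ h.choose)⁻¹ : ℂˣ) : ℂ) else 0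

lemma twistCoeff_of_bottomRow {χ : Gamma0 N →* ℂˣ} (hχ : IsAdmissible χ) {v : Fin 2 → ℤ}
    {γ : Gamma0 N} (h : IsBottomRow v γ) : twistCoeff χ v = (((χ γ)⁻¹ : ℂˣ) : ℂ) := by
  have hex : ∃ γ : Gamma0 N, IsBottomRow v γ := ⟨γ, h⟩
  rw [twistCoeff, dif_pos hex, hχ.eq_of_bottomRow h hex.choose_spec]

lemma twistCoeff_of_not {χ : Gamma0 N →* ℂˣ} {v : Fin 2 → ℤ}
    (h : ¬ ∃ γ : Gamma0 N, IsBottomRow v γ) : twistCoeff χ v = 0 := by
  rw [twistCoeff, dif_neg h]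

lemma isBottomRow_act {v : Fin 2 → ℤ} {δ : Gamma0 N} (h : IsBottomRow v δ) (γ : Gamma0 N) :
    IsBottomRow (act v (γ : SL(2, ℤ))) (δ * γ) := by
  obtain ⟨h0, h1⟩ := h
  constructor
  · rw [Subgroup.coe_mul, Matrix.SpecialLinearGroup.coe_mul, Matrix.mul_apply, Fin.sum_univ_two,
      h0, h1]
    simp [act]
  · rw [Subgroup.coe_mul, Matrix.SpecialLinearGroup.coe_mul, Matrix.mul_apply, Fin.sum_univ_two,
      h0, h1]
    simp [act]

lemma twistCoeff_act {χ : Gamma0 N →* ℂˣ} (hχ : IsAdmissible χ) (γ : Gamma0 N)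
    (v : Fin 2 → ℤ) :
    twistCoeff χ (act v (γ : SL(2, ℤ))) = (((χ γ)⁻¹ : ℂˣ) : ℂ) * twistCoeff χ v := by
  by_cases h : ∃ δ : Gamma0 N, IsBottomRow v δ
  · obtain ⟨δ, hδ⟩ := h
    rw [twistCoeff_of_bottomRow hχ (isBottomRow_act hδ γ), twistCoeff_of_bottomRow hχ hδ,
      map_mul, mul_inv, Units.val_mul, mul_comm]
  · rw [twistCoeff_of_not h, mul_zero]
    apply twistCoeff_of_not
    rintro ⟨δ', hδ'⟩
    apply h
    refine ⟨δ' * γ⁻¹, ?_⟩
    have := isBottomRow_act hδ' γ⁻¹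
    rwa [Subgroup.coe_inv, act_act_inv] at this

lemma isBddCoeff_twistCoeff {χ : Gamma0 N →* ℂˣ} (hχ : IsAdmissible χ) :
    IsBddCoeff (twistCoeff χ) := by
  intro v
  by_cases h : ∃ δ : Gamma0 N, IsBottomRow v δ
  · obtain ⟨δ, hδ⟩ := h
    rw [twistCoeff_of_bottomRow hχ hδ, ← map_inv]
    exact (hχ.norm_one _).le
  · rw [twistCoeff_of_not h, norm_zero]
    exact zero_le_one

/-- the key equivariance of the twisted coefficients -/
lemma twistCoeff_act_inv {χ : Gamma0 N →* ℂˣ} (hχ : IsAdmissible χ) (γ : Gamma0 N)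
    (v : Fin 2 → ℤ) :
    twistCoeff χ (act v (γ : SL(2, ℤ))⁻¹) = ((χ γ : ℂˣ) : ℂ) * twistCoeff χ v := by
  have := twistCoeff_act hχ γ⁻¹ v
  rwa [Subgroup.coe_inv, map_inv, inv_inv] at this

lemma twistCoeff_zero_one {χ : Gamma0 N →* ℂˣ} (hχ : IsAdmissible χ) :
    twistCoeff χ ![0, 1] = 1 := by
  have h : IsBottomRow (N := N) ![0, 1] 1 := by
    constructor <;> simp
  rw [twistCoeff_of_bottomRow hχ h, map_one, inv_one, Units.val_one]

lemma twistCoeff_zero_neg_one {χ : Gamma0 N →* ℂˣ} (hχ : IsAdmissible χ) :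
    twistCoeff χ ![0, -1] = 1 := by
  have h : IsBottomRow (N := N) ![0, -1] (negOneG N) := by
    constructor <;> simp [negOneG]
  rw [twistCoeff_of_bottomRow hχ h, hχ.neg_eq, inv_one, Units.val_one]

lemma twistCoeff_eq_zero_of_fst_eq_zero {χ : Gamma0 N →* ℂˣ} {v : Fin 2 → ℤ} (hv : v 0 = 0)
    (h1 : v ≠ ![0, 1]) (h2 : v ≠ ![0, -1]) : twistCoeff χ v = 0 := by
  apply twistCoeff_of_not
  rintro ⟨γ, h0, h1'⟩
  have hd := det_eq_one' (γ : SL(2, ℤ))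
  rw [h0, h1', hv, mul_zero, sub_zero] at hd
  rcases Int.eq_one_or_neg_one_of_mul_eq_one' hd with ⟨-, h⟩ | ⟨-, h⟩
  · apply h1
    ext i
    fin_cases i
    · simpa using hv
    · simpa using h
  · apply h2
    ext i
    fin_cases i
    · simpa using hv
    · simpa using h

/-- The twisted Eisenstein series of weight `k` attached to a character `χ` of `Γ₀(N)`. -/
def twistedEis (χ : Gamma0 N →* ℂˣ) (k : ℤ) : ℍ → ℂ := twSum (twistCoeff χ) k

theorem twistedEis_mdifferentiable {χ : Gamma0 N →* ℂˣ} (hχ : IsAdmissible χ) {k : ℤ}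
    (hk : 3 ≤ k) : MDiff (twistedEis χ k) :=
  twSum_mdifferentiable (isBddCoeff_twistCoeff hχ) hk

theorem twistedEis_slash {χ : Gamma0 N →* ℂˣ} (hχ : IsAdmissible χ) (k : ℤ) (γ : Gamma0 N) :
    twistedEis χ k ∣[k] (γ : SL(2, ℤ)) = ((χ γ : ℂˣ) : ℂ) • twistedEis χ k :=
  twSum_slash_of_equivariant k (γ : SL(2, ℤ)) _ (twistCoeff_act_inv hχ γ)

theorem twistedEis_isBoundedAtImInfty_slash {χ : Gamma0 N →* ℂˣ} (hχ : IsAdmissible χ) {k : ℤ}
    (hk : 3 ≤ k) (g : SL(2, ℤ)) : IsBoundedAtImInfty (twistedEis χ k ∣[k] g) :=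
  isBoundedAtImInfty_twSum_slash (isBddCoeff_twistCoeff hχ) hk g

theorem exists_twistedEis_ne_zero {χ : Gamma0 N →* ℂˣ} (hχ : IsAdmissible χ) :
    ∃ n₀ : ℕ, ∀ n : ℕ, n₀ ≤ n → Even n → twistedEis χ (n : ℤ) z₀ ≠ 0 :=
  exists_twSum_ne_zero (isBddCoeff_twistCoeff hχ) (twistCoeff_zero_one hχ)
    (twistCoeff_zero_neg_one hχ) (fun _ hv h1 h2 => twistCoeff_eq_zero_of_fst_eq_zero hv h1 h2)

end

end Fermat.Agent.S29.H7
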