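/-
Stage 3 (project S29) : the `hCorr` input of `H80.lam_hecke` for the prelude Hecke operator.
Owner: helper80.

For `T = heckeOperatorAlong L N ℓ` (any field `L ⊇ ℚ`) and `normF = H47.heckeNorm L N ℓ`
(`f ↦ Nm_α (β f)`): if `p • D = div f` then `T [D] = [D']` with `p • D' = div (normF f)`.
-/
import Mathlib
import Fermat.Prelude.Def_ModularCurve_HeckeModule
import Fermat.Agent.S29.H47_HeckeComm

set_option autoImplicit false

noncomputable section

namespace Fermat.Agent.S29.H80

open ModularCurve AlgebraicCurve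

variable {L : Type*} [Field L] [Algebra ℚ L] {N ℓ : ℕ} [NeZero N] [NeZero ℓ]

/-- **CORR-DIV for the prelude Hecke operator**, in the shape consumed by `lam_hecke`. -/
theorem heckeOperatorAlong_mk_of_smul_eq_div (h : HeckeInputsAlong L N ℓ) (p : ℕ)
    (D : Divisor L (laurentBaseChange L (modularFunctionFieldFull N)))
    (hD : Divisor.degree D = 0) (f : laurentBaseChange L (modularFunctionFieldFull N))
    (hf : f ≠ 0) (hDf : ∀ v : Place L (laurentBaseChange L (modularFunctionFieldFull N)),
      (p : ℤ) * D v = v.ord f) :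
    ∃ (D' : Divisor L (laurentBaseChange L (modularFunctionFieldFull N)))
      (hD' : Divisor.degree D' = 0),
      (∀ v : Place L (laurentBaseChange L (modularFunctionFieldFull N)),
        (p : ℤ) * D' v = v.ord (H47.heckeNorm L N ℓ f)) ∧
      heckeOperatorAlong L N ℓ (Pic0.mk ⟨D, Divisor.mem_degZero.mpr hD⟩) =
        Pic0.mk ⟨D', Divisor.mem_degZero.mpr hD'⟩ := by
  obtain ⟨hα, hβ, hP, hfin, hFI, hN⟩ := h
  haveI := hP
  have hmem := Divisor.correspondence_mem_degZero (heckeBetaBar L N ℓ) (heckeAlphaBar L N ℓ)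
    hβ hα hFI (Divisor.mem_degZero.mpr hD)
  refine ⟨Divisor.correspondence (heckeBetaBar L N ℓ) (heckeAlphaBar L N ℓ) hβ hα D,
    Divisor.mem_degZero.mp hmem, ?_, ?_⟩
  · intro v
    have h1 : ∀ w, ((p : ℤ) • D) w = w.ord f := fun w => by
      rw [Finsupp.smul_apply, smul_eq_mul, hDf w]
    have h2 := H47.correspondence_principal (heckeBetaBar L N ℓ) (heckeAlphaBar L N ℓ) hβ hα
      hfin hN hf h1 v
    rw [map_zsmul, Finsupp.smul_apply, smul_eq_mul] at h2
    exact h2
  · rw [heckeOperatorAlong_eq hα hβ hFI hfin hN]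
    rfl

end Fermat.Agent.S29.H80
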