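/-
Stage 3 (project S29) : HECKE-EQUIV, abstract assembly.  Owner: helper80.

On top of helper88's abstract Kummer map `KummerSetup.lam` we prove: if an endomorphism `T` of
`Pic⁰` is induced, on classes `[D]` with `p • D = div f`, by an operation `f ↦ normF f` on
functions (CORR-DIV: `T [D] = [D']`, `p • D' = div (normF f)`), and `normF` is realised on
admissible automorphic units by `Φ ↦ normM Φ` with character `χ ↦ picOp χ` (NORM-AN + the coset
calculus of helper65), then `T (lam χ) = lam (picOp χ)`.  Mathlib + Prelude + H88 only.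
-/
import Mathlib
import Fermat.Prelude.Def_AlgebraicCurve_DivisorClassGroup
import Fermat.Agent.S29.H88_KummerGlue

set_option autoImplicit false
set_option linter.unusedSectionVars false

noncomputable section

namespace Fermat.Agent.S29.H80

open AlgebraicCurve Fermat.Agent.S29.H88

variable {K F M Γ : Type*} [Field K] [Field F] [Algebra K F] [CommRing M] [IsDomain M]
  [Algebra K M] [Group Γ]

/-- **Abstract Hecke equivariance of the Kummer map.** -/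
theorem lam_hecke {p : ℕ} {Θ : F →ₐ[K] M} {act : Γ → M →ₐ[K] M} {Adm : Subgroup Mˣ}
    {X : Subgroup (Γ →* Kˣ)} (hS : KummerSetup p Θ act Adm X) (hp : 0 < p)
    (T : Pic0 K F →+ Pic0 K F) (normF : F → F) (normM : Mˣ → Mˣ)
    (picOp : (Γ →* Kˣ) → (Γ →* Kˣ))
    (hX : ∀ χ ∈ X, picOp χ ∈ X)
    (hAdm : ∀ Φ ∈ Adm, normM Φ ∈ Adm)
    (hAut : ∀ χ ∈ X, ∀ Φ ∈ Adm, IsAut act χ (Φ : M) → IsAut act (picOp χ) (normM Φ : M))
    (hNorm : ∀ Φ ∈ Adm, ∀ f : F, Θ f = (Φ : M) ^ p → Θ (normF f) = (normM Φ : M) ^ p)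
    (hCorr : ∀ (D : Divisor K F) (hD : Divisor.degree D = 0) (f : F), f ≠ 0 →
      (∀ v : Place K F, (p : ℤ) * D v = v.ord f) →
      ∃ (D' : Divisor K F) (hD' : Divisor.degree D' = 0),
        (∀ v : Place K F, (p : ℤ) * D' v = v.ord (normF f)) ∧
        T (Pic0.mk ⟨D, Divisor.mem_degZero.mpr hD⟩) = Pic0.mk ⟨D', Divisor.mem_degZero.mpr hD'⟩)
    {χ : Γ →* Kˣ} (hχ : χ ∈ X) :
    T (hS.lam hp (Additive.ofMul ⟨χ, hχ⟩)) = hS.lam hp (Additive.ofMul ⟨picOp χ, hX χ hχ⟩) := by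
  obtain ⟨Φ, hΦ, haut, f, hf, D, hD, hDv, hc⟩ := hS.rel_lam hp (Additive.ofMul ⟨χ, hχ⟩)
  have hf0 : f ≠ 0 := ne_zero_of_theta_eq_unit Θ (Φ.isUnit.pow p) hf
  obtain ⟨D', hD', hDv', hT⟩ := hCorr D hD f hf0 hDv
  rw [hc, hT]
  exact (hS.lam_eq_mk hp (hX χ hχ) (hAdm Φ hΦ) (hAut χ hχ Φ hΦ haut) (hNorm Φ hΦ f hf) hD'
    hDv').symm

/-- Consumer form: a lattice `L` mapped to the good characters by `e`, with an operator `tL` on
`L` matching `picOp`; then `lamL := lam ∘ e` intertwines `tL` and `T`. -/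
theorem lamL_hecke {p : ℕ} {Θ : F →ₐ[K] M} {act : Γ → M →ₐ[K] M} {Adm : Subgroup Mˣ}
    {X : Subgroup (Γ →* Kˣ)} (hS : KummerSetup p Θ act Adm X) (hp : 0 < p)
    (T : Pic0 K F →+ Pic0 K F) (normF : F → F) (normM : Mˣ → Mˣ)
    (picOp : (Γ →* Kˣ) → (Γ →* Kˣ))
    (hX : ∀ χ ∈ X, picOp χ ∈ X)
    (hAdm : ∀ Φ ∈ Adm, normM Φ ∈ Adm)
    (hAut : ∀ χ ∈ X, ∀ Φ ∈ Adm, IsAut act χ (Φ : M) → IsAut act (picOp χ) (normM Φ : M))
    (hNorm : ∀ Φ ∈ Adm, ∀ f : F, Θ f = (Φ : M) ^ p → Θ (normF f) = (normM Φ : M) ^ p)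
    (hCorr : ∀ (D : Divisor K F) (hD : Divisor.degree D = 0) (f : F), f ≠ 0 →
      (∀ v : Place K F, (p : ℤ) * D v = v.ord f) →
      ∃ (D' : Divisor K F) (hD' : Divisor.degree D' = 0),
        (∀ v : Place K F, (p : ℤ) * D' v = v.ord (normF f)) ∧
        T (Pic0.mk ⟨D, Divisor.mem_degZero.mpr hD⟩) = Pic0.mk ⟨D', Divisor.mem_degZero.mpr hD'⟩)
    {L : Type*} [AddCommGroup L] (e : L →+ Additive X) (tL : L → L)
    (he : ∀ x : L, ((Additive.toMul (e (tL x)) : X) : Γ →* Kˣ) =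
      picOp ((Additive.toMul (e x) : X) : Γ →* Kˣ)) (x : L) :
    hS.lam hp (e (tL x)) = T (hS.lam hp (e x)) := by
  have h1 := lam_hecke hS hp T normF normM picOp hX hAdm hAut hNorm hCorr
    (χ := ((Additive.toMul (e x) : X) : Γ →* Kˣ)) (Additive.toMul (e x) : X).2
  have h2 : (Additive.ofMul ⟨((Additive.toMul (e x) : X) : Γ →* Kˣ),
      (Additive.toMul (e x) : X).2⟩ : Additive X) = e x := rfl
  rw [h2] at h1
  rw [h1]
  congr 1
  apply Additive.toMul.injective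
  apply Subtype.ext
  exact he x

end Fermat.Agent.S29.H80
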