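/-
Stage 3 (project S29) : generic lemma for NORM-AN.  Owner: helper80.  Mathlib only.

`E/F` finite separable, `Ω` any field, `θ : F →+* Ω`, and a family `s i : E →+* Ω` of
`card = [E:F]` pairwise distinct ring homomorphisms extending `θ`.  Then
`θ (N_{E/F} g) = ∏ i, s i g`.
-/
import Mathlib

set_option autoImplicit false

noncomputable section

namespace Fermat.Agent.S29.H80

open scoped BigOperators

theorem map_norm_eq_prod_of_embeddings {F E Ω : Type*} [Field F] [Field E] [Field Ω]
    [Algebra F E] [FiniteDimensional F E] [Algebra.IsSeparable F E]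
    (θ : F →+* Ω) {I : Type*} [Fintype I] (s : I → (E →+* Ω))
    (hs : ∀ (i : I) (x : F), s i (algebraMap F E x) = θ x)
    (hinj : Function.Injective s)
    (hcard : Fintype.card I = Module.finrank F E) (g : E) :
    θ (Algebra.norm F g) = ∏ i, s i g := by
  classical
  let Ωb := AlgebraicClosure Ω
  letI : Algebra F Ωb := ((algebraMap Ω Ωb).comp θ).toAlgebra
  have hmap : ∀ x : F, algebraMap F Ωb x = algebraMap Ω Ωb (θ x) := fun _ => rfl
  -- the family as `F`-algebra homomorphisms into the algebraic closure
  let σ : I → (E →ₐ[F] Ωb) := fun i =>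
    { toRingHom := (algebraMap Ω Ωb).comp (s i)
      commutes' := fun x => by
        show algebraMap Ω Ωb (s i (algebraMap F E x)) = algebraMap F Ωb x
        rw [hs i x, hmap] }
  have hσapply : ∀ i (y : E), σ i y = algebraMap Ω Ωb (s i y) := fun _ _ => rfl
  have hσinj : Function.Injective σ := by
    intro i j hij
    apply hinj
    ext y
    have := congrArg (fun f : E →ₐ[F] Ωb => f y) hij
    simp only [hσapply] at this
    exact (algebraMap Ω Ωb).injective this
  have hcard' : Fintype.card I = Fintype.card (E →ₐ[F] Ωb) := by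
    rw [hcard, AlgHom.card F E Ωb]
  have hσbij : Function.Bijective σ :=
    (Fintype.bijective_iff_injective_and_card σ).mpr ⟨hσinj, hcard'⟩
  have h1 := Algebra.norm_eq_prod_embeddings F Ωb g
  have h2 : ∏ τ : E →ₐ[F] Ωb, τ g = ∏ i, σ i g :=
    (Fintype.prod_bijective σ hσbij (fun i => σ i g) (fun τ => τ g) (fun _ => rfl)).symm
  rw [h2, hmap] at h1
  simp only [hσapply] at h1
  rw [← map_prod] at h1
  exact (algebraMap Ω Ωb).injective h1

end Fermat.Agent.S29.H80
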