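import Mathlib
import Fermat.Prelude.Def_AlgebraicCurve_DivisorClassGroup
import Fermat.Agent.S29.H25_MerAction

set_option autoImplicit false

/-!
# S29 / (A7) DIVISOR-COROLLARY (D5)  (helper83)

The glue that turns the local dictionaries (A4) "places = points of `ℍ`", (A5) "places = cusps",
(B4) "local orders of automorphic functions are divisible by the order of the stabiliser" into the
field `div` of helper88's `KummerSetup`:

  `Φ ^ n = Θ f`  and all local conditions  ⟹  `∃ D, degree D = 0 ∧ ∀ v, n * D v = v.ord f`.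

* `exists_divisor_of_forall_dvd` : generic `K`, `F` with `[HasPrincipalDivisors K F]`: a nonzero
  function all of whose orders are divisible by `n ≠ 0` has divisor `n • D` with `degree D = 0`.
* `dvd_ord_of_local` : the abstract local computation (`ordx` any additive-on-powers order
  function on the big ring `M`, `e` the multiplicity of the dictionary).
* `merOrd_pow`, `dvd_ord_of_point` : the same in the `Mer`/`merOrd` vocabulary of S24.H81 for
  `thetaC N : FC N →+* Mer` (helper25).
* `exists_divisor_of_kummer` : the assembled statement, hypotheses named after (A4)+(B4) and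
  (A5)+(LOCAL-par).
-/

noncomputable section

namespace Fermat.Agent.S29.H83

open AlgebraicCurve

section Generic

variable {K F : Type*} [Field K] [Field F] [Algebra K F]

/-- A nonzero function all of whose orders are divisible by `n ≠ 0` has divisor `n • D` with
`D` of degree zero. -/
theorem exists_divisor_of_forall_dvd [HasPrincipalDivisors K F] {f : F} (hf : f ≠ 0) {n : ℕ}
    (hn : n ≠ 0) (h : ∀ v : Place K F, (n : ℤ) ∣ v.ord f) :
    ∃ D : Divisor K F, Divisor.degree D = 0 ∧ ∀ v : Place K F, (n : ℤ) * D v = v.ord f := by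
  obtain ⟨E, hE, hdeg⟩ := HasPrincipalDivisors.exists_divisor (K := K) f hf
  let D : Divisor K F := E.mapRange (fun z => z / (n : ℤ)) (by simp)
  have hD : ∀ v : Place K F, (n : ℤ) * D v = v.ord f := by
    intro v
    show (n : ℤ) * (E.mapRange (fun z => z / (n : ℤ)) (by simp)) v = v.ord f
    rw [Finsupp.mapRange_apply, hE v]
    exact Int.mul_ediv_cancel' (h v)
  have hnD : (n : ℤ) • D = E := by
    ext v
    rw [Finsupp.smul_apply, smul_eq_mul, hD v, hE v]
  refine ⟨D, ?_, hD⟩
  have h1 : (n : ℤ) • Divisor.degree D = 0 := by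
    rw [← map_zsmul, hnD, hdeg]
  rw [smul_eq_mul] at h1
  rcases mul_eq_zero.mp h1 with h2 | h2
  · exact absurd (by exact_mod_cast h2) hn
  · exact h2

/-- The abstract local computation.  `ordx` is "the order at a point `x` of the big ring `M`",
`e ≠ 0` the multiplicity with which the point `x` realises the place `v`. -/
theorem dvd_ord_of_local {M : Type*} [Monoid M] {v : Place K F} {f : F} {n : ℕ} (ordx : M → ℤ)
    {e : ℤ} (he : e ≠ 0) {θf Φ : M} (hdict : ordx θf = e * v.ord f)
    (hpow : ordx (Φ ^ n) = n * ordx Φ) (hloc : e ∣ ordx Φ) (hΦ : Φ ^ n = θf) :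
    (n : ℤ) ∣ v.ord f := by
  obtain ⟨m, hm⟩ := hloc
  refine ⟨m, ?_⟩
  have h1 : e * v.ord f = e * ((n : ℤ) * m) := by
    rw [← hdict, ← hΦ, hpow, hm]; ring
  exact mul_left_cancel₀ he h1

/-- The assembled abstract statement: if every place of `F` is realised by some "point" of `M`
with an order function satisfying the local divisibility, then `div f = n • D`. -/
theorem exists_divisor_of_local [HasPrincipalDivisors K F] {M : Type*} [Monoid M] {f : F}
    (hf : f ≠ 0) {n : ℕ} (hn : n ≠ 0) {θf Φ : M} (hΦ : Φ ^ n = θf)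
    (hloc : ∀ v : Place K F, ∃ (ordx : M → ℤ) (e : ℤ), e ≠ 0 ∧ ordx θf = e * v.ord f ∧
      ordx (Φ ^ n) = n * ordx Φ ∧ e ∣ ordx Φ) :
    ∃ D : Divisor K F, Divisor.degree D = 0 ∧ ∀ v : Place K F, (n : ℤ) * D v = v.ord f := by
  refine exists_divisor_of_forall_dvd hf hn fun v => ?_
  obtain ⟨ordx, e, he, hdict, hpow, hdvd⟩ := hloc v
  exact dvd_ord_of_local ordx he hdict hpow hdvd hΦ

end Generic

section MerVocabulary

open UpperHalfPlane
open Fermat.Agent.S24.H81 (Hol Mer merOrd)
open Fermat.Agent.S29.H25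

/-- `merOrd` of a power. -/
theorem merOrd_pow (τ0 : ℍ) {x : Mer} (hx : x ≠ 0) (n : ℕ) :
    merOrd τ0 (x ^ n) = n * merOrd τ0 x := by
  induction n with
  | zero =>
    simp only [pow_zero, Nat.cast_zero, zero_mul]
    have h1 : (1 : Mer) ≠ 0 := one_ne_zero
    have := Fermat.Agent.S24.H81.merOrd_mul τ0 h1 h1
    rw [one_mul] at this
    omega
  | succ k ih =>
    rw [pow_succ, Fermat.Agent.S24.H81.merOrd_mul τ0 (pow_ne_zero k hx) hx, ih]
    push_cast
    ring

variable (N : ℕ) [NeZero N]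

/-- Finite places, `Mer` vocabulary: (A4) `merOrd τ0 (thetaC N f) = e * v.ord f` and (B4)
`e ∣ merOrd τ0 Φ` give `n ∣ v.ord F` when `Φ ^ n = thetaC N F`. -/
theorem dvd_ord_of_point {v : Place ℂ (FC N)} {F : FC N} (hF : F ≠ 0) {n : ℕ} (hn : n ≠ 0)
    (τ0 : ℍ) {e : ℕ} (he : 0 < e) (hdict : merOrd τ0 (thetaC N F) = e * v.ord F) {Φ : Mer}
    (hΦ : Φ ^ n = thetaC N F) (hloc : (e : ℤ) ∣ merOrd τ0 Φ) : (n : ℤ) ∣ v.ord F := by
  have hθ : thetaC N F ≠ 0 := fun h => hF (thetaC_injective N (by rw [h, map_zero]))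
  have hΦ0 : Φ ≠ 0 := by
    rintro rfl
    rw [zero_pow hn] at hΦ
    exact hθ hΦ.symm
  exact dvd_ord_of_local (merOrd τ0) (by exact_mod_cast he.ne') hdict (merOrd_pow τ0 hΦ0 n) hloc hΦ

/-- **(A7) = (D5), assembled.**  `F : FC N` nonzero, `Φ ∈ Mer` with `Φ ^ n = thetaC N F`.
Hypotheses:
* `hfin` = (A4)+(B4): every place `v` with `0 ≤ v.ord (jC N)` is realised by a point `τ0 : ℍ` with
  multiplicity `e > 0` (for the function `F`), and `e ∣ merOrd τ0 Φ`;
* `hcusp` = (A5)+(LOCAL-par): at every place with `v.ord (jC N) < 0` the order of `F` is divisible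
  by `n` (the `q_h`-order of `Φ ∘ σ` is an integer).
Conclusion: the field `div` of helper88's `KummerSetup`. -/
theorem exists_divisor_of_kummer [HasPrincipalDivisors ℂ (FC N)] {F : FC N} (hF : F ≠ 0) {n : ℕ}
    (hn : n ≠ 0) {Φ : Mer} (hΦ : Φ ^ n = thetaC N F)
    (hfin : ∀ v : Place ℂ (FC N), 0 ≤ v.ord (jC N) → ∃ (τ0 : ℍ) (e : ℕ), 0 < e ∧
      merOrd τ0 (thetaC N F) = e * v.ord F ∧ (e : ℤ) ∣ merOrd τ0 Φ)
    (hcusp : ∀ v : Place ℂ (FC N), v.ord (jC N) < 0 → (n : ℤ) ∣ v.ord F) :
    ∃ D : Divisor ℂ (FC N), Divisor.degree D = 0 ∧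
      ∀ v : Place ℂ (FC N), (n : ℤ) * D v = v.ord F := by
  refine exists_divisor_of_forall_dvd hF hn fun v => ?_
  rcases lt_or_ge (v.ord (jC N)) 0 with h | h
  · exact hcusp v h
  · obtain ⟨τ0, e, he, hdict, hloc⟩ := hfin v h
    exact dvd_ord_of_point N hF hn τ0 he hdict hΦ hloc

end MerVocabulary

end Fermat.Agent.S29.H83
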