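/-
S29 / Stage 3, KUMMER-INST (I6): discharge of the DICT inputs and the final Kummer–Poincaré package.

* `isOfFinOrder_of_smul_eq` : an element of `SL(2, ℤ)` fixing a point of `ℍ` has finite order
  (hence is killed by every Kummer character);
* `imageHyp N : ImageHyp N` (helper72's IMAGE `H72.exists_toMer_eq`);
* `CuspDvdHyp N n` : the ONLY remaining DICT input = the cusp half of (D5):
  at the places above `j = ∞`, `n ∣ v.ord f` whenever `toMer f = Φ ^ n` with `Φ` a Kummer function;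
  `dvdHyp_of_cusp` : `CuspDvdHyp N n → DvdHyp N n` (finite places = helper25's (A4) + helper32's (B4)
  + helper83's `dvd_ord_of_point`);
* `wLat N` : the Atkin–Lehner involution on the lattice (helper65's `wOp`);
* `kummerPoincare_of` : `H80.KummerPoincare N n` from `CuspDvdHyp N n` and the Hecke-equivariance
  of `lam0` (HECKE-EQUIV), with `lamC := lam0 ∘ wLat` (ruling (R1) of the blueprint).
-/
import Mathlib
import Fermat.Agent.S29.H85_KummerInst
import Fermat.Agent.S29.H72_DictImage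
import Fermat.Agent.S29.H72_DictBridge
import Fermat.Agent.S29.H25_PointsFinal
import Fermat.Agent.S29.H83_DivisorCor
import Fermat.Agent.S29.H65_PicHecke
import Fermat.Agent.S29.H80_Interface
import Fermat.Agent.S29.H32_LocalEll
import Fermat.Agent.S24.H32_FixedPoints

set_option autoImplicit false
set_option linter.unusedSectionVars false

open UpperHalfPlane AlgebraicCurve ModularCurve
open scoped MatrixGroups Manifold

noncomputable section

namespace Fermat.Agent.S29.H85

open Fermat.Agent Fermat.Agent.S24.H81 Fermat.Agent.S29 CongruenceSubgroup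
open ModularCurve.Period

attribute [local instance] merAlgebra

/-! ### elliptic elements have finite order -/

theorem sq_eq_trace_smul_sub_one (γ : SL(2, ℤ)) :
    (γ.1 * γ.1) = γ.1.trace • γ.1 - 1 := by
  have hdet := S24.H32.det_entries γ
  ext i j
  rw [Matrix.sub_apply, Matrix.smul_apply, Matrix.mul_apply, Fin.sum_univ_two,
    Matrix.trace_fin_two, smul_eq_mul, Matrix.one_apply]
  fin_cases i <;> fin_cases j <;> simp <;>
    first | ring1 | linear_combination (-1 : ℤ) * hdet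

theorem pow_twelve_eq_one_of_trace {γ : SL(2, ℤ)}
    (h : γ.1.trace = 0 ∨ γ.1.trace = 1 ∨ γ.1.trace = -1) : γ ^ 12 = 1 := by
  apply Subtype.ext
  rw [Matrix.SpecialLinearGroup.coe_pow, Matrix.SpecialLinearGroup.coe_one]
  have hsq := sq_eq_trace_smul_sub_one γ
  set M := γ.1 with hM
  rcases h with h | h | h
  · rw [h, zero_smul, zero_sub] at hsq
    have h4 : M ^ 4 = 1 := by
      have : M ^ 4 = (M * M) * (M * M) := by noncomm_ring
      rw [this, hsq, neg_mul_neg, one_mul]
    have : M ^ 12 = (M ^ 4) ^ 3 := by rw [← pow_mul]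
    rw [this, h4, one_pow]
  · rw [h, one_smul] at hsq
    have h3 : M ^ 3 = -1 := by
      have : M ^ 3 = (M * M) * M := by noncomm_ring
      rw [this, hsq, sub_mul, one_mul, hsq]; abel
    calc M ^ 12 = (M ^ 3) ^ 4 := by rw [← pow_mul]
      _ = (-1) ^ 4 := by rw [h3]
      _ = 1 := Even.neg_one_pow ⟨2, rfl⟩
  · rw [h, _root_.neg_smul, one_smul] at hsq
    have h3 : M ^ 3 = 1 := by
      have : M ^ 3 = (M * M) * M := by noncomm_ring
      rw [this, hsq, sub_mul, one_mul, neg_mul, hsq]; abel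
    have : M ^ 12 = (M ^ 3) ^ 4 := by rw [← pow_mul]
    rw [this, h3, one_pow]

theorem trace_sq_lt_four_of_root {j : ℂ} {t : ℝ} (h : j ^ 2 - (t : ℂ) * j + 1 = 0)
    (hj : j.im ≠ 0) : t ^ 2 < 4 := by
  obtain ⟨h1, h2⟩ := Complex.ext_iff.mp h
  simp [pow_two] at h1 h2
  have h3 : 2 * j.re = t := by
    have : j.im * (2 * j.re - t) = 0 := by linear_combination h2
    rcases mul_eq_zero.mp this with h | h
    · exact absurd h hj
    · linarith
  have hpos : 0 < j.im ^ 2 := by positivity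
  nlinarith

/-- An element of `SL(2, ℤ)` fixing a point of the upper half plane has finite order. -/
theorem isOfFinOrder_of_smul_eq {γ : SL(2, ℤ)} {τ : ℍ} (hfix : γ • τ = τ) : IsOfFinOrder γ := by
  rw [isOfFinOrder_iff_pow_eq_one]
  by_cases hc : γ 1 0 = 0
  · -- upper triangular: `γ = ±1`
    refine ⟨2, by norm_num, ?_⟩
    have hfix' := S24.H32.coe_smul_eq_moebius γ τ
    rw [hfix] at hfix'
    have hden := S24.H32.denom_cast_ne_zero γ τ
    have hE := (div_eq_iff hden).1 hfix'.symm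
    have hdet := S24.H32.det_entries γ
    rw [hc] at hE hdet
    simp only [Int.cast_zero, zero_mul, zero_add, mul_zero, sub_zero] at hE hdet
    have him := congrArg Complex.im hE
    simp at him
    have hy : τ.im ≠ 0 := τ.im_pos.ne'
    have had : γ 0 0 = γ 1 1 := by
      have : ((γ 0 0 : ℤ) : ℝ) = ((γ 1 1 : ℤ) : ℝ) := by
        have h1 : (((γ 0 0 : ℤ) : ℝ) - ((γ 1 1 : ℤ) : ℝ)) * τ.im = 0 := by linear_combination him
        rcases mul_eq_zero.mp h1 with h | h
        · linarith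
        · exact absurd h hy
      exact_mod_cast this
    have hb : γ 0 1 = 0 := by
      have h2 : ((γ 0 1 : ℤ) : ℂ) = 0 := by
        rw [had] at hE
        linear_combination hE
      exact_mod_cast h2
    apply Subtype.ext
    rw [Matrix.SpecialLinearGroup.coe_pow, Matrix.SpecialLinearGroup.coe_one, pow_two]
    rw [had] at hdet
    ext i k
    rw [Matrix.mul_apply, Fin.sum_univ_two, Matrix.one_apply]
    fin_cases i <;> fin_cases k <;> simp [hc, hb, had, hdet]
  · refine ⟨12, by norm_num, pow_twelve_eq_one_of_trace ?_⟩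
    have hq := H32.denom_quadratic hfix
    have him : (((γ 1 0 : ℤ) : ℂ) * (τ : ℂ) + ((γ 1 1 : ℤ) : ℂ)).im ≠ 0 := by
      simp
      exact ⟨hc, τ.im_pos.ne'⟩
    have hlt := trace_sq_lt_four_of_root (t := ((γ.1.trace : ℤ) : ℝ)) (by
      have : (((γ.1.trace : ℤ) : ℝ) : ℂ) = ((γ.1.trace : ℤ) : ℂ) := by push_cast; rfl
      rw [this]; exact hq) him
    have hlt' : γ.1.trace ^ 2 < 4 := by exact_mod_cast hlt
    have h1 : -2 < γ.1.trace := by nlinarith
    have h2 : γ.1.trace < 2 := by nlinarith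
    generalize γ.1.trace = t at h1 h2
    interval_cases t <;> simp

/-- The same inside a subgroup. -/
theorem isOfFinOrder_subgroup_of_smul_eq {Γ : Subgroup SL(2, ℤ)} (γ : Γ) {τ : ℍ}
    (hfix : (γ : SL(2, ℤ)) • τ = τ) : IsOfFinOrder γ := by
  obtain ⟨k, hk, h⟩ := isOfFinOrder_iff_pow_eq_one.mp (isOfFinOrder_of_smul_eq hfix)
  exact isOfFinOrder_iff_pow_eq_one.mpr ⟨k, hk, Subtype.ext (by rw [Subgroup.coe_pow, h]; rfl)⟩

/-! ### the DICT inputs -/

variable (N : ℕ) [NeZero N]

/-- **IMAGE** is helper72's theorem. -/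
theorem imageHyp : ImageHyp N := fun _ hx hinv => H72.exists_toMer_eq N hx hinv

/-- The cusp half of (D5): divisibility of the orders at the places above `j = ∞`. -/
def CuspDvdHyp (n : ℕ) : Prop :=
  ∀ χ ∈ charX (Gamma0 N) n, ∀ Φ : Mer, Φ ≠ 0 →
    (∀ γ : Gamma0 N, actMer (γ : SL(2, ℤ)) Φ = constMer ((χ γ : ℂˣ) : ℂ) * Φ) →
    ∀ f : H72.FC N, H72.toMer N f = Φ ^ n →
      ∀ v : Place ℂ (H72.FC N), v.ord (H72.jC N) < 0 → (n : ℤ) ∣ v.ord f

/-- (D5) from its cusp half: the finite places are helper25's (A4) + helper32's (B4). -/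
theorem dvdHyp_of_cusp {n : ℕ} (hn : 0 < n) (hC : CuspDvdHyp N n) : DvdHyp N n := by
  intro χ hχ Φ hΦ haut f hf v
  rcases lt_or_ge (v.ord (H72.jC N)) 0 with hv | hv
  · exact hC χ hχ Φ hΦ haut f hf v hv
  · have hf0 : f ≠ 0 := by
      rintro rfl
      rw [map_zero] at hf
      exact pow_ne_zero n hΦ hf.symm
    have hinv : ∀ γ ∈ Gamma0 N, ∀ τ : ℍ, γ • τ = τ → H25.merComp γ Φ = Φ := by
      intro γ hγ τ hfix
      have h1 : χ ⟨γ, hγ⟩ = 1 :=
        apply_eq_one_of_isOfFinOrder hχ (isOfFinOrder_subgroup_of_smul_eq ⟨γ, hγ⟩ hfix)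
      have h2 := haut ⟨γ, hγ⟩
      rw [h1, Units.val_one, map_one, one_mul] at h2
      rw [← H72.actMer_eq_merComp]
      exact h2
    obtain ⟨τ0, e, he, hdict, hloc⟩ := H25.exists_point_kummer N v hv hΦ hinv
    exact H83.dvd_ord_of_point N hf0 hn.ne' τ0 he (hdict f hf0) hf.symm hloc

/-- The concrete Kummer setup, with only the cusp half of (D5) as hypothesis. -/
theorem kummerSetup' {n : ℕ} (hn : 0 < n) (hC : CuspDvdHyp N n) :
    H88.KummerSetup n (thetaAlg N) (actAlg N) admUnits (charX (Gamma0 N) n) :=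
  kummerSetup N hn (imageHyp N) (dvdHyp_of_cusp N hn hC)

/-! ### the Atkin–Lehner twist and the final package -/

/-- The Atkin–Lehner involution on the lattice `parabolicHoms ℤ Γ₀(N) ℤ`. -/
def wLat : parabolicHoms ℤ (Gamma0 N) ℤ →+ parabolicHoms ℤ (Gamma0 N) ℤ where
  toFun x := ⟨H65.wOp ℤ (NeZero.ne N) x.1, H65.wOp_mem_parabolicHoms (NeZero.ne N) ℤ x.2⟩
  map_zero' := Subtype.ext (map_zero _)
  map_add' _ _ := Subtype.ext (map_add _ _ _)

@[simp] theorem coe_wLat (x : parabolicHoms ℤ (Gamma0 N) ℤ) :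
    ((wLat N x : parabolicHoms ℤ (Gamma0 N) ℤ) : Additive (Gamma0 N) →+ ℤ)
      = H65.wOp ℤ (NeZero.ne N) x.1 := rfl

theorem wLat_wLat (x : parabolicHoms ℤ (Gamma0 N) ℤ) : wLat N (wLat N x) = x :=
  Subtype.ext (H65.wOp_wOp (NeZero.ne N) x.1)

theorem wLat_zsmul (k : ℤ) (x : parabolicHoms ℤ (Gamma0 N) ℤ) :
    wLat N (k • x) = k • wLat N x := map_zsmul (wLat N) k x

/-- **The Kummer–Poincaré package `H80.KummerPoincare N n`**, from the cusp half of (D5) and the
Hecke equivariance of `lam0` (HECKE-EQUIV), which by helper65's `picUDatum_op_wOp` /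
`picTDatum_op_wOp` takes the form `lam0 (w (cohT ℓ (w x))) = T_ℓ (lam0 x)`. -/
theorem kummerPoincare_of {n : ℕ} (hn : 0 < n) (hC : CuspDvdHyp N n)
    (hHE : ∀ lam0 : H80.Lat N →+ H80.JL ℂ N,
      (∀ x, lam0 x = (kummerSetup' N hn hC).lam hn (chiLat (Gamma0 N) n x)) →
      ∀ (ℓ : Nat.Primes) (x : H80.Lat N),
        lam0 (wLat N (H80.cohT N ℓ (wLat N x))) = H80.TL ℂ N ℓ (lam0 x)) :
    H80.KummerPoincare N n := by
  obtain ⟨lam0, h1, h2, h3⟩ := exists_lam0 N hn (imageHyp N) (dvdHyp_of_cusp N hn hC)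
  refine ⟨lam0.comp (wLat N), fun x => h1 _, fun x hx => ?_, fun ℓ x => ?_⟩
  · obtain ⟨y, hy⟩ := h2 (wLat N x) hx
    refine ⟨wLat N y, ?_⟩
    rw [← wLat_zsmul, ← hy, wLat_wLat]
  · have := hHE lam0 h3 ℓ (wLat N x)
    rw [wLat_wLat] at this
    exact this

end Fermat.Agent.S29.H85
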