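/-
S29 / S42: Stage 3 is complete.  The frozen statements S29 and S42 follow from the frozen
statement S37 (`SpecializationExists`, Stage 2) ALONE: every other input of
`H66.s29_of_stages` / `H66.s42_of_stages` is now a theorem
((T1) `H80.heckeOperatorsCommuteBar`, `H85.kummerPoincare`, `H80.baseChangeDescent`).

So `Fermat/Agent/S29.lean` is
`H85.s29_of_s37 (fun N p _ hc hs => Fermat.Agent.S37.result N p hc hs) hg hp φ`
(up to the exact binder shape of S37.result), and likewise S42.
-/
import Mathlib
import Fermat.Agent.S29.H66_S29Chain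
import Fermat.Agent.S29.H80_T0
import Fermat.Agent.S29.H85_KummerPoincare

set_option autoImplicit false

open CongruenceSubgroup ModularFormClass ModularCurve

namespace Fermat.Agent.S29.H85

/-- **(T0), hypothesis-free**: eigenform ideals containing `p` are in the support of
`J₀(N)(ℚ̄)[p]`. -/
theorem eigenformSupportAt (N p : ℕ) [NeZero N] [Fact p.Prime] :
    letI := heckeModuleBar N
    EigenformSupportAt N p (JZero N) :=
  H80.eigenformSupportAt_of_kummerPoincare N p (kummerPoincare N (Fact.out : p.Prime).pos)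

/-- **Frozen S29 from frozen S37 alone.** -/
theorem s29_of_s37
    (h37 : ∀ (N p : ℕ) [NeZero N] (_ : ModularCurve.HeckeOperatorsCommuteBar N),
      letI := ModularCurve.heckeModuleBar N
      ∀ (_ : SMulCommClass (AlgebraicClosure ℚ ≃ₐ[ℚ] AlgebraicClosure ℚ) ModularCurve.HeckeAlg
        (ModularCurve.JZero N)),
        ModularCurve.SpecializationExists (K := ℚ) (L := AlgebraicClosure ℚ) N p
          (ModularCurve.JZero N))
    {N : ℕ} {g : CuspForm (CongruenceSubgroup.Gamma0 N) 2} (hg : g.IsNormalizedEigenform)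
    {p : ℕ} (hp : p.Prime) {k : Type} [Field k] [CharP k p]
    (φ : integralClosure ℤ ℂ →+* k) :
    ∃ ρ : ResidualGaloisRep k, ρ.IsAttachedTo g φ ∧
      ∀ ℓ : ℕ, ℓ.Prime → ¬ ℓ ∣ N * p → ρ.IsUnramifiedAt ℓ :=
  H66.s29_of_stages h37 (fun N _ => H80.heckeOperatorsCommuteBar N)
    (fun N _ _ hp => kummerPoincare N hp.pos)
    (fun N _ _ hp => H80.baseChangeDescent N hp.pos) hg hp φ

/-- **Frozen S42 from frozen S37 alone.** -/
theorem s42_of_s37
    (h37 : ∀ (N p : ℕ) [NeZero N] (_ : ModularCurve.HeckeOperatorsCommuteBar N),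
      letI := ModularCurve.heckeModuleBar N
      ∀ (_ : SMulCommClass (AlgebraicClosure ℚ ≃ₐ[ℚ] AlgebraicClosure ℚ) ModularCurve.HeckeAlg
        (ModularCurve.JZero N)),
        ModularCurve.SpecializationExists (K := ℚ) (L := AlgebraicClosure ℚ) N p
          (ModularCurve.JZero N))
    (P : FreyPackage) : ∀ M : ℕ, 0 < M → P.EigenformResidualAttachmentAt M :=
  H66.s42_of_stages h37 (fun N _ => H80.heckeOperatorsCommuteBar N)
    (fun N _ _ hp => kummerPoincare N hp.pos)
    (fun N _ _ hp => H80.baseChangeDescent N hp.pos) P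

end Fermat.Agent.S29.H85
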