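/-
S29 / Stage 3 / E6 (assembly skeleton for `EigenformSupportAt`).

`EigenformSupportAt N p (JZero N)` (for the prelude Hecke module `heckeModuleBar N`) from NAMED
hypotheses:

* (T1) `hcomm : HeckeOperatorsCommuteBar N`;
* a homomorphism `lam : L_N → JZero N` (in Stage 3: `bc⁻¹ ∘ λ`, `λ` the Kummer/Poincare-series
  map `L/pL → Pic⁰(ℂ F_N)[p]`, `bc` the base change `ℚ̄ → ℂ`), with
  - `hp`   : `p • lam x = 0`;
  - `hker` : `lam x = 0 → x ∈ p L_N` (injectivity modulo `p`);
  - `hT`   : `lam (X_ℓ x) = heckeOperatorBar N ℓ (lam x)` for every prime `ℓ`, where `X_ℓ` acts on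
    `L_N` through helper58's `cohHecke N` (`= T_ℓ` for `ℓ ∤ N`, `U_ℓ` for `ℓ ∣ N`, the double coset
    operators of `S41/H85_HeckeGamma0`).

The cohomological input (E4) is helper58's `H58.exists_eigenclass_mod_p`.
-/
import Mathlib
import Fermat.Prelude.Def_ModularCurve_HeckeModule
import Fermat.Agent.S29.H58_SupportCoh

set_option autoImplicit false

open CongruenceSubgroup ModularCurve ModularCurve.Period

namespace Fermat.Agent.S29.H85

open Fermat.Agent.S41

section generators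

variable {σ : Type*} {L₁ L₂ : Type*} [AddCommGroup L₁] [AddCommGroup L₂]

theorem ringHom_C_apply' (ρ : MvPolynomial σ ℤ →+* Module.End ℤ L₁) (a : ℤ) (y : L₁) :
    ρ (MvPolynomial.C a) y = a • y := by
  have h : ρ (MvPolynomial.C a) = (a : Module.End ℤ L₁) := eq_intCast (ρ.comp MvPolynomial.C) a
  rw [h, Module.End.intCast_apply]

/-- An additive map intertwining the actions of the variables intertwines the actions of all
polynomials. -/
theorem map_apply_eq_of_generators' (ρ₁ : MvPolynomial σ ℤ →+* Module.End ℤ L₁)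
    (ρ₂ : MvPolynomial σ ℤ →+* Module.End ℤ L₂) (f : L₁ →+ L₂)
    (h : ∀ i x, f (ρ₁ (MvPolynomial.X i) x) = ρ₂ (MvPolynomial.X i) (f x))
    (t : MvPolynomial σ ℤ) (x : L₁) : f (ρ₁ t x) = ρ₂ t (f x) := by
  induction t using MvPolynomial.induction_on generalizing x with
  | C a => rw [ringHom_C_apply', ringHom_C_apply', map_zsmul]
  | add s t hs ht =>
    rw [map_add, map_add, LinearMap.add_apply, LinearMap.add_apply, map_add, hs, ht]
  | mul_X s i hs =>
    rw [map_mul, map_mul, Module.End.mul_apply, Module.End.mul_apply, hs, h]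

end generators

section support

variable (N : ℕ) [NeZero N]

/-- **E6 skeleton.**  Support of eigenform ideals on `J₀(N)(ℚ̄)` from a Hecke-equivariant
homomorphism `L_N → J₀(N)(ℚ̄)[p]` which is injective modulo `p`. -/
theorem eigenformSupportAt_of_lam (p : ℕ) [Fact p.Prime] (hcomm : HeckeOperatorsCommuteBar N)
    (lam : parabolicHoms ℤ (Gamma0 N) ℤ →+ JZero N)
    (hp : ∀ x, (p : ℤ) • lam x = 0)
    (hker : ∀ x, lam x = 0 → x ∈ H66.pSub p (parabolicHoms ℤ (Gamma0 N) ℤ))
    (hT : ∀ (ℓ : Nat.Primes) (x : parabolicHoms ℤ (Gamma0 N) ℤ),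
      lam (H58.cohHecke N (heckeGen ℓ) x) = heckeOperatorBar N ℓ (lam x)) :
    letI := heckeModuleBar N
    EigenformSupportAt N p (JZero N) := by
  let _inst := heckeModuleBar N
  intro 𝔪 h𝔪 hp𝔪
  obtain ⟨x, hx, hxt⟩ := H58.exists_eigenclass_mod_p (N := N) p h𝔪 hp𝔪
  -- equivariance for all of `HeckeAlg`
  have hall : ∀ (t : HeckeAlg) (y : parabolicHoms ℤ (Gamma0 N) ℤ),
      lam (H58.cohHecke N t y) = t • lam y := by
    intro t y
    rw [heckeModuleBar_smul_def hcomm]
    refine map_apply_eq_of_generators' (H58.cohHecke N) (heckeEvalBar hcomm) lam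
      (fun ℓ y => ?_) t y
    have h1 := heckeEvalBar_heckeGen hcomm ℓ
    rw [heckeGen] at h1
    rw [h1]
    exact hT ℓ y
  -- the class `lam x` is a nonzero element of `J[𝔪]`
  intro hbot
  have hmem : lam x ∈ Submodule.torsionBySet HeckeAlg (JZero N) (𝔪 : Set HeckeAlg) := by
    rw [Submodule.mem_torsionBySet_iff]
    rintro ⟨t, ht⟩
    show t • lam x = 0
    rw [← hall t x]
    obtain ⟨y, hy⟩ := H66.mem_pSub.mp (hxt t ht)
    rw [← hy, map_zsmul, hp]
  rw [hbot, Submodule.mem_bot] at hmem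
  exact hx (hker x hmem)

end support

section twoStep

open AlgebraicCurve

variable (N : ℕ) [NeZero N]

/-- `J₀(N)` over the complex numbers, in the prelude's function field model. -/
abbrev JZeroComplex : Type _ :=
  Pic0 ℂ (laurentBaseChange ℂ (modularFunctionFieldFull N))

/-- **E6 skeleton, two-step form** (blueprint v1): the Kummer/Poincare map
`lamC : L_N → Pic⁰(ℂ F_N)[p]` (E1/E2: additive, injective modulo `p`; E3: Hecke equivariant) and the
base change `bc : J₀(N)(ℚ̄) → Pic⁰(ℂ F_N)` (E5: injective, Hecke equivariant, onto the `p`-torsion)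
give `EigenformSupportAt N p (JZero N)`. -/
theorem eigenformSupportAt_of_lamC_bc (p : ℕ) [Fact p.Prime] (hcomm : HeckeOperatorsCommuteBar N)
    (lamC : parabolicHoms ℤ (Gamma0 N) ℤ →+ JZeroComplex N)
    (hpC : ∀ x, (p : ℤ) • lamC x = 0)
    (hkerC : ∀ x, lamC x = 0 → x ∈ H66.pSub p (parabolicHoms ℤ (Gamma0 N) ℤ))
    (hTC : ∀ (ℓ : Nat.Primes) (x : parabolicHoms ℤ (Gamma0 N) ℤ),
      haveI : NeZero (ℓ : ℕ) := ⟨ℓ.2.ne_zero⟩
      lamC (H58.cohHecke N (heckeGen ℓ) x) = heckeOperatorAlong ℂ N ℓ (lamC x))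
    (bc : JZero N →+ JZeroComplex N) (hbc_inj : Function.Injective bc)
    (hbc_T : ∀ (ℓ : Nat.Primes) (y : JZero N),
      haveI : NeZero (ℓ : ℕ) := ⟨ℓ.2.ne_zero⟩
      bc (heckeOperatorAlong (AlgebraicClosure ℚ) N ℓ y) = heckeOperatorAlong ℂ N ℓ (bc y))
    (hbc_surj : ∀ c : JZeroComplex N, (p : ℤ) • c = 0 → ∃ c₀ : JZero N, bc c₀ = c) :
    letI := heckeModuleBar N
    EigenformSupportAt N p (JZero N) := by
  choose g hg using fun x => hbc_surj (lamC x) (hpC x)
  let lam : parabolicHoms ℤ (Gamma0 N) ℤ →+ JZero N :=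
    { toFun := g
      map_zero' := hbc_inj (by rw [hg, map_zero, map_zero])
      map_add' := fun x y => hbc_inj (by rw [hg, map_add, map_add, hg, hg]) }
  have hlam : ∀ x, bc (lam x) = lamC x := hg
  refine eigenformSupportAt_of_lam N p hcomm lam (fun x => ?_) (fun x hx => ?_) (fun ℓ x => ?_)
  · apply hbc_inj
    rw [map_zsmul, hlam, hpC, map_zero]
  · apply hkerC
    rw [← hlam, hx, map_zero]
  · apply hbc_inj
    rw [hlam, heckeOperatorBar_apply, hbc_T, hlam]
    exact hTC ℓ x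

end twoStep

end Fermat.Agent.S29.H85
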