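import Mathlib
import Fermat.Agent.S29.H88_KummerGlue

/-!
# S29 / KUMMER-GLUE : compatibility of the Kummer maps `lam_n` and `lam_{n m}`

`helper88`.  For two Kummer setups with the same `Θ, act, Adm` and exponents `n`, `n * m`:
`lam_n (χ ^ m) = m • lam_{n m} χ`.  With `χ = exp (2 π i φ / (n m))` this is
`lam_n φ = m • lam_{n m} φ` (the transition maps of the Tate module, needed for S30 only).
-/

set_option autoImplicit false
set_option linter.unusedSectionVars false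

noncomputable section

namespace Fermat.Agent.S29.H88

open AlgebraicCurve

variable {K F M Γ : Type*} [Field K] [Field F] [Algebra K F] [CommRing M] [IsDomain M]
  [Algebra K M] [Group Γ]
variable {n m : ℕ} {Θ : F →ₐ[K] M} {act : Γ → M →ₐ[K] M} {Adm : Subgroup Mˣ}
  {X X' : Subgroup (Γ →* Kˣ)}

/-- a witness for `χ` at exponent `n * m` gives a witness for `χ ^ m` at exponent `n`. -/
theorem Rel.pow_of_mul {χ : Γ →* Kˣ} {c : Pic0 K F} (h : Rel (n * m) Θ act Adm χ c) :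
    Rel n Θ act Adm (χ ^ m) ((m : ℤ) • c) := by
  obtain ⟨Φ, hΦ, haut, f, hf, D, hD, hDv, rfl⟩ := h
  have hdeg : Divisor.degree ((m : ℤ) • D) = 0 := by rw [map_zsmul, hD, smul_zero]
  refine ⟨Φ ^ m, Adm.pow_mem hΦ m, by simpa using haut.pow m, f, ?_, (m : ℤ) • D, hdeg, ?_, ?_⟩
  · rw [hf, Units.val_pow_eq_pow_val, ← pow_mul, mul_comm]
  · intro v
    rw [Finsupp.smul_apply, smul_eq_mul, ← hDv v]
    push_cast
    ring
  · show (m : ℤ) • (QuotientAddGroup.mk _ : Pic0 K F) = _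
    rw [← QuotientAddGroup.mk_zsmul]
    rfl

/-- **compatibility**: `lam_n (χ ^ m) = m • lam_{n m} χ`. -/
theorem KummerSetup.lam_pow_eq_zsmul (hS : KummerSetup n Θ act Adm X)
    (hS' : KummerSetup (n * m) Θ act Adm X') (hn : 0 < n) (hm : 0 < m) {χ : Γ →* Kˣ}
    (hχ' : χ ∈ X') (hχ : χ ^ m ∈ X) :
    hS.lam hn (Additive.ofMul ⟨χ ^ m, hχ⟩)
      = (m : ℤ) • hS'.lam (Nat.mul_pos hn hm) (Additive.ofMul ⟨χ, hχ'⟩) :=
  hS.lam_eq_of_rel hn hχ (hS'.rel_lam (Nat.mul_pos hn hm) (Additive.ofMul ⟨χ, hχ'⟩)).pow_of_mul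

/-- consumer form: `e : L →+ Additive X`, `e' : L →+ Additive X'` with `e x = (e' x) ^ m`
(e.g. `exp (2 π i φ / n) = exp (2 π i φ / (n m)) ^ m`): `lam_n ∘ e = m • lam_{n m} ∘ e'`. -/
theorem KummerSetup.lam_comp_eq_zsmul (hS : KummerSetup n Θ act Adm X)
    (hS' : KummerSetup (n * m) Θ act Adm X') (hn : 0 < n) (hm : 0 < m) {L : Type*}
    [AddCommGroup L] (e : L →+ Additive X) (e' : L →+ Additive X')
    (he : ∀ x : L, ((Additive.toMul (e x) : X) : Γ →* Kˣ)
      = ((Additive.toMul (e' x) : X') : Γ →* Kˣ) ^ m) (x : L) :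
    hS.lam hn (e x) = (m : ℤ) • hS'.lam (Nat.mul_pos hn hm) (e' x) := by
  have hχ : ((Additive.toMul (e' x) : X') : Γ →* Kˣ) ^ m ∈ X := by
    rw [← he x]
    exact (Additive.toMul (e x)).2
  have h := hS.lam_pow_eq_zsmul hS' hn hm (Additive.toMul (e' x)).2 hχ
  have h1 : (Additive.ofMul ⟨((Additive.toMul (e' x) : X') : Γ →* Kˣ) ^ m, hχ⟩ : Additive X)
      = e x := by
    apply Additive.toMul.injective
    exact Subtype.ext (he x).symm
  rw [h1] at h
  exact h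

end Fermat.Agent.S29.H88
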