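import Mathlib
import Fermat.Agent.S29.H88_KummerGlue

/-!
# S29 / KUMMER-GLUE : surjectivity of the abstract Kummer map onto the `p`-torsion

`helper88`.  If every function whose divisor is divisible by `p` has an admissible automorphic
`p`-th root with a good character (= ROOT + CHARACTER + LOCAL of the blueprint), then
`lam : Additive X →+ Pic0 K F` is onto the `p`-torsion.  Together with `lam_injective` this
identifies `Pic⁰[p]` with the group of good characters.
-/

set_option autoImplicit false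
set_option linter.unusedSectionVars false

noncomputable section

namespace Fermat.Agent.S29.H88

open AlgebraicCurve

variable {K F M Γ : Type*} [Field K] [Field F] [Algebra K F] [CommRing M] [IsDomain M]
  [Algebra K M] [Group Γ]
variable {p : ℕ} {Θ : F →ₐ[K] M} {act : Γ → M →ₐ[K] M} {Adm : Subgroup Mˣ}
  {X : Subgroup (Γ →* Kˣ)}

/-- **surjectivity onto the `p`-torsion** from the existence of roots. -/
theorem KummerSetup.exists_lam_eq (hS : KummerSetup p Θ act Adm X) (hp : 0 < p)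
    (hroot : ∀ f : F, f ≠ 0 → (∀ v : Place K F, (p : ℤ) ∣ v.ord f) →
      ∃ χ ∈ X, ∃ Φ ∈ Adm, IsAut act χ (Φ : M) ∧ Θ f = (Φ : M) ^ p)
    (c : Pic0 K F) (hc : (p : ℤ) • c = 0) : ∃ x : Additive X, hS.lam hp x = c := by
  obtain ⟨⟨D, hD⟩, rfl⟩ := Pic0.mk_surjective c
  have hprin : (p : ℤ) • D ∈ Divisor.principal (K := K) (F := F) := by
    have h1 : ((p : ℤ) • (⟨D, hD⟩ : Divisor.degZero (K := K) (F := F)))
        ∈ (Divisor.principal (K := K) (F := F)).addSubgroupOf Divisor.degZero := by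
      refine (QuotientAddGroup.eq_zero_iff _).mp ?_
      rw [QuotientAddGroup.mk_zsmul]
      exact hc
    rwa [AddSubgroup.mem_addSubgroupOf] at h1
  obtain ⟨f, hf0, hfD⟩ := hprin
  have hDv : ∀ v : Place K F, (p : ℤ) * D v = v.ord f := by
    intro v
    rw [← hfD v, Finsupp.smul_apply, smul_eq_mul]
  obtain ⟨χ, hχ, Φ, hΦ, haut, hf⟩ := hroot f hf0 (fun v => ⟨D v, (hDv v).symm⟩)
  exact ⟨Additive.ofMul ⟨χ, hχ⟩,
    hS.lam_eq_mk hp hχ hΦ haut hf (Divisor.mem_degZero.mp hD) hDv⟩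

/-- `lam` as a bijection between good characters and the `p`-torsion. -/
theorem KummerSetup.lam_bijOn [IsAlgClosed K] (hS : KummerSetup p Θ act Adm X) (hp : 0 < p)
    (hroot : ∀ f : F, f ≠ 0 → (∀ v : Place K F, (p : ℤ) ∣ v.ord f) →
      ∃ χ ∈ X, ∃ Φ ∈ Adm, IsAut act χ (Φ : M) ∧ Θ f = (Φ : M) ^ p) :
    Set.BijOn (hS.lam hp) Set.univ {c : Pic0 K F | (p : ℤ) • c = 0} :=
  ⟨fun x _ => hS.zsmul_lam hp x, (hS.lam_injective hp).injOn,
    fun c hc => by
      obtain ⟨x, hx⟩ := hS.exists_lam_eq hp hroot c hc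
      exact ⟨x, Set.mem_univ _, hx⟩⟩

/-- finiteness of the `p`-torsion from finiteness of the group of good characters. -/
theorem KummerSetup.finite_torsion (hS : KummerSetup p Θ act Adm X) (hp : 0 < p)
    (hroot : ∀ f : F, f ≠ 0 → (∀ v : Place K F, (p : ℤ) ∣ v.ord f) →
      ∃ χ ∈ X, ∃ Φ ∈ Adm, IsAut act χ (Φ : M) ∧ Θ f = (Φ : M) ^ p) [Finite X] :
    {c : Pic0 K F | (p : ℤ) • c = 0}.Finite := by
  have hsub : {c : Pic0 K F | (p : ℤ) • c = 0} ⊆ Set.range (hS.lam hp) := fun c hc => by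
    obtain ⟨x, hx⟩ := hS.exists_lam_eq hp hroot c hc
    exact ⟨x, hx⟩
  have : Finite (Additive X) := inferInstanceAs (Finite X)
  exact (Set.finite_range _).subset hsub

end Fermat.Agent.S29.H88
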