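import Fermat.Agent.S29.H25_MerAction
import Fermat.Agent.S37.H19_NormEmb
import Fermat.Prelude.Def_ModularCurve_HeckeOperator

/-!
S29 / NORM-AN, core cut (helper90): the norm along `α = heckeAlphaBar ℂ N ℓ : FC N → FC (N ℓ)` is,
on the analytic side, the product over the `Γ₀(N ℓ)`-cosets of `Γ₀(N)`:

`thetaC N (Nm_α x) = ∏ i, merComp (δ i) (thetaC (N ℓ) x)`

for ANY family `δ : ι → SL(2, ℤ)` of representatives of `Γ₀(N ℓ) \ Γ₀(N)` with
`card ι = [FC (N ℓ) : α (FC N)]`.  All primes `ℓ` (indeed all `ℓ ≠ 0`), `ℓ ∣ N` included.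

Vocabulary: helper25's `thetaC`, `merComp` (`S29/H25_*`), helper19's `norm_eq_prod_ringHoms`,
the prelude's `algebraAlong`, `finrankAlong`.
-/

set_option autoImplicit false
set_option linter.style.haveILetI false
noncomputable section
namespace Fermat.Agent.S29.H90
open UpperHalfPlane ModularCurve AlgebraicCurve
open Fermat.Agent.S24
open Fermat.Agent.S24.H81 (Hol Mer)
open Fermat.Agent.S29.H25
open Fermat.Agent.S37
open scoped MatrixGroups Manifold

section Generic

variable {K F F' Ω : Type*} [Field K] [Field F] [Field F'] [Field Ω] [Algebra K F] [Algebra K F']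

/-- The norm of `F'` down to `F` along `ψ` (same term as helper8's `H8.normAlong`). -/
def normAlong (ψ : F →ₐ[K] F') : F' →* F :=
  letI := algebraAlong ψ
  Algebra.norm F

/-- **Norm along `ψ` as a product over a complete list of conjugate embeddings**, in the
prelude's `Along`-vocabulary; `Ω` any field, characteristic `0`. -/
theorem normAlong_eq_prod [CharZero F] (ψ : F →ₐ[K] F') (f : F →+* Ω) {ι : Type*} [Fintype ι]
    (σ : ι → (F' →+* Ω)) (hσf : ∀ i a, σ i (ψ a) = f a) (hσ : Function.Injective σ)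
    (hcard : Fintype.card ι = finrankAlong K ψ) (x : F') :
    f (normAlong ψ x) = ∏ i, σ i x := by
  classical
  letI := algebraAlong ψ
  by_cases hfin : Module.Finite F F'
  · haveI : Algebra.IsSeparable F F' := inferInstance
    exact H19.norm_eq_prod_ringHoms (K := F) (E := F') f σ
      (fun i => by
        ext a
        exact hσf i a)
      hσ hcard x
  · have h0 : Module.finrank F F' = 0 := Module.finrank_of_not_finite hfin
    have hcard' : Fintype.card ι = 0 := hcard.trans h0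
    haveI : IsEmpty ι := Fintype.card_eq_zero_iff.mp hcard'
    have h1 : normAlong ψ x = 1 := by
      show Algebra.norm F x = 1
      rw [Algebra.norm_eq_one_of_not_module_finite hfin]
    rw [h1]
    simp

end Generic

variable (N ℓ : ℕ) [NeZero N] [NeZero ℓ]

/-- `α` maps the generator `j(q^d)` of level `N` to the generator `j(q^d)` of level `N ℓ`. -/
theorem alpha_jdC (d : ℕ) [NeZero d] (hd : d ∣ N) :
    heckeAlphaBar ℂ N ℓ (jdC N d hd) = jdC (N * ℓ) d (hd.trans (dvd_mul_right N ℓ)) := by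
  apply Subtype.ext
  rw [coe_heckeAlphaBar]
  rfl

/-- `α` maps `AC N` into `AC (N ℓ)`. -/
theorem alpha_mem_AC {a : FC N} (ha : a ∈ AC N) : heckeAlphaBar ℂ N ℓ a ∈ AC (N * ℓ) := by
  induction ha using Algebra.adjoin_induction with
  | mem x hx =>
    obtain ⟨d, hd0, hd, rfl⟩ := hx
    rw [alpha_jdC]
    exact jdC_mem_AC (N * ℓ) d _
  | algebraMap c =>
    rw [AlgHom.commutes]
    exact Subalgebra.algebraMap_mem _ c
  | add x y _ _ hx hy => rw [map_add]; exact add_mem hx hy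
  | mul x y _ _ hx hy => rw [map_mul]; exact mul_mem hx hy

/-- `ThetaC` does not see the level. -/
theorem ThetaC_alpha (f : FC N) : ThetaC (N * ℓ) (heckeAlphaBar ℂ N ℓ f) = ThetaC N f := by
  unfold ThetaC
  rw [coe_heckeAlphaBar]

/-- **Level compatibility for `α`**: `thetaC (N ℓ) ∘ α = thetaC N`. -/
theorem thetaC_alpha (f : FC N) :
    thetaC (N * ℓ) (heckeAlphaBar ℂ N ℓ f) = thetaC N f := by
  have h : (thetaC (N * ℓ)).comp (heckeAlphaBar ℂ N ℓ).toRingHom = thetaC N := by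
    apply IsLocalization.ringHom_ext (nonZeroDivisors (AC N))
    ext a
    simp only [RingHom.comp_apply]
    have e : algebraMap (AC N) (FC N) a = (a : FC N) := rfl
    rw [e, thetaC_of_mem N a.2]
    have h1 : (heckeAlphaBar ℂ N ℓ).toRingHom (a : FC N) = heckeAlphaBar ℂ N ℓ (a : FC N) := rfl
    rw [h1, thetaC_of_mem (N * ℓ) (alpha_mem_AC N ℓ a.2)]
    exact congrArg (algebraMap Hol Mer) (Subtype.ext (ThetaC_alpha N ℓ _))
  exact congrArg (fun φ : FC N →+* Mer => φ f) h

/-- The conjugate embedding of `FC (N ℓ)` attached to `γ ∈ SL(2, ℤ)`. -/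
def conjEmb (γ : SL(2, ℤ)) : FC (N * ℓ) →+* Mer := (merComp γ).comp (thetaC (N * ℓ))

@[simp]
theorem conjEmb_apply (γ : SL(2, ℤ)) (x : FC (N * ℓ)) :
    conjEmb N ℓ γ x = merComp γ (thetaC (N * ℓ) x) := rfl

/-- For `γ ∈ Γ₀(N)` the conjugate embedding extends `thetaC N` along `α`. -/
theorem conjEmb_alpha {γ : SL(2, ℤ)} (hγ : γ ∈ CongruenceSubgroup.Gamma0 N) (f : FC N) :
    conjEmb N ℓ γ (heckeAlphaBar ℂ N ℓ f) = thetaC N f := by
  rw [conjEmb_apply, thetaC_alpha, merComp_thetaC N hγ]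

/-- Two conjugate embeddings agree (already on `j(q^(N ℓ))`) only for the same
`Γ₀(N ℓ)`-coset. -/
theorem mem_Gamma0_of_conjEmb_eq {γ₁ γ₂ : SL(2, ℤ)}
    (h : conjEmb N ℓ γ₁ (jdC (N * ℓ) (N * ℓ) dvd_rfl) =
      conjEmb N ℓ γ₂ (jdC (N * ℓ) (N * ℓ) dvd_rfl)) :
    γ₁ * γ₂⁻¹ ∈ CongruenceSubgroup.Gamma0 (N * ℓ) := by
  have hmem := jdC_mem_AC (N * ℓ) (N * ℓ) dvd_rfl
  rw [conjEmb_apply, conjEmb_apply, thetaC_of_mem (N * ℓ) hmem, merComp_algebraMap,
    merComp_algebraMap] at h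
  have h2 := IsFractionRing.injective Hol Mer h
  have key := (thetaConjC_jdC_eq_iff (N * ℓ) γ₁⁻¹ γ₂⁻¹).mp (by
    funext τ
    have := congrArg (fun k : Hol => (k : ℍ → ℂ) τ) h2
    simpa [thetaConjC] using this)
  simpa using key

variable {N ℓ} in
/-- **NORM-AN core.** The norm along `α` is the product of the conjugates over the
`Γ₀(N ℓ)`-cosets of `Γ₀(N)`. -/
theorem thetaC_normAlong_eq_prod {ι : Type*} [Fintype ι] (δ : ι → SL(2, ℤ))
    (hδ : ∀ i, δ i ∈ CongruenceSubgroup.Gamma0 N)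
    (hinj : ∀ i i', δ i * (δ i')⁻¹ ∈ CongruenceSubgroup.Gamma0 (N * ℓ) → i = i')
    (hcard : Fintype.card ι = finrankAlong ℂ (heckeAlphaBar ℂ N ℓ))
    (x : FC (N * ℓ)) :
    thetaC N (normAlong (heckeAlphaBar ℂ N ℓ) x) =
      ∏ i, merComp (δ i) (thetaC (N * ℓ) x) := by
  haveI : CharZero (FC N) :=
    charZero_of_injective_algebraMap (algebraMap ℂ (FC N)).injective
  have h := normAlong_eq_prod (heckeAlphaBar ℂ N ℓ) (thetaC N)
    (fun i => conjEmb N ℓ (δ i)) (fun i a => conjEmb_alpha N ℓ (hδ i) a)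
    (fun i i' hii' => hinj i i' (mem_Gamma0_of_conjEmb_eq N ℓ
      (congrArg (fun φ : FC (N * ℓ) →+* Mer => φ (jdC (N * ℓ) (N * ℓ) dvd_rfl)) hii')))
    hcard x
  simpa using h

end Fermat.Agent.S29.H90
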