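/-
S29 / Stage 3, package (O): the lifting lemma for general `n`.

For `Γ ≤ SL(2,ℤ)` of finite index with `-1 ∈ Γ`, `m ≥ 1`, every homomorphism `χ : Γ → ℤ/m` which
kills the parabolic elements (`trace ^ 2 = 4`) and the elements of finite order is the reduction
mod `m` of a parabolic homomorphism `Γ → ℤ`:

  `Hom_{par, ell}(Γ, ℤ/m) = L / m L`,  `L = parabolicHoms ℤ Γ ℤ`.

* `exists_isBdry_sub_smul` : the orbit lemma of `S41/H98_PermPD2` modulo `m`;
* `sum_orbits_gen` : decomposition of a sum over `G ⧸ Γ` along the orbits of a cyclic group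
  (any commutative monoid of values);
* `exists_cob_of_period` : a cocycle `f` with values in `Cos Γ → ZMod m` such that
  `f (t ^ |O|) = 0` on every `⟨t⟩`-orbit `O` has `f t = t • y - y`;
* `exists_rep_isWit_mod` : a homomorphism `χ : Γ → ZMod m` killing parabolic and finite order
  elements is represented by a parabolic vector of the permutation model over `ZMod m`;
* `exists_parabolicHom_lift` : **the lifting lemma**;
* `isParabolicHom_castHom`, `castHom_apply_eq_zero_of_isOfFinOrder` : the (trivial) converse;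
* `exists_expChar_eq` : the same in multiplicative form, with helper85's `expChar`:
  a character `χ : Γ → C` with values in `⟨ζ⟩` (`ζ` a primitive `m`-th root of unity), trivial on
  parabolic and on finite order elements, is `expChar ζ x` for some `x ∈ L`;
* `expChar_surjective_iff` : packaged form.
-/
import Mathlib
import Fermat.Prelude.Def_ModularCurve_PeriodMap
import Fermat.Agent.S41.H98_PDFinal
import Fermat.Agent.S41.H43_CuspSum
import Fermat.Agent.S29.H85_ExpChar

set_option autoImplicit false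
set_option linter.unusedSectionVars false

namespace Fermat.Agent.S29.H98

open scoped MatrixGroups
open ModularCurve.Period
open Fermat.Agent.S41.H98

/-! ### the orbit lemma modulo `m` -/

section PermA

variable {D : Type*} [Fintype D] [DecidableEq D] (σ μ : Equiv.Perm D)

/-- **orbit lemma modulo `m`**: a vector whose pairings with all `⟨σ, μ⟩`-invariant vectors are
divisible by `m` is a boundary modulo `m`. -/
theorem exists_isBdry_sub_smul (m : ℤ) (r : D → ℤ)
    (h : ∀ c : D → ℤ, act ℤ σ c = c → act ℤ μ c = c → m ∣ dot ℤ r c) :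
    ∃ z : D → ℤ, IsBdry σ μ (r - m • z) := by
  classical
  have hσ : σ ∈ Subgroup.closure ({σ, μ} : Set (Equiv.Perm D)) :=
    Subgroup.subset_closure (Set.mem_insert _ _)
  have hμ : μ ∈ Subgroup.closure ({σ, μ} : Set (Equiv.Perm D)) :=
    Subgroup.subset_closure (Set.mem_insert_of_mem _ rfl)
  have h1 : r = ∑ x, r x • ((Pi.single x (1 : ℤ) : D → ℤ) - (Pi.single (orep σ μ x) (1 : ℤ) : D → ℤ))
      + ∑ x, r x • (Pi.single (orep σ μ x) (1 : ℤ) : D → ℤ) := by
    rw [← Finset.sum_add_distrib]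
    funext y
    rw [Finset.sum_apply]
    simp only [smul_sub, sub_add_cancel, Pi.smul_apply, smul_eq_mul]
    rw [Finset.sum_eq_single y]
    · rw [Pi.single_eq_same, mul_one]
    · intro x _ hx
      rw [Pi.single_eq_of_ne' hx, mul_zero]
    · intro hy
      exact absurd (Finset.mem_univ y) hy
  have h2 : ∀ y, m ∣ (∑ x, r x • (Pi.single (orep σ μ x) (1 : ℤ) : D → ℤ)) y := by
    intro y
    rw [Finset.sum_apply]
    have hc := h (fun x => if orep σ μ x = y then 1 else 0) ?_ ?_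
    · rw [dot_apply] at hc
      have e : ∑ x, (r x • (Pi.single (orep σ μ x) (1 : ℤ) : D → ℤ)) y
          = ∑ x, r x * (if orep σ μ x = y then 1 else 0) := by
        refine Finset.sum_congr rfl fun x _ => ?_
        rw [Pi.smul_apply, smul_eq_mul]
        congr 1
        by_cases hxy : orep σ μ x = y
        · rw [if_pos hxy, hxy, Pi.single_eq_same]
        · rw [if_neg hxy, Pi.single_eq_of_ne' hxy]
      rw [e]
      exact hc
    · funext x
      rw [act_apply]
      have : orep σ μ (σ.symm x) = orep σ μ x :=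
        orep_smul σ μ σ⁻¹ (Subgroup.inv_mem _ hσ) x
      rw [this]
    · funext x
      rw [act_apply]
      have : orep σ μ (μ.symm x) = orep σ μ x :=
        orep_smul σ μ μ⁻¹ (Subgroup.inv_mem _ hμ) x
      rw [this]
  choose z hz using h2
  refine ⟨z, ?_⟩
  have h3 : m • z = ∑ x, r x • (Pi.single (orep σ μ x) (1 : ℤ) : D → ℤ) := by
    funext y
    rw [Pi.smul_apply, smul_eq_mul, ← hz y]
  have h4 : r - m • z
      = ∑ x, r x • ((Pi.single x (1 : ℤ) : D → ℤ) - (Pi.single (orep σ μ x) (1 : ℤ) : D → ℤ)) := by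
    rw [h3]
    exact sub_eq_of_eq_add h1
  rw [h4]
  apply isBdry_sum
  intro x _
  apply IsBdry.zsmul
  obtain ⟨g, hg, hgx⟩ := orep_rel σ μ x
  have := (isBdry_act_sub σ μ g hg (Pi.single x 1)).neg σ μ
  rw [act_single, hgx] at this
  convert this using 1
  abel

end PermA

/-! ### sums over the orbits of a cyclic group -/

section Orbits

open MulAction Subgroup

theorem sum_orbits_gen {G : Type*} [Group G] (Γ : Subgroup G) [Γ.FiniteIndex] [Fintype (G ⧸ Γ)]
    (t : G) [Fintype (Quotient (orbitRel (zpowers t) (G ⧸ Γ)))] {M : Type*} [AddCommMonoid M]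
    (F : G ⧸ Γ → M) :
    ∑ q : Quotient (orbitRel (zpowers t) (G ⧸ Γ)),
      ∑ i ∈ Finset.range (Function.minimalPeriod (t • ·) q.out), F (t ^ i • q.out) =
    ∑ x, F x := by
  classical
  calc _ = ∑ q : Quotient (orbitRel (zpowers t) (G ⧸ Γ)),
        ∑ k : ZMod (Function.minimalPeriod (t • ·) q.out), F (t ^ (ZMod.cast k : ℤ) • q.out) := by
        refine Fintype.sum_congr _ _ fun q => ?_
        rw [Fermat.Agent.S41.H43.sum_zmod_cast (fun k : ℤ => F (t ^ k • q.out))]
        simp only [zpow_natCast]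
    _ = ∑ p : Σ q : orbitRel.Quotient (zpowers t) (G ⧸ Γ),
          ZMod (Function.minimalPeriod (t • ·) q.out),
          F ((quotientEquivSigmaZMod Γ t).symm p) := by
        rw [Fintype.sum_sigma]
        rfl
    _ = ∑ x, F x := (quotientEquivSigmaZMod Γ t).symm.sum_comp F

end Orbits

/-! ### the coboundary criterion -/

section Criterion

variable (Γ : Subgroup SL(2, ℤ)) [Γ.FiniteIndex]

theorem pow_minimalPeriod_smul (t : SL(2, ℤ)) (x : Cos Γ) :
    t ^ Function.minimalPeriod (t • ·) x • x = x := by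
  rw [MulAction.pow_smul_eq_iff_minimalPeriod_dvd]

/-- an invariant vector is constant along the orbits. -/
theorem apply_pow_smul_of_gact_eq {A : Type*} [AddCommGroup A] (t : SL(2, ℤ)) {c : Cos Γ → A}
    (hc : gact Γ t c = c) (i : ℕ) (x : Cos Γ) : c (t ^ i • x) = c x := by
  have h1 : ∀ y : Cos Γ, c (t • y) = c y := by
    intro y
    have := congrFun hc (t • y)
    rw [gact_apply, inv_smul_smul] at this
    exact this.symm
  induction i with
  | zero => rw [pow_zero, one_smul]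
  | succ i ih => rw [pow_succ', mul_smul, h1, ih]

/-- **the coboundary criterion**: a cocycle `f` with values in `Cos Γ → ZMod m` such that
`f (t ^ |O|)` vanishes on every `⟨t⟩`-orbit `O` satisfies `f t = t • y - y`. -/
theorem exists_cob_of_period (m : ℕ) [NeZero m] {f : SL(2, ℤ) → Cos Γ → ZMod m}
    (hf : IsCocycle Γ f) (t : SL(2, ℤ))
    (h : ∀ x : Cos Γ, f (t ^ Function.minimalPeriod (t • ·) x) x = 0) :
    ∃ y : Cos Γ → ZMod m, f t = gact Γ t y - y := by
  classical
  let _ : Fintype (Cos Γ) := cosFintype Γ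
  -- the orbit sums vanish
  have horb : ∀ x : Cos Γ,
      ∑ i ∈ Finset.range (Function.minimalPeriod (t • ·) x), f t (t ^ i • x) = 0 := by
    intro x
    rw [← Fermat.Agent.S41.H43.sum_range_inv_smul t x _ (pow_minimalPeriod_smul Γ t x) (f t)]
    have h1 := congrFun (Fermat.Agent.S41.H58.isCocycle_map_pow hf t
      (Function.minimalPeriod (t • ·) x)) x
    rw [h x, Finset.sum_apply] at h1
    rw [h1]
    rfl
  -- pairing with invariant vectors
  have hpair : ∀ c : Cos Γ → ZMod m, gact Γ t c = c → ∑ x, f t x * c x = 0 := by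
    intro c hc
    let _ : Fintype (Quotient (MulAction.orbitRel (Subgroup.zpowers t) (Cos Γ))) :=
      Fintype.ofFinite _
    rw [← sum_orbits_gen Γ t (fun x => f t x * c x)]
    refine Finset.sum_eq_zero fun q _ => ?_
    have : ∀ i ∈ Finset.range (Function.minimalPeriod (t • ·) q.out),
        f t (t ^ i • q.out) * c (t ^ i • q.out) = f t (t ^ i • q.out) * c q.out := by
      intro i _
      rw [apply_pow_smul_of_gact_eq Γ t hc]
    rw [Finset.sum_congr rfl this, ← Finset.sum_mul, horb, zero_mul]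
  -- the orbit lemma modulo `m`
  have key : ∀ (k : SL(2, ℤ)) (A : Type) [CommRing A] (v : Cos Γ → A),
      gact Γ k v = act A (MulAction.toPerm k) v := fun _ _ _ _ => rfl
  obtain ⟨z, a, b, hab⟩ := exists_isBdry_sub_smul (1 : Equiv.Perm (Cos Γ)) (MulAction.toPerm t)
    (m : ℤ) (vlft m (f t)) (by
      intro c _ hc
      have hc' : gact Γ t (red m c) = red m c := by
        rw [key, ← red_act, hc]
      have h1 := hpair (red m c) hc'
      have h2 := dot_red m (vlft m (f t)) c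
      rw [red_vlft, dot_apply, h1] at h2
      exact (ZMod.intCast_zmod_eq_zero_iff_dvd _ _).mp h2.symm)
  refine ⟨red m (a + b), ?_⟩
  have h3 := congrArg (red m) hab
  rw [red_sub, red_smul_self, sub_zero, red_vlft, red_add, red_sub, red_sub, red_act, red_act,
    act_one, ← key, ← key] at h3
  rw [h3, red_add, gact_add]
  abel

end Criterion

/-! ### representing vectors modulo `m` -/

section RepMod

open Fermat.Agent.S41.H58

variable (Γ : Subgroup SL(2, ℤ)) [Γ.FiniteIndex] {A : Type*} [AddCommGroup A]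

/-- the value of a cocycle at a stabilising element, computed at the base coset. -/
theorem cocycle_apply_eq_base {f : SL(2, ℤ) → Cos Γ → A} (hf : IsCocycle Γ f)
    {χ : Additive Γ →+ A} (hb : ∀ γ : Γ, f γ (base Γ) = χ (Additive.ofMul γ))
    (s : SL(2, ℤ)) (x : Cos Γ) (hs : s • x = x) :
    ∃ hmem : (Quotient.out x : SL(2, ℤ))⁻¹ * s * Quotient.out x ∈ Γ,
      f s x = χ (Additive.ofMul (⟨_, hmem⟩ : Γ)) := by
  have hs' : s • (Quotient.out x : SL(2, ℤ)) • base Γ = (Quotient.out x : SL(2, ℤ)) • base Γ := by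
    rw [out_smul_base, hs]
  have hmem : (Quotient.out x : SL(2, ℤ))⁻¹ * s * Quotient.out x ∈ Γ := by
    rw [← smul_base_eq_iff, mul_smul, mul_smul, hs', inv_smul_smul]
  refine ⟨hmem, ?_⟩
  have hc := isCocycle_conj_base hf (Quotient.out x) s hs'
  rw [out_smul_base] at hc
  rw [← hc]
  exact hb ⟨_, hmem⟩

/-- if `t` has finite order and `χ` kills the elements of finite order, the cocycle vanishes at
the orbit periods of `t`. -/
theorem cocycle_period_eq_zero_of_finOrder {f : SL(2, ℤ) → Cos Γ → A} (hf : IsCocycle Γ f)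
    {χ : Additive Γ →+ A} (hb : ∀ γ : Γ, f γ (base Γ) = χ (Additive.ofMul γ))
    (hfin : ∀ γ : Γ, IsOfFinOrder γ → χ (Additive.ofMul γ) = 0)
    (t : SL(2, ℤ)) (k : ℕ) (hk : 0 < k) (htk : t ^ k = 1) (x : Cos Γ) :
    f (t ^ Function.minimalPeriod (t • ·) x) x = 0 := by
  obtain ⟨hmem, he⟩ := cocycle_apply_eq_base Γ hf hb _ x (pow_minimalPeriod_smul Γ t x)
  rw [he]
  apply hfin
  rw [isOfFinOrder_iff_pow_eq_one]
  refine ⟨k, hk, Subtype.ext ?_⟩
  rw [Subgroup.coe_pow, Subgroup.coe_one]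
  change ((Quotient.out x : SL(2, ℤ))⁻¹ * t ^ Function.minimalPeriod (t • ·) x
    * Quotient.out x) ^ k = 1
  have hconj : ∀ (h a : SL(2, ℤ)) (j : ℕ), (h⁻¹ * a * h) ^ j = h⁻¹ * a ^ j * h := by
    intro h a j
    induction j with
    | zero => simp
    | succ j ih =>
      rw [pow_succ, ih, pow_succ]
      group
  rw [hconj, ← pow_mul, mul_comm, pow_mul, htk, one_pow, mul_one, inv_mul_cancel]

/-- if `χ` kills the parabolic elements, the cocycle vanishes at the orbit periods of `T`. -/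
theorem cocycle_period_eq_zero_of_par {f : SL(2, ℤ) → Cos Γ → A} (hf : IsCocycle Γ f)
    {χ : Additive Γ →+ A} (hb : ∀ γ : Γ, f γ (base Γ) = χ (Additive.ofMul γ))
    (hpar : IsParabolicHom Γ χ) (x : Cos Γ) :
    f (mT ^ Function.minimalPeriod (mT • ·) x) x = 0 := by
  obtain ⟨hmem, he⟩ := cocycle_apply_eq_base Γ hf hb _ x (pow_minimalPeriod_smul Γ mT x)
  rw [he]
  apply hpar
  change ((((Quotient.out x : SL(2, ℤ))⁻¹ * mT ^ Function.minimalPeriod (mT • ·) x
    * Quotient.out x : SL(2, ℤ)) : Matrix (Fin 2) (Fin 2) ℤ)).trace ^ 2 = 4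
  rw [trace_conj_mT_pow]
  norm_num

/-- **representation modulo `m`**: a homomorphism `χ : Γ → ZMod m` killing the parabolic elements
and the elements of finite order is represented by a parabolic vector of the permutation model
over `ZMod m`. -/
theorem exists_rep_isWit_mod (hneg : (-1 : SL(2, ℤ)) ∈ Γ) (m : ℕ) [NeZero m]
    (χ : Additive Γ →+ ZMod m) (hpar : IsParabolicHom Γ χ)
    (hfin : ∀ γ : Γ, IsOfFinOrder γ → χ (Additive.ofMul γ) = 0) :
    ∃ v w : Cos Γ → ZMod m, (modelData Γ hneg (ZMod m)).IsWit v w ∧ Rep Γ χ v := by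
  have hF := isCocycle_shap Γ χ
  -- step 1 : kill `F U`
  obtain ⟨m0, hm0⟩ := exists_cob_of_period Γ m hF mU
    (cocycle_period_eq_zero_of_finOrder Γ hF (shap_base Γ χ) hfin mU 3 (by norm_num)
      mU_pow_three)
  obtain ⟨f, hfdef⟩ : ∃ f : SL(2, ℤ) → Cos Γ → ZMod m,
      f = fun g => shap Γ χ g - (gact Γ g m0 - m0) := ⟨_, rfl⟩
  have hf : IsCocycle Γ f := by
    rw [hfdef]
    exact isCocycle_sub hF (Fermat.Agent.S41.H58.isCocycle_cob Γ m0)
  have hfU : f mU = 0 := by
    rw [hfdef]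
    change shap Γ χ mU - (gact Γ mU m0 - m0) = 0
    rw [hm0, sub_self]
  have hfb : ∀ γ : Γ, f γ (base Γ) = χ (Additive.ofMul γ) := by
    intro γ
    have hx : (γ : SL(2, ℤ))⁻¹ • base Γ = base Γ := by
      rw [inv_smul_eq_iff, smul_base]
    rw [hfdef]
    change shap Γ χ γ (base Γ) - (m0 ((γ : SL(2, ℤ))⁻¹ • base Γ) - m0 (base Γ)) = _
    rw [hx, sub_self, sub_zero, shap_base]
  -- step 2 : `f S = S • v - v`
  obtain ⟨v, hv⟩ := exists_cob_of_period Γ m hf mS
    (cocycle_period_eq_zero_of_finOrder Γ hf hfb hfin mS 4 (by norm_num) mS_pow_four)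
  -- step 3 : `f T = T • y - y`
  obtain ⟨y, hy⟩ := exists_cob_of_period Γ m hf mT
    (cocycle_period_eq_zero_of_par Γ hf hfb hpar)
  have hT : f mT = gact Γ mU (gact Γ mS v) - gact Γ mU v := by
    rw [mT_eq, hf, hfU, zero_add, hv, gact_sub]
  refine ⟨v, v - y, ?_, f, hf, hfU, hv, fun γ => (hfb γ).symm⟩
  rw [modelData_isWit_iff]
  have e : gact Γ mT v = gact Γ mU (gact Γ mS v) := by rw [mT_eq, gact_mul]
  rw [gact_sub, e]
  rw [hT] at hy
  have e2 : gact Γ mU (gact Γ mS v) - gact Γ mT y - (v - y)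
      = gact Γ mU (gact Γ mS v) - v - (gact Γ mT y - y) := by abel
  rw [e2, ← hy]
  abel

end RepMod

/-! ### the lifting lemma -/

section Lift

open Fermat.Agent.S41.H58

variable (Γ : Subgroup SL(2, ℤ))

/-- two cocycles agreeing at `S` and `U` are equal. -/
theorem cocycle_ext {A : Type*} [AddCommGroup A] {f f' : SL(2, ℤ) → Cos Γ → A}
    (hf : IsCocycle Γ f) (hf' : IsCocycle Γ f') (hS : f mS = f' mS) (hU : f mU = f' mU) :
    f = f' := by
  have hT : f mT = f' mT := by rw [mT_eq, hf, hf', hS, hU]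
  funext g
  have hg : g ∈ Subgroup.closure ({mS, mT} : Set SL(2, ℤ)) := by
    rw [closure_mS_mT]
    trivial
  induction hg using Subgroup.closure_induction with
  | mem g hg =>
    rcases hg with rfl | hg
    · exact hS
    · rw [Set.mem_singleton_iff] at hg
      subst hg
      exact hT
  | one => rw [isCocycle_map_one hf, isCocycle_map_one hf']
  | mul g h _ _ ihg ihh => rw [hf, hf', ihg, ihh]
  | inv g _ ih => rw [isCocycle_map_inv hf, isCocycle_map_inv hf', ih]

variable [Γ.FiniteIndex]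

/-- **The lifting lemma.**  Every homomorphism `χ : Γ → ℤ/m` killing the parabolic elements and
the elements of finite order is the reduction modulo `m` of a parabolic homomorphism `Γ → ℤ`. -/
theorem exists_parabolicHom_lift (hneg : (-1 : SL(2, ℤ)) ∈ Γ) (m : ℕ) [NeZero m]
    (χ : Additive Γ →+ ZMod m) (hpar : IsParabolicHom Γ χ)
    (hfin : ∀ γ : Γ, IsOfFinOrder γ → χ (Additive.ofMul γ) = 0) :
    ∃ φ : parabolicHoms ℤ Γ ℤ, ∀ γ : Γ,
      (((φ : Additive Γ →+ ℤ) (Additive.ofMul γ) : ℤ) : ZMod m) = χ (Additive.ofMul γ) := by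
  classical
  let _ : Fintype (Cos Γ) := cosFintype Γ
  obtain ⟨v', w', hwit, f', hf', hU', hS', hb'⟩ := exists_rep_isWit_mod Γ hneg m χ hpar hfin
  obtain ⟨v, w, hw, hv, -⟩ := @exists_lift_isWit (Cos Γ) (cosFintype Γ) (Classical.decEq _)
    (MulAction.toPerm mS) (MulAction.toPerm mU) (fun x => mS_smul_mS_smul Γ hneg x) m _ v' w' hwit
  obtain ⟨φ, f, hf, hU, hS, hb⟩ := exists_parabolicHom_of_isWit Γ hneg (v := v) (w := w) hw
  refine ⟨φ, fun γ => ?_⟩
  -- the reduction of `f`
  have hfr : IsCocycle Γ (fun g => red m (f g)) := by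
    intro g h
    funext x
    change ((f (g * h) x : ℤ) : ZMod m) = ((f g x : ℤ) : ZMod m) + ((f h (g⁻¹ • x) : ℤ) : ZMod m)
    rw [hf g h, Pi.add_apply, gact_apply, Int.cast_add]
  have hfrU : (fun g => red m (f g)) mU = f' mU := by
    change red m (f mU) = f' mU
    rw [hU, hU', red_zero]
  have hfrS : (fun g => red m (f g)) mS = f' mS := by
    change red m (f mS) = f' mS
    rw [hS, hS', red_sub, ← hv]
    rfl
  have heq := cocycle_ext Γ hfr hf' hfrS hfrU
  rw [hb γ, hb' γ, ← heq]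
  rfl

/-- integer valued homomorphisms kill the elements of finite order. -/
theorem hom_apply_eq_zero_of_isOfFinOrder {G : Type*} [Group G] (φ : Additive G →+ ℤ) {γ : G}
    (hγ : IsOfFinOrder γ) : φ (Additive.ofMul γ) = 0 := by
  obtain ⟨n, hn, hγn⟩ := hγ.exists_pow_eq_one
  have h1 : (n : ℤ) * φ (Additive.ofMul γ) = 0 := by
    have := congrArg (fun g : G => φ (Additive.ofMul g)) hγn
    simpa [ofMul_pow, map_nsmul] using this
  rcases mul_eq_zero.mp h1 with h | h
  · exact absurd (by exact_mod_cast h) hn.ne'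
  · exact h

/-- **`Hom_{par, ell}(Γ, ℤ/m) = L / m L`** : a homomorphism `Γ → ℤ/m` is the reduction of a
parabolic homomorphism `Γ → ℤ` iff it kills the parabolic and the finite order elements. -/
theorem exists_parabolicHom_lift_iff (hneg : (-1 : SL(2, ℤ)) ∈ Γ) (m : ℕ) [NeZero m]
    (χ : Additive Γ →+ ZMod m) :
    (∃ φ : parabolicHoms ℤ Γ ℤ, ∀ γ : Γ,
      (((φ : Additive Γ →+ ℤ) (Additive.ofMul γ) : ℤ) : ZMod m) = χ (Additive.ofMul γ)) ↔
    (IsParabolicHom Γ χ ∧ ∀ γ : Γ, IsOfFinOrder γ → χ (Additive.ofMul γ) = 0) := by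
  constructor
  · rintro ⟨φ, hφ⟩
    refine ⟨fun γ hγ => ?_, fun γ hγ => ?_⟩
    · rw [← hφ γ, φ.2 γ hγ, Int.cast_zero]
    · rw [← hφ γ, hom_apply_eq_zero_of_isOfFinOrder _ hγ, Int.cast_zero]
  · rintro ⟨hpar, hfin⟩
    exact exists_parabolicHom_lift Γ hneg m χ hpar hfin

end Lift

/-! ### multiplicative form: the image of the Kummer bridge `expChar` -/

section ExpChar

open Fermat.Agent.S29.H85

variable (Γ : Subgroup SL(2, ℤ)) [Γ.FiniteIndex] {C : Type*} [CommGroup C]

/-- `expChar (ζ ^ j) φ = (expChar ζ φ) ^ j` : the compatibility `λ_n = j • λ_{n j}`. -/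
theorem expChar_pow_left {G : Type*} [Group G] (ζ : C) (j : ℕ) (φ : Additive G →+ ℤ) :
    expChar (ζ ^ j) φ = expChar ζ φ ^ j := by
  ext γ
  rw [MonoidHom.pow_apply, expChar_apply, expChar_apply, ← zpow_natCast, ← zpow_natCast,
    ← zpow_mul, ← zpow_mul, mul_comm]

/-- **The image of the Kummer bridge.**  Let `ζ` be a primitive `m`-th root of unity.  A character
`χ : Γ → C` with values in `⟨ζ⟩`, trivial on the parabolic elements and on the elements of finite
order, is `expChar ζ x` for some `x ∈ L = parabolicHoms ℤ Γ ℤ`. -/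
theorem exists_expChar_eq (hneg : (-1 : SL(2, ℤ)) ∈ Γ) {ζ : C} {m : ℕ} [NeZero m]
    (hζ : IsPrimitiveRoot ζ m) (χ : Γ →* C) (hval : ∀ γ : Γ, χ γ ∈ Subgroup.zpowers ζ)
    (hpar : ∀ γ : Γ, ((γ : SL(2, ℤ)) : Matrix (Fin 2) (Fin 2) ℤ).trace ^ 2 = 4 → χ γ = 1)
    (hfin : ∀ γ : Γ, IsOfFinOrder γ → χ γ = 1) :
    ∃ x : parabolicHoms ℤ Γ ℤ, expChar ζ (x : Additive Γ →+ ℤ) = χ := by
  have hk : ∀ γ : Γ, ∃ k : ℤ, ζ ^ k = χ γ := fun γ => Subgroup.mem_zpowers_iff.mp (hval γ)
  choose k hk using hk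
  have hcast : ∀ a b : ℤ, ζ ^ a = ζ ^ b → ((a : ℤ) : ZMod m) = ((b : ℤ) : ZMod m) := by
    intro a b hab
    rw [ZMod.intCast_eq_intCast_iff_dvd_sub]
    rw [← hζ.zpow_eq_one_iff_dvd, zpow_sub, hab, mul_inv_cancel]
  let χ' : Additive Γ →+ ZMod m := AddMonoidHom.mk'
    (fun g => ((k (Additive.toMul g) : ℤ) : ZMod m)) (fun a b => by
      rw [← Int.cast_add]
      apply hcast
      rw [zpow_add, hk, hk, hk, toMul_add, map_mul])
  have hχ' : ∀ γ : Γ, χ' (Additive.ofMul γ) = ((k γ : ℤ) : ZMod m) := fun γ => rfl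
  have hone : ∀ γ : Γ, χ γ = 1 → χ' (Additive.ofMul γ) = 0 := by
    intro γ h1
    rw [hχ', ← Int.cast_zero]
    apply hcast
    rw [hk, h1, zpow_zero]
  obtain ⟨x, hx⟩ := exists_parabolicHom_lift Γ hneg m χ' (fun γ hγ => hone γ (hpar γ hγ))
    (fun γ hγ => hone γ (hfin γ hγ))
  refine ⟨x, ?_⟩
  ext γ
  rw [expChar_apply, ← hk γ]
  have h2 := hx γ
  rw [hχ', ZMod.intCast_eq_intCast_iff_dvd_sub, ← hζ.zpow_eq_one_iff_dvd, zpow_sub] at h2
  exact (mul_inv_eq_one.mp h2).symm

/-- characterisation of the image of `x ↦ expChar ζ x` on `L`. -/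
theorem exists_expChar_eq_iff (hneg : (-1 : SL(2, ℤ)) ∈ Γ) {ζ : C} {m : ℕ} [NeZero m]
    (hζ : IsPrimitiveRoot ζ m) (χ : Γ →* C) :
    (∃ x : parabolicHoms ℤ Γ ℤ, expChar ζ (x : Additive Γ →+ ℤ) = χ) ↔
      ((∀ γ : Γ, χ γ ∈ Subgroup.zpowers ζ) ∧
        (∀ γ : Γ, ((γ : SL(2, ℤ)) : Matrix (Fin 2) (Fin 2) ℤ).trace ^ 2 = 4 → χ γ = 1) ∧
        (∀ γ : Γ, IsOfFinOrder γ → χ γ = 1)) := by
  constructor
  · rintro ⟨x, rfl⟩
    refine ⟨fun γ => ?_, fun γ hγ => ?_, fun γ hγ => ?_⟩
    · rw [expChar_apply]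
      exact Subgroup.zpow_mem_zpowers ζ _
    · exact expChar_apply_eq_one_of_trace ζ x.2 hγ
    · exact expChar_apply_eq_one_of_isOfFinOrder ζ _ hγ
  · rintro ⟨hval, hpar, hfin⟩
    exact exists_expChar_eq Γ hneg hζ χ hval hpar hfin

/-- the same for characters with values in the units of a domain: it suffices that `χ ^ m = 1`. -/
theorem exists_expChar_eq_of_pow_eq_one (hneg : (-1 : SL(2, ℤ)) ∈ Γ) {R : Type*} [CommRing R]
    [IsDomain R] {ζ : Rˣ} {m : ℕ} [NeZero m] (hζ : IsPrimitiveRoot ζ m) (χ : Γ →* Rˣ)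
    (hpow : ∀ γ : Γ, χ γ ^ m = 1)
    (hpar : ∀ γ : Γ, ((γ : SL(2, ℤ)) : Matrix (Fin 2) (Fin 2) ℤ).trace ^ 2 = 4 → χ γ = 1)
    (hfin : ∀ γ : Γ, IsOfFinOrder γ → χ γ = 1) :
    ∃ x : parabolicHoms ℤ Γ ℤ, expChar ζ (x : Additive Γ →+ ℤ) = χ := by
  refine exists_expChar_eq Γ hneg hζ χ (fun γ => ?_) hpar hfin
  rw [hζ.zpowers_eq, mem_rootsOfUnity]
  exact hpow γ

end ExpChar

end Fermat.Agent.S29.H98
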